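import Mathlib
import Fermat.Prelude.Def_GroupCohomology_ContinuousUnramified

/-!
# S55 interface, part 1: the family of levels

Field-theoretic facts about the family of finite subextensions of `ℚ̄/ℚ` unramified outside `S`
used by the frozen definitions `IsLevelConstantS₁/₂`:

* `pt_mem_inertia_iff` : membership in `A.inertiaSubgroupIn ℚ`;
* `pt_inertia_conj` : conjugates of inertia subgroups are inertia subgroups (of primes over the
  same rational prime);
* `pt_level_of_open_normal` : an open normal subgroup containing all inertia subgroups outside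
  `S` is the fixing subgroup of a finite Galois extension unramified outside `S`;
* `pt_exists_galois_level` : every level is contained in a Galois level;
* `pt_exists_splitting` : the kernel of a smooth finite-dimensional representation unramified
  outside `S` is a Galois level.
-/

set_option autoImplicit false

open scoped Pointwise

namespace Fermat.Agent.S55

local notation "Qb" => AlgebraicClosure ℚ
local notation "Γ" => (AlgebraicClosure ℚ ≃ₐ[ℚ] AlgebraicClosure ℚ)

theorem pt_qbar_isAlgebraic : Algebra.IsAlgebraic ℚ Qb := AlgebraicClosure.isAlgebraic ℚ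

attribute [local instance] pt_qbar_isAlgebraic

theorem pt_qbar_isAlgClosure : IsAlgClosure ℚ Qb := ⟨inferInstance, inferInstance⟩

attribute [local instance] pt_qbar_isAlgClosure

theorem pt_qbar_isGalois : IsGalois ℚ Qb := inferInstance

attribute [local instance] pt_qbar_isGalois

/-- Membership criterion for the inertia subgroup. -/
theorem pt_mem_inertia_iff (A : ValuationSubring Qb) (σ : Γ) :
    σ ∈ A.inertiaSubgroupIn ℚ ↔ σ • A = A ∧ ∀ a : Qb, a ∈ A → σ a - a ∈ A.nonunits := by
  constructor
  · intro h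
    obtain ⟨⟨τ, h1⟩, h2, rfl⟩ := Subgroup.mem_map.mp h
    refine ⟨h1, fun a ha => ?_⟩
    have h3 : MulSemiringAction.toRingAut (A.decompositionSubgroup ℚ) (IsLocalRing.ResidueField A)
        ⟨τ, h1⟩ = 1 := h2
    have h4 := congrArg (fun f : RingAut (IsLocalRing.ResidueField A) =>
      f (IsLocalRing.residue A ⟨a, ha⟩)) h3
    have h5 : (⟨τ, h1⟩ : A.decompositionSubgroup ℚ) • (IsLocalRing.residue A ⟨a, ha⟩) =
        IsLocalRing.residue A ⟨a, ha⟩ := h4
    rw [← IsLocalRing.ResidueField.residue_smul, ← sub_eq_zero, ← map_sub,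
      IsLocalRing.residue_eq_zero_iff, ← ValuationSubring.coe_mem_nonunits_iff] at h5
    exact h5
  · rintro ⟨h1, h2⟩
    refine Subgroup.mem_map.mpr ⟨⟨σ, h1⟩, ?_, rfl⟩
    show MulSemiringAction.toRingAut (A.decompositionSubgroup ℚ) (IsLocalRing.ResidueField A)
      ⟨σ, h1⟩ = 1
    ext x
    obtain ⟨a, rfl⟩ := IsLocalRing.residue_surjective x
    show (⟨σ, h1⟩ : A.decompositionSubgroup ℚ) • (IsLocalRing.residue A a) =
      IsLocalRing.residue A a
    rw [← IsLocalRing.ResidueField.residue_smul, ← sub_eq_zero, ← map_sub,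
      IsLocalRing.residue_eq_zero_iff, ← ValuationSubring.coe_mem_nonunits_iff]
    exact h2 a a.2

theorem pt_mem_smul_iff (A : ValuationSubring Qb) (τ : Γ) (x : Qb) :
    x ∈ τ • A ↔ τ⁻¹ x ∈ A := by
  constructor
  · rintro ⟨a, ha, rfl⟩
    show τ⁻¹ (τ a) ∈ A
    have : τ⁻¹ (τ a) = a := τ.symm_apply_apply a
    rw [this]
    exact ha
  · intro h
    refine ⟨τ⁻¹ x, h, ?_⟩
    show τ (τ⁻¹ x) = x
    exact τ.apply_symm_apply x

theorem pt_mem_nonunits_smul_iff (A : ValuationSubring Qb) (τ : Γ) (x : Qb) :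
    x ∈ (τ • A).nonunits ↔ τ⁻¹ x ∈ A.nonunits := by
  rw [ValuationSubring.mem_nonunits_iff_or, ValuationSubring.mem_nonunits_iff_or,
    pt_mem_smul_iff, map_inv₀]
  have : τ⁻¹ x = 0 ↔ x = 0 := by
    constructor
    · intro h
      have h2 : τ (τ⁻¹ x) = τ 0 := by rw [h]
      rw [map_zero] at h2
      rw [← h2]
      exact (τ.apply_symm_apply x).symm
    · rintro rfl
      exact map_zero _
  rw [this]

/-- Conjugates of valuation subrings over `q` lie over `q`. -/
theorem pt_liesOver_smul (A : ValuationSubring Qb) (τ : Γ) (q : ℕ) (h : A.LiesOverPrime q) :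
    (τ • A).LiesOverPrime q := by
  unfold ValuationSubring.LiesOverPrime at h ⊢
  rw [pt_mem_nonunits_smul_iff, map_natCast]
  exact h

/-- Conjugation of inertia subgroups. -/
theorem pt_inertia_conj (A : ValuationSubring Qb) (τ σ : Γ) (h : σ ∈ A.inertiaSubgroupIn ℚ) :
    τ * σ * τ⁻¹ ∈ (τ • A).inertiaSubgroupIn ℚ := by
  rw [pt_mem_inertia_iff] at h ⊢
  obtain ⟨h1, h2⟩ := h
  refine ⟨?_, fun b hb => ?_⟩
  · rw [mul_smul, mul_smul, inv_smul_smul, h1]
  · rw [pt_mem_smul_iff] at hb
    rw [pt_mem_nonunits_smul_iff]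
    have h3 := h2 _ hb
    have h4 : τ⁻¹ ((τ * σ * τ⁻¹) b - b) = σ (τ⁻¹ b) - τ⁻¹ b := by
      rw [map_sub]
      congr 1
      show τ⁻¹ (τ (σ (τ⁻¹ b))) = σ (τ⁻¹ b)
      exact τ.symm_apply_apply _
    rw [h4]
    exact h3

/-- A normal subgroup containing the inertia subgroups of one prime over `q`... all primes
over `q`: inertia subgroups outside `S` lie in the normal core of a level. -/
theorem pt_inertia_le_normalCore (S : Finset Nat.Primes) (H : Subgroup Γ)
    (hH : ∀ q : Nat.Primes, q ∉ S → ∀ A : ValuationSubring Qb, A.LiesOverPrime (q : ℕ) →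
      A.inertiaSubgroupIn ℚ ≤ H)
    (q : Nat.Primes) (hq : q ∉ S) (A : ValuationSubring Qb) (hA : A.LiesOverPrime (q : ℕ)) :
    A.inertiaSubgroupIn ℚ ≤ H.normalCore := by
  intro σ hσ
  rw [Subgroup.normalCore, Subgroup.mem_mk]
  intro τ
  exact hH q hq (τ • A) (pt_liesOver_smul A τ q hA) (pt_inertia_conj A τ σ hσ)

/-- An open normal subgroup containing all inertia subgroups outside `S` is the fixing subgroup
of a finite Galois extension unramified outside `S`. -/
theorem pt_level_of_open_normal (S : Finset Nat.Primes) (N : Subgroup Γ) [N.Normal]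
    (hopen : IsOpen (N : Set Γ))
    (hin : ∀ q : Nat.Primes, q ∉ S → ∀ A : ValuationSubring Qb, A.LiesOverPrime (q : ℕ) →
      A.inertiaSubgroupIn ℚ ≤ N) :
    ∃ K : IntermediateField ℚ Qb, K.IsUnramifiedOutside S ∧ IsGalois ℚ K ∧
      K.fixingSubgroup = N := by
  have hclosed : IsClosed (N : Set Γ) := N.isClosed_of_isOpen hopen
  have hfix : (IntermediateField.fixedField N).fixingSubgroup = N :=
    InfiniteGalois.fixingSubgroup_fixedField ⟨N, hclosed⟩
  refine ⟨IntermediateField.fixedField N, ⟨?_, ?_⟩, ?_, hfix⟩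
  · refine (InfiniteGalois.isOpen_iff_finite _).mp ?_
    rw [hfix]
    exact hopen
  · intro q hq A hA
    rw [hfix]
    exact hin q hq A hA
  · refine (InfiniteGalois.normal_iff_isGalois _).mp ?_
    rw [hfix]
    infer_instance

/-- Every level is contained in a Galois level. -/
theorem pt_exists_galois_level (S : Finset Nat.Primes) (F : IntermediateField ℚ Qb)
    (hF : F.IsUnramifiedOutside S) :
    ∃ K : IntermediateField ℚ Qb, K.IsUnramifiedOutside S ∧ IsGalois ℚ K ∧ F ≤ K := by
  have := hF.1
  have hopenF : IsOpen (F.fixingSubgroup : Set Γ) := F.fixingSubgroup_isOpen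
  have hfin : Finite (Γ ⧸ F.fixingSubgroup) := Subgroup.quotient_finite_of_isOpen _ hopenF
  have : F.fixingSubgroup.FiniteIndex := Subgroup.finiteIndex_of_finite_quotient
  have : F.fixingSubgroup.normalCore.FiniteIndex := inferInstance
  have hopen : IsOpen (F.fixingSubgroup.normalCore : Set Γ) := by
    apply Subgroup.isOpen_of_isClosed_of_finiteIndex
    have : (F.fixingSubgroup.normalCore : Set Γ) =
        ⋂ τ : Γ, {σ | τ * σ * τ⁻¹ ∈ F.fixingSubgroup} := by
      ext σ
      simp [Subgroup.normalCore]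
    rw [this]
    refine isClosed_iInter fun τ => ?_
    exact (F.fixingSubgroup.isClosed_of_isOpen hopenF).preimage
      ((continuous_const.mul continuous_id).mul continuous_const)
  obtain ⟨K, hK1, hK2, hK3⟩ := pt_level_of_open_normal S F.fixingSubgroup.normalCore hopen
    (pt_inertia_le_normalCore S F.fixingSubgroup hF.2)
  refine ⟨K, hK1, hK2, ?_⟩
  rw [← InfiniteGalois.fixedField_fixingSubgroup K, IntermediateField.le_iff_le, hK3]
  exact Subgroup.normalCore_le _

/-- The kernel of a smooth finite-dimensional representation unramified outside `S` is the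
fixing subgroup of a finite Galois extension unramified outside `S`. -/
theorem pt_exists_splitting {k : Type} [Field k] (S : Finset Nat.Primes) (M : Rep k Γ)
    [FiniteDimensional k M]
    (hsm : ∀ m : M, ∃ F : IntermediateField ℚ Qb, FiniteDimensional ℚ F ∧
      ∀ s ∈ F.fixingSubgroup, M.ρ s m = m)
    (hMur : ∀ q : Nat.Primes, q ∉ S → ∀ A : ValuationSubring Qb,
      A.LiesOverPrime (q : ℕ) → ∀ g ∈ A.inertiaSubgroupIn ℚ, M.ρ g = 1) :
    ∃ K : IntermediateField ℚ Qb, K.IsUnramifiedOutside S ∧ IsGalois ℚ K ∧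
      ∀ s : Γ, s ∈ K.fixingSubgroup ↔ M.ρ s = 1 := by
  classical
  let b := Module.finBasis k M
  choose F hF1 hF2 using fun i => hsm (b i)
  have hFfin : ∀ i, FiniteDimensional ℚ (F i) := hF1
  let N : Subgroup Γ := MonoidHom.ker (M.ρ : Γ →* Module.End k M)
  have hN : ∀ s : Γ, s ∈ N ↔ M.ρ s = 1 := fun s => MonoidHom.mem_ker
  have hle : (⨆ i, F i).fixingSubgroup ≤ N := by
    intro s hs
    rw [hN]
    refine b.ext fun i => ?_
    exact hF2 i s (IntermediateField.fixingSubgroup_antitone (le_iSup F i) hs)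
  have hopen : IsOpen (N : Set Γ) :=
    Subgroup.isOpen_mono hle (IntermediateField.fixingSubgroup_isOpen _)
  obtain ⟨K, hK1, hK2, hK3⟩ := pt_level_of_open_normal S N hopen (fun q hq A hA g hg =>
    (hN g).mpr (hMur q hq A hA g hg))
  exact ⟨K, hK1, hK2, fun s => by rw [hK3, hN]⟩

end Fermat.Agent.S55
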