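import Mathlib
import Fermat.Agent.S55.IfaceFields

/-!
# S55 interface, part 2: the cyclotomic character and the dual twist

* `pt_cycloChar_inertia` : the mod `p` cyclotomic character is unramified outside `p`;
* `pt_cycloChar_level` : its kernel is a Galois level unramified outside `S` when `p ∈ S`;
* `pt_dualTwist_unram`, `pt_dualTwist_smooth` : `M.dualTwist (cycloChar p)` satisfies the
  hypotheses of S55 when `M` does;
* `pt_exists_splitting_twist` : a common Galois level splitting `M`, `cycloChar p` and the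
  dual twist.
-/

set_option autoImplicit false

open ExtCitation

namespace Fermat.Agent.S55

local notation "Qb" => AlgebraicClosure ℚ
local notation "Γ" => (AlgebraicClosure ℚ ≃ₐ[ℚ] AlgebraicClosure ℚ)

/-- A root of unity lies in every valuation subring. -/
theorem pt_rootOfUnity_mem (A : ValuationSubring Qb) (n : ℕ) (hn : n ≠ 0) (u : Qb)
    (hu : u ^ n = 1) : u ∈ A := by
  rcases A.mem_or_inv_mem u with h | h
  · exact h
  · have h1 : u = (u⁻¹) ^ (n - 1) := by
      have hu0 : u ≠ 0 := by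
        rintro rfl
        rw [zero_pow hn] at hu
        exact zero_ne_one hu
      rw [inv_pow]
      apply eq_inv_of_mul_eq_one_left
      rw [← pow_succ', Nat.sub_add_cancel (Nat.pos_of_ne_zero hn), hu]
    rw [h1]
    exact pow_mem h _

theorem pt_nonunits_mul_mem (A : ValuationSubring Qb) (a b : Qb) (ha : a ∈ A.nonunits)
    (hb : b ∈ A) : a * b ∈ A.nonunits := by
  rw [ValuationSubring.mem_nonunits_iff] at ha ⊢
  rw [← ValuationSubring.valuation_le_one_iff] at hb
  rw [map_mul]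
  calc A.valuation a * A.valuation b ≤ A.valuation a * 1 := mul_le_mul' le_rfl hb
    _ = A.valuation a := mul_one _
    _ < 1 := ha

/-- Inertia at a prime `q ≠ p` acts trivially on `p`-th roots of unity. -/
theorem pt_inertia_fix_rootOfUnity (p : ℕ) [Fact p.Prime] (q : ℕ) (hq : Nat.Coprime p q)
    (A : ValuationSubring Qb) (hA : A.LiesOverPrime q) (g : Γ)
    (hg : g ∈ A.inertiaSubgroupIn ℚ) (t : Qb) (ht : t ^ p = 1) : g t = t := by
  by_contra hne
  have hp : p ≠ 0 := (Fact.out : p.Prime).ne_zero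
  have ht0 : t ≠ 0 := by
    rintro rfl
    rw [zero_pow hp] at ht
    exact zero_ne_one ht
  have htA : t ∈ A := pt_rootOfUnity_mem A p hp t ht
  have htinv : t⁻¹ ∈ A := pt_rootOfUnity_mem A p hp t⁻¹ (by rw [inv_pow, ht, inv_one])
  have hgt : (g t) ^ p = 1 := by rw [← map_pow, ht, map_one]
  have hgtA : g t ∈ A := pt_rootOfUnity_mem A p hp _ hgt
  set η : Qb := g t * t⁻¹ with hη
  have hηp : η ^ p = 1 := by rw [hη, mul_pow, hgt, inv_pow, ht, inv_one, mul_one]
  have hη1 : η ≠ 1 := by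
    intro h
    apply hne
    rw [hη] at h
    exact (mul_inv_eq_one₀ ht0).mp h
  have hηA : η ∈ A := mul_mem hgtA htinv
  have hsub : η - 1 ∈ A.nonunits := by
    have h1 := ((pt_mem_inertia_iff A g).mp hg).2 t htA
    have h2 := pt_nonunits_mul_mem A _ _ h1 htinv
    have h3 : (g t - t) * t⁻¹ = η - 1 := by
      rw [sub_mul, mul_inv_cancel₀ ht0]
    rw [h3] at h2
    exact h2
  have hsum : ∑ i ∈ Finset.range p, η ^ i = 0 := by
    have h1 : (η - 1) * ∑ i ∈ Finset.range p, η ^ i = 0 := by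
      rw [mul_geom_sum, hηp, sub_self]
    rcases mul_eq_zero.mp h1 with h | h
    · exact absurd (sub_eq_zero.mp h) hη1
    · exact h
  have hpm : (p : Qb) ∈ A.nonunits := by
    have h1 : (p : Qb) = - ∑ i ∈ Finset.range p, (η ^ i - 1) := by
      rw [Finset.sum_sub_distrib, hsum]
      simp
    rw [h1]
    refine neg_mem (sum_mem fun i _ => ?_)
    have h2 : η ^ i - 1 = (η - 1) * ∑ j ∈ Finset.range i, η ^ j := by
      rw [mul_geom_sum]
    rw [h2]
    exact pt_nonunits_mul_mem A _ _ hsub (sum_mem fun j _ => pow_mem hηA j)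
  have hqm : (q : Qb) ∈ A.nonunits := hA
  have hcop : IsCoprime (p : ℤ) (q : ℤ) := Nat.isCoprime_iff_coprime.mpr hq
  obtain ⟨a, b, hab⟩ := hcop
  have h1 : (1 : Qb) ∈ A.nonunits := by
    have h2 : (1 : Qb) = a • (p : Qb) + b • (q : Qb) := by
      have := congrArg (Int.cast : ℤ → Qb) hab
      push_cast at this
      rw [zsmul_eq_mul, zsmul_eq_mul]
      exact this.symm
    rw [h2]
    exact add_mem (zsmul_mem hpm a) (zsmul_mem hqm b)
  rw [ValuationSubring.mem_nonunits_iff, map_one] at h1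
  exact lt_irrefl _ h1

/-- An automorphism fixing all `p`-th roots of unity has trivial mod `p` cyclotomic character. -/
theorem pt_cycloChar_eq_one_of_fix (p : ℕ) [Fact p.Prime] (g : Γ)
    (h : ∀ t : Qb, t ^ p = 1 → g t = t) : cycloChar p g = 1 := by
  have : NeZero p := ⟨(Fact.out : p.Prime).ne_zero⟩
  have h1 : (1 : ZMod p) = modularCyclotomicCharacter Qb (card_rootsOfUnity_eq_self p)
      (g : Qb ≃+* Qb) := by
    apply modularCyclotomicCharacter.unique
    intro t ht
    have hval : (1 : ZMod p).val = 1 := by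
      have : Fact (1 < p) := ⟨(Fact.out : p.Prime).one_lt⟩
      exact ZMod.val_one p
    rw [hval, pow_one]
    have ht' : (t : Qb) ^ p = 1 := by
      have := (mem_rootsOfUnity p t).mp ht
      rw [← Units.val_pow_eq_pow_val, this, Units.val_one]
    exact h t ht'
  apply Units.ext
  rw [Units.val_one, h1]
  rfl

/-- The mod `p` cyclotomic character is unramified outside `p`. -/
theorem pt_cycloChar_inertia (p : ℕ) [Fact p.Prime] (q : ℕ) (hq : Nat.Coprime p q)
    (A : ValuationSubring Qb) (hA : A.LiesOverPrime q) (g : Γ)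
    (hg : g ∈ A.inertiaSubgroupIn ℚ) : cycloChar p g = 1 :=
  pt_cycloChar_eq_one_of_fix p g fun t ht => pt_inertia_fix_rootOfUnity p q hq A hA g hg t ht

/-- The mod `p` cyclotomic character is trivial on the fixing subgroup of a finite extension. -/
theorem pt_cycloChar_fin_level (p : ℕ) [Fact p.Prime] :
    ∃ F : IntermediateField ℚ Qb, FiniteDimensional ℚ F ∧
      ∀ s : Γ, s ∈ F.fixingSubgroup → cycloChar p s = 1 := by
  classical
  have hp : 0 < p := (Fact.out : p.Prime).pos
  let T : Set Qb := ↑(Polynomial.nthRootsFinset p (1 : Qb))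
  have hT : ∀ t : Qb, t ∈ T ↔ t ^ p = 1 := fun t => by
    show t ∈ (Polynomial.nthRootsFinset p (1 : Qb)) ↔ _
    rw [Polynomial.mem_nthRootsFinset hp]
  have hfinT : Finite T := Finset.finite_toSet _
  have hfd : FiniteDimensional ℚ (IntermediateField.adjoin ℚ T) :=
    IntermediateField.finiteDimensional_adjoin fun x _ =>
      (pt_qbar_isAlgebraic.isAlgebraic x).isIntegral
  refine ⟨IntermediateField.adjoin ℚ T, hfd, fun s hs => ?_⟩
  refine pt_cycloChar_eq_one_of_fix p s fun t ht => ?_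
  exact (IntermediateField.mem_fixingSubgroup_iff _ _).mp hs t
    (IntermediateField.subset_adjoin ℚ T ((hT t).mpr ht))

/-- The kernel of the mod `p` cyclotomic character is a Galois level unramified outside `S`
as soon as `p ∈ S`. -/
theorem pt_cycloChar_level (p : ℕ) [Fact p.Prime] (S : Finset Nat.Primes)
    (hpS : pPrime p ∈ S) :
    ∃ K : IntermediateField ℚ Qb, K.IsUnramifiedOutside S ∧ IsGalois ℚ K ∧
      ∀ s : Γ, s ∈ K.fixingSubgroup ↔ cycloChar p s = 1 := by
  let N : Subgroup Γ := MonoidHom.ker (cycloChar p)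
  have hN : ∀ s : Γ, s ∈ N ↔ cycloChar p s = 1 := fun s => MonoidHom.mem_ker
  obtain ⟨F, hF1, hF2⟩ := pt_cycloChar_fin_level p
  have hle : F.fixingSubgroup ≤ N := fun s hs => (hN s).mpr (hF2 s hs)
  have hopen : IsOpen (N : Set Γ) :=
    Subgroup.isOpen_mono hle (IntermediateField.fixingSubgroup_isOpen _)
  obtain ⟨K, hK1, hK2, hK3⟩ := pt_level_of_open_normal S N hopen (fun q hq A hA g hg => by
    rw [hN]
    refine pt_cycloChar_inertia p q ?_ A hA g hg
    rw [Nat.coprime_primes (Fact.out : p.Prime) q.2]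
    rintro rfl
    exact hq hpS)
  exact ⟨K, hK1, hK2, fun s => by rw [hK3, hN]⟩

/-- `M.dualTwist (cycloChar p)` is unramified outside `S` when `M` is and `p ∈ S`. -/
theorem pt_dualTwist_unram (p : ℕ) [Fact p.Prime] (S : Finset Nat.Primes) (hpS : pPrime p ∈ S)
    (M : Rep (ZMod p) Γ)
    (hMur : ∀ q : Nat.Primes, q ∉ S → ∀ A : ValuationSubring Qb,
      A.LiesOverPrime (q : ℕ) → ∀ g ∈ A.inertiaSubgroupIn ℚ, M.ρ g = 1) :
    ∀ q : Nat.Primes, q ∉ S → ∀ A : ValuationSubring Qb,
      A.LiesOverPrime (q : ℕ) → ∀ g ∈ A.inertiaSubgroupIn ℚ,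
        (M.dualTwist (cycloChar p)).ρ g = 1 := by
  intro q hq A hA g hg
  have h1 : cycloChar p g = 1 := by
    refine pt_cycloChar_inertia p q ?_ A hA g hg
    rw [Nat.coprime_primes (Fact.out : p.Prime) q.2]
    rintro rfl
    exact hq hpS
  have h2 : M.ρ g⁻¹ = 1 := hMur q hq A hA g⁻¹ (inv_mem hg)
  refine LinearMap.ext fun f => ?_
  rw [Rep.dualTwist_ρ_apply, h1, h2, Units.val_one, one_smul]
  exact LinearMap.comp_id f

/-- A smooth finite-dimensional representation is trivial on the fixing subgroup of a finite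
extension. -/
theorem pt_exists_fin_level {k : Type} [Field k] (M : Rep k Γ) [FiniteDimensional k M]
    (hsm : ∀ m : M, ∃ F : IntermediateField ℚ Qb, FiniteDimensional ℚ F ∧
      ∀ s ∈ F.fixingSubgroup, M.ρ s m = m) :
    ∃ F : IntermediateField ℚ Qb, FiniteDimensional ℚ F ∧
      ∀ s : Γ, s ∈ F.fixingSubgroup → M.ρ s = 1 := by
  classical
  let b := Module.finBasis k M
  choose F hF1 hF2 using fun i => hsm (b i)
  have hFfin : ∀ i, FiniteDimensional ℚ (F i) := hF1
  refine ⟨⨆ i, F i, inferInstance, fun s hs => ?_⟩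
  refine b.ext fun i => ?_
  exact hF2 i s (IntermediateField.fixingSubgroup_antitone (le_iSup F i) hs)

/-- `M.dualTwist (cycloChar p)` is smooth when `M` is. -/
theorem pt_dualTwist_smooth (p : ℕ) [Fact p.Prime] (M : Rep (ZMod p) Γ)
    [FiniteDimensional (ZMod p) M]
    (hsm : ∀ m : M, ∃ F : IntermediateField ℚ Qb, FiniteDimensional ℚ F ∧
      ∀ s ∈ F.fixingSubgroup, M.ρ s m = m) :
    ∀ m : M.dualTwist (cycloChar p), ∃ F : IntermediateField ℚ Qb, FiniteDimensional ℚ F ∧
      ∀ s ∈ F.fixingSubgroup, (M.dualTwist (cycloChar p)).ρ s m = m := by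
  intro f
  obtain ⟨F₁, hF₁, hF₁'⟩ := pt_exists_fin_level M hsm
  obtain ⟨F₂, hF₂, hF₂'⟩ := pt_cycloChar_fin_level p
  refine ⟨F₁ ⊔ F₂, inferInstance, fun s hs => ?_⟩
  have h1 : cycloChar p s = 1 :=
    hF₂' s (IntermediateField.fixingSubgroup_antitone le_sup_right hs)
  have h2 : M.ρ s⁻¹ = 1 :=
    hF₁' s⁻¹ (inv_mem (IntermediateField.fixingSubgroup_antitone le_sup_left hs))
  rw [Rep.dualTwist_ρ_apply, h1, h2, Units.val_one, one_smul]
  exact LinearMap.comp_id f

/-- A common Galois level unramified outside `S` splitting `M`, the mod `p` cyclotomic character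
and `M.dualTwist (cycloChar p)`. -/
theorem pt_exists_splitting_twist (p : ℕ) [Fact p.Prime] (S : Finset Nat.Primes)
    (hpS : pPrime p ∈ S) (M : Rep (ZMod p) Γ) [FiniteDimensional (ZMod p) M]
    (hsm : ∀ m : M, ∃ F : IntermediateField ℚ Qb, FiniteDimensional ℚ F ∧
      ∀ s ∈ F.fixingSubgroup, M.ρ s m = m)
    (hMur : ∀ q : Nat.Primes, q ∉ S → ∀ A : ValuationSubring Qb,
      A.LiesOverPrime (q : ℕ) → ∀ g ∈ A.inertiaSubgroupIn ℚ, M.ρ g = 1) :
    ∃ K : IntermediateField ℚ Qb, K.IsUnramifiedOutside S ∧ IsGalois ℚ K ∧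
      (∀ s : Γ, s ∈ K.fixingSubgroup → M.ρ s = 1) ∧
      (∀ s : Γ, s ∈ K.fixingSubgroup → cycloChar p s = 1) ∧
      (∀ s : Γ, s ∈ K.fixingSubgroup → (M.dualTwist (cycloChar p)).ρ s = 1) := by
  obtain ⟨K₁, hK₁, -, hK₁'⟩ := pt_exists_splitting S M hsm hMur
  obtain ⟨K₂, hK₂, -, hK₂'⟩ := pt_cycloChar_level p S hpS
  obtain ⟨K, hK, hKgal, hKle⟩ := pt_exists_galois_level S (K₁ ⊔ K₂) (hK₁.sup hK₂)
  have hM : ∀ s : Γ, s ∈ K.fixingSubgroup → M.ρ s = 1 := fun s hs =>
    (hK₁' s).mp (IntermediateField.fixingSubgroup_antitone (le_sup_left.trans hKle) hs)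
  have hχ : ∀ s : Γ, s ∈ K.fixingSubgroup → cycloChar p s = 1 := fun s hs =>
    (hK₂' s).mp (IntermediateField.fixingSubgroup_antitone (le_sup_right.trans hKle) hs)
  refine ⟨K, hK, hKgal, hM, hχ, fun s hs => ?_⟩
  refine LinearMap.ext fun f => ?_
  rw [Rep.dualTwist_ρ_apply, hχ s hs, hM s⁻¹ (inv_mem hs), Units.val_one, one_smul]
  exact LinearMap.comp_id f

end Fermat.Agent.S55
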