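import Mathlib
import Fermat.Prelude.Def_GroupCohomology_ContinuousUnramified

/-!
# S55, block BRL: the local level bridge (Krasner)

The Prelude defines "continuous" local cochains on `Gal(ℚ̄_q/ℚ_q)` as those that are constant on
cosets of preimages (under `localGaloisToGlobal q`) of open subgroups of `Gal(ℚ̄/ℚ)`.
We show, via Krasner's lemma, that these are exactly the cochains that are constant on cosets of
`K.fixingSubgroup` for a finite extension `K/ℚ_q` inside `PadicAlgCl q`, and that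
`localGaloisToGlobal q` is injective.
-/

set_option autoImplicit false
set_option maxHeartbeats 400000

open Polynomial IntermediateField groupCohomology

namespace Fermat.Agent.S55

variable (q : ℕ) [Fact q.Prime]

local instance brl_isAlgebraicQbar : Algebra.IsAlgebraic ℚ (AlgebraicClosure ℚ) :=
  AlgebraicClosure.isAlgebraic ℚ
local instance brl_isAlgClosureQbar : IsAlgClosure ℚ (AlgebraicClosure ℚ) :=
  ⟨inferInstance, inferInstance⟩
local instance brl_normalQbar : Normal ℚ (AlgebraicClosure ℚ) :=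
  IsAlgClosure.normal ℚ (AlgebraicClosure ℚ)

/-- Elements of `PadicAlgCl q` that are integral over `ℚ` lie in the image of `ℚ̄`. -/
theorem brl_mem_range_of_isIntegral {x : PadicAlgCl q} (hx : IsIntegral ℚ x) :
    ∃ b : AlgebraicClosure ℚ, padicEmbedding q b = x := by
  have hsp : ((minpoly ℚ x).map (algebraMap ℚ (AlgebraicClosure ℚ))).Splits :=
    IsAlgClosed.splits _
  have himg := hsp.image_rootSet (padicEmbedding q)
  have hxroot : x ∈ (minpoly ℚ x).rootSet (PadicAlgCl q) := by
    rw [mem_rootSet]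
    exact ⟨minpoly.ne_zero hx, minpoly.aeval ℚ x⟩
  rw [← himg] at hxroot
  obtain ⟨b, _, hb⟩ := hxroot
  exact ⟨b, hb⟩

theorem brl_pow_card_le_prod {ρ : ℝ} (hρ : 0 ≤ ρ) (s : Multiset ℝ) (h : ∀ x ∈ s, ρ ≤ x) :
    ρ ^ Multiset.card s ≤ s.prod := by
  induction s using Multiset.induction_on with
  | empty => simp
  | cons a s ih =>
    rw [Multiset.card_cons, Multiset.prod_cons, pow_succ, mul_comm]
    exact mul_le_mul (h a (Multiset.mem_cons_self a s))
      (ih fun x hx => h x (Multiset.mem_cons_of_mem hx)) (pow_nonneg hρ _)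
      (hρ.trans (h a (Multiset.mem_cons_self a s)))

/-- `ℚ̄` is dense in `PadicAlgCl q`. -/
theorem brl_exists_close (α : PadicAlgCl q) {ρ : ℝ} (hρ : 0 < ρ) :
    ∃ b : AlgebraicClosure ℚ, ‖α - padicEmbedding q b‖ < ρ := by
  have hint : IsIntegral ℚ_[q] α := Algebra.IsIntegral.isIntegral α
  set f := minpoly ℚ_[q] α with hf
  set n := f.natDegree with hn
  have hmonic : f.Monic := minpoly.monic hint
  set C : ℝ := max 1 ‖α‖ ^ n with hC
  have hC1 : 1 ≤ C := one_le_pow₀ (le_max_left _ _)
  have hC0 : 0 < C := lt_of_lt_of_le one_pos hC1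
  set ε : ℝ := ρ ^ n / (2 * C) with hε
  have hε0 : 0 < ε := div_pos (pow_pos hρ n) (by positivity)
  -- approximate the coefficients
  choose r hr using fun i : Fin n => Padic.rat_dense q (f.coeff i) hε0
  set g : ℚ[X] := X ^ n + ∑ i : Fin n, Polynomial.C (r i) * X ^ (i : ℕ) with hg
  have hdeg : (∑ i : Fin n, Polynomial.C (r i) * X ^ (i : ℕ)).degree < (n : WithBot ℕ) :=
    degree_sum_fin_lt r
  have hgmonic : g.Monic := monic_X_pow_add hdeg
  have hgdeg : g.natDegree = n := by
    rw [hg, natDegree_add_eq_left_of_degree_lt (by rwa [degree_X_pow]), natDegree_X_pow]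
  -- value of g at α
  have hfα : α ^ n + ∑ i : Fin n, algebraMap ℚ_[q] (PadicAlgCl q) (f.coeff i) * α ^ (i : ℕ) = 0 := by
    have h0 : aeval α f = 0 := minpoly.aeval ℚ_[q] α
    rw [hmonic.as_sum, ← hn, map_add, map_pow, aeval_X, map_sum] at h0
    rw [← h0, Fin.sum_univ_eq_sum_range
      (fun i => algebraMap ℚ_[q] (PadicAlgCl q) (f.coeff i) * α ^ i) n]
    congr 1
    refine Finset.sum_congr rfl fun i _ => ?_
    rw [map_mul, aeval_C, map_pow, aeval_X]
  have hgα : aeval α g = ∑ i : Fin n,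
      (algebraMap ℚ (PadicAlgCl q) (r i) - algebraMap ℚ_[q] (PadicAlgCl q) (f.coeff i))
        * α ^ (i : ℕ) := by
    have h1 : aeval α g = α ^ n + ∑ i : Fin n, algebraMap ℚ (PadicAlgCl q) (r i) * α ^ (i : ℕ) := by
      rw [hg, map_add, map_pow, aeval_X, map_sum]
      congr 1
      refine Finset.sum_congr rfl fun i _ => ?_
      rw [map_mul, aeval_C, map_pow, aeval_X]
    rw [h1, ← sub_zero (α ^ n + _), ← hfα]
    simp only [sub_mul, Finset.sum_sub_distrib]
    ring
  have hbound : ‖aeval α g‖ ≤ ε * C := by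
    rw [hgα]
    refine IsUltrametricDist.norm_sum_le_of_forall_le_of_nonneg (by positivity) fun i _ => ?_
    rw [norm_mul, norm_pow]
    have h1 : ‖algebraMap ℚ (PadicAlgCl q) (r i) - algebraMap ℚ_[q] (PadicAlgCl q) (f.coeff i)‖
        ≤ ε := by
      have h2 : algebraMap ℚ (PadicAlgCl q) (r i)
          = algebraMap ℚ_[q] (PadicAlgCl q) ((r i : ℚ) : ℚ_[q]) := by
        rw [eq_ratCast, map_ratCast]
      rw [h2, ← map_sub, norm_algebraMap', norm_sub_rev]
      exact (hr i).le
    have h3 : ‖α‖ ^ (i : ℕ) ≤ C := by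
      rw [hC]
      calc ‖α‖ ^ (i : ℕ) ≤ max 1 ‖α‖ ^ (i : ℕ) :=
            pow_le_pow_left₀ (norm_nonneg _) (le_max_right _ _) _
        _ ≤ max 1 ‖α‖ ^ n := pow_le_pow_right₀ (le_max_left _ _) i.2.le
    exact mul_le_mul h1 h3 (pow_nonneg (norm_nonneg _) _) hε0.le
  have hlt : ‖aeval α g‖ < ρ ^ n := by
    refine lt_of_le_of_lt hbound ?_
    rw [hε, div_mul_eq_mul_div, div_lt_iff₀ (by positivity)]
    nlinarith [pow_pos hρ n]
  -- split g over the algebraic closure
  set G : (PadicAlgCl q)[X] := g.map (algebraMap ℚ (PadicAlgCl q)) with hG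
  have hGsplit : G.Splits := IsAlgClosed.splits _
  have hGmonic : G.Monic := hgmonic.map _
  have hGdeg : G.natDegree = n := by rw [hG, hgmonic.natDegree_map, hgdeg]
  have hcard : Multiset.card G.roots = n := by rw [← hGsplit.natDegree_eq_card_roots, hGdeg]
  have heval : aeval α g = (G.roots.map (α - ·)).prod := by
    rw [← hGsplit.eval_eq_prod_roots_of_monic hGmonic α, hG, eval_map_algebraMap]
  have hnorm : ‖aeval α g‖ = ((G.roots.map (α - ·)).map (‖·‖)).prod := by
    rw [heval]
    exact map_multiset_prod (normHom (α := PadicAlgCl q)) _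
  by_contra hcon
  push Not at hcon
  have hall : ∀ x ∈ ((G.roots.map (α - ·)).map (‖·‖)), ρ ≤ x := by
    intro x hx
    rw [Multiset.map_map, Multiset.mem_map] at hx
    obtain ⟨β, hβ, rfl⟩ := hx
    have hβroot : aeval β g = 0 := by
      have := (mem_roots (hGmonic.ne_zero)).1 hβ
      rwa [IsRoot.def, hG, eval_map_algebraMap] at this
    have hβint : IsIntegral ℚ β := ⟨g, hgmonic, by rwa [← aeval_def]⟩
    obtain ⟨b, rfl⟩ := brl_mem_range_of_isIntegral q hβint
    exact hcon b
  have := brl_pow_card_le_prod hρ.le _ hall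
  rw [Multiset.card_map, Multiset.card_map, hcard, ← hnorm] at this
  exact absurd hlt (not_lt.2 this)

/-- Krasner density: every element of `PadicAlgCl q` lies in `ℚ_q(b)` for some `b ∈ ℚ̄`. -/
theorem brl_krasner_dense (α : PadicAlgCl q) :
    ∃ b : AlgebraicClosure ℚ, α ∈ ℚ_[q]⟮padicEmbedding q b⟯ := by
  classical
  have hint : IsIntegral ℚ_[q] α := Algebra.IsIntegral.isIntegral α
  have hsep : (minpoly ℚ_[q] α).Separable := (minpoly.irreducible hint).separable
  have hsp : ((minpoly ℚ_[q] α).map (algebraMap ℚ_[q] (PadicAlgCl q))).Splits :=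
    IsAlgClosed.splits _
  -- the finite set of the other conjugates
  have hfin : ((minpoly ℚ_[q] α).rootSet (PadicAlgCl q)).Finite := rootSet_finite _ _
  set s : Finset (PadicAlgCl q) := hfin.toFinset.erase α with hs
  obtain ⟨ρ, hρ, hρs⟩ : ∃ ρ : ℝ, 0 < ρ ∧ ∀ x ∈ s, ρ ≤ ‖α - x‖ := by
    by_cases hne : s.Nonempty
    · obtain ⟨x0, hx0, hmin⟩ := Finset.exists_min_image s (fun x => ‖α - x‖) hne
      refine ⟨‖α - x0‖, ?_, hmin⟩
      rw [norm_pos_iff, sub_ne_zero]
      exact fun h => (Finset.ne_of_mem_erase hx0) h.symm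
    · rw [Finset.not_nonempty_iff_eq_empty] at hne
      exact ⟨1, one_pos, fun x hx => by rw [hne] at hx; simp at hx⟩
  obtain ⟨b, hb⟩ := brl_exists_close q α hρ
  refine ⟨b, IsKrasner.krasner hsep hsp (Algebra.IsIntegral.isIntegral _) fun x' hx' hne => ?_⟩
  refine lt_of_lt_of_le hb (hρs x' ?_)
  rw [hs, Finset.mem_erase, Set.Finite.mem_toFinset]
  exact ⟨fun h => hne h.symm, (isConjRoot_iff_mem_minpoly_rootSet hint).1 hx'⟩

/-- An automorphism fixing a set pointwise fixes the field it generates. -/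
theorem brl_fixes_adjoin {K L : Type*} [Field K] [Field L] [Algebra K L] (τ : L ≃ₐ[K] L)
    (T : Set L) (h : ∀ t ∈ T, τ t = t) : ∀ x ∈ IntermediateField.adjoin K T, τ x = x := by
  intro x hx
  induction hx using IntermediateField.adjoin_induction with
  | mem x hx => exact h x hx
  | algebraMap x => exact τ.commutes x
  | add x y _ _ hx hy => rw [map_add, hx, hy]
  | inv x _ hx => rw [map_inv₀, hx]
  | mul x y _ _ hx hy => rw [map_mul, hx, hy]

/-- `localGaloisToGlobal q` is injective. -/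
theorem brl_localGaloisToGlobal_injective : Function.Injective (localGaloisToGlobal q) := by
  rw [injective_iff_map_eq_one]
  intro τ hτ
  ext α
  obtain ⟨b, hb⟩ := brl_krasner_dense q α
  refine brl_fixes_adjoin τ {padicEmbedding q b} (fun t ht => ?_) α hb
  rw [Set.mem_singleton_iff] at ht
  subst ht
  rw [← padicEmbedding_localGaloisToGlobal, hτ]
  rfl

/-- The local field `ℚ_q · F ⊆ PadicAlgCl q` attached to a subfield `F ⊆ ℚ̄`. -/
noncomputable def brl_locField (F : IntermediateField ℚ (AlgebraicClosure ℚ)) :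
    IntermediateField ℚ_[q] (PadicAlgCl q) :=
  IntermediateField.adjoin ℚ_[q] (padicEmbedding q '' (F : Set (AlgebraicClosure ℚ)))

theorem brl_locField_mono {F F' : IntermediateField ℚ (AlgebraicClosure ℚ)} (h : F ≤ F') :
    brl_locField q F ≤ brl_locField q F' :=
  IntermediateField.adjoin.mono _ _ _ (Set.image_mono h)

theorem brl_mem_locField {F : IntermediateField ℚ (AlgebraicClosure ℚ)} {x : AlgebraicClosure ℚ}
    (hx : x ∈ F) : padicEmbedding q x ∈ brl_locField q F :=
  IntermediateField.subset_adjoin _ _ ⟨x, hx, rfl⟩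

/-- The key compatibility: `τ` restricts to an element of `F.fixingSubgroup` iff `τ` fixes
`ℚ_q · F`. -/
theorem brl_mem_fixingSubgroup_iff (F : IntermediateField ℚ (AlgebraicClosure ℚ))
    (τ : PadicAlgCl q ≃ₐ[ℚ_[q]] PadicAlgCl q) :
    localGaloisToGlobal q τ ∈ F.fixingSubgroup ↔ τ ∈ (brl_locField q F).fixingSubgroup := by
  rw [IntermediateField.mem_fixingSubgroup_iff, IntermediateField.mem_fixingSubgroup_iff]
  constructor
  · intro h x hx
    refine brl_fixes_adjoin τ _ (fun t ht => ?_) x hx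
    obtain ⟨y, hy, rfl⟩ := ht
    rw [← padicEmbedding_localGaloisToGlobal, h y hy]
  · intro h x hx
    have hinj : Function.Injective (padicEmbedding q) := (padicEmbedding q).injective
    apply hinj
    rw [padicEmbedding_localGaloisToGlobal]
    exact h _ (brl_mem_locField q hx)

theorem brl_embedding_mem_adjoin (t : Set (AlgebraicClosure ℚ)) {x : AlgebraicClosure ℚ}
    (hx : x ∈ IntermediateField.adjoin ℚ t) :
    padicEmbedding q x ∈ IntermediateField.adjoin ℚ_[q] (padicEmbedding q '' t) := by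
  induction hx using IntermediateField.adjoin_induction with
  | mem x hx => exact IntermediateField.subset_adjoin _ _ ⟨x, hx, rfl⟩
  | algebraMap r =>
    rw [AlgHom.commutes, eq_ratCast]
    exact SubfieldClass.ratCast_mem _ r
  | add x y _ _ hx hy => rw [map_add]; exact add_mem hx hy
  | inv x _ hx => rw [map_inv₀]; exact inv_mem hx
  | mul x y _ _ hx hy => rw [map_mul]; exact mul_mem hx hy

theorem brl_locField_adjoin (t : Set (AlgebraicClosure ℚ)) :
    brl_locField q (IntermediateField.adjoin ℚ t)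
      = IntermediateField.adjoin ℚ_[q] (padicEmbedding q '' t) := by
  apply le_antisymm
  · rw [brl_locField, IntermediateField.adjoin_le_iff]
    rintro _ ⟨x, hx, rfl⟩
    exact brl_embedding_mem_adjoin q t hx
  · exact IntermediateField.adjoin.mono _ _ _ (Set.image_mono (IntermediateField.subset_adjoin ℚ t))

/-- A finite-dimensional intermediate field is finitely generated. -/
theorem brl_fg {F E : Type*} [Field F] [Field E] [Algebra F E] (S : IntermediateField F E)
    [FiniteDimensional F S] : ∃ t : Finset E, IntermediateField.adjoin F (t : Set E) = S :=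
  S.fg_of_fg_toSubalgebra (Subalgebra.fg_of_fg_toSubmodule
    ((Module.Finite.iff_fg (N := S.toSubalgebra.toSubmodule)).1 ‹FiniteDimensional F S›))

/-- `ℚ_q · F` is finite over `ℚ_q` when `F` is finite over `ℚ`. -/
theorem brl_finiteDimensional_locField (F : IntermediateField ℚ (AlgebraicClosure ℚ))
    [FiniteDimensional ℚ F] : FiniteDimensional ℚ_[q] (brl_locField q F) := by
  obtain ⟨t, rfl⟩ := brl_fg F
  rw [brl_locField_adjoin]
  have : Finite (padicEmbedding q '' (t : Set (AlgebraicClosure ℚ))) :=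
    Set.Finite.image _ t.finite_toSet
  exact IntermediateField.finiteDimensional_adjoin fun x _ => Algebra.IsIntegral.isIntegral x

/-- Every finite subextension of `ℚ̄/ℚ` is contained in a finite Galois one. -/
theorem brl_exists_galois_ge (F₀ : IntermediateField ℚ (AlgebraicClosure ℚ))
    [FiniteDimensional ℚ F₀] :
    ∃ F : IntermediateField ℚ (AlgebraicClosure ℚ), FiniteDimensional ℚ F ∧ IsGalois ℚ F ∧
      F₀ ≤ F := by
  have hnorm := normalClosure.normal ℚ F₀ (AlgebraicClosure ℚ)
  have hfin := normalClosure.is_finiteDimensional ℚ F₀ (AlgebraicClosure ℚ)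
  have halg : Algebra.IsAlgebraic ℚ (normalClosure ℚ F₀ (AlgebraicClosure ℚ)) :=
    Algebra.IsAlgebraic.of_finite ℚ _
  have hsep : Algebra.IsSeparable ℚ (normalClosure ℚ F₀ (AlgebraicClosure ℚ)) :=
    Algebra.IsAlgebraic.isSeparable_of_perfectField
  have hgal : IsGalois ℚ (normalClosure ℚ F₀ (AlgebraicClosure ℚ)) :=
    @IsGalois.mk _ _ _ _ _ hsep hnorm
  exact ⟨normalClosure ℚ F₀ (AlgebraicClosure ℚ), hfin, hgal,
    IntermediateField.le_normalClosure F₀⟩

/-- Every finite extension of `ℚ_q` inside `PadicAlgCl q` is contained in `ℚ_q · F` for a finite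
Galois extension `F/ℚ`. -/
theorem brl_exists_le_locField (K : IntermediateField ℚ_[q] (PadicAlgCl q))
    [FiniteDimensional ℚ_[q] K] :
    ∃ F : IntermediateField ℚ (AlgebraicClosure ℚ), FiniteDimensional ℚ F ∧ IsGalois ℚ F ∧
      K ≤ brl_locField q F := by
  classical
  obtain ⟨t, rfl⟩ := brl_fg K
  choose b hb using brl_krasner_dense q
  have : Finite (b '' (t : Set (PadicAlgCl q))) := Set.Finite.image _ t.finite_toSet
  have hfd : FiniteDimensional ℚ (IntermediateField.adjoin ℚ (b '' (t : Set (PadicAlgCl q)))) :=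
    IntermediateField.finiteDimensional_adjoin fun x _ => Algebra.IsIntegral.isIntegral x
  obtain ⟨F, hF, hG, hle⟩ :=
    brl_exists_galois_ge (IntermediateField.adjoin ℚ (b '' (t : Set (PadicAlgCl q))))
  refine ⟨F, hF, hG, le_trans ?_ (brl_locField_mono q hle)⟩
  rw [IntermediateField.adjoin_le_iff]
  intro a ha
  have h1 : ℚ_[q]⟮padicEmbedding q (b a)⟯
      ≤ brl_locField q (IntermediateField.adjoin ℚ (b '' (t : Set (PadicAlgCl q)))) := by
    rw [IntermediateField.adjoin_le_iff, Set.singleton_subset_iff]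
    exact brl_mem_locField q (IntermediateField.subset_adjoin ℚ _ ⟨a, ha, rfl⟩)
  exact h1 (hb a)

/-- **Local level bridge, degree 1.** A function on `Gal(ℚ̄_q/ℚ_q)` is level-constant in the
sense of the Prelude iff it is right-invariant under `K.fixingSubgroup` for a finite `K/ℚ_q`. -/
theorem brl_isLevelConstant₁_iff {X : Type*} (y : (PadicAlgCl q ≃ₐ[ℚ_[q]] PadicAlgCl q) → X) :
    IsLevelConstant₁ (localGaloisToGlobal q) y ↔
      ∃ K : IntermediateField ℚ_[q] (PadicAlgCl q), FiniteDimensional ℚ_[q] K ∧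
        ∀ g s, s ∈ K.fixingSubgroup → y (g * s) = y g := by
  constructor
  · rintro ⟨F, hF, h⟩
    exact ⟨brl_locField q F, brl_finiteDimensional_locField q F,
      fun g s hs => h g s ((brl_mem_fixingSubgroup_iff q F s).2 hs)⟩
  · rintro ⟨K, hK, h⟩
    obtain ⟨F, hF, _, hle⟩ := brl_exists_le_locField q K
    exact ⟨F, hF, fun g s hs => h g s
      (IntermediateField.fixingSubgroup_antitone hle ((brl_mem_fixingSubgroup_iff q F s).1 hs))⟩

/-- **Local level bridge, degree 2.** -/
theorem brl_isLevelConstant₂_iff {X : Type*}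
    (y : (PadicAlgCl q ≃ₐ[ℚ_[q]] PadicAlgCl q) × (PadicAlgCl q ≃ₐ[ℚ_[q]] PadicAlgCl q) → X) :
    IsLevelConstant₂ (localGaloisToGlobal q) y ↔
      ∃ K : IntermediateField ℚ_[q] (PadicAlgCl q), FiniteDimensional ℚ_[q] K ∧
        ∀ g g' s s', s ∈ K.fixingSubgroup → s' ∈ K.fixingSubgroup →
          y (g * s, g' * s') = y (g, g') := by
  constructor
  · rintro ⟨F, hF, h⟩
    exact ⟨brl_locField q F, brl_finiteDimensional_locField q F,
      fun g g' s s' hs hs' => h g g' s s' ((brl_mem_fixingSubgroup_iff q F s).2 hs)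
        ((brl_mem_fixingSubgroup_iff q F s').2 hs')⟩
  · rintro ⟨K, hK, h⟩
    obtain ⟨F, hF, _, hle⟩ := brl_exists_le_locField q K
    exact ⟨F, hF, fun g g' s s' hs hs' => h g g' s s'
      (IntermediateField.fixingSubgroup_antitone hle ((brl_mem_fixingSubgroup_iff q F s).1 hs))
      (IntermediateField.fixingSubgroup_antitone hle ((brl_mem_fixingSubgroup_iff q F s').1 hs'))⟩

/-- Every finite subextension of `PadicAlgCl q / ℚ_q` is contained in a finite Galois one. -/
theorem brl_exists_galois_ge_local (K₀ : IntermediateField ℚ_[q] (PadicAlgCl q))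
    [FiniteDimensional ℚ_[q] K₀] :
    ∃ K : IntermediateField ℚ_[q] (PadicAlgCl q), FiniteDimensional ℚ_[q] K ∧ IsGalois ℚ_[q] K ∧
      K₀ ≤ K := by
  have hN : Normal ℚ_[q] (PadicAlgCl q) := IsAlgClosure.normal ℚ_[q] (PadicAlgCl q)
  have hnorm := normalClosure.normal ℚ_[q] K₀ (PadicAlgCl q)
  have hfin := normalClosure.is_finiteDimensional ℚ_[q] K₀ (PadicAlgCl q)
  have halg : Algebra.IsAlgebraic ℚ_[q] (normalClosure ℚ_[q] K₀ (PadicAlgCl q)) :=
    Algebra.IsAlgebraic.of_finite ℚ_[q] _
  have hsep : Algebra.IsSeparable ℚ_[q] (normalClosure ℚ_[q] K₀ (PadicAlgCl q)) :=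
    Algebra.IsAlgebraic.isSeparable_of_perfectField
  have hgal : IsGalois ℚ_[q] (normalClosure ℚ_[q] K₀ (PadicAlgCl q)) :=
    @IsGalois.mk _ _ _ _ _ hsep hnorm
  exact ⟨normalClosure ℚ_[q] K₀ (PadicAlgCl q), hfin, hgal,
    IntermediateField.le_normalClosure K₀⟩

/-- Degree 1 bridge with a finite *Galois* `K/ℚ_q`. -/
theorem brl_isLevelConstant₁_iff_galois {X : Type*}
    (y : (PadicAlgCl q ≃ₐ[ℚ_[q]] PadicAlgCl q) → X) :
    IsLevelConstant₁ (localGaloisToGlobal q) y ↔
      ∃ K : IntermediateField ℚ_[q] (PadicAlgCl q), FiniteDimensional ℚ_[q] K ∧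
        IsGalois ℚ_[q] K ∧ ∀ g s, s ∈ K.fixingSubgroup → y (g * s) = y g := by
  rw [brl_isLevelConstant₁_iff]
  constructor
  · rintro ⟨K₀, hK₀, h⟩
    obtain ⟨K, hK, hG, hle⟩ := brl_exists_galois_ge_local q K₀
    exact ⟨K, hK, hG, fun g s hs => h g s (IntermediateField.fixingSubgroup_antitone hle hs)⟩
  · rintro ⟨K, hK, _, h⟩
    exact ⟨K, hK, h⟩

/-- Degree 2 bridge with a finite *Galois* `K/ℚ_q`. -/
theorem brl_isLevelConstant₂_iff_galois {X : Type*}
    (y : (PadicAlgCl q ≃ₐ[ℚ_[q]] PadicAlgCl q) × (PadicAlgCl q ≃ₐ[ℚ_[q]] PadicAlgCl q) → X) :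
    IsLevelConstant₂ (localGaloisToGlobal q) y ↔
      ∃ K : IntermediateField ℚ_[q] (PadicAlgCl q), FiniteDimensional ℚ_[q] K ∧
        IsGalois ℚ_[q] K ∧ ∀ g g' s s', s ∈ K.fixingSubgroup → s' ∈ K.fixingSubgroup →
          y (g * s, g' * s') = y (g, g') := by
  rw [brl_isLevelConstant₂_iff]
  constructor
  · rintro ⟨K₀, hK₀, h⟩
    obtain ⟨K, hK, hG, hle⟩ := brl_exists_galois_ge_local q K₀
    exact ⟨K, hK, hG, fun g g' s s' hs hs' => h g g' s s'
      (IntermediateField.fixingSubgroup_antitone hle hs)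
      (IntermediateField.fixingSubgroup_antitone hle hs')⟩
  · rintro ⟨K, hK, _, h⟩
    exact ⟨K, hK, h⟩

/-- The preimage of the level subgroup of a finite Galois `F/ℚ` is a normal subgroup of the local
Galois group, equal to the fixing subgroup of `ℚ_q · F`. -/
theorem brl_comap_fixingSubgroup (F : IntermediateField ℚ (AlgebraicClosure ℚ)) :
    F.fixingSubgroup.comap (localGaloisToGlobal q) = (brl_locField q F).fixingSubgroup := by
  ext τ
  rw [Subgroup.mem_comap]
  exact brl_mem_fixingSubgroup_iff q F τ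

/-- Versions for `primeLocalToGlobal` with `q : Nat.Primes`. -/
theorem brl_primeLocalToGlobal_injective (q : Nat.Primes) :
    Function.Injective (ExtCitation.primeLocalToGlobal q) :=
  haveI : Fact (q : ℕ).Prime := ⟨q.2⟩
  brl_localGaloisToGlobal_injective (q : ℕ)

/-- Usage note: for `q : Nat.Primes` use `haveI : Fact (q : ℕ).Prime := ⟨q.2⟩` and then
`brl_isLevelConstant₁_iff_galois (q : ℕ) y` applies verbatim to
`y : ExtCitation.primeLocalGaloisGroup q → X` and `ExtCitation.primeLocalToGlobal q`. -/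
theorem brl_isLevelConstant₁_prime_of (q : Nat.Primes) {X : Type*}
    (y : ExtCitation.primeLocalGaloisGroup q → X)
    (h : haveI : Fact (q : ℕ).Prime := ⟨q.2⟩
      ∃ K : IntermediateField ℚ_[(q : ℕ)] (PadicAlgCl (q : ℕ)),
        FiniteDimensional ℚ_[(q : ℕ)] K ∧
        ∀ g s : PadicAlgCl (q : ℕ) ≃ₐ[ℚ_[(q : ℕ)]] PadicAlgCl (q : ℕ),
          s ∈ K.fixingSubgroup → y (g * s) = y g) :
    IsLevelConstant₁ (ExtCitation.primeLocalToGlobal q) y :=
  haveI : Fact (q : ℕ).Prime := ⟨q.2⟩
  (brl_isLevelConstant₁_iff (q : ℕ) y).2 h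

end Fermat.Agent.S55
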