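import Mathlib
import Fermat.Agent.S55.LocBridge

/-!
# S55, block PL (part 1): the image of the local Galois group is the decomposition group

`(localGaloisToGlobal q).range = (padicPlace q).decompositionSubgroup ℚ`.
-/

set_option autoImplicit false
set_option maxHeartbeats 400000

open Polynomial IntermediateField TensorProduct
open scoped Pointwise

namespace Fermat.Agent.S55

variable (q : ℕ) [Fact q.Prime]

/-- Norm of an embedded rational number. -/
theorem pl_norm_emb_rat (r : ℚ) :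
    ‖padicEmbedding q (algebraMap ℚ (AlgebraicClosure ℚ) r)‖ = ‖(r : ℚ_[q])‖ := by
  have h2 : algebraMap ℚ (PadicAlgCl q) r = algebraMap ℚ_[q] (PadicAlgCl q) ((r : ℚ) : ℚ_[q]) := by
    rw [eq_ratCast, map_ratCast]
  rw [AlgHom.commutes, h2, norm_algebraMap']

theorem pl_mem_place_iff_of_mem_decomposition
    (σ : AlgebraicClosure ℚ ≃ₐ[ℚ] AlgebraicClosure ℚ)
    (hσ : σ ∈ (padicPlace q).decompositionSubgroup ℚ) (y : AlgebraicClosure ℚ) :
    σ y ∈ padicPlace q ↔ y ∈ padicPlace q := by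
  have h : σ • padicPlace q = padicPlace q := hσ
  conv_lhs => rw [← h]
  rw [ValuationSubring.mem_pointwise_smul_iff_inv_smul_mem]
  simp [AlgEquiv.smul_def]

theorem pl_norm_le_of_mem_decomposition
    (σ : AlgebraicClosure ℚ ≃ₐ[ℚ] AlgebraicClosure ℚ)
    (hσ : σ ∈ (padicPlace q).decompositionSubgroup ℚ) (x : AlgebraicClosure ℚ) :
    ‖padicEmbedding q (σ x)‖ ≤ ‖padicEmbedding q x‖ := by
  by_contra hlt
  push Not at hlt
  have hq1 : (1 : ℝ) < q := by exact_mod_cast (Fact.out : q.Prime).one_lt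
  have hq0 : (0 : ℝ) < q := lt_trans one_pos hq1
  have hx0 : x ≠ 0 := by
    rintro rfl
    simp at hlt
  set u := ‖padicEmbedding q x‖ with hu
  set v := ‖padicEmbedding q (σ x)‖ with hv
  have hu0 : 0 < u := by
    rw [hu, norm_pos_iff]
    exact (_root_.map_ne_zero _).2 hx0
  have huv : 1 < v / u := by rwa [one_lt_div hu0]
  obtain ⟨b, hb⟩ := pow_unbounded_of_one_lt (q : ℝ) huv
  obtain ⟨n, hn1, hn2⟩ := exists_mem_Ico_zpow (pow_pos hu0 b) hq1
  -- the test element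
  set y : AlgebraicClosure ℚ := x ^ b * algebraMap ℚ (AlgebraicClosure ℚ) ((q : ℚ) ^ (n + 1))
    with hy
  have hnormr : ‖(((q : ℚ) ^ (n + 1) : ℚ) : ℚ_[q])‖ = (q : ℝ) ^ (-(n + 1)) := by
    rw [Rat.cast_zpow, Rat.cast_natCast, Padic.norm_p_zpow]
  have hy1 : ‖padicEmbedding q y‖ = u ^ b * (q : ℝ) ^ (-(n + 1)) := by
    rw [hy, map_mul, map_pow, norm_mul, norm_pow, pl_norm_emb_rat, hnormr]
  have hy2 : ‖padicEmbedding q (σ y)‖ = v ^ b * (q : ℝ) ^ (-(n + 1)) := by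
    rw [hy, map_mul, map_pow, AlgEquiv.commutes, map_mul, map_pow, norm_mul, norm_pow,
      pl_norm_emb_rat, hnormr]
  have hqpos : (0 : ℝ) < (q : ℝ) ^ (n + 1) := zpow_pos hq0 _
  have hymem : y ∈ padicPlace q := by
    rw [mem_padicPlace_iff, ← NNReal.coe_le_coe, coe_nnnorm, hy1, NNReal.coe_one, zpow_neg,
      ← div_eq_mul_inv, div_le_one hqpos]
    exact hn2.le
  have hσy : σ y ∉ padicPlace q := by
    rw [mem_padicPlace_iff, ← NNReal.coe_le_coe, coe_nnnorm, hy2, NNReal.coe_one, zpow_neg,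
      ← div_eq_mul_inv, div_le_one hqpos, not_le]
    have h1 : (q : ℝ) * u ^ b < v ^ b := by
      have := hb
      rw [div_pow, lt_div_iff₀ (pow_pos hu0 b)] at this
      exact this
    calc (q : ℝ) ^ (n + 1) = (q : ℝ) ^ n * q := zpow_add_one₀ hq0.ne' n
      _ ≤ u ^ b * q := by gcongr
      _ = q * u ^ b := mul_comm _ _
      _ < v ^ b := h1
  exact hσy ((pl_mem_place_iff_of_mem_decomposition q σ hσ y).2 hymem)

/-- Elements of the decomposition group preserve the `q`-adic norm on `ℚ̄`. -/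
theorem pl_norm_eq_of_mem_decomposition
    (σ : AlgebraicClosure ℚ ≃ₐ[ℚ] AlgebraicClosure ℚ)
    (hσ : σ ∈ (padicPlace q).decompositionSubgroup ℚ) (x : AlgebraicClosure ℚ) :
    ‖padicEmbedding q (σ x)‖ = ‖padicEmbedding q x‖ := by
  apply le_antisymm (pl_norm_le_of_mem_decomposition q σ hσ x)
  have h := pl_norm_le_of_mem_decomposition q σ⁻¹ (inv_mem hσ) (σ x)
  have h2 : σ⁻¹ (σ x) = x := σ.symm_apply_apply x
  rwa [h2] at h

section Lift

local instance pl_towerQqPadic : IsScalarTower ℚ ℚ_[q] (PadicAlgCl q) :=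
  IsScalarTower.of_algebraMap_eq' (Subsingleton.elim _ _)

/-- The multiplication map `ℚ_q ⊗ ℚ̄ → PadicAlgCl q` twisted by `σ`. -/
noncomputable def pl_mulMap (σ : AlgebraicClosure ℚ ≃ₐ[ℚ] AlgebraicClosure ℚ) :
    ℚ_[q] ⊗[ℚ] AlgebraicClosure ℚ →ₐ[ℚ_[q]] PadicAlgCl q :=
  Algebra.TensorProduct.lift (Algebra.ofId ℚ_[q] (PadicAlgCl q))
    ((padicEmbedding q).comp (σ : AlgebraicClosure ℚ →ₐ[ℚ] AlgebraicClosure ℚ))
    (fun _ _ => Commute.all _ _)

theorem pl_mulMap_tmul (σ : AlgebraicClosure ℚ ≃ₐ[ℚ] AlgebraicClosure ℚ) (a : ℚ_[q])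
    (x : AlgebraicClosure ℚ) :
    pl_mulMap q σ (a ⊗ₜ x) = algebraMap ℚ_[q] (PadicAlgCl q) a * padicEmbedding q (σ x) := by
  simp [pl_mulMap, Algebra.ofId_apply]

theorem pl_mulMap_one_surjective : Function.Surjective (pl_mulMap q 1) := by
  intro α
  obtain ⟨b, hb⟩ := brl_krasner_dense q α
  have hint : IsIntegral ℚ_[q] (padicEmbedding q b) := Algebra.IsIntegral.isIntegral _
  have hα : α ∈ (ℚ_[q]⟮padicEmbedding q b⟯).toSubalgebra := hb
  rw [IntermediateField.adjoin_simple_toSubalgebra_of_isAlgebraic hint.isAlgebraic] at hα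
  have hle : Algebra.adjoin ℚ_[q] {padicEmbedding q b} ≤ (pl_mulMap q 1).range := by
    rw [Algebra.adjoin_le_iff, Set.singleton_subset_iff]
    refine ⟨1 ⊗ₜ b, ?_⟩
    change pl_mulMap q 1 (1 ⊗ₜ b) = _
    rw [pl_mulMap_tmul]
    simp
  exact hle hα

theorem pl_approx (σ : AlgebraicClosure ℚ ≃ₐ[ℚ] AlgebraicClosure ℚ)
    (hσ : σ ∈ (padicPlace q).decompositionSubgroup ℚ) (r : ℚ_[q] ⊗[ℚ] AlgebraicClosure ℚ) :
    ∃ B : ℝ, 0 ≤ B ∧ ∀ ε : ℝ, 0 < ε → ∃ z : AlgebraicClosure ℚ,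
      ‖pl_mulMap q 1 r - padicEmbedding q z‖ ≤ ε * B ∧
      ‖pl_mulMap q σ r - padicEmbedding q (σ z)‖ ≤ ε * B := by
  induction r using TensorProduct.induction_on with
  | zero => exact ⟨0, le_rfl, fun ε _ => ⟨0, by simp, by simp⟩⟩
  | tmul a x =>
    refine ⟨‖padicEmbedding q x‖, norm_nonneg _, fun ε hε => ?_⟩
    obtain ⟨ρ, hρ⟩ := Padic.rat_dense q a hε
    refine ⟨algebraMap ℚ (AlgebraicClosure ℚ) ρ * x, ?_, ?_⟩
    · rw [pl_mulMap_tmul, map_mul, AlgHom.commutes]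
      have h2 : algebraMap ℚ (PadicAlgCl q) ρ = algebraMap ℚ_[q] (PadicAlgCl q) ((ρ : ℚ) : ℚ_[q]) := by
        rw [eq_ratCast, map_ratCast]
      rw [h2, AlgEquiv.one_apply, ← sub_mul, ← map_sub, norm_mul, norm_algebraMap']
      exact mul_le_mul_of_nonneg_right hρ.le (norm_nonneg _)
    · rw [pl_mulMap_tmul, map_mul, AlgEquiv.commutes, map_mul, AlgHom.commutes]
      have h2 : algebraMap ℚ (PadicAlgCl q) ρ = algebraMap ℚ_[q] (PadicAlgCl q) ((ρ : ℚ) : ℚ_[q]) := by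
        rw [eq_ratCast, map_ratCast]
      rw [h2, ← sub_mul, ← map_sub, norm_mul, norm_algebraMap',
        pl_norm_eq_of_mem_decomposition q σ hσ x]
      exact mul_le_mul_of_nonneg_right hρ.le (norm_nonneg _)
  | add r₁ r₂ h₁ h₂ =>
    obtain ⟨B₁, hB₁, h₁⟩ := h₁
    obtain ⟨B₂, hB₂, h₂⟩ := h₂
    refine ⟨B₁ + B₂, add_nonneg hB₁ hB₂, fun ε hε => ?_⟩
    obtain ⟨z₁, hz₁, hz₁'⟩ := h₁ ε hε
    obtain ⟨z₂, hz₂, hz₂'⟩ := h₂ ε hε
    refine ⟨z₁ + z₂, ?_, ?_⟩
    · rw [map_add, map_add, add_sub_add_comm, mul_add]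
      exact (norm_add_le _ _).trans (add_le_add hz₁ hz₂)
    · rw [map_add, map_add, map_add, add_sub_add_comm, mul_add]
      exact (norm_add_le _ _).trans (add_le_add hz₁' hz₂')

theorem pl_ker_le (σ : AlgebraicClosure ℚ ≃ₐ[ℚ] AlgebraicClosure ℚ)
    (hσ : σ ∈ (padicPlace q).decompositionSubgroup ℚ) :
    RingHom.ker (pl_mulMap q 1).toRingHom ≤ RingHom.ker (pl_mulMap q σ).toRingHom := by
  intro r hr
  rw [RingHom.mem_ker] at hr ⊢
  have hr' : pl_mulMap q 1 r = 0 := hr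
  change pl_mulMap q σ r = 0
  obtain ⟨B, hB, h⟩ := pl_approx q σ hσ r
  rw [← norm_le_zero_iff]
  by_contra hpos
  push Not at hpos
  -- choose ε with 2 ε B < ‖m₂ r‖
  obtain ⟨ε, hε, hεB⟩ : ∃ ε : ℝ, 0 < ε ∧ 2 * (ε * B) < ‖pl_mulMap q σ r‖ := by
    refine ⟨‖pl_mulMap q σ r‖ / (2 * (B + 1)) / 2, by positivity, ?_⟩
    have hB1 : 0 < B + 1 := by linarith
    have : ‖pl_mulMap q σ r‖ / (2 * (B + 1)) / 2 * B ≤ ‖pl_mulMap q σ r‖ / 4 := by
      rw [div_div, div_mul_eq_mul_div, div_le_div_iff₀ (by positivity) (by norm_num)]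
      nlinarith [hpos, hB]
    linarith
  obtain ⟨z, hz, hz'⟩ := h ε hε
  rw [hr', zero_sub, norm_neg] at hz
  have h3 : ‖padicEmbedding q (σ z)‖ ≤ ε * B := by
    rw [pl_norm_eq_of_mem_decomposition q σ hσ z]; exact hz
  have h4 : ‖pl_mulMap q σ r‖ ≤ ε * B + ε * B := by
    calc ‖pl_mulMap q σ r‖
        = ‖(pl_mulMap q σ r - padicEmbedding q (σ z)) + padicEmbedding q (σ z)‖ := by
          rw [sub_add_cancel]
      _ ≤ ‖pl_mulMap q σ r - padicEmbedding q (σ z)‖ + ‖padicEmbedding q (σ z)‖ :=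
          norm_add_le _ _
      _ ≤ ε * B + ε * B := add_le_add hz' h3
  linarith

/-- **PL1.** Every element of the decomposition group of `padicPlace q` comes from the local
Galois group. -/
theorem pl_exists_local_of_mem_decomposition
    (σ : AlgebraicClosure ℚ ≃ₐ[ℚ] AlgebraicClosure ℚ)
    (hσ : σ ∈ (padicPlace q).decompositionSubgroup ℚ) :
    ∃ τ : PadicAlgCl q ≃ₐ[ℚ_[q]] PadicAlgCl q, localGaloisToGlobal q τ = σ := by
  set τ₀ : PadicAlgCl q →ₐ[ℚ_[q]] PadicAlgCl q :=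
    AlgHom.liftOfSurjective (pl_mulMap q 1) (pl_mulMap_one_surjective q) (pl_mulMap q σ)
      (pl_ker_le q σ hσ) with hτ₀
  have hτ₀emb : ∀ x : AlgebraicClosure ℚ, τ₀ (padicEmbedding q x) = padicEmbedding q (σ x) := by
    intro x
    have h1 : padicEmbedding q x = pl_mulMap q 1 (1 ⊗ₜ x) := by
      rw [pl_mulMap_tmul]; simp
    have h2 : padicEmbedding q (σ x) = pl_mulMap q σ (1 ⊗ₜ x) := by
      rw [pl_mulMap_tmul]; simp
    rw [h1, h2, hτ₀, AlgHom.liftOfSurjective_apply]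
  have hbij : Function.Bijective τ₀ := Algebra.IsAlgebraic.algHom_bijective τ₀
  refine ⟨AlgEquiv.ofBijective τ₀ hbij, ?_⟩
  ext x
  have hinj : Function.Injective (padicEmbedding q) := (padicEmbedding q).injective
  apply hinj
  rw [padicEmbedding_localGaloisToGlobal]
  exact hτ₀emb x

/-- **PL1.** The image of the local Galois group is the decomposition group. -/
theorem pl_range_localGaloisToGlobal :
    (localGaloisToGlobal q).range = (padicPlace q).decompositionSubgroup ℚ := by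
  ext σ
  constructor
  · rintro ⟨τ, rfl⟩
    exact localGaloisToGlobal_mem_decompositionSubgroup q τ
  · intro hσ
    obtain ⟨τ, hτ⟩ := pl_exists_local_of_mem_decomposition q σ hσ
    exact ⟨τ, hτ⟩

end Lift

end Fermat.Agent.S55
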