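import Mathlib
import Fermat.Agent.S14.Lift
import Fermat.Agent.S55.IfaceFields
import Fermat.Agent.S55.Places

/-!
# S55, block PL (part 2): primes of a number field `k ⊆ ℚ̄` above `q` and double cosets

For `k : IntermediateField ℚ ℚ̄` and a valuation subring `B` of `ℚ̄` we define the prime
`pl_below k B` of `𝓞 k` below `B`.  Every valuation subring above `q` is a conjugate
`g • padicPlace q`; every prime of `𝓞 k` above `q` is `pl_below k (g • padicPlace q)` for some `g`,
and two elements `g, g'` give the same prime iff `g ∈ Gal(ℚ̄/k) · g' · D_q`, where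
`D_q = (localGaloisToGlobal q).range`.
-/

set_option autoImplicit false
set_option maxHeartbeats 400000

open scoped Pointwise
open NumberField

namespace Fermat.Agent.S55

noncomputable section

local notation "Qb" => AlgebraicClosure ℚ
local notation "Γ" => (AlgebraicClosure ℚ ≃ₐ[ℚ] AlgebraicClosure ℚ)
local notation "Zb" => integralClosure ℤ (AlgebraicClosure ℚ)

open Fermat.Agent.S54 Fermat.Agent.S14

attribute [local instance] qbar_isAlgebraic qbar_isAlgClosure qbar_isGalois zbar_isInvariant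
  zbarTopology zbar_discrete zbar_continuousSMul

set_option synthInstance.maxHeartbeats 400000 in
set_option maxHeartbeats 1600000 in
/-- Variant of `S14.exists_fixing_smul_eq`: two valuation subrings of `ℚ̄` whose centres agree on
the algebraic integers of `E` are conjugate under `Gal(ℚ̄/E)`. -/
theorem pl_exists_fixing_smul_eq (E : IntermediateField ℚ Qb) (𝒜 𝒜' : ValuationSubring Qb)
    (h : ∀ b : Zb, (b : Qb) ∈ E → (b ∈ centerIdeal 𝒜 ↔ b ∈ centerIdeal 𝒜')) :
    ∃ ρ ∈ E.fixingSubgroup, ρ • 𝒜' = 𝒜 := by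
  classical
  have hQprime : (centerIdeal 𝒜).IsPrime := centerIdeal_isPrime 𝒜
  have hQ'prime : (centerIdeal 𝒜').IsPrime := centerIdeal_isPrime 𝒜'
  have hHclosed : IsClosed (E.fixingSubgroup : Set Γ) :=
    InfiniteGalois.fixingSubgroup_isClosed E
  have : CompactSpace E.fixingSubgroup := isCompact_iff_compactSpace.mp hHclosed.isCompact
  have hinv : Algebra.IsInvariant (FixedPoints.subring Zb E.fixingSubgroup) Zb E.fixingSubgroup :=
    ⟨fun b hb => ⟨⟨b, hb⟩, rfl⟩⟩
  have hunder : (centerIdeal 𝒜').under (FixedPoints.subring Zb E.fixingSubgroup) =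
      (centerIdeal 𝒜).under (FixedPoints.subring Zb E.fixingSubgroup) := by
    ext ⟨b, hb⟩
    simp only [Ideal.under_def, Ideal.mem_comap]
    show b ∈ centerIdeal 𝒜' ↔ b ∈ centerIdeal 𝒜
    exact (h b (lift_fixed_mem E b hb)).symm
  obtain ⟨g, hg⟩ := Algebra.IsInvariant.exists_smul_of_under_eq_of_profinite
    (A := FixedPoints.subring Zb E.fixingSubgroup) (G := E.fixingSubgroup)
    (centerIdeal 𝒜') (centerIdeal 𝒜) hunder
  refine ⟨(g : Γ), g.2, ?_⟩
  apply lift_eq_of_centerIdeal_eq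
  rw [lift_centerIdeal_smul]
  exact hg.symm

/-- Integers in the maximal ideal of a valuation subring above `q` are the multiples of `q`. -/
theorem pl_intCast_mem_nonunits_iff (q : ℕ) (hq : q.Prime) (B : ValuationSubring Qb)
    (hB : (q : Qb) ∈ B.nonunits) (n : ℤ) : (n : Qb) ∈ B.nonunits ↔ (q : ℤ) ∣ n := by
  constructor
  · intro hn
    by_contra hdvd
    have hcop : IsCoprime (q : ℤ) n :=
      (Int.prime_iff_natAbs_prime.2 (by simpa using hq)).coprime_iff_not_dvd.2 hdvd
    obtain ⟨u, v, huv⟩ := hcop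
    have h1 : ((u * q + v * n : ℤ) : Qb) ∈ B.nonunits := by
      push_cast
      refine B.nonunits.add_mem ?_ ?_
      · exact val_mul_lt_one B (zbar_mem B ⟨(u : Qb), isIntegral_algebraMap (x := u)⟩) hB
      · exact val_mul_lt_one B (zbar_mem B ⟨(v : Qb), isIntegral_algebraMap (x := v)⟩) hn
    rw [huv] at h1
    have h2 : (1 : Qb) ∈ B.nonunits := by simpa using h1
    rw [B.mem_nonunits_iff, map_one] at h2
    exact lt_irrefl _ h2
  · rintro ⟨m, rfl⟩
    push_cast
    rw [mul_comm]
    exact val_mul_lt_one B (zbar_mem B ⟨(m : Qb), isIntegral_algebraMap (x := m)⟩) hB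

/-- The inclusion of the ring of integers of `k ⊆ ℚ̄` into the ring of all algebraic integers. -/
def pl_toZb (k : IntermediateField ℚ Qb) : 𝓞 k →+* Zb where
  toFun x := ⟨((x : k) : Qb), (RingOfIntegers.isIntegral_coe x).map (k.val.restrictScalars ℤ)⟩
  map_one' := by ext; simp
  map_mul' x y := by ext; simp
  map_zero' := by ext; simp
  map_add' x y := by ext; simp

@[simp]
theorem pl_toZb_coe (k : IntermediateField ℚ Qb) (x : 𝓞 k) :
    ((pl_toZb k x : Zb) : Qb) = ((x : k) : Qb) := rfl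

theorem pl_toZb_injective (k : IntermediateField ℚ Qb) : Function.Injective (pl_toZb k) := by
  intro x y h
  have h1 : ((x : k) : Qb) = ((y : k) : Qb) := congrArg (fun z : Zb => (z : Qb)) h
  exact RingOfIntegers.ext (Subtype.ext h1)

/-- Every algebraic integer lying in `k` comes from `𝓞 k`. -/
theorem pl_exists_toZb_eq (k : IntermediateField ℚ Qb) (b : Zb) (hb : (b : Qb) ∈ k) :
    ∃ x : 𝓞 k, pl_toZb k x = b := by
  have hint : IsIntegral ℤ (⟨(b : Qb), hb⟩ : k) := by
    have h1 : IsIntegral ℤ (algebraMap k Qb ⟨(b : Qb), hb⟩) := b.2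
    exact (isIntegral_algebraMap_iff (algebraMap k Qb).injective).mp h1
  exact ⟨⟨⟨(b : Qb), hb⟩, hint⟩, Subtype.ext rfl⟩

/-- The prime of `𝓞 k` below a valuation subring `B` of `ℚ̄`. -/
def pl_below (k : IntermediateField ℚ Qb) (B : ValuationSubring Qb) : Ideal (𝓞 k) :=
  (centerIdeal B).comap (pl_toZb k)

theorem pl_mem_below_iff (k : IntermediateField ℚ Qb) (B : ValuationSubring Qb) (x : 𝓞 k) :
    x ∈ pl_below k B ↔ ((x : k) : Qb) ∈ B.nonunits := Iff.rfl

instance pl_below_isPrime (k : IntermediateField ℚ Qb) (B : ValuationSubring Qb) :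
    (pl_below k B).IsPrime :=
  haveI := centerIdeal_isPrime B
  Ideal.comap_isPrime _ _

theorem pl_natCast_mem_below (k : IntermediateField ℚ Qb) (B : ValuationSubring Qb) (q : ℕ)
    (hB : (q : Qb) ∈ B.nonunits) : (q : 𝓞 k) ∈ pl_below k B := by
  rw [pl_mem_below_iff]
  simpa using hB

theorem pl_below_ne_bot (k : IntermediateField ℚ Qb) (B : ValuationSubring Qb) (q : ℕ)
    (hq : q.Prime) (hB : (q : Qb) ∈ B.nonunits) : pl_below k B ≠ ⊥ := by
  intro h
  have h1 := pl_natCast_mem_below k B q hB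
  rw [h, Ideal.mem_bot] at h1
  have h2 : ((q : 𝓞 k) : k) = 0 := by rw [h1]; simp
  have h3 : (q : k) = 0 := by simpa using h2
  exact hq.ne_zero (by exact_mod_cast h3)

/-- The prime below `u • B` equals the prime below `B` for `u ∈ Gal(ℚ̄/k)`. -/
theorem pl_below_smul_of_mem_fixingSubgroup (k : IntermediateField ℚ Qb) (B : ValuationSubring Qb)
    (u : Γ) (hu : u ∈ k.fixingSubgroup) : pl_below k (u • B) = pl_below k B := by
  ext x
  rw [pl_mem_below_iff, pl_mem_below_iff, pt_mem_nonunits_smul_iff]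
  have hfix : u⁻¹ ((x : k) : Qb) = ((x : k) : Qb) :=
    (IntermediateField.mem_fixingSubgroup_iff k u⁻¹).1 (inv_mem hu) _ (x : k).2
  rw [hfix]

/-- Valuation subrings with the same prime below them in `𝓞 k` are conjugate under
`Gal(ℚ̄/k)`. -/
theorem pl_exists_fixing_of_below_eq (k : IntermediateField ℚ Qb) (B B' : ValuationSubring Qb)
    (h : pl_below k B = pl_below k B') : ∃ u ∈ k.fixingSubgroup, u • B' = B := by
  refine pl_exists_fixing_smul_eq k B B' fun b hb => ?_
  obtain ⟨x, rfl⟩ := pl_exists_toZb_eq k b hb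
  have h1 : x ∈ pl_below k B ↔ x ∈ pl_below k B' := by rw [h]
  exact h1

/-- Every maximal ideal of `𝓞 k` is the prime below some valuation subring of `ℚ̄`. -/
theorem pl_exists_valuationSubring (k : IntermediateField ℚ Qb) (v : Ideal (𝓞 k))
    [hv : v.IsMaximal] : ∃ B : ValuationSubring Qb, pl_below k B = v := by
  set φ : 𝓞 k →+* Qb := (algebraMap Zb Qb).comp (pl_toZb k) with hφ
  set I : Ideal φ.range := v.map φ.rangeRestrict with hI
  have hsurj : Function.Surjective φ.rangeRestrict := φ.rangeRestrict_surjective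
  have hinj : Function.Injective φ := by
    intro x y hxy
    exact pl_toZb_injective k (Subtype.ext hxy)
  have hItop : I ≠ ⊤ := by
    intro htop
    have h1 : (1 : φ.range) ∈ I := by rw [htop]; trivial
    rw [hI, Ideal.mem_map_iff_of_surjective _ hsurj] at h1
    obtain ⟨x, hx, hx1⟩ := h1
    have h2 : φ x = 1 := congrArg Subtype.val hx1
    have h3 : x = 1 := hinj (by rw [h2, map_one])
    exact hv.ne_top ((Ideal.eq_top_iff_one v).2 (h3 ▸ hx))
  obtain ⟨B, -, hB⟩ := Ideal.image_subset_nonunits_valuationSubring I hItop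
  refine ⟨B, (hv.eq_of_le (Ideal.IsPrime.ne_top (pl_below_isPrime k B)) ?_).symm⟩
  intro x hx
  rw [pl_mem_below_iff]
  exact hB ⟨φ.rangeRestrict x, Ideal.mem_map_of_mem _ hx, rfl⟩

section Padic

variable (q : ℕ) [Fact q.Prime]

/-- The maximal ideal of `padicPlace q` in terms of the `q`-adic norm. -/
theorem pl_mem_nonunits_padicPlace_iff (x : Qb) :
    x ∈ (padicPlace q).nonunits ↔ ‖padicEmbedding q x‖ < 1 := by
  rw [lift_mem_nonunits_iff]
  by_cases hx : x = 0
  · simp [hx]
  · have hpos : 0 < ‖padicEmbedding q x‖ := by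
      rw [norm_pos_iff]; exact (map_ne_zero _).2 hx
    rw [mem_padicPlace_iff, ← NNReal.coe_le_coe, coe_nnnorm, NNReal.coe_one, map_inv₀, norm_inv,
      inv_le_one₀ hpos, not_le]
    simp [hx]

theorem pl_norm_emb_natCast : ‖padicEmbedding q (q : Qb)‖ = (q : ℝ)⁻¹ := by
  have h1 : padicEmbedding q (q : Qb) = algebraMap ℚ_[q] (PadicAlgCl q) (q : ℚ_[q]) := by
    rw [map_natCast, map_natCast]
  rw [h1, norm_algebraMap', Padic.norm_p]

theorem pl_natCast_mem_nonunits_padicPlace : (q : Qb) ∈ (padicPlace q).nonunits := by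
  rw [pl_mem_nonunits_padicPlace_iff, pl_norm_emb_natCast]
  have hq1 : (1 : ℝ) < q := by exact_mod_cast (Fact.out : q.Prime).one_lt
  exact inv_lt_one_of_one_lt₀ hq1

theorem pl_natCast_mem_nonunits_smul (g : Γ) : (q : Qb) ∈ (g • padicPlace q).nonunits := by
  rw [pt_mem_nonunits_smul_iff, map_natCast]
  exact pl_natCast_mem_nonunits_padicPlace q

/-- Every valuation subring of `ℚ̄` above `q` is a conjugate of `padicPlace q`. -/
theorem pl_exists_smul_padicPlace (B : ValuationSubring Qb) (hB : (q : Qb) ∈ B.nonunits) :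
    ∃ g : Γ, g • padicPlace q = B := by
  have key : ∀ b : Zb, (b : Qb) ∈ (⊥ : IntermediateField ℚ Qb) →
      (b ∈ centerIdeal B ↔ b ∈ centerIdeal (padicPlace q)) := by
    intro b hb
    obtain ⟨r, hr⟩ := IntermediateField.mem_bot.1 hb
    have hint : IsIntegral ℤ r := by
      have h3 : IsIntegral ℤ (algebraMap ℚ Qb r) := by rw [hr]; exact b.2
      exact (isIntegral_algebraMap_iff (algebraMap ℚ Qb).injective).mp h3
    obtain ⟨n, hn⟩ := IsIntegrallyClosed.isIntegral_iff.mp hint
    have hbn : (b : Qb) = (n : Qb) := by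
      rw [← hr, ← hn]; simp
    rw [mem_centerIdeal, mem_centerIdeal, hbn,
      pl_intCast_mem_nonunits_iff q Fact.out B hB,
      pl_intCast_mem_nonunits_iff q Fact.out (padicPlace q)
        (pl_natCast_mem_nonunits_padicPlace q)]
  obtain ⟨ρ, -, hρ⟩ := pl_exists_fixing_smul_eq ⊥ B (padicPlace q) key
  exact ⟨ρ, hρ⟩

/-- Membership in the prime of `𝓞 k` attached to `g ∈ Gal(ℚ̄/ℚ)` in terms of the `q`-adic norm
of the embedding `x ↦ emb (g⁻¹ x)`. -/
theorem pl_mem_below_smul_iff (k : IntermediateField ℚ Qb) (g : Γ) (x : 𝓞 k) :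
    x ∈ pl_below k (g • padicPlace q) ↔ ‖padicEmbedding q (g⁻¹ ((x : k) : Qb))‖ < 1 := by
  rw [pl_mem_below_iff, pt_mem_nonunits_smul_iff, pl_mem_nonunits_padicPlace_iff]

theorem pl_natCast_mem_below_smul (k : IntermediateField ℚ Qb) (g : Γ) :
    (q : 𝓞 k) ∈ pl_below k (g • padicPlace q) :=
  pl_natCast_mem_below k _ q (pl_natCast_mem_nonunits_smul q g)

/-- **PL2 (surjectivity).** Every maximal ideal of `𝓞 k` containing `q` is the prime attached to
some `g ∈ Gal(ℚ̄/ℚ)`. -/
theorem pl_exists_of_maximal (k : IntermediateField ℚ Qb) (v : Ideal (𝓞 k)) [v.IsMaximal]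
    (hq : (q : 𝓞 k) ∈ v) : ∃ g : Γ, pl_below k (g • padicPlace q) = v := by
  obtain ⟨B, hB⟩ := pl_exists_valuationSubring k v
  have hBq : (q : Qb) ∈ B.nonunits := by
    rw [← hB, pl_mem_below_iff] at hq
    simpa using hq
  obtain ⟨g, rfl⟩ := pl_exists_smul_padicPlace q B hBq
  exact ⟨g, hB⟩

/-- **PL2 (fibres = double cosets).** `g` and `g'` define the same prime of `𝓞 k` iff
`g ∈ Gal(ℚ̄/k) · g' · D_q`, `D_q` the image of the local Galois group. -/
theorem pl_below_smul_eq_iff (k : IntermediateField ℚ Qb) (g g' : Γ) :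
    pl_below k (g • padicPlace q) = pl_below k (g' • padicPlace q) ↔
      ∃ u ∈ k.fixingSubgroup, ∃ τ : PadicAlgCl q ≃ₐ[ℚ_[q]] PadicAlgCl q,
        g = u * g' * localGaloisToGlobal q τ := by
  constructor
  · intro h
    obtain ⟨u, hu, huB⟩ := pl_exists_fixing_of_below_eq k _ _ h
    have hd : ((u * g')⁻¹ * g) ∈ (padicPlace q).decompositionSubgroup ℚ := by
      rw [MulAction.mem_stabilizer_iff, mul_smul, ← huB, ← mul_smul, ← mul_smul]
      simp
    obtain ⟨τ, hτ⟩ := pl_exists_local_of_mem_decomposition q _ hd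
    exact ⟨u, hu, τ, by rw [hτ]; group⟩
  · rintro ⟨u, hu, τ, rfl⟩
    have hd : localGaloisToGlobal q τ • padicPlace q = padicPlace q :=
      localGaloisToGlobal_mem_decompositionSubgroup q τ
    rw [mul_smul, mul_smul, hd, pl_below_smul_of_mem_fixingSubgroup k _ u hu]

/-- The local group at `g` for `U = Gal(ℚ̄/k)`: `g · ι(τ) · g⁻¹ ∈ U` iff `τ` fixes the local field
`ℚ_q · g⁻¹(k)`. -/
theorem pl_conj_mem_fixingSubgroup_iff (k : IntermediateField ℚ Qb) (g : Γ)
    (τ : PadicAlgCl q ≃ₐ[ℚ_[q]] PadicAlgCl q) :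
    g * localGaloisToGlobal q τ * g⁻¹ ∈ k.fixingSubgroup ↔
      τ ∈ (brl_locField q (k.map (g⁻¹ : Γ).toAlgHom)).fixingSubgroup := by
  rw [← brl_mem_fixingSubgroup_iff, IntermediateField.mem_fixingSubgroup_iff,
    IntermediateField.mem_fixingSubgroup_iff]
  constructor
  · rintro h y ⟨x, hx, rfl⟩
    have h1 := h x hx
    have h2 : g (localGaloisToGlobal q τ (g⁻¹ x)) = x := h1
    calc localGaloisToGlobal q τ (g⁻¹ x)
        = g⁻¹ (g (localGaloisToGlobal q τ (g⁻¹ x))) := (g.symm_apply_apply _).symm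
      _ = g⁻¹ x := by rw [h2]
  · intro h x hx
    have h1 := h (g⁻¹ x) ⟨x, hx, rfl⟩
    show g (localGaloisToGlobal q τ (g⁻¹ x)) = x
    rw [h1]
    exact g.apply_symm_apply x

/-- The place of the number field `k ⊆ ℚ̄` at `g ∈ Gal(ℚ̄/ℚ)` above `q`. -/
def pl_place (k : IntermediateField ℚ Qb) [NumberField k] (g : Γ) :
    IsDedekindDomain.HeightOneSpectrum (𝓞 k) :=
  ⟨pl_below k (g • padicPlace q), inferInstance,
    pl_below_ne_bot k _ q Fact.out (pl_natCast_mem_nonunits_smul q g)⟩

@[simp]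
theorem pl_place_asIdeal (k : IntermediateField ℚ Qb) [NumberField k] (g : Γ) :
    (pl_place q k g).asIdeal = pl_below k (g • padicPlace q) := rfl

theorem pl_natCast_mem_place (k : IntermediateField ℚ Qb) [NumberField k] (g : Γ) :
    (q : 𝓞 k) ∈ (pl_place q k g).asIdeal :=
  pl_natCast_mem_below_smul q k g

theorem pl_mem_place_iff (k : IntermediateField ℚ Qb) [NumberField k] (g : Γ) (x : 𝓞 k) :
    x ∈ (pl_place q k g).asIdeal ↔ ‖padicEmbedding q (g⁻¹ ((x : k) : Qb))‖ < 1 :=
  pl_mem_below_smul_iff q k g x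

/-- Every prime of `𝓞 k` above `q` is `pl_place q k g` for some `g`. -/
theorem pl_exists_place (k : IntermediateField ℚ Qb) [NumberField k]
    (v : IsDedekindDomain.HeightOneSpectrum (𝓞 k)) (hq : (q : 𝓞 k) ∈ v.asIdeal) :
    ∃ g : Γ, pl_place q k g = v := by
  have := v.isMaximal
  obtain ⟨g, hg⟩ := pl_exists_of_maximal q k v.asIdeal hq
  exact ⟨g, IsDedekindDomain.HeightOneSpectrum.ext hg⟩

/-- Two elements define the same place iff they lie in the same double coset
`Gal(ℚ̄/k) \ Gal(ℚ̄/ℚ) / D_q`. -/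
theorem pl_place_eq_iff (k : IntermediateField ℚ Qb) [NumberField k] (g g' : Γ) :
    pl_place q k g = pl_place q k g' ↔
      ∃ u ∈ k.fixingSubgroup, ∃ τ : PadicAlgCl q ≃ₐ[ℚ_[q]] PadicAlgCl q,
        g = u * g' * localGaloisToGlobal q τ := by
  rw [← pl_below_smul_eq_iff]
  constructor
  · intro h
    exact congrArg IsDedekindDomain.HeightOneSpectrum.asIdeal h
  · intro h
    exact IsDedekindDomain.HeightOneSpectrum.ext h

end Padic

end

end Fermat.Agent.S55
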