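/-
S55 block EV-local (helper13): decomposition and inertia groups at a prime of a number field
`k ⊆ ℚ̄` in the Prelude model (`B` a valuation subring of `ℚ̄` over `l`; `k` is NOT assumed Galois
over `ℚ`, and no degree-one assumption is made).

* `evl_exists_frob`        : a Frobenius element (over `ℚ`) at every `B` over `l`;
* `evl_exists_rel`         : an element of the decomposition group acting trivially on the residue
                             classes of the integers of `E` agrees on the residue field with an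
                             element of the decomposition group in `Gal(ℚ̄/E)`;
* `evl_exists_frob_rel`    : the relative Frobenius `σ ∈ Gal(ℚ̄/k)`, `σ • B = B`,
                             `σ a ≡ a ^ N(v)` for `a ∈ B`, `N(v) = |𝓞 k / v|`;
* `evl_residue_of_pow_card`: `η ^ N(v) ≡ η` forces `η ≡ y` for some `y ∈ 𝓞 k`;
* `evl_decomp_moves`       : an algebraic integer whose residue class is not in the residue field
                             of `k` is moved by the decomposition group of `B` in `Gal(ℚ̄/k)`;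
* `evl_ev1`                : EV1 — if `e ∈ 𝓞 k` is not a `p`-th power mod `v = pl_place l k g` and
                             `η ^ p = e`, some `g ι(x) g⁻¹ ∈ Gal(ℚ̄/k)` moves `η`;
* `evl_inertia_moves`      : if `θ ^ N` has the absolute value of `l ^ m`, `N ∤ m`, inertia moves
                             `θ`;
* `evl_valuation_le_one_iff`: the `v`-adic valuation ring of `k` is `B ∩ k`;
* `evl_unram_log`          : for `k` unramified at `B` the `v`-adic order is read off from `B`;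
* `evl_ev2`                : EV2 — `k` unramified at `g • padicPlace l`, `p ∤ ord_v c`,
                             `ϖ ^ p = c`: some `g ι(x) g⁻¹` with `ι x` in inertia moves `ϖ`;
* `evl_log_valuation_of_mem_pow` : `c ∈ v ^ n ∖ v ^ (n+1)` gives `log (v c) = -n`.
-/
import Fermat.Agent.S13.InertiaFixed
import Fermat.Agent.S55.Places2

set_option autoImplicit false

open scoped Pointwise
open NumberField

namespace Fermat.Agent.S55

noncomputable section

local notation "Qb" => AlgebraicClosure ℚ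
local notation "Γ" => (AlgebraicClosure ℚ ≃ₐ[ℚ] AlgebraicClosure ℚ)
local notation "Zb" => integralClosure ℤ (AlgebraicClosure ℚ)

open Fermat.Agent.S54 Fermat.Agent.S13 Fermat.Agent.S05 Fermat.Agent.S14

attribute [local instance] qbar_isAlgebraic qbar_isAlgClosure qbar_isGalois zbar_isInvariant
  zbarTopology zbar_discrete zbar_continuousSMul

/-- A Frobenius element at an arbitrary valuation subring of `ℚ̄` over `l`. -/
theorem evl_exists_frob (A : ValuationSubring Qb) (l : ℕ) (hl : l.Prime)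
    (hA : (l : Qb) ∈ A.nonunits) :
    ∃ σ : Γ, σ • A = A ∧ ∀ a : Qb, a ∈ A → σ a - a ^ l ∈ A.nonunits := by
  have := centerIdeal_isPrime A
  obtain ⟨⟨σ, hσ⟩, hF⟩ := Ideal.Quotient.stabilizerHom_surjective_of_profinite (G := Γ)
    ((centerIdeal A).under ℤ) (centerIdeal A) (frobAlgEquiv A l hl hA)
  have hσA : σ • A = A := smul_eq_of_smul_centerIdeal A σ hσ
  have key : ∀ b : Zb, (σ • b) - b ^ l ∈ centerIdeal A := by
    intro b
    have h1 := congrArg (fun f => f (Ideal.Quotient.mk (centerIdeal A) b)) hF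
    simp only [Ideal.Quotient.stabilizerHom_apply, frobAlgEquiv_apply] at h1
    rw [← map_pow, Ideal.Quotient.eq] at h1
    exact h1
  refine ⟨σ, hσA, ?_⟩
  intro a ha
  obtain ⟨b, s, hs, has⟩ := exists_mul_eq A a ha
  have hq2 : σ (b : Qb) - (b : Qb) ^ l ∈ A.nonunits := key b
  have hq1 : σ (s : Qb) - (s : Qb) ^ l ∈ A.nonunits := key s
  have hs' : σ • s ∉ centerIdeal A := by
    intro h
    apply hs
    have hσ' : σ • centerIdeal A = centerIdeal A := hσ
    rw [← hσ'] at h
    exact Ideal.smul_mem_pointwise_smul_iff.mp h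
  rw [not_mem_centerIdeal_iff_val, coe_smul_zbar] at hs'
  have hprod : (σ a - a ^ l) * σ (s : Qb) ∈ A.nonunits := by
    have h1 : σ a * σ (s : Qb) = σ (b : Qb) := by rw [← map_mul, has]
    have h2 : (σ a - a ^ l) * σ (s : Qb) =
        (σ (b : Qb) - (b : Qb) ^ l) - a ^ l * (σ (s : Qb) - (s : Qb) ^ l) := by
      have h3 : (b : Qb) ^ l = a ^ l * (s : Qb) ^ l := by rw [← has, mul_pow]
      linear_combination h1 + h3
    rw [h2]
    exact A.nonunits.sub_mem hq2 (val_mul_lt_one A (pow_mem ha l) hq1)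
  rw [A.mem_nonunits_iff] at hprod ⊢
  rwa [map_mul, hs', mul_one] at hprod

/-- `σ • A = A` implies `σ` maps `A` into itself. -/
theorem evl_map_mem (A : ValuationSubring Qb) (σ : Γ) (hσ : σ • A = A) {a : Qb} (ha : a ∈ A) :
    σ a ∈ A := by
  have h : σ • a ∈ σ • A := ValuationSubring.smul_mem_pointwise_smul σ a A ha
  rw [hσ] at h
  exact h

/-- A valuation subring contains the roots of its elements. -/
theorem evl_mem_of_pow (A : ValuationSubring Qb) {θ : Qb} {p : ℕ} (hp : p ≠ 0)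
    (h : θ ^ p ∈ A) : θ ∈ A := by
  rw [← A.valuation_le_one_iff] at h ⊢
  rw [map_pow] at h
  exact (pow_le_one_iff_of_nonneg zero_le hp).1 h

/-- Congruent elements have congruent powers. -/
theorem evl_pow_sub_pow_mem (A : ValuationSubring Qb) {x y : Qb} (hx : x ∈ A) (hy : y ∈ A)
    (h : x - y ∈ A.nonunits) (j : ℕ) : x ^ j - y ^ j ∈ A.nonunits := by
  induction j with
  | zero =>
    simp only [pow_zero, sub_self]
    rw [A.mem_nonunits_iff, map_zero]
    exact zero_lt_one
  | succ n ih =>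
    have h1 : x ^ (n + 1) - y ^ (n + 1) = x ^ n * (x - y) + y * (x ^ n - y ^ n) := by ring
    rw [h1]
    exact A.nonunits.add_mem (val_mul_lt_one A (pow_mem hx n) h) (val_mul_lt_one A hy ih)

/-- Iterating a Frobenius-like element. -/
theorem evl_frob_iterate (A : ValuationSubring Qb) (σ : Γ) (n : ℕ) (hσ : σ • A = A)
    (hF : ∀ a : Qb, a ∈ A → σ a - a ^ n ∈ A.nonunits) (f : ℕ) :
    (σ ^ f) • A = A ∧ ∀ a : Qb, a ∈ A → (σ ^ f) a - a ^ (n ^ f) ∈ A.nonunits := by
  induction f with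
  | zero =>
    refine ⟨by simp, fun a _ => ?_⟩
    simp only [pow_zero, pow_one, AlgEquiv.one_apply, sub_self]
    rw [A.mem_nonunits_iff, map_zero]
    exact zero_lt_one
  | succ m ih =>
    obtain ⟨ih1, ih2⟩ := ih
    refine ⟨by rw [pow_succ, mul_smul, hσ, ih1], fun a ha => ?_⟩
    have h1 : (σ ^ (m + 1)) a = (σ ^ m) (σ a) := by rw [pow_succ]; rfl
    have h2 : a ^ (n ^ (m + 1)) = (a ^ n) ^ (n ^ m) := by rw [← pow_mul, pow_succ, mul_comm]
    have h3 : (σ ^ m) (σ a) - (a ^ n) ^ (n ^ m) =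
        ((σ ^ m) (σ a) - (σ a) ^ (n ^ m)) + ((σ a) ^ (n ^ m) - (a ^ n) ^ (n ^ m)) := by ring
    rw [h1, h2, h3]
    exact A.nonunits.add_mem (ih2 _ (evl_map_mem A σ hσ ha))
      (evl_pow_sub_pow_mem A (evl_map_mem A σ hσ ha) (pow_mem ha n) (hF a ha) _)

set_option synthInstance.maxHeartbeats 400000 in
set_option maxHeartbeats 1600000 in
/-- An element `τ` of the decomposition group of `𝒜` which acts trivially on the residue classes
of the algebraic integers of `E` agrees, on the whole residue field of `𝒜`, with an element of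
the decomposition group of `𝒜` in `Gal(ℚ̄/E)`. -/
theorem evl_exists_rel (E : IntermediateField ℚ Qb) (𝒜 : ValuationSubring Qb) (τ : Γ)
    (hτ : τ • 𝒜 = 𝒜) (hres : ∀ b : Zb, (b : Qb) ∈ E → τ (b : Qb) - (b : Qb) ∈ 𝒜.nonunits) :
    ∃ σ ∈ E.fixingSubgroup, σ • 𝒜 = 𝒜 ∧ ∀ a : Qb, a ∈ 𝒜 → σ a - τ a ∈ 𝒜.nonunits := by
  classical
  have hQprime : (centerIdeal 𝒜).IsPrime := centerIdeal_isPrime 𝒜
  have hHclosed : IsClosed (E.fixingSubgroup : Set Γ) :=
    InfiniteGalois.fixingSubgroup_isClosed E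
  have : CompactSpace E.fixingSubgroup := isCompact_iff_compactSpace.mp hHclosed.isCompact
  have hinv : Algebra.IsInvariant (FixedPoints.subring Zb E.fixingSubgroup) Zb E.fixingSubgroup :=
    ⟨fun b hb => ⟨⟨b, hb⟩, rfl⟩⟩
  have hτQ : τ • centerIdeal 𝒜 = centerIdeal 𝒜 := by
    rw [← lift_centerIdeal_smul, hτ]
  have hcong : ∀ b : Zb, b ∈ FixedPoints.subring Zb E.fixingSubgroup →
      τ • b - b ∈ centerIdeal 𝒜 := by
    intro b hb
    rw [mem_centerIdeal]
    exact hres b (lift_fixed_mem E b hb)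
  have hlies : (centerIdeal 𝒜).LiesOver
      ((centerIdeal 𝒜).under (FixedPoints.subring Zb E.fixingSubgroup)) := ⟨rfl⟩
  have hliesZ : (centerIdeal 𝒜).LiesOver ((centerIdeal 𝒜).under ℤ) := ⟨rfl⟩
  let φ₀ := Ideal.Quotient.stabilizerHom (centerIdeal 𝒜) ((centerIdeal 𝒜).under ℤ) Γ ⟨τ, hτQ⟩
  have hφ₀ : ∀ b : Zb, φ₀ (Ideal.Quotient.mk _ b) = Ideal.Quotient.mk _ (τ • b) := by
    intro b
    exact Ideal.Quotient.stabilizerHom_apply _ _ _ _ _
  let φ : (Zb ⧸ centerIdeal 𝒜) ≃ₐ[(FixedPoints.subring Zb E.fixingSubgroup) ⧸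
      (centerIdeal 𝒜).under (FixedPoints.subring Zb E.fixingSubgroup)] (Zb ⧸ centerIdeal 𝒜) :=
    AlgEquiv.ofRingEquiv (f := φ₀.toRingEquiv) (by
      intro r
      obtain ⟨⟨a, ha⟩, rfl⟩ := Ideal.Quotient.mk_surjective r
      show φ₀ (Ideal.Quotient.mk _ a) = Ideal.Quotient.mk _ a
      rw [hφ₀, Ideal.Quotient.eq]
      exact hcong a ha)
  obtain ⟨⟨h', hh'⟩, hφ⟩ := Ideal.Quotient.stabilizerHom_surjective_of_profinite
    (G := E.fixingSubgroup)
    ((centerIdeal 𝒜).under (FixedPoints.subring Zb E.fixingSubgroup)) (centerIdeal 𝒜) φ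
  have hh'Q : (h' : Γ) • centerIdeal 𝒜 = centerIdeal 𝒜 := hh'
  have hφ' : ∀ b : Zb, Ideal.Quotient.mk (centerIdeal 𝒜) ((h' : Γ) • b) =
      Ideal.Quotient.mk (centerIdeal 𝒜) (τ • b) := by
    intro b
    have h1 := congrArg (fun f => f (Ideal.Quotient.mk (centerIdeal 𝒜) b)) hφ
    simp only [Ideal.Quotient.stabilizerHom_apply] at h1
    rw [← hφ₀ b]
    exact h1
  have hσA : (h' : Γ) • 𝒜 = 𝒜 := smul_eq_of_smul_centerIdeal 𝒜 (h' : Γ) hh'Q
  have key : ∀ b : Zb, (h' : Γ) (b : Qb) - τ (b : Qb) ∈ 𝒜.nonunits := by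
    intro b
    have h1 := hφ' b
    rw [Ideal.Quotient.eq] at h1
    exact h1
  refine ⟨(h' : Γ), h'.2, hσA, ?_⟩
  intro a ha
  obtain ⟨b, s, hs, has⟩ := exists_mul_eq 𝒜 a ha
  have hs' : (h' : Γ) • s ∉ centerIdeal 𝒜 := by
    intro h
    apply hs
    rw [← hh'Q] at h
    exact Ideal.smul_mem_pointwise_smul_iff.mp h
  rw [not_mem_centerIdeal_iff_val, coe_smul_zbar] at hs'
  have hprod : ((h' : Γ) a - τ a) * (h' : Γ) (s : Qb) ∈ 𝒜.nonunits := by
    have h1 : (h' : Γ) a * (h' : Γ) (s : Qb) = (h' : Γ) (b : Qb) := by rw [← map_mul, has]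
    have h1' : τ a * τ (s : Qb) = τ (b : Qb) := by rw [← map_mul, has]
    have h2 : ((h' : Γ) a - τ a) * (h' : Γ) (s : Qb) =
        ((h' : Γ) (b : Qb) - τ (b : Qb)) - τ a * ((h' : Γ) (s : Qb) - τ (s : Qb)) := by
      linear_combination h1 - h1'
    rw [h2]
    exact 𝒜.nonunits.sub_mem (key b) (val_mul_lt_one 𝒜 (evl_map_mem 𝒜 τ hτ ha) (key s))
  rw [𝒜.mem_nonunits_iff] at hprod ⊢
  rwa [map_mul, hs', mul_one] at hprod

/-- The residue field of `k` at the prime below `B` is a finite field of characteristic `l`;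
packaged data: its cardinality is a power of `l` and every integer of `k` satisfies
`y ^ q ≡ y`. -/
theorem evl_card_residue (k : IntermediateField ℚ Qb) [NumberField k] (B : ValuationSubring Qb)
    (l : ℕ) (hl : l.Prime) (hB : (l : Qb) ∈ B.nonunits) :
    ∃ f : ℕ, Nat.card (𝓞 k ⧸ pl_below k B) = l ^ f ∧
      ∀ y : 𝓞 k, y ^ (l ^ f) - y ∈ pl_below k B := by
  classical
  have hmax : (pl_below k B).IsMaximal :=
    Ring.DimensionLEOne.maximalOfPrime (pl_below_ne_bot k B l hl hB) inferInstance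
  letI := Ideal.Quotient.field (pl_below k B)
  haveI : Finite (𝓞 k ⧸ pl_below k B) := inferInstance
  letI := Fintype.ofFinite (𝓞 k ⧸ pl_below k B)
  have hchar : CharP (𝓞 k ⧸ pl_below k B) l := by
    obtain ⟨c, hc⟩ := CharP.exists (𝓞 k ⧸ pl_below k B)
    have h0 : ((l : ℕ) : 𝓞 k ⧸ pl_below k B) = 0 := by
      have := Ideal.Quotient.eq_zero_iff_mem.mpr (pl_natCast_mem_below k B l hB)
      simpa using this
    have h1 : c ∣ l := (CharP.cast_eq_zero_iff (𝓞 k ⧸ pl_below k B) c l).mp h0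
    have h2 : c ≠ 1 := CharP.char_ne_one (𝓞 k ⧸ pl_below k B) c
    have h3 : c = l := ((Nat.dvd_prime hl).mp h1).resolve_left h2
    exact h3 ▸ hc
  obtain ⟨f, -, hcard⟩ := FiniteField.card (𝓞 k ⧸ pl_below k B) l
  refine ⟨f, by rw [Nat.card_eq_fintype_card, hcard], fun y => ?_⟩
  rw [← Ideal.Quotient.eq, map_pow, ← hcard, FiniteField.pow_card]

/-- **Relative Frobenius.** For a number field `k ⊆ ℚ̄` (not assumed Galois, no unramifiedness
assumption) and a valuation subring `B` of `ℚ̄` over `l`, there is an element of the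
decomposition group of `B` in `Gal(ℚ̄/k)` acting on the residue field of `B` as the `N(v)`-th
power map, `N(v)` the cardinality of the residue field of `k` at the prime below `B`. -/
theorem evl_exists_frob_rel (k : IntermediateField ℚ Qb) [NumberField k] (B : ValuationSubring Qb)
    (l : ℕ) (hl : l.Prime) (hB : (l : Qb) ∈ B.nonunits) :
    ∃ σ ∈ k.fixingSubgroup, σ • B = B ∧
      ∀ a : Qb, a ∈ B → σ a - a ^ Nat.card (𝓞 k ⧸ pl_below k B) ∈ B.nonunits := by
  obtain ⟨f, hNat, hq⟩ := evl_card_residue k B l hl hB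
  obtain ⟨Φ, hΦ, hΦF⟩ := evl_exists_frob B l hl hB
  obtain ⟨hτ, hτF⟩ := evl_frob_iterate B Φ l hΦ hΦF f
  have hres : ∀ b : Zb, (b : Qb) ∈ k → (Φ ^ f) (b : Qb) - (b : Qb) ∈ B.nonunits := by
    intro b hb
    obtain ⟨y, rfl⟩ := pl_exists_toZb_eq k b hb
    have h1 := hq y
    rw [pl_mem_below_iff] at h1
    have h2 := hτF _ (zbar_mem B (pl_toZb k y))
    have h3 : (Φ ^ f) ((pl_toZb k y : Zb) : Qb) - ((pl_toZb k y : Zb) : Qb) =
        ((Φ ^ f) ((pl_toZb k y : Zb) : Qb) - ((pl_toZb k y : Zb) : Qb) ^ (l ^ f)) +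
          (((y ^ (l ^ f) - y : 𝓞 k) : k) : Qb) := by
      rw [pl_toZb_coe]
      push_cast
      ring
    rw [h3]
    exact B.nonunits.add_mem h2 h1
  obtain ⟨σ, hσU, hσB, hσ⟩ := evl_exists_rel k B (Φ ^ f) hτ hres
  refine ⟨σ, hσU, hσB, fun a ha => ?_⟩
  rw [hNat]
  have h4 : σ a - a ^ (l ^ f) = (σ a - (Φ ^ f) a) + ((Φ ^ f) a - a ^ (l ^ f)) := by ring
  rw [h4]
  exact B.nonunits.add_mem (hσ a ha) (hτF a ha)

/-- In a domain containing (the image of) a finite field `K`, the fixed points of the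
`|K|`-th power map are exactly the elements of `K`. -/
theorem evl_roots_aux {K D : Type*} [Field K] [Fintype K] [CommRing D] [IsDomain D]
    (ψ : K →+* D) (x : D) (hx : x ^ Fintype.card K = x) : ∃ a : K, ψ a = x := by
  classical
  set q := Fintype.card K with hq
  have hq1 : 1 < q := Fintype.one_lt_card
  have hψinj : Function.Injective ψ := ψ.injective
  have hdeg : (Polynomial.X ^ q - Polynomial.X : Polynomial D).natDegree = q :=
by
    rw [Polynomial.natDegree_sub_eq_left_of_natDegree_lt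
      (by rw [Polynomial.natDegree_X_pow, Polynomial.natDegree_X]; exact hq1),
      Polynomial.natDegree_X_pow]
  have hP0 : (Polynomial.X ^ q - Polynomial.X : Polynomial D) ≠ 0 :=

    Polynomial.ne_zero_of_natDegree_gt (n := 1) (by rw [hdeg]; exact hq1)
  have hsub : Finset.univ.image ψ ⊆ (Polynomial.X ^ q - Polynomial.X : Polynomial D).roots.toFinset := by
    intro y hy
    obtain ⟨a, -, rfl⟩ := Finset.mem_image.1 hy
    rw [Multiset.mem_toFinset, Polynomial.mem_roots hP0]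
    simp only [Polynomial.IsRoot, Polynomial.eval_sub, Polynomial.eval_pow, Polynomial.eval_X]
    rw [← map_pow, hq, FiniteField.pow_card, sub_self]
  have hcard : (Finset.univ.image ψ).card = q := by
    rw [Finset.card_image_of_injective _ hψinj, Finset.card_univ]
  have hle : (Polynomial.X ^ q - Polynomial.X : Polynomial D).roots.toFinset.card ≤ q :=
    (Multiset.toFinset_card_le _).trans ((Polynomial.card_roots' _).trans hdeg.le)
  have heq : Finset.univ.image ψ = (Polynomial.X ^ q - Polynomial.X : Polynomial D).roots.toFinset :=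
    Finset.eq_of_subset_of_card_le hsub (by rw [hcard]; exact hle)
  have hη : x ∈ (Polynomial.X ^ q - Polynomial.X : Polynomial D).roots.toFinset := by
    rw [Multiset.mem_toFinset, Polynomial.mem_roots hP0]
    simp only [Polynomial.IsRoot, Polynomial.eval_sub, Polynomial.eval_pow, Polynomial.eval_X]
    rw [hx, sub_self]
  rw [← heq] at hη
  obtain ⟨a, -, ha⟩ := Finset.mem_image.1 hη
  exact ⟨a, ha⟩

/-- An algebraic integer whose residue class at `B` is fixed by the `N(v)`-th power map is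
congruent to an integer of `k`. -/
theorem evl_residue_of_pow_card (k : IntermediateField ℚ Qb) [NumberField k]
    (B : ValuationSubring Qb) (l : ℕ) (hl : l.Prime) (hB : (l : Qb) ∈ B.nonunits) (η : Zb)
    (h : (η : Qb) ^ Nat.card (𝓞 k ⧸ pl_below k B) - (η : Qb) ∈ B.nonunits) :
    ∃ y : 𝓞 k, (η : Qb) - ((y : k) : Qb) ∈ B.nonunits := by
  classical
  have hQprime := centerIdeal_isPrime B
  have hmax : (pl_below k B).IsMaximal :=
    Ring.DimensionLEOne.maximalOfPrime (pl_below_ne_bot k B l hl hB) inferInstance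
  letI := Ideal.Quotient.field (pl_below k B)
  haveI : Finite (𝓞 k ⧸ pl_below k B) := inferInstance
  letI := Fintype.ofFinite (𝓞 k ⧸ pl_below k B)
  rw [Nat.card_eq_fintype_card] at h
  have hx : (Ideal.Quotient.mk (centerIdeal B) η) ^ Fintype.card (𝓞 k ⧸ pl_below k B) =
      Ideal.Quotient.mk (centerIdeal B) η := by
    rw [← map_pow, Ideal.Quotient.eq, mem_centerIdeal]
    exact h
  obtain ⟨a, ha⟩ := evl_roots_aux
    (Ideal.quotientMap (centerIdeal B) (pl_toZb k)
      (show pl_below k B ≤ (centerIdeal B).comap (pl_toZb k) from le_rfl)) _ hx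
  obtain ⟨y, rfl⟩ := Ideal.Quotient.mk_surjective a
  refine ⟨y, ?_⟩
  rw [Ideal.quotientMap_mk, Ideal.Quotient.eq, mem_centerIdeal] at ha
  have h2 : (η : Qb) - ((y : k) : Qb) = -(((pl_toZb k y - η : Zb) : Zb) : Qb) := by
    push_cast
    rw [pl_toZb_coe]
    ring
  rw [h2]
  rw [B.mem_nonunits_iff] at ha ⊢
  rwa [Valuation.map_neg]

/-- **Decomposition group moves non-residual integers.** If the residue class at `B` of the
algebraic integer `η` does not come from `𝓞 k`, some element of the decomposition group of `B`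
in `Gal(ℚ̄/k)` moves `η`. -/
theorem evl_decomp_moves (k : IntermediateField ℚ Qb) [NumberField k] (B : ValuationSubring Qb)
    (l : ℕ) (hl : l.Prime) (hB : (l : Qb) ∈ B.nonunits) (η : Qb) (hηint : IsIntegral ℤ η)
    (hη : ∀ y : 𝓞 k, η - ((y : k) : Qb) ∉ B.nonunits) :
    ∃ σ ∈ k.fixingSubgroup, σ • B = B ∧ σ η ≠ η := by
  obtain ⟨σ, hσU, hσB, hσ⟩ := evl_exists_frob_rel k B l hl hB
  refine ⟨σ, hσU, hσB, fun hfix => ?_⟩
  have h1 := hσ η (zbar_mem B ⟨η, hηint⟩)
  rw [hfix] at h1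
  have h2 : η ^ Nat.card (𝓞 k ⧸ pl_below k B) - η ∈ B.nonunits := by
    rw [B.mem_nonunits_iff] at h1 ⊢
    rwa [← neg_sub, Valuation.map_neg]
  obtain ⟨y, hy⟩ := evl_residue_of_pow_card k B l hl hB ⟨η, hηint⟩ h2
  exact hη y hy

/-- **EV1.** (helper14's shape.)  `k ⊆ ℚ̄` a number field, `v = pl_place l k g` the place of `k`
cut out by `g • padicPlace l`, `e ∈ 𝓞 k` not a `p`-th power modulo `v`, `η ^ p = e`.  Then some
element of the local Galois group at `l`, conjugated by `g`, lies in `Gal(ℚ̄/k)` and moves `η`.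
No normality, no degree-one and no unramifiedness assumption. -/
theorem evl_ev1 (l : ℕ) [Fact l.Prime] (k : IntermediateField ℚ Qb) [NumberField k] (g : Γ)
    (p : ℕ) (e : 𝓞 k) (hres : ¬ ∃ x : 𝓞 k, e - x ^ p ∈ (pl_place l k g).asIdeal) (η : Qb)
    (hη : η ^ p = ((e : k) : Qb)) :
    ∃ x : PadicAlgCl l ≃ₐ[ℚ_[l]] PadicAlgCl l,
      g * localGaloisToGlobal l x * g⁻¹ ∈ k.fixingSubgroup ∧
        (g * localGaloisToGlobal l x * g⁻¹) η ≠ η := by
  have hl : l.Prime := Fact.out
  have hp : p ≠ 0 := by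
    rintro rfl
    apply hres
    refine ⟨1, ?_⟩
    have h1 : e = 1 := by
      apply RingOfIntegers.ext
      apply Subtype.ext
      rw [pow_zero] at hη
      rw [← hη]
      simp
    rw [h1, pow_zero, sub_self]
    exact Ideal.zero_mem _
  have heint : IsIntegral ℤ (((e : k) : Qb)) := (pl_toZb k e).2
  have hηint : IsIntegral ℤ η := IsIntegral.of_pow (Nat.pos_of_ne_zero hp) (hη ▸ heint)
  set B : ValuationSubring Qb := g • padicPlace l with hBdef
  have hB : (l : Qb) ∈ B.nonunits := pl_natCast_mem_nonunits_smul l g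
  have hne : ∀ y : 𝓞 k, η - ((y : k) : Qb) ∉ B.nonunits := by
    intro y hy
    apply hres
    refine ⟨y, ?_⟩
    rw [pl_place_asIdeal, pl_mem_below_iff]
    have h1 := evl_pow_sub_pow_mem B (zbar_mem B ⟨η, hηint⟩) (zbar_mem B (pl_toZb k y)) hy p
    rw [hη] at h1
    have h2 : (((e - y ^ p : 𝓞 k) : k) : Qb) = ((e : k) : Qb) - ((pl_toZb k y : Zb) : Qb) ^ p := by
      rw [pl_toZb_coe]
      push_cast
      ring
    rw [h2]
    exact h1
  obtain ⟨σ, hσU, hσB, hσ⟩ := evl_decomp_moves k B l hl hB η hηint hne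
  have hd : g⁻¹ * σ * g ∈ (padicPlace l).decompositionSubgroup ℚ := by
    rw [MulAction.mem_stabilizer_iff, mul_smul, mul_smul, ← hBdef, hσB, hBdef, inv_smul_smul]
  obtain ⟨x, hx⟩ := pl_exists_local_of_mem_decomposition l _ hd
  have hx' : g * localGaloisToGlobal l x * g⁻¹ = σ := by rw [hx]; group
  exact ⟨x, by rw [hx']; exact hσU, by rw [hx']; exact hσ⟩

/-- A real absolute value attached to `A` has `w = 1` exactly on the units of `A`. -/
theorem evl_w_eq_one_iff (A : ValuationSubring Qb) (V : RVal Qb) (hV1 : ∀ x, V.w x ≤ 1 ↔ x ∈ A)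
    (x : Qb) (hx : x ≠ 0) : V.w x = 1 ↔ x ∈ A ∧ x⁻¹ ∈ A := by
  constructor
  · intro h
    exact ⟨(hV1 x).1 h.le, (hV1 _).1 (by rw [V.w_inv, h, inv_one])⟩
  · rintro ⟨h1, h2⟩
    have a := (hV1 x).2 h1
    have b := (hV1 _).2 h2
    rw [V.w_inv] at b
    have hpos := V.w_pos x hx
    exact le_antisymm a ((inv_le_one₀ hpos).1 b)

/-- **Inertia moves roots of non-`N`-divisible valuation.** If `θ ^ N` has the absolute value of
`l ^ m` with `N ∤ m`, some element of the inertia group of `A` moves `θ`. -/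
theorem evl_inertia_moves (A : ValuationSubring Qb) (l : ℕ) (hl : l.Prime)
    (hA : (l : Qb) ∈ A.nonunits) (V : RVal Qb) (hV1 : ∀ x, V.w x ≤ 1 ↔ x ∈ A)
    (hV2 : ∀ x, V.w x < 1 ↔ x ∈ A.nonunits) (N : ℕ) (m : ℤ) (hN : ¬ (N : ℤ) ∣ m) (θ : Qb)
    (hθ : V.w (θ ^ N) = V.w (l : Qb) ^ m) :
    ∃ τ ∈ A.inertiaSubgroupIn ℚ, τ θ ≠ θ := by
  by_contra hcon
  push Not at hcon
  have hl0 : (l : Qb) ≠ 0 := by exact_mod_cast hl.ne_zero
  have hwl0 : 0 < V.w (l : Qb) := V.w_pos _ hl0
  have hwl1 : V.w (l : Qb) < 1 := (hV2 _).2 hA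
  have hinj := zpow_right_injective₀ hwl0 hwl1.ne
  have hθ0 : θ ≠ 0 := by
    rintro rfl
    rcases Nat.eq_zero_or_pos N with hN0 | hN0
    · subst hN0
      rw [pow_zero, V.w_one] at hθ
      have h0 : m = 0 := hinj (by simpa using hθ.symm)
      exact hN (by rw [h0]; exact dvd_zero _)
    · rw [zero_pow hN0.ne', V.w_zero] at hθ
      exact (zpow_pos hwl0 m).ne hθ
  obtain ⟨j, hj⟩ := inertia_fixed_w A hl hA V hV1 hV2 θ hθ0 hcon
  rw [V.w_pow, hj, ← zpow_natCast, ← zpow_mul] at hθ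
  have h1 := hinj hθ
  exact hN ⟨j, by rw [← h1, mul_comm]⟩

/-- **Bridge.** The `v`-adic valuation ring of `k` is the trace of `B`, `v` the prime of `𝓞 k`
below `B`. -/
theorem evl_valuation_le_one_iff (k : IntermediateField ℚ Qb) [NumberField k]
    (B : ValuationSubring Qb) (v : IsDedekindDomain.HeightOneSpectrum (𝓞 k))
    (hv : v.asIdeal = pl_below k B) (x : k) : v.valuation k x ≤ 1 ↔ (x : Qb) ∈ B := by
  have hunit : ∀ d : 𝓞 k, d ∉ v.asIdeal → B.valuation (((d : k) : Qb)) = 1 := by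
    intro d hd
    rw [hv, pl_mem_below_iff, B.mem_nonunits_iff, not_lt] at hd
    exact le_antisymm ((B.valuation_le_one_iff _).2 (zbar_mem B (pl_toZb k d))) hd
  have hvunit : ∀ d : 𝓞 k, d ∉ v.asIdeal → v.valuation k (algebraMap (𝓞 k) k d) = 1 := by
    intro d hd
    rw [IsDedekindDomain.HeightOneSpectrum.valuation_of_algebraMap,
      IsDedekindDomain.HeightOneSpectrum.intValuation_eq_one_iff_mem_primeCompl]
    exact hd
  constructor
  · intro h
    obtain ⟨n, ⟨d, hd⟩, hnd⟩ := v.exists_primeCompl_mul_eq_of_integer x h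
    have h1 : (x : Qb) * (((d : 𝓞 k) : k) : Qb) = (((n : 𝓞 k) : k) : Qb) := by
      have := congrArg (fun y : k => (y : Qb)) hnd
      simpa using this
    have h2 := congrArg B.valuation h1
    rw [map_mul, hunit d hd, mul_one] at h2
    rw [← B.valuation_le_one_iff, h2]
    exact (B.valuation_le_one_iff _).2 (zbar_mem B (pl_toZb k n))
  · intro h
    obtain ⟨n, ⟨d, hd⟩, hnd | hnd⟩ := v.exists_primeCompl_mul_eq_or_mul_eq (K := k) x
    · have h2 := congrArg (v.valuation k) hnd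
      rw [map_mul, hvunit d hd, mul_one] at h2
      rw [h2]
      exact v.valuation_le_one n
    · have hn : n ∉ v.asIdeal := by
        intro hn
        have hd' : d ∈ v.asIdeal := by
          rw [hv, pl_mem_below_iff] at hn ⊢
          have h1 : (x : Qb) * (((n : 𝓞 k) : k) : Qb) = (((d : 𝓞 k) : k) : Qb) := by
            have := congrArg (fun y : k => (y : Qb)) hnd
            simpa using this
          rw [← h1]
          exact val_mul_lt_one B h hn
        exact hd hd'
      have h2 := congrArg (v.valuation k) hnd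
      rw [map_mul, hvunit d hd, hvunit n hn, mul_one] at h2
      exact h2.le

/-- **Unramified value group.** If the inertia group of `B` fixes `k`, the `v`-adic valuation of
`k` (`v` the prime of `𝓞 k` below `B`) is read off from the absolute value `V` of `B`:
`V.w x = V.w l ^ m` with `log (v x) = m * log (v l)`, and `log (v l)` is a unit (i.e. `±1`). -/
theorem evl_unram_log (k : IntermediateField ℚ Qb) [NumberField k] (B : ValuationSubring Qb)
    (l : ℕ) (hl : l.Prime) (hB : (l : Qb) ∈ B.nonunits)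
    (v : IsDedekindDomain.HeightOneSpectrum (𝓞 k)) (hv : v.asIdeal = pl_below k B)
    (hunr : ∀ τ ∈ B.inertiaSubgroupIn ℚ, τ ∈ k.fixingSubgroup)
    (V : RVal Qb) (hV1 : ∀ x, V.w x ≤ 1 ↔ x ∈ B) (hV2 : ∀ x, V.w x < 1 ↔ x ∈ B.nonunits) :
    IsUnit (WithZero.log (v.valuation k (l : k))) ∧
      ∀ x : k, x ≠ 0 → ∃ m : ℤ, V.w (x : Qb) = V.w (l : Qb) ^ m ∧
        WithZero.log (v.valuation k x) = m * WithZero.log (v.valuation k (l : k)) := by
  have hl0 : (l : k) ≠ 0 := by exact_mod_cast hl.ne_zero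
  have hlQ0 : (l : Qb) ≠ 0 := by exact_mod_cast hl.ne_zero
  have hcoe0 : ∀ y : k, y ≠ 0 → (y : Qb) ≠ 0 := fun y hy h => hy (Subtype.ext h)
  have key : ∀ x : k, x ≠ 0 → ∃ m : ℤ, V.w (x : Qb) = V.w (l : Qb) ^ m ∧
        WithZero.log (v.valuation k x) = m * WithZero.log (v.valuation k (l : k)) := by
    intro x hx
    have hfix : ∀ σ ∈ B.inertiaSubgroupIn ℚ, σ (x : Qb) = x := fun σ hσ =>
      (IntermediateField.mem_fixingSubgroup_iff k σ).1 (hunr σ hσ) _ x.2
    obtain ⟨m, hm⟩ := inertia_fixed_w B hl hB V hV1 hV2 (x : Qb) (hcoe0 x hx) hfix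
    refine ⟨m, hm, ?_⟩
    set u : k := x / (l : k) ^ m with hu
    have hu0 : u ≠ 0 := div_ne_zero hx (zpow_ne_zero _ hl0)
    have huQ : (u : Qb) = (x : Qb) / (l : Qb) ^ m := by
      rw [hu]
      push_cast
      rfl
    have hw : V.w (u : Qb) = 1 := by
      rw [huQ, V.w_div, V.w_zpow, hm]
      exact div_self (zpow_ne_zero _ (V.w_ne_zero hlQ0))
    obtain ⟨h1, h2⟩ := (evl_w_eq_one_iff B V hV1 (u : Qb) (hcoe0 u hu0)).1 hw
    have h3 : v.valuation k u ≤ 1 := (evl_valuation_le_one_iff k B v hv u).2 h1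
    have h4 : v.valuation k u⁻¹ ≤ 1 :=
      (evl_valuation_le_one_iff k B v hv u⁻¹).2 (by push_cast; exact h2)
    have h5 : v.valuation k u = 1 := by
      refine le_antisymm h3 ?_
      rw [map_inv₀] at h4
      exact (inv_le_one₀ (lt_of_le_of_ne zero_le ((Valuation.ne_zero_iff _).2 hu0).symm)).1 h4
    have h6 : x = u * (l : k) ^ m := by
      rw [hu, div_mul_cancel₀ _ (zpow_ne_zero _ hl0)]
    have h7 : v.valuation k x = v.valuation k (l : k) ^ m := by
      conv_lhs => rw [h6]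
      rw [map_mul, h5, one_mul, map_zpow₀]
    rw [h7, WithZero.log_zpow, smul_eq_mul]
  refine ⟨?_, key⟩
  obtain ⟨π, hπ⟩ := v.valuation_exists_uniformizer k
  have hπ0 : π ≠ 0 := by
    rintro rfl
    rw [map_zero] at hπ
    exact WithZero.exp_ne_zero hπ.symm
  obtain ⟨j, -, hj⟩ := key π hπ0
  rw [hπ, WithZero.log_exp] at hj
  exact IsUnit.of_mul_eq_one (-j) (by linarith)

/-- The inertia group of `g • padicPlace l` is the `g`-conjugate of the image of the local
inertia group (in the sense `ι x ∈ (padicPlace l).inertiaSubgroupIn ℚ`). -/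
theorem evl_inertia_smul_padicPlace (l : ℕ) [Fact l.Prime] (g τ : Γ)
    (hτ : τ ∈ (g • padicPlace l).inertiaSubgroupIn ℚ) :
    ∃ x : PadicAlgCl l ≃ₐ[ℚ_[l]] PadicAlgCl l,
      localGaloisToGlobal l x ∈ (padicPlace l).inertiaSubgroupIn ℚ ∧
        g * localGaloisToGlobal l x * g⁻¹ = τ := by
  have h1 : g⁻¹ * τ * g ∈ (padicPlace l).inertiaSubgroupIn ℚ := by
    have h := pt_inertia_conj (g • padicPlace l) g⁻¹ τ hτ
    rwa [inv_inv, inv_smul_smul] at h
  have h2 : g⁻¹ * τ * g ∈ (padicPlace l).decompositionSubgroup ℚ := by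
    rw [MulAction.mem_stabilizer_iff]
    exact ((pt_mem_inertia_iff _ _).1 h1).1
  obtain ⟨x, hx⟩ := pl_exists_local_of_mem_decomposition l _ h2
  refine ⟨x, hx ▸ h1, ?_⟩
  rw [hx]
  group

/-- **EV2.** (helper14's shape.)  `k ⊆ ℚ̄` a number field unramified at `B = g • padicPlace l`
(the `g`-conjugates of local inertia lie in `Gal(ℚ̄/k)`), `c ∈ kˣ` with `p ∤ ord_v(c)` for
`v = pl_place l k g` (`ord_v c = - WithZero.log (v.valuation k c)`), `ϖ ^ p = c`.  Then some
`g`-conjugate of a local inertia element moves `ϖ`. -/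
theorem evl_ev2 (l : ℕ) [Fact l.Prime] (k : IntermediateField ℚ Qb) [NumberField k] (g : Γ)
    (hunr : ∀ x : PadicAlgCl l ≃ₐ[ℚ_[l]] PadicAlgCl l,
      localGaloisToGlobal l x ∈ (padicPlace l).inertiaSubgroupIn ℚ →
        g * localGaloisToGlobal l x * g⁻¹ ∈ k.fixingSubgroup)
    (p : ℕ) (c : k) (hc : c ≠ 0)
    (hp : ¬ (p : ℤ) ∣ WithZero.log ((pl_place l k g).valuation k c)) (ϖ : Qb)
    (hϖ : ϖ ^ p = (c : Qb)) :
    ∃ x : PadicAlgCl l ≃ₐ[ℚ_[l]] PadicAlgCl l,
      localGaloisToGlobal l x ∈ (padicPlace l).inertiaSubgroupIn ℚ ∧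
        (g * localGaloisToGlobal l x * g⁻¹) ϖ ≠ ϖ := by
  have hl : l.Prime := Fact.out
  have hB : (l : Qb) ∈ (g • padicPlace l).nonunits := pl_natCast_mem_nonunits_smul l g
  have hunrB : ∀ τ ∈ (g • padicPlace l).inertiaSubgroupIn ℚ, τ ∈ k.fixingSubgroup := by
    intro τ hτ
    obtain ⟨x, hx1, hx2⟩ := evl_inertia_smul_padicPlace l g τ hτ
    rw [← hx2]
    exact hunr x hx1
  obtain ⟨V, hV1, hV2⟩ := exists_rval (g • padicPlace l) hl hB
  obtain ⟨-, key⟩ := evl_unram_log k (g • padicPlace l) l hl hB (pl_place l k g) rfl hunrB V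
    hV1 hV2
  obtain ⟨m, hm, hlog⟩ := key c hc
  have hpm : ¬ (p : ℤ) ∣ m := fun h => hp (hlog ▸ Dvd.dvd.mul_right h _)
  obtain ⟨τ, hτ, hτϖ⟩ := evl_inertia_moves (g • padicPlace l) l hl hB V hV1 hV2 p m hpm ϖ
    (by rw [hϖ]; exact hm)
  obtain ⟨x, hx1, hx2⟩ := evl_inertia_smul_padicPlace l g τ hτ
  exact ⟨x, hx1, by rw [hx2]; exact hτϖ⟩

/-- Ideal-theoretic form of the order: `c ∈ v ^ n ∖ v ^ (n + 1)` gives
`log (v c) = - n`. -/
theorem evl_log_valuation_of_mem_pow (k : IntermediateField ℚ Qb) [NumberField k]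
    (v : IsDedekindDomain.HeightOneSpectrum (𝓞 k)) (c : 𝓞 k) (n : ℕ)
    (h1 : c ∈ v.asIdeal ^ n) (h2 : c ∉ v.asIdeal ^ (n + 1)) :
    WithZero.log (v.valuation k (c : k)) = -(n : ℤ) := by
  have hc0 : c ≠ 0 := by
    rintro rfl
    exact h2 (Ideal.zero_mem _)
  have hne : v.intValuation c ≠ 0 := v.intValuation_ne_zero c hc0
  have ha : v.intValuation c = WithZero.exp (WithZero.log (v.intValuation c)) :=
    (WithZero.exp_log hne).symm
  have h1' := (v.intValuation_le_pow_iff_mem c n).2 h1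
  have h2' := mt (v.intValuation_le_pow_iff_mem c (n + 1)).1 h2
  rw [ha, WithZero.exp_le_exp] at h1' h2'
  have h3 : v.valuation k (c : k) = v.intValuation c := v.valuation_of_algebraMap c
  rw [h3]
  push_cast at h2'
  omega

end

end Fermat.Agent.S55
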