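import Fermat.Agent.S55.Trace

/-!
# S55, block TR: the predicate "`τ` is a trace with evaluation formula"

`tr_IsTrace D hD O ρT inv invW τ` : the functional `τ` on cone 3-cochains kills cone
coboundaries, is the sum of the local functionals `inv v` on purely local cochains, and satisfies
the evaluation formula of `tr_exists` with respect to the outside functionals `invW w`.

* `tr_isTrace_tau` : the trace `tr_tau hL I` of `Trace.lean` is a trace in this sense;
* this is the shape in which the trace is transported to subgroups (block TRU) and consumed by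
  the base case (block BASE-INST).
-/

set_option autoImplicit false
set_option linter.unusedSectionVars false

namespace Fermat.Agent.S55

universe u v w v' w'

section

variable {k : Type*} [Field k] {G : Type u} [Group G] {L Linf : hc_Lev G}
  (D : hc_Loc.{u, v, w} L) [Fintype D.V]
  (hD : ∀ v, hc_LevCompat (D.Lv v) Linf (D.ι v))
  (O : tr_Out.{u, v', w'} L Linf)
  {T : Type*} [AddCommGroup T] [Module k T] (ρT : Representation k G T)

/-- `τ` is a trace for the local functionals `inv` (places of the cone) and `invW` (outside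
places): it kills cone coboundaries, restricts to the sum of the `inv v` on purely local
cochains, and satisfies the evaluation formula on `(d z, c)` for `z` of the finer level
structure `Linf`. -/
structure tr_IsTrace (inv : ∀ v : D.V, hc_C2 (D.Lv v) (ρT.comp (D.ι v)) →ₗ[k] k)
    (invW : ∀ w : O.W, hc_C2 (O.LW w) (ρT.comp (O.ι w)) →ₗ[k] k)
    (τ : hc_Cc3 D ρT →ₗ[k] k) : Prop where
  dc2 : ∀ x : hc_Cc2 D ρT, τ (hc_dc2 D ρT x) = 0
  loc : ∀ a : ∀ v : D.V, hc_C2 (D.Lv v) (ρT.comp (D.ι v)), τ (0, a) = ∑ v, inv v (a v)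
  eval : ∀ (a3 : hc_C3 L ρT) (c : ∀ v : D.V, hc_C2 (D.Lv v) (ρT.comp (D.ι v)))
    (z : hc_C2 Linf ρT) (e : ∀ w : O.W, hc_C2 (O.LW w) (ρT.comp (O.ι w))),
    (a3 : G × G × G → T) = hc_d23f ρT (z : G × G → T) →
    (∀ w, hc_IsLev2 (ρT.comp (O.ι w)) (O.I w) (e w : O.H w × O.H w → T) ∧
      hc_d23 (O.LW w) (ρT.comp (O.ι w)) (e w)
        = hc_res3 (O.compat w) ρT (hc_d23 Linf ρT z)) →
    τ (a3, c) = ∑ v, inv v (c v - hc_res2 (hD v) ρT z)
      + ∑ᶠ w, invW w (e w - hc_res2 (O.compat w) ρT z)

variable {D hD O ρT}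

/-- The trace of `Trace.lean` is a trace. -/
theorem tr_isTrace_tau (hL : ∀ N ∈ L.S, ∃ N' ∈ Linf.S, N' ≤ N) (I : tr_Inv D hD O ρT) :
    tr_IsTrace D hD O ρT I.inv I.invW (tr_tau hL I) :=
  ⟨tr_tau_dc2 hL I, tr_tau_loc hL I, tr_tau_eval hL I⟩

end

end Fermat.Agent.S55
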