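import Fermat.Agent.S55.IfaceBase
import Fermat.Agent.S55.TrIs

/-!
# S55, block BASE-INST: the inputs `[L1]`, `[L2]`, `[G4]` of the base case from a trace with
evaluation formula and the leaf contracts

Setting: a leveled group `G` (`L ≤ Linf`), local data `D`, outside data `O`, trivial
coefficients `k` (pairing = multiplication, target `k` with a representation `ρT` which is
trivial), a functional `τ` which is a trace (`tr_IsTrace`) for local functionals `inv`, `invW`.

* `bi_hL1`  : `[L1]` from `[LC3]` (the local functionals are injective on local `H²`);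
* `bi_hL2`  : `[L2]` from `[LC4']` (nonzero local characters are detected by cup products);
* `bi_hG4`  : `[G4]` from `[G4a]` (a finite-level 1-cochain `β` with `d β` of level `L` and
  unramified trivialisations at the outside places such that exactly one outside place
  contributes);
* `bi_inputs` : assembly into helper26's `pt_UInputs`.
-/

set_option autoImplicit false
set_option linter.unusedSectionVars false
set_option linter.unusedVariables false

namespace Fermat.Agent.S55

universe v' w'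

section general

variable {k : Type} [Field k] {G : Type} [Group G] {L Linf : hc_Lev G}

/-- inclusion of level 1-cochains for a coarser level structure into those of a finer one. -/
def bi_incl1 (hL : ∀ N ∈ L.S, ∃ N' ∈ Linf.S, N' ≤ N) {M : Type*} [AddCommGroup M] [Module k M]
    (ρ : Representation k G M) : hc_C1 L ρ →ₗ[k] hc_C1 Linf ρ :=
  (LinearMap.id : (G → M) →ₗ[k] (G → M)).restrict fun _ ⟨N, hN, h⟩ => by
    obtain ⟨N', hN', hle⟩ := hL N hN
    exact ⟨N', hN', h.mono hle⟩

@[simp] lemma bi_incl1_coe (hL : ∀ N ∈ L.S, ∃ N' ∈ Linf.S, N' ≤ N) {M : Type*}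
    [AddCommGroup M] [Module k M] (ρ : Representation k G M) (f : hc_C1 L ρ) :
    (bi_incl1 hL ρ f : G → M) = f := rfl

/-- For the trivial representation `d⁰ = 0`. -/
lemma bi_d01_triv {H : Type} [Group H] (LH : hc_Lev H) (ι : H →* G)
    (m : hc_C0 LH ((Representation.trivial k G k).comp ι)) :
    hc_d01 LH ((Representation.trivial k G k).comp ι) m = 0 := by
  apply Subtype.ext
  funext g
  simp [hc_d01_coe, hc_d01f_apply]

/-- Every element of `k` is a level 0-cochain for the trivial representation. -/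
lemma bi_mem_C0_triv {H : Type} [Group H] (LH : hc_Lev H) (ι : H →* G) (c : k) :
    c ∈ hc_C0 LH ((Representation.trivial k G k).comp ι) := by
  obtain ⟨N, hN⟩ := LH.ne
  exact ⟨N, hN, fun s _ => rfl⟩

variable (D : hc_Loc.{0, 0, 0} L) [Fintype D.V]
  (hD : ∀ v, hc_LevCompat (D.Lv v) Linf (D.ι v))
  (O : tr_Out.{0, v', w'} L Linf)
  {ρT : Representation k G k}
  (hφ : ∀ g a b, LinearMap.mul k k (Representation.trivial k G k g a)
    (Representation.trivial k G k g b) = ρT g (LinearMap.mul k k a b))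
  {inv : ∀ v : D.V, hc_C2 (D.Lv v) (ρT.comp (D.ι v)) →ₗ[k] k}
  {invW : ∀ w : O.W, hc_C2 (O.LW w) (ρT.comp (O.ι w)) →ₗ[k] k}
  {τ : hc_Cc3 D ρT →ₗ[k] k}
  (hτ : tr_IsTrace D hD O ρT inv invW τ)

include hτ in
/-- **`[L1]` from `[LC3]`**: if the local functionals are injective on the local `H²`, then a
global 2-cocycle which pairs to zero with all local invariants is locally a coboundary. -/
theorem bi_hL1 (hT : ρT = Representation.trivial k G k)
    (hLC3 : ∀ (v : D.V) (x : hc_C2 (D.Lv v) (ρT.comp (D.ι v))),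
      hc_d23 (D.Lv v) (ρT.comp (D.ι v)) x = 0 → inv v x = 0 →
      x ∈ LinearMap.range (hc_d12 (D.Lv v) (ρT.comp (D.ι v))))
    (y : hc_C2 L (Representation.trivial k G k))
    (hy : hc_d23 L (Representation.trivial k G k) y = 0)
    (h : ∀ c ∈ hcb_Z0 D (Representation.trivial k G k),
      τ ((0 : hc_C3 L ρT), fun v =>
        hc_cup02 (D.Lv v) (hc_equiv₂_loc D hφ v) (c v)
          (hc_res2 (D.compat v) (Representation.trivial k G k) y)) = 0)
    (v : D.V) :
    hc_res2 (D.compat v) (Representation.trivial k G k) y ∈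
      LinearMap.range (hc_d12 (D.Lv v) ((Representation.trivial k G k).comp (D.ι v))) := by
  classical
  subst hT
  let c : hcb_C0 D (Representation.trivial k G k) := fun v' =>
    ⟨if v' = v then 1 else 0, bi_mem_C0_triv (D.Lv v') (D.ι v') _⟩
  have hc : c ∈ hcb_Z0 D (Representation.trivial k G k) :=
    hcb_mem_Z0.2 fun v' => bi_d01_triv (D.Lv v') (D.ι v') (c v')
  have h1 := h c hc
  rw [hτ.loc] at h1
  have h2 : ∀ v' ∈ Finset.univ, v' ≠ v →
      inv v' (hc_cup02 (D.Lv v') (hc_equiv₂_loc D hφ v') (c v')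
        (hc_res2 (D.compat v') (Representation.trivial k G k) y)) = 0 := by
    intro v' _ hv'
    have hc0 : c v' = 0 := Subtype.ext (if_neg hv')
    rw [hc0, map_zero, LinearMap.zero_apply, map_zero]
  rw [Finset.sum_eq_single v h2 (fun hv => absurd (Finset.mem_univ v) hv)] at h1
  have h3 : hc_cup02 (D.Lv v) (hc_equiv₂_loc D hφ v) (c v)
      (hc_res2 (D.compat v) (Representation.trivial k G k) y)
        = hc_res2 (D.compat v) (Representation.trivial k G k) y := by
    apply Subtype.ext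
    funext x
    simp [c]
  rw [h3] at h1
  refine hLC3 v _ ?_ h1
  rw [← hc_res3_d23, hy, map_zero]

include hτ in
/-- **`[L2]` from `[LC4']`**: a global 1-cocycle which is not locally trivial is detected by a
local cup product. -/
theorem bi_hL2
    (hLC4 : ∀ (v : D.V) (χ0 : hc_C1 (D.Lv v) ((Representation.trivial k G k).comp (D.ι v))),
      hc_d12 (D.Lv v) ((Representation.trivial k G k).comp (D.ι v)) χ0 = 0 → χ0 ≠ 0 →
      ∃ ψ : hc_C1 (D.Lv v) ((Representation.trivial k G k).comp (D.ι v)),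
        hc_d12 (D.Lv v) ((Representation.trivial k G k).comp (D.ι v)) ψ = 0 ∧
          inv v (hc_cup11 (D.Lv v) (hc_equiv₂_loc D hφ v) ψ χ0) ≠ 0)
    (y : hc_C1 L (Representation.trivial k G k))
    (hy : hc_d12 L (Representation.trivial k G k) y = 0)
    (hloc : hcb_loc D (Representation.trivial k G k) y ∉
      hcb_BL1 D (Representation.trivial k G k)) :
    ∃ l ∈ hcb_ZL1 D (Representation.trivial k G k),
      τ ((0 : hc_C3 L ρT), fun v =>
        hc_cup11 (D.Lv v) (hc_equiv₂_loc D hφ v) (l v)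
          (hc_res1 (D.compat v) (Representation.trivial k G k) y)) ≠ 0 := by
  classical
  obtain ⟨v, hv⟩ : ∃ v, hc_res1 (D.compat v) (Representation.trivial k G k) y ≠ 0 := by
    by_contra hcon
    rw [not_exists] at hcon
    have hcon : ∀ v, hc_res1 (D.compat v) (Representation.trivial k G k) y = 0 :=
      fun v => not_not.mp (hcon v)
    refine hloc (hcb_mem_BL1.2 ⟨0, fun v => ?_⟩)
    rw [hcb_loc_apply, hcon v, Pi.zero_apply, map_zero]
  obtain ⟨ψ, hψ, hψ'⟩ := hLC4 v _ (by rw [← hc_res2_d12, hy, map_zero]) hv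
  refine ⟨Pi.single v ψ, hcb_mem_ZL1.2 fun v' => ?_, ?_⟩
  · by_cases hv' : v' = v
    · subst hv'
      rw [Pi.single_eq_same]
      exact hψ
    · rw [Pi.single_eq_of_ne hv', map_zero]
  · rw [hτ.loc]
    have h2 : ∀ v' ∈ Finset.univ, v' ≠ v →
        inv v' (hc_cup11 (D.Lv v') (hc_equiv₂_loc D hφ v')
          ((Pi.single v ψ : hcb_L1 D (Representation.trivial k G k)) v')
          (hc_res1 (D.compat v') (Representation.trivial k G k) y)) = 0 := by
      intro v' _ hv'
      rw [Pi.single_eq_of_ne hv', map_zero, LinearMap.zero_apply, map_zero]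
    rw [Finset.sum_eq_single v h2 (fun hv => absurd (Finset.mem_univ v) hv), Pi.single_eq_same]
    exact hψ'

include hτ in
/-- **`[G4]` from `[G4a]`**: a nonzero global 1-cocycle `y` is detected by the cone 2-cocycle
`(d β, (β|_v)_v)` of a finite-level 1-cochain `β` with `d β` of level `L`, provided exactly one
outside place contributes to the evaluation formula for `β ∪ y`. -/
theorem bi_hG4 (hL : ∀ N ∈ L.S, ∃ N' ∈ Linf.S, N' ≤ N)
    (y : hc_C1 L (Representation.trivial k G k))
    (hy : hc_d12 L (Representation.trivial k G k) y = 0)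
    (β : hc_C1 Linf (Representation.trivial k G k))
    (hβ : hc_d12f (Representation.trivial k G k) (β : G → k) ∈
      hc_C2 L (Representation.trivial k G k))
    (e : ∀ w : O.W, hc_C2 (O.LW w) (ρT.comp (O.ι w))) (w0 : O.W)
    (he : ∀ w, hc_IsLev2 (ρT.comp (O.ι w)) (O.I w) (e w : O.H w × O.H w → k) ∧
      hc_d23 (O.LW w) (ρT.comp (O.ι w)) (e w) = hc_res3 (O.compat w) ρT
        (hc_d23 Linf ρT (hc_cup11 Linf hφ β (bi_incl1 hL (Representation.trivial k G k) y))))
    (he0 : ∀ w, w ≠ w0 → e w = hc_res2 (O.compat w) ρT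
      (hc_cup11 Linf hφ β (bi_incl1 hL (Representation.trivial k G k) y)))
    (hne : invW w0 (e w0 - hc_res2 (O.compat w0) ρT
      (hc_cup11 Linf hφ β (bi_incl1 hL (Representation.trivial k G k) y))) ≠ 0) :
    ∃ z : hc_Cc2 D (Representation.trivial k G k),
      hc_dc2 D (Representation.trivial k G k) z = 0 ∧ hc_b21 hφ τ z y ≠ 0 := by
  classical
  let z : hc_Cc2 D (Representation.trivial k G k) :=
    (⟨hc_d12f (Representation.trivial k G k) (β : G → k), hβ⟩,
      fun v => hc_res1 (hD v) (Representation.trivial k G k) β)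
  have hz : hc_dc2 D (Representation.trivial k G k) z = 0 := by
    refine Prod.ext (Subtype.ext ?_) (funext fun v => Subtype.ext ?_)
    · exact hc_d23f_d12f (Representation.trivial k G k) _
    · funext ⟨g, h⟩
      simp [z, hc_d12f_apply, hc_res2_coe, hc_res1_coe, hc_dc2_snd, hc_d12_coe, map_mul]
  refine ⟨z, hz, ?_⟩
  have hev := hτ.eval (hc_cup21 L hφ z.1 y)
    (fun v => hc_cup11 (D.Lv v) (hc_equiv₂_loc D hφ v) (z.2 v)
      (hc_res1 (D.compat v) (Representation.trivial k G k) y))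
    (hc_cup11 Linf hφ β (bi_incl1 hL (Representation.trivial k G k) y)) e ?_ he
  · rw [hc_b21_apply]
    have h1 : hc_ccup21 D hφ z y = (hc_cup21 L hφ z.1 y,
        fun v => hc_cup11 (D.Lv v) (hc_equiv₂_loc D hφ v) (z.2 v)
          (hc_res1 (D.compat v) (Representation.trivial k G k) y)) := rfl
    rw [h1, hev]
    have h2 : ∀ v, hc_cup11 (D.Lv v) (hc_equiv₂_loc D hφ v) (z.2 v)
        (hc_res1 (D.compat v) (Representation.trivial k G k) y) - hc_res2 (hD v) ρT
          (hc_cup11 Linf hφ β (bi_incl1 hL (Representation.trivial k G k) y)) = 0 := by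
      intro v
      rw [sub_eq_zero]
      apply Subtype.ext
      funext x
      rfl
    simp only [h2, map_zero, Finset.sum_const_zero, zero_add]
    rw [finsum_eq_single _ w0 (fun w hw => by rw [he0 w hw, sub_self, map_zero])]
    exact hne
  · have h3 := hc_leibniz11f hφ (β : G → k) (y : G → k)
    have h4 : hc_d12f (Representation.trivial k G k) (y : G → k) = 0 := congrArg Subtype.val hy
    rw [h4, map_zero, sub_zero] at h3
    exact h3.symm

end general

section assemble

variable {Γ : Type} [Group Γ] {p : ℕ} [Fact p.Prime] (χ : Γ →* (ZMod p)ˣ) (U : Subgroup Γ)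
  {LU LUinf : hc_Lev ↥U} (DU : hc_Loc.{0, 0, 0} LU) [Fintype DU.V]
  (hDU : ∀ v, hc_LevCompat (DU.Lv v) LUinf (DU.ι v))
  (OU : tr_Out.{0, v', w'} LU LUinf)
  (hL : ∀ N ∈ LU.S, ∃ N' ∈ LUinf.S, N' ≤ N)
  {inv : ∀ v : DU.V, hc_C2 (DU.Lv v) ((idual_rhoN χ U).comp (DU.ι v)) →ₗ[ZMod p] ZMod p}
  {invW : ∀ w : OU.W, hc_C2 (OU.LW w) ((idual_rhoN χ U).comp (OU.ι w)) →ₗ[ZMod p] ZMod p}
  {τU : hc_Cc3 DU (idual_rhoN χ U) →ₗ[ZMod p] ZMod p}

/-- **The base-case inputs from the leaf contracts.**  Given that `τU` is a trace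
(`tr_IsTrace`) for the local functionals `inv`, `invW` on the leveled group `U ≤ ker χ`, the
inputs `pt_UInputs` of the base case follow from:
`[L3]` (`g`, `hg`, `hW`), `[G1]` (`f`, `hf`, `hf0`, `hV`), `[G2]` (`δ`, `hδ`, `hR`),
`[LC3]` (`hLC3`), `[LC4']` (`hLC4`) and `[G4a]` (`hG4a`). -/
noncomputable def bi_inputs (hU : U ≤ χ.ker)
    (hτ : tr_IsTrace DU hDU OU (idual_rhoN χ U) inv invW τU)
    (m r : ℕ)
    -- `[L3]`
    {W : Type} [AddCommGroup W] [Module (ZMod p) W] [Module.Finite (ZMod p) W]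
    (g : ↥(hcb_ZL1 DU (Representation.trivial (ZMod p) U (ZMod p))) →ₗ[ZMod p] W)
    (hg : ∀ x, g x = 0 → (x : hcb_L1 DU (Representation.trivial (ZMod p) U (ZMod p))) ∈ hcb_BL1 DU (Representation.trivial (ZMod p) U (ZMod p)))
    (hW : Module.finrank (ZMod p) W ≤ 2 * m)
    -- `[G1]`
    {V : Type} [AddCommGroup V] [Module (ZMod p) V] [Module.Finite (ZMod p) V]
    (f : V →ₗ[ZMod p] hc_C1 LU (Representation.trivial (ZMod p) U (ZMod p)))
    (hf : ∀ v, hc_d12 LU (Representation.trivial (ZMod p) U (ZMod p)) (f v) = 0)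
    (hf0 : ∀ v, f v ∈ LinearMap.range (hc_d01 LU (Representation.trivial (ZMod p) U (ZMod p))) → v = 0)
    (hV : m + r ≤ Module.finrank (ZMod p) V)
    -- `[G2]`
    {R : Type} [AddCommGroup R] [Module (ZMod p) R] [Module.Finite (ZMod p) R]
    (δ : R →ₗ[ZMod p] hc_C2 LU (Representation.trivial (ZMod p) U (ZMod p)))
    (hδ : ∀ z : hc_Cc2 DU (Representation.trivial (ZMod p) U (ZMod p)), hc_dc2 DU (Representation.trivial (ZMod p) U (ZMod p)) z = 0 →
      ∃ c t, z.1 = δ c + hc_d12 LU (Representation.trivial (ZMod p) U (ZMod p)) t)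
    (hR : Module.finrank (ZMod p) R ≤ r)
    -- `[LC3]`
    (hLC3 : ∀ (v : DU.V) (x : hc_C2 (DU.Lv v) ((idual_rhoN χ U).comp (DU.ι v))),
      hc_d23 (DU.Lv v) ((idual_rhoN χ U).comp (DU.ι v)) x = 0 → inv v x = 0 →
      x ∈ LinearMap.range (hc_d12 (DU.Lv v) ((idual_rhoN χ U).comp (DU.ι v))))
    -- `[LC4']`
    (hLC4 : ∀ (v : DU.V) (χ0 : hc_C1 (DU.Lv v) ((Representation.trivial (ZMod p) U (ZMod p)).comp (DU.ι v))),
      hc_d12 (DU.Lv v) ((Representation.trivial (ZMod p) U (ZMod p)).comp (DU.ι v)) χ0 = 0 → χ0 ≠ 0 →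
      ∃ ψ : hc_C1 (DU.Lv v) ((Representation.trivial (ZMod p) U (ZMod p)).comp (DU.ι v)),
        hc_d12 (DU.Lv v) ((Representation.trivial (ZMod p) U (ZMod p)).comp (DU.ι v)) ψ = 0 ∧
          inv v (hc_cup11 (DU.Lv v) (hc_equiv₂_loc DU (pt_hφ_triv χ U hU) v) ψ χ0) ≠ 0)
    -- `[G4a]`
    (hG4a : ∀ y : hc_C1 LU (Representation.trivial (ZMod p) U (ZMod p)), hc_d12 LU (Representation.trivial (ZMod p) U (ZMod p)) y = 0 →
      (∀ v, hc_res1 (DU.compat v) (Representation.trivial (ZMod p) U (ZMod p)) y = 0) → y ≠ 0 →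
      ∃ (β : hc_C1 LUinf (Representation.trivial (ZMod p) U (ZMod p))) (_ : hc_d12f (Representation.trivial (ZMod p) U (ZMod p)) (β : ↥U → ZMod p) ∈ hc_C2 LU (Representation.trivial (ZMod p) U (ZMod p)))
        (e : ∀ w : OU.W, hc_C2 (OU.LW w) ((idual_rhoN χ U).comp (OU.ι w))) (w0 : OU.W),
        (∀ w, hc_IsLev2 ((idual_rhoN χ U).comp (OU.ι w)) (OU.I w)
            (e w : OU.H w × OU.H w → ZMod p) ∧
          hc_d23 (OU.LW w) ((idual_rhoN χ U).comp (OU.ι w)) (e w)
            = hc_res3 (OU.compat w) (idual_rhoN χ U) (hc_d23 LUinf (idual_rhoN χ U)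
              (hc_cup11 LUinf (pt_hφ_triv χ U hU) β (bi_incl1 hL (Representation.trivial (ZMod p) U (ZMod p)) y)))) ∧
        (∀ w, w ≠ w0 → e w = hc_res2 (OU.compat w) (idual_rhoN χ U)
          (hc_cup11 LUinf (pt_hφ_triv χ U hU) β (bi_incl1 hL (Representation.trivial (ZMod p) U (ZMod p)) y))) ∧
        invW w0 (e w0 - hc_res2 (OU.compat w0) (idual_rhoN χ U)
          (hc_cup11 LUinf (pt_hφ_triv χ U hU) β (bi_incl1 hL (Representation.trivial (ZMod p) U (ZMod p)) y))) ≠ 0) :
    pt_UInputs χ U DU τU hU where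
  m := m
  r := r
  W := W
  g := g
  hg := hg
  hW := hW
  hL2 := bi_hL2 DU hDU OU (pt_hφ_triv χ U hU) hτ hLC4
  V := V
  f := f
  hf := hf
  hf0 := hf0
  hV := hV
  R := R
  δ := δ
  hδ := hδ
  hR := hR
  hG4 := by
    intro y hy hloc hy0
    have h1 : ∀ v, hc_res1 (DU.compat v) (Representation.trivial (ZMod p) U (ZMod p)) y = 0 := by
      intro v
      obtain ⟨c, hc⟩ := hcb_mem_BL1.1 hloc
      rw [← hcb_loc_apply, ← hc v]
      exact bi_d01_triv (DU.Lv v) (DU.ι v) (c v)
    have h2 : y ≠ 0 := by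
      rintro rfl
      exact hy0 ⟨0, map_zero _⟩
    obtain ⟨β, hβ, e, w0, he, he0, hne⟩ := hG4a y hy h1 h2
    exact bi_hG4 DU hDU OU (pt_hφ_triv χ U hU) hτ hL y hy β hβ e w0 he he0 hne
  hL1 := fun y hy h v =>
    bi_hL1 DU hDU OU (pt_hφ_triv χ U hU) hτ (pt_rhoN_eq_trivial χ U hU) hLC3 y hy h v

end assemble

end Fermat.Agent.S55
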