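import Fermat.Agent.S55.HcCochain

/-!
# S55 homological layer (HC), part 2: cup products on level cochains

For a `G`-equivariant bilinear map `φ : A × B → T` the inhomogeneous cup product
`(a ∪ b)(g₁,…,g_{i+j}) = φ (a(g₁,…,g_i)) (g₁⋯g_i • b(g_{i+1},…,g_{i+j}))`
in all bidegrees with `i + j ≤ 3`, the Leibniz rule `d(a ∪ b) = da ∪ b + (-1)^i a ∪ db`
for `i + j ≤ 2`, and compatibility with restriction and with coefficient maps.
-/

set_option autoImplicit false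
set_option linter.unusedSectionVars false

namespace Fermat.Agent.S55

/-- restriction of a bilinear map to submodules. -/
def hc_restrict₂ {k X Y Z : Type*} [CommRing k] [AddCommGroup X] [Module k X] [AddCommGroup Y]
    [Module k Y] [AddCommGroup Z] [Module k Z] (F : X →ₗ[k] Y →ₗ[k] Z) (p : Submodule k X)
    (q : Submodule k Y) (r : Submodule k Z) (h : ∀ x ∈ p, ∀ y ∈ q, F x y ∈ r) :
    p →ₗ[k] q →ₗ[k] r :=
  LinearMap.mk₂ k (fun x y => ⟨F x y, h x x.2 y y.2⟩)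
    (fun x x' y => Subtype.ext (by simp)) (fun c x y => Subtype.ext (by simp))
    (fun x y y' => Subtype.ext (by simp)) (fun c x y => Subtype.ext (by simp))

@[simp] lemma hc_restrict₂_coe {k X Y Z : Type*} [CommRing k] [AddCommGroup X] [Module k X]
    [AddCommGroup Y] [Module k Y] [AddCommGroup Z] [Module k Z] (F : X →ₗ[k] Y →ₗ[k] Z)
    (p : Submodule k X) (q : Submodule k Y) (r : Submodule k Z)
    (h : ∀ x ∈ p, ∀ y ∈ q, F x y ∈ r) (x : p) (y : q) :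
    (hc_restrict₂ F p q r h x y : Z) = F x y := rfl

section raw

variable {k G A B T : Type*} [CommRing k] [Group G]
  [AddCommGroup A] [Module k A] [AddCommGroup B] [Module k B] [AddCommGroup T] [Module k T]
variable (φ : A →ₗ[k] B →ₗ[k] T) (ρB : Representation k G B)

/-- cup product, bidegree (0,1). -/
def hc_cup01f : A →ₗ[k] (G → B) →ₗ[k] (G → T) :=
  LinearMap.mk₂ k (fun a f x => φ a (f x))
    (fun _ _ _ => by funext x; simp) (fun _ _ _ => by funext x; simp)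
    (fun _ _ _ => by funext x; simp) (fun _ _ _ => by funext x; simp)

/-- cup product, bidegree (1,0). -/
def hc_cup10f : (G → A) →ₗ[k] B →ₗ[k] (G → T) :=
  LinearMap.mk₂ k (fun f b x => φ (f x) (ρB x b))
    (fun _ _ _ => by funext x; simp) (fun _ _ _ => by funext x; simp)
    (fun _ _ _ => by funext x; simp) (fun _ _ _ => by funext x; simp)

/-- cup product, bidegree (0,2). -/
def hc_cup02f : A →ₗ[k] (G × G → B) →ₗ[k] (G × G → T) :=
  LinearMap.mk₂ k (fun a f x => φ a (f x))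
    (fun _ _ _ => by funext x; simp) (fun _ _ _ => by funext x; simp)
    (fun _ _ _ => by funext x; simp) (fun _ _ _ => by funext x; simp)

/-- cup product, bidegree (1,1). -/
def hc_cup11f : (G → A) →ₗ[k] (G → B) →ₗ[k] (G × G → T) :=
  LinearMap.mk₂ k (fun f f' x => φ (f x.1) (ρB x.1 (f' x.2)))
    (fun _ _ _ => by funext x; simp) (fun _ _ _ => by funext x; simp)
    (fun _ _ _ => by funext x; simp) (fun _ _ _ => by funext x; simp)

/-- cup product, bidegree (2,0). -/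
def hc_cup20f : (G × G → A) →ₗ[k] B →ₗ[k] (G × G → T) :=
  LinearMap.mk₂ k (fun f b x => φ (f x) (ρB (x.1 * x.2) b))
    (fun _ _ _ => by funext x; simp) (fun _ _ _ => by funext x; simp)
    (fun _ _ _ => by funext x; simp) (fun _ _ _ => by funext x; simp)

/-- cup product, bidegree (0,3). -/
def hc_cup03f : A →ₗ[k] (G × G × G → B) →ₗ[k] (G × G × G → T) :=
  LinearMap.mk₂ k (fun a f x => φ a (f x))
    (fun _ _ _ => by funext x; simp) (fun _ _ _ => by funext x; simp)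
    (fun _ _ _ => by funext x; simp) (fun _ _ _ => by funext x; simp)

/-- cup product, bidegree (1,2). -/
def hc_cup12f : (G → A) →ₗ[k] (G × G → B) →ₗ[k] (G × G × G → T) :=
  LinearMap.mk₂ k (fun f f' x => φ (f x.1) (ρB x.1 (f' x.2)))
    (fun _ _ _ => by funext x; simp) (fun _ _ _ => by funext x; simp)
    (fun _ _ _ => by funext x; simp) (fun _ _ _ => by funext x; simp)

/-- cup product, bidegree (2,1). -/
def hc_cup21f : (G × G → A) →ₗ[k] (G → B) →ₗ[k] (G × G × G → T) :=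
  LinearMap.mk₂ k (fun f f' x => φ (f (x.1, x.2.1)) (ρB (x.1 * x.2.1) (f' x.2.2)))
    (fun _ _ _ => by funext x; simp) (fun _ _ _ => by funext x; simp)
    (fun _ _ _ => by funext x; simp) (fun _ _ _ => by funext x; simp)

/-- cup product, bidegree (3,0). -/
def hc_cup30f : (G × G × G → A) →ₗ[k] B →ₗ[k] (G × G × G → T) :=
  LinearMap.mk₂ k (fun f b x => φ (f x) (ρB (x.1 * x.2.1 * x.2.2) b))
    (fun _ _ _ => by funext x; simp) (fun _ _ _ => by funext x; simp)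
    (fun _ _ _ => by funext x; simp) (fun _ _ _ => by funext x; simp)

@[simp] lemma hc_cup01f_apply (a : A) (f : G → B) (g : G) :
    hc_cup01f φ a f g = φ a (f g) := rfl
@[simp] lemma hc_cup10f_apply (f : G → A) (b : B) (g : G) :
    hc_cup10f φ ρB f b g = φ (f g) (ρB g b) := rfl
@[simp] lemma hc_cup02f_apply (a : A) (f : G × G → B) (x : G × G) :
    hc_cup02f φ a f x = φ a (f x) := rfl
@[simp] lemma hc_cup11f_apply (f : G → A) (f' : G → B) (g h : G) :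
    hc_cup11f φ ρB f f' (g, h) = φ (f g) (ρB g (f' h)) := rfl
@[simp] lemma hc_cup20f_apply (f : G × G → A) (b : B) (g h : G) :
    hc_cup20f φ ρB f b (g, h) = φ (f (g, h)) (ρB (g * h) b) := rfl
@[simp] lemma hc_cup03f_apply (a : A) (f : G × G × G → B) (x : G × G × G) :
    hc_cup03f φ a f x = φ a (f x) := rfl
@[simp] lemma hc_cup12f_apply (f : G → A) (f' : G × G → B) (g h j : G) :
    hc_cup12f φ ρB f f' (g, h, j) = φ (f g) (ρB g (f' (h, j))) := rfl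
@[simp] lemma hc_cup21f_apply (f : G × G → A) (f' : G → B) (g h j : G) :
    hc_cup21f φ ρB f f' (g, h, j) = φ (f (g, h)) (ρB (g * h) (f' j)) := rfl
@[simp] lemma hc_cup30f_apply (f : G × G × G → A) (b : B) (g h j : G) :
    hc_cup30f φ ρB f b (g, h, j) = φ (f (g, h, j)) (ρB (g * h * j) b) := rfl

/-! #### Leibniz rules (on all functions) -/

variable {φ} {ρA : Representation k G A} {ρB} {ρT : Representation k G T}
  (hφ : ∀ g a b, φ (ρA g a) (ρB g b) = ρT g (φ a b))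

include hφ

lemma hc_leibniz00f (a : A) (b : B) :
    hc_d01f ρT (φ a b) = hc_cup10f φ ρB (hc_d01f ρA a) b + hc_cup01f φ a (hc_d01f ρB b) := by
  funext g
  simp only [hc_d01f_apply, Pi.add_apply, hc_cup10f_apply, hc_cup01f_apply, ← hφ, map_sub,
    LinearMap.sub_apply]
  abel

lemma hc_leibniz01f (a : A) (f : G → B) :
    hc_d12f ρT (hc_cup01f φ a f)
      = hc_cup11f φ ρB (hc_d01f ρA a) f + hc_cup02f φ a (hc_d12f ρB f) := by
  funext ⟨g, h⟩
  simp only [hc_d12f_apply, hc_d01f_apply, Pi.add_apply, hc_cup11f_apply, hc_cup01f_apply,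
    hc_cup02f_apply, ← hφ, map_sub, map_add, LinearMap.sub_apply]
  abel

lemma hc_leibniz10f (f : G → A) (b : B) :
    hc_d12f ρT (hc_cup10f φ ρB f b)
      = hc_cup20f φ ρB (hc_d12f ρA f) b - hc_cup11f φ ρB f (hc_d01f ρB b) := by
  funext ⟨g, h⟩
  simp only [hc_d12f_apply, hc_d01f_apply, Pi.sub_apply, hc_cup11f_apply, hc_cup10f_apply,
    hc_cup20f_apply, ← hφ, map_sub, map_add, LinearMap.sub_apply, LinearMap.add_apply, map_mul,
    Module.End.mul_apply]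
  abel

lemma hc_leibniz02f (a : A) (f : G × G → B) :
    hc_d23f ρT (hc_cup02f φ a f)
      = hc_cup12f φ ρB (hc_d01f ρA a) f + hc_cup03f φ a (hc_d23f ρB f) := by
  funext ⟨g, h, j⟩
  simp only [hc_d23f_apply, hc_d01f_apply, Pi.add_apply, hc_cup12f_apply, hc_cup02f_apply,
    hc_cup03f_apply, ← hφ, map_sub, map_add, LinearMap.sub_apply]
  abel

lemma hc_leibniz11f (f : G → A) (f' : G → B) :
    hc_d23f ρT (hc_cup11f φ ρB f f')
      = hc_cup21f φ ρB (hc_d12f ρA f) f' - hc_cup12f φ ρB f (hc_d12f ρB f') := by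
  funext ⟨g, h, j⟩
  simp only [hc_d23f_apply, hc_d12f_apply, Pi.sub_apply, hc_cup11f_apply, hc_cup21f_apply,
    hc_cup12f_apply, ← hφ, map_sub, map_add, LinearMap.sub_apply, LinearMap.add_apply, map_mul,
    Module.End.mul_apply]
  abel

lemma hc_leibniz20f (f : G × G → A) (b : B) :
    hc_d23f ρT (hc_cup20f φ ρB f b)
      = hc_cup30f φ ρB (hc_d23f ρA f) b + hc_cup21f φ ρB f (hc_d01f ρB b) := by
  funext ⟨g, h, j⟩
  simp only [hc_d23f_apply, hc_d01f_apply, Pi.add_apply, hc_cup20f_apply, hc_cup30f_apply,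
    hc_cup21f_apply, ← hφ, map_sub, map_add, LinearMap.sub_apply, LinearMap.add_apply, map_mul,
    Module.End.mul_apply, mul_assoc]
  abel

/-! #### Level preservation -/

lemma hc_isLev0_phi {N : Subgroup G} {a : A} {b : B} (ha : hc_IsLev0 ρA N a)
    (hb : hc_IsLev0 ρB N b) : hc_IsLev0 ρT N (φ a b) :=
  fun s hs => by rw [← hφ, ha s hs, hb s hs]

lemma hc_isLev1_cup01 {N : Subgroup G} {a : A} {f : G → B} (ha : hc_IsLev0 ρA N a)
    (hf : hc_IsLev1 ρB N f) : hc_IsLev1 ρT N (hc_cup01f φ a f) :=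
  ⟨fun g s hs => by simp only [hc_cup01f_apply, hf.1 g s hs],
    fun x => hc_isLev0_phi hφ ha (hf.2 x)⟩

lemma hc_isLev1_cup10 {N : Subgroup G} (hN : N.Normal) {f : G → A} {b : B}
    (hf : hc_IsLev1 ρA N f) (hb : hc_IsLev0 ρB N b) : hc_IsLev1 ρT N (hc_cup10f φ ρB f b) :=
  ⟨fun g s hs => by
      simp only [hc_cup10f_apply, hf.1 g s hs, map_mul, Module.End.mul_apply, hb s hs],
    fun x => hc_isLev0_phi hφ (hf.2 x) (hb.rho hN x)⟩

lemma hc_isLev2_cup02 {N : Subgroup G} {a : A} {f : G × G → B} (ha : hc_IsLev0 ρA N a)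
    (hf : hc_IsLev2 ρB N f) : hc_IsLev2 ρT N (hc_cup02f φ a f) :=
  ⟨fun g h s hs t ht => by simp only [hc_cup02f_apply, hf.1 g h s hs t ht],
    fun x => hc_isLev0_phi hφ ha (hf.2 x)⟩

lemma hc_isLev2_cup11 {N : Subgroup G} (hN : N.Normal) {f : G → A} {f' : G → B}
    (hf : hc_IsLev1 ρA N f) (hf' : hc_IsLev1 ρB N f') :
    hc_IsLev2 ρT N (hc_cup11f φ ρB f f') :=
  ⟨fun g h s hs t ht => by
      simp only [hc_cup11f_apply, hf.1 g s hs, hf'.1 h t ht, map_mul, Module.End.mul_apply,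
        hf'.2 h s hs],
    fun x => hc_isLev0_phi hφ (hf.2 _) ((hf'.2 _).rho hN _)⟩

lemma hc_isLev2_cup20 {N : Subgroup G} (hN : N.Normal) {f : G × G → A} {b : B}
    (hf : hc_IsLev2 ρA N f) (hb : hc_IsLev0 ρB N b) : hc_IsLev2 ρT N (hc_cup20f φ ρB f b) := by
  refine ⟨fun g h s hs t ht => ?_, fun x => hc_isLev0_phi hφ (hf.2 x) (hb.rho hN _)⟩
  have e1 : g * s * (h * t) = g * h * (h⁻¹ * s * h * t) := by group
  have m1 : h⁻¹ * s * h * t ∈ N := N.mul_mem (hN.conj_mem' s hs h) ht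
  simp only [hc_cup20f_apply, hf.1 g h s hs t ht]
  rw [e1, map_mul, Module.End.mul_apply, hb _ m1]

lemma hc_isLev3_cup03 {N : Subgroup G} {a : A} {f : G × G × G → B} (ha : hc_IsLev0 ρA N a)
    (hf : hc_IsLev3 ρB N f) : hc_IsLev3 ρT N (hc_cup03f φ a f) :=
  ⟨fun g h j s hs t ht r hr => by simp only [hc_cup03f_apply, hf.1 g h j s hs t ht r hr],
    fun x => hc_isLev0_phi hφ ha (hf.2 x)⟩

lemma hc_isLev3_cup12 {N : Subgroup G} (hN : N.Normal) {f : G → A} {f' : G × G → B}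
    (hf : hc_IsLev1 ρA N f) (hf' : hc_IsLev2 ρB N f') :
    hc_IsLev3 ρT N (hc_cup12f φ ρB f f') :=
  ⟨fun g h j s hs t ht r hr => by
      simp only [hc_cup12f_apply, hf.1 g s hs, hf'.1 h j t ht r hr, map_mul,
        Module.End.mul_apply, hf'.2 (h, j) s hs],
    fun x => hc_isLev0_phi hφ (hf.2 _) ((hf'.2 _).rho hN _)⟩

lemma hc_isLev3_cup21 {N : Subgroup G} (hN : N.Normal) {f : G × G → A} {f' : G → B}
    (hf : hc_IsLev2 ρA N f) (hf' : hc_IsLev1 ρB N f') :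
    hc_IsLev3 ρT N (hc_cup21f φ ρB f f') := by
  refine ⟨fun g h j s hs t ht r hr => ?_,
    fun x => hc_isLev0_phi hφ (hf.2 _) ((hf'.2 _).rho hN _)⟩
  have e1 : g * s * (h * t) = g * h * (h⁻¹ * s * h * t) := by group
  have m1 : h⁻¹ * s * h * t ∈ N := N.mul_mem (hN.conj_mem' s hs h) ht
  simp only [hc_cup21f_apply, hf.1 g h s hs t ht, hf'.1 j r hr]
  rw [e1, map_mul, Module.End.mul_apply, hf'.2 j _ m1]

lemma hc_isLev3_cup30 {N : Subgroup G} (hN : N.Normal) {f : G × G × G → A} {b : B}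
    (hf : hc_IsLev3 ρA N f) (hb : hc_IsLev0 ρB N b) : hc_IsLev3 ρT N (hc_cup30f φ ρB f b) := by
  refine ⟨fun g h j s hs t ht r hr => ?_, fun x => hc_isLev0_phi hφ (hf.2 x) (hb.rho hN _)⟩
  have e1 : g * s * (h * t) * (j * r) = g * h * j * (j⁻¹ * (h⁻¹ * s * h * t) * j * r) := by
    group
  have m1 : j⁻¹ * (h⁻¹ * s * h * t) * j * r ∈ N :=
    N.mul_mem (hN.conj_mem' _ (N.mul_mem (hN.conj_mem' s hs h) ht) j) hr
  simp only [hc_cup30f_apply, hf.1 g h j s hs t ht r hr]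
  rw [e1, map_mul, Module.End.mul_apply, hb _ m1]

end raw

/-! ### Cup products on level cochains -/

section lev

variable {k G A B T : Type*} [CommRing k] [Group G]
  [AddCommGroup A] [Module k A] [AddCommGroup B] [Module k B] [AddCommGroup T] [Module k T]
variable (L : hc_Lev G) {φ : A →ₗ[k] B →ₗ[k] T} {ρA : Representation k G A}
  {ρB : Representation k G B} {ρT : Representation k G T}
  (hφ : ∀ g a b, φ (ρA g a) (ρB g b) = ρT g (φ a b))

/-- auxiliary: two level conditions can be witnessed at a common level. -/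
lemma hc_common {P Q : Subgroup G → Prop} (hP : ∀ N N', N ≤ N' → P N' → P N)
    (hQ : ∀ N N', N ≤ N' → Q N' → Q N) (h1 : ∃ N ∈ L.S, P N) (h2 : ∃ N ∈ L.S, Q N) :
    ∃ N ∈ L.S, P N ∧ Q N := by
  obtain ⟨N₁, hN₁, h₁⟩ := h1
  obtain ⟨N₂, hN₂, h₂⟩ := h2
  obtain ⟨N, hN, hle₁, hle₂⟩ := L.dir N₁ hN₁ N₂ hN₂
  exact ⟨N, hN, hP N N₁ hle₁ h₁, hQ N N₂ hle₂ h₂⟩

/-- cup product `C⁰ × C⁰ → C⁰`. -/
def hc_cup00 : hc_C0 L ρA →ₗ[k] hc_C0 L ρB →ₗ[k] hc_C0 L ρT :=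
  hc_restrict₂ φ _ _ _ fun a ha b hb => by
    obtain ⟨N, hN, h1, h2⟩ := hc_common L (fun _ _ h h' => hc_IsLev0.mono h h')
      (fun _ _ h h' => hc_IsLev0.mono h h') ha hb
    exact ⟨N, hN, hc_isLev0_phi hφ h1 h2⟩

/-- cup product `C⁰ × C¹ → C¹`. -/
def hc_cup01 : hc_C0 L ρA →ₗ[k] hc_C1 L ρB →ₗ[k] hc_C1 L ρT :=
  hc_restrict₂ (hc_cup01f φ) _ _ _ fun a ha b hb => by
    obtain ⟨N, hN, h1, h2⟩ := hc_common L (fun _ _ h h' => hc_IsLev0.mono h h')
      (fun _ _ h h' => hc_IsLev1.mono h h') ha hb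
    exact ⟨N, hN, hc_isLev1_cup01 hφ h1 h2⟩

/-- cup product `C¹ × C⁰ → C¹`. -/
def hc_cup10 : hc_C1 L ρA →ₗ[k] hc_C0 L ρB →ₗ[k] hc_C1 L ρT :=
  hc_restrict₂ (hc_cup10f φ ρB) _ _ _ fun a ha b hb => by
    obtain ⟨N, hN, h1, h2⟩ := hc_common L (fun _ _ h h' => hc_IsLev1.mono h h')
      (fun _ _ h h' => hc_IsLev0.mono h h') ha hb
    exact ⟨N, hN, hc_isLev1_cup10 hφ (L.nor N hN) h1 h2⟩

/-- cup product `C⁰ × C² → C²`. -/
def hc_cup02 : hc_C0 L ρA →ₗ[k] hc_C2 L ρB →ₗ[k] hc_C2 L ρT :=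
  hc_restrict₂ (hc_cup02f φ) _ _ _ fun a ha b hb => by
    obtain ⟨N, hN, h1, h2⟩ := hc_common L (fun _ _ h h' => hc_IsLev0.mono h h')
      (fun _ _ h h' => hc_IsLev2.mono h h') ha hb
    exact ⟨N, hN, hc_isLev2_cup02 hφ h1 h2⟩

/-- cup product `C¹ × C¹ → C²`. -/
def hc_cup11 : hc_C1 L ρA →ₗ[k] hc_C1 L ρB →ₗ[k] hc_C2 L ρT :=
  hc_restrict₂ (hc_cup11f φ ρB) _ _ _ fun a ha b hb => by
    obtain ⟨N, hN, h1, h2⟩ := hc_common L (fun _ _ h h' => hc_IsLev1.mono h h')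
      (fun _ _ h h' => hc_IsLev1.mono h h') ha hb
    exact ⟨N, hN, hc_isLev2_cup11 hφ (L.nor N hN) h1 h2⟩

/-- cup product `C² × C⁰ → C²`. -/
def hc_cup20 : hc_C2 L ρA →ₗ[k] hc_C0 L ρB →ₗ[k] hc_C2 L ρT :=
  hc_restrict₂ (hc_cup20f φ ρB) _ _ _ fun a ha b hb => by
    obtain ⟨N, hN, h1, h2⟩ := hc_common L (fun _ _ h h' => hc_IsLev2.mono h h')
      (fun _ _ h h' => hc_IsLev0.mono h h') ha hb
    exact ⟨N, hN, hc_isLev2_cup20 hφ (L.nor N hN) h1 h2⟩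

/-- cup product `C⁰ × C³ → C³`. -/
def hc_cup03 : hc_C0 L ρA →ₗ[k] hc_C3 L ρB →ₗ[k] hc_C3 L ρT :=
  hc_restrict₂ (hc_cup03f φ) _ _ _ fun a ha b hb => by
    obtain ⟨N, hN, h1, h2⟩ := hc_common L (fun _ _ h h' => hc_IsLev0.mono h h')
      (fun _ _ h h' => hc_IsLev3.mono h h') ha hb
    exact ⟨N, hN, hc_isLev3_cup03 hφ h1 h2⟩

/-- cup product `C¹ × C² → C³`. -/
def hc_cup12 : hc_C1 L ρA →ₗ[k] hc_C2 L ρB →ₗ[k] hc_C3 L ρT :=
  hc_restrict₂ (hc_cup12f φ ρB) _ _ _ fun a ha b hb => by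
    obtain ⟨N, hN, h1, h2⟩ := hc_common L (fun _ _ h h' => hc_IsLev1.mono h h')
      (fun _ _ h h' => hc_IsLev2.mono h h') ha hb
    exact ⟨N, hN, hc_isLev3_cup12 hφ (L.nor N hN) h1 h2⟩

/-- cup product `C² × C¹ → C³`. -/
def hc_cup21 : hc_C2 L ρA →ₗ[k] hc_C1 L ρB →ₗ[k] hc_C3 L ρT :=
  hc_restrict₂ (hc_cup21f φ ρB) _ _ _ fun a ha b hb => by
    obtain ⟨N, hN, h1, h2⟩ := hc_common L (fun _ _ h h' => hc_IsLev2.mono h h')
      (fun _ _ h h' => hc_IsLev1.mono h h') ha hb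
    exact ⟨N, hN, hc_isLev3_cup21 hφ (L.nor N hN) h1 h2⟩

/-- cup product `C³ × C⁰ → C³`. -/
def hc_cup30 : hc_C3 L ρA →ₗ[k] hc_C0 L ρB →ₗ[k] hc_C3 L ρT :=
  hc_restrict₂ (hc_cup30f φ ρB) _ _ _ fun a ha b hb => by
    obtain ⟨N, hN, h1, h2⟩ := hc_common L (fun _ _ h h' => hc_IsLev3.mono h h')
      (fun _ _ h h' => hc_IsLev0.mono h h') ha hb
    exact ⟨N, hN, hc_isLev3_cup30 hφ (L.nor N hN) h1 h2⟩

variable {L}

@[simp] lemma hc_cup00_coe (a : hc_C0 L ρA) (b : hc_C0 L ρB) :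
    (hc_cup00 L hφ a b : T) = φ a b := rfl
@[simp] lemma hc_cup01_coe (a : hc_C0 L ρA) (b : hc_C1 L ρB) :
    (hc_cup01 L hφ a b : G → T) = hc_cup01f φ (a : A) (b : G → B) := rfl
@[simp] lemma hc_cup10_coe (a : hc_C1 L ρA) (b : hc_C0 L ρB) :
    (hc_cup10 L hφ a b : G → T) = hc_cup10f φ ρB (a : G → A) (b : B) := rfl
@[simp] lemma hc_cup02_coe (a : hc_C0 L ρA) (b : hc_C2 L ρB) :
    (hc_cup02 L hφ a b : G × G → T) = hc_cup02f φ (a : A) (b : G × G → B) := rfl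
@[simp] lemma hc_cup11_coe (a : hc_C1 L ρA) (b : hc_C1 L ρB) :
    (hc_cup11 L hφ a b : G × G → T) = hc_cup11f φ ρB (a : G → A) (b : G → B) := rfl
@[simp] lemma hc_cup20_coe (a : hc_C2 L ρA) (b : hc_C0 L ρB) :
    (hc_cup20 L hφ a b : G × G → T) = hc_cup20f φ ρB (a : G × G → A) (b : B) := rfl
@[simp] lemma hc_cup03_coe (a : hc_C0 L ρA) (b : hc_C3 L ρB) :
    (hc_cup03 L hφ a b : G × G × G → T) = hc_cup03f φ (a : A) (b : G × G × G → B) := rfl
@[simp] lemma hc_cup12_coe (a : hc_C1 L ρA) (b : hc_C2 L ρB) :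
    (hc_cup12 L hφ a b : G × G × G → T) = hc_cup12f φ ρB (a : G → A) (b : G × G → B) := rfl
@[simp] lemma hc_cup21_coe (a : hc_C2 L ρA) (b : hc_C1 L ρB) :
    (hc_cup21 L hφ a b : G × G × G → T) = hc_cup21f φ ρB (a : G × G → A) (b : G → B) := rfl
@[simp] lemma hc_cup30_coe (a : hc_C3 L ρA) (b : hc_C0 L ρB) :
    (hc_cup30 L hφ a b : G × G × G → T) = hc_cup30f φ ρB (a : G × G × G → A) (b : B) := rfl

/-! #### Leibniz rules on level cochains -/

lemma hc_leibniz00 (a : hc_C0 L ρA) (b : hc_C0 L ρB) :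
    hc_d01 L ρT (hc_cup00 L hφ a b)
      = hc_cup10 L hφ (hc_d01 L ρA a) b + hc_cup01 L hφ a (hc_d01 L ρB b) :=
  Subtype.ext (hc_leibniz00f hφ _ _)

lemma hc_leibniz01 (a : hc_C0 L ρA) (b : hc_C1 L ρB) :
    hc_d12 L ρT (hc_cup01 L hφ a b)
      = hc_cup11 L hφ (hc_d01 L ρA a) b + hc_cup02 L hφ a (hc_d12 L ρB b) :=
  Subtype.ext (hc_leibniz01f hφ _ _)

lemma hc_leibniz10 (a : hc_C1 L ρA) (b : hc_C0 L ρB) :
    hc_d12 L ρT (hc_cup10 L hφ a b)
      = hc_cup20 L hφ (hc_d12 L ρA a) b - hc_cup11 L hφ a (hc_d01 L ρB b) :=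
  Subtype.ext (hc_leibniz10f hφ _ _)

lemma hc_leibniz02 (a : hc_C0 L ρA) (b : hc_C2 L ρB) :
    hc_d23 L ρT (hc_cup02 L hφ a b)
      = hc_cup12 L hφ (hc_d01 L ρA a) b + hc_cup03 L hφ a (hc_d23 L ρB b) :=
  Subtype.ext (hc_leibniz02f hφ _ _)

lemma hc_leibniz11 (a : hc_C1 L ρA) (b : hc_C1 L ρB) :
    hc_d23 L ρT (hc_cup11 L hφ a b)
      = hc_cup21 L hφ (hc_d12 L ρA a) b - hc_cup12 L hφ a (hc_d12 L ρB b) :=
  Subtype.ext (hc_leibniz11f hφ _ _)

lemma hc_leibniz20 (a : hc_C2 L ρA) (b : hc_C0 L ρB) :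
    hc_d23 L ρT (hc_cup20 L hφ a b)
      = hc_cup30 L hφ (hc_d23 L ρA a) b + hc_cup21 L hφ a (hc_d01 L ρB b) :=
  Subtype.ext (hc_leibniz20f hφ _ _)

end lev

end Fermat.Agent.S55
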