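import Fermat.Agent.S55.Trace
import Fermat.Agent.S55.HcCup

/-!
# S55 block [G4a] (EV): the formal part

In the abstract setting of `Trace.lean` (a group `G` with level structures `L ≤ Linf` and outside
places `O : tr_Out L Linf`), let `β, ψ` be `Linf`-level 1-cochains and `y` an `Linf`-level
1-cocycle such that `ψ` is a cocycle, `β` is unramified at all outside places `w ≠ w0`, `β + ψ` is
unramified at `w0`, and `y` is unramified everywhere.  Then the family

  `e w := res_w (β ∪ y)` (`w ≠ w0`),  `e w0 := res_{w0} (β + ψ) ∪ res_{w0} y`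

consists of unramified cochains with `d (e w) = res_w (d (β ∪ y))`, and
`e w0 - res_{w0} (β ∪ y) = res_{w0} ψ ∪ res_{w0} y`  (`ev_formal`).
-/

set_option autoImplicit false
set_option linter.unusedSectionVars false

namespace Fermat.Agent.S55

universe u v' w'

section

variable {k : Type*} [CommRing k] {G H : Type*} [Group G] [Group H]
  {A B T : Type*} [AddCommGroup A] [Module k A] [AddCommGroup B] [Module k B]
  [AddCommGroup T] [Module k T] {φ : A →ₗ[k] B →ₗ[k] T} {ρA : Representation k G A}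
  {ρB : Representation k G B} {ρT : Representation k G T}
  (hφ : ∀ g a b, φ (ρA g a) (ρB g b) = ρT g (φ a b))

include hφ in
/-- the pairing is equivariant for the restricted representations. -/
theorem ev_hφ_comp (ι : H →* G) (h : H) (a : A) (b : B) :
    φ ((ρA.comp ι) h a) ((ρB.comp ι) h b) = (ρT.comp ι) h (φ a b) := hφ (ι h) a b

variable {LH : hc_Lev H} {L : hc_Lev G} {ι : H →* G} (hι : hc_LevCompat LH L ι)

/-- restriction commutes with the cup product of 1-cochains. -/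
theorem ev_res2_cup11 (f : hc_C1 L ρA) (f' : hc_C1 L ρB) :
    hc_res2 hι ρT (hc_cup11 L hφ f f')
      = hc_cup11 LH (ev_hφ_comp hφ ι) (hc_res1 hι ρA f) (hc_res1 hι ρB f') := by
  apply Subtype.ext
  funext ⟨g, h⟩
  simp only [hc_res2_coe, hc_cup11_coe, hc_cup11f_apply, hc_res1_coe, MonoidHom.comp_apply]

/-- the cup product of two 1-cocycles is a 2-cocycle. -/
theorem ev_cup11_cocycle (f : hc_C1 L ρA) (f' : hc_C1 L ρB) (hf : hc_d12 L ρA f = 0)
    (hf' : hc_d12 L ρB f' = 0) : hc_d23 L ρT (hc_cup11 L hφ f f') = 0 := by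
  rw [hc_leibniz11 hφ, hf, hf', map_zero, LinearMap.zero_apply, map_zero, sub_zero]

/-- a level cochain restricts to a cochain invariant under every subgroup mapping into all
levels. -/
theorem ev_isLev1_res_of_le (I : Subgroup H) (hI : ∀ N ∈ L.S, I ≤ N.comap ι)
    {ρ : Representation k G A} (f : hc_C1 L ρ) :
    hc_IsLev1 (ρ.comp ι) I (fun x => (f : G → A) (ι x)) := by
  obtain ⟨N, hN, h⟩ := f.2
  exact hc_isLev1_res ρ (hI N hN) h

end

section formal

variable {k : Type*} [Field k] {G : Type u} [Group G] {L Linf : hc_Lev G}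
  (O : tr_Out.{u, v', w'} L Linf)
  {A B T : Type*} [AddCommGroup A] [Module k A] [AddCommGroup B] [Module k B]
  [AddCommGroup T] [Module k T] {φ : A →ₗ[k] B →ₗ[k] T} {ρA : Representation k G A}
  {ρB : Representation k G B} {ρT : Representation k G T}
  (hφ : ∀ g a b, φ (ρA g a) (ρB g b) = ρT g (φ a b))

open Classical in
/-- **[G4a], formal part.** -/
theorem ev_formal (β ψ : hc_C1 Linf ρA) (y : hc_C1 Linf ρB)
    (hψ : hc_d12 Linf ρA ψ = 0) (hy : hc_d12 Linf ρB y = 0) (w0 : O.W)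
    (hI : ∀ w, (O.I w).Normal)
    (hβ : ∀ w, w ≠ w0 →
      hc_IsLev1 (ρA.comp (O.ι w)) (O.I w) (hc_res1 (O.compat w) ρA β : O.H w → A))
    (hβψ : hc_IsLev1 (ρA.comp (O.ι w0)) (O.I w0)
      (hc_res1 (O.compat w0) ρA (β + ψ) : O.H w0 → A))
    (hyI : ∀ w, hc_IsLev1 (ρB.comp (O.ι w)) (O.I w) (hc_res1 (O.compat w) ρB y : O.H w → B)) :
    ∃ e : ∀ w : O.W, hc_C2 (O.LW w) (ρT.comp (O.ι w)),
      (∀ w, hc_IsLev2 (ρT.comp (O.ι w)) (O.I w) (e w : O.H w × O.H w → T) ∧
        hc_d23 (O.LW w) (ρT.comp (O.ι w)) (e w)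
          = hc_res3 (O.compat w) ρT (hc_d23 Linf ρT (hc_cup11 Linf hφ β y))) ∧
      (∀ w, w ≠ w0 → e w = hc_res2 (O.compat w) ρT (hc_cup11 Linf hφ β y)) ∧
      e w0 - hc_res2 (O.compat w0) ρT (hc_cup11 Linf hφ β y)
        = hc_cup11 (O.LW w0) (ev_hφ_comp hφ (O.ι w0)) (hc_res1 (O.compat w0) ρA ψ)
            (hc_res1 (O.compat w0) ρB y) := by
  have hres : ∀ w, hc_res2 (O.compat w) ρT (hc_cup11 Linf hφ β y)
      = hc_cup11 (O.LW w) (ev_hφ_comp hφ (O.ι w)) (hc_res1 (O.compat w) ρA β)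
          (hc_res1 (O.compat w) ρB y) := fun w => ev_res2_cup11 hφ (O.compat w) β y
  have hresψ : hc_cup11 (O.LW w0) (ev_hφ_comp hφ (O.ι w0)) (hc_res1 (O.compat w0) ρA (β + ψ))
        (hc_res1 (O.compat w0) ρB y)
      = hc_res2 (O.compat w0) ρT (hc_cup11 Linf hφ β y)
        + hc_cup11 (O.LW w0) (ev_hφ_comp hφ (O.ι w0)) (hc_res1 (O.compat w0) ρA ψ)
            (hc_res1 (O.compat w0) ρB y) := by
    rw [hres w0, map_add, map_add, LinearMap.add_apply]
  let e : ∀ w : O.W, hc_C2 (O.LW w) (ρT.comp (O.ι w)) := fun w =>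
    if w = w0 then hc_cup11 (O.LW w) (ev_hφ_comp hφ (O.ι w))
      (hc_res1 (O.compat w) ρA (β + ψ)) (hc_res1 (O.compat w) ρB y)
    else hc_res2 (O.compat w) ρT (hc_cup11 Linf hφ β y)
  have he0 : e w0 = hc_cup11 (O.LW w0) (ev_hφ_comp hφ (O.ι w0))
      (hc_res1 (O.compat w0) ρA (β + ψ)) (hc_res1 (O.compat w0) ρB y) := if_pos rfl
  have hene : ∀ w, w ≠ w0 → e w = hc_res2 (O.compat w) ρT (hc_cup11 Linf hφ β y) :=
    fun w hw => if_neg hw
  refine ⟨e, ?_, hene, ?_⟩
  · intro w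
    by_cases hw : w = w0
    · subst hw
      rw [he0]
      refine ⟨hc_isLev2_cup11 (ev_hφ_comp hφ (O.ι w)) (hI w) hβψ (hyI w), ?_⟩
      rw [hresψ, map_add, hc_res3_d23]
      have h0 : hc_d23 (O.LW w) (ρT.comp (O.ι w))
          (hc_cup11 (O.LW w) (ev_hφ_comp hφ (O.ι w)) (hc_res1 (O.compat w) ρA ψ)
            (hc_res1 (O.compat w) ρB y)) = 0 := by
        apply ev_cup11_cocycle
        · rw [← hc_res2_d12, hψ, map_zero]
        · rw [← hc_res2_d12, hy, map_zero]
      rw [h0, add_zero]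
    · rw [hene w hw]
      refine ⟨?_, (hc_res3_d23 (O.compat w) ρT _).symm⟩
      rw [hres w]
      exact hc_isLev2_cup11 (ev_hφ_comp hφ (O.ι w)) (hI w) (hβ w hw) (hyI w)
  · rw [he0, hresψ, add_sub_cancel_left]

end formal

end Fermat.Agent.S55
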