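import Fermat.Agent.S55.HcCochain

/-!
# S55, block SHAP: the level structure induced on a subgroup

For a level structure `L` on `G` and a subgroup `K ≤ G`, the subgroups `N ⊓ K` (`N ∈ L`), viewed
as subgroups of `K`, form a level structure `shapLevSub L K` on `K`.  The inclusion `K → G` is
level-compatible, and a homomorphism `θ : K' → K` between subgroups of level-compatible groups
is level-compatible as soon as it is compatible with the ambient map.
-/

set_option autoImplicit false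

namespace Fermat.Agent.S55

section

variable {G : Type*} [Group G]

/-- the level structure induced on a subgroup: the subgroups `N.subgroupOf K`, `N` a level. -/
def shapLevSub (L : hc_Lev G) (K : Subgroup G) : hc_Lev ↥K where
  S := {M | ∃ N ∈ L.S, M = N.subgroupOf K}
  ne := by
    obtain ⟨N, hN⟩ := L.ne
    exact ⟨N.subgroupOf K, N, hN, rfl⟩
  dir := by
    rintro _ ⟨N₁, hN₁, rfl⟩ _ ⟨N₂, hN₂, rfl⟩
    obtain ⟨N, hN, h1, h2⟩ := L.dir N₁ hN₁ N₂ hN₂
    exact ⟨N.subgroupOf K, ⟨N, hN, rfl⟩, fun x hx => h1 hx, fun x hx => h2 hx⟩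
  nor := by
    rintro _ ⟨N, hN, rfl⟩
    have := L.nor N hN
    infer_instance

theorem shap_mem_levSub {L : hc_Lev G} {K : Subgroup G} {N : Subgroup G} (hN : N ∈ L.S) :
    N.subgroupOf K ∈ (shapLevSub L K).S := ⟨N, hN, rfl⟩

theorem shap_mem_levSub_iff {L : hc_Lev G} {K : Subgroup G} {M : Subgroup ↥K} :
    M ∈ (shapLevSub L K).S ↔ ∃ N ∈ L.S, M = N.subgroupOf K := Iff.rfl

/-- the inclusion of a subgroup is level-compatible. -/
theorem shap_levSub_compat (L : hc_Lev G) (K : Subgroup G) :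
    hc_LevCompat (shapLevSub L K) L K.subtype :=
  fun N hN => ⟨N.subgroupOf K, shap_mem_levSub hN, le_refl _⟩

/-- a homomorphism between subgroups which covers a level-compatible homomorphism of the ambient
groups is level-compatible. -/
theorem shap_levSub_compat_of {H : Type*} [Group H] {LH : hc_Lev H} {L : hc_Lev G} {ι : H →* G}
    (hι : hc_LevCompat LH L ι) (K' : Subgroup H) (K : Subgroup G) (θ : ↥K' →* ↥K)
    (hθ : ∀ N ∈ L.S, ∀ y : ↥K', ι (y : H) ∈ N → ((θ y : ↥K) : G) ∈ N) :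
    hc_LevCompat (shapLevSub LH K') (shapLevSub L K) θ := by
  rintro _ ⟨N, hN, rfl⟩
  obtain ⟨N', hN', hle⟩ := hι N hN
  refine ⟨N'.subgroupOf K', shap_mem_levSub hN', fun y hy => ?_⟩
  have h1 : ι (y : H) ∈ N := hle (Subgroup.mem_subgroupOf.mp hy)
  exact Subgroup.mem_subgroupOf.mpr (hθ N hN y h1)

/-- cofinality: if some level lies in `K`, every level of `K` contains `N.subgroupOf K` for a
level `N ≤ K`. -/
theorem shap_levSub_exists_le {L : hc_Lev G} {K : Subgroup G} (hK : ∃ N ∈ L.S, N ≤ K)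
    {M : Subgroup ↥K} (hM : M ∈ (shapLevSub L K).S) :
    ∃ N ∈ L.S, N ≤ K ∧ N.subgroupOf K ≤ M := by
  obtain ⟨N₁, hN₁, rfl⟩ := hM
  obtain ⟨N₀, hN₀, hN₀K⟩ := hK
  obtain ⟨N, hN, h1, h0⟩ := L.dir N₁ hN₁ N₀ hN₀
  exact ⟨N, hN, h0.trans hN₀K, fun x hx => h1 hx⟩

end

end Fermat.Agent.S55
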