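import Mathlib

/-!
# S55, block SHAP (core): cochain-level Shapiro lemma in degrees `≤ 3`, explicit form

`G` a group, `U ≤ G` a subgroup, `ρ` a representation of `U` on `N`.  A cochain of `G` with
values in the coinduced module `Coind_U^G N = {φ : G → N | φ (u x) = u φ x}` (Mathlib's
`Representation.coindV U.subtype ρ`, `G` acting by `(g φ) x = φ (x g)`) is written here as a
curried function `G → ⋯ → G → (G → N)`, the last argument being the evaluation point.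

* `shapT*`, `shapTinv*`: the bijection between such cochains and *homogeneous* functions
  `G^(n+1) → N` (no equivariance needed);
* `shapDI*` (inhomogeneous differentials of `Coind`-valued cochains), `shapDH*` (homogeneous
  differentials), `shapDU*` (inhomogeneous differentials of `N`-valued cochains of `U`);
* `shapSh*` (Shapiro map: restrict to `U`, evaluate at `1`), `shapJ*` (its section, built from a
  `U`-equivariant retraction `r : G → U`), `shapE*` (the homotopy);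
* main results: `shapSh_J*` (`sh ∘ j = id`), `shapDI_J*` (`j` is a cochain map),
  `shap_homotopy*` (`f - j (sh f) = d (e f)` for cocycles `f`), together with equivariance and
  level-invariance bookkeeping.
-/

set_option autoImplicit false
set_option linter.unusedSectionVars false
set_option linter.unusedSimpArgs false
set_option linter.unusedVariables false

namespace Fermat.Agent.S55

section homogeneous

variable {G : Type*} [Group G] {N : Type*} [AddCommGroup N]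

/-- homogeneous differential `C^0 → C^1`. -/
def shapDH₀₁ (F : G → N) : G → G → N := fun x0 x1 => F x1 - F x0

/-- homogeneous differential `C^1 → C^2`. -/
def shapDH₁₂ (F : G → G → N) : G → G → G → N :=
  fun x0 x1 x2 => F x1 x2 - F x0 x2 + F x0 x1

/-- homogeneous differential `C^2 → C^3`. -/
def shapDH₂₃ (F : G → G → G → N) : G → G → G → G → N :=
  fun x0 x1 x2 x3 => F x1 x2 x3 - F x0 x2 x3 + F x0 x1 x3 - F x0 x1 x2

/-- homogeneous differential `C^3 → C^4`. -/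
def shapDH₃₄ (F : G → G → G → G → N) : G → G → G → G → G → N :=
  fun x0 x1 x2 x3 x4 =>
    F x1 x2 x3 x4 - F x0 x2 x3 x4 + F x0 x1 x3 x4 - F x0 x1 x2 x4 + F x0 x1 x2 x3

/-! ### the bijection homogeneous ↔ inhomogeneous `Coind`-valued -/

/-- homogeneous → inhomogeneous, degree 1. -/
def shapTinv₁ (F : G → G → N) : G → G → N := fun g x => F x (x * g)

/-- homogeneous → inhomogeneous, degree 2. -/
def shapTinv₂ (F : G → G → G → N) : G → G → G → N := fun g h x => F x (x * g) (x * g * h)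

/-- homogeneous → inhomogeneous, degree 3. -/
def shapTinv₃ (F : G → G → G → G → N) : G → G → G → G → N :=
  fun g h j x => F x (x * g) (x * g * h) (x * g * h * j)

/-- homogeneous → inhomogeneous, degree 4. -/
def shapTinv₄ (F : G → G → G → G → G → N) : G → G → G → G → G → N :=
  fun g h j l x => F x (x * g) (x * g * h) (x * g * h * j) (x * g * h * j * l)

/-- inhomogeneous → homogeneous, degree 1. -/
def shapT₁ (f : G → G → N) : G → G → N := fun x0 x1 => f (x0⁻¹ * x1) x0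

/-- inhomogeneous → homogeneous, degree 2. -/
def shapT₂ (f : G → G → G → N) : G → G → G → N :=
  fun x0 x1 x2 => f (x0⁻¹ * x1) (x1⁻¹ * x2) x0

/-- inhomogeneous → homogeneous, degree 3. -/
def shapT₃ (f : G → G → G → G → N) : G → G → G → G → N :=
  fun x0 x1 x2 x3 => f (x0⁻¹ * x1) (x1⁻¹ * x2) (x2⁻¹ * x3) x0

/-- inhomogeneous → homogeneous, degree 4. -/
def shapT₄ (f : G → G → G → G → G → N) : G → G → G → G → G → N :=
  fun x0 x1 x2 x3 x4 => f (x0⁻¹ * x1) (x1⁻¹ * x2) (x2⁻¹ * x3) (x3⁻¹ * x4) x0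

theorem shapT₄_Tinv₄ (F : G → G → G → G → G → N) : shapT₄ (shapTinv₄ F) = F := by
  funext x0 x1 x2 x3 x4; simp [shapTinv₄, shapT₄, mul_assoc]

theorem shapTinv₁_T₁ (f : G → G → N) : shapTinv₁ (shapT₁ f) = f := by
  funext g x; simp [shapTinv₁, shapT₁]

theorem shapTinv₂_T₂ (f : G → G → G → N) : shapTinv₂ (shapT₂ f) = f := by
  funext g h x; simp [shapTinv₂, shapT₂, mul_assoc]

theorem shapTinv₃_T₃ (f : G → G → G → G → N) : shapTinv₃ (shapT₃ f) = f := by
  funext g h j x; simp [shapTinv₃, shapT₃, mul_assoc]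

theorem shapT₁_Tinv₁ (F : G → G → N) : shapT₁ (shapTinv₁ F) = F := by
  funext x0 x1; simp [shapTinv₁, shapT₁]

theorem shapT₂_Tinv₂ (F : G → G → G → N) : shapT₂ (shapTinv₂ F) = F := by
  funext x0 x1 x2; simp [shapTinv₂, shapT₂, mul_assoc]

theorem shapT₃_Tinv₃ (F : G → G → G → G → N) : shapT₃ (shapTinv₃ F) = F := by
  funext x0 x1 x2 x3; simp [shapTinv₃, shapT₃, mul_assoc]

/-! ### inhomogeneous differentials of `Coind`-valued cochains (`(g φ) x = φ (x g)`) -/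

/-- `d : C^0(G, Coind) → C^1(G, Coind)`: `(d a) g = g a - a`. -/
def shapDI₀₁ (a : G → N) : G → G → N := fun g x => a (x * g) - a x

/-- `d : C^1 → C^2`: `(d f)(g, h) = g f(h) - f(g h) + f(g)`. -/
def shapDI₁₂ (f : G → G → N) : G → G → G → N :=
  fun g h x => f h (x * g) - f (g * h) x + f g x

/-- `d : C^2 → C^3`: `(d f)(g, h, j) = g f(h, j) - f(g h, j) + f(g, h j) - f(g, h)`. -/
def shapDI₂₃ (f : G → G → G → N) : G → G → G → G → N :=
  fun g h j x => f h j (x * g) - f (g * h) j x + f g (h * j) x - f g h x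

/-- `d : C^3 → C^4`. -/
def shapDI₃₄ (f : G → G → G → G → N) : G → G → G → G → G → N :=
  fun g h j l x =>
    f h j l (x * g) - f (g * h) j l x + f g (h * j) l x - f g h (j * l) x + f g h j x

theorem shapDI₀₁_eq (F : G → N) : shapDI₀₁ F = shapTinv₁ (shapDH₀₁ F) := by
  funext g x; simp [shapDI₀₁, shapTinv₁, shapDH₀₁]

theorem shapDI₁₂_Tinv₁ (F : G → G → N) :
    shapDI₁₂ (shapTinv₁ F) = shapTinv₂ (shapDH₁₂ F) := by
  funext g h x; simp [shapDI₁₂, shapTinv₁, shapTinv₂, shapDH₁₂, mul_assoc]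

theorem shapDI₂₃_Tinv₂ (F : G → G → G → N) :
    shapDI₂₃ (shapTinv₂ F) = shapTinv₃ (shapDH₂₃ F) := by
  funext g h j x; simp [shapDI₂₃, shapTinv₂, shapTinv₃, shapDH₂₃, mul_assoc]

theorem shapDI₃₄_Tinv₃ (F : G → G → G → G → N) :
    shapDI₃₄ (shapTinv₃ F) = shapTinv₄ (shapDH₃₄ F) := by
  funext g h j l x; simp [shapDI₃₄, shapTinv₃, shapTinv₄, shapDH₃₄, mul_assoc]

/-- a `Coind`-valued inhomogeneous cocycle is a homogeneous cocycle, degree 1. -/
theorem shapDH₁₂_T₁ (f : G → G → N) (hf : ∀ g h x, shapDI₁₂ f g h x = 0) (x0 x1 x2 : G) :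
    shapDH₁₂ (shapT₁ f) x0 x1 x2 = 0 := by
  have h := hf (x0⁻¹ * x1) (x1⁻¹ * x2) x0
  simpa [shapDH₁₂, shapT₁, shapDI₁₂, mul_assoc] using h

/-- a `Coind`-valued inhomogeneous cocycle is a homogeneous cocycle, degree 2. -/
theorem shapDH₂₃_T₂ (f : G → G → G → N) (hf : ∀ g h j x, shapDI₂₃ f g h j x = 0)
    (x0 x1 x2 x3 : G) : shapDH₂₃ (shapT₂ f) x0 x1 x2 x3 = 0 := by
  have h := hf (x0⁻¹ * x1) (x1⁻¹ * x2) (x2⁻¹ * x3) x0
  simpa [shapDH₂₃, shapT₂, shapDI₂₃, mul_assoc] using h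

/-- a `Coind`-valued inhomogeneous cocycle is a homogeneous cocycle, degree 3. -/
theorem shapDH₃₄_T₃ (f : G → G → G → G → N) (hf : ∀ g h j l x, shapDI₃₄ f g h j l x = 0)
    (x0 x1 x2 x3 x4 : G) : shapDH₃₄ (shapT₃ f) x0 x1 x2 x3 x4 = 0 := by
  have h := hf (x0⁻¹ * x1) (x1⁻¹ * x2) (x2⁻¹ * x3) (x3⁻¹ * x4) x0
  simpa [shapDH₃₄, shapT₃, shapDI₃₄, mul_assoc] using h

end homogeneous

section homotopy

variable {G : Type*} [Group G] {U : Subgroup G} {N : Type*} [AddCommGroup N] (r : G → U)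

/-- prism homotopy, degree 1. -/
def shapHH₁ (F : G → G → N) : G → N := fun x0 => F x0 (r x0)

/-- prism homotopy, degree 2. -/
def shapHH₂ (F : G → G → G → N) : G → G → N :=
  fun x0 x1 => F x0 (r x0) (r x1) - F x0 x1 (r x1)

/-- prism homotopy, degree 3. -/
def shapHH₃ (F : G → G → G → G → N) : G → G → G → N :=
  fun x0 x1 x2 => F x0 (r x0) (r x1) (r x2) - F x0 x1 (r x1) (r x2) + F x0 x1 x2 (r x2)

/-- prism homotopy, degree 4. -/
def shapHH₄ (F : G → G → G → G → G → N) : G → G → G → G → N :=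
  fun x0 x1 x2 x3 => F x0 (r x0) (r x1) (r x2) (r x3) - F x0 x1 (r x1) (r x2) (r x3)
    + F x0 x1 x2 (r x2) (r x3) - F x0 x1 x2 x3 (r x3)

theorem shapHH_id₀ (F : G → N) (x0 : G) :
    shapHH₁ r (shapDH₀₁ F) x0 = F (r x0) - F x0 := by
  simp only [shapHH₁, shapDH₀₁]

theorem shapHH_id₁ (F : G → G → N) (x0 x1 : G) :
    shapDH₀₁ (shapHH₁ r F) x0 x1 + shapHH₂ r (shapDH₁₂ F) x0 x1 =
      F (r x0) (r x1) - F x0 x1 := by
  simp only [shapHH₁, shapHH₂, shapDH₀₁, shapDH₁₂]; abel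

theorem shapHH_id₂ (F : G → G → G → N) (x0 x1 x2 : G) :
    shapDH₁₂ (shapHH₂ r F) x0 x1 x2 + shapHH₃ r (shapDH₂₃ F) x0 x1 x2 =
      F (r x0) (r x1) (r x2) - F x0 x1 x2 := by
  simp only [shapHH₂, shapHH₃, shapDH₁₂, shapDH₂₃]; abel

theorem shapHH_id₃ (F : G → G → G → G → N) (x0 x1 x2 x3 : G) :
    shapDH₂₃ (shapHH₃ r F) x0 x1 x2 x3 + shapHH₄ r (shapDH₃₄ F) x0 x1 x2 x3 =
      F (r x0) (r x1) (r x2) (r x3) - F x0 x1 x2 x3 := by
  simp only [shapHH₃, shapHH₄, shapDH₂₃, shapDH₃₄]; abel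

end homotopy

section shapiro

variable {k : Type*} [CommRing k] {G : Type*} [Group G] {U : Subgroup G}
  {N : Type*} [AddCommGroup N] [Module k N] (r : G → U) (ρ : Representation k U N)

/-! ### inhomogeneous differentials of `N`-valued cochains of `U` -/

/-- `d : C^0(U, N) → C^1(U, N)`. -/
def shapDU₀₁ (n : N) : U → N := fun u => ρ u n - n

/-- `d : C^1(U, N) → C^2(U, N)`. -/
def shapDU₁₂ (c : U → N) : U → U → N := fun u v => ρ u (c v) - c (u * v) + c u

/-- `d : C^2(U, N) → C^3(U, N)`. -/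
def shapDU₂₃ (c : U → U → N) : U → U → U → N :=
  fun u v w => ρ u (c v w) - c (u * v) w + c u (v * w) - c u v

/-- `d : C^3(U, N) → C^4(U, N)`. -/
def shapDU₃₄ (c : U → U → U → N) : U → U → U → U → N :=
  fun u v w z => ρ u (c v w z) - c (u * v) w z + c u (v * w) z - c u v (w * z) + c u v w

/-! ### homogeneous form of `U`-cochains, pulled back along the retraction -/

/-- degree 0. -/
def shapC₀ (n : N) : G → N := fun x0 => ρ (r x0) n

/-- degree 1. -/
def shapC₁ (c : U → N) : G → G → N := fun x0 x1 => ρ (r x0) (c ((r x0)⁻¹ * r x1))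

/-- degree 2. -/
def shapC₂ (c : U → U → N) : G → G → G → N :=
  fun x0 x1 x2 => ρ (r x0) (c ((r x0)⁻¹ * r x1) ((r x1)⁻¹ * r x2))

/-- degree 3. -/
def shapC₃ (c : U → U → U → N) : G → G → G → G → N :=
  fun x0 x1 x2 x3 => ρ (r x0) (c ((r x0)⁻¹ * r x1) ((r x1)⁻¹ * r x2) ((r x2)⁻¹ * r x3))

/-- degree 4. -/
def shapC₄ (c : U → U → U → U → N) : G → G → G → G → G → N :=
  fun x0 x1 x2 x3 x4 =>
    ρ (r x0) (c ((r x0)⁻¹ * r x1) ((r x1)⁻¹ * r x2) ((r x2)⁻¹ * r x3) ((r x3)⁻¹ * r x4))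

theorem shap_rho_mul (a b : U) (n : N) : ρ a (ρ (a⁻¹ * b) n) = ρ b n := by
  rw [← Module.End.mul_apply, ← map_mul, mul_inv_cancel_left]

theorem shapDH₀₁_C₀ (n : N) : shapDH₀₁ (shapC₀ r ρ n) = shapC₁ r ρ (shapDU₀₁ ρ n) := by
  funext x0 x1
  simp only [shapDH₀₁, shapC₀, shapC₁, shapDU₀₁, map_sub, shap_rho_mul]

theorem shapDH₁₂_C₁ (c : U → N) : shapDH₁₂ (shapC₁ r ρ c) = shapC₂ r ρ (shapDU₁₂ ρ c) := by
  funext x0 x1 x2
  simp only [shapDH₁₂, shapC₁, shapC₂, shapDU₁₂, map_sub, map_add, shap_rho_mul, mul_assoc,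
    mul_inv_cancel_left]

theorem shapDH₂₃_C₂ (c : U → U → N) :
    shapDH₂₃ (shapC₂ r ρ c) = shapC₃ r ρ (shapDU₂₃ ρ c) := by
  funext x0 x1 x2 x3
  simp only [shapDH₂₃, shapC₂, shapC₃, shapDU₂₃, map_sub, map_add, shap_rho_mul, mul_assoc,
    mul_inv_cancel_left]

theorem shapDH₃₄_C₃ (c : U → U → U → N) :
    shapDH₃₄ (shapC₃ r ρ c) = shapC₄ r ρ (shapDU₃₄ ρ c) := by
  funext x0 x1 x2 x3 x4
  simp only [shapDH₃₄, shapC₃, shapC₄, shapDU₃₄, map_sub, map_add, shap_rho_mul, mul_assoc,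
    mul_inv_cancel_left]

/-! ### the Shapiro map `sh` and its section `j` -/

/-- Shapiro map, degree 0: evaluation at `1`. -/
def shapSh₀ (a : G → N) : N := a 1

/-- Shapiro map, degree 1. -/
def shapSh₁ (f : G → G → N) : U → N := fun u => f u 1

/-- Shapiro map, degree 2. -/
def shapSh₂ (f : G → G → G → N) : U → U → N := fun u v => f u v 1

/-- Shapiro map, degree 3. -/
def shapSh₃ (f : G → G → G → G → N) : U → U → U → N := fun u v w => f u v w 1

/-- section of the Shapiro map, degree 0. -/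
def shapJ₀ (n : N) : G → N := shapC₀ r ρ n

/-- section of the Shapiro map, degree 1. -/
def shapJ₁ (c : U → N) : G → G → N := shapTinv₁ (shapC₁ r ρ c)

/-- section of the Shapiro map, degree 2. -/
def shapJ₂ (c : U → U → N) : G → G → G → N := shapTinv₂ (shapC₂ r ρ c)

/-- section of the Shapiro map, degree 3. -/
def shapJ₃ (c : U → U → U → N) : G → G → G → G → N := shapTinv₃ (shapC₃ r ρ c)

/-- `j` is a cochain map, degree `0 → 1`. -/
theorem shapDI_J₀ (n : N) : shapDI₀₁ (shapJ₀ r ρ n) = shapJ₁ r ρ (shapDU₀₁ ρ n) := by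
  rw [shapJ₀, shapJ₁, shapDI₀₁_eq, shapDH₀₁_C₀]

/-- `j` is a cochain map, degree `1 → 2`. -/
theorem shapDI_J₁ (c : U → N) : shapDI₁₂ (shapJ₁ r ρ c) = shapJ₂ r ρ (shapDU₁₂ ρ c) := by
  rw [shapJ₁, shapJ₂, shapDI₁₂_Tinv₁, shapDH₁₂_C₁]

/-- `j` is a cochain map, degree `2 → 3`. -/
theorem shapDI_J₂ (c : U → U → N) : shapDI₂₃ (shapJ₂ r ρ c) = shapJ₃ r ρ (shapDU₂₃ ρ c) := by
  rw [shapJ₂, shapJ₃, shapDI₂₃_Tinv₂, shapDH₂₃_C₂]

/-- `j` maps `3`-cocycles to `3`-cocycles. -/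
theorem shapDI_J₃ (c : U → U → U → N) (hc : ∀ u v w z, shapDU₃₄ ρ c u v w z = 0)
    (g h j l x : G) : shapDI₃₄ (shapJ₃ r ρ c) g h j l x = 0 := by
  rw [shapJ₃, shapDI₃₄_Tinv₃, shapDH₃₄_C₃]
  simp only [shapTinv₄, shapC₄, hc, map_zero]

/-! ### consequences of the retraction property -/

section retraction

variable (hr : ∀ (u : U) (x : G), r ((u : G) * x) = u * r x) (h1 : r 1 = 1)
include hr h1

theorem shap_r_coe (u : U) : r (u : G) = u := by
  have h := hr u 1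
  rwa [mul_one, h1, mul_one] at h

theorem shap_r_coe_mul (u v : U) : r ((u : G) * (v : G)) = u * v := by
  rw [hr, shap_r_coe r hr h1]

/-- `sh ∘ j = id`, degree 0. -/
theorem shapSh_J₀ (n : N) : shapSh₀ (shapJ₀ r ρ n) = n := by
  simp [shapSh₀, shapJ₀, shapC₀, h1]

/-- `sh ∘ j = id`, degree 1. -/
theorem shapSh_J₁ (c : U → N) : shapSh₁ (shapJ₁ r ρ c) = c := by
  funext u
  simp [shapSh₁, shapJ₁, shapTinv₁, shapC₁, h1, shap_r_coe r hr h1]

/-- `sh ∘ j = id`, degree 2. -/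
theorem shapSh_J₂ (c : U → U → N) : shapSh₂ (shapJ₂ r ρ c) = c := by
  funext u v
  simp [shapSh₂, shapJ₂, shapTinv₂, shapC₂, h1, shap_r_coe r hr h1, shap_r_coe_mul r hr h1]

/-- `sh ∘ j = id`, degree 3. -/
theorem shapSh_J₃ (c : U → U → U → N) : shapSh₃ (shapJ₃ r ρ c) = c := by
  funext u v w
  have h3 : r ((u : G) * ((v : G) * (w : G))) = u * (v * w) := by
    rw [hr, shap_r_coe_mul r hr h1]
  simp [shapSh₃, shapJ₃, shapTinv₃, shapC₃, h1, shap_r_coe r hr h1, shap_r_coe_mul r hr h1, h3,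
    mul_assoc]

end retraction

section equivariance

variable (hr : ∀ (u : U) (x : G), r ((u : G) * x) = u * r x)
include hr

/-- `j n` lies in the coinduced module. -/
theorem shapJ₀_equiv (n : N) (u : U) (x : G) :
    shapJ₀ r ρ n ((u : G) * x) = ρ u (shapJ₀ r ρ n x) := by
  simp [shapJ₀, shapC₀, hr]

/-- `j c` takes values in the coinduced module, degree 1. -/
theorem shapJ₁_equiv (c : U → N) (g : G) (u : U) (x : G) :
    shapJ₁ r ρ c g ((u : G) * x) = ρ u (shapJ₁ r ρ c g x) := by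
  simp [shapJ₁, shapTinv₁, shapC₁, hr, mul_assoc]

/-- `j c` takes values in the coinduced module, degree 2. -/
theorem shapJ₂_equiv (c : U → U → N) (g h : G) (u : U) (x : G) :
    shapJ₂ r ρ c g h ((u : G) * x) = ρ u (shapJ₂ r ρ c g h x) := by
  simp [shapJ₂, shapTinv₂, shapC₂, hr, mul_assoc]

/-- `j c` takes values in the coinduced module, degree 3. -/
theorem shapJ₃_equiv (c : U → U → U → N) (g h j : G) (u : U) (x : G) :
    shapJ₃ r ρ c g h j ((u : G) * x) = ρ u (shapJ₃ r ρ c g h j x) := by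
  simp [shapJ₃, shapTinv₃, shapC₃, hr, mul_assoc]

end equivariance

/-! ### the homotopy `id - j ∘ sh = d e` on cocycles -/

section homotopyThm

/-- the homotopy, degree `1 → 0`. -/
def shapE₁ (f : G → G → N) : G → N := fun x => -(shapHH₁ r (shapT₁ f) x)

/-- the homotopy, degree `2 → 1`. -/
def shapE₂ (f : G → G → G → N) : G → G → N :=
  shapTinv₁ (fun x0 x1 => -(shapHH₂ r (shapT₂ f) x0 x1))

/-- the homotopy, degree `3 → 2`. -/
def shapE₃ (f : G → G → G → G → N) : G → G → G → N :=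
  shapTinv₂ (fun x0 x1 x2 => -(shapHH₃ r (shapT₃ f) x0 x1 x2))

theorem shapC₁_Sh₁ (f : G → G → N) (hf : ∀ g (u : U) x, f g ((u : G) * x) = ρ u (f g x))
    (x0 x1 : G) : shapC₁ r ρ (shapSh₁ f) x0 x1 = shapT₁ f (r x0) (r x1) := by
  simp only [shapC₁, shapSh₁, shapT₁]
  rw [← hf]; simp

theorem shapC₂_Sh₂ (f : G → G → G → N)
    (hf : ∀ g h (u : U) x, f g h ((u : G) * x) = ρ u (f g h x)) (x0 x1 x2 : G) :
    shapC₂ r ρ (shapSh₂ f) x0 x1 x2 = shapT₂ f (r x0) (r x1) (r x2) := by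
  simp only [shapC₂, shapSh₂, shapT₂]
  rw [← hf]; simp

theorem shapC₃_Sh₃ (f : G → G → G → G → N)
    (hf : ∀ g h j (u : U) x, f g h j ((u : G) * x) = ρ u (f g h j x)) (x0 x1 x2 x3 : G) :
    shapC₃ r ρ (shapSh₃ f) x0 x1 x2 x3 = shapT₃ f (r x0) (r x1) (r x2) (r x3) := by
  simp only [shapC₃, shapSh₃, shapT₃]
  rw [← hf]; simp

/-- degree 0: a `G`-invariant element of the coinduced module is `j` of its value at `1`. -/
theorem shap_homotopy₀ (a : G → N) (ha : ∀ (u : U) x, a ((u : G) * x) = ρ u (a x))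
    (hcoc : ∀ g x, shapDI₀₁ a g x = 0) (x : G) : a x = shapJ₀ r ρ (shapSh₀ a) x := by
  have hconst : ∀ y, a y = a 1 := fun y => by
    have h := hcoc y 1
    simp only [shapDI₀₁, one_mul] at h
    exact sub_eq_zero.mp h
  simp only [shapJ₀, shapC₀, shapSh₀]
  rw [← ha, mul_one, hconst x, hconst (r x : G)]

/-- degree 1: `f - j (sh f) = d (e f)` for `Coind`-valued `1`-cocycles. -/
theorem shap_homotopy₁ (f : G → G → N) (hf : ∀ g (u : U) x, f g ((u : G) * x) = ρ u (f g x))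
    (hcoc : ∀ g h x, shapDI₁₂ f g h x = 0) (g x : G) :
    f g x - shapJ₁ r ρ (shapSh₁ f) g x = shapDI₀₁ (shapE₁ r f) g x := by
  have key := shapHH_id₁ r (shapT₁ f) x (x * g)
  have hz : shapHH₂ r (shapDH₁₂ (shapT₁ f)) x (x * g) = 0 := by
    simp only [shapHH₂, shapDH₁₂_T₁ f hcoc, sub_zero]
  have e1 : f g x = shapT₁ f x (x * g) := by simp [shapT₁]
  have e2 : shapJ₁ r ρ (shapSh₁ f) g x = shapT₁ f (r x) (r (x * g)) := by
    rw [shapJ₁, shapTinv₁, shapC₁_Sh₁ r ρ f hf]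
  have e3 : shapDI₀₁ (shapE₁ r f) g x = -(shapDH₀₁ (shapHH₁ r (shapT₁ f)) x (x * g)) := by
    simp only [shapDI₀₁, shapE₁, shapDH₀₁]; abel
  rw [hz, add_zero] at key
  rw [e1, e2, e3, key]; abel

/-- degree 2: `f - j (sh f) = d (e f)` for `Coind`-valued `2`-cocycles. -/
theorem shap_homotopy₂ (f : G → G → G → N)
    (hf : ∀ g h (u : U) x, f g h ((u : G) * x) = ρ u (f g h x))
    (hcoc : ∀ g h j x, shapDI₂₃ f g h j x = 0) (g h x : G) :
    f g h x - shapJ₂ r ρ (shapSh₂ f) g h x = shapDI₁₂ (shapE₂ r f) g h x := by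
  have key := shapHH_id₂ r (shapT₂ f) x (x * g) (x * g * h)
  have hz : shapHH₃ r (shapDH₂₃ (shapT₂ f)) x (x * g) (x * g * h) = 0 := by
    simp only [shapHH₃, shapDH₂₃_T₂ f hcoc, sub_zero, add_zero]
  have e1 : f g h x = shapT₂ f x (x * g) (x * g * h) := by simp [shapT₂, mul_assoc]
  have e2 : shapJ₂ r ρ (shapSh₂ f) g h x = shapT₂ f (r x) (r (x * g)) (r (x * g * h)) := by
    rw [shapJ₂, shapTinv₂, shapC₂_Sh₂ r ρ f hf]
  have e3 : shapDI₁₂ (shapE₂ r f) g h x =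
      -(shapDH₁₂ (shapHH₂ r (shapT₂ f)) x (x * g) (x * g * h)) := by
    rw [shapE₂, shapDI₁₂_Tinv₁]; simp only [shapTinv₂, shapDH₁₂]; abel
  rw [hz, add_zero] at key
  rw [e1, e2, e3, key]; abel

/-- degree 3: `f - j (sh f) = d (e f)` for `Coind`-valued `3`-cocycles. -/
theorem shap_homotopy₃ (f : G → G → G → G → N)
    (hf : ∀ g h j (u : U) x, f g h j ((u : G) * x) = ρ u (f g h j x))
    (hcoc : ∀ g h j l x, shapDI₃₄ f g h j l x = 0) (g h j x : G) :
    f g h j x - shapJ₃ r ρ (shapSh₃ f) g h j x = shapDI₂₃ (shapE₃ r f) g h j x := by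
  have key := shapHH_id₃ r (shapT₃ f) x (x * g) (x * g * h) (x * g * h * j)
  have hz : shapHH₄ r (shapDH₃₄ (shapT₃ f)) x (x * g) (x * g * h) (x * g * h * j) = 0 := by
    simp only [shapHH₄, shapDH₃₄_T₃ f hcoc, sub_zero, add_zero]
  have e1 : f g h j x = shapT₃ f x (x * g) (x * g * h) (x * g * h * j) := by
    simp [shapT₃, mul_assoc]
  have e2 : shapJ₃ r ρ (shapSh₃ f) g h j x =
      shapT₃ f (r x) (r (x * g)) (r (x * g * h)) (r (x * g * h * j)) := by
    rw [shapJ₃, shapTinv₃, shapC₃_Sh₃ r ρ f hf]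
  have e3 : shapDI₂₃ (shapE₃ r f) g h j x =
      -(shapDH₂₃ (shapHH₃ r (shapT₃ f)) x (x * g) (x * g * h) (x * g * h * j)) := by
    rw [shapE₃, shapDI₂₃_Tinv₂]; simp only [shapTinv₃, shapDH₂₃]; abel
  rw [hz, add_zero] at key
  rw [e1, e2, e3, key]; abel

end homotopyThm

end shapiro

end Fermat.Agent.S55
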