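import Mathlib
import Fermat.Agent.S55.ShapCore

/-!
# S55, block SHAP-L (local / Mackey part of the Shapiro comparison), raw cochain level

`ι : H →* G` a group homomorphism (`H` = a local group), `U ≤ G`, `ρ` a representation of `U`
on `N`.  `H` acts on the coinduced module `Coind_U^G N` through `ι`: `(y φ)(x) = φ (x * ι y)`.

A *double coset decomposition* `ShlDec ι U W` consists of representatives `g : W → G` of
`U \ G / ι(H)` together with a choice, for every `x : G`, of the index `w x` of its double coset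
and of `hh x : H` with `x ∈ U * g (w x) * ι (hh x)`, both left-`U`-invariant.  It yields

* the local subgroups `H_a = ι⁻¹(g_a⁻¹ U g_a)` (`ShlDec.Ha`), `θ_a : H_a →* U`, `y ↦ g_a ι(y) g_a⁻¹`
  (`ShlDec.th`), and equivariant retractions `r_a : H → H_a` (`ShlDec.rr`);
* `shlPhi* a` : `C^n(H, Coind_U N) → C^n(H_a, N)`, evaluation at `g_a` (a cochain map);
* `shlPsi*` : `∏_a C^n(H_a, N) → C^n(H, Coind_U N)`, a cochain map with `Φ ∘ ψ = id`;
* homotopies `shlE*`, `shlE'*` with `f - ψ (Φ f) = d (e' f)` and `Φ (e' f) = 0` for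
  `Coind`-valued cocycles `f` (acyclicity of `ker Φ`).

Everything is stated for raw curried functions, as in `ShapCore`.
-/

set_option autoImplicit false
set_option linter.unusedSectionVars false
set_option linter.unusedSimpArgs false
set_option linter.unusedVariables false

namespace Fermat.Agent.S55

/-- Double coset decomposition data for `U \ G / ι(H)`: representatives `g a`, the double
coset index `w x` of `x`, and `hh x : H` with `x ∈ U * g (w x) * ι (hh x)`. -/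
structure ShlDec {G H : Type*} [Group G] [Group H] (ι : H →* G) (U : Subgroup G)
    (W : Type*) where
  /-- the double coset representatives -/
  g : W → G
  /-- the index of the double coset of `x` -/
  w : G → W
  /-- the `H`-component of `x` -/
  hh : G → H
  mem : ∀ x, x * (ι (hh x))⁻¹ * (g (w x))⁻¹ ∈ U
  w_left : ∀ (u : U) (x : G), w ((u : G) * x) = w x
  hh_left : ∀ (u : U) (x : G), hh ((u : G) * x) = hh x
  w_right : ∀ (x : G) (y : H), w (x * ι y) = w x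
  w_g : ∀ a, w (g a) = a
  hh_g : ∀ a, hh (g a) = 1

namespace ShlDec

variable {G H : Type*} [Group G] [Group H] {ι : H →* G} {U : Subgroup G} {W : Type*}
  (D : ShlDec ι U W)

/-- the `U`-component of `x`. -/
def uu (x : G) : U := ⟨x * (ι (D.hh x))⁻¹ * (D.g (D.w x))⁻¹, D.mem x⟩

theorem uu_coe (x : G) : (D.uu x : G) = x * (ι (D.hh x))⁻¹ * (D.g (D.w x))⁻¹ := rfl

theorem dec (x : G) : x = (D.uu x : G) * D.g (D.w x) * ι (D.hh x) := by
  simp [uu_coe]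

theorem uu_left (u : U) (x : G) : D.uu ((u : G) * x) = u * D.uu x := by
  apply Subtype.ext
  simp [uu_coe, D.w_left, D.hh_left, mul_assoc]

theorem uu_g (a : W) : D.uu (D.g a) = 1 := by
  apply Subtype.ext
  simp [uu_coe, D.w_g, D.hh_g]

/-- the local subgroup `H_a = ι⁻¹(g_a⁻¹ U g_a)`. -/
def Ha (a : W) : Subgroup H := U.comap ((MulAut.conj (D.g a)).toMonoidHom.comp ι)

theorem mem_Ha {a : W} {y : H} : y ∈ D.Ha a ↔ D.g a * ι y * (D.g a)⁻¹ ∈ U := Iff.rfl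

/-- `θ_a : H_a →* U`, `y ↦ g_a ι(y) g_a⁻¹`. -/
def th (a : W) : D.Ha a →* U := ((MulAut.conj (D.g a)).toMonoidHom.comp ι).subgroupComap U

theorem th_coe (a : W) (z : D.Ha a) : (D.th a z : G) = D.g a * ι (z : H) * (D.g a)⁻¹ := rfl

theorem rr_mem (a : W) (y : H) : y * (D.hh (D.g a * ι y))⁻¹ ∈ D.Ha a := by
  have h := D.mem (D.g a * ι y)
  rw [D.w_right, D.w_g] at h
  rw [mem_Ha]
  simpa [mul_assoc] using h

/-- the local retraction `r_a : H → H_a`. -/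
def rr (a : W) (y : H) : D.Ha a := ⟨y * (D.hh (D.g a * ι y))⁻¹, D.rr_mem a y⟩

theorem rr_coe (a : W) (y : H) : (D.rr a y : H) = y * (D.hh (D.g a * ι y))⁻¹ := rfl

theorem rr_mul (a : W) (z : D.Ha a) (y : H) : D.rr a ((z : H) * y) = z * D.rr a y := by
  apply Subtype.ext
  have h : D.g a * ι ((z : H) * y) = ((D.th a z : U) : G) * (D.g a * ι y) := by
    simp [th_coe, mul_assoc]
  simp only [rr_coe, Subgroup.coe_mul, h, D.hh_left, mul_assoc]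

theorem rr_one (a : W) : D.rr a 1 = 1 := by
  apply Subtype.ext
  simp [rr_coe, D.hh_g]

theorem g_hh_mul (x : G) (y : H) :
    D.g (D.w x) * ι (D.hh x * y) = (((D.uu x)⁻¹ : U) : G) * (x * ι y) := by
  simp [uu_coe, mul_assoc]

theorem hh_g_hh_mul (x : G) (y : H) : D.hh (D.g (D.w x) * ι (D.hh x * y)) = D.hh (x * ι y) := by
  rw [g_hh_mul, D.hh_left]

theorem rr_hh_mul_coe (x : G) (y : H) :
    (D.rr (D.w x) (D.hh x * y) : H) = D.hh x * y * (D.hh (x * ι y))⁻¹ := by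
  rw [rr_coe, hh_g_hh_mul]

theorem rr_hh (x : G) : D.rr (D.w x) (D.hh x) = 1 := by
  apply Subtype.ext
  have h := D.rr_hh_mul_coe x 1
  simpa using h

theorem hh_right (x : G) (y : H) :
    D.hh (x * ι y) = ((D.rr (D.w x) (D.hh x * y))⁻¹ : D.Ha (D.w x)) * (D.hh x * y) := by
  simp [rr_hh_mul_coe, mul_assoc]

theorem uu_right (x : G) (y : H) :
    D.uu (x * ι y) = D.uu x * D.th (D.w x) (D.rr (D.w x) (D.hh x * y)) := by
  apply Subtype.ext
  simp [uu_coe, th_coe, rr_hh_mul_coe, D.w_right, mul_assoc]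

end ShlDec

section cochains

variable {k : Type*} [CommRing k] {G H : Type*} [Group G] [Group H] {ι : H →* G}
  {U : Subgroup G} {W : Type*} (D : ShlDec ι U W)
  {N : Type*} [AddCommGroup N] [Module k N] (ρ : Representation k U N)

/-- the basic translation lemma: a function on `H` which is `H_a`-equivariant can be moved
from `x * ι y` to `x`. -/
theorem ShlDec.shift (x : G) (F : H → N)
    (hF : ∀ (z : D.Ha (D.w x)) (h : H), F ((z : H) * h) = ρ (D.th (D.w x) z) (F h)) (y : H) :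
    ρ (D.uu (x * ι y)) (F (D.hh (x * ι y))) = ρ (D.uu x) (F (D.hh x * y)) := by
  rw [D.hh_right, hF, D.uu_right, ← Module.End.mul_apply, ← map_mul, mul_assoc, ← map_mul,
    mul_inv_cancel, map_one, mul_one]

/-! ### differentials of `C(H, Coind_U N)`, `H` acting through `ι` -/

/-- `d : C^0(H, Coind) → C^1(H, Coind)`. -/
def shlDI₀₁ (ι : H →* G) (a : G → N) : H → G → N := fun y x => a (x * ι y) - a x

/-- `d : C^1(H, Coind) → C^2(H, Coind)`. -/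
def shlDI₁₂ (ι : H →* G) (f : H → G → N) : H → H → G → N :=
  fun y1 y2 x => f y2 (x * ι y1) - f (y1 * y2) x + f y1 x

/-- `d : C^2(H, Coind) → C^3(H, Coind)`. -/
def shlDI₂₃ (ι : H →* G) (f : H → H → G → N) : H → H → H → G → N :=
  fun y1 y2 y3 x => f y2 y3 (x * ι y1) - f (y1 * y2) y3 x + f y1 (y2 * y3) x - f y1 y2 x

/-- `d : C^3(H, Coind) → C^4(H, Coind)`. -/
def shlDI₃₄ (ι : H →* G) (f : H → H → H → G → N) : H → H → H → H → G → N :=
  fun y1 y2 y3 y4 x => f y2 y3 y4 (x * ι y1) - f (y1 * y2) y3 y4 x + f y1 (y2 * y3) y4 x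
    - f y1 y2 (y3 * y4) x + f y1 y2 y3 x

/-! ### the components: restriction of `Coind`-valued cochains to the double coset of `g a` -/

/-- component `a` of an element of `Coind`. -/
def shlComp₀ (a : W) (f : G → N) : H → N := fun h => f (D.g a * ι h)

/-- component `a`, degree 1. -/
def shlComp₁ (a : W) (f : H → G → N) : H → H → N := fun y h => f y (D.g a * ι h)

/-- component `a`, degree 2. -/
def shlComp₂ (a : W) (f : H → H → G → N) : H → H → H → N := fun y1 y2 h => f y1 y2 (D.g a * ι h)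

/-- component `a`, degree 3. -/
def shlComp₃ (a : W) (f : H → H → H → G → N) : H → H → H → H → N :=
  fun y1 y2 y3 h => f y1 y2 y3 (D.g a * ι h)

/-! ### the maps `Φ_a` -/

/-- `Φ_a`, degree 0: evaluation at `g a`. -/
def shlPhi₀ (a : W) (f : G → N) : N := f (D.g a)

/-- `Φ_a`, degree 1. -/
def shlPhi₁ (a : W) (f : H → G → N) : D.Ha a → N := fun z => f z (D.g a)

/-- `Φ_a`, degree 2. -/
def shlPhi₂ (a : W) (f : H → H → G → N) : D.Ha a → D.Ha a → N := fun z1 z2 => f z1 z2 (D.g a)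

/-- `Φ_a`, degree 3. -/
def shlPhi₃ (a : W) (f : H → H → H → G → N) : D.Ha a → D.Ha a → D.Ha a → N :=
  fun z1 z2 z3 => f z1 z2 z3 (D.g a)

theorem shlPhi₀_eq (a : W) (f : G → N) : shlPhi₀ D a f = shapSh₀ (shlComp₀ D a f) := by
  simp [shlPhi₀, shapSh₀, shlComp₀]

theorem shlPhi₁_eq (a : W) (f : H → G → N) : shlPhi₁ D a f = shapSh₁ (shlComp₁ D a f) := by
  funext z; simp [shlPhi₁, shapSh₁, shlComp₁]

theorem shlPhi₂_eq (a : W) (f : H → H → G → N) :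
    shlPhi₂ D a f = shapSh₂ (shlComp₂ D a f) := by
  funext z1 z2; simp [shlPhi₂, shapSh₂, shlComp₂]

theorem shlPhi₃_eq (a : W) (f : H → H → H → G → N) :
    shlPhi₃ D a f = shapSh₃ (shlComp₃ D a f) := by
  funext z1 z2 z3; simp [shlPhi₃, shapSh₃, shlComp₃]

/-! ### the section `ψ` -/

/-- the section `ψ`, degree 0. -/
def shlPsi₀ (c : W → N) : G → N := fun x =>
  ρ (D.uu x) (shapJ₀ (D.rr (D.w x)) (ρ.comp (D.th (D.w x))) (c (D.w x)) (D.hh x))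

/-- the section `ψ`, degree 1. -/
def shlPsi₁ (c : ∀ a, D.Ha a → N) : H → G → N := fun y x =>
  ρ (D.uu x) (shapJ₁ (D.rr (D.w x)) (ρ.comp (D.th (D.w x))) (c (D.w x)) y (D.hh x))

/-- the section `ψ`, degree 2. -/
def shlPsi₂ (c : ∀ a, D.Ha a → D.Ha a → N) : H → H → G → N := fun y1 y2 x =>
  ρ (D.uu x) (shapJ₂ (D.rr (D.w x)) (ρ.comp (D.th (D.w x))) (c (D.w x)) y1 y2 (D.hh x))

/-- the section `ψ`, degree 3. -/
def shlPsi₃ (c : ∀ a, D.Ha a → D.Ha a → D.Ha a → N) : H → H → H → G → N := fun y1 y2 y3 x =>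
  ρ (D.uu x) (shapJ₃ (D.rr (D.w x)) (ρ.comp (D.th (D.w x))) (c (D.w x)) y1 y2 y3 (D.hh x))

theorem shlPsi₀_apply (c : W → N) (x : G) : shlPsi₀ D ρ c x = ρ (D.uu x) (c (D.w x)) := by
  simp [shlPsi₀, shapJ₀, shapC₀, D.rr_hh]

/-- `ψ c` lies in `Coind`. -/
theorem shlPsi₀_equiv (c : W → N) (u : U) (x : G) :
    shlPsi₀ D ρ c ((u : G) * x) = ρ u (shlPsi₀ D ρ c x) := by
  unfold shlPsi₀
  rw [D.w_left, D.hh_left, D.uu_left, map_mul]
  rfl

/-- `ψ c` takes values in `Coind`, degree 1. -/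
theorem shlPsi₁_equiv (c : ∀ a, D.Ha a → N) (y : H) (u : U) (x : G) :
    shlPsi₁ D ρ c y ((u : G) * x) = ρ u (shlPsi₁ D ρ c y x) := by
  unfold shlPsi₁
  rw [D.w_left, D.hh_left, D.uu_left, map_mul]
  rfl

/-- `ψ c` takes values in `Coind`, degree 2. -/
theorem shlPsi₂_equiv (c : ∀ a, D.Ha a → D.Ha a → N) (y1 y2 : H) (u : U) (x : G) :
    shlPsi₂ D ρ c y1 y2 ((u : G) * x) = ρ u (shlPsi₂ D ρ c y1 y2 x) := by
  unfold shlPsi₂
  rw [D.w_left, D.hh_left, D.uu_left, map_mul]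
  rfl

/-- `ψ c` takes values in `Coind`, degree 3. -/
theorem shlPsi₃_equiv (c : ∀ a, D.Ha a → D.Ha a → D.Ha a → N) (y1 y2 y3 : H) (u : U) (x : G) :
    shlPsi₃ D ρ c y1 y2 y3 ((u : G) * x) = ρ u (shlPsi₃ D ρ c y1 y2 y3 x) := by
  unfold shlPsi₃
  rw [D.w_left, D.hh_left, D.uu_left, map_mul]
  rfl

theorem shlPsi₀_shift (c : W → N) (x : G) (y0 : H) :
    shlPsi₀ D ρ c (x * ι y0) =
      ρ (D.uu x) (shapJ₀ (D.rr (D.w x)) (ρ.comp (D.th (D.w x))) (c (D.w x)) (D.hh x * y0)) := by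
  unfold shlPsi₀
  rw [D.w_right]
  exact D.shift ρ x _
    (fun z h => shapJ₀_equiv (D.rr (D.w x)) (ρ.comp (D.th (D.w x))) (D.rr_mul (D.w x)) _ z h) y0

theorem shlPsi₁_shift (c : ∀ a, D.Ha a → N) (y : H) (x : G) (y0 : H) :
    shlPsi₁ D ρ c y (x * ι y0) =
      ρ (D.uu x)
        (shapJ₁ (D.rr (D.w x)) (ρ.comp (D.th (D.w x))) (c (D.w x)) y (D.hh x * y0)) := by
  unfold shlPsi₁
  rw [D.w_right]
  exact D.shift ρ x _
    (fun z h => shapJ₁_equiv (D.rr (D.w x)) (ρ.comp (D.th (D.w x))) (D.rr_mul (D.w x)) _ y z h) y0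

theorem shlPsi₂_shift (c : ∀ a, D.Ha a → D.Ha a → N) (y1 y2 : H) (x : G) (y0 : H) :
    shlPsi₂ D ρ c y1 y2 (x * ι y0) =
      ρ (D.uu x)
        (shapJ₂ (D.rr (D.w x)) (ρ.comp (D.th (D.w x))) (c (D.w x)) y1 y2 (D.hh x * y0)) := by
  unfold shlPsi₂
  rw [D.w_right]
  exact D.shift ρ x _
    (fun z h => shapJ₂_equiv (D.rr (D.w x)) (ρ.comp (D.th (D.w x))) (D.rr_mul (D.w x)) _ y1 y2 z h)
    y0

theorem shlPsi₃_shift (c : ∀ a, D.Ha a → D.Ha a → D.Ha a → N) (y1 y2 y3 : H) (x : G) (y0 : H) :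
    shlPsi₃ D ρ c y1 y2 y3 (x * ι y0) =
      ρ (D.uu x)
        (shapJ₃ (D.rr (D.w x)) (ρ.comp (D.th (D.w x))) (c (D.w x)) y1 y2 y3 (D.hh x * y0)) := by
  unfold shlPsi₃
  rw [D.w_right]
  exact D.shift ρ x _
    (fun z h => shapJ₃_equiv (D.rr (D.w x)) (ρ.comp (D.th (D.w x))) (D.rr_mul (D.w x)) _ y1 y2 y3
      z h) y0

/-- `ψ` is a cochain map, degree `0 → 1`. -/
theorem shlDI_Psi₀ (c : W → N) :
    shlDI₀₁ ι (shlPsi₀ D ρ c) = shlPsi₁ D ρ (fun a => shapDU₀₁ (ρ.comp (D.th a)) (c a)) := by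
  funext y x
  have h := congrFun (congrFun
    (shapDI_J₀ (D.rr (D.w x)) (ρ.comp (D.th (D.w x))) (c (D.w x))) y) (D.hh x)
  simp only [shapDI₀₁] at h
  simp only [shlDI₀₁, shlPsi₀_shift]
  simp only [shlPsi₀, shlPsi₁, ← h, map_sub]

/-- `ψ` is a cochain map, degree `1 → 2`. -/
theorem shlDI_Psi₁ (c : ∀ a, D.Ha a → N) :
    shlDI₁₂ ι (shlPsi₁ D ρ c) = shlPsi₂ D ρ (fun a => shapDU₁₂ (ρ.comp (D.th a)) (c a)) := by
  funext y1 y2 x
  have h := congrFun (congrFun (congrFun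
    (shapDI_J₁ (D.rr (D.w x)) (ρ.comp (D.th (D.w x))) (c (D.w x))) y1) y2) (D.hh x)
  simp only [shapDI₁₂] at h
  simp only [shlDI₁₂, shlPsi₁_shift]
  simp only [shlPsi₁, shlPsi₂, ← h, map_sub, map_add]

/-- `ψ` is a cochain map, degree `2 → 3`. -/
theorem shlDI_Psi₂ (c : ∀ a, D.Ha a → D.Ha a → N) :
    shlDI₂₃ ι (shlPsi₂ D ρ c) = shlPsi₃ D ρ (fun a => shapDU₂₃ (ρ.comp (D.th a)) (c a)) := by
  funext y1 y2 y3 x
  have h := congrFun (congrFun (congrFun (congrFun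
    (shapDI_J₂ (D.rr (D.w x)) (ρ.comp (D.th (D.w x))) (c (D.w x))) y1) y2) y3) (D.hh x)
  simp only [shapDI₂₃] at h
  simp only [shlDI₂₃, shlPsi₂_shift]
  simp only [shlPsi₂, shlPsi₃, ← h, map_sub, map_add]

/-- `ψ` maps families of `3`-cocycles to `3`-cocycles. -/
theorem shlDI_Psi₃ (c : ∀ a, D.Ha a → D.Ha a → D.Ha a → N)
    (hc : ∀ a u v w z, shapDU₃₄ (ρ.comp (D.th a)) (c a) u v w z = 0) (y1 y2 y3 y4 : H) (x : G) :
    shlDI₃₄ ι (shlPsi₃ D ρ c) y1 y2 y3 y4 x = 0 := by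
  have h := shapDI_J₃ (D.rr (D.w x)) (ρ.comp (D.th (D.w x))) (c (D.w x)) (hc (D.w x))
    y1 y2 y3 y4 (D.hh x)
  simp only [shapDI₃₄] at h
  simp only [shlDI₃₄, shlPsi₃_shift]
  simp only [shlPsi₃, ← map_sub, ← map_add, h, map_zero]

/-- `Φ ∘ ψ = id`, degree 0. -/
theorem shlPhi_Psi₀ (c : W → N) (a : W) : shlPhi₀ D a (shlPsi₀ D ρ c) = c a := by
  simp [shlPhi₀, shlPsi₀_apply, D.uu_g, D.w_g]

/-- `Φ ∘ ψ = id`, degree 1. -/
theorem shlPhi_Psi₁ (c : ∀ a, D.Ha a → N) (a : W) : shlPhi₁ D a (shlPsi₁ D ρ c) = c a := by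
  funext z
  have h := congrFun (shapSh_J₁ (D.rr a) (ρ.comp (D.th a)) (D.rr_mul a) (D.rr_one a) (c a)) z
  simp only [shapSh₁] at h
  simp only [shlPhi₁, shlPsi₁]
  rw [D.w_g, D.hh_g, D.uu_g, map_one, h]
  rfl

/-- `Φ ∘ ψ = id`, degree 2. -/
theorem shlPhi_Psi₂ (c : ∀ a, D.Ha a → D.Ha a → N) (a : W) :
    shlPhi₂ D a (shlPsi₂ D ρ c) = c a := by
  funext z1 z2
  have h := congrFun (congrFun
    (shapSh_J₂ (D.rr a) (ρ.comp (D.th a)) (D.rr_mul a) (D.rr_one a) (c a)) z1) z2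
  simp only [shapSh₂] at h
  simp only [shlPhi₂, shlPsi₂]
  rw [D.w_g, D.hh_g, D.uu_g, map_one, h]
  rfl

/-- `Φ ∘ ψ = id`, degree 3. -/
theorem shlPhi_Psi₃ (c : ∀ a, D.Ha a → D.Ha a → D.Ha a → N) (a : W) :
    shlPhi₃ D a (shlPsi₃ D ρ c) = c a := by
  funext z1 z2 z3
  have h := congrFun (congrFun (congrFun
    (shapSh_J₃ (D.rr a) (ρ.comp (D.th a)) (D.rr_mul a) (D.rr_one a) (c a)) z1) z2) z3
  simp only [shapSh₃] at h
  simp only [shlPhi₃, shlPsi₃]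
  rw [D.w_g, D.hh_g, D.uu_g, map_one, h]
  rfl

/-! ### `Φ` is a cochain map on `Coind`-valued cochains -/

theorem ShlDec.g_mul_iota (a : W) (z : D.Ha a) :
    D.g a * ι (z : H) = ((D.th a z : U) : G) * D.g a := by
  simp [ShlDec.th_coe]

/-- `Φ_a` is a cochain map, degree `0 → 1`. -/
theorem shlPhi_DI₀ (a : W) (f : G → N) (hf : ∀ (u : U) x, f ((u : G) * x) = ρ u (f x)) :
    shlPhi₁ D a (shlDI₀₁ ι f) = shapDU₀₁ (ρ.comp (D.th a)) (shlPhi₀ D a f) := by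
  funext z
  simp only [shlPhi₁, shlDI₀₁, shapDU₀₁, shlPhi₀, D.g_mul_iota, hf]
  rfl

/-- `Φ_a` is a cochain map, degree `1 → 2`. -/
theorem shlPhi_DI₁ (a : W) (f : H → G → N)
    (hf : ∀ y (u : U) x, f y ((u : G) * x) = ρ u (f y x)) :
    shlPhi₂ D a (shlDI₁₂ ι f) = shapDU₁₂ (ρ.comp (D.th a)) (shlPhi₁ D a f) := by
  funext z1 z2
  simp only [shlPhi₂, shlDI₁₂, shapDU₁₂, shlPhi₁, D.g_mul_iota, hf]
  rfl

/-- `Φ_a` is a cochain map, degree `2 → 3`. -/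
theorem shlPhi_DI₂ (a : W) (f : H → H → G → N)
    (hf : ∀ y1 y2 (u : U) x, f y1 y2 ((u : G) * x) = ρ u (f y1 y2 x)) :
    shlPhi₃ D a (shlDI₂₃ ι f) = shapDU₂₃ (ρ.comp (D.th a)) (shlPhi₂ D a f) := by
  funext z1 z2 z3
  simp only [shlPhi₃, shlDI₂₃, shapDU₂₃, shlPhi₂, D.g_mul_iota, hf]
  rfl

/-! ### the components are `Coind_{H_a}^H`-valued cochains of `H` -/

theorem ShlDec.g_mul_iota_mul (a : W) (z : D.Ha a) (h : H) :
    D.g a * ι ((z : H) * h) = ((D.th a z : U) : G) * (D.g a * ι h) := by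
  simp [ShlDec.th_coe, mul_assoc]

theorem shlComp₀_equiv (a : W) (f : G → N) (hf : ∀ (u : U) x, f ((u : G) * x) = ρ u (f x))
    (z : D.Ha a) (h : H) :
    shlComp₀ D a f ((z : H) * h) = (ρ.comp (D.th a)) z (shlComp₀ D a f h) := by
  simp only [shlComp₀, D.g_mul_iota_mul, hf]
  rfl

theorem shlComp₁_equiv (a : W) (f : H → G → N)
    (hf : ∀ y (u : U) x, f y ((u : G) * x) = ρ u (f y x)) (y : H) (z : D.Ha a) (h : H) :
    shlComp₁ D a f y ((z : H) * h) = (ρ.comp (D.th a)) z (shlComp₁ D a f y h) := by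
  simp only [shlComp₁, D.g_mul_iota_mul, hf]
  rfl

theorem shlComp₂_equiv (a : W) (f : H → H → G → N)
    (hf : ∀ y1 y2 (u : U) x, f y1 y2 ((u : G) * x) = ρ u (f y1 y2 x)) (y1 y2 : H)
    (z : D.Ha a) (h : H) :
    shlComp₂ D a f y1 y2 ((z : H) * h) = (ρ.comp (D.th a)) z (shlComp₂ D a f y1 y2 h) := by
  simp only [shlComp₂, D.g_mul_iota_mul, hf]
  rfl

theorem shlComp₃_equiv (a : W) (f : H → H → H → G → N)
    (hf : ∀ y1 y2 y3 (u : U) x, f y1 y2 y3 ((u : G) * x) = ρ u (f y1 y2 y3 x)) (y1 y2 y3 : H)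
    (z : D.Ha a) (h : H) :
    shlComp₃ D a f y1 y2 y3 ((z : H) * h) = (ρ.comp (D.th a)) z (shlComp₃ D a f y1 y2 y3 h) := by
  simp only [shlComp₃, D.g_mul_iota_mul, hf]
  rfl

theorem shlComp_DI₀ (a : W) (f : G → N) (y h : H) :
    shapDI₀₁ (shlComp₀ D a f) y h = shlDI₀₁ ι f y (D.g a * ι h) := by
  simp only [shapDI₀₁, shlComp₀, shlDI₀₁, map_mul, mul_assoc]

theorem shlComp_DI₁ (a : W) (f : H → G → N) (y1 y2 h : H) :
    shapDI₁₂ (shlComp₁ D a f) y1 y2 h = shlDI₁₂ ι f y1 y2 (D.g a * ι h) := by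
  simp only [shapDI₁₂, shlComp₁, shlDI₁₂, map_mul, mul_assoc]

theorem shlComp_DI₂ (a : W) (f : H → H → G → N) (y1 y2 y3 h : H) :
    shapDI₂₃ (shlComp₂ D a f) y1 y2 y3 h = shlDI₂₃ ι f y1 y2 y3 (D.g a * ι h) := by
  simp only [shapDI₂₃, shlComp₂, shlDI₂₃, map_mul, mul_assoc]

theorem shlComp_DI₃ (a : W) (f : H → H → H → G → N) (y1 y2 y3 y4 h : H) :
    shapDI₃₄ (shlComp₃ D a f) y1 y2 y3 y4 h = shlDI₃₄ ι f y1 y2 y3 y4 (D.g a * ι h) := by
  simp only [shapDI₃₄, shlComp₃, shlDI₃₄, map_mul, mul_assoc]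

/-- a `Coind`-valued function is recovered from its components. -/
theorem ShlDec.eq_comp (f : G → N) (hf : ∀ (u : U) x, f ((u : G) * x) = ρ u (f x)) (x : G) :
    f x = ρ (D.uu x) (f (D.g (D.w x) * ι (D.hh x))) := by
  rw [← hf, ← mul_assoc, ← D.dec]

end cochains

/-! ### equivariance of the homotopy of `ShapCore` -/

section shapE

variable {k : Type*} [CommRing k] {G : Type*} [Group G] {U : Subgroup G}
  {N : Type*} [AddCommGroup N] [Module k N] (r : G → U) (ρ : Representation k U N)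
  (hr : ∀ (u : U) (x : G), r ((u : G) * x) = u * r x)
include hr

theorem shl_shapE₁_equiv (f : G → G → N) (hf : ∀ g (u : U) x, f g ((u : G) * x) = ρ u (f g x))
    (u : U) (x : G) : shapE₁ r f ((u : G) * x) = ρ u (shapE₁ r f x) := by
  simp only [shapE₁, shapHH₁, shapT₁, hr, map_neg, hf, Subgroup.coe_mul, mul_inv_rev,
    mul_assoc, inv_mul_cancel_left]

theorem shl_shapE₂_equiv (f : G → G → G → N)
    (hf : ∀ g h (u : U) x, f g h ((u : G) * x) = ρ u (f g h x)) (g : G) (u : U) (x : G) :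
    shapE₂ r f g ((u : G) * x) = ρ u (shapE₂ r f g x) := by
  simp only [shapE₂, shapTinv₁, shapHH₂, shapT₂, hr, map_neg, map_sub, hf, Subgroup.coe_mul,
    mul_inv_rev, mul_assoc, inv_mul_cancel_left]

theorem shl_shapE₃_equiv (f : G → G → G → G → N)
    (hf : ∀ g h j (u : U) x, f g h j ((u : G) * x) = ρ u (f g h j x)) (g h : G) (u : U) (x : G) :
    shapE₃ r f g h ((u : G) * x) = ρ u (shapE₃ r f g h x) := by
  simp only [shapE₃, shapTinv₂, shapHH₃, shapT₃, hr, map_neg, map_sub, map_add, hf,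
    Subgroup.coe_mul, mul_inv_rev, mul_assoc, inv_mul_cancel_left]

end shapE

/-! ### the homotopy: acyclicity of `ker Φ` -/

section homotopy

variable {k : Type*} [CommRing k] {G H : Type*} [Group G] [Group H] {ι : H →* G}
  {U : Subgroup G} {W : Type*} (D : ShlDec ι U W)
  {N : Type*} [AddCommGroup N] [Module k N] (ρ : Representation k U N)

/-- the raw homotopy, degree `1 → 0`. -/
def shlE₁ (f : H → G → N) : G → N := fun x =>
  ρ (D.uu x) (shapE₁ (D.rr (D.w x)) (shlComp₁ D (D.w x) f) (D.hh x))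

/-- the raw homotopy, degree `2 → 1`. -/
def shlE₂ (f : H → H → G → N) : H → G → N := fun y x =>
  ρ (D.uu x) (shapE₂ (D.rr (D.w x)) (shlComp₂ D (D.w x) f) y (D.hh x))

/-- the raw homotopy, degree `3 → 2`. -/
def shlE₃ (f : H → H → H → G → N) : H → H → G → N := fun y1 y2 x =>
  ρ (D.uu x) (shapE₃ (D.rr (D.w x)) (shlComp₃ D (D.w x) f) y1 y2 (D.hh x))

theorem shlE₁_equiv (f : H → G → N) (u : U) (x : G) :
    shlE₁ D ρ f ((u : G) * x) = ρ u (shlE₁ D ρ f x) := by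
  unfold shlE₁
  rw [D.w_left, D.hh_left, D.uu_left, map_mul]
  rfl

theorem shlE₂_equiv (f : H → H → G → N) (y : H) (u : U) (x : G) :
    shlE₂ D ρ f y ((u : G) * x) = ρ u (shlE₂ D ρ f y x) := by
  unfold shlE₂
  rw [D.w_left, D.hh_left, D.uu_left, map_mul]
  rfl

theorem shlE₃_equiv (f : H → H → H → G → N) (y1 y2 : H) (u : U) (x : G) :
    shlE₃ D ρ f y1 y2 ((u : G) * x) = ρ u (shlE₃ D ρ f y1 y2 x) := by
  unfold shlE₃
  rw [D.w_left, D.hh_left, D.uu_left, map_mul]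
  rfl

theorem shlE₁_shift (f : H → G → N) (hf : ∀ y (u : U) x, f y ((u : G) * x) = ρ u (f y x))
    (x : G) (y0 : H) :
    shlE₁ D ρ f (x * ι y0) =
      ρ (D.uu x) (shapE₁ (D.rr (D.w x)) (shlComp₁ D (D.w x) f) (D.hh x * y0)) := by
  unfold shlE₁
  rw [D.w_right]
  exact D.shift ρ x _
    (fun z h => shl_shapE₁_equiv (D.rr (D.w x)) (ρ.comp (D.th (D.w x))) (D.rr_mul (D.w x)) _
      (shlComp₁_equiv D ρ (D.w x) f hf) z h) y0

theorem shlE₂_shift (f : H → H → G → N)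
    (hf : ∀ y1 y2 (u : U) x, f y1 y2 ((u : G) * x) = ρ u (f y1 y2 x)) (y : H) (x : G) (y0 : H) :
    shlE₂ D ρ f y (x * ι y0) =
      ρ (D.uu x) (shapE₂ (D.rr (D.w x)) (shlComp₂ D (D.w x) f) y (D.hh x * y0)) := by
  unfold shlE₂
  rw [D.w_right]
  exact D.shift ρ x _
    (fun z h => shl_shapE₂_equiv (D.rr (D.w x)) (ρ.comp (D.th (D.w x))) (D.rr_mul (D.w x)) _
      (shlComp₂_equiv D ρ (D.w x) f hf) y z h) y0

theorem shlE₃_shift (f : H → H → H → G → N)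
    (hf : ∀ y1 y2 y3 (u : U) x, f y1 y2 y3 ((u : G) * x) = ρ u (f y1 y2 y3 x)) (y1 y2 : H)
    (x : G) (y0 : H) :
    shlE₃ D ρ f y1 y2 (x * ι y0) =
      ρ (D.uu x) (shapE₃ (D.rr (D.w x)) (shlComp₃ D (D.w x) f) y1 y2 (D.hh x * y0)) := by
  unfold shlE₃
  rw [D.w_right]
  exact D.shift ρ x _
    (fun z h => shl_shapE₃_equiv (D.rr (D.w x)) (ρ.comp (D.th (D.w x))) (D.rr_mul (D.w x)) _
      (shlComp₃_equiv D ρ (D.w x) f hf) y1 y2 z h) y0

/-- degree 0: an `H`-invariant element of `Coind` is `ψ` of its values at the `g a`. -/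
theorem shl_homotopy₀ (f : G → N) (hf : ∀ (u : U) x, f ((u : G) * x) = ρ u (f x))
    (hcoc : ∀ y x, shlDI₀₁ ι f y x = 0) (x : G) :
    f x = shlPsi₀ D ρ (fun a => shlPhi₀ D a f) x := by
  have h := hcoc (D.hh x) (D.g (D.w x))
  simp only [shlDI₀₁] at h
  rw [shlPsi₀_apply, shlPhi₀, D.eq_comp ρ f hf x, sub_eq_zero.mp h]

/-- degree 1: `f - ψ (Φ f) = d (e f)` for `Coind`-valued `1`-cocycles. -/
theorem shl_homotopy₁ (f : H → G → N) (hf : ∀ y (u : U) x, f y ((u : G) * x) = ρ u (f y x))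
    (hcoc : ∀ y1 y2 x, shlDI₁₂ ι f y1 y2 x = 0) (y : H) (x : G) :
    f y x - shlPsi₁ D ρ (fun a => shlPhi₁ D a f) y x = shlDI₀₁ ι (shlE₁ D ρ f) y x := by
  have key := shap_homotopy₁ (D.rr (D.w x)) (ρ.comp (D.th (D.w x))) (shlComp₁ D (D.w x) f)
    (shlComp₁_equiv D ρ (D.w x) f hf) (fun y1 y2 h => by rw [shlComp_DI₁, hcoc]) y (D.hh x)
  rw [← shlPhi₁_eq] at key
  simp only [shapDI₀₁] at key
  simp only [shlDI₀₁, shlE₁_shift D ρ f hf]
  simp only [shlE₁, shlPsi₁, ← map_sub, ← key]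
  rw [map_sub, sub_left_inj]
  exact D.eq_comp ρ (f y) (hf y) x

/-- degree 2: `f - ψ (Φ f) = d (e f)` for `Coind`-valued `2`-cocycles. -/
theorem shl_homotopy₂ (f : H → H → G → N)
    (hf : ∀ y1 y2 (u : U) x, f y1 y2 ((u : G) * x) = ρ u (f y1 y2 x))
    (hcoc : ∀ y1 y2 y3 x, shlDI₂₃ ι f y1 y2 y3 x = 0) (y1 y2 : H) (x : G) :
    f y1 y2 x - shlPsi₂ D ρ (fun a => shlPhi₂ D a f) y1 y2 x =
      shlDI₁₂ ι (shlE₂ D ρ f) y1 y2 x := by
  have key := shap_homotopy₂ (D.rr (D.w x)) (ρ.comp (D.th (D.w x))) (shlComp₂ D (D.w x) f)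
    (shlComp₂_equiv D ρ (D.w x) f hf) (fun y1 y2 y3 h => by rw [shlComp_DI₂, hcoc]) y1 y2
    (D.hh x)
  rw [← shlPhi₂_eq] at key
  simp only [shapDI₁₂] at key
  simp only [shlDI₁₂, shlE₂_shift D ρ f hf]
  simp only [shlE₂, shlPsi₂, ← map_sub, ← map_add, ← key]
  rw [map_sub, sub_left_inj]
  exact D.eq_comp ρ (f y1 y2) (hf y1 y2) x

/-- degree 3: `f - ψ (Φ f) = d (e f)` for `Coind`-valued `3`-cocycles. -/
theorem shl_homotopy₃ (f : H → H → H → G → N)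
    (hf : ∀ y1 y2 y3 (u : U) x, f y1 y2 y3 ((u : G) * x) = ρ u (f y1 y2 y3 x))
    (hcoc : ∀ y1 y2 y3 y4 x, shlDI₃₄ ι f y1 y2 y3 y4 x = 0) (y1 y2 y3 : H) (x : G) :
    f y1 y2 y3 x - shlPsi₃ D ρ (fun a => shlPhi₃ D a f) y1 y2 y3 x =
      shlDI₂₃ ι (shlE₃ D ρ f) y1 y2 y3 x := by
  have key := shap_homotopy₃ (D.rr (D.w x)) (ρ.comp (D.th (D.w x))) (shlComp₃ D (D.w x) f)
    (shlComp₃_equiv D ρ (D.w x) f hf) (fun y1 y2 y3 y4 h => by rw [shlComp_DI₃, hcoc]) y1 y2 y3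
    (D.hh x)
  rw [← shlPhi₃_eq] at key
  simp only [shapDI₂₃] at key
  simp only [shlDI₂₃, shlE₃_shift D ρ f hf]
  simp only [shlE₃, shlPsi₃, ← map_sub, ← map_add, ← key]
  rw [map_sub, sub_left_inj]
  exact D.eq_comp ρ (f y1 y2 y3) (hf y1 y2 y3) x

/-! ### the normalised homotopy `e' = (1 - ψ Φ) e`, with `Φ e' = 0` -/

theorem shlPsi₀_zero : shlPsi₀ D ρ (fun _ => 0) = fun _ => 0 := by
  funext x; simp [shlPsi₀_apply]

theorem shlPsi₁_zero : shlPsi₁ D ρ (fun _ _ => 0) = fun _ _ => 0 := by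
  funext y x; simp [shlPsi₁, shapJ₁, shapTinv₁, shapC₁]

theorem shlPsi₂_zero : shlPsi₂ D ρ (fun _ _ _ => 0) = fun _ _ _ => 0 := by
  funext y1 y2 x; simp [shlPsi₂, shapJ₂, shapTinv₂, shapC₂]

theorem shlPsi₃_zero : shlPsi₃ D ρ (fun _ _ _ _ => 0) = fun _ _ _ _ => 0 := by
  funext y1 y2 y3 x; simp [shlPsi₃, shapJ₃, shapTinv₃, shapC₃]

/-- the normalised homotopy, degree `1 → 0`. -/
def shlE'₁ (f : H → G → N) : G → N := fun x =>
  shlE₁ D ρ f x - shlPsi₀ D ρ (fun a => shlPhi₀ D a (shlE₁ D ρ f)) x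

/-- the normalised homotopy, degree `2 → 1`. -/
def shlE'₂ (f : H → H → G → N) : H → G → N := fun y x =>
  shlE₂ D ρ f y x - shlPsi₁ D ρ (fun a => shlPhi₁ D a (shlE₂ D ρ f)) y x

/-- the normalised homotopy, degree `3 → 2`. -/
def shlE'₃ (f : H → H → H → G → N) : H → H → G → N := fun y1 y2 x =>
  shlE₃ D ρ f y1 y2 x - shlPsi₂ D ρ (fun a => shlPhi₂ D a (shlE₃ D ρ f)) y1 y2 x

theorem shlE'₁_equiv (f : H → G → N) (u : U) (x : G) :
    shlE'₁ D ρ f ((u : G) * x) = ρ u (shlE'₁ D ρ f x) := by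
  simp only [shlE'₁, shlE₁_equiv, shlPsi₀_equiv, map_sub]

theorem shlE'₂_equiv (f : H → H → G → N) (y : H) (u : U) (x : G) :
    shlE'₂ D ρ f y ((u : G) * x) = ρ u (shlE'₂ D ρ f y x) := by
  simp only [shlE'₂, shlE₂_equiv, shlPsi₁_equiv, map_sub]

theorem shlE'₃_equiv (f : H → H → H → G → N) (y1 y2 : H) (u : U) (x : G) :
    shlE'₃ D ρ f y1 y2 ((u : G) * x) = ρ u (shlE'₃ D ρ f y1 y2 x) := by
  simp only [shlE'₃, shlE₃_equiv, shlPsi₂_equiv, map_sub]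

/-- `Φ (e' f) = 0`, degree 0. -/
theorem shlPhi_E'₁ (f : H → G → N) (a : W) : shlPhi₀ D a (shlE'₁ D ρ f) = 0 := by
  show shlE₁ D ρ f (D.g a) - shlPsi₀ D ρ (fun a => shlPhi₀ D a (shlE₁ D ρ f)) (D.g a) = 0
  rw [sub_eq_zero]
  exact (shlPhi_Psi₀ D ρ (fun a => shlPhi₀ D a (shlE₁ D ρ f)) a).symm

/-- `Φ (e' f) = 0`, degree 1. -/
theorem shlPhi_E'₂ (f : H → H → G → N) (a : W) (z : D.Ha a) :
    shlPhi₁ D a (shlE'₂ D ρ f) z = 0 := by
  show shlE₂ D ρ f z (D.g a) - shlPsi₁ D ρ (fun a => shlPhi₁ D a (shlE₂ D ρ f)) z (D.g a) = 0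
  rw [sub_eq_zero]
  exact (congrFun (shlPhi_Psi₁ D ρ (fun a => shlPhi₁ D a (shlE₂ D ρ f)) a) z).symm

/-- `Φ (e' f) = 0`, degree 2. -/
theorem shlPhi_E'₃ (f : H → H → H → G → N) (a : W) (z1 z2 : D.Ha a) :
    shlPhi₂ D a (shlE'₃ D ρ f) z1 z2 = 0 := by
  show shlE₃ D ρ f z1 z2 (D.g a)
    - shlPsi₂ D ρ (fun a => shlPhi₂ D a (shlE₃ D ρ f)) z1 z2 (D.g a) = 0
  rw [sub_eq_zero]
  exact (congrFun (congrFun (shlPhi_Psi₂ D ρ (fun a => shlPhi₂ D a (shlE₃ D ρ f)) a) z1) z2).symm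

/-- acyclicity of `ker Φ`, degree 1: `f - ψ (Φ f) = d (e' f)` (and `Φ (e' f) = 0`). -/
theorem shl_acyclic₁ (f : H → G → N) (hf : ∀ y (u : U) x, f y ((u : G) * x) = ρ u (f y x))
    (hcoc : ∀ y1 y2 x, shlDI₁₂ ι f y1 y2 x = 0) (y : H) (x : G) :
    f y x - shlPsi₁ D ρ (fun a => shlPhi₁ D a f) y x = shlDI₀₁ ι (shlE'₁ D ρ f) y x := by
  have h1 : ∀ y x, shlDI₀₁ ι (shlE₁ D ρ f) y x =
      f y x - shlPsi₁ D ρ (fun a => shlPhi₁ D a f) y x :=
    fun y x => (shl_homotopy₁ D ρ f hf hcoc y x).symm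
  have h2 : ∀ a, shapDU₀₁ (ρ.comp (D.th a)) (shlPhi₀ D a (shlE₁ D ρ f)) = fun _ => 0 := by
    intro a
    rw [← shlPhi_DI₀ D ρ a _ (shlE₁_equiv D ρ f)]
    funext z
    show shlDI₀₁ ι (shlE₁ D ρ f) z (D.g a) = 0
    rw [h1, sub_eq_zero]
    exact (congrFun (shlPhi_Psi₁ D ρ (fun a => shlPhi₁ D a f) a) z).symm
  have h3 : shlDI₀₁ ι (shlE'₁ D ρ f) y x = shlDI₀₁ ι (shlE₁ D ρ f) y x
      - shlDI₀₁ ι (shlPsi₀ D ρ (fun a => shlPhi₀ D a (shlE₁ D ρ f))) y x := by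
    simp only [shlDI₀₁, shlE'₁]; abel
  rw [h3, shlDI_Psi₀, h1]
  simp only [h2, shlPsi₁_zero, sub_zero]

/-- acyclicity of `ker Φ`, degree 2: `f - ψ (Φ f) = d (e' f)` (and `Φ (e' f) = 0`). -/
theorem shl_acyclic₂ (f : H → H → G → N)
    (hf : ∀ y1 y2 (u : U) x, f y1 y2 ((u : G) * x) = ρ u (f y1 y2 x))
    (hcoc : ∀ y1 y2 y3 x, shlDI₂₃ ι f y1 y2 y3 x = 0) (y1 y2 : H) (x : G) :
    f y1 y2 x - shlPsi₂ D ρ (fun a => shlPhi₂ D a f) y1 y2 x =
      shlDI₁₂ ι (shlE'₂ D ρ f) y1 y2 x := by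
  have h1 : ∀ y1 y2 x, shlDI₁₂ ι (shlE₂ D ρ f) y1 y2 x =
      f y1 y2 x - shlPsi₂ D ρ (fun a => shlPhi₂ D a f) y1 y2 x :=
    fun y1 y2 x => (shl_homotopy₂ D ρ f hf hcoc y1 y2 x).symm
  have h2 : ∀ a, shapDU₁₂ (ρ.comp (D.th a)) (shlPhi₁ D a (shlE₂ D ρ f)) = fun _ _ => 0 := by
    intro a
    rw [← shlPhi_DI₁ D ρ a _ (shlE₂_equiv D ρ f)]
    funext z1 z2
    show shlDI₁₂ ι (shlE₂ D ρ f) z1 z2 (D.g a) = 0
    rw [h1, sub_eq_zero]
    exact (congrFun (congrFun (shlPhi_Psi₂ D ρ (fun a => shlPhi₂ D a f) a) z1) z2).symm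
  have h3 : shlDI₁₂ ι (shlE'₂ D ρ f) y1 y2 x = shlDI₁₂ ι (shlE₂ D ρ f) y1 y2 x
      - shlDI₁₂ ι (shlPsi₁ D ρ (fun a => shlPhi₁ D a (shlE₂ D ρ f))) y1 y2 x := by
    simp only [shlDI₁₂, shlE'₂]; abel
  rw [h3, shlDI_Psi₁, h1]
  simp only [h2, shlPsi₂_zero, sub_zero]

/-- acyclicity of `ker Φ`, degree 3: `f - ψ (Φ f) = d (e' f)` (and `Φ (e' f) = 0`). -/
theorem shl_acyclic₃ (f : H → H → H → G → N)
    (hf : ∀ y1 y2 y3 (u : U) x, f y1 y2 y3 ((u : G) * x) = ρ u (f y1 y2 y3 x))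
    (hcoc : ∀ y1 y2 y3 y4 x, shlDI₃₄ ι f y1 y2 y3 y4 x = 0) (y1 y2 y3 : H) (x : G) :
    f y1 y2 y3 x - shlPsi₃ D ρ (fun a => shlPhi₃ D a f) y1 y2 y3 x =
      shlDI₂₃ ι (shlE'₃ D ρ f) y1 y2 y3 x := by
  have h1 : ∀ y1 y2 y3 x, shlDI₂₃ ι (shlE₃ D ρ f) y1 y2 y3 x =
      f y1 y2 y3 x - shlPsi₃ D ρ (fun a => shlPhi₃ D a f) y1 y2 y3 x :=
    fun y1 y2 y3 x => (shl_homotopy₃ D ρ f hf hcoc y1 y2 y3 x).symm
  have h2 : ∀ a, shapDU₂₃ (ρ.comp (D.th a)) (shlPhi₂ D a (shlE₃ D ρ f)) = fun _ _ _ => 0 := by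
    intro a
    rw [← shlPhi_DI₂ D ρ a _ (shlE₃_equiv D ρ f)]
    funext z1 z2 z3
    show shlDI₂₃ ι (shlE₃ D ρ f) z1 z2 z3 (D.g a) = 0
    rw [h1, sub_eq_zero]
    exact (congrFun (congrFun (congrFun
      (shlPhi_Psi₃ D ρ (fun a => shlPhi₃ D a f) a) z1) z2) z3).symm
  have h3 : shlDI₂₃ ι (shlE'₃ D ρ f) y1 y2 y3 x = shlDI₂₃ ι (shlE₃ D ρ f) y1 y2 y3 x
      - shlDI₂₃ ι (shlPsi₂ D ρ (fun a => shlPhi₂ D a (shlE₃ D ρ f))) y1 y2 y3 x := by
    simp only [shlDI₂₃, shlE'₃]; abel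
  rw [h3, shlDI_Psi₂, h1]
  simp only [h2, shlPsi₃_zero, sub_zero]

end homotopy

/-! ### existence of decomposition data with prescribed representatives -/

section existence

variable {G H : Type*} [Group G] [Group H]

/-- Decomposition data exist for any prescribed system `g` of representatives of the double
cosets `U \ G / ι(H)`. -/
theorem shl_exists_dec (ι : H →* G) (U : Subgroup G) {W : Type*} (g : W → G)
    (hg : ∀ x : G, ∃! a : W, ∃ (u : U) (h : H), x = (u : G) * g a * ι h) :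
    ∃ D : ShlDec ι U W, D.g = g := by
  classical
  choose w hw hw' using hg
  have w_left : ∀ (u : U) (x : G), w ((u : G) * x) = w x := by
    intro u x
    obtain ⟨u', h', e⟩ := hw x
    refine (hw' ((u : G) * x) (w x) ⟨u * u', h', ?_⟩).symm
    conv_lhs => rw [e]
    simp [mul_assoc]
  have w_right : ∀ (x : G) (y : H), w (x * ι y) = w x := by
    intro x y
    obtain ⟨u', h', e⟩ := hw x
    refine (hw' (x * ι y) (w x) ⟨u', h' * y, ?_⟩).symm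
    conv_lhs => rw [e]
    simp [mul_assoc]
  have w_g : ∀ a, w (g a) = a := fun a => (hw' (g a) a ⟨1, 1, by simp⟩).symm
  let P : G → H → Prop := fun x h => x * (ι h)⁻¹ * (g (w x))⁻¹ ∈ U
  have hP : ∀ x, ∃ h, P x h := by
    intro x
    obtain ⟨u', h', e⟩ := hw x
    refine ⟨h', ?_⟩
    have : x * (ι h')⁻¹ * (g (w x))⁻¹ = (u' : G) := by
      have e' := congrArg (fun t => t * (ι h')⁻¹ * (g (w x))⁻¹) e
      simpa [mul_assoc] using e'
    show x * (ι h')⁻¹ * (g (w x))⁻¹ ∈ U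
    rw [this]
    exact u'.2
  have hPleft : ∀ (u : U) (x : G), P ((u : G) * x) = P x := by
    intro u x
    funext h
    apply propext
    show (u : G) * x * (ι h)⁻¹ * (g (w ((u : G) * x)))⁻¹ ∈ U ↔ x * (ι h)⁻¹ * (g (w x))⁻¹ ∈ U
    rw [w_left, mul_assoc (u : G), mul_assoc (u : G)]
    exact U.mul_mem_cancel_left u.2
  let hh : G → H := fun x => if P x 1 then 1 else Classical.epsilon (P x)
  refine ⟨⟨g, w, hh, ?_, w_left, ?_, w_right, w_g, ?_⟩, rfl⟩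
  · intro x
    show x * (ι (hh x))⁻¹ * (g (w x))⁻¹ ∈ U
    by_cases h1 : P x 1
    · have : hh x = 1 := if_pos h1
      rw [this]
      exact h1
    · have : hh x = Classical.epsilon (P x) := if_neg h1
      rw [this]
      exact Classical.epsilon_spec (hP x)
  · intro u x
    show (if P ((u : G) * x) 1 then 1 else Classical.epsilon (P ((u : G) * x))) =
      (if P x 1 then 1 else Classical.epsilon (P x))
    rw [hPleft]
  · intro a
    have h1 : P (g a) 1 := by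
      show g a * (ι 1)⁻¹ * (g (w (g a)))⁻¹ ∈ U
      rw [w_g]
      simp
    exact if_pos h1

end existence

end Fermat.Agent.S55
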