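import Mathlib
import Fermat.Agent.S55.ShapLoc
import Fermat.Agent.S55.ShapLevel

/-!
# S55, block SHAP-L: level preservation for the local Shapiro package

`M` a normal subgroup of `H` contained in all the local subgroups `H_a`.  A raw cochain is
`M`-level if it only depends on the classes of its arguments in `H ⧸ M` and its values are
invariant under right translation of the evaluation point by `ι(M)`.  We show that the maps
`ψ`, `e`, `e'`, `Φ` of `ShapLoc` preserve `M`-level cochains.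
-/

set_option autoImplicit false
set_option linter.unusedSectionVars false
set_option linter.unusedSimpArgs false
set_option linter.unusedVariables false

namespace Fermat.Agent.S55

/-! ### generalities on a subgroup `K` containing a normal subgroup `M` -/

section general

variable {k : Type*} [CommRing k] {H : Type*} [Group H] (M : Subgroup H) [M.Normal]
  {K : Subgroup H} (hMK : M ≤ K) {N : Type*} [AddCommGroup N] [Module k N]
  (r : H → K) (ρ' : Representation k K N)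
  (hr : ∀ (z : K) (h : H), r ((z : H) * h) = z * r h)

include hMK hr in
/-- an equivariant retraction is compatible with the classes modulo `M`. -/
theorem shl_mk_r {h h' : H} (e : (h : H ⧸ M) = h') :
    ((r h : H) : H ⧸ M) = ((r h' : H) : H ⧸ M) := by
  have hμ : h⁻¹ * h' ∈ M := QuotientGroup.eq.mp e
  have hν : h * (h⁻¹ * h') * h⁻¹ ∈ M := Subgroup.Normal.conj_mem inferInstance _ hμ h
  have e2 : h' = ((⟨h * (h⁻¹ * h') * h⁻¹, hMK hν⟩ : K) : H) * h := by simp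
  have e3 : r h' = (⟨h * (h⁻¹ * h') * h⁻¹, hMK hν⟩ : K) * r h := by
    conv_lhs => rw [e2]
    exact hr _ _
  rw [e3, Subgroup.coe_mul, QuotientGroup.mk_mul, (QuotientGroup.eq_one_iff _).2 hν, one_mul]

theorem shl_rho_congr {z z' : K} (e : ((z : H) : H ⧸ M) = (z' : H)) {v : N}
    (hv : ∀ m : K, (m : H) ∈ M → ρ' m v = v) : ρ' z v = ρ' z' v := by
  have hμ : ((z⁻¹ * z' : K) : H) ∈ M := by
    have := QuotientGroup.eq.mp e
    simpa using this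
  have e2 : z' = z * (z⁻¹ * z') := by simp
  rw [e2, map_mul, Module.End.mul_apply, hv _ hμ]

include hMK hr in
theorem shl_J₀_lev {n : N} (hn : ∀ m : K, (m : H) ∈ M → ρ' m n = n) {h h' : H}
    (e : (h : H ⧸ M) = h') : shapJ₀ r ρ' n h = shapJ₀ r ρ' n h' := by
  simp only [shapJ₀, shapC₀]
  exact shl_rho_congr M ρ' (shl_mk_r M hMK r hr e) hn

include hMK hr in
theorem shl_J₁_lev {c : K → N}
    (hc1 : ∀ z z' : K, ((z : H) : H ⧸ M) = (z' : H) → c z = c z')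
    (hc2 : ∀ (z m : K), (m : H) ∈ M → ρ' m (c z) = c z) {y y' h h' : H}
    (ey : (y : H ⧸ M) = y') (eh : (h : H ⧸ M) = h') :
    shapJ₁ r ρ' c y h = shapJ₁ r ρ' c y' h' := by
  have e1 := shl_mk_r M hMK r hr eh
  have e2 := shl_mk_r M hMK r hr (h := h * y) (h' := h' * y')
    (by simp only [QuotientGroup.mk_mul, ey, eh])
  have e3 : c ((r h)⁻¹ * r (h * y)) = c ((r h')⁻¹ * r (h' * y')) :=
    hc1 _ _ (by simp only [Subgroup.coe_mul, Subgroup.coe_inv, QuotientGroup.mk_mul,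
      QuotientGroup.mk_inv, e1, e2])
  simp only [shapJ₁, shapTinv₁, shapC₁]
  rw [e3]
  exact shl_rho_congr M ρ' e1 (hc2 _)

include hMK hr in
theorem shl_J₂_lev {c : K → K → N}
    (hc1 : ∀ z1 z1' z2 z2' : K, ((z1 : H) : H ⧸ M) = (z1' : H) →
      ((z2 : H) : H ⧸ M) = (z2' : H) → c z1 z2 = c z1' z2')
    (hc2 : ∀ (z1 z2 m : K), (m : H) ∈ M → ρ' m (c z1 z2) = c z1 z2) {y1 y1' y2 y2' h h' : H}
    (ey1 : (y1 : H ⧸ M) = y1') (ey2 : (y2 : H ⧸ M) = y2') (eh : (h : H ⧸ M) = h') :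
    shapJ₂ r ρ' c y1 y2 h = shapJ₂ r ρ' c y1' y2' h' := by
  have e1 := shl_mk_r M hMK r hr eh
  have e2 := shl_mk_r M hMK r hr (h := h * y1) (h' := h' * y1')
    (by simp only [QuotientGroup.mk_mul, ey1, eh])
  have e3 := shl_mk_r M hMK r hr (h := h * y1 * y2) (h' := h' * y1' * y2')
    (by simp only [QuotientGroup.mk_mul, ey1, ey2, eh])
  have e4 : c ((r h)⁻¹ * r (h * y1)) ((r (h * y1))⁻¹ * r (h * y1 * y2)) =
      c ((r h')⁻¹ * r (h' * y1')) ((r (h' * y1'))⁻¹ * r (h' * y1' * y2')) :=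
    hc1 _ _ _ _ (by simp only [Subgroup.coe_mul, Subgroup.coe_inv, QuotientGroup.mk_mul,
      QuotientGroup.mk_inv, e1, e2]) (by simp only [Subgroup.coe_mul, Subgroup.coe_inv,
      QuotientGroup.mk_mul, QuotientGroup.mk_inv, e2, e3])
  simp only [shapJ₂, shapTinv₂, shapC₂]
  rw [e4]
  exact shl_rho_congr M ρ' e1 (hc2 _ _)

include hMK hr in
theorem shl_E₁_lev {f : H → H → N}
    (hf : ∀ y y' h h' : H, (y : H ⧸ M) = y' → (h : H ⧸ M) = h' → f y h = f y' h') {h h' : H}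
    (eh : (h : H ⧸ M) = h') : shapE₁ r f h = shapE₁ r f h' := by
  have e1 := shl_mk_r M hMK r hr eh
  simp only [shapE₁, shapHH₁, shapT₁]
  refine congrArg Neg.neg ?_
  exact hf _ _ _ _ (by simp only [QuotientGroup.mk_mul, QuotientGroup.mk_inv, e1, eh]) eh

include hMK hr in
theorem shl_E₂_lev {f : H → H → H → N}
    (hf : ∀ y1 y1' y2 y2' h h' : H, (y1 : H ⧸ M) = y1' → (y2 : H ⧸ M) = y2' →
      (h : H ⧸ M) = h' → f y1 y2 h = f y1' y2' h') {y y' h h' : H}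
    (ey : (y : H ⧸ M) = y') (eh : (h : H ⧸ M) = h') :
    shapE₂ r f y h = shapE₂ r f y' h' := by
  have e1 := shl_mk_r M hMK r hr eh
  have e2 := shl_mk_r M hMK r hr (h := h * y) (h' := h' * y')
    (by simp only [QuotientGroup.mk_mul, ey, eh])
  simp only [shapE₂, shapTinv₁, shapHH₂, shapT₂]
  refine congrArg Neg.neg (congrArg₂ (· - ·) ?_ ?_)
  · exact hf _ _ _ _ _ _
      (by simp only [QuotientGroup.mk_mul, QuotientGroup.mk_inv, e1, eh])
      (by simp only [QuotientGroup.mk_mul, QuotientGroup.mk_inv, e1, e2]) eh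
  · exact hf _ _ _ _ _ _
      (by simp only [QuotientGroup.mk_mul, QuotientGroup.mk_inv, ey, eh])
      (by simp only [QuotientGroup.mk_mul, QuotientGroup.mk_inv, ey, eh, e2]) eh

include hMK hr in
theorem shl_E₃_lev {f : H → H → H → H → N}
    (hf : ∀ y1 y1' y2 y2' y3 y3' h h' : H, (y1 : H ⧸ M) = y1' → (y2 : H ⧸ M) = y2' →
      (y3 : H ⧸ M) = y3' → (h : H ⧸ M) = h' → f y1 y2 y3 h = f y1' y2' y3' h')
    {y1 y1' y2 y2' h h' : H} (ey1 : (y1 : H ⧸ M) = y1') (ey2 : (y2 : H ⧸ M) = y2')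
    (eh : (h : H ⧸ M) = h') : shapE₃ r f y1 y2 h = shapE₃ r f y1' y2' h' := by
  have e1 := shl_mk_r M hMK r hr eh
  have e2 := shl_mk_r M hMK r hr (h := h * y1) (h' := h' * y1')
    (by simp only [QuotientGroup.mk_mul, ey1, eh])
  have e3 := shl_mk_r M hMK r hr (h := h * y1 * y2) (h' := h' * y1' * y2')
    (by simp only [QuotientGroup.mk_mul, ey1, ey2, eh])
  simp only [shapE₃, shapTinv₂, shapHH₃, shapT₃]
  refine congrArg Neg.neg (congrArg₂ (· + ·) (congrArg₂ (· - ·) ?_ ?_) ?_)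
  · exact hf _ _ _ _ _ _ _ _
      (by simp only [QuotientGroup.mk_mul, QuotientGroup.mk_inv, e1, eh])
      (by simp only [QuotientGroup.mk_mul, QuotientGroup.mk_inv, e1, e2])
      (by simp only [QuotientGroup.mk_mul, QuotientGroup.mk_inv, e2, e3]) eh
  · exact hf _ _ _ _ _ _ _ _
      (by simp only [QuotientGroup.mk_mul, QuotientGroup.mk_inv, ey1, eh])
      (by simp only [QuotientGroup.mk_mul, QuotientGroup.mk_inv, ey1, eh, e2])
      (by simp only [QuotientGroup.mk_mul, QuotientGroup.mk_inv, e2, e3]) eh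
  · exact hf _ _ _ _ _ _ _ _
      (by simp only [QuotientGroup.mk_mul, QuotientGroup.mk_inv, ey1, eh])
      (by simp only [QuotientGroup.mk_mul, QuotientGroup.mk_inv, ey1, ey2, eh])
      (by simp only [QuotientGroup.mk_mul, QuotientGroup.mk_inv, ey1, ey2, eh, e3]) eh

end general

/-! ### raw level predicates -/

section lev

variable {k : Type*} [CommRing k] {G H : Type*} [Group G] [Group H] {ι : H →* G}
  {U : Subgroup G} {W : Type*} (D : ShlDec ι U W)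
  {N : Type*} [AddCommGroup N] [Module k N] (ρ : Representation k U N)

/-- `F : Coind` is fixed by `ι(M)`. -/
def ShlLv0 (ι : H →* G) (M : Subgroup H) (F : G → N) : Prop :=
  ∀ m ∈ M, ∀ x, F (x * ι m) = F x

/-- `F : H → Coind` is `M`-level. -/
def ShlLv1 (ι : H →* G) (M : Subgroup H) (F : H → G → N) : Prop :=
  (∀ y y' : H, (y : H ⧸ M) = y' → F y = F y') ∧ ∀ y, ShlLv0 ι M (F y)

/-- `F : H → H → Coind` is `M`-level. -/
def ShlLv2 (ι : H →* G) (M : Subgroup H) (F : H → H → G → N) : Prop :=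
  (∀ y1 y1' y2 y2' : H, (y1 : H ⧸ M) = y1' → (y2 : H ⧸ M) = y2' → F y1 y2 = F y1' y2') ∧
    ∀ y1 y2, ShlLv0 ι M (F y1 y2)

/-- `F : H → H → H → Coind` is `M`-level. -/
def ShlLv3 (ι : H →* G) (M : Subgroup H) (F : H → H → H → G → N) : Prop :=
  (∀ y1 y1' y2 y2' y3 y3' : H, (y1 : H ⧸ M) = y1' → (y2 : H ⧸ M) = y2' →
      (y3 : H ⧸ M) = y3' → F y1 y2 y3 = F y1' y2' y3') ∧
    ∀ y1 y2 y3, ShlLv0 ι M (F y1 y2 y3)

/-- a family of `0`-cochains of the `H_a` is `M`-level. -/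
def ShlFLv0 (M : Subgroup H) (c : W → N) : Prop :=
  ∀ a (m : D.Ha a), (m : H) ∈ M → ρ (D.th a m) (c a) = c a

/-- a family of `1`-cochains of the `H_a` is `M`-level. -/
def ShlFLv1 (M : Subgroup H) (c : ∀ a, D.Ha a → N) : Prop :=
  ∀ a, (∀ z z' : D.Ha a, ((z : H) : H ⧸ M) = (z' : H) → c a z = c a z') ∧
    ∀ (z m : D.Ha a), (m : H) ∈ M → ρ (D.th a m) (c a z) = c a z

/-- a family of `2`-cochains of the `H_a` is `M`-level. -/
def ShlFLv2 (M : Subgroup H) (c : ∀ a, D.Ha a → D.Ha a → N) : Prop :=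
  ∀ a, (∀ z1 z1' z2 z2' : D.Ha a, ((z1 : H) : H ⧸ M) = (z1' : H) →
      ((z2 : H) : H ⧸ M) = (z2' : H) → c a z1 z2 = c a z1' z2') ∧
    ∀ (z1 z2 m : D.Ha a), (m : H) ∈ M → ρ (D.th a m) (c a z1 z2) = c a z1 z2

/-- a family of `3`-cochains of the `H_a` is `M`-level. -/
def ShlFLv3 (M : Subgroup H) (c : ∀ a, D.Ha a → D.Ha a → D.Ha a → N) : Prop :=
  ∀ a, (∀ z1 z1' z2 z2' z3 z3' : D.Ha a, ((z1 : H) : H ⧸ M) = (z1' : H) →
      ((z2 : H) : H ⧸ M) = (z2' : H) → ((z3 : H) : H ⧸ M) = (z3' : H) →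
      c a z1 z2 z3 = c a z1' z2' z3') ∧
    ∀ (z1 z2 z3 m : D.Ha a), (m : H) ∈ M → ρ (D.th a m) (c a z1 z2 z3) = c a z1 z2 z3

variable (M : Subgroup H) [M.Normal] (hM : ∀ a, M ≤ D.Ha a)

/-! ### `Φ` preserves levels -/

theorem shlPhi₀_lev {F : G → N} (hF : ∀ (u : U) x, F ((u : G) * x) = ρ u (F x))
    (h : ShlLv0 ι M F) : ShlFLv0 D ρ M (fun a => shlPhi₀ D a F) := by
  intro a m hm
  simp only [shlPhi₀]
  rw [← hF, ← D.g_mul_iota, h m hm]

theorem shlPhi₁_lev {F : H → G → N} (hF : ∀ y (u : U) x, F y ((u : G) * x) = ρ u (F y x))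
    (h : ShlLv1 ι M F) : ShlFLv1 D ρ M (fun a => shlPhi₁ D a F) := by
  intro a
  refine ⟨fun z z' e => ?_, fun z m hm => ?_⟩
  · simp only [shlPhi₁, h.1 _ _ e]
  · simp only [shlPhi₁]
    rw [← hF, ← D.g_mul_iota, h.2 _ m hm]

theorem shlPhi₂_lev {F : H → H → G → N}
    (hF : ∀ y1 y2 (u : U) x, F y1 y2 ((u : G) * x) = ρ u (F y1 y2 x))
    (h : ShlLv2 ι M F) : ShlFLv2 D ρ M (fun a => shlPhi₂ D a F) := by
  intro a
  refine ⟨fun z1 z1' z2 z2' e1 e2 => ?_, fun z1 z2 m hm => ?_⟩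
  · simp only [shlPhi₂, h.1 _ _ _ _ e1 e2]
  · simp only [shlPhi₂]
    rw [← hF, ← D.g_mul_iota, h.2 _ _ m hm]

theorem shlPhi₃_lev {F : H → H → H → G → N}
    (hF : ∀ y1 y2 y3 (u : U) x, F y1 y2 y3 ((u : G) * x) = ρ u (F y1 y2 y3 x))
    (h : ShlLv3 ι M F) : ShlFLv3 D ρ M (fun a => shlPhi₃ D a F) := by
  intro a
  refine ⟨fun z1 z1' z2 z2' z3 z3' e1 e2 e3 => ?_, fun z1 z2 z3 m hm => ?_⟩
  · simp only [shlPhi₃, h.1 _ _ _ _ _ _ e1 e2 e3]
  · simp only [shlPhi₃]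
    rw [← hF, ← D.g_mul_iota, h.2 _ _ _ m hm]

/-! ### `ψ` preserves levels -/

include hM in
theorem shlPsi₀_lev {c : W → N} (hc : ShlFLv0 D ρ M c) : ShlLv0 ι M (shlPsi₀ D ρ c) := by
  intro m hm x
  rw [shlPsi₀_shift]
  unfold shlPsi₀
  congr 1
  exact shl_J₀_lev M (hM _) (D.rr _) (ρ.comp (D.th _)) (D.rr_mul _) (hc _)
    (QuotientGroup.mk_mul_of_mem _ hm)

include hM in
theorem shlPsi₁_lev {c : ∀ a, D.Ha a → N} (hc : ShlFLv1 D ρ M c) :
    ShlLv1 ι M (shlPsi₁ D ρ c) := by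
  refine ⟨fun y y' e => ?_, fun y m hm x => ?_⟩
  · funext x
    unfold shlPsi₁
    congr 1
    exact shl_J₁_lev M (hM _) (D.rr _) (ρ.comp (D.th _)) (D.rr_mul _) (hc _).1 (hc _).2 e rfl
  · rw [shlPsi₁_shift]
    unfold shlPsi₁
    congr 1
    exact shl_J₁_lev M (hM _) (D.rr _) (ρ.comp (D.th _)) (D.rr_mul _) (hc _).1 (hc _).2 rfl
      (QuotientGroup.mk_mul_of_mem _ hm)

include hM in
theorem shlPsi₂_lev {c : ∀ a, D.Ha a → D.Ha a → N} (hc : ShlFLv2 D ρ M c) :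
    ShlLv2 ι M (shlPsi₂ D ρ c) := by
  refine ⟨fun y1 y1' y2 y2' e1 e2 => ?_, fun y1 y2 m hm x => ?_⟩
  · funext x
    unfold shlPsi₂
    congr 1
    exact shl_J₂_lev M (hM _) (D.rr _) (ρ.comp (D.th _)) (D.rr_mul _) (hc _).1 (hc _).2 e1 e2
      rfl
  · rw [shlPsi₂_shift]
    unfold shlPsi₂
    congr 1
    exact shl_J₂_lev M (hM _) (D.rr _) (ρ.comp (D.th _)) (D.rr_mul _) (hc _).1 (hc _).2 rfl rfl
      (QuotientGroup.mk_mul_of_mem _ hm)

/-! ### the components and the homotopy preserve levels -/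

theorem shlComp₁_lev {f : H → G → N} (h : ShlLv1 ι M f) (a : W) (y y' h₁ h₁' : H)
    (ey : (y : H ⧸ M) = y') (eh : (h₁ : H ⧸ M) = h₁') :
    shlComp₁ D a f y h₁ = shlComp₁ D a f y' h₁' := by
  have hμ : h₁⁻¹ * h₁' ∈ M := QuotientGroup.eq.mp eh
  have e2 : D.g a * ι h₁' = D.g a * ι h₁ * ι (h₁⁻¹ * h₁') := by simp [mul_assoc]
  simp only [shlComp₁]
  rw [e2, h.2 _ _ hμ, h.1 _ _ ey]

theorem shlComp₂_lev {f : H → H → G → N} (h : ShlLv2 ι M f) (a : W)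
    (y1 y1' y2 y2' h₁ h₁' : H) (ey1 : (y1 : H ⧸ M) = y1') (ey2 : (y2 : H ⧸ M) = y2')
    (eh : (h₁ : H ⧸ M) = h₁') :
    shlComp₂ D a f y1 y2 h₁ = shlComp₂ D a f y1' y2' h₁' := by
  have hμ : h₁⁻¹ * h₁' ∈ M := QuotientGroup.eq.mp eh
  have e2 : D.g a * ι h₁' = D.g a * ι h₁ * ι (h₁⁻¹ * h₁') := by simp [mul_assoc]
  simp only [shlComp₂]
  rw [e2, h.2 _ _ _ hμ, h.1 _ _ _ _ ey1 ey2]

theorem shlComp₃_lev {f : H → H → H → G → N} (h : ShlLv3 ι M f) (a : W)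
    (y1 y1' y2 y2' y3 y3' h₁ h₁' : H) (ey1 : (y1 : H ⧸ M) = y1') (ey2 : (y2 : H ⧸ M) = y2')
    (ey3 : (y3 : H ⧸ M) = y3') (eh : (h₁ : H ⧸ M) = h₁') :
    shlComp₃ D a f y1 y2 y3 h₁ = shlComp₃ D a f y1' y2' y3' h₁' := by
  have hμ : h₁⁻¹ * h₁' ∈ M := QuotientGroup.eq.mp eh
  have e2 : D.g a * ι h₁' = D.g a * ι h₁ * ι (h₁⁻¹ * h₁') := by simp [mul_assoc]
  simp only [shlComp₃]
  rw [e2, h.2 _ _ _ _ hμ, h.1 _ _ _ _ _ _ ey1 ey2 ey3]

include hM in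
theorem shlE₁_lev {f : H → G → N} (hf : ∀ y (u : U) x, f y ((u : G) * x) = ρ u (f y x))
    (h : ShlLv1 ι M f) : ShlLv0 ι M (shlE₁ D ρ f) := by
  intro m hm x
  rw [shlE₁_shift D ρ f hf]
  unfold shlE₁
  congr 1
  exact shl_E₁_lev M (hM _) (D.rr _) (D.rr_mul _) (shlComp₁_lev D M h _)
    (QuotientGroup.mk_mul_of_mem _ hm)

include hM in
theorem shlE₂_lev {f : H → H → G → N}
    (hf : ∀ y1 y2 (u : U) x, f y1 y2 ((u : G) * x) = ρ u (f y1 y2 x))
    (h : ShlLv2 ι M f) : ShlLv1 ι M (shlE₂ D ρ f) := by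
  refine ⟨fun y y' e => ?_, fun y m hm x => ?_⟩
  · funext x
    unfold shlE₂
    congr 1
    exact shl_E₂_lev M (hM _) (D.rr _) (D.rr_mul _) (shlComp₂_lev D M h _) e rfl
  · rw [shlE₂_shift D ρ f hf]
    unfold shlE₂
    congr 1
    exact shl_E₂_lev M (hM _) (D.rr _) (D.rr_mul _) (shlComp₂_lev D M h _) rfl
      (QuotientGroup.mk_mul_of_mem _ hm)

include hM in
theorem shlE₃_lev {f : H → H → H → G → N}
    (hf : ∀ y1 y2 y3 (u : U) x, f y1 y2 y3 ((u : G) * x) = ρ u (f y1 y2 y3 x))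
    (h : ShlLv3 ι M f) : ShlLv2 ι M (shlE₃ D ρ f) := by
  refine ⟨fun y1 y1' y2 y2' e1 e2 => ?_, fun y1 y2 m hm x => ?_⟩
  · funext x
    unfold shlE₃
    congr 1
    exact shl_E₃_lev M (hM _) (D.rr _) (D.rr_mul _) (shlComp₃_lev D M h _) e1 e2 rfl
  · rw [shlE₃_shift D ρ f hf]
    unfold shlE₃
    congr 1
    exact shl_E₃_lev M (hM _) (D.rr _) (D.rr_mul _) (shlComp₃_lev D M h _) rfl rfl
      (QuotientGroup.mk_mul_of_mem _ hm)

/-! ### closure under subtraction, and the normalised homotopy -/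

theorem ShlLv0.sub {F F' : G → N} (h : ShlLv0 ι M F) (h' : ShlLv0 ι M F') :
    ShlLv0 ι M (fun x => F x - F' x) := fun m hm x => by
  show F (x * ι m) - F' (x * ι m) = F x - F' x
  rw [h m hm, h' m hm]

theorem ShlLv1.sub {F F' : H → G → N} (h : ShlLv1 ι M F) (h' : ShlLv1 ι M F') :
    ShlLv1 ι M (fun y x => F y x - F' y x) :=
  ⟨fun y y' e => by funext x; show F y x - F' y x = F y' x - F' y' x; rw [h.1 _ _ e, h'.1 _ _ e],
    fun y => (h.2 y).sub M (h'.2 y)⟩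

theorem ShlLv2.sub {F F' : H → H → G → N} (h : ShlLv2 ι M F) (h' : ShlLv2 ι M F') :
    ShlLv2 ι M (fun y1 y2 x => F y1 y2 x - F' y1 y2 x) :=
  ⟨fun y1 y1' y2 y2' e1 e2 => by
      funext x
      show F y1 y2 x - F' y1 y2 x = F y1' y2' x - F' y1' y2' x
      rw [h.1 _ _ _ _ e1 e2, h'.1 _ _ _ _ e1 e2],
    fun y1 y2 => (h.2 y1 y2).sub M (h'.2 y1 y2)⟩

include hM in
theorem shlE'₁_lev {f : H → G → N} (hf : ∀ y (u : U) x, f y ((u : G) * x) = ρ u (f y x))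
    (h : ShlLv1 ι M f) : ShlLv0 ι M (shlE'₁ D ρ f) :=
  (shlE₁_lev D ρ M hM hf h).sub M
    (shlPsi₀_lev D ρ M hM (shlPhi₀_lev D ρ M (shlE₁_equiv D ρ f) (shlE₁_lev D ρ M hM hf h)))

include hM in
theorem shlE'₂_lev {f : H → H → G → N}
    (hf : ∀ y1 y2 (u : U) x, f y1 y2 ((u : G) * x) = ρ u (f y1 y2 x))
    (h : ShlLv2 ι M f) : ShlLv1 ι M (shlE'₂ D ρ f) :=
  (shlE₂_lev D ρ M hM hf h).sub M
    (shlPsi₁_lev D ρ M hM (shlPhi₁_lev D ρ M (shlE₂_equiv D ρ f) (shlE₂_lev D ρ M hM hf h)))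

include hM in
theorem shlE'₃_lev {f : H → H → H → G → N}
    (hf : ∀ y1 y2 y3 (u : U) x, f y1 y2 y3 ((u : G) * x) = ρ u (f y1 y2 y3 x))
    (h : ShlLv3 ι M f) : ShlLv2 ι M (shlE'₃ D ρ f) :=
  (shlE₃_lev D ρ M hM hf h).sub M
    (shlPsi₂_lev D ρ M hM (shlPhi₂_lev D ρ M (shlE₃_equiv D ρ f) (shlE₃_lev D ρ M hM hf h)))

end lev

end Fermat.Agent.S55
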