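import Mathlib
import Fermat.Agent.S55.ShapLocLevel

/-!
# S55, block SHAP-L: the local Shapiro package on level cochains

In the language of `HcCochain`: for `ι : H →* G`, `U ≤ G`, `ρ` a representation of `U` on `N`,
`ρI = Representation.coind U.subtype ρ`, decomposition data `D : ShlDec ι U W` and a level
structure `LH` on `H`, we construct

* `shlPhiL₀ … shlPhiL₃ D ρ LH a : hc_Cn LH (ρI.comp ι) →ₗ hc_Cn (shapLevSub LH (D.Ha a)) (ρ.comp (D.th a))`;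
* `shlPsiL₀ … shlPsiL₂` (for finite `W` and `H_a` open), sections of `Φ`;
* `shlEL₁ … shlEL₃`, the normalised homotopy,

and prove the acyclicity statements `shl_K₀ … shl_K₃`.
-/

set_option autoImplicit false
set_option linter.unusedSectionVars false
set_option linter.unusedSimpArgs false
set_option linter.unusedVariables false

namespace Fermat.Agent.S55

/-! ### classes modulo `M` versus right translations -/

section mk

variable {H : Type*} [Group H] (M : Subgroup H)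

theorem shl_mk_iff {X : Type*} (F : H → X) :
    (∀ y y' : H, (y : H ⧸ M) = y' → F y = F y') ↔ ∀ y, ∀ s ∈ M, F (y * s) = F y := by
  constructor
  · intro h y s hs
    exact h _ _ (QuotientGroup.mk_mul_of_mem _ hs)
  · intro h y y' e
    have hμ := QuotientGroup.eq.mp e
    have := h y _ hμ
    rw [mul_inv_cancel_left] at this
    exact this.symm

theorem shl_mk_iff_sub (K : Subgroup H) {X : Type*} (c : K → X) :
    (∀ z z' : K, ((z : H) : H ⧸ M) = (z' : H) → c z = c z') ↔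
      ∀ z, ∀ s ∈ M.subgroupOf K, c (z * s) = c z := by
  constructor
  · intro h z s hs
    refine h _ _ ?_
    rw [Subgroup.coe_mul]
    exact QuotientGroup.mk_mul_of_mem _ (Subgroup.mem_subgroupOf.mp hs)
  · intro h z z' e
    have hμ : z⁻¹ * z' ∈ M.subgroupOf K := by
      rw [Subgroup.mem_subgroupOf]
      simpa using QuotientGroup.eq.mp e
    have := h z _ hμ
    rw [mul_inv_cancel_left] at this
    exact this.symm

end mk

section bridge

variable {k : Type*} [CommRing k] {G H : Type*} [Group G] [Group H] {ι : H →* G}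
  {U : Subgroup G} {W : Type*} (D : ShlDec ι U W)
  {N : Type*} [AddCommGroup N] [Module k N] (ρ : Representation k U N)

local notation "CoindV" => Representation.coindV U.subtype ρ
local notation "ρI" => Representation.coind U.subtype ρ

/-- raw form of a `1`-cochain with values in the coinduced module. -/
def shlRaw₁ (f : H → CoindV) : H → G → N := fun y x => (f y).1 x

/-- raw form of a `2`-cochain with values in the coinduced module. -/
def shlRaw₂ (f : H × H → CoindV) : H → H → G → N := fun y1 y2 x => (f (y1, y2)).1 x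

/-- raw form of a `3`-cochain with values in the coinduced module. -/
def shlRaw₃ (f : H × H × H → CoindV) : H → H → H → G → N :=
  fun y1 y2 y3 x => (f (y1, y2, y3)).1 x

theorem shl_coind_equiv (m : CoindV) (u : U) (x : G) : m.1 ((u : G) * x) = ρ u (m.1 x) :=
  m.2 u x

theorem shlRaw₁_equiv (f : H → CoindV) (y : H) (u : U) (x : G) :
    shlRaw₁ ρ f y ((u : G) * x) = ρ u (shlRaw₁ ρ f y x) := (f y).2 u x

theorem shlRaw₂_equiv (f : H × H → CoindV) (y1 y2 : H) (u : U) (x : G) :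
    shlRaw₂ ρ f y1 y2 ((u : G) * x) = ρ u (shlRaw₂ ρ f y1 y2 x) := (f (y1, y2)).2 u x

theorem shlRaw₃_equiv (f : H × H × H → CoindV) (y1 y2 y3 : H) (u : U) (x : G) :
    shlRaw₃ ρ f y1 y2 y3 ((u : G) * x) = ρ u (shlRaw₃ ρ f y1 y2 y3 x) := (f (y1, y2, y3)).2 u x

variable (M : Subgroup H)

theorem shl_lv0_iff (m : CoindV) : hc_IsLev0 ((ρI).comp ι) M m ↔ ShlLv0 ι M m.1 := by
  constructor
  · intro h s hs x
    exact congrFun (congrArg Subtype.val (h s hs)) x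
  · intro h s hs
    exact Subtype.ext (funext fun x => h s hs x)

theorem shl_lv1_iff (f : H → CoindV) :
    hc_IsLev1 ((ρI).comp ι) M f ↔ ShlLv1 ι M (shlRaw₁ ρ f) := by
  constructor
  · rintro ⟨h1, h2⟩
    refine ⟨fun y y' e => ?_, fun y => (shl_lv0_iff ρ M (f y)).1 (h2 y)⟩
    have := (shl_mk_iff M f).2 h1 y y' e
    show (f y).1 = (f y').1
    rw [this]
  · rintro ⟨h1, h2⟩
    refine ⟨(shl_mk_iff M f).1 fun y y' e => Subtype.ext ?_,
      fun y => (shl_lv0_iff ρ M (f y)).2 (h2 y)⟩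
    exact h1 y y' e

theorem shl_lv2_iff (f : H × H → CoindV) :
    hc_IsLev2 ((ρI).comp ι) M f ↔ ShlLv2 ι M (shlRaw₂ ρ f) := by
  constructor
  · rintro ⟨h1, h2⟩
    refine ⟨fun y1 y1' y2 y2' e1 e2 => ?_, fun y1 y2 => (shl_lv0_iff ρ M (f (y1, y2))).1 (h2 _)⟩
    have hμ1 := QuotientGroup.eq.mp e1
    have hμ2 := QuotientGroup.eq.mp e2
    have := h1 y1 y2 _ hμ1 _ hμ2
    rw [mul_inv_cancel_left, mul_inv_cancel_left] at this
    show (f (y1, y2)).1 = (f (y1', y2')).1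
    rw [this]
  · rintro ⟨h1, h2⟩
    refine ⟨fun g h s hs t ht => Subtype.ext ?_,
      fun y => (shl_lv0_iff ρ M (f y)).2 (h2 y.1 y.2)⟩
    exact h1 (g * s) g (h * t) h (QuotientGroup.mk_mul_of_mem _ hs)
      (QuotientGroup.mk_mul_of_mem _ ht)

theorem shl_lv3_iff (f : H × H × H → CoindV) :
    hc_IsLev3 ((ρI).comp ι) M f ↔ ShlLv3 ι M (shlRaw₃ ρ f) := by
  constructor
  · rintro ⟨h1, h2⟩
    refine ⟨fun y1 y1' y2 y2' y3 y3' e1 e2 e3 => ?_,
      fun y1 y2 y3 => (shl_lv0_iff ρ M (f (y1, y2, y3))).1 (h2 _)⟩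
    have hμ1 := QuotientGroup.eq.mp e1
    have hμ2 := QuotientGroup.eq.mp e2
    have hμ3 := QuotientGroup.eq.mp e3
    have := h1 y1 y2 y3 _ hμ1 _ hμ2 _ hμ3
    rw [mul_inv_cancel_left, mul_inv_cancel_left, mul_inv_cancel_left] at this
    show (f (y1, y2, y3)).1 = (f (y1', y2', y3')).1
    rw [this]
  · rintro ⟨h1, h2⟩
    refine ⟨fun g h j s hs t ht r hr => Subtype.ext ?_,
      fun y => (shl_lv0_iff ρ M (f y)).2 (h2 y.1 y.2.1 y.2.2)⟩
    exact h1 (g * s) g (h * t) h (j * r) j (QuotientGroup.mk_mul_of_mem _ hs)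
      (QuotientGroup.mk_mul_of_mem _ ht) (QuotientGroup.mk_mul_of_mem _ hr)

/-! families -/

theorem shl_flv0_iff (a : W) (c : N) :
    hc_IsLev0 (ρ.comp (D.th a)) (M.subgroupOf (D.Ha a)) c ↔
      ∀ m : D.Ha a, (m : H) ∈ M → ρ (D.th a m) c = c := Iff.rfl

theorem shl_flv1_iff (a : W) (c : D.Ha a → N) :
    hc_IsLev1 (ρ.comp (D.th a)) (M.subgroupOf (D.Ha a)) c ↔
      (∀ z z' : D.Ha a, ((z : H) : H ⧸ M) = (z' : H) → c z = c z') ∧
        ∀ (z m : D.Ha a), (m : H) ∈ M → ρ (D.th a m) (c z) = c z := by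
  rw [shl_mk_iff_sub M (D.Ha a) c]
  rfl

theorem shl_flv2_iff (a : W) (c : D.Ha a × D.Ha a → N) :
    hc_IsLev2 (ρ.comp (D.th a)) (M.subgroupOf (D.Ha a)) c ↔
      (∀ z1 z1' z2 z2' : D.Ha a, ((z1 : H) : H ⧸ M) = (z1' : H) →
        ((z2 : H) : H ⧸ M) = (z2' : H) → c (z1, z2) = c (z1', z2')) ∧
        ∀ (z1 z2 m : D.Ha a), (m : H) ∈ M → ρ (D.th a m) (c (z1, z2)) = c (z1, z2) := by
  constructor
  · rintro ⟨h1, h2⟩
    refine ⟨fun z1 z1' z2 z2' e1 e2 => ?_, fun z1 z2 m hm => h2 (z1, z2) m hm⟩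
    have hμ1 : z1⁻¹ * z1' ∈ M.subgroupOf (D.Ha a) := by
      rw [Subgroup.mem_subgroupOf]
      simpa using QuotientGroup.eq.mp e1
    have hμ2 : z2⁻¹ * z2' ∈ M.subgroupOf (D.Ha a) := by
      rw [Subgroup.mem_subgroupOf]
      simpa using QuotientGroup.eq.mp e2
    have := h1 z1 z2 _ hμ1 _ hμ2
    rw [mul_inv_cancel_left, mul_inv_cancel_left] at this
    exact this.symm
  · rintro ⟨h1, h2⟩
    refine ⟨fun g h s hs t ht => ?_, fun y m hm => h2 y.1 y.2 m hm⟩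
    refine h1 _ _ _ _ ?_ ?_
    · rw [Subgroup.coe_mul]
      exact QuotientGroup.mk_mul_of_mem _ (Subgroup.mem_subgroupOf.mp hs)
    · rw [Subgroup.coe_mul]
      exact QuotientGroup.mk_mul_of_mem _ (Subgroup.mem_subgroupOf.mp ht)

theorem shl_flv3_iff (a : W) (c : D.Ha a × D.Ha a × D.Ha a → N) :
    hc_IsLev3 (ρ.comp (D.th a)) (M.subgroupOf (D.Ha a)) c ↔
      (∀ z1 z1' z2 z2' z3 z3' : D.Ha a, ((z1 : H) : H ⧸ M) = (z1' : H) →
        ((z2 : H) : H ⧸ M) = (z2' : H) → ((z3 : H) : H ⧸ M) = (z3' : H) →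
        c (z1, z2, z3) = c (z1', z2', z3')) ∧
        ∀ (z1 z2 z3 m : D.Ha a), (m : H) ∈ M →
          ρ (D.th a m) (c (z1, z2, z3)) = c (z1, z2, z3) := by
  constructor
  · rintro ⟨h1, h2⟩
    refine ⟨fun z1 z1' z2 z2' z3 z3' e1 e2 e3 => ?_, fun z1 z2 z3 m hm => h2 (z1, z2, z3) m hm⟩
    have hμ1 : z1⁻¹ * z1' ∈ M.subgroupOf (D.Ha a) := by
      rw [Subgroup.mem_subgroupOf]
      simpa using QuotientGroup.eq.mp e1
    have hμ2 : z2⁻¹ * z2' ∈ M.subgroupOf (D.Ha a) := by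
      rw [Subgroup.mem_subgroupOf]
      simpa using QuotientGroup.eq.mp e2
    have hμ3 : z3⁻¹ * z3' ∈ M.subgroupOf (D.Ha a) := by
      rw [Subgroup.mem_subgroupOf]
      simpa using QuotientGroup.eq.mp e3
    have := h1 z1 z2 z3 _ hμ1 _ hμ2 _ hμ3
    rw [mul_inv_cancel_left, mul_inv_cancel_left, mul_inv_cancel_left] at this
    exact this.symm
  · rintro ⟨h1, h2⟩
    refine ⟨fun g h j s hs t ht r hr => ?_, fun y m hm => h2 y.1 y.2.1 y.2.2 m hm⟩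
    refine h1 _ _ _ _ _ _ ?_ ?_ ?_
    · rw [Subgroup.coe_mul]
      exact QuotientGroup.mk_mul_of_mem _ (Subgroup.mem_subgroupOf.mp hs)
    · rw [Subgroup.coe_mul]
      exact QuotientGroup.mk_mul_of_mem _ (Subgroup.mem_subgroupOf.mp ht)
    · rw [Subgroup.coe_mul]
      exact QuotientGroup.mk_mul_of_mem _ (Subgroup.mem_subgroupOf.mp hr)

end bridge

/-! ### raw linearity -/

section linear

variable {k : Type*} [CommRing k] {G H : Type*} [Group G] [Group H] {ι : H →* G}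
  {U : Subgroup G} {W : Type*} (D : ShlDec ι U W)
  {N : Type*} [AddCommGroup N] [Module k N] (ρ : Representation k U N)

theorem shlPsi₁_add (c c' : ∀ a, D.Ha a → N) (y : H) (x : G) :
    shlPsi₁ D ρ (fun a z => c a z + c' a z) y x = shlPsi₁ D ρ c y x + shlPsi₁ D ρ c' y x := by
  simp [shlPsi₁, shapJ₁, shapTinv₁, shapC₁]

theorem shlPsi₁_smul (t : k) (c : ∀ a, D.Ha a → N) (y : H) (x : G) :
    shlPsi₁ D ρ (fun a z => t • c a z) y x = t • shlPsi₁ D ρ c y x := by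
  simp [shlPsi₁, shapJ₁, shapTinv₁, shapC₁]

theorem shlPsi₂_add (c c' : ∀ a, D.Ha a → D.Ha a → N) (y1 y2 : H) (x : G) :
    shlPsi₂ D ρ (fun a z1 z2 => c a z1 z2 + c' a z1 z2) y1 y2 x =
      shlPsi₂ D ρ c y1 y2 x + shlPsi₂ D ρ c' y1 y2 x := by
  simp [shlPsi₂, shapJ₂, shapTinv₂, shapC₂]

theorem shlPsi₂_smul (t : k) (c : ∀ a, D.Ha a → D.Ha a → N) (y1 y2 : H) (x : G) :
    shlPsi₂ D ρ (fun a z1 z2 => t • c a z1 z2) y1 y2 x = t • shlPsi₂ D ρ c y1 y2 x := by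
  simp [shlPsi₂, shapJ₂, shapTinv₂, shapC₂]

theorem shlE₁_add (f f' : H → G → N) :
    shlE₁ D ρ (fun y x => f y x + f' y x) = fun x => shlE₁ D ρ f x + shlE₁ D ρ f' x := by
  funext x
  simp only [shlE₁, shapE₁, shapHH₁, shapT₁, shlComp₁, map_neg, map_add]
  abel

theorem shlE₁_smul (t : k) (f : H → G → N) :
    shlE₁ D ρ (fun y x => t • f y x) = fun x => t • shlE₁ D ρ f x := by
  funext x
  simp only [shlE₁, shapE₁, shapHH₁, shapT₁, shlComp₁, map_neg, map_smul, smul_neg]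

theorem shlE₂_add (f f' : H → H → G → N) :
    shlE₂ D ρ (fun y1 y2 x => f y1 y2 x + f' y1 y2 x) =
      fun y x => shlE₂ D ρ f y x + shlE₂ D ρ f' y x := by
  funext y x
  simp only [shlE₂, shapE₂, shapTinv₁, shapHH₂, shapT₂, shlComp₂, map_neg, map_add, map_sub]
  abel

theorem shlE₂_smul (t : k) (f : H → H → G → N) :
    shlE₂ D ρ (fun y1 y2 x => t • f y1 y2 x) = fun y x => t • shlE₂ D ρ f y x := by
  funext y x
  simp only [shlE₂, shapE₂, shapTinv₁, shapHH₂, shapT₂, shlComp₂, map_neg, map_smul, map_sub,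
    smul_neg, smul_sub]

theorem shlE₃_add (f f' : H → H → H → G → N) :
    shlE₃ D ρ (fun y1 y2 y3 x => f y1 y2 y3 x + f' y1 y2 y3 x) =
      fun y1 y2 x => shlE₃ D ρ f y1 y2 x + shlE₃ D ρ f' y1 y2 x := by
  funext y1 y2 x
  simp only [shlE₃, shapE₃, shapTinv₂, shapHH₃, shapT₃, shlComp₃, map_neg, map_add, map_sub]
  abel

theorem shlE₃_smul (t : k) (f : H → H → H → G → N) :
    shlE₃ D ρ (fun y1 y2 y3 x => t • f y1 y2 y3 x) = fun y1 y2 x => t • shlE₃ D ρ f y1 y2 x := by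
  funext y1 y2 x
  simp only [shlE₃, shapE₃, shapTinv₂, shapHH₃, shapT₃, shlComp₃, map_neg, map_smul, map_sub,
    map_add, smul_neg, smul_sub, smul_add]

theorem shlE'₁_add (f f' : H → G → N) (x : G) :
    shlE'₁ D ρ (fun y x => f y x + f' y x) x = shlE'₁ D ρ f x + shlE'₁ D ρ f' x := by
  simp only [shlE'₁, shlE₁_add, shlPsi₀_apply, shlPhi₀, map_add]
  abel

theorem shlE'₁_smul (t : k) (f : H → G → N) (x : G) :
    shlE'₁ D ρ (fun y x => t • f y x) x = t • shlE'₁ D ρ f x := by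
  simp only [shlE'₁, shlE₁_smul, shlPsi₀_apply, shlPhi₀, map_smul, smul_sub]

theorem shlE'₂_add (f f' : H → H → G → N) (y : H) (x : G) :
    shlE'₂ D ρ (fun y1 y2 x => f y1 y2 x + f' y1 y2 x) y x =
      shlE'₂ D ρ f y x + shlE'₂ D ρ f' y x := by
  have h : (fun a => shlPhi₁ D a (fun y x => shlE₂ D ρ f y x + shlE₂ D ρ f' y x)) =
      fun a z => shlPhi₁ D a (shlE₂ D ρ f) z + shlPhi₁ D a (shlE₂ D ρ f') z := rfl
  simp only [shlE'₂, shlE₂_add, h, shlPsi₁_add]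
  abel

theorem shlE'₂_smul (t : k) (f : H → H → G → N) (y : H) (x : G) :
    shlE'₂ D ρ (fun y1 y2 x => t • f y1 y2 x) y x = t • shlE'₂ D ρ f y x := by
  have h : (fun a => shlPhi₁ D a (fun y x => t • shlE₂ D ρ f y x)) =
      fun a z => t • shlPhi₁ D a (shlE₂ D ρ f) z := rfl
  simp only [shlE'₂, shlE₂_smul, h, shlPsi₁_smul, smul_sub]

theorem shlE'₃_add (f f' : H → H → H → G → N) (y1 y2 : H) (x : G) :
    shlE'₃ D ρ (fun y1 y2 y3 x => f y1 y2 y3 x + f' y1 y2 y3 x) y1 y2 x =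
      shlE'₃ D ρ f y1 y2 x + shlE'₃ D ρ f' y1 y2 x := by
  have h : (fun a => shlPhi₂ D a (fun y1 y2 x => shlE₃ D ρ f y1 y2 x + shlE₃ D ρ f' y1 y2 x)) =
      fun a z1 z2 => shlPhi₂ D a (shlE₃ D ρ f) z1 z2 + shlPhi₂ D a (shlE₃ D ρ f') z1 z2 := rfl
  simp only [shlE'₃, shlE₃_add, h, shlPsi₂_add]
  abel

theorem shlE'₃_smul (t : k) (f : H → H → H → G → N) (y1 y2 : H) (x : G) :
    shlE'₃ D ρ (fun y1 y2 y3 x => t • f y1 y2 y3 x) y1 y2 x = t • shlE'₃ D ρ f y1 y2 x := by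
  have h : (fun a => shlPhi₂ D a (fun y1 y2 x => t • shlE₃ D ρ f y1 y2 x)) =
      fun a z1 z2 => t • shlPhi₂ D a (shlE₃ D ρ f) z1 z2 := rfl
  simp only [shlE'₃, shlE₃_smul, h, shlPsi₂_smul, smul_sub]

end linear

/-! ### the maps on level cochains -/

section maps

variable {k : Type*} [CommRing k] {G H : Type*} [Group G] [Group H] {ι : H →* G}
  {U : Subgroup G} {W : Type*} (D : ShlDec ι U W)
  {N : Type*} [AddCommGroup N] [Module k N] (ρ : Representation k U N) (LH : hc_Lev H)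

local notation "CoindV" => Representation.coindV U.subtype ρ
local notation "ρI" => Representation.coind U.subtype ρ

/-- `Φ_a` on level `0`-cochains. -/
def shlPhiL₀ (a : W) :
    hc_C0 LH ((ρI).comp ι) →ₗ[k] hc_C0 (shapLevSub LH (D.Ha a)) (ρ.comp (D.th a)) where
  toFun m := ⟨shlPhi₀ D a (m : CoindV).1, by
    obtain ⟨M, hM, h⟩ := hc_mem_C0.1 m.2
    have := LH.nor M hM
    exact hc_mem_C0.2 ⟨M.subgroupOf (D.Ha a), shap_mem_levSub hM,
      (shl_flv0_iff D ρ M a _).2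
        (shlPhi₀_lev D ρ M (shl_coind_equiv ρ m.1) ((shl_lv0_iff ρ M m.1).1 h) a)⟩⟩
  map_add' _ _ := Subtype.ext rfl
  map_smul' _ _ := Subtype.ext rfl

/-- `Φ_a` on level `1`-cochains. -/
def shlPhiL₁ (a : W) :
    hc_C1 LH ((ρI).comp ι) →ₗ[k] hc_C1 (shapLevSub LH (D.Ha a)) (ρ.comp (D.th a)) where
  toFun f := ⟨shlPhi₁ D a (shlRaw₁ ρ (f : H → CoindV)), by
    obtain ⟨M, hM, h⟩ := hc_mem_C1.1 f.2
    have := LH.nor M hM
    exact hc_mem_C1.2 ⟨M.subgroupOf (D.Ha a), shap_mem_levSub hM,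
      (shl_flv1_iff D ρ M a _).2
        (shlPhi₁_lev D ρ M (shlRaw₁_equiv ρ f.1) ((shl_lv1_iff ρ M f.1).1 h) a)⟩⟩
  map_add' _ _ := Subtype.ext rfl
  map_smul' _ _ := Subtype.ext rfl

/-- `Φ_a` on level `2`-cochains. -/
def shlPhiL₂ (a : W) :
    hc_C2 LH ((ρI).comp ι) →ₗ[k] hc_C2 (shapLevSub LH (D.Ha a)) (ρ.comp (D.th a)) where
  toFun f := ⟨fun z : D.Ha a × D.Ha a => shlPhi₂ D a (shlRaw₂ ρ (f : H × H → CoindV)) z.1 z.2, by
    obtain ⟨M, hM, h⟩ := hc_mem_C2.1 f.2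
    have := LH.nor M hM
    exact hc_mem_C2.2 ⟨M.subgroupOf (D.Ha a), shap_mem_levSub hM,
      (shl_flv2_iff D ρ M a _).2
        (shlPhi₂_lev D ρ M (shlRaw₂_equiv ρ f.1) ((shl_lv2_iff ρ M f.1).1 h) a)⟩⟩
  map_add' _ _ := Subtype.ext rfl
  map_smul' _ _ := Subtype.ext rfl

/-- `Φ_a` on level `3`-cochains. -/
def shlPhiL₃ (a : W) :
    hc_C3 LH ((ρI).comp ι) →ₗ[k] hc_C3 (shapLevSub LH (D.Ha a)) (ρ.comp (D.th a)) where
  toFun f := ⟨fun z : D.Ha a × D.Ha a × D.Ha a =>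
      shlPhi₃ D a (shlRaw₃ ρ (f : H × H × H → CoindV)) z.1 z.2.1 z.2.2, by
    obtain ⟨M, hM, h⟩ := hc_mem_C3.1 f.2
    have := LH.nor M hM
    exact hc_mem_C3.2 ⟨M.subgroupOf (D.Ha a), shap_mem_levSub hM,
      (shl_flv3_iff D ρ M a _).2
        (shlPhi₃_lev D ρ M (shlRaw₃_equiv ρ f.1) ((shl_lv3_iff ρ M f.1).1 h) a)⟩⟩
  map_add' _ _ := Subtype.ext rfl
  map_smul' _ _ := Subtype.ext rfl

@[simp] theorem shlPhiL₀_coe (a : W) (m : hc_C0 LH ((ρI).comp ι)) :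
    (shlPhiL₀ D ρ LH a m : N) = (m : CoindV).1 (D.g a) := rfl

@[simp] theorem shlPhiL₁_coe (a : W) (f : hc_C1 LH ((ρI).comp ι)) (z : D.Ha a) :
    (shlPhiL₁ D ρ LH a f : D.Ha a → N) z = ((f : H → CoindV) (z : H)).1 (D.g a) := rfl

@[simp] theorem shlPhiL₂_coe (a : W) (f : hc_C2 LH ((ρI).comp ι)) (z : D.Ha a × D.Ha a) :
    (shlPhiL₂ D ρ LH a f : D.Ha a × D.Ha a → N) z =
      ((f : H × H → CoindV) ((z.1 : H), (z.2 : H))).1 (D.g a) := rfl

@[simp] theorem shlPhiL₃_coe (a : W) (f : hc_C3 LH ((ρI).comp ι))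
    (z : D.Ha a × D.Ha a × D.Ha a) :
    (shlPhiL₃ D ρ LH a f : D.Ha a × D.Ha a × D.Ha a → N) z =
      ((f : H × H × H → CoindV) ((z.1 : H), (z.2.1 : H), (z.2.2 : H))).1 (D.g a) := rfl

/-- finitely many levels have a common refinement inside all the `H_a`. -/
theorem shl_exists_common [Finite W] (hopen : ∃ M₀ ∈ LH.S, ∀ a, M₀ ≤ D.Ha a)
    (Ms : W → Subgroup H) (hMs : ∀ a, Ms a ∈ LH.S) :
    ∃ M ∈ LH.S, (∀ a, M ≤ D.Ha a) ∧ ∀ a, M ≤ Ms a := by
  classical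
  obtain ⟨M₀, hM₀, hopen'⟩ := hopen
  cases nonempty_fintype W
  have key : ∀ s : Finset W, ∃ M ∈ LH.S, M ≤ M₀ ∧ ∀ a ∈ s, M ≤ Ms a := by
    intro s
    induction s using Finset.induction_on with
    | empty => exact ⟨M₀, hM₀, le_rfl, by simp⟩
    | insert b s hb ih =>
      obtain ⟨M, hM, h0, h1⟩ := ih
      obtain ⟨M', hM', h2, h3⟩ := LH.dir M hM (Ms b) (hMs b)
      refine ⟨M', hM', h2.trans h0, fun a ha => ?_⟩
      rcases Finset.mem_insert.mp ha with rfl | ha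
      · exact h3
      · exact h2.trans (h1 a ha)
  obtain ⟨M, hM, h0, h1⟩ := key Finset.univ
  exact ⟨M, hM, fun a => h0.trans (hopen' a), fun a => h1 a (Finset.mem_univ a)⟩

/-- levels for the homotopy: a level of `f` can be refined inside all the `H_a`. -/
theorem shl_exists_level (hopen : ∃ M₀ ∈ LH.S, ∀ a, M₀ ≤ D.Ha a) {M₁ : Subgroup H}
    (hM₁ : M₁ ∈ LH.S) : ∃ M ∈ LH.S, (∀ a, M ≤ D.Ha a) ∧ M ≤ M₁ := by
  obtain ⟨M₀, hM₀, hopen'⟩ := hopen
  obtain ⟨M, hM, hle0, hle1⟩ := LH.dir M₀ hM₀ M₁ hM₁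
  exact ⟨M, hM, fun a => hle0.trans (hopen' a), hle1⟩

variable [Finite W] (hopen : ∃ M₀ ∈ LH.S, ∀ a, M₀ ≤ D.Ha a)

/-- the section `ψ` on level `0`-cochains. -/
def shlPsiL₀ :
    (∀ a, hc_C0 (shapLevSub LH (D.Ha a)) (ρ.comp (D.th a))) →ₗ[k] hc_C0 LH ((ρI).comp ι) where
  toFun c := ⟨⟨shlPsi₀ D ρ (fun a => (c a : N)), fun u x => shlPsi₀_equiv D ρ _ u x⟩, by
    have h : ∀ a, ∃ Ma ∈ LH.S,
        hc_IsLev0 (ρ.comp (D.th a)) (Ma.subgroupOf (D.Ha a)) (c a : N) := fun a => by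
      obtain ⟨M', ⟨Ma, hMa, rfl⟩, h⟩ := hc_mem_C0.1 (c a).2
      exact ⟨Ma, hMa, h⟩
    choose Ms hMs hlev using h
    obtain ⟨M, hM, hMa, hle⟩ := shl_exists_common D LH hopen Ms hMs
    have := LH.nor M hM
    have key : ShlLv0 ι M (shlPsi₀ D ρ (fun a => (c a : N))) :=
      shlPsi₀_lev D ρ M hMa (fun a m hm => hlev a m (hle a hm))
    exact hc_mem_C0.2 ⟨M, hM, (shl_lv0_iff ρ M _).2 key⟩⟩
  map_add' c c' := by
    apply Subtype.ext
    apply Subtype.ext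
    funext x
    simp [shlPsi₀_apply]
  map_smul' t c := by
    apply Subtype.ext
    apply Subtype.ext
    funext x
    simp [shlPsi₀_apply]

/-- the section `ψ` on level `1`-cochains. -/
def shlPsiL₁ :
    (∀ a, hc_C1 (shapLevSub LH (D.Ha a)) (ρ.comp (D.th a))) →ₗ[k] hc_C1 LH ((ρI).comp ι) where
  toFun c := ⟨fun y => ⟨shlPsi₁ D ρ (fun a => (c a : D.Ha a → N)) y,
      fun u x => shlPsi₁_equiv D ρ _ y u x⟩, by
    have h : ∀ a, ∃ Ma ∈ LH.S,
        hc_IsLev1 (ρ.comp (D.th a)) (Ma.subgroupOf (D.Ha a)) (c a : D.Ha a → N) := fun a => by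
      obtain ⟨M', ⟨Ma, hMa, rfl⟩, h⟩ := hc_mem_C1.1 (c a).2
      exact ⟨Ma, hMa, h⟩
    choose Ms hMs hlev using h
    obtain ⟨M, hM, hMa, hle⟩ := shl_exists_common D LH hopen Ms hMs
    have := LH.nor M hM
    have key : ShlLv1 ι M (shlPsi₁ D ρ (fun a => (c a : D.Ha a → N))) :=
      shlPsi₁_lev D ρ M hMa
        (fun a => (shl_flv1_iff D ρ M a _).1
          (hc_IsLev1.mono (N := M.subgroupOf (D.Ha a)) (N' := (Ms a).subgroupOf (D.Ha a))
            (fun x hx => hle a hx) (hlev a)))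
    exact hc_mem_C1.2 ⟨M, hM, (shl_lv1_iff ρ M _).2 key⟩⟩
  map_add' c c' := by
    apply Subtype.ext
    funext y
    apply Subtype.ext
    funext x
    exact shlPsi₁_add D ρ (fun a => (c a : D.Ha a → N)) (fun a => (c' a : D.Ha a → N)) y x
  map_smul' t c := by
    apply Subtype.ext
    funext y
    apply Subtype.ext
    funext x
    exact shlPsi₁_smul D ρ t (fun a => (c a : D.Ha a → N)) y x

/-- the section `ψ` on level `2`-cochains. -/
def shlPsiL₂ :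
    (∀ a, hc_C2 (shapLevSub LH (D.Ha a)) (ρ.comp (D.th a))) →ₗ[k] hc_C2 LH ((ρI).comp ι) where
  toFun c := ⟨fun y : H × H =>
      ⟨shlPsi₂ D ρ (fun a z1 z2 => (c a : D.Ha a × D.Ha a → N) (z1, z2)) y.1 y.2,
        fun u x => shlPsi₂_equiv D ρ _ y.1 y.2 u x⟩, by
    have h : ∀ a, ∃ Ma ∈ LH.S,
        hc_IsLev2 (ρ.comp (D.th a)) (Ma.subgroupOf (D.Ha a))
          (c a : D.Ha a × D.Ha a → N) := fun a => by
      obtain ⟨M', ⟨Ma, hMa, rfl⟩, h⟩ := hc_mem_C2.1 (c a).2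
      exact ⟨Ma, hMa, h⟩
    choose Ms hMs hlev using h
    obtain ⟨M, hM, hMa, hle⟩ := shl_exists_common D LH hopen Ms hMs
    have := LH.nor M hM
    have key : ShlLv2 ι M
        (shlPsi₂ D ρ (fun a z1 z2 => (c a : D.Ha a × D.Ha a → N) (z1, z2))) :=
      shlPsi₂_lev D ρ M hMa
        (fun a => (shl_flv2_iff D ρ M a _).1
          (hc_IsLev2.mono (N := M.subgroupOf (D.Ha a)) (N' := (Ms a).subgroupOf (D.Ha a))
            (fun x hx => hle a hx) (hlev a)))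
    exact hc_mem_C2.2 ⟨M, hM, (shl_lv2_iff ρ M _).2 key⟩⟩
  map_add' c c' := by
    apply Subtype.ext
    funext y
    apply Subtype.ext
    funext x
    exact shlPsi₂_add D ρ (fun a z1 z2 => (c a : D.Ha a × D.Ha a → N) (z1, z2))
      (fun a z1 z2 => (c' a : D.Ha a × D.Ha a → N) (z1, z2)) y.1 y.2 x
  map_smul' t c := by
    apply Subtype.ext
    funext y
    apply Subtype.ext
    funext x
    exact shlPsi₂_smul D ρ t (fun a z1 z2 => (c a : D.Ha a × D.Ha a → N) (z1, z2)) y.1 y.2 x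

omit [Finite W] in
/-- the normalised homotopy on level cochains, degree `1 → 0`. -/
def shlEL₁ : hc_C1 LH ((ρI).comp ι) →ₗ[k] hc_C0 LH ((ρI).comp ι) where
  toFun f := ⟨⟨shlE'₁ D ρ (shlRaw₁ ρ (f : H → CoindV)),
      fun u x => shlE'₁_equiv D ρ _ u x⟩, by
    obtain ⟨M₁, hM₁, h⟩ := hc_mem_C1.1 f.2
    obtain ⟨M, hM, hMa, hle⟩ := shl_exists_level D LH hopen hM₁
    have := LH.nor M hM
    exact hc_mem_C0.2 ⟨M, hM, (shl_lv0_iff ρ M _).2
      (shlE'₁_lev D ρ M hMa (shlRaw₁_equiv ρ f.1) ((shl_lv1_iff ρ M f.1).1 (h.mono hle)))⟩⟩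
  map_add' f f' := by
    apply Subtype.ext
    apply Subtype.ext
    funext x
    exact shlE'₁_add D ρ _ _ x
  map_smul' t f := by
    apply Subtype.ext
    apply Subtype.ext
    funext x
    exact shlE'₁_smul D ρ t _ x

omit [Finite W] in
/-- the normalised homotopy on level cochains, degree `2 → 1`. -/
def shlEL₂ : hc_C2 LH ((ρI).comp ι) →ₗ[k] hc_C1 LH ((ρI).comp ι) where
  toFun f := ⟨fun y => ⟨shlE'₂ D ρ (shlRaw₂ ρ (f : H × H → CoindV)) y,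
      fun u x => shlE'₂_equiv D ρ _ y u x⟩, by
    obtain ⟨M₁, hM₁, h⟩ := hc_mem_C2.1 f.2
    obtain ⟨M, hM, hMa, hle⟩ := shl_exists_level D LH hopen hM₁
    have := LH.nor M hM
    exact hc_mem_C1.2 ⟨M, hM, (shl_lv1_iff ρ M _).2
      (shlE'₂_lev D ρ M hMa (shlRaw₂_equiv ρ f.1) ((shl_lv2_iff ρ M f.1).1 (h.mono hle)))⟩⟩
  map_add' f f' := by
    apply Subtype.ext
    funext y
    apply Subtype.ext
    funext x
    exact shlE'₂_add D ρ _ _ y x
  map_smul' t f := by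
    apply Subtype.ext
    funext y
    apply Subtype.ext
    funext x
    exact shlE'₂_smul D ρ t _ y x

omit [Finite W] in
/-- the normalised homotopy on level cochains, degree `3 → 2`. -/
def shlEL₃ : hc_C3 LH ((ρI).comp ι) →ₗ[k] hc_C2 LH ((ρI).comp ι) where
  toFun f := ⟨fun y : H × H => ⟨shlE'₃ D ρ (shlRaw₃ ρ (f : H × H × H → CoindV)) y.1 y.2,
      fun u x => shlE'₃_equiv D ρ _ y.1 y.2 u x⟩, by
    obtain ⟨M₁, hM₁, h⟩ := hc_mem_C3.1 f.2
    obtain ⟨M, hM, hMa, hle⟩ := shl_exists_level D LH hopen hM₁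
    have := LH.nor M hM
    exact hc_mem_C2.2 ⟨M, hM, (shl_lv2_iff ρ M _).2
      (shlE'₃_lev D ρ M hMa (shlRaw₃_equiv ρ f.1) ((shl_lv3_iff ρ M f.1).1 (h.mono hle)))⟩⟩
  map_add' f f' := by
    apply Subtype.ext
    funext y
    apply Subtype.ext
    funext x
    exact shlE'₃_add D ρ _ _ y.1 y.2 x
  map_smul' t f := by
    apply Subtype.ext
    funext y
    apply Subtype.ext
    funext x
    exact shlE'₃_smul D ρ t _ y.1 y.2 x

/-! ### identities on level cochains -/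

omit [Finite W] in
/-- `Φ_a` is a cochain map, degree `0 → 1`. -/
theorem shlPhiL_d₀ (a : W) (m : hc_C0 LH ((ρI).comp ι)) :
    shlPhiL₁ D ρ LH a (hc_d01 LH _ m) = hc_d01 _ _ (shlPhiL₀ D ρ LH a m) := by
  apply Subtype.ext
  funext z
  exact congrFun (shlPhi_DI₀ D ρ a (m : CoindV).1 (shl_coind_equiv ρ m.1)) z

omit [Finite W] in
/-- `Φ_a` is a cochain map, degree `1 → 2`. -/
theorem shlPhiL_d₁ (a : W) (f : hc_C1 LH ((ρI).comp ι)) :
    shlPhiL₂ D ρ LH a (hc_d12 LH _ f) = hc_d12 _ _ (shlPhiL₁ D ρ LH a f) := by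
  apply Subtype.ext
  funext z
  exact congrFun (congrFun
    (shlPhi_DI₁ D ρ a (shlRaw₁ ρ (f : H → CoindV)) (shlRaw₁_equiv ρ f.1)) z.1) z.2

omit [Finite W] in
/-- `Φ_a` is a cochain map, degree `2 → 3`. -/
theorem shlPhiL_d₂ (a : W) (f : hc_C2 LH ((ρI).comp ι)) :
    shlPhiL₃ D ρ LH a (hc_d23 LH _ f) = hc_d23 _ _ (shlPhiL₂ D ρ LH a f) := by
  apply Subtype.ext
  funext z
  exact congrFun (congrFun (congrFun
    (shlPhi_DI₂ D ρ a (shlRaw₂ ρ (f : H × H → CoindV)) (shlRaw₂_equiv ρ f.1)) z.1) z.2.1) z.2.2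

/-- `Φ ∘ ψ = id`, degree 0. -/
theorem shlPhiL_PsiL₀ (c : ∀ a, hc_C0 (shapLevSub LH (D.Ha a)) (ρ.comp (D.th a))) (a : W) :
    shlPhiL₀ D ρ LH a (shlPsiL₀ D ρ LH hopen c) = c a :=
  Subtype.ext (shlPhi_Psi₀ D ρ (fun a => (c a : N)) a)

/-- `Φ ∘ ψ = id`, degree 1. -/
theorem shlPhiL_PsiL₁ (c : ∀ a, hc_C1 (shapLevSub LH (D.Ha a)) (ρ.comp (D.th a))) (a : W) :
    shlPhiL₁ D ρ LH a (shlPsiL₁ D ρ LH hopen c) = c a :=
  Subtype.ext (shlPhi_Psi₁ D ρ (fun a => (c a : D.Ha a → N)) a)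

/-- `Φ ∘ ψ = id`, degree 2. -/
theorem shlPhiL_PsiL₂ (c : ∀ a, hc_C2 (shapLevSub LH (D.Ha a)) (ρ.comp (D.th a))) (a : W) :
    shlPhiL₂ D ρ LH a (shlPsiL₂ D ρ LH hopen c) = c a :=
  Subtype.ext (funext fun z => congrFun (congrFun
    (shlPhi_Psi₂ D ρ (fun a z1 z2 => (c a : D.Ha a × D.Ha a → N) (z1, z2)) a) z.1) z.2)

/-- `ψ` is a cochain map, degree `0 → 1`. -/
theorem shlPsiL_d₀ (c : ∀ a, hc_C0 (shapLevSub LH (D.Ha a)) (ρ.comp (D.th a))) :
    hc_d01 LH _ (shlPsiL₀ D ρ LH hopen c) =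
      shlPsiL₁ D ρ LH hopen (fun a => hc_d01 _ _ (c a)) := by
  apply Subtype.ext
  funext y
  apply Subtype.ext
  funext x
  exact congrFun (congrFun (shlDI_Psi₀ D ρ (fun a => (c a : N))) y) x

/-- `ψ` is a cochain map, degree `1 → 2`. -/
theorem shlPsiL_d₁ (c : ∀ a, hc_C1 (shapLevSub LH (D.Ha a)) (ρ.comp (D.th a))) :
    hc_d12 LH _ (shlPsiL₁ D ρ LH hopen c) =
      shlPsiL₂ D ρ LH hopen (fun a => hc_d12 _ _ (c a)) := by
  apply Subtype.ext
  funext y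
  apply Subtype.ext
  funext x
  exact congrFun (congrFun (congrFun
    (shlDI_Psi₁ D ρ (fun a => (c a : D.Ha a → N))) y.1) y.2) x

/-- `(K_0)`: an invariant element of `Coind` is `ψ` of its `Φ`-components. -/
theorem shl_K₀ (m : hc_C0 LH ((ρI).comp ι)) (hm : hc_d01 LH _ m = 0) :
    m = shlPsiL₀ D ρ LH hopen (fun a => shlPhiL₀ D ρ LH a m) := by
  apply Subtype.ext
  apply Subtype.ext
  funext x
  refine shl_homotopy₀ D ρ (m : CoindV).1 (shl_coind_equiv ρ m.1) (fun y x => ?_) x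
  exact congrFun (congrArg Subtype.val (congrFun (congrArg Subtype.val hm) y)) x

/-- `(K_1)`: acyclicity of `ker Φ` in degree 1. -/
theorem shl_K₁ (f : hc_C1 LH ((ρI).comp ι)) (hf : hc_d12 LH _ f = 0) :
    f - shlPsiL₁ D ρ LH hopen (fun a => shlPhiL₁ D ρ LH a f) =
        hc_d01 LH _ (shlEL₁ D ρ LH hopen f) ∧
      ∀ a, shlPhiL₀ D ρ LH a (shlEL₁ D ρ LH hopen f) = 0 := by
  refine ⟨?_, fun a => Subtype.ext (shlPhi_E'₁ D ρ _ a)⟩
  apply Subtype.ext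
  funext y
  apply Subtype.ext
  funext x
  refine shl_acyclic₁ D ρ (shlRaw₁ ρ f.1) (shlRaw₁_equiv ρ f.1) (fun y1 y2 x => ?_) y x
  exact congrFun (congrArg Subtype.val (congrFun (congrArg Subtype.val hf) (y1, y2))) x

/-- `(K_2)`: acyclicity of `ker Φ` in degree 2. -/
theorem shl_K₂ (f : hc_C2 LH ((ρI).comp ι)) (hf : hc_d23 LH _ f = 0) :
    f - shlPsiL₂ D ρ LH hopen (fun a => shlPhiL₂ D ρ LH a f) =
        hc_d12 LH _ (shlEL₂ D ρ LH hopen f) ∧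
      ∀ a, shlPhiL₁ D ρ LH a (shlEL₂ D ρ LH hopen f) = 0 := by
  refine ⟨?_, fun a => Subtype.ext (funext fun z => shlPhi_E'₂ D ρ _ a z)⟩
  apply Subtype.ext
  funext y
  apply Subtype.ext
  funext x
  refine shl_acyclic₂ D ρ (shlRaw₂ ρ f.1) (shlRaw₂_equiv ρ f.1) (fun y1 y2 y3 x => ?_)
    y.1 y.2 x
  exact congrFun (congrArg Subtype.val (congrFun (congrArg Subtype.val hf) (y1, y2, y3))) x

/-- `(K_3)` in lifting form: a level `3`-cocycle `F` whose `Φ`-components are coboundaries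
`d (b a)` is the coboundary of `ψ b + E F`, and `Φ (E F) = 0`. -/
theorem shl_K₃ (F : hc_C3 LH ((ρI).comp ι))
    (hF : hc_d34f ((ρI).comp ι) (F : H × H × H → CoindV) = 0)
    (b : ∀ a, hc_C2 (shapLevSub LH (D.Ha a)) (ρ.comp (D.th a)))
    (hb : ∀ a, shlPhiL₃ D ρ LH a F = hc_d23 _ _ (b a)) :
    hc_d23 LH _ (shlPsiL₂ D ρ LH hopen b + shlEL₃ D ρ LH hopen F) = F ∧
      ∀ a, shlPhiL₂ D ρ LH a (shlEL₃ D ρ LH hopen F) = 0 := by
  refine ⟨?_, fun a => Subtype.ext (funext fun z => shlPhi_E'₃ D ρ _ a z.1 z.2)⟩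
  apply Subtype.ext
  funext y
  apply Subtype.ext
  funext x
  have h1 := shl_acyclic₃ D ρ (shlRaw₃ ρ F.1) (shlRaw₃_equiv ρ F.1)
    (fun y1 y2 y3 y4 x =>
      congrFun (congrArg Subtype.val (congrFun hF (y1, y2, y3, y4))) x) y.1 y.2.1 y.2.2 x
  have h2 := congrFun (congrFun (congrFun (congrFun
    (shlDI_Psi₂ D ρ (fun a z1 z2 => (b a : D.Ha a × D.Ha a → N) (z1, z2))) y.1) y.2.1) y.2.2) x
  have h3 : (fun a => shlPhi₃ D a (shlRaw₃ ρ F.1)) =
      fun a => shapDU₂₃ (ρ.comp (D.th a))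
        (fun z1 z2 => (b a : D.Ha a × D.Ha a → N) (z1, z2)) :=
    funext fun a => funext fun z1 => funext fun z2 => funext fun z3 =>
      congrFun (congrArg Subtype.val (hb a)) (z1, z2, z3)
  rw [h3] at h1
  rw [← h2] at h1
  have h4 : shlDI₂₃ ι (shlE'₃ D ρ (shlRaw₃ ρ F.1)) y.1 y.2.1 y.2.2 x
      + shlDI₂₃ ι (shlPsi₂ D ρ (fun a z1 z2 => (b a : D.Ha a × D.Ha a → N) (z1, z2)))
        y.1 y.2.1 y.2.2 x = shlRaw₃ ρ F.1 y.1 y.2.1 y.2.2 x := by
    rw [← h1]; abel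
  refine Eq.trans ?_ h4
  show shlDI₂₃ ι (fun y1 y2 x =>
      shlPsi₂ D ρ (fun a z1 z2 => (b a : D.Ha a × D.Ha a → N) (z1, z2)) y1 y2 x
        + shlE'₃ D ρ (shlRaw₃ ρ F.1) y1 y2 x) y.1 y.2.1 y.2.2 x = _
  simp only [shlDI₂₃]
  abel

omit [Finite W] in
/-- `Φ (E f) = 0`, degree 0 (no cocycle condition needed). -/
theorem shl_K₁_phi (f : hc_C1 LH ((ρI).comp ι)) (a : W) :
    shlPhiL₀ D ρ LH a (shlEL₁ D ρ LH hopen f) = 0 :=
  Subtype.ext (shlPhi_E'₁ D ρ _ a)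

omit [Finite W] in
/-- `Φ (E f) = 0`, degree 1 (no cocycle condition needed). -/
theorem shl_K₂_phi (f : hc_C2 LH ((ρI).comp ι)) (a : W) :
    shlPhiL₁ D ρ LH a (shlEL₂ D ρ LH hopen f) = 0 :=
  Subtype.ext (funext fun z => shlPhi_E'₂ D ρ _ a z)

omit [Finite W] in
/-- `Φ (E f) = 0`, degree 2 (no cocycle condition needed). -/
theorem shl_K₃_phi (f : hc_C3 LH ((ρI).comp ι)) (a : W) :
    shlPhiL₂ D ρ LH a (shlEL₃ D ρ LH hopen f) = 0 :=
  Subtype.ext (funext fun z => shlPhi_E'₃ D ρ _ a z.1 z.2)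

theorem shlPsiL₀_coe (c : ∀ a, hc_C0 (shapLevSub LH (D.Ha a)) (ρ.comp (D.th a))) (x : G) :
    ((shlPsiL₀ D ρ LH hopen c : hc_C0 LH ((ρI).comp ι)) : CoindV).1 x =
      ρ (D.uu x) (c (D.w x) : N) := shlPsi₀_apply D ρ (fun a => (c a : N)) x

theorem shlPsiL₁_coe (c : ∀ a, hc_C1 (shapLevSub LH (D.Ha a)) (ρ.comp (D.th a))) (y : H)
    (x : G) :
    ((shlPsiL₁ D ρ LH hopen c : H → CoindV) y).1 x =
      shlPsi₁ D ρ (fun a => (c a : D.Ha a → N)) y x := rfl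

theorem shlPsiL₂_coe (c : ∀ a, hc_C2 (shapLevSub LH (D.Ha a)) (ρ.comp (D.th a))) (y : H × H)
    (x : G) :
    ((shlPsiL₂ D ρ LH hopen c : H × H → CoindV) y).1 x =
      shlPsi₂ D ρ (fun a z1 z2 => (c a : D.Ha a × D.Ha a → N) (z1, z2)) y.1 y.2 x := rfl

omit [Finite W] in
theorem shlEL₁_coe (f : hc_C1 LH ((ρI).comp ι)) (x : G) :
    ((shlEL₁ D ρ LH hopen f : hc_C0 LH ((ρI).comp ι)) : CoindV).1 x =
      shlE'₁ D ρ (shlRaw₁ ρ (f : H → CoindV)) x := rfl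

omit [Finite W] in
theorem shlEL₂_coe (f : hc_C2 LH ((ρI).comp ι)) (y : H) (x : G) :
    ((shlEL₂ D ρ LH hopen f : H → CoindV) y).1 x =
      shlE'₂ D ρ (shlRaw₂ ρ (f : H × H → CoindV)) y x := rfl

omit [Finite W] in
theorem shlEL₃_coe (f : hc_C3 LH ((ρI).comp ι)) (y : H × H) (x : G) :
    ((shlEL₃ D ρ LH hopen f : H × H → CoindV) y).1 x =
      shlE'₃ D ρ (shlRaw₃ ρ (f : H × H × H → CoindV)) y.1 y.2 x := rfl

end maps

/-! ### the hypotheses in terms of an ambient level structure -/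

section ambient

variable {G H : Type*} [Group G] [Group H] {ι : H →* G} {U : Subgroup G} {W : Type*}
  (D : ShlDec ι U W) {LH : hc_Lev H} {L : hc_Lev G}

/-- if `U` contains a level of `G`, then all the `H_a` contain a common level of `H`. -/
theorem shl_hopen (hι : hc_LevCompat LH L ι) (hU : ∃ N ∈ L.S, N ≤ U) :
    ∃ M₀ ∈ LH.S, ∀ a, M₀ ≤ D.Ha a := by
  obtain ⟨N, hN, hNU⟩ := hU
  obtain ⟨M₀, hM₀, hle⟩ := hι N hN
  refine ⟨M₀, hM₀, fun a m hm => ?_⟩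
  have h1 : ι m ∈ N := hle hm
  have h2 : D.g a * ι m * (D.g a)⁻¹ ∈ N := (L.nor N hN).conj_mem _ h1 _
  exact D.mem_Ha.2 (hNU h2)

/-- `θ_a : H_a → U` is level-compatible. -/
theorem shl_th_compat (hι : hc_LevCompat LH L ι) (a : W) :
    hc_LevCompat (shapLevSub LH (D.Ha a)) (shapLevSub L U) (D.th a) :=
  shap_levSub_compat_of hι (D.Ha a) U (D.th a) fun N hN y hy => by
    rw [D.th_coe]
    exact (L.nor N hN).conj_mem _ hy _

end ambient

end Fermat.Agent.S55
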