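import Fermat.Agent.S55.Trace
import Fermat.Agent.S55.ShapLocHc

/-!
# S55: the outside places of a subgroup

For outside data `O : tr_Out L Linf` of a group `G` (block TR) and a subgroup `U` with double
coset decompositions `ΔO w : ShlDec (O.ι w) U (WO w)`, the outside data of `U`:

* places: the pairs `(w, a)`, `a` a double coset in `U \ G / ι_w(H_w)`;
* local groups `H_{w,a} = ι_w⁻¹(g_a⁻¹ U g_a)` with the level structure induced from `H_w`, and the
  maps `θ_{w,a} : H_{w,a} → U`, `y ↦ g_a ι_w(y) g_a⁻¹`;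
* inertia groups `I_w ∩ H_{w,a}`.

This is the outside counterpart of `shapLocU` (ShapCone.lean).
-/

set_option autoImplicit false

namespace Fermat.Agent.S55

universe u v' w'

variable {G : Type u} [Group G] {L Linf : hc_Lev G} (O : tr_Out.{u, v', w'} L Linf)
  (U : Subgroup G) {WO : O.W → Type w'} (ΔO : ∀ w, ShlDec (O.ι w) U (WO w))

/-- the outside data of the subgroup `U`. -/
@[reducible] def ev_outU : tr_Out.{u, v', w'} (shapLevSub L U) (shapLevSub Linf U) where
  W := Σ w : O.W, WO w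
  H p := ↥((ΔO p.1).Ha p.2)
  LW p := shapLevSub (O.LW p.1) ((ΔO p.1).Ha p.2)
  ι p := (ΔO p.1).th p.2
  compat p := shl_th_compat (ΔO p.1) (O.compat p.1) p.2
  I p := (O.I p.1).subgroupOf ((ΔO p.1).Ha p.2)
  unr p := by
    rintro _ ⟨N, hN, rfl⟩ x hx
    have h1 : O.ι p.1 (x : O.H p.1) ∈ N := O.unr p.1 N hN hx
    have h2 := (L.nor N hN).conj_mem _ h1 ((ΔO p.1).g p.2)
    exact h2

theorem ev_outU_W : (ev_outU O U ΔO).W = Σ w : O.W, WO w := rfl

theorem ev_outU_ι (p : Σ w : O.W, WO w) : (ev_outU O U ΔO).ι p = (ΔO p.1).th p.2 := rfl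

theorem ev_outU_I (p : Σ w : O.W, WO w) :
    (ev_outU O U ΔO).I p = (O.I p.1).subgroupOf ((ΔO p.1).Ha p.2) := rfl

theorem ev_outU_LW (p : Σ w : O.W, WO w) :
    (ev_outU O U ΔO).LW p = shapLevSub (O.LW p.1) ((ΔO p.1).Ha p.2) := rfl

/-- the inertia groups of `U` are normal if those of `G` are. -/
theorem ev_outU_I_normal (hI : ∀ w, (O.I w).Normal) (p : Σ w : O.W, WO w) :
    ((ev_outU O U ΔO).I p).Normal := by
  have := hI p.1
  exact Subgroup.normal_subgroupOf

end Fermat.Agent.S55
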