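import Fermat.Agent.S55.HcCup

/-!
# S55 homological layer (HC), part 3: the cone complex (compactly supported cochains)

Local data for a leveled group `G`: a family of leveled groups `Gv v` with homomorphisms
`ι v : Gv v →* G` compatible with the level structures.  The cone complex is
`C_c^n(M) = C^n(G; M) × ∏_v C^{n-1}(Gv v; M)` with `d_c (a, (a_v)) = (d a, (res_v a - d a_v))`.
We define it in degrees `1, 2, 3` (and `d_c : C^0(G) → C_c^1`), the mixed cup products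
`C_c^i(A) × C^j(B) → C_c^{i+j}(T)`, prove the Leibniz rule, and construct a trace functional
on `C_c^3(T)` from local invariants satisfying reciprocity.
-/

set_option autoImplicit false
set_option linter.unusedSectionVars false
set_option linter.checkUnivs false

namespace Fermat.Agent.S55

universe u v w

/-- Local data for a leveled group. -/
structure hc_Loc {G : Type u} [Group G] (L : hc_Lev G) where
  /-- index set of the local groups -/
  V : Type w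
  /-- the local groups -/
  Gv : V → Type v
  [grp : ∀ v, Group (Gv v)]
  /-- level structures of the local groups -/
  Lv : ∀ v, hc_Lev (Gv v)
  /-- the maps to the global group -/
  ι : ∀ v, Gv v →* G
  compat : ∀ v, hc_LevCompat (Lv v) L (ι v)

attribute [instance] hc_Loc.grp

section cone

variable {k : Type*} [CommRing k] {G : Type u} [Group G] {L : hc_Lev G} (D : hc_Loc.{u, v, w} L)
variable {M : Type*} [AddCommGroup M] [Module k M] (ρ : Representation k G M)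

/-- cone cochains of degree 1. -/
abbrev hc_Cc1 : Type _ := hc_C1 L ρ × (∀ v : D.V, hc_C0 (D.Lv v) (ρ.comp (D.ι v)))

/-- cone cochains of degree 2. -/
abbrev hc_Cc2 : Type _ := hc_C2 L ρ × (∀ v : D.V, hc_C1 (D.Lv v) (ρ.comp (D.ι v)))

/-- cone cochains of degree 3. -/
abbrev hc_Cc3 : Type _ := hc_C3 L ρ × (∀ v : D.V, hc_C2 (D.Lv v) (ρ.comp (D.ι v)))

/-- `d_c : C_c^0 = C^0(G) → C_c^1`. -/
def hc_dc0 : hc_C0 L ρ →ₗ[k] hc_Cc1 D ρ where
  toFun x := (hc_d01 L ρ x, fun v => hc_res0 (D.compat v) ρ x)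
  map_add' x y := by
    refine Prod.ext (by simp) (funext fun v => ?_)
    simp only [map_add, Pi.add_apply, Prod.snd_add]
  map_smul' c x := by
    refine Prod.ext (by simp) (funext fun v => ?_)
    simp only [map_smul, Pi.smul_apply, Prod.smul_snd, RingHom.id_apply]

/-- `d_c : C_c^1 → C_c^2`. -/
def hc_dc1 : hc_Cc1 D ρ →ₗ[k] hc_Cc2 D ρ where
  toFun x := (hc_d12 L ρ x.1,
    fun v => hc_res1 (D.compat v) ρ x.1 - hc_d01 (D.Lv v) (ρ.comp (D.ι v)) (x.2 v))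
  map_add' x y := by
    refine Prod.ext (by simp) (funext fun v => ?_)
    simp only [map_add, Pi.add_apply, Prod.snd_add, Prod.fst_add]
    abel
  map_smul' c x := by
    refine Prod.ext (by simp) (funext fun v => ?_)
    simp only [map_smul, Pi.smul_apply, Prod.smul_snd, Prod.smul_fst, RingHom.id_apply, smul_sub]

/-- `d_c : C_c^2 → C_c^3`. -/
def hc_dc2 : hc_Cc2 D ρ →ₗ[k] hc_Cc3 D ρ where
  toFun x := (hc_d23 L ρ x.1,
    fun v => hc_res2 (D.compat v) ρ x.1 - hc_d12 (D.Lv v) (ρ.comp (D.ι v)) (x.2 v))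
  map_add' x y := by
    refine Prod.ext (by simp) (funext fun v => ?_)
    simp only [map_add, Pi.add_apply, Prod.snd_add, Prod.fst_add]
    abel
  map_smul' c x := by
    refine Prod.ext (by simp) (funext fun v => ?_)
    simp only [map_smul, Pi.smul_apply, Prod.smul_snd, Prod.smul_fst, RingHom.id_apply, smul_sub]

variable {D ρ}

@[simp] lemma hc_dc0_fst (x : hc_C0 L ρ) : (hc_dc0 D ρ x).1 = hc_d01 L ρ x := rfl
@[simp] lemma hc_dc0_snd (x : hc_C0 L ρ) (v : D.V) :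
    (hc_dc0 D ρ x).2 v = hc_res0 (D.compat v) ρ x := rfl
@[simp] lemma hc_dc1_fst (x : hc_Cc1 D ρ) : (hc_dc1 D ρ x).1 = hc_d12 L ρ x.1 := rfl
@[simp] lemma hc_dc1_snd (x : hc_Cc1 D ρ) (v : D.V) :
    (hc_dc1 D ρ x).2 v
      = hc_res1 (D.compat v) ρ x.1 - hc_d01 (D.Lv v) (ρ.comp (D.ι v)) (x.2 v) := rfl
@[simp] lemma hc_dc2_fst (x : hc_Cc2 D ρ) : (hc_dc2 D ρ x).1 = hc_d23 L ρ x.1 := rfl
@[simp] lemma hc_dc2_snd (x : hc_Cc2 D ρ) (v : D.V) :
    (hc_dc2 D ρ x).2 v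
      = hc_res2 (D.compat v) ρ x.1 - hc_d12 (D.Lv v) (ρ.comp (D.ι v)) (x.2 v) := rfl

lemma hc_dc1_dc0 (x : hc_C0 L ρ) : hc_dc1 D ρ (hc_dc0 D ρ x) = 0 := by
  refine Prod.ext (hc_d12_d01 L ρ x) (funext fun v => ?_)
  simp only [hc_dc1_snd, hc_dc0_fst, hc_dc0_snd, hc_res1_d01, sub_self, Prod.snd_zero,
    Pi.zero_apply]

lemma hc_dc2_dc1 (x : hc_Cc1 D ρ) : hc_dc2 D ρ (hc_dc1 D ρ x) = 0 := by
  refine Prod.ext (hc_d23_d12 L ρ x.1) (funext fun v => ?_)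
  simp only [hc_dc2_snd, hc_dc1_fst, hc_dc1_snd, hc_res2_d12, map_sub, hc_d12_d01, sub_zero,
    sub_self, Prod.snd_zero, Pi.zero_apply]

variable (D ρ)

/-- cone 3-cocycles. -/
def hc_Zc3 : Submodule k (hc_Cc3 D ρ) where
  carrier := {x | hc_d34f ρ (x.1 : G × G × G → M) = 0 ∧
    ∀ v, hc_res3 (D.compat v) ρ x.1 = hc_d23 (D.Lv v) (ρ.comp (D.ι v)) (x.2 v)}
  add_mem' := by
    rintro x y ⟨h1, h2⟩ ⟨h1', h2'⟩
    refine ⟨?_, fun v => ?_⟩
    · simp only [Prod.fst_add, Submodule.coe_add, map_add, h1, h1', add_zero]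
    · simp only [Prod.fst_add, Prod.snd_add, Pi.add_apply, map_add, h2 v, h2' v]
  zero_mem' := ⟨by simp, fun v => by simp⟩
  smul_mem' := by
    rintro c x ⟨h1, h2⟩
    refine ⟨?_, fun v => ?_⟩
    · simp only [Prod.smul_fst, Submodule.coe_smul, map_smul, h1, smul_zero]
    · simp only [Prod.smul_fst, Prod.smul_snd, Pi.smul_apply, map_smul, h2 v]

variable {D ρ}

lemma hc_mem_Zc3 {x : hc_Cc3 D ρ} : x ∈ hc_Zc3 D ρ ↔
    hc_d34f ρ (x.1 : G × G × G → M) = 0 ∧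
      ∀ v, hc_res3 (D.compat v) ρ x.1 = hc_d23 (D.Lv v) (ρ.comp (D.ι v)) (x.2 v) := Iff.rfl

lemma hc_dc2_mem_Zc3 (x : hc_Cc2 D ρ) : hc_dc2 D ρ x ∈ hc_Zc3 D ρ := by
  refine ⟨hc_d34f_d23 L ρ x.1, fun v => ?_⟩
  simp only [hc_dc2_fst, hc_dc2_snd, hc_res3_d23, map_sub, hc_d23_d12, sub_zero]

end cone

/-! ### Functoriality of the cone in equivariant maps -/

section conemap

variable {k : Type*} [CommRing k] {G : Type u} [Group G] {L : hc_Lev G} (D : hc_Loc.{u, v, w} L)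
variable {A B C : Type*} [AddCommGroup A] [Module k A] [AddCommGroup B] [Module k B]
  [AddCommGroup C] [Module k C]
  {ρA : Representation k G A} {ρB : Representation k G B} {ρC : Representation k G C}

/-- equivariance passes to the local groups. -/
lemma hc_equiv_loc {φ : A →ₗ[k] B} (hφ : ∀ g a, φ (ρA g a) = ρB g (φ a)) (v : D.V) :
    ∀ g a, φ ((ρA.comp (D.ι v)) g a) = (ρB.comp (D.ι v)) g (φ a) :=
  fun g a => hφ (D.ι v g) a

/-- map induced on cone 1-cochains. -/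
def hc_cmap1 (φ : A →ₗ[k] B) (hφ : ∀ g a, φ (ρA g a) = ρB g (φ a)) :
    hc_Cc1 D ρA →ₗ[k] hc_Cc1 D ρB :=
  LinearMap.prodMap (hc_map1 L φ hφ)
    (LinearMap.pi fun v => (hc_map0 (D.Lv v) φ (hc_equiv_loc D hφ v)).comp (LinearMap.proj v))

/-- map induced on cone 2-cochains. -/
def hc_cmap2 (φ : A →ₗ[k] B) (hφ : ∀ g a, φ (ρA g a) = ρB g (φ a)) :
    hc_Cc2 D ρA →ₗ[k] hc_Cc2 D ρB :=
  LinearMap.prodMap (hc_map2 L φ hφ)
    (LinearMap.pi fun v => (hc_map1 (D.Lv v) φ (hc_equiv_loc D hφ v)).comp (LinearMap.proj v))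

/-- map induced on cone 3-cochains. -/
def hc_cmap3 (φ : A →ₗ[k] B) (hφ : ∀ g a, φ (ρA g a) = ρB g (φ a)) :
    hc_Cc3 D ρA →ₗ[k] hc_Cc3 D ρB :=
  LinearMap.prodMap (hc_map3 L φ hφ)
    (LinearMap.pi fun v => (hc_map2 (D.Lv v) φ (hc_equiv_loc D hφ v)).comp (LinearMap.proj v))

variable {D}
variable {φ : A →ₗ[k] B} (hφ : ∀ g a, φ (ρA g a) = ρB g (φ a))
  {ψ : B →ₗ[k] C} (hψ : ∀ g b, ψ (ρB g b) = ρC g (ψ b))

@[simp] lemma hc_cmap1_fst (x : hc_Cc1 D ρA) : (hc_cmap1 D φ hφ x).1 = hc_map1 L φ hφ x.1 := rfl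
@[simp] lemma hc_cmap1_snd (x : hc_Cc1 D ρA) (v : D.V) :
    (hc_cmap1 D φ hφ x).2 v = hc_map0 (D.Lv v) φ (hc_equiv_loc D hφ v) (x.2 v) := rfl
@[simp] lemma hc_cmap2_fst (x : hc_Cc2 D ρA) : (hc_cmap2 D φ hφ x).1 = hc_map2 L φ hφ x.1 := rfl
@[simp] lemma hc_cmap2_snd (x : hc_Cc2 D ρA) (v : D.V) :
    (hc_cmap2 D φ hφ x).2 v = hc_map1 (D.Lv v) φ (hc_equiv_loc D hφ v) (x.2 v) := rfl
@[simp] lemma hc_cmap3_fst (x : hc_Cc3 D ρA) : (hc_cmap3 D φ hφ x).1 = hc_map3 L φ hφ x.1 := rfl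
@[simp] lemma hc_cmap3_snd (x : hc_Cc3 D ρA) (v : D.V) :
    (hc_cmap3 D φ hφ x).2 v = hc_map2 (D.Lv v) φ (hc_equiv_loc D hφ v) (x.2 v) := rfl

lemma hc_map_res0 {H : Type*} [Group H] {LH : hc_Lev H} {ι : H →* G} (hι : hc_LevCompat LH L ι)
    (x : hc_C0 L ρA) :
    hc_map0 LH φ (fun g a => hφ (ι g) a) (hc_res0 hι ρA x) = hc_res0 hι ρB (hc_map0 L φ hφ x) :=
  rfl

lemma hc_map_res1 {H : Type*} [Group H] {LH : hc_Lev H} {ι : H →* G} (hι : hc_LevCompat LH L ι)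
    (x : hc_C1 L ρA) :
    hc_map1 LH φ (fun g a => hφ (ι g) a) (hc_res1 hι ρA x) = hc_res1 hι ρB (hc_map1 L φ hφ x) :=
  rfl

lemma hc_map_res2 {H : Type*} [Group H] {LH : hc_Lev H} {ι : H →* G} (hι : hc_LevCompat LH L ι)
    (x : hc_C2 L ρA) :
    hc_map2 LH φ (fun g a => hφ (ι g) a) (hc_res2 hι ρA x) = hc_res2 hι ρB (hc_map2 L φ hφ x) :=
  rfl

lemma hc_map_res3 {H : Type*} [Group H] {LH : hc_Lev H} {ι : H →* G} (hι : hc_LevCompat LH L ι)
    (x : hc_C3 L ρA) :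
    hc_map3 LH φ (fun g a => hφ (ι g) a) (hc_res3 hι ρA x) = hc_res3 hι ρB (hc_map3 L φ hφ x) :=
  rfl

lemma hc_cmap2_dc1 (x : hc_Cc1 D ρA) :
    hc_cmap2 D φ hφ (hc_dc1 D ρA x) = hc_dc1 D ρB (hc_cmap1 D φ hφ x) := by
  refine Prod.ext (hc_map2_d12 hφ x.1) (funext fun v => ?_)
  simp only [hc_cmap2_snd, hc_dc1_snd, map_sub, hc_cmap1_fst, hc_cmap1_snd, hc_map1_d01]
  rfl

lemma hc_cmap3_dc2 (x : hc_Cc2 D ρA) :
    hc_cmap3 D φ hφ (hc_dc2 D ρA x) = hc_dc2 D ρB (hc_cmap2 D φ hφ x) := by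
  refine Prod.ext (hc_map3_d23 hφ x.1) (funext fun v => ?_)
  simp only [hc_cmap3_snd, hc_dc2_snd, map_sub, hc_cmap2_fst, hc_cmap2_snd, hc_map2_d12]
  rfl

lemma hc_adm_loc (h : hc_Adm L ρB) (v : D.V) : hc_Adm (D.Lv v) (ρB.comp (D.ι v)) := by
  obtain ⟨N, hN, hN'⟩ := h
  obtain ⟨N', hN'', hle⟩ := D.compat v N hN
  exact ⟨N', hN'', fun s hs => hN' _ (hle hs)⟩

lemma hc_cmap1_injective (hinj : Function.Injective φ) :
    Function.Injective (hc_cmap1 D φ hφ) := fun _ _ h =>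
  Prod.ext (hc_map1_injective hφ hinj (congrArg Prod.fst h))
    (funext fun v => hc_map0_injective (hc_equiv_loc D hφ v) hinj (congrFun (congrArg Prod.snd h) v))

lemma hc_cmap2_injective (hinj : Function.Injective φ) :
    Function.Injective (hc_cmap2 D φ hφ) := fun _ _ h =>
  Prod.ext (hc_map2_injective hφ hinj (congrArg Prod.fst h))
    (funext fun v => hc_map1_injective (hc_equiv_loc D hφ v) hinj (congrFun (congrArg Prod.snd h) v))

lemma hc_cmap3_injective (hinj : Function.Injective φ) :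
    Function.Injective (hc_cmap3 D φ hφ) := fun _ _ h =>
  Prod.ext (hc_map3_injective hφ hinj (congrArg Prod.fst h))
    (funext fun v => hc_map2_injective (hc_equiv_loc D hφ v) hinj (congrFun (congrArg Prod.snd h) v))

lemma hc_cmap1_surjective (hsurj : Function.Surjective ψ) (hadm : hc_Adm L ρB) :
    Function.Surjective (hc_cmap1 D ψ hψ) := by
  intro y
  obtain ⟨a, ha⟩ := hc_map1_surjective hψ hsurj hadm y.1
  choose b hb using fun v =>
    hc_map0_surjective (hc_equiv_loc D hψ v) hsurj (hc_adm_loc hadm v) (y.2 v)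
  exact ⟨(a, b), Prod.ext ha (funext hb)⟩

lemma hc_cmap2_surjective (hsurj : Function.Surjective ψ) (hadm : hc_Adm L ρB) :
    Function.Surjective (hc_cmap2 D ψ hψ) := by
  intro y
  obtain ⟨a, ha⟩ := hc_map2_surjective hψ hsurj hadm y.1
  choose b hb using fun v =>
    hc_map1_surjective (hc_equiv_loc D hψ v) hsurj (hc_adm_loc hadm v) (y.2 v)
  exact ⟨(a, b), Prod.ext ha (funext hb)⟩

lemma hc_cmap3_surjective (hsurj : Function.Surjective ψ) (hadm : hc_Adm L ρB) :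
    Function.Surjective (hc_cmap3 D ψ hψ) := by
  intro y
  obtain ⟨a, ha⟩ := hc_map3_surjective hψ hsurj hadm y.1
  choose b hb using fun v =>
    hc_map2_surjective (hc_equiv_loc D hψ v) hsurj (hc_adm_loc hadm v) (y.2 v)
  exact ⟨(a, b), Prod.ext ha (funext hb)⟩

include hφ in
lemma hc_cmap1_exact (hinj : Function.Injective φ) (hex : ∀ b, ψ b = 0 → ∃ a, φ a = b)
    (x : hc_Cc1 D ρB) (hx : hc_cmap1 D ψ hψ x = 0) : ∃ x', hc_cmap1 D φ hφ x' = x := by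
  obtain ⟨a, ha⟩ := hc_map1_exact hφ hψ hinj hex x.1 (congrArg Prod.fst hx)
  choose b hb using fun v => hc_map0_exact (hc_equiv_loc D hφ v) (hc_equiv_loc D hψ v) hinj hex
    (x.2 v) (congrFun (congrArg Prod.snd hx) v)
  exact ⟨(a, b), Prod.ext ha (funext hb)⟩

include hφ in
lemma hc_cmap2_exact (hinj : Function.Injective φ) (hex : ∀ b, ψ b = 0 → ∃ a, φ a = b)
    (x : hc_Cc2 D ρB) (hx : hc_cmap2 D ψ hψ x = 0) : ∃ x', hc_cmap2 D φ hφ x' = x := by
  obtain ⟨a, ha⟩ := hc_map2_exact hφ hψ hinj hex x.1 (congrArg Prod.fst hx)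
  choose b hb using fun v => hc_map1_exact (hc_equiv_loc D hφ v) (hc_equiv_loc D hψ v) hinj hex
    (x.2 v) (congrFun (congrArg Prod.snd hx) v)
  exact ⟨(a, b), Prod.ext ha (funext hb)⟩

include hφ in
lemma hc_cmap3_exact (hinj : Function.Injective φ) (hex : ∀ b, ψ b = 0 → ∃ a, φ a = b)
    (x : hc_Cc3 D ρB) (hx : hc_cmap3 D ψ hψ x = 0) : ∃ x', hc_cmap3 D φ hφ x' = x := by
  obtain ⟨a, ha⟩ := hc_map3_exact hφ hψ hinj hex x.1 (congrArg Prod.fst hx)
  choose b hb using fun v => hc_map2_exact (hc_equiv_loc D hφ v) (hc_equiv_loc D hψ v) hinj hex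
    (x.2 v) (congrFun (congrArg Prod.snd hx) v)
  exact ⟨(a, b), Prod.ext ha (funext hb)⟩

end conemap

/-! ### Mixed cup products `C_c^i(A) × C^j(B) → C_c^{i+j}(T)` -/

section ccup

variable {k : Type*} [CommRing k] {G : Type u} [Group G] {L : hc_Lev G} (D : hc_Loc.{u, v, w} L)
variable {A B T : Type*} [AddCommGroup A] [Module k A] [AddCommGroup B] [Module k B]
  [AddCommGroup T] [Module k T]
  {φ : A →ₗ[k] B →ₗ[k] T} {ρA : Representation k G A} {ρB : Representation k G B}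
  {ρT : Representation k G T} (hφ : ∀ g a b, φ (ρA g a) (ρB g b) = ρT g (φ a b))

include hφ in
/-- equivariance of a pairing passes to the local groups. -/
lemma hc_equiv₂_loc (v : D.V) : ∀ g a b,
    φ ((ρA.comp (D.ι v)) g a) ((ρB.comp (D.ι v)) g b) = (ρT.comp (D.ι v)) g (φ a b) :=
  fun g a b => hφ (D.ι v g) a b

/-- mixed cup product `C_c^1(A) × C^1(B) → C_c^2(T)`. -/
def hc_ccup11 : hc_Cc1 D ρA →ₗ[k] hc_C1 L ρB →ₗ[k] hc_Cc2 D ρT :=
  LinearMap.mk₂ k (fun x y => (hc_cup11 L hφ x.1 y,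
      fun v => hc_cup01 (D.Lv v) (hc_equiv₂_loc D hφ v) (x.2 v) (hc_res1 (D.compat v) ρB y)))
    (fun x x' y => by
      simp only [Prod.fst_add, Prod.snd_add, Pi.add_apply, map_add, LinearMap.add_apply]; rfl)
    (fun c x y => by
      simp only [Prod.smul_fst, Prod.smul_snd, Pi.smul_apply, map_smul, LinearMap.smul_apply]
      rfl)
    (fun x y y' => by simp only [map_add]; rfl)
    (fun c x y => by simp only [map_smul]; rfl)

/-- mixed cup product `C_c^2(A) × C^0(B) → C_c^2(T)`. -/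
def hc_ccup20 : hc_Cc2 D ρA →ₗ[k] hc_C0 L ρB →ₗ[k] hc_Cc2 D ρT :=
  LinearMap.mk₂ k (fun x y => (hc_cup20 L hφ x.1 y,
      fun v => hc_cup10 (D.Lv v) (hc_equiv₂_loc D hφ v) (x.2 v) (hc_res0 (D.compat v) ρB y)))
    (fun x x' y => by
      simp only [Prod.fst_add, Prod.snd_add, Pi.add_apply, map_add, LinearMap.add_apply]; rfl)
    (fun c x y => by
      simp only [Prod.smul_fst, Prod.smul_snd, Pi.smul_apply, map_smul, LinearMap.smul_apply]
      rfl)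
    (fun x y y' => by simp only [map_add]; rfl)
    (fun c x y => by simp only [map_smul]; rfl)

/-- mixed cup product `C_c^1(A) × C^2(B) → C_c^3(T)`. -/
def hc_ccup12 : hc_Cc1 D ρA →ₗ[k] hc_C2 L ρB →ₗ[k] hc_Cc3 D ρT :=
  LinearMap.mk₂ k (fun x y => (hc_cup12 L hφ x.1 y,
      fun v => hc_cup02 (D.Lv v) (hc_equiv₂_loc D hφ v) (x.2 v) (hc_res2 (D.compat v) ρB y)))
    (fun x x' y => by
      simp only [Prod.fst_add, Prod.snd_add, Pi.add_apply, map_add, LinearMap.add_apply]; rfl)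
    (fun c x y => by
      simp only [Prod.smul_fst, Prod.smul_snd, Pi.smul_apply, map_smul, LinearMap.smul_apply]
      rfl)
    (fun x y y' => by simp only [map_add]; rfl)
    (fun c x y => by simp only [map_smul]; rfl)

/-- mixed cup product `C_c^2(A) × C^1(B) → C_c^3(T)`. -/
def hc_ccup21 : hc_Cc2 D ρA →ₗ[k] hc_C1 L ρB →ₗ[k] hc_Cc3 D ρT :=
  LinearMap.mk₂ k (fun x y => (hc_cup21 L hφ x.1 y,
      fun v => hc_cup11 (D.Lv v) (hc_equiv₂_loc D hφ v) (x.2 v) (hc_res1 (D.compat v) ρB y)))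
    (fun x x' y => by
      simp only [Prod.fst_add, Prod.snd_add, Pi.add_apply, map_add, LinearMap.add_apply]; rfl)
    (fun c x y => by
      simp only [Prod.smul_fst, Prod.smul_snd, Pi.smul_apply, map_smul, LinearMap.smul_apply]
      rfl)
    (fun x y y' => by simp only [map_add]; rfl)
    (fun c x y => by simp only [map_smul]; rfl)

/-- mixed cup product `C_c^3(A) × C^0(B) → C_c^3(T)`. -/
def hc_ccup30 : hc_Cc3 D ρA →ₗ[k] hc_C0 L ρB →ₗ[k] hc_Cc3 D ρT :=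
  LinearMap.mk₂ k (fun x y => (hc_cup30 L hφ x.1 y,
      fun v => hc_cup20 (D.Lv v) (hc_equiv₂_loc D hφ v) (x.2 v) (hc_res0 (D.compat v) ρB y)))
    (fun x x' y => by
      simp only [Prod.fst_add, Prod.snd_add, Pi.add_apply, map_add, LinearMap.add_apply]; rfl)
    (fun c x y => by
      simp only [Prod.smul_fst, Prod.smul_snd, Pi.smul_apply, map_smul, LinearMap.smul_apply]
      rfl)
    (fun x y y' => by simp only [map_add]; rfl)
    (fun c x y => by simp only [map_smul]; rfl)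

variable {D}

@[simp] lemma hc_ccup11_fst (x : hc_Cc1 D ρA) (y : hc_C1 L ρB) :
    (hc_ccup11 D hφ x y).1 = hc_cup11 L hφ x.1 y := rfl
@[simp] lemma hc_ccup11_snd (x : hc_Cc1 D ρA) (y : hc_C1 L ρB) (v : D.V) :
    (hc_ccup11 D hφ x y).2 v
      = hc_cup01 (D.Lv v) (hc_equiv₂_loc D hφ v) (x.2 v) (hc_res1 (D.compat v) ρB y) := rfl
@[simp] lemma hc_ccup20_fst (x : hc_Cc2 D ρA) (y : hc_C0 L ρB) :
    (hc_ccup20 D hφ x y).1 = hc_cup20 L hφ x.1 y := rfl
@[simp] lemma hc_ccup20_snd (x : hc_Cc2 D ρA) (y : hc_C0 L ρB) (v : D.V) :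
    (hc_ccup20 D hφ x y).2 v
      = hc_cup10 (D.Lv v) (hc_equiv₂_loc D hφ v) (x.2 v) (hc_res0 (D.compat v) ρB y) := rfl
@[simp] lemma hc_ccup12_fst (x : hc_Cc1 D ρA) (y : hc_C2 L ρB) :
    (hc_ccup12 D hφ x y).1 = hc_cup12 L hφ x.1 y := rfl
@[simp] lemma hc_ccup12_snd (x : hc_Cc1 D ρA) (y : hc_C2 L ρB) (v : D.V) :
    (hc_ccup12 D hφ x y).2 v
      = hc_cup02 (D.Lv v) (hc_equiv₂_loc D hφ v) (x.2 v) (hc_res2 (D.compat v) ρB y) := rfl
@[simp] lemma hc_ccup21_fst (x : hc_Cc2 D ρA) (y : hc_C1 L ρB) :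
    (hc_ccup21 D hφ x y).1 = hc_cup21 L hφ x.1 y := rfl
@[simp] lemma hc_ccup21_snd (x : hc_Cc2 D ρA) (y : hc_C1 L ρB) (v : D.V) :
    (hc_ccup21 D hφ x y).2 v
      = hc_cup11 (D.Lv v) (hc_equiv₂_loc D hφ v) (x.2 v) (hc_res1 (D.compat v) ρB y) := rfl
@[simp] lemma hc_ccup30_fst (x : hc_Cc3 D ρA) (y : hc_C0 L ρB) :
    (hc_ccup30 D hφ x y).1 = hc_cup30 L hφ x.1 y := rfl
@[simp] lemma hc_ccup30_snd (x : hc_Cc3 D ρA) (y : hc_C0 L ρB) (v : D.V) :
    (hc_ccup30 D hφ x y).2 v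
      = hc_cup20 (D.Lv v) (hc_equiv₂_loc D hφ v) (x.2 v) (hc_res0 (D.compat v) ρB y) := rfl

/-- restriction is compatible with cup products, bidegree (1,1). -/
lemma hc_res2_cup11 {H : Type*} [Group H] {LH : hc_Lev H} {ι : H →* G}
    (hι : hc_LevCompat LH L ι) (x : hc_C1 L ρA) (y : hc_C1 L ρB) :
    hc_res2 hι ρT (hc_cup11 L hφ x y)
      = hc_cup11 LH (fun g a b => hφ (ι g) a b) (hc_res1 hι ρA x) (hc_res1 hι ρB y) := rfl

/-- restriction is compatible with cup products, bidegree (2,0). -/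
lemma hc_res2_cup20 {H : Type*} [Group H] {LH : hc_Lev H} {ι : H →* G}
    (hι : hc_LevCompat LH L ι) (x : hc_C2 L ρA) (y : hc_C0 L ρB) :
    hc_res2 hι ρT (hc_cup20 L hφ x y)
      = hc_cup20 LH (fun g a b => hφ (ι g) a b) (hc_res2 hι ρA x) (hc_res0 hι ρB y) := by
  apply Subtype.ext
  funext ⟨g, h⟩
  simp only [hc_res2_coe, hc_cup20_coe, hc_cup20f_apply, hc_res0_coe, MonoidHom.comp_apply,
    map_mul]

/-- restriction is compatible with cup products, bidegree (0,2). -/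
lemma hc_res2_cup02 {H : Type*} [Group H] {LH : hc_Lev H} {ι : H →* G}
    (hι : hc_LevCompat LH L ι) (x : hc_C0 L ρA) (y : hc_C2 L ρB) :
    hc_res2 hι ρT (hc_cup02 L hφ x y)
      = hc_cup02 LH (fun g a b => hφ (ι g) a b) (hc_res0 hι ρA x) (hc_res2 hι ρB y) := rfl

/-- mixed Leibniz rule, bidegree (1,1): `d_c (x ∪ y) = d_c x ∪ y - x ∪ d y`. -/
lemma hc_cleibniz11 (x : hc_Cc1 D ρA) (y : hc_C1 L ρB) :
    hc_dc2 D ρT (hc_ccup11 D hφ x y)
      = hc_ccup21 D hφ (hc_dc1 D ρA x) y - hc_ccup12 D hφ x (hc_d12 L ρB y) := by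
  refine Prod.ext (hc_leibniz11 hφ x.1 y) (funext fun v => ?_)
  simp only [hc_dc2_snd, hc_ccup11_fst, hc_ccup11_snd, Prod.snd_sub, Pi.sub_apply, hc_ccup21_snd,
    hc_ccup12_snd, hc_dc1_snd, hc_res2_cup11, hc_leibniz01, hc_res2_d12, map_sub,
    LinearMap.sub_apply]
  abel

/-- mixed Leibniz rule, bidegree (2,0): `d_c (x ∪ y) = d_c x ∪ y + x ∪ d y`. -/
lemma hc_cleibniz20 (x : hc_Cc2 D ρA) (y : hc_C0 L ρB) :
    hc_dc2 D ρT (hc_ccup20 D hφ x y)
      = hc_ccup30 D hφ (hc_dc2 D ρA x) y + hc_ccup21 D hφ x (hc_d01 L ρB y) := by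
  refine Prod.ext (hc_leibniz20 hφ x.1 y) (funext fun v => ?_)
  simp only [hc_dc2_snd, hc_ccup20_fst, hc_ccup20_snd, Prod.snd_add, Pi.add_apply, hc_ccup30_snd,
    hc_ccup21_snd, hc_res2_cup20, hc_leibniz10, hc_res1_d01, map_sub, LinearMap.sub_apply]
  abel

/-- mixed Leibniz rule, bidegree (0,2), on 2-cocycles `y`: `d_c (x ∪ y, 0) = d_c x ∪ y`. -/
lemma hc_cleibniz02 (x : hc_C0 L ρA) (y : hc_C2 L ρB) (hy : hc_d23 L ρB y = 0) :
    hc_dc2 D ρT (hc_cup02 L hφ x y, 0) = hc_ccup12 D hφ (hc_dc0 D ρA x) y := by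
  refine Prod.ext ?_ (funext fun v => ?_)
  · simp only [hc_dc2_fst, hc_ccup12_fst, hc_dc0_fst, hc_leibniz02, hy, map_zero, add_zero]
  · simp only [hc_dc2_snd, Pi.zero_apply, map_zero, sub_zero, hc_ccup12_snd, hc_dc0_snd,
      hc_res2_cup02]

end ccup

/-! ### The pairings attached to a trace functional -/

section pairings

variable {k : Type*} [CommRing k] {G : Type u} [Group G] {L : hc_Lev G} {D : hc_Loc.{u, v, w} L}
variable {A B T : Type*} [AddCommGroup A] [Module k A] [AddCommGroup B] [Module k B]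
  [AddCommGroup T] [Module k T]
  {φ : A →ₗ[k] B →ₗ[k] T} {ρA : Representation k G A} {ρB : Representation k G B}
  {ρT : Representation k G T} (hφ : ∀ g a b, φ (ρA g a) (ρB g b) = ρT g (φ a b))
  (τ : hc_Cc3 D ρT →ₗ[k] k)

/-- the pairing `C_c^1(A) × C^2(B) → k`, `(x, y) ↦ τ (x ∪ y)`. -/
def hc_b12 : hc_Cc1 D ρA →ₗ[k] hc_C2 L ρB →ₗ[k] k := (hc_ccup12 D hφ).compr₂ τ

/-- the pairing `C_c^2(A) × C^1(B) → k`, `(x, y) ↦ τ (x ∪ y)`. -/
def hc_b21 : hc_Cc2 D ρA →ₗ[k] hc_C1 L ρB →ₗ[k] k := (hc_ccup21 D hφ).compr₂ τ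

/-- the pairing `C_c^3(A) × C^0(B) → k`, `(x, y) ↦ τ (x ∪ y)`. -/
def hc_b30 : hc_Cc3 D ρA →ₗ[k] hc_C0 L ρB →ₗ[k] k := (hc_ccup30 D hφ).compr₂ τ

@[simp] lemma hc_b12_apply (x : hc_Cc1 D ρA) (y : hc_C2 L ρB) :
    hc_b12 hφ τ x y = τ (hc_ccup12 D hφ x y) := rfl
@[simp] lemma hc_b21_apply (x : hc_Cc2 D ρA) (y : hc_C1 L ρB) :
    hc_b21 hφ τ x y = τ (hc_ccup21 D hφ x y) := rfl
@[simp] lemma hc_b30_apply (x : hc_Cc3 D ρA) (y : hc_C0 L ρB) :
    hc_b30 hφ τ x y = τ (hc_ccup30 D hφ x y) := rfl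

variable {τ} (hτ : ∀ x, τ (hc_dc2 D ρT x) = 0)
include hτ

lemma hc_rel1 (x : hc_Cc1 D ρA) (y : hc_C1 L ρB) :
    hc_b21 hφ τ (hc_dc1 D ρA x) y = hc_b12 hφ τ x (hc_d12 L ρB y) := by
  have h := hτ (hc_ccup11 D hφ x y)
  rw [hc_cleibniz11, map_sub, sub_eq_zero] at h
  exact h

lemma hc_rel2 (x : hc_Cc2 D ρA) (y : hc_C0 L ρB) :
    hc_b30 hφ τ (hc_dc2 D ρA x) y = -hc_b21 hφ τ x (hc_d01 L ρB y) := by
  have h := hτ (hc_ccup20 D hφ x y)
  rw [hc_cleibniz20, map_add] at h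
  exact eq_neg_of_add_eq_zero_left h

lemma hc_rel0 (x : hc_C0 L ρA) (y : hc_C2 L ρB) (hy : hc_d23 L ρB y = 0) :
    hc_b12 hφ τ (hc_dc0 D ρA x) y = 0 := by
  have h := hτ (hc_cup02 L hφ x y, 0)
  rw [hc_cleibniz02 hφ x y hy] at h
  exact h

end pairings

/-! ### The trace functional attached to local invariants with reciprocity -/

section trace

/-- Over a field, a functional `χ` on `V` that kills `ker F` factors through `F : V → W`. -/
lemma hc_factor {k V W : Type*} [Field k] [AddCommGroup V] [Module k V] [AddCommGroup W]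
    [Module k W] (F : V →ₗ[k] W) (χ : V →ₗ[k] k) (h : ∀ x, F x = 0 → χ x = 0) :
    ∃ φ : W →ₗ[k] k, ∀ x, φ (F x) = χ x := by
  obtain ⟨φ, hφ⟩ := LinearMap.exists_extend
    ((F.ker.liftQ χ (fun x hx => h x hx)).comp
      (F.quotKerEquivRange.symm : F.range →ₗ[k] (V ⧸ F.ker)))
  refine ⟨φ, fun x => ?_⟩
  have h1 := congrArg (fun g => g ⟨F x, LinearMap.mem_range_self F x⟩) hφ
  simp only [LinearMap.coe_comp, Function.comp_apply, Submodule.coe_subtype,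
    LinearEquiv.coe_coe, LinearMap.quotKerEquivRange_symm_apply_image] at h1
  rw [h1]
  rfl

variable {k : Type*} [Field k] {G : Type u} [Group G] {L : hc_Lev G} (D : hc_Loc.{u, v, w} L)
  [Fintype D.V]
variable {T : Type*} [AddCommGroup T] [Module k T] (ρT : Representation k G T)

/-- Local invariants: for each `v` a functional on the local level 2-cochains which kills
coboundaries (only its values on cocycles matter), such that the sum of the invariants of the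
restrictions of a global 2-cocycle vanishes (reciprocity). -/
structure hc_Inv where
  /-- the local invariant maps -/
  inv : ∀ v : D.V, hc_C2 (D.Lv v) (ρT.comp (D.ι v)) →ₗ[k] k
  inv_d : ∀ (v : D.V) (c : hc_C1 (D.Lv v) (ρT.comp (D.ι v))),
    inv v (hc_d12 (D.Lv v) (ρT.comp (D.ι v)) c) = 0
  recip : ∀ z : hc_C2 L ρT, hc_d23 L ρT z = 0 → ∑ v, inv v (hc_res2 (D.compat v) ρT z) = 0

variable {D ρT}

/-- existence of a trace functional on `C_c^3(T)`. -/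
theorem hc_exists_trace (I : hc_Inv D ρT) : ∃ τ : hc_Cc3 D ρT →ₗ[k] k,
    ∀ (b : hc_C2 L ρT) (a : ∀ v : D.V, hc_C2 (D.Lv v) (ρT.comp (D.ι v))),
      τ (hc_d23 L ρT b, a) = ∑ v, I.inv v (a v - hc_res2 (D.compat v) ρT b) := by
  let F : (hc_C2 L ρT × (∀ v : D.V, hc_C2 (D.Lv v) (ρT.comp (D.ι v)))) →ₗ[k] hc_Cc3 D ρT :=
    LinearMap.prodMap (hc_d23 L ρT) LinearMap.id
  let χ : (hc_C2 L ρT × (∀ v : D.V, hc_C2 (D.Lv v) (ρT.comp (D.ι v)))) →ₗ[k] k :=
    ∑ v, (I.inv v).comp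
      (((LinearMap.proj v : (∀ v : D.V, hc_C2 (D.Lv v) (ρT.comp (D.ι v))) →ₗ[k] _)).comp
          (LinearMap.snd k _ _)
        - (hc_res2 (D.compat v) ρT).comp (LinearMap.fst k _ _))
  have hχ : ∀ x, χ x = ∑ v, I.inv v (x.2 v - hc_res2 (D.compat v) ρT x.1) := fun x => by
    simp only [χ, LinearMap.sum_apply, LinearMap.comp_apply, LinearMap.sub_apply,
      LinearMap.proj_apply, LinearMap.snd_apply, LinearMap.fst_apply]
  obtain ⟨τ, hτ⟩ := hc_factor F χ (fun x hx => by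
    have h1 : hc_d23 L ρT x.1 = 0 := congrArg Prod.fst hx
    have h2 : x.2 = 0 := congrArg Prod.snd hx
    rw [hχ]
    have h3 := I.recip x.1 h1
    simp only [h2, Pi.zero_apply, zero_sub, map_neg, Finset.sum_neg_distrib, h3, neg_zero])
  exact ⟨τ, fun b a => by rw [← hχ (b, a), ← hτ]; rfl⟩

/-- a trace functional on `C_c^3(T)` attached to local invariants. -/
noncomputable def hc_tr (I : hc_Inv D ρT) : hc_Cc3 D ρT →ₗ[k] k :=
  Classical.choose (hc_exists_trace I)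

lemma hc_tr_mk (I : hc_Inv D ρT) (b : hc_C2 L ρT)
    (a : ∀ v : D.V, hc_C2 (D.Lv v) (ρT.comp (D.ι v))) :
    hc_tr I (hc_d23 L ρT b, a) = ∑ v, I.inv v (a v - hc_res2 (D.compat v) ρT b) :=
  Classical.choose_spec (hc_exists_trace I) b a

/-- the trace kills cone coboundaries. -/
lemma hc_tr_dc2 (I : hc_Inv D ρT) (x : hc_Cc2 D ρT) : hc_tr I (hc_dc2 D ρT x) = 0 := by
  have h : hc_dc2 D ρT x = (hc_d23 L ρT x.1,
      fun v => hc_res2 (D.compat v) ρT x.1 - hc_d12 (D.Lv v) (ρT.comp (D.ι v)) (x.2 v)) := rfl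
  rw [h, hc_tr_mk]
  refine Finset.sum_eq_zero fun v _ => ?_
  rw [sub_sub_cancel_left, map_neg, I.inv_d, neg_zero]

/-- the trace on purely local classes is the sum of the local invariants. -/
lemma hc_tr_loc (I : hc_Inv D ρT) (a : ∀ v : D.V, hc_C2 (D.Lv v) (ρT.comp (D.ι v))) :
    hc_tr I (0, a) = ∑ v, I.inv v (a v) := by
  have h := hc_tr_mk I 0 a
  simpa only [map_zero, sub_zero] using h

end trace

end Fermat.Agent.S55
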