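import Fermat.Agent.S55.IfaceCocycles
import Fermat.Agent.S55.HcCone

/-!
# S55 interface, part 9: the local data `pt_loc S` and Prelude cocycles as cone cochains

* `pt_loc S : hc_Loc (pt_globalLev S)` : the local data of S55 (index set `↥S`, local groups
  `primeLocalGaloisGroup q`, levels `pt_localLev (primeLocalToGlobal q)`).
* `pt_toC1`, `pt_toC2`, `pt_toCc1`, `pt_toCc2` : the Prelude (cone) cocycle spaces `pt_Z1`,
  `levelCocyclesS₂`, `pt_Zc1`, `pt_Zc2` as (cone) cochains of the `hc_` complex; they land in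
  the cocycles, and every `hc_` cone cocycle is in the image (`pt_toCc1_surj`, `pt_toCc2_surj`).
-/

set_option autoImplicit false

open CategoryTheory groupCohomology ExtCitation

namespace Fermat.Agent.S55

local notation "Γ" => (AlgebraicClosure ℚ ≃ₐ[ℚ] AlgebraicClosure ℚ)

/-- The local data of S55: the local Galois groups at the primes of `S`. -/
noncomputable def pt_loc (S : Finset Nat.Primes) : hc_Loc.{0, 0, 0} (pt_globalLev S) where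
  V := ↥S
  Gv q := primeLocalGaloisGroup q.1
  Lv q := pt_localLev (primeLocalToGlobal q.1)
  ι q := primeLocalToGlobal q.1
  compat q := pt_levCompat S (primeLocalToGlobal q.1)

noncomputable section conv

variable (S : Finset Nat.Primes) {k : Type} [CommRing k]

/-- `S`-level 1-cocycles as `hc_` level 1-cochains. -/
def pt_toC1 (A : Rep k Γ) (hadm : hc_Adm (pt_globalLev S) A.ρ) :
    ↥(pt_Z1 S A) →ₗ[k] hc_C1 (pt_globalLev S) A.ρ :=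
  Submodule.inclusion fun f hf => ((pt_mem_Z1_iff S A hadm f).mp hf).1

@[simp] lemma pt_toC1_coe (A : Rep k Γ) (hadm : hc_Adm (pt_globalLev S) A.ρ)
    (a : ↥(pt_Z1 S A)) : (pt_toC1 S A hadm a : Γ → A) = (a : Γ → A) := rfl

lemma pt_toC1_injective (A : Rep k Γ) (hadm : hc_Adm (pt_globalLev S) A.ρ) :
    Function.Injective (pt_toC1 S A hadm) :=
  Submodule.inclusion_injective _

lemma pt_toC1_d12 (A : Rep k Γ) (hadm : hc_Adm (pt_globalLev S) A.ρ) (a : ↥(pt_Z1 S A)) :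
    hc_d12 (pt_globalLev S) A.ρ (pt_toC1 S A hadm a) = 0 :=
  Subtype.ext ((pt_mem_Z1_iff S A hadm a.1).mp a.2).2

/-- Every `hc_` 1-cocycle comes from `pt_Z1`. -/
lemma pt_toC1_surj (A : Rep k Γ) (hadm : hc_Adm (pt_globalLev S) A.ρ)
    (y : hc_C1 (pt_globalLev S) A.ρ) (hy : hc_d12 (pt_globalLev S) A.ρ y = 0) :
    ∃ a : ↥(pt_Z1 S A), pt_toC1 S A hadm a = y :=
  ⟨⟨y.1, (pt_mem_Z1_iff S A hadm y.1).mpr ⟨y.2, congrArg Subtype.val hy⟩⟩, rfl⟩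

/-- `S`-level 2-cocycles as `hc_` level 2-cochains. -/
def pt_toC2 (M : Rep k Γ) (hadm : hc_Adm (pt_globalLev S) M.ρ) :
    ↥(levelCocyclesS₂ S M) →ₗ[k] hc_C2 (pt_globalLev S) M.ρ :=
  Submodule.inclusion fun f hf => ((pt_mem_levelCocyclesS₂_iff S M hadm f).mp hf).1

@[simp] lemma pt_toC2_coe (M : Rep k Γ) (hadm : hc_Adm (pt_globalLev S) M.ρ)
    (a : ↥(levelCocyclesS₂ S M)) : (pt_toC2 S M hadm a : Γ × Γ → M) = (a : Γ × Γ → M) := rfl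

lemma pt_toC2_injective (M : Rep k Γ) (hadm : hc_Adm (pt_globalLev S) M.ρ) :
    Function.Injective (pt_toC2 S M hadm) :=
  Submodule.inclusion_injective _

lemma pt_toC2_d23 (M : Rep k Γ) (hadm : hc_Adm (pt_globalLev S) M.ρ)
    (a : ↥(levelCocyclesS₂ S M)) :
    hc_d23 (pt_globalLev S) M.ρ (pt_toC2 S M hadm a) = 0 :=
  Subtype.ext ((pt_mem_levelCocyclesS₂_iff S M hadm a.1).mp a.2).2

/-- Every `hc_` 2-cocycle comes from `levelCocyclesS₂`. -/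
lemma pt_toC2_surj (M : Rep k Γ) (hadm : hc_Adm (pt_globalLev S) M.ρ)
    (y : hc_C2 (pt_globalLev S) M.ρ) (hy : hc_d23 (pt_globalLev S) M.ρ y = 0) :
    ∃ a : ↥(levelCocyclesS₂ S M), pt_toC2 S M hadm a = y :=
  ⟨⟨y.1, (pt_mem_levelCocyclesS₂_iff S M hadm y.1).mpr ⟨y.2, congrArg Subtype.val hy⟩⟩, rfl⟩

/-- Cone 1-cocycles in the `hc_` cone. -/
def pt_toCc1 (A : Rep k Γ) (hadm : hc_Adm (pt_globalLev S) A.ρ) :
    ↥(pt_Zc1 S A) →ₗ[k] hc_Cc1 (pt_loc S) A.ρ where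
  toFun x := (⟨x.1.1, ((pt_mem_Zc1_iff S A hadm x.1).mp x.2).1⟩,
    fun q => ⟨x.1.2 q, by
      rw [hc_C0_eq_top (hc_adm_loc (D := pt_loc S) hadm q)]
      exact Submodule.mem_top⟩)
  map_add' _ _ := rfl
  map_smul' _ _ := rfl

@[simp] lemma pt_toCc1_fst (A : Rep k Γ) (hadm : hc_Adm (pt_globalLev S) A.ρ)
    (x : ↥(pt_Zc1 S A)) : (pt_toCc1 S A hadm x).1 = pt_toC1 S A hadm (pt_Zc1fst S A x) := rfl

lemma pt_toCc1_dc1 (A : Rep k Γ) (hadm : hc_Adm (pt_globalLev S) A.ρ) (x : ↥(pt_Zc1 S A)) :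
    hc_dc1 (pt_loc S) A.ρ (pt_toCc1 S A hadm x) = 0 := by
  obtain ⟨h1, h2, h3⟩ := (pt_mem_Zc1_iff S A hadm x.1).mp x.2
  refine Prod.ext (Subtype.ext h2) (funext fun q => Subtype.ext ?_)
  exact sub_eq_zero.mpr (h3 q)

/-- Every `hc_` cone 1-cocycle comes from `pt_Zc1`. -/
lemma pt_toCc1_surj (A : Rep k Γ) (hadm : hc_Adm (pt_globalLev S) A.ρ)
    (X : hc_Cc1 (pt_loc S) A.ρ) (hX : hc_dc1 (pt_loc S) A.ρ X = 0) :
    ∃ x : ↥(pt_Zc1 S A), pt_toCc1 S A hadm x = X := by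
  have h1 : hc_d12f A.ρ (X.1 : Γ → A) = 0 := congrArg Subtype.val (congrArg Prod.fst hX)
  have h2 : ∀ q : ↥S, (fun g : primeLocalGaloisGroup q.1 =>
      (X.1 : Γ → A) (primeLocalToGlobal q.1 g)) =
        hc_d01f (A.ρ.comp (primeLocalToGlobal q.1)) ((X.2 q).1 : A) :=
    fun q => sub_eq_zero.mp (congrArg Subtype.val (congrFun (congrArg Prod.snd hX) q))
  exact ⟨⟨((X.1 : Γ → A), fun q : ↥S => ((X.2 q).1 : A)),
    (pt_mem_Zc1_iff S A hadm _).mpr ⟨X.1.2, h1, h2⟩⟩, rfl⟩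

/-- Cone 2-cocycles in the `hc_` cone. -/
def pt_toCc2 (M : Rep k Γ) (hadm : hc_Adm (pt_globalLev S) M.ρ) :
    ↥(pt_Zc2 S M) →ₗ[k] hc_Cc2 (pt_loc S) M.ρ where
  toFun x := (⟨x.1.1, ((pt_mem_Zc2_iff S M hadm x.1).mp x.2).1⟩,
    fun q => ⟨x.1.2 q, (((pt_mem_Zc2_iff S M hadm x.1).mp x.2).2.2 q).1⟩)
  map_add' _ _ := rfl
  map_smul' _ _ := rfl

@[simp] lemma pt_toCc2_fst (M : Rep k Γ) (hadm : hc_Adm (pt_globalLev S) M.ρ)
    (x : ↥(pt_Zc2 S M)) : (pt_toCc2 S M hadm x).1 = pt_toC2 S M hadm (pt_Zc2fst S M x) := rfl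

lemma pt_toCc2_dc2 (M : Rep k Γ) (hadm : hc_Adm (pt_globalLev S) M.ρ) (x : ↥(pt_Zc2 S M)) :
    hc_dc2 (pt_loc S) M.ρ (pt_toCc2 S M hadm x) = 0 := by
  obtain ⟨h1, h2, h3⟩ := (pt_mem_Zc2_iff S M hadm x.1).mp x.2
  refine Prod.ext (Subtype.ext h2) (funext fun q => Subtype.ext ?_)
  exact sub_eq_zero.mpr (h3 q).2

/-- Every `hc_` cone 2-cocycle comes from `pt_Zc2`. -/
lemma pt_toCc2_surj (M : Rep k Γ) (hadm : hc_Adm (pt_globalLev S) M.ρ)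
    (X : hc_Cc2 (pt_loc S) M.ρ) (hX : hc_dc2 (pt_loc S) M.ρ X = 0) :
    ∃ x : ↥(pt_Zc2 S M), pt_toCc2 S M hadm x = X := by
  have h1 : hc_d23f M.ρ (X.1 : Γ × Γ → M) = 0 := congrArg Subtype.val (congrArg Prod.fst hX)
  have h2 : ∀ q : ↥S, (fun y : primeLocalGaloisGroup q.1 × primeLocalGaloisGroup q.1 =>
      (X.1 : Γ × Γ → M) (primeLocalToGlobal q.1 y.1, primeLocalToGlobal q.1 y.2)) =
        hc_d12f (M.ρ.comp (primeLocalToGlobal q.1)) ((X.2 q).1 : primeLocalGaloisGroup q.1 → M) :=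
    fun q => sub_eq_zero.mp (congrArg Subtype.val (congrFun (congrArg Prod.snd hX) q))
  exact ⟨⟨((X.1 : Γ × Γ → M), fun q : ↥S => ((X.2 q).1 : primeLocalGaloisGroup q.1 → M)),
    (pt_mem_Zc2_iff S M hadm _).mpr ⟨X.1.2, h1, fun q => ⟨(X.2 q).2, h2 q⟩⟩⟩, rfl⟩

end conv

end Fermat.Agent.S55
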