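import Fermat.Agent.S55.TrDefs
import Fermat.Agent.S55.Places2

/-!
# S55, block TR (trace), part 2: the trace functional over `ℚ`

From the arithmetic input `I : tr_LocInv p` we construct a linear functional `τ` on the cone
3-cochains `C_c^3(Γ, S; 𝔽_p(1))` which kills cone coboundaries and whose value on every
`T`-related pair `(x, t)` is `t` (`tr_exists_trace`).
-/

set_option autoImplicit false

open ExtCitation
open scoped Pointwise

namespace Fermat.Agent.S55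

local notation "Qb" => AlgebraicClosure ℚ
local notation "Γ" => (AlgebraicClosure ℚ ≃ₐ[ℚ] AlgebraicClosure ℚ)

/-! ### Composition of cochains with an equivariant additive map -/

section comp

variable {G : Type*} [Group G] {k k' : Type*} [CommRing k] [CommRing k']
  {A B : Type*} [AddCommGroup A] [Module k A] [AddCommGroup B] [Module k' B]
  {ρA : Representation k G A} {ρB : Representation k' G B} (φ : A →+ B)
  (hφ : ∀ g a, φ (ρA g a) = ρB g (φ a))

include hφ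

lemma tr_isLev1_comp {N : Subgroup G} {f : G → A} (hf : hc_IsLev1 ρA N f) :
    hc_IsLev1 ρB N (fun x => φ (f x)) :=
  ⟨fun g s hs => congrArg φ (hf.1 g s hs), fun x s hs => by
    show ρB s (φ (f x)) = φ (f x)
    rw [← hφ, hf.2 x s hs]⟩

lemma tr_isLev2_comp {N : Subgroup G} {f : G × G → A} (hf : hc_IsLev2 ρA N f) :
    hc_IsLev2 ρB N (fun x => φ (f x)) :=
  ⟨fun g h s hs t ht => congrArg φ (hf.1 g h s hs t ht), fun x s hs => by
    show ρB s (φ (f x)) = φ (f x)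
    rw [← hφ, hf.2 x s hs]⟩

lemma tr_d12f_comp (f : G → A) :
    hc_d12f ρB (fun x => φ (f x)) = fun x => φ (hc_d12f ρA f x) := by
  funext ⟨g, h⟩
  simp only [hc_d12f_apply, map_add, map_sub, hφ]

lemma tr_d23f_comp (f : G × G → A) :
    hc_d23f ρB (fun x => φ (f x)) = fun x => φ (hc_d23f ρA f x) := by
  funext ⟨g, h, j⟩
  simp only [hc_d23f_apply, map_add, map_sub, hφ]

end comp

/-! ### Local restriction preserves levels -/

section levels

theorem tr_loc2_mem_of_lev (q : Nat.Primes) {N : Subgroup Γ} {z : Γ × Γ → Additive Qbˣ}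
    (hz : hc_IsLev2 tr_rhoQ N z) :
    hc_IsLev2 (tr_rhoL q) (N.comap (primeLocalToGlobal q)) (tr_loc2 q z) := by
  refine ⟨fun g h s hs t ht => ?_, fun x s hs => ?_⟩
  · simp only [tr_loc2, map_mul]
    rw [hz.1 _ _ _ hs _ ht]
  · simp only [tr_loc2]
    rw [← tr_emb_equivariant, hz.2 _ _ hs]

theorem tr_loc1_mem_of_lev (q : Nat.Primes) {N : Subgroup Γ} {y : Γ → Additive Qbˣ}
    (hy : hc_IsLev1 tr_rhoQ N y) :
    hc_IsLev1 (tr_rhoL q) (N.comap (primeLocalToGlobal q)) (tr_loc1 q y) := by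
  refine ⟨fun g s hs => ?_, fun x s hs => ?_⟩
  · simp only [tr_loc1, map_mul]
    rw [hy.1 _ _ hs]
  · simp only [tr_loc1]
    rw [← tr_emb_equivariant, hy.2 _ _ hs]

theorem tr_loc2_mem (T : Finset Nat.Primes) (q : Nat.Primes) {z : Γ × Γ → Additive Qbˣ}
    (hz : z ∈ hc_C2 (pt_globalLev T) tr_rhoQ) :
    tr_loc2 q z ∈ hc_C2 (pt_localLev (primeLocalToGlobal q)) (tr_rhoL q) := by
  obtain ⟨N, hN, hz⟩ := hz
  exact ⟨N.comap (primeLocalToGlobal q), pt_comap_mem_pullbackLevels _ T N hN,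
    tr_loc2_mem_of_lev q hz⟩

theorem tr_loc1_mem_full (q : Nat.Primes) {y : Γ → Additive Qbˣ}
    (hy : y ∈ hc_C1 tr_fullLev tr_rhoQ) :
    tr_loc1 q y ∈ hc_C1 (pt_localLev (primeLocalToGlobal q)) (tr_rhoL q) := by
  obtain ⟨N, ⟨K, hK1, hK2, rfl⟩, hy⟩ := hy
  exact ⟨(K.fixingSubgroup.comap (MonoidHom.id Γ)).comap (primeLocalToGlobal q),
    ⟨K, hK1, hK2, rfl⟩, tr_loc1_mem_of_lev q hy⟩

theorem tr_mem_C2_mono {T T' : Finset Nat.Primes} (h : T ⊆ T') {z : Γ × Γ → Additive Qbˣ}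
    (hz : z ∈ hc_C2 (pt_globalLev T) tr_rhoQ) : z ∈ hc_C2 (pt_globalLev T') tr_rhoQ := by
  obtain ⟨N, hN, hz⟩ := hz
  exact ⟨N, pt_globalLevels_mono h hN, hz⟩

end levels

/-! ### Unramified unit-valued local cochains -/

section unram

/-- Inertial elements of the local group map into the inertia subgroup of the `q`-adic place. -/
theorem tr_inertial_mem (q : Nat.Primes) {s : primeLocalGaloisGroup q}
    (hs : tr_IsInertial q s) :
    primeLocalToGlobal q s ∈ (primeLocalPlace q).inertiaSubgroupIn ℚ := by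
  have : Fact (q : ℕ).Prime := ⟨q.2⟩
  rw [pt_mem_inertia_iff]
  refine ⟨?_, fun a ha => ?_⟩
  · exact MulAction.mem_stabilizer_iff.mp
      (localGaloisToGlobal_mem_decompositionSubgroup (q : ℕ) s)
  · show _ ∈ (padicPlace (q : ℕ)).nonunits
    rw [pl_mem_nonunits_padicPlace_iff]
    have h2 : ‖tr_embRing q a‖ ≤ 1 := by
      have h2' : ‖padicEmbedding (q : ℕ) a‖₊ ≤ 1 := (mem_padicPlace_iff (q : ℕ)).mp ha
      exact_mod_cast h2'
    have h3 := hs (tr_embRing q a) h2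
    have h1 : s • tr_embRing q a = tr_embRing q ((primeLocalToGlobal q s) a) :=
      (padicEmbedding_localGaloisToGlobal (q : ℕ) s a).symm
    rw [h1, ← map_sub] at h3
    exact h3

/-- Inertial elements lie in the pull-back of every level unramified at `q`. -/
theorem tr_inertial_mem_level (T : Finset Nat.Primes) (q : Nat.Primes) (hq : q ∉ T)
    {N : Subgroup Γ} (hN : N ∈ pt_globalLevels T) {s : primeLocalGaloisGroup q}
    (hs : tr_IsInertial q s) : primeLocalToGlobal q s ∈ N := by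
  have : Fact (q : ℕ).Prime := ⟨q.2⟩
  obtain ⟨K, hK, -, rfl⟩ := hN
  exact hK.2 q hq (primeLocalPlace q) (pl_natCast_mem_nonunits_padicPlace (q : ℕ))
    (tr_inertial_mem q hs)

theorem tr_loc2_unram (T : Finset Nat.Primes) (q : Nat.Primes) (hq : q ∉ T)
    {z : Γ × Γ → Additive Qbˣ} (hz : z ∈ hc_C2 (pt_globalLev T) tr_rhoQ)
    (hu : tr_IsUnitOutside T z) : tr_IsUnramUnit q (tr_loc2 q z) := by
  obtain ⟨N, hN, hz⟩ := hz
  have key : ∀ s, tr_IsInertial q s → primeLocalToGlobal q s ∈ N :=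
    fun s hs => tr_inertial_mem_level T q hq hN hs
  refine ⟨fun g h s t hs ht => ?_, fun x s hs => ?_, fun x => ?_⟩
  · simp only [tr_loc2, map_mul]
    rw [hz.1 _ _ _ (key s hs) _ (key t ht)]
  · simp only [tr_loc2]
    rw [← tr_emb_equivariant, hz.2 _ _ (key s hs)]
  · have h := hu q hq (primeLocalToGlobal q x.1, primeLocalToGlobal q x.2) 1
    simpa [tr_loc2, tr_emb_val] using h

theorem tr_isUnramUnit_add (q : Nat.Primes)
    {c c' : primeLocalGaloisGroup q × primeLocalGaloisGroup q → Additive (tr_Om q)ˣ}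
    (h : tr_IsUnramUnit q c) (h' : tr_IsUnramUnit q c') : tr_IsUnramUnit q (c + c') := by
  refine ⟨fun g j s t hs ht => ?_, fun x s hs => ?_, fun x => ?_⟩
  · simp only [Pi.add_apply, h.1 g j s t hs ht, h'.1 g j s t hs ht]
  · simp only [Pi.add_apply, map_add, h.2.1 x s hs, h'.2.1 x s hs]
  · simp only [Pi.add_apply, toMul_add, Units.val_mul, norm_mul, h.2.2 x, h'.2.2 x, mul_one]

theorem tr_isUnramUnit_zsmul (q : Nat.Primes) (n : ℤ)
    {c : primeLocalGaloisGroup q × primeLocalGaloisGroup q → Additive (tr_Om q)ˣ}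
    (h : tr_IsUnramUnit q c) : tr_IsUnramUnit q (n • c) := by
  refine ⟨fun g j s t hs ht => ?_, fun x s hs => ?_, fun x => ?_⟩
  · simp only [Pi.smul_apply, h.1 g j s t hs ht]
  · simp only [Pi.smul_apply, map_zsmul, h.2.1 x s hs]
  · simp only [Pi.smul_apply, toMul_zsmul, Units.val_zpow_eq_zpow_val, norm_zpow, h.2.2 x,
      one_zpow]

end unram

/-! ### The `ζ`-power maps -/

section zeta

variable (p : ℕ) [Fact p.Prime] (ζ : Qbˣ) (hζ : ζ ^ p = 1)

theorem tr_zp_p_smul (c : ZMod p) : (p : ℤ) • tr_zp p ζ hζ c = 0 := by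
  rw [← map_zsmul, zsmul_eq_mul, Int.cast_natCast, ZMod.natCast_self, zero_mul, map_zero]

theorem tr_zpL_p_smul (q : Nat.Primes) (c : ZMod p) : (p : ℤ) • tr_zpL p ζ hζ q c = 0 := by
  rw [tr_zpL_apply, ← map_zsmul, tr_zp_p_smul, map_zero]

theorem tr_zpL_equivariant (q : Nat.Primes) (τ : primeLocalGaloisGroup q) (c : ZMod p) :
    tr_zpL p ζ hζ q (((dual_rhoT (cycloChar p)).comp (primeLocalToGlobal q)) τ c)
      = tr_rhoL q τ (tr_zpL p ζ hζ q c) := by
  rw [tr_zpL_apply, tr_zpL_apply, MonoidHom.comp_apply, tr_zp_equivariant, tr_emb_equivariant]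

/-- Values of `tr_zp` are roots of unity, hence units everywhere. -/
theorem tr_zp_norm (q : Nat.Primes) (c : ZMod p) (σ : Γ) :
    ‖tr_embRing q (σ ((Additive.toMul (tr_zp p ζ hζ c) : Qbˣ) : Qb))‖ = 1 := by
  have h1 : (Additive.toMul (tr_zp p ζ hζ c) : Qbˣ) ^ p = 1 := by
    have h := tr_zp_p_smul p ζ hζ c
    rw [natCast_zsmul] at h
    have h2 := congrArg Additive.toMul h
    rwa [toMul_nsmul, toMul_zero] at h2
  have h3 : (tr_embRing q (σ ((Additive.toMul (tr_zp p ζ hζ c) : Qbˣ) : Qb))) ^ p = 1 := by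
    rw [← map_pow, ← map_pow, ← Units.val_pow_eq_pow_val, h1, Units.val_one, map_one, map_one]
  have h4 := congrArg (fun t => ‖t‖) h3
  simp only [norm_pow, norm_one] at h4
  exact (pow_eq_one_iff_of_nonneg (norm_nonneg _) (Fact.out : p.Prime).ne_zero).mp h4

end zeta

/-! ### `p`-torsion local classes and the invariants -/

section z2p

variable {p : ℕ} {q : Nat.Primes}

local notation "Lq" => pt_localLev (primeLocalToGlobal q)

theorem tr_d12f_mem {y : primeLocalGaloisGroup q → Additive (tr_Om q)ˣ}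
    (hy : y ∈ hc_C1 Lq (tr_rhoL q)) : hc_d12f (tr_rhoL q) y ∈ hc_C2 Lq (tr_rhoL q) :=
  (hc_d12 Lq (tr_rhoL q) ⟨y, hy⟩).2

theorem tr_Z2p_cob (p : ℕ) {y : primeLocalGaloisGroup q → Additive (tr_Om q)ˣ}
    (hy : y ∈ hc_C1 Lq (tr_rhoL q)) : hc_d12f (tr_rhoL q) y ∈ tr_Z2p p q :=
  ⟨tr_d12f_mem hy, hc_d23f_d12f (tr_rhoL q) y, (p : ℤ) • y, Submodule.smul_mem _ _ hy,
    (map_zsmul (hc_d12f (tr_rhoL q)) (p : ℤ) y).symm⟩

theorem tr_Z2p_zero (p : ℕ) : (0 : primeLocalGaloisGroup q × primeLocalGaloisGroup q →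
    Additive (tr_Om q)ˣ) ∈ tr_Z2p p q := by
  have h := tr_Z2p_cob (q := q) p (Submodule.zero_mem (hc_C1 Lq (tr_rhoL q)))
  rwa [map_zero] at h

theorem tr_Z2p_add {c c' : primeLocalGaloisGroup q × primeLocalGaloisGroup q →
    Additive (tr_Om q)ˣ} (h : c ∈ tr_Z2p p q) (h' : c' ∈ tr_Z2p p q) : c + c' ∈ tr_Z2p p q := by
  obtain ⟨h1, h2, y, hy, h3⟩ := h
  obtain ⟨h1', h2', y', hy', h3'⟩ := h'
  refine ⟨Submodule.add_mem _ h1 h1', by rw [map_add, h2, h2', add_zero], y + y',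
    Submodule.add_mem _ hy hy', ?_⟩
  rw [zsmul_add, h3, h3', map_add]

theorem tr_Z2p_neg {c : primeLocalGaloisGroup q × primeLocalGaloisGroup q →
    Additive (tr_Om q)ˣ} (h : c ∈ tr_Z2p p q) : -c ∈ tr_Z2p p q := by
  obtain ⟨h1, h2, y, hy, h3⟩ := h
  refine ⟨Submodule.neg_mem _ h1, by rw [map_neg, h2, neg_zero], -y,
    Submodule.neg_mem _ hy, ?_⟩
  rw [zsmul_neg, h3, map_neg]

theorem tr_Z2p_sub {c c' : primeLocalGaloisGroup q × primeLocalGaloisGroup q →
    Additive (tr_Om q)ˣ} (h : c ∈ tr_Z2p p q) (h' : c' ∈ tr_Z2p p q) : c - c' ∈ tr_Z2p p q := by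
  rw [sub_eq_add_neg]
  exact tr_Z2p_add h (tr_Z2p_neg h')

variable (I : tr_LocInv p)

theorem tr_inv_zero (q : Nat.Primes) : I.inv q 0 = 0 := by
  have h := I.inv_cob q 0 (Submodule.zero_mem _)
  rwa [map_zero] at h

theorem tr_inv_neg {c : primeLocalGaloisGroup q × primeLocalGaloisGroup q →
    Additive (tr_Om q)ˣ} (h : c ∈ tr_Z2p p q) : I.inv q (-c) = -I.inv q c := by
  have h1 := I.inv_add q c (-c) h (tr_Z2p_neg h)
  rw [add_neg_cancel, tr_inv_zero] at h1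
  exact eq_neg_of_add_eq_zero_right h1.symm

theorem tr_inv_sub {c c' : primeLocalGaloisGroup q × primeLocalGaloisGroup q →
    Additive (tr_Om q)ˣ} (h : c ∈ tr_Z2p p q) (h' : c' ∈ tr_Z2p p q) :
    I.inv q (c - c') = I.inv q c - I.inv q c' := by
  rw [sub_eq_add_neg, I.inv_add q c (-c') h (tr_Z2p_neg h'), tr_inv_neg I h', sub_eq_add_neg]

theorem tr_inv_add_cob {c : primeLocalGaloisGroup q × primeLocalGaloisGroup q →
    Additive (tr_Om q)ˣ} (h : c ∈ tr_Z2p p q)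
    {y : primeLocalGaloisGroup q → Additive (tr_Om q)ˣ} (hy : y ∈ hc_C1 Lq (tr_rhoL q)) :
    I.inv q (c + hc_d12f (tr_rhoL q) y) = I.inv q c := by
  rw [I.inv_add q _ _ h (tr_Z2p_cob p hy), I.inv_cob q y hy, add_zero]

end z2p

/-! ### Additivity of the local restriction maps -/

section locadd

variable (q : Nat.Primes)

theorem tr_loc2_add (z z' : Γ × Γ → Additive Qbˣ) :
    tr_loc2 q (z + z') = tr_loc2 q z + tr_loc2 q z' := by
  funext g
  simp only [tr_loc2, Pi.add_apply, map_add]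

theorem tr_loc2_zsmul (n : ℤ) (z : Γ × Γ → Additive Qbˣ) :
    tr_loc2 q (n • z) = n • tr_loc2 q z := by
  funext g
  simp only [tr_loc2, Pi.smul_apply, map_zsmul]

theorem tr_loc3_add (z z' : Γ × Γ × Γ → Additive Qbˣ) :
    tr_loc3 q (z + z') = tr_loc3 q z + tr_loc3 q z' := by
  funext g
  simp only [tr_loc3, Pi.add_apply, map_add]

theorem tr_loc3_zsmul (n : ℤ) (z : Γ × Γ × Γ → Additive Qbˣ) :
    tr_loc3 q (n • z) = n • tr_loc3 q z := by
  funext g
  simp only [tr_loc3, Pi.smul_apply, map_zsmul]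

end locadd

/-! ### The local classes of a witness are `p`-torsion classes -/

section classes

variable (p : ℕ) [Fact p.Prime] (ζ : Qbˣ) (hζ : ζ ^ p = 1)

local notation "ρT" => dual_rhoT (cycloChar p)

theorem tr_zpL_comp_mem (q : Nat.Primes)
    {b : primeLocalGaloisGroup q × primeLocalGaloisGroup q → ZMod p}
    (hb : b ∈ hc_C2 (pt_localLev (primeLocalToGlobal q)) (MonoidHom.comp ρT (primeLocalToGlobal q))) :
    (fun g => tr_zpL p ζ hζ q (b g)) ∈
      hc_C2 (pt_localLev (primeLocalToGlobal q)) (tr_rhoL q) := by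
  obtain ⟨N, hN, hb'⟩ := hb
  exact ⟨N, hN, tr_isLev2_comp (tr_zpL p ζ hζ q) (tr_zpL_equivariant p ζ hζ q) hb'⟩

theorem tr_beta_mem (T : Finset Nat.Primes) (q : Nat.Primes) (a : Γ × Γ × Γ → ZMod p)
    {b : primeLocalGaloisGroup q × primeLocalGaloisGroup q → ZMod p}
    (hb : b ∈ hc_C2 (pt_localLev (primeLocalToGlobal q)) (MonoidHom.comp ρT (primeLocalToGlobal q)))
    (hab : hc_d23f (MonoidHom.comp ρT (primeLocalToGlobal q)) b = fun g =>
      a (primeLocalToGlobal q g.1, primeLocalToGlobal q g.2.1, primeLocalToGlobal q g.2.2))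
    {z : Γ × Γ → Additive Qbˣ} (hz : z ∈ hc_C2 (pt_globalLev T) tr_rhoQ)
    {y : Γ → Additive Qbˣ} (hy : y ∈ hc_C1 tr_fullLev tr_rhoQ)
    (h1 : ∀ g : Γ × Γ × Γ, tr_zp p ζ hζ (a g) = hc_d23f tr_rhoQ z g)
    (h2 : (p : ℤ) • z = hc_d12f tr_rhoQ y) :
    tr_beta p ζ hζ q b z ∈ tr_Z2p p q := by
  refine ⟨Submodule.sub_mem _ (tr_zpL_comp_mem p ζ hζ q hb) (tr_loc2_mem T q hz), ?_,
    -tr_loc1 q y, Submodule.neg_mem _ (tr_loc1_mem_full q hy), ?_⟩
  · rw [tr_beta, map_sub, tr_d23f_comp (tr_zpL p ζ hζ q) (tr_zpL_equivariant p ζ hζ q) b, hab,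
      ← tr_loc3_d23f, sub_eq_zero]
    funext g
    simp only [tr_zpL_apply, tr_loc3, h1]
  · rw [tr_beta, zsmul_sub, ← tr_loc2_zsmul, h2, tr_loc2_d12f, map_neg]
    have h0 : (p : ℤ) • (fun g => tr_zpL p ζ hζ q (b g)) = 0 := by
      funext g
      simp only [Pi.smul_apply, tr_zpL_p_smul, Pi.zero_apply]
    rw [h0, zero_sub]

theorem tr_gamma_mem (I : tr_LocInv p) (T : Finset Nat.Primes) (q : Nat.Primes)
    (a : Γ × Γ × Γ → ZMod p)
    {e : primeLocalGaloisGroup q × primeLocalGaloisGroup q → Additive (tr_Om q)ˣ}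
    (he : e ∈ hc_C2 (pt_localLev (primeLocalToGlobal q)) (tr_rhoL q))
    (hu : tr_IsUnramUnit q e)
    (hd : hc_d23f (tr_rhoL q) e = tr_loc3 q (fun g => tr_zp p ζ hζ (a g)))
    {z : Γ × Γ → Additive Qbˣ} (hz : z ∈ hc_C2 (pt_globalLev T) tr_rhoQ)
    {y : Γ → Additive Qbˣ} (hy : y ∈ hc_C1 tr_fullLev tr_rhoQ)
    (h1 : ∀ g : Γ × Γ × Γ, tr_zp p ζ hζ (a g) = hc_d23f tr_rhoQ z g)
    (h2 : (p : ℤ) • z = hc_d12f tr_rhoQ y) :
    e - tr_loc2 q z ∈ tr_Z2p p q := by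
  have hfun : (fun g => tr_zp p ζ hζ (a g)) = hc_d23f tr_rhoQ z := funext h1
  have hpe : hc_d23f (tr_rhoL q) ((p : ℤ) • e) = 0 := by
    rw [map_zsmul, hd, ← tr_loc3_zsmul]
    funext g
    simp only [tr_loc3, Pi.smul_apply, tr_zp_p_smul, map_zero, Pi.zero_apply]
  obtain ⟨y', hy', hy'e⟩ := I.unram q ((p : ℤ) • e) (Submodule.smul_mem _ _ he) hpe
    (tr_isUnramUnit_zsmul q (p : ℤ) hu)
  refine ⟨Submodule.sub_mem _ he (tr_loc2_mem T q hz), ?_,
    y' - tr_loc1 q y, Submodule.sub_mem _ hy' (tr_loc1_mem_full q hy), ?_⟩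
  · rw [map_sub, hd, hfun, tr_loc3_d23f, sub_self]
  · rw [zsmul_sub, ← tr_loc2_zsmul, h2, tr_loc2_d12f, map_sub, hy'e]

end classes

/-! ### The relation `tr_Rel` is additive, monotone in `T`, and single-valued -/

section rel

variable (p : ℕ) [Fact p.Prime] (S : Finset Nat.Primes) (ζ : Qbˣ) (hζ : ζ ^ p = 1)
  (I : tr_LocInv p)

local notation "ρT" => dual_rhoT (cycloChar p)

/-- The cone condition `res_q a = d b_q` in function form. -/
theorem tr_cone_cond {x : hc_Cc3 (tr_cone S) ρT} (q : (tr_cone S).V)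
    (h : hc_res3 ((tr_cone S).compat q) ρT x.1 =
      hc_d23 ((tr_cone S).Lv q) (MonoidHom.comp ρT ((tr_cone S).ι q)) (x.2 q)) :
    hc_d23f (MonoidHom.comp ρT (primeLocalToGlobal q.1)) (x.2 q).1 = fun g =>
      x.1.1 (primeLocalToGlobal q.1 g.1, primeLocalToGlobal q.1 g.2.1,
        primeLocalToGlobal q.1 g.2.2) :=
  (congrArg Subtype.val h).symm

theorem tr_rel_beta_mem {T : Finset Nat.Primes} {x : hc_Cc3 (tr_cone S) ρT}
    (hc : ∀ q : (tr_cone S).V, hc_res3 ((tr_cone S).compat q) ρT x.1 =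
      hc_d23 ((tr_cone S).Lv q) (MonoidHom.comp ρT ((tr_cone S).ι q)) (x.2 q))
    {z : Γ × Γ → Additive Qbˣ} (hz : z ∈ hc_C2 (pt_globalLev T) tr_rhoQ)
    {y : Γ → Additive Qbˣ} (hy : y ∈ hc_C1 tr_fullLev tr_rhoQ)
    (h1 : ∀ g : Γ × Γ × Γ, tr_zp p ζ hζ (x.1.1 g) = hc_d23f tr_rhoQ z g)
    (h2 : (p : ℤ) • z = hc_d12f tr_rhoQ y) (q : (tr_cone S).V) :
    tr_beta p ζ hζ q.1 (x.2 q).1 z ∈ tr_Z2p p q.1 :=
  tr_beta_mem p ζ hζ T q.1 x.1.1 (x.2 q).2 (tr_cone_cond p S q (hc q)) hz hy h1 h2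

theorem tr_beta_add (q : Nat.Primes)
    (b b' : primeLocalGaloisGroup q × primeLocalGaloisGroup q → ZMod p)
    (z z' : Γ × Γ → Additive Qbˣ) :
    tr_beta p ζ hζ q (b + b') (z + z') = tr_beta p ζ hζ q b z + tr_beta p ζ hζ q b' z' := by
  funext g
  simp only [tr_beta, tr_loc2_add, Pi.sub_apply, Pi.add_apply, map_add]
  abel

theorem tr_beta_cob (q : Nat.Primes)
    (a : primeLocalGaloisGroup q × primeLocalGaloisGroup q → ZMod p)
    (cq : primeLocalGaloisGroup q → ZMod p) (z : Γ × Γ → Additive Qbˣ)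
    (hz : ∀ g, tr_loc2 q z g = tr_zpL p ζ hζ q (a g)) :
    tr_beta p ζ hζ q (a - hc_d12f (MonoidHom.comp ρT (primeLocalToGlobal q)) cq) z
      = hc_d12f (tr_rhoL q) (fun g => -tr_zpL p ζ hζ q (cq g)) := by
  have e2 := tr_d12f_comp (tr_zpL p ζ hζ q) (tr_zpL_equivariant p ζ hζ q) cq
  have e3 : (fun g => -tr_zpL p ζ hζ q (cq g)) = -(fun g => tr_zpL p ζ hζ q (cq g)) := rfl
  rw [e3, map_neg, e2]
  funext g
  simp only [tr_beta, Pi.sub_apply, Pi.neg_apply, map_sub, hz g]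
  abel

/-- Additivity of the relation (same `T`). -/
theorem tr_Rel_add {T : Finset Nat.Primes} {x x' : hc_Cc3 (tr_cone S) ρT} {t t' : ZMod p}
    (h : tr_Rel p S ζ hζ I T x t) (h' : tr_Rel p S ζ hζ I T x' t') :
    tr_Rel p S ζ hζ I T (x + x') (t + t') := by
  obtain ⟨hST, hc, z, y, e, hz, hy, hu, h1, h2, he, ht⟩ := h
  obtain ⟨-, hc', z', y', e', hz', hy', hu', h1', h2', he', ht'⟩ := h'
  have h1s : ∀ g : Γ × Γ × Γ, tr_zp p ζ hζ ((x + x').1.1 g) = hc_d23f tr_rhoQ (z + z') g := by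
    intro g
    have : (x + x').1.1 g = x.1.1 g + x'.1.1 g := rfl
    rw [this, map_add, h1 g, h1' g, map_add]
    rfl
  have h2s : (p : ℤ) • (z + z') = hc_d12f tr_rhoQ (y + y') := by
    rw [zsmul_add, h2, h2', map_add]
  have hcs : ∀ q : (tr_cone S).V, hc_res3 ((tr_cone S).compat q) ρT (x + x').1 =
      hc_d23 ((tr_cone S).Lv q) (MonoidHom.comp ρT ((tr_cone S).ι q)) ((x + x').2 q) := by
    intro q
    rw [Prod.fst_add, Prod.snd_add, Pi.add_apply, map_add, map_add, hc q, hc' q]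
  refine ⟨hST, hcs, z + z', y + y', fun q => e q + e' q, Submodule.add_mem _ hz hz',
    Submodule.add_mem _ hy hy', ?_, h1s, h2s, ?_, ?_⟩
  · intro q hq g σ
    have h3 := hu q hq g σ
    have h4 := hu' q hq g σ
    rw [Pi.add_apply, toMul_add, Units.val_mul, map_mul, map_mul, norm_mul, h3, h4, mul_one]
  · intro q hqT hqS
    obtain ⟨a1, a2, a3⟩ := he q hqT hqS
    obtain ⟨b1, b2, b3⟩ := he' q hqT hqS
    refine ⟨Submodule.add_mem _ a1 b1, tr_isUnramUnit_add q a2 b2, ?_⟩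
    rw [map_add, a3, b3, ← tr_loc3_add]
    congr 1
    funext g
    have : (x + x').1.1 g = x.1.1 g + x'.1.1 g := rfl
    rw [this, map_add]
    rfl
  · rw [ht, ht']
    have hb1 : ∀ q : (tr_cone S).V, I.inv q.1 (tr_beta p ζ hζ q.1 ((x + x').2 q).1 (z + z'))
        = I.inv q.1 (tr_beta p ζ hζ q.1 (x.2 q).1 z)
          + I.inv q.1 (tr_beta p ζ hζ q.1 (x'.2 q).1 z') := by
      intro q
      have e1 : tr_beta p ζ hζ q.1 ((x + x').2 q).1 (z + z')
          = tr_beta p ζ hζ q.1 (x.2 q).1 z + tr_beta p ζ hζ q.1 (x'.2 q).1 z' :=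
        tr_beta_add p ζ hζ q.1 (x.2 q).1 (x'.2 q).1 z z'
      exact (congrArg (I.inv q.1) e1).trans
        (I.inv_add q.1 _ _ (tr_rel_beta_mem p S ζ hζ hc hz hy h1 h2 q)
          (tr_rel_beta_mem p S ζ hζ hc' hz' hy' h1' h2' q))
    have hb2 : ∀ q ∈ T \ S, I.inv q (e q + e' q - tr_loc2 q (z + z'))
        = I.inv q (e q - tr_loc2 q z) + I.inv q (e' q - tr_loc2 q z') := by
      intro q hq
      obtain ⟨hqT, hqS⟩ := Finset.mem_sdiff.mp hq
      obtain ⟨a1, a2, a3⟩ := he q hqT hqS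
      obtain ⟨b1, b2, b3⟩ := he' q hqT hqS
      have : e q + e' q - tr_loc2 q (z + z')
          = (e q - tr_loc2 q z) + (e' q - tr_loc2 q z') := by
        rw [tr_loc2_add]; abel
      rw [this]
      exact I.inv_add q _ _ (tr_gamma_mem p ζ hζ I T q x.1.1 a1 a2 a3 hz hy h1 h2)
        (tr_gamma_mem p ζ hζ I T q x'.1.1 b1 b2 b3 hz' hy' h1' h2')
    rw [Finset.sum_congr rfl (fun q _ => hb1 q), Finset.sum_congr rfl hb2,
      Finset.sum_add_distrib, Finset.sum_add_distrib]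
    abel

/-- Monotonicity of the relation in `T`: for the new primes take `e_q := res_q z`. -/
theorem tr_Rel_mono {T T' : Finset Nat.Primes} (hTT' : T ⊆ T')
    {x : hc_Cc3 (tr_cone S) ρT} {t : ZMod p} (h : tr_Rel p S ζ hζ I T x t) :
    tr_Rel p S ζ hζ I T' x t := by
  classical
  obtain ⟨hST, hc, z, y, e, hz, hy, hu, h1, h2, he, ht⟩ := h
  have hfun : (fun g => tr_zp p ζ hζ (x.1.1 g)) = hc_d23f tr_rhoQ z := funext h1
  refine ⟨hST.trans hTT', hc, z, y, fun q => if q ∈ T then e q else tr_loc2 q z,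
    tr_mem_C2_mono hTT' hz, hy, fun q hq => hu q (fun h => hq (hTT' h)), h1, h2, ?_, ?_⟩
  · intro q hqT' hqS
    by_cases hqT : q ∈ T
    · simp only [if_pos hqT]
      exact he q hqT hqS
    · simp only [if_neg hqT]
      exact ⟨tr_loc2_mem T q hz, tr_loc2_unram T q hqT hz hu, by rw [hfun, tr_loc3_d23f]⟩
  · rw [ht]
    congr 1
    have hsub : T \ S ⊆ T' \ S := Finset.sdiff_subset_sdiff hTT' (Finset.Subset.refl S)
    refine (Finset.sum_congr rfl ?_).trans (Finset.sum_subset hsub ?_)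
    · intro q hq
      simp only [if_pos (Finset.mem_sdiff.mp hq).1]
    · intro q hq hq'
      have hqT : q ∉ T := fun h => hq' (Finset.mem_sdiff.mpr ⟨h, (Finset.mem_sdiff.mp hq).2⟩)
      simp only [if_neg hqT, sub_self]
      exact tr_inv_zero I q

/-- The relation is single-valued at `0`: this is where reciprocity over `ℚ` and the triviality
of unramified unit classes are used. -/
theorem tr_Rel_zero_eq {T : Finset Nat.Primes} {t : ZMod p}
    (h : tr_Rel p S ζ hζ I T 0 t) : t = 0 := by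
  obtain ⟨hST, hc, z, y, e, hz, hy, hu, h1, h2, he, ht⟩ := h
  have hdz : hc_d23f tr_rhoQ z = 0 := by
    funext g
    rw [← h1 g]
    exact map_zero _
  have hloc3 : ∀ q : Nat.Primes, tr_loc3 q (0 : Γ × Γ × Γ → Additive Qbˣ) = 0 := by
    intro q
    funext g
    simp only [tr_loc3, Pi.zero_apply, map_zero]
  have hloc : ∀ q : Nat.Primes, tr_loc2 q z ∈ tr_Z2p p q := fun q =>
    ⟨tr_loc2_mem T q hz, by rw [← tr_loc3_d23f, hdz, hloc3], tr_loc1 q y,
      tr_loc1_mem_full q hy, by rw [← tr_loc2_zsmul, h2, tr_loc2_d12f]⟩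
  have hrec := I.recip T z hz hdz ⟨y, hy, h2⟩ hu
  have hA : ∀ q : (tr_cone S).V,
      I.inv q.1 (tr_beta p ζ hζ q.1 ((0 : hc_Cc3 (tr_cone S) ρT).2 q).1 z)
        = -I.inv q.1 (tr_loc2 q.1 z) := by
    intro q
    have e1 : tr_beta p ζ hζ q.1 ((0 : hc_Cc3 (tr_cone S) ρT).2 q).1 z = -tr_loc2 q.1 z := by
      funext g
      have : ((0 : hc_Cc3 (tr_cone S) ρT).2 q).1 g = 0 := rfl
      simp only [tr_beta, Pi.sub_apply, this, map_zero, zero_sub, Pi.neg_apply]
    exact (congrArg (I.inv q.1) e1).trans (tr_inv_neg I (hloc q.1))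
  have hB : ∀ q ∈ T \ S, I.inv q (e q - tr_loc2 q z) = -I.inv q (tr_loc2 q z) := by
    intro q hq
    obtain ⟨hqT, hqS⟩ := Finset.mem_sdiff.mp hq
    obtain ⟨a1, a2, a3⟩ := he q hqT hqS
    have hde : hc_d23f (tr_rhoL q) (e q) = 0 := by
      rw [a3]
      funext g
      have : (0 : hc_Cc3 (tr_cone S) ρT).1.1 = 0 := rfl
      simp only [tr_loc3, this, Pi.zero_apply, map_zero]
    obtain ⟨y', hy', hy'e⟩ := I.unram q (e q) a1 hde a2
    rw [hy'e, sub_eq_add_neg, add_comm, tr_inv_add_cob I (tr_Z2p_neg (hloc q)) hy',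
      tr_inv_neg I (hloc q)]
  have h3 : ∑ q : (tr_cone S).V, I.inv q.1 (tr_loc2 q.1 z) = ∑ q ∈ S, I.inv q (tr_loc2 q z) :=
    Finset.sum_coe_sort S (fun q => I.inv q (tr_loc2 q z))
  rw [ht, Finset.sum_congr rfl (fun q _ => hA q), Finset.sum_congr rfl hB,
    Finset.sum_neg_distrib, Finset.sum_neg_distrib, ← neg_add, neg_eq_zero, h3, add_comm,
    Finset.sum_sdiff hST]
  exact hrec

/-- Cone coboundaries are `S`-related to `0`. -/
theorem tr_Rel_dc2 (c : hc_Cc2 (tr_cone S) ρT) :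
    tr_Rel p S ζ hζ I S (hc_dc2 (tr_cone S) ρT c) 0 := by
  have hZ := hc_dc2_mem_Zc3 (D := tr_cone S) (ρ := ρT) c
  obtain ⟨N, hN, hcN⟩ := c.1.2
  refine ⟨Finset.Subset.refl S, fun q => (hc_mem_Zc3.mp hZ).2 q,
    fun g => tr_zp p ζ hζ (c.1.1 g), 0, fun _ => 0,
    ⟨N, hN, tr_isLev2_comp (tr_zp p ζ hζ) (tr_zp_equivariant p ζ hζ) hcN⟩,
    Submodule.zero_mem _, fun q _ g σ => tr_zp_norm p ζ hζ q (c.1.1 g) σ, ?_, ?_, ?_, ?_⟩
  · intro g
    exact (congrFun (tr_d23f_comp (tr_zp p ζ hζ) (tr_zp_equivariant p ζ hζ) c.1.1) g).symm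
  · rw [map_zero]
    funext g
    simp only [Pi.smul_apply, tr_zp_p_smul, Pi.zero_apply]
  · intro q hq hq'
    exact absurd hq hq'
  · rw [Finset.sdiff_self, Finset.sum_empty, add_zero]
    symm
    refine Finset.sum_eq_zero (fun q _ => ?_)
    have hlev : (fun g => -tr_zpL p ζ hζ q.1 ((c.2 q).1 g)) ∈
        hc_C1 (pt_localLev (primeLocalToGlobal q.1)) (tr_rhoL q.1) := by
      obtain ⟨N', hN', hc'⟩ := (c.2 q).2
      exact Submodule.neg_mem _ ⟨N', hN',
        tr_isLev1_comp (tr_zpL p ζ hζ q.1) (tr_zpL_equivariant p ζ hζ q.1) hc'⟩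
    exact (congrArg (I.inv q.1) (tr_beta_cob p ζ hζ q.1
      (fun g : primeLocalGaloisGroup q.1 × primeLocalGaloisGroup q.1 =>
        c.1.1 (primeLocalToGlobal q.1 g.1, primeLocalToGlobal q.1 g.2)) (c.2 q).1
      (fun g => tr_zp p ζ hζ (c.1.1 g)) (fun g => rfl))).trans (I.inv_cob q.1 _ hlev)

/-- Purely local cone 3-cocycles `(0, (b_q))` are `S`-related to the sum of the local
invariants of `ζ^{b_q}`. -/
theorem tr_Rel_local
    (b : ∀ q : (tr_cone S).V,
      hc_C2 ((tr_cone S).Lv q) (MonoidHom.comp ρT ((tr_cone S).ι q)))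
    (hb : ∀ q, hc_d23 ((tr_cone S).Lv q) (MonoidHom.comp ρT ((tr_cone S).ι q)) (b q) = 0) :
    tr_Rel p S ζ hζ I S ((0, b) : hc_Cc3 (tr_cone S) ρT)
      (∑ q : (tr_cone S).V, I.inv q.1 (fun g => tr_zpL p ζ hζ q.1 ((b q).1 g))) := by
  refine ⟨Finset.Subset.refl S, fun q => ?_, 0, 0, fun _ => 0, Submodule.zero_mem _,
    Submodule.zero_mem _, ?_, ?_, ?_, ?_, ?_⟩
  · rw [map_zero]
    exact (hb q).symm
  · intro q _ g σ
    simp only [Pi.zero_apply, toMul_zero, Units.val_one, map_one, norm_one]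
  · intro g
    have : ((0, b) : hc_Cc3 (tr_cone S) ρT).1.1 g = 0 := rfl
    rw [this, map_zero, map_zero]
    rfl
  · rw [smul_zero, map_zero]
  · intro q hq hq'
    exact absurd hq hq'
  · rw [Finset.sdiff_self, Finset.sum_empty, add_zero]
    refine Finset.sum_congr rfl (fun q _ => ?_)
    have e1 : tr_beta p ζ hζ q.1 (b q).1 0 = fun g => tr_zpL p ζ hζ q.1 ((b q).1 g) := by
      funext g
      simp only [tr_beta, tr_loc2, Pi.sub_apply, Pi.zero_apply, map_zero, sub_zero]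
    exact (congrArg (I.inv q.1) e1).symm

/-- **The trace over `ℚ`.** There is a linear functional on the cone 3-cochains
`C_c^3(Γ, S; 𝔽_p(1))` which kills cone coboundaries and takes the value `t` on every
`T`-related pair `(x, t)`. -/
theorem tr_exists_trace :
    ∃ τ : hc_Cc3 (tr_cone S) ρT →ₗ[ZMod p] ZMod p,
      (∀ c, τ (hc_dc2 (tr_cone S) ρT c) = 0) ∧
      ∀ (T : Finset Nat.Primes) (x : hc_Cc3 (tr_cone S) ρT) (t : ZMod p),
        tr_Rel p S ζ hζ I T x t → τ x = t := by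
  classical
  have : NeZero p := ⟨(Fact.out : p.Prime).ne_zero⟩
  let R : AddSubmonoid (hc_Cc3 (tr_cone S) ρT × ZMod p) :=
    { carrier := {v | ∃ T, tr_Rel p S ζ hζ I T v.1 v.2}
      zero_mem' := ⟨S, by
        have h := tr_Rel_dc2 p S ζ hζ I 0
        rwa [map_zero] at h⟩
      add_mem' := by
        rintro v w ⟨T, hT⟩ ⟨T', hT'⟩
        exact ⟨T ∪ T', tr_Rel_add p S ζ hζ I
          (tr_Rel_mono p S ζ hζ I Finset.subset_union_left hT)
          (tr_Rel_mono p S ζ hζ I Finset.subset_union_right hT')⟩ }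
  let g : Submodule (ZMod p) (hc_Cc3 (tr_cone S) ρT × ZMod p) :=
    { R with
      smul_mem' := by
        intro c v hv
        have h1 : c • v = c.val • v := by
          rw [← Nat.cast_smul_eq_nsmul (ZMod p), ZMod.natCast_zmod_val]
        rw [h1]
        exact R.nsmul_mem hv _ }
  have hg : ∀ v ∈ g, v.1 = 0 → v.2 = 0 := by
    rintro ⟨x, t⟩ ⟨T, hT⟩ hx
    have hx' : x = 0 := hx
    subst hx'
    exact tr_Rel_zero_eq p S ζ hζ I hT
  obtain ⟨τ, hτ⟩ := LinearMap.exists_extend g.toLinearPMap.toFun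
  have key : ∀ (T : Finset Nat.Primes) (x : hc_Cc3 (tr_cone S) ρT) (t : ZMod p),
      tr_Rel p S ζ hζ I T x t → τ x = t := by
    intro T x t h
    have hmem : (x, t) ∈ g.toLinearPMap.graph := by
      rw [Submodule.toLinearPMap_graph_eq g hg]
      exact ⟨T, h⟩
    obtain ⟨y, hy1, hy2⟩ := (LinearPMap.mem_graph_iff _).mp hmem
    have h2 := congrArg (fun f => f y) hτ
    simp only [LinearMap.coe_comp, Function.comp_apply, Submodule.coe_subtype] at h2
    have hy1' : (y : hc_Cc3 (tr_cone S) ρT) = x := hy1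
    rw [← hy1']
    exact h2.trans hy2
  exact ⟨τ, fun c => key S _ 0 (tr_Rel_dc2 p S ζ hζ I c), key⟩

end rel

end Fermat.Agent.S55
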