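import Fermat.Agent.S55.Trace
import Fermat.Agent.S55.TrGamma
import Fermat.Agent.S55.IfaceLoc

/-!
# S55, block TR (trace), part 3: the trace of S55 from the arithmetic input `tri_Arith p`

Instance of helper14's abstract trace (`Trace.lean`: `tr_Out`, `tr_Inv`, `tr_tau`) for the
Prelude data:

* `L = pt_globalLev S`, `Linf = tr_fullLev` (all finite Galois levels), `D = pt_loc S`;
* outside places: the primes `q ∉ S`, local groups `primeLocalGaloisGroup q`, inertia
  `tri_I q` (the preimage of the inertia subgroup of the `q`-adic place of `Qbar`).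

The arithmetic input is the `S`-independent structure `tri_Arith p`: local invariants `inv q`
on `μ_p`-valued local level 2-cochains at ALL primes `q`, killing coboundaries, vanishing on
unramified cocycles for `q ≠ p`, and satisfying the reciprocity law over `ℚ` for `μ_p`-valued
finite-level 2-cocycles.  Together with `hfin` (every finite extension of `ℚ` is unramified
outside a finite set of primes) it gives `tri_inv S hpS A hfin : tr_Inv (pt_loc S) …` and the
trace `tri_tau` with `tri_tau_dc2`, `tri_tau_loc`, `tri_tau_eval`.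
-/

set_option autoImplicit false

open ExtCitation groupCohomology

namespace Fermat.Agent.S55

local notation "Qb" => AlgebraicClosure ℚ
local notation "Γ" => (AlgebraicClosure ℚ ≃ₐ[ℚ] AlgebraicClosure ℚ)

/-- The inertia subgroup of the local Galois group at `q`: the preimage of the inertia subgroup
of the `q`-adic place of `Qbar`. -/
noncomputable def tri_I (q : Nat.Primes) : Subgroup (primeLocalGaloisGroup q) :=
  ((primeLocalPlace q).inertiaSubgroupIn ℚ).comap (primeLocalToGlobal q)

/-- Every `S`-level is a finite level. -/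
theorem tri_hL (S : Finset Nat.Primes) :
    ∀ N ∈ (pt_globalLev S).S, ∃ N' ∈ tr_fullLev.S, N' ≤ N := by
  intro N hN
  obtain ⟨K, hK, hKg, rfl⟩ := hN
  exact ⟨K.fixingSubgroup, ⟨K, hK.1, hKg, rfl⟩, le_rfl⟩

/-- The local level structures are compatible with the structure of all finite levels. -/
theorem tri_compat {H : Type} [Group H] (r : H →* Γ) :
    hc_LevCompat (pt_localLev r) tr_fullLev r := by
  intro N hN
  obtain ⟨K, hK, hKg, rfl⟩ := hN
  exact ⟨K.fixingSubgroup.comap r, ⟨K, hK, hKg, rfl⟩, le_rfl⟩

/-- The index set of `pt_loc S` is finite. -/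
noncomputable instance tri_fintype (S : Finset Nat.Primes) : Fintype (pt_loc S).V :=
  inferInstanceAs (Fintype ↥S)

/-- The inertia group at `q` lies in the pull-back of every level unramified at `q`. -/
theorem tri_I_le (T : Finset Nat.Primes) (q : Nat.Primes) (hq : q ∉ T)
    (K : IntermediateField ℚ Qb) (hK : K.IsUnramifiedOutside T) :
    tri_I q ≤ K.fixingSubgroup.comap (primeLocalToGlobal q) := by
  have : Fact (q : ℕ).Prime := ⟨q.2⟩
  intro s hs
  exact hK.2 q hq (primeLocalPlace q) (pl_natCast_mem_nonunits_padicPlace (q : ℕ)) hs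

/-- The outside data of S55: the local Galois groups at the primes outside `S`. -/
noncomputable def tri_out (S : Finset Nat.Primes) :
    tr_Out.{0, 0, 0} (pt_globalLev S) tr_fullLev where
  W := {q : Nat.Primes // q ∉ S}
  H q := primeLocalGaloisGroup q.1
  LW q := pt_localLev (primeLocalToGlobal q.1)
  ι q := primeLocalToGlobal q.1
  compat q := tri_compat (primeLocalToGlobal q.1)
  I q := tri_I q.1
  unr q N hN := by
    obtain ⟨K, hK, -, rfl⟩ := hN
    exact tri_I_le S q.1 q.2 K hK

/-- **The arithmetic input of the trace** (independent of `S`): local invariants on `μ_p`-valued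
local level 2-cochains at all primes `q`, which kill coboundaries, vanish on unramified
cocycles for `q ≠ p`, and satisfy the reciprocity law over `ℚ` for `μ_p`-valued finite-level
2-cocycles of `Γ`. -/
structure tri_Arith (p : ℕ) [Fact p.Prime] where
  /-- the local invariant at `q` -/
  inv : ∀ q : Nat.Primes, hc_C2 (pt_localLev (primeLocalToGlobal q))
    ((dual_rhoT (cycloChar p)).comp (primeLocalToGlobal q)) →ₗ[ZMod p] ZMod p
  inv_d : ∀ (q : Nat.Primes) (c : hc_C1 (pt_localLev (primeLocalToGlobal q))
      ((dual_rhoT (cycloChar p)).comp (primeLocalToGlobal q))),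
    inv q (hc_d12 (pt_localLev (primeLocalToGlobal q))
      ((dual_rhoT (cycloChar p)).comp (primeLocalToGlobal q)) c) = 0
  unr0 : ∀ q : Nat.Primes, (q : ℕ) ≠ p → ∀ e : hc_C2 (pt_localLev (primeLocalToGlobal q))
      ((dual_rhoT (cycloChar p)).comp (primeLocalToGlobal q)),
    hc_IsLev2 ((dual_rhoT (cycloChar p)).comp (primeLocalToGlobal q)) (tri_I q)
      (e : primeLocalGaloisGroup q × primeLocalGaloisGroup q → ZMod p) →
    hc_d23 (pt_localLev (primeLocalToGlobal q))
      ((dual_rhoT (cycloChar p)).comp (primeLocalToGlobal q)) e = 0 → inv q e = 0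
  recip : ∀ z : hc_C2 tr_fullLev (dual_rhoT (cycloChar p)),
    hc_d23 tr_fullLev (dual_rhoT (cycloChar p)) z = 0 →
    ∑ᶠ q : Nat.Primes, inv q (hc_res2 (tri_compat (primeLocalToGlobal q))
      (dual_rhoT (cycloChar p)) z) = 0

/-- Splitting a finite sum over a type along a finite set. -/
theorem tri_finsum_split {α M : Type*} [AddCommMonoid M] (S : Finset α) (f : α → M)
    (hf : (Function.support f).Finite) :
    ∑ᶠ q, f q = ∑ q ∈ S, f q + ∑ᶠ w : {q // q ∉ S}, f w.1 := by
  classical
  rw [finsum_subtype_eq_finsum_cond (f := f) (p := fun q => q ∉ S), ← finsum_mem_coe_finset,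
    ← finsum_mem_univ]
  have h : (Set.univ : Set α) = (S : Set α) ∪ {q | q ∉ S} := by
    ext q
    simp [em]
  rw [h]
  exact finsum_mem_union' (Set.disjoint_left.mpr fun a ha ha' => ha' ha)
    (S.finite_toSet.inter_of_left _) (hf.inter_of_right _)

section inst

variable {p : ℕ} [Fact p.Prime]

local notation "ρT" => dual_rhoT (cycloChar p)

/-- A finite-level 2-cochain restricted to the local group at a prime `q` at which its level is
unramified is an inertia-level cochain. -/
theorem tri_res_unram (z : hc_C2 tr_fullLev ρT) (T : Finset Nat.Primes)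
    (K : IntermediateField ℚ Qb) (hK : K.IsUnramifiedOutside T)
    (hz : hc_IsLev2 ρT K.fixingSubgroup (z : Γ × Γ → ZMod p)) (q : Nat.Primes) (hq : q ∉ T) :
    hc_IsLev2 ((ρT).comp (primeLocalToGlobal q)) (tri_I q)
      (hc_res2 (tri_compat (primeLocalToGlobal q)) ρT z :
        primeLocalGaloisGroup q × primeLocalGaloisGroup q → ZMod p) :=
  hc_isLev2_res ρT (tri_I_le T q hq K hK) hz

/-- Every finite-level 2-cochain is of the level of a finite Galois extension unramified outside
a finite set of primes. -/
theorem tri_exists_level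
    (hfin : ∀ F : IntermediateField ℚ Qb, FiniteDimensional ℚ F →
      ∃ T : Finset Nat.Primes, F.IsUnramifiedOutside T)
    (z : hc_C2 tr_fullLev ρT) :
    ∃ (T : Finset Nat.Primes) (K : IntermediateField ℚ Qb), K.IsUnramifiedOutside T ∧
      hc_IsLev2 ρT K.fixingSubgroup (z : Γ × Γ → ZMod p) := by
  obtain ⟨N, hN, hz⟩ := z.2
  obtain ⟨K, hK, -, rfl⟩ := hN
  obtain ⟨T, hT⟩ := hfin K hK
  refine ⟨T, K, hT, ?_⟩
  simpa [Subgroup.comap_id] using hz

/-- The local invariants of a finite-level 2-cocycle vanish at almost all primes. -/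
theorem tri_support_finite (A : tri_Arith p)
    (hfin : ∀ F : IntermediateField ℚ Qb, FiniteDimensional ℚ F →
      ∃ T : Finset Nat.Primes, F.IsUnramifiedOutside T)
    (z : hc_C2 tr_fullLev ρT) (hz : hc_d23 tr_fullLev ρT z = 0) :
    (Function.support fun q : Nat.Primes =>
      A.inv q (hc_res2 (tri_compat (primeLocalToGlobal q)) ρT z)).Finite := by
  classical
  obtain ⟨T, K, hK, hlev⟩ := tri_exists_level hfin z
  refine ((insert (pPrime p) T).finite_toSet).subset ?_
  intro q hq
  by_contra hqT
  rw [Finset.mem_coe, Finset.mem_insert, not_or] at hqT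
  refine hq (A.unr0 q ?_ _ (tri_res_unram z T K hK hlev q hqT.2) ?_)
  · intro h
    exact hqT.1 (Subtype.ext h)
  · rw [← hc_res3_d23, hz, map_zero]

/-- **The local invariants of S55** as an instance of the abstract trace input `tr_Inv`. -/
noncomputable def tri_inv (S : Finset Nat.Primes) (hpS : pPrime p ∈ S) (A : tri_Arith p)
    (hfin : ∀ F : IntermediateField ℚ Qb, FiniteDimensional ℚ F →
      ∃ T : Finset Nat.Primes, F.IsUnramifiedOutside T) :
    tr_Inv (pt_loc S) (fun v => tri_compat (primeLocalToGlobal v.1)) (tri_out S) ρT where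
  inv v := A.inv v.1
  inv_d v c := A.inv_d v.1 c
  invW w := A.inv w.1
  unr0 w e he hde := by
    refine A.unr0 w.1 ?_ e he hde
    intro h
    exact w.2 ((Subtype.ext h : w.1 = pPrime p) ▸ hpS)
  fin z := by
    classical
    obtain ⟨T, K, hK, hlev⟩ := tri_exists_level hfin z
    have hinj : Function.Injective (fun w : {q : Nat.Primes // q ∉ S} => w.1) :=
      Subtype.val_injective
    refine Set.Finite.subset (Set.Finite.preimage hinj.injOn T.finite_toSet) ?_
    intro w hw
    by_contra hwT
    exact hw (tri_res_unram z T K hK hlev w.1 hwT)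
  recip z hz := by
    have h := A.recip z hz
    rw [tri_finsum_split S _ (tri_support_finite A hfin z hz)] at h
    rw [← h]
    congr 1
    exact Finset.sum_coe_sort S
      (fun q => A.inv q (hc_res2 (tri_compat (primeLocalToGlobal q)) ρT z))

variable (S : Finset Nat.Primes) (hpS : pPrime p ∈ S) (A : tri_Arith p)
  (hfin : ∀ F : IntermediateField ℚ Qb, FiniteDimensional ℚ F →
    ∃ T : Finset Nat.Primes, F.IsUnramifiedOutside T)

/-- **The trace of S55**: a linear functional on the cone 3-cochains `C_c³(Γ, S; 𝔽_p(1))`. -/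
noncomputable def tri_tau : hc_Cc3 (pt_loc S) ρT →ₗ[ZMod p] ZMod p :=
  tr_tau (tri_hL S) (tri_inv S hpS A hfin)

/-- The trace kills cone coboundaries. -/
theorem tri_tau_dc2 (x : hc_Cc2 (pt_loc S) ρT) :
    tri_tau S hpS A hfin (hc_dc2 (pt_loc S) ρT x) = 0 :=
  tr_tau_dc2 (tri_hL S) (tri_inv S hpS A hfin) x

/-- The local invariants of `tri_inv` at the places of `S` are those of `A`. -/
theorem tri_inv_inv (q : ↥S) :
    (tri_inv S hpS A hfin).inv q = A.inv q.1 := rfl

/-- The local invariants of `tri_inv` at the places outside `S` are those of `A`. -/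
theorem tri_inv_invW (w : {q : Nat.Primes // q ∉ S}) :
    (tri_inv S hpS A hfin).invW w = A.inv w.1 := rfl

/-- The trace on purely local cone cochains is the sum of the local invariants. -/
theorem tri_tau_loc (a : ∀ v : (pt_loc S).V, hc_C2 ((pt_loc S).Lv v)
    ((ρT).comp ((pt_loc S).ι v))) :
    tri_tau S hpS A hfin (0, a) = ∑ v, (tri_inv S hpS A hfin).inv v (a v) :=
  tr_tau_loc (tri_hL S) (tri_inv S hpS A hfin) a

/-- The invariants at the outside places kill coboundaries as well. -/
theorem tri_invW_d (w : (tri_out S).W) (c : hc_C1 ((tri_out S).LW w)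
    ((ρT).comp ((tri_out S).ι w))) :
    (tri_inv S hpS A hfin).invW w (hc_d12 ((tri_out S).LW w) ((ρT).comp ((tri_out S).ι w)) c)
      = 0 :=
  A.inv_d w.1 c

theorem tri_tau_def :
    tri_tau S hpS A hfin = tr_tau (tri_hL S) (tri_inv S hpS A hfin) := rfl

end inst

end Fermat.Agent.S55
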