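import Fermat.Agent.S55.EvAsm
import Fermat.Agent.S55.EvFormal
import Fermat.Agent.S55.EvOut
import Fermat.Agent.S55.BaseInst
import Fermat.Agent.S55.TrInst

/-!
# S55 block [G4a] (EV): the hc-form at the `U`-level

`ev_hG4a` : the input `hG4a` of `bi_inputs` (BaseInst.lean) for `U = k.fixingSubgroup`, the
outside data `ev_outU (tri_out S) U ΔO`, and any family of outside functionals `invW` satisfying
the tame formula `ev_LC6` (= `[LC6]` + `[LC3]` at the outside places of `U`), modulo the local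
inputs `ev_EV1`, `ev_EV2`.
-/

set_option autoImplicit false
set_option linter.unusedSectionVars false

namespace Fermat.Agent.S55

open ExtCitation IsDedekindDomain NumberField
open scoped Pointwise

local notation "Qb" => AlgebraicClosure ℚ
local notation "Γ" => (AlgebraicClosure ℚ ≃ₐ[ℚ] AlgebraicClosure ℚ)

attribute [local instance] pt_qbar_isAlgebraic pt_qbar_isAlgClosure pt_qbar_isGalois

/-- the inertia subgroup is normal in the local Galois group. -/
theorem ev_tri_I_normal (q : Nat.Primes) : (tri_I q).Normal := by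
  have : Fact (q : ℕ).Prime := ⟨q.2⟩
  refine ⟨fun x hx h => ?_⟩
  have h1 : primeLocalToGlobal q x ∈ (primeLocalPlace q).inertiaSubgroupIn ℚ := hx
  have h2 := pt_inertia_conj (primeLocalPlace q) (primeLocalToGlobal q h) _ h1
  have hd : primeLocalToGlobal q h • primeLocalPlace q = primeLocalPlace q :=
    localGaloisToGlobal_mem_decompositionSubgroup (q : ℕ) h
  rw [hd] at h2
  show primeLocalToGlobal q (h * x * h⁻¹) ∈ (primeLocalPlace q).inertiaSubgroupIn ℚ
  rw [map_mul, map_mul, map_inv]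
  exact h2

section mk

variable {p : ℕ} [Fact p.Prime] (k : IntermediateField ℚ Qb)

/-- a finite-level function on `Γ` as a level 1-cochain of `U = k.fixingSubgroup`. -/
def ev_mk1 (f : Γ → ZMod p) (hf : ∃ F : IntermediateField ℚ Qb, FiniteDimensional ℚ F ∧
    IsGalois ℚ F ∧ ∀ σ n : Γ, n ∈ F.fixingSubgroup → f (σ * n) = f σ) :
    hc_C1 (shapLevSub tr_fullLev k.fixingSubgroup)
      (Representation.trivial (ZMod p) ↥k.fixingSubgroup (ZMod p)) :=
  ⟨fun σ => f σ, by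
    obtain ⟨F, hF, hFg, h⟩ := hf
    exact ⟨F.fixingSubgroup.subgroupOf _, ⟨F.fixingSubgroup, ⟨F, hF, hFg, rfl⟩, rfl⟩,
      fun g s hs => h g s hs, fun x s _ => rfl⟩⟩

@[simp] theorem ev_mk1_coe (f : Γ → ZMod p) (hf : ∃ F : IntermediateField ℚ Qb,
    FiniteDimensional ℚ F ∧ IsGalois ℚ F ∧ ∀ σ n : Γ, n ∈ F.fixingSubgroup → f (σ * n) = f σ)
    (σ : ↥k.fixingSubgroup) : (ev_mk1 k f hf : ↥k.fixingSubgroup → ZMod p) σ = f σ := rfl

end mk

section places

variable (k : IntermediateField ℚ Qb) [NumberField k]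

/-- two rational primes below the same prime of `k` are equal. -/
theorem ev_prime_unique (v : HeightOneSpectrum (𝓞 k)) {q l : ℕ} (hq : q.Prime) (hl : l.Prime)
    (hqv : (q : 𝓞 k) ∈ v.asIdeal) (hlv : (l : 𝓞 k) ∈ v.asIdeal) : q = l := by
  by_contra hne
  have hcop : IsCoprime (q : ℤ) (l : ℤ) :=
    Nat.isCoprime_iff_coprime.mpr ((Nat.coprime_primes hq hl).mpr hne)
  obtain ⟨x, y, hxy⟩ := hcop
  have h1 : (1 : 𝓞 k) ∈ v.asIdeal := by
    have h5 : (1 : 𝓞 k) = (x : 𝓞 k) * (q : 𝓞 k) + (y : 𝓞 k) * (l : 𝓞 k) := by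
      have := congrArg (Int.cast : ℤ → 𝓞 k) hxy
      push_cast at this
      exact this.symm
    rw [h5]
    exact add_mem (Ideal.mul_mem_left _ _ hqv) (Ideal.mul_mem_left _ _ hlv)
  exact v.isPrime.ne_top ((Ideal.eq_top_iff_one _).mpr h1)

variable (l : ℕ) [Fact l.Prime] {W : Type*}
  (D : ShlDec (localGaloisToGlobal l) k.fixingSubgroup W)

/-- the place of the double coset of `g`. -/
theorem ev_place_w (g : Γ) : pl_place l k (D.g (D.w g)) = pl_place l k g := by
  rw [eq_comm, pl_place_eq_iff]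
  exact ⟨D.uu g, (D.uu g).2, D.hh g, D.dec g⟩

/-- distinct double cosets give distinct places. -/
theorem ev_place_inj {a b : W} (h : pl_place l k (D.g a) = pl_place l k (D.g b)) : a = b := by
  rw [pl_place_eq_iff] at h
  obtain ⟨u, hu, τ, h⟩ := h
  have h1 : D.w (D.g a) = D.w (D.g b) := by
    rw [h, D.w_right, D.w_left ⟨u, hu⟩]
  rwa [D.w_g, D.w_g] at h1

end places

section incl

variable {k : Type} [Field k] {G : Type} [Group G] {L Linf : hc_Lev G}
  (hL : ∀ N ∈ L.S, ∃ N' ∈ Linf.S, N' ≤ N) {M : Type*} [AddCommGroup M] [Module k M]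
  (ρ : Representation k G M)

/-- the inclusion of level cochains preserves cocycles. -/
theorem ev_incl1_cocycle (y : hc_C1 L ρ) (hy : hc_d12 L ρ y = 0) :
    hc_d12 Linf ρ (bi_incl1 hL ρ y) = 0 := by
  apply Subtype.ext
  have h := congrArg Subtype.val hy
  exact h

end incl

section main

variable (p : ℕ) [Fact p.Prime] (S : Finset Nat.Primes) (k : IntermediateField ℚ Qb)
  [NumberField k] {WO : (tri_out S).W → Type}
  (ΔO : ∀ w, ShlDec ((tri_out S).ι w) k.fixingSubgroup (WO w))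

/-- **[LC6']**: the tame formula at the outside places of `U = k.fixingSubgroup`: the cup
product of a ramified character with a nonzero unramified character has nonzero invariant. -/
def ev_LC6 (hU : k.fixingSubgroup ≤ (cycloChar p).ker)
    (invW : ∀ w : (ev_outU (tri_out S) k.fixingSubgroup ΔO).W,
      hc_C2 ((ev_outU (tri_out S) k.fixingSubgroup ΔO).LW w)
        ((idual_rhoN (cycloChar p) k.fixingSubgroup).comp
          ((ev_outU (tri_out S) k.fixingSubgroup ΔO).ι w)) →ₗ[ZMod p] ZMod p) : Prop :=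
  ∀ (w : (ev_outU (tri_out S) k.fixingSubgroup ΔO).W)
    (ψ χ0 : hc_C1 ((ev_outU (tri_out S) k.fixingSubgroup ΔO).LW w)
      ((Representation.trivial (ZMod p) ↥k.fixingSubgroup (ZMod p)).comp
        ((ev_outU (tri_out S) k.fixingSubgroup ΔO).ι w))),
    hc_d12 _ _ ψ = 0 → hc_d12 _ _ χ0 = 0 →
    (∃ s ∈ (ev_outU (tri_out S) k.fixingSubgroup ΔO).I w,
      (ψ : (ev_outU (tri_out S) k.fixingSubgroup ΔO).H w → ZMod p) s ≠ 0) →
    (∀ s ∈ (ev_outU (tri_out S) k.fixingSubgroup ΔO).I w,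
      (χ0 : (ev_outU (tri_out S) k.fixingSubgroup ΔO).H w → ZMod p) s = 0) →
    χ0 ≠ 0 →
    invW w (hc_cup11 ((ev_outU (tri_out S) k.fixingSubgroup ΔO).LW w)
      (ev_hφ_comp (pt_hφ_triv (cycloChar p) k.fixingSubgroup hU)
        ((ev_outU (tri_out S) k.fixingSubgroup ΔO).ι w)) ψ χ0) ≠ 0

/-- **[G4a], core**: the cochains `β`, `ψ` and the place `w0` at the `U`-level. -/
theorem ev_core (hpS : pPrime p ∈ S) (hk : k.IsUnramifiedOutside S)
    {ζ : Qb} (hζ : IsPrimitiveRoot ζ p) (hζk : ζ ∈ k)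
    (hEV1 : ev_EV1 p k) (hEV2 : ev_EV2 p k)
    (y : hc_C1 (shapLevSub (pt_globalLev S) k.fixingSubgroup)
      (Representation.trivial (ZMod p) ↥k.fixingSubgroup (ZMod p)))
    (hy : hc_d12 (shapLevSub (pt_globalLev S) k.fixingSubgroup)
      (Representation.trivial (ZMod p) ↥k.fixingSubgroup (ZMod p)) y = 0)
    (hy0 : y ≠ 0) :
    ∃ (β' ψ' : hc_C1 (shapLevSub tr_fullLev k.fixingSubgroup)
          (Representation.trivial (ZMod p) ↥k.fixingSubgroup (ZMod p)))
      (w0 : (ev_outU (tri_out S) k.fixingSubgroup ΔO).W),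
      hc_d12f (Representation.trivial (ZMod p) ↥k.fixingSubgroup (ZMod p))
          (β' : ↥k.fixingSubgroup → ZMod p) ∈
        hc_C2 (shapLevSub (pt_globalLev S) k.fixingSubgroup)
          (Representation.trivial (ZMod p) ↥k.fixingSubgroup (ZMod p)) ∧
      hc_d12 (shapLevSub tr_fullLev k.fixingSubgroup)
        (Representation.trivial (ZMod p) ↥k.fixingSubgroup (ZMod p)) ψ' = 0 ∧
      (∀ w, w ≠ w0 → hc_IsLev1
        ((Representation.trivial (ZMod p) ↥k.fixingSubgroup (ZMod p)).comp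
          ((ev_outU (tri_out S) k.fixingSubgroup ΔO).ι w))
        ((ev_outU (tri_out S) k.fixingSubgroup ΔO).I w)
        (hc_res1 ((ev_outU (tri_out S) k.fixingSubgroup ΔO).compat w)
          (Representation.trivial (ZMod p) ↥k.fixingSubgroup (ZMod p)) β' :
          (ev_outU (tri_out S) k.fixingSubgroup ΔO).H w → ZMod p)) ∧
      hc_IsLev1
        ((Representation.trivial (ZMod p) ↥k.fixingSubgroup (ZMod p)).comp
          ((ev_outU (tri_out S) k.fixingSubgroup ΔO).ι w0))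
        ((ev_outU (tri_out S) k.fixingSubgroup ΔO).I w0)
        (hc_res1 ((ev_outU (tri_out S) k.fixingSubgroup ΔO).compat w0)
          (Representation.trivial (ZMod p) ↥k.fixingSubgroup (ZMod p)) (β' + ψ') :
          (ev_outU (tri_out S) k.fixingSubgroup ΔO).H w0 → ZMod p) ∧
      (∃ s ∈ (ev_outU (tri_out S) k.fixingSubgroup ΔO).I w0,
        (ψ' : ↥k.fixingSubgroup → ZMod p)
          ((ev_outU (tri_out S) k.fixingSubgroup ΔO).ι w0 s) ≠ 0) ∧
      ∃ s : (ev_outU (tri_out S) k.fixingSubgroup ΔO).H w0,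
        (y : ↥k.fixingSubgroup → ZMod p)
          ((ev_outU (tri_out S) k.fixingSubgroup ΔO).ι w0 s) ≠ 0 := by
  classical
  -- `y` as a homomorphism
  have hymul : ∀ σ τ : ↥k.fixingSubgroup, (y : ↥k.fixingSubgroup → ZMod p) (σ * τ)
      = (y : ↥k.fixingSubgroup → ZMod p) σ + (y : ↥k.fixingSubgroup → ZMod p) τ := by
    intro σ τ
    have h1 := congrFun (congrArg Subtype.val hy) (σ, τ)
    simp only [hc_d12_coe, hc_d12f_apply, Representation.trivial_apply,
      ZeroMemClass.coe_zero, Pi.zero_apply] at h1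
    linear_combination -h1
  have hylev : ∃ F : IntermediateField ℚ Qb, FiniteDimensional ℚ F ∧
      ∀ σ n : ↥k.fixingSubgroup, (n : Γ) ∈ F.fixingSubgroup →
        (y : ↥k.fixingSubgroup → ZMod p) (σ * n) = (y : ↥k.fixingSubgroup → ZMod p) σ := by
    obtain ⟨N, ⟨N₀, ⟨K, hK, -, rfl⟩, rfl⟩, h⟩ := y.2
    exact ⟨K, hK.1, fun σ n hn => h.1 σ n hn⟩
  have hyne : ∃ σ, (y : ↥k.fixingSubgroup → ZMod p) σ ≠ 0 := by
    by_contra hcon
    exact hy0 (Subtype.ext (funext fun σ => not_not.mp fun h => hcon ⟨σ, h⟩))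
  obtain ⟨d⟩ := ev_exists_data_hom p S k hpS hk hζ hζk hEV1 hEV2
    (y : ↥k.fixingSubgroup → ZMod p) hymul hylev hyne
  -- the cochains `β`, `ψ`
  have hfinβ : ∃ F : IntermediateField ℚ Qb, FiniteDimensional ℚ F ∧ IsGalois ℚ F ∧
      ∀ σ n : Γ, n ∈ F.fixingSubgroup → d.β (σ * n) = d.β σ := by
    obtain ⟨F, hF, hFg, h⟩ := d.fin
    exact ⟨F, hF, hFg, fun σ n hn => (h σ n hn).1⟩
  have hfinψ : ∃ F : IntermediateField ℚ Qb, FiniteDimensional ℚ F ∧ IsGalois ℚ F ∧
      ∀ σ n : Γ, n ∈ F.fixingSubgroup → d.ψ (σ * n) = d.ψ σ := by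
    obtain ⟨F, hF, hFg, h⟩ := d.fin
    exact ⟨F, hF, hFg, fun σ n hn => (h σ n hn).2⟩
  obtain ⟨β', hβ'⟩ : ∃ β' : hc_C1 (shapLevSub tr_fullLev k.fixingSubgroup)
      (Representation.trivial (ZMod p) ↥k.fixingSubgroup (ZMod p)),
      ∀ σ : ↥k.fixingSubgroup, (β' : ↥k.fixingSubgroup → ZMod p) σ = d.β σ :=
    ⟨ev_mk1 k d.β hfinβ, fun _ => rfl⟩
  obtain ⟨ψ', hψ'⟩ : ∃ ψ' : hc_C1 (shapLevSub tr_fullLev k.fixingSubgroup)
      (Representation.trivial (ZMod p) ↥k.fixingSubgroup (ZMod p)),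
      ∀ σ : ↥k.fixingSubgroup, (ψ' : ↥k.fixingSubgroup → ZMod p) σ = d.ψ σ :=
    ⟨ev_mk1 k d.ψ hfinψ, fun _ => rfl⟩
  have hdβ : hc_d12f (Representation.trivial (ZMod p) ↥k.fixingSubgroup (ZMod p))
      (β' : ↥k.fixingSubgroup → ZMod p) ∈
      hc_C2 (shapLevSub (pt_globalLev S) k.fixingSubgroup)
        (Representation.trivial (ZMod p) ↥k.fixingSubgroup (ZMod p)) := by
    obtain ⟨K, hK, hKg, hkK, h⟩ := d.dβ
    refine ⟨K.fixingSubgroup.subgroupOf _, ⟨K.fixingSubgroup, ⟨K, hK, hKg, rfl⟩, rfl⟩,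
      fun g g' s hs t ht => ?_, fun x s _ => rfl⟩
    simp only [hc_d12f_apply, Representation.trivial_apply, hβ']
    exact h g g' s t g.2 g'.2 hs ht
  have hdψ : hc_d12 (shapLevSub tr_fullLev k.fixingSubgroup)
      (Representation.trivial (ZMod p) ↥k.fixingSubgroup (ZMod p)) ψ' = 0 := by
    apply Subtype.ext
    funext ⟨g, g'⟩
    simp only [hc_d12_coe, hc_d12f_apply, Representation.trivial_apply,
      ZeroMemClass.coe_zero, Pi.zero_apply]
    have h := d.ψ_mul g g' g.2 g'.2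
    rw [hψ', hψ', hψ']
    show d.ψ g' - d.ψ (g * g') + d.ψ g = 0
    rw [h]
    ring
  -- the place `w0`
  obtain ⟨l, hl, g0, hg0⟩ := ev_exists_place k d.v
  have hlF : Fact l.Prime := ⟨hl⟩
  have hlS : (⟨l, hl⟩ : Nat.Primes) ∉ S := d.notMem p S k l g0 hg0
  have hlv : ((l : ℕ) : 𝓞 ↥k) ∈ d.v.asIdeal := by rw [← hg0]; exact pl_natCast_mem_place l k g0
  obtain ⟨q0, hq0⟩ : ∃ q0 : (tri_out S).W, ((q0.1 : Nat.Primes) : ℕ) = l :=
    ⟨⟨⟨l, hl⟩, hlS⟩, rfl⟩
  subst hq0
  have hq0F : Fact ((q0.1 : Nat.Primes) : ℕ).Prime := ⟨q0.1.2⟩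
  obtain ⟨a0, ha0⟩ : ∃ a0 : WO q0, a0 = (ΔO q0).w g0 := ⟨_, rfl⟩
  have hplace0 : pl_place ((q0.1 : Nat.Primes) : ℕ) k ((ΔO q0).g a0) = d.v := by
    rw [← hg0, ha0]
    exact ev_place_w k ((q0.1 : Nat.Primes) : ℕ) (ΔO q0) g0
  have hunr : ∀ (g : Γ) (x : primeLocalGaloisGroup q0.1),
      primeLocalToGlobal q0.1 x ∈ (primeLocalPlace q0.1).inertiaSubgroupIn ℚ →
        g * primeLocalToGlobal q0.1 x * g⁻¹ ∈ k.fixingSubgroup := fun g x hx =>
    hk.2 q0.1 q0.2 (g • primeLocalPlace q0.1)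
      (pl_natCast_mem_nonunits_smul ((q0.1 : Nat.Primes) : ℕ) g)
      (pt_inertia_conj (primeLocalPlace q0.1) g _ hx)
  refine ⟨β', ψ', ⟨q0, a0⟩, hdβ, hdψ, ?_, ?_, ?_, ?_⟩
  · rintro ⟨w, a⟩ hw
    have hwF : Fact ((w.1 : Nat.Primes) : ℕ).Prime := ⟨w.1.2⟩
    have hne : pl_place ((w.1 : Nat.Primes) : ℕ) k ((ΔO w).g a) ≠ d.v := by
      intro heq
      apply hw
      have hqv : ((((w.1 : Nat.Primes) : ℕ) : ℕ) : 𝓞 ↥k) ∈ d.v.asIdeal := by
        rw [← heq]; exact pl_natCast_mem_place ((w.1 : Nat.Primes) : ℕ) k _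
      have hql : ((w.1 : Nat.Primes) : ℕ) = ((q0.1 : Nat.Primes) : ℕ) :=
        ev_prime_unique k d.v w.1.2 q0.1.2 hqv hlv
      obtain rfl : w = q0 := Subtype.ext (Subtype.ext hql)
      have ha : a = a0 := ev_place_inj k ((w.1 : Nat.Primes) : ℕ) (ΔO w)
        (heq.trans hplace0.symm)
      rw [ha]
    refine ⟨fun x s hs => ?_, fun x s _ => rfl⟩
    simp only [hc_res1_coe]
    rw [map_mul, hβ', hβ']
    exact d.β_unr' p S k ((w.1 : Nat.Primes) : ℕ) w.2 ((ΔO w).g a) hne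
      s.1 hs _
  · refine ⟨fun x s hs => ?_, fun x s _ => rfl⟩
    simp only [hc_res1_coe]
    rw [map_mul]
    simp only [Submodule.coe_add, Pi.add_apply, hβ', hψ']
    exact d.βψ_unr' p S k ((q0.1 : Nat.Primes) : ℕ) q0.2 ((ΔO q0).g a0) hplace0
      s.1 hs _
      ((ev_outU (tri_out S) k.fixingSubgroup ΔO).ι ⟨q0, a0⟩ x).2
  · obtain ⟨x, hx1, hx2⟩ := d.ψ_ram ((q0.1 : Nat.Primes) : ℕ) ((ΔO q0).g a0) hplace0
    refine ⟨⟨x, hunr _ x hx1⟩, hx1, ?_⟩
    rw [hψ']
    exact hx2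
  · obtain ⟨x, hx1, hx2⟩ := d.χ_ne ((q0.1 : Nat.Primes) : ℕ) ((ΔO q0).g a0) hplace0
    exact ⟨⟨x, hx1⟩, hx2⟩

set_option maxHeartbeats 1600000 in
/-- **[G4a] at the `U`-level** (the input `hG4a` of `bi_inputs`). -/
theorem ev_hG4a (hpS : pPrime p ∈ S) (hk : k.IsUnramifiedOutside S)
    {ζ : Qb} (hζ : IsPrimitiveRoot ζ p) (hζk : ζ ∈ k)
    (hEV1 : ev_EV1 p k) (hEV2 : ev_EV2 p k)
    (hU : k.fixingSubgroup ≤ (cycloChar p).ker)
    (hL : ∀ N ∈ (shapLevSub (pt_globalLev S) k.fixingSubgroup).S,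
      ∃ N' ∈ (shapLevSub tr_fullLev k.fixingSubgroup).S, N' ≤ N)
    (invW : ∀ w : (ev_outU (tri_out S) k.fixingSubgroup ΔO).W,
      hc_C2 ((ev_outU (tri_out S) k.fixingSubgroup ΔO).LW w)
        ((idual_rhoN (cycloChar p) k.fixingSubgroup).comp
          ((ev_outU (tri_out S) k.fixingSubgroup ΔO).ι w)) →ₗ[ZMod p] ZMod p)
    (hLC6 : ev_LC6 p S k ΔO hU invW)
    (y : hc_C1 (shapLevSub (pt_globalLev S) k.fixingSubgroup)
      (Representation.trivial (ZMod p) ↥k.fixingSubgroup (ZMod p)))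
    (hy : hc_d12 (shapLevSub (pt_globalLev S) k.fixingSubgroup)
      (Representation.trivial (ZMod p) ↥k.fixingSubgroup (ZMod p)) y = 0)
    (hy0 : y ≠ 0) :
    ∃ (β : hc_C1 (shapLevSub tr_fullLev k.fixingSubgroup)
          (Representation.trivial (ZMod p) ↥k.fixingSubgroup (ZMod p)))
      (_ : hc_d12f (Representation.trivial (ZMod p) ↥k.fixingSubgroup (ZMod p))
          (β : ↥k.fixingSubgroup → ZMod p) ∈
        hc_C2 (shapLevSub (pt_globalLev S) k.fixingSubgroup)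
          (Representation.trivial (ZMod p) ↥k.fixingSubgroup (ZMod p)))
      (e : ∀ w : (ev_outU (tri_out S) k.fixingSubgroup ΔO).W,
        hc_C2 ((ev_outU (tri_out S) k.fixingSubgroup ΔO).LW w)
          ((idual_rhoN (cycloChar p) k.fixingSubgroup).comp
            ((ev_outU (tri_out S) k.fixingSubgroup ΔO).ι w)))
      (w0 : (ev_outU (tri_out S) k.fixingSubgroup ΔO).W),
      (∀ w, hc_IsLev2 ((idual_rhoN (cycloChar p) k.fixingSubgroup).comp
            ((ev_outU (tri_out S) k.fixingSubgroup ΔO).ι w))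
            ((ev_outU (tri_out S) k.fixingSubgroup ΔO).I w)
            (e w : (ev_outU (tri_out S) k.fixingSubgroup ΔO).H w ×
              (ev_outU (tri_out S) k.fixingSubgroup ΔO).H w → ZMod p) ∧
          hc_d23 ((ev_outU (tri_out S) k.fixingSubgroup ΔO).LW w)
            ((idual_rhoN (cycloChar p) k.fixingSubgroup).comp
              ((ev_outU (tri_out S) k.fixingSubgroup ΔO).ι w)) (e w)
            = hc_res3 ((ev_outU (tri_out S) k.fixingSubgroup ΔO).compat w)
              (idual_rhoN (cycloChar p) k.fixingSubgroup)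
              (hc_d23 (shapLevSub tr_fullLev k.fixingSubgroup)
                (idual_rhoN (cycloChar p) k.fixingSubgroup)
                (hc_cup11 (shapLevSub tr_fullLev k.fixingSubgroup)
                  (pt_hφ_triv (cycloChar p) k.fixingSubgroup hU) β
                  (bi_incl1 hL (Representation.trivial (ZMod p) ↥k.fixingSubgroup (ZMod p))
                    y)))) ∧
      (∀ w, w ≠ w0 → e w = hc_res2 ((ev_outU (tri_out S) k.fixingSubgroup ΔO).compat w)
          (idual_rhoN (cycloChar p) k.fixingSubgroup)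
          (hc_cup11 (shapLevSub tr_fullLev k.fixingSubgroup)
            (pt_hφ_triv (cycloChar p) k.fixingSubgroup hU) β
            (bi_incl1 hL (Representation.trivial (ZMod p) ↥k.fixingSubgroup (ZMod p)) y))) ∧
      invW w0 (e w0 - hc_res2 ((ev_outU (tri_out S) k.fixingSubgroup ΔO).compat w0)
          (idual_rhoN (cycloChar p) k.fixingSubgroup)
          (hc_cup11 (shapLevSub tr_fullLev k.fixingSubgroup)
            (pt_hφ_triv (cycloChar p) k.fixingSubgroup hU) β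
            (bi_incl1 hL (Representation.trivial (ZMod p) ↥k.fixingSubgroup (ZMod p)) y)))
        ≠ 0 := by
  classical
  obtain ⟨β', ψ', w0, hdβ, hdψ, hβ, hβψ, hram, hne⟩ :=
    ev_core p S k ΔO hpS hk hζ hζk hEV1 hEV2 y hy hy0
  have hdy := ev_incl1_cocycle hL
    (Representation.trivial (ZMod p) ↥k.fixingSubgroup (ZMod p)) y hy
  have hI : ∀ w, ((ev_outU (tri_out S) k.fixingSubgroup ΔO).I w).Normal :=
    ev_outU_I_normal (tri_out S) k.fixingSubgroup ΔO (fun w => ev_tri_I_normal w.1)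
  have hyI : ∀ w, hc_IsLev1
      ((Representation.trivial (ZMod p) ↥k.fixingSubgroup (ZMod p)).comp
        ((ev_outU (tri_out S) k.fixingSubgroup ΔO).ι w))
      ((ev_outU (tri_out S) k.fixingSubgroup ΔO).I w)
      (hc_res1 ((ev_outU (tri_out S) k.fixingSubgroup ΔO).compat w)
        (Representation.trivial (ZMod p) ↥k.fixingSubgroup (ZMod p))
        (bi_incl1 hL (Representation.trivial (ZMod p) ↥k.fixingSubgroup (ZMod p)) y) :
        (ev_outU (tri_out S) k.fixingSubgroup ΔO).H w → ZMod p) := fun w =>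
    ev_isLev1_res_of_le ((ev_outU (tri_out S) k.fixingSubgroup ΔO).I w)
      ((ev_outU (tri_out S) k.fixingSubgroup ΔO).unr w) y
  obtain ⟨e, he1, he2, he3⟩ := ev_formal (ev_outU (tri_out S) k.fixingSubgroup ΔO)
    (pt_hφ_triv (cycloChar p) k.fixingSubgroup hU) β' ψ'
    (bi_incl1 hL (Representation.trivial (ZMod p) ↥k.fixingSubgroup (ZMod p)) y)
    hdψ hdy w0 hI hβ hβψ hyI
  refine ⟨β', hdβ, e, w0, he1, he2, ?_⟩
  rw [he3]
  refine hLC6 w0 _ _ ?_ ?_ hram ?_ ?_
  · rw [← hc_res2_d12, hdψ, map_zero]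
  · rw [← hc_res2_d12, hdy, map_zero]
  · intro s hs
    have h1 := (hyI w0).1 1 s hs
    rw [one_mul] at h1
    have h2 : (hc_res1 ((ev_outU (tri_out S) k.fixingSubgroup ΔO).compat w0)
        (Representation.trivial (ZMod p) ↥k.fixingSubgroup (ZMod p))
        (bi_incl1 hL (Representation.trivial (ZMod p) ↥k.fixingSubgroup (ZMod p)) y) :
        (ev_outU (tri_out S) k.fixingSubgroup ΔO).H w0 → ZMod p) 1 = 0 := by
      rw [hc_res1_coe, map_one]
      have h3 := congrFun (congrArg Subtype.val hy) (1, 1)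
      simp only [hc_d12_coe, hc_d12f_apply, Representation.trivial_apply,
        ZeroMemClass.coe_zero, Pi.zero_apply, mul_one] at h3
      have h4 : (y : ↥k.fixingSubgroup → ZMod p) 1 = 0 := by linear_combination h3
      exact h4
    rw [h1, h2]
  · obtain ⟨s, hs⟩ := hne
    intro h0
    apply hs
    have h1 := congrFun (congrArg Subtype.val h0) s
    exact h1

end main

end Fermat.Agent.S55
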