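import Mathlib

/-!
# S55 homological layer (HC), part 1: level cochains in degrees `≤ 3`

A *level structure* on a group `G` is a nonempty down-directed set of normal subgroups.
For a `k`-linear representation `ρ` of `G` on `M`, an `n`-cochain `f : G^n → M` is a *level
cochain* if for some level `N` it is right-`N`-invariant in every argument and all its
values are fixed by `N` (i.e. it is inflated from `G ⧸ N` with values in `M^N`).

This file defines the modules `hc_C0 … hc_C3` of level cochains, the inhomogeneous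
differentials (same formulas as Mathlib's `groupCohomology.d₀₁, d₁₂, d₂₃`), functoriality in
equivariant maps, restriction along group homomorphisms, and termwise exactness.
-/

set_option autoImplicit false

namespace Fermat.Agent.S55

/-- A level structure on a group: a nonempty down-directed set of normal subgroups. -/
structure hc_Lev (G : Type*) [Group G] where
  /-- the set of levels -/
  S : Set (Subgroup G)
  ne : S.Nonempty
  dir : ∀ N₁ ∈ S, ∀ N₂ ∈ S, ∃ N ∈ S, N ≤ N₁ ∧ N ≤ N₂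
  nor : ∀ N ∈ S, N.Normal

section defs

variable {k G M : Type*} [CommRing k] [Group G] [AddCommGroup M] [Module k M]

/-- A representation is admissible for a level structure if some level acts trivially. -/
def hc_Adm (L : hc_Lev G) (ρ : Representation k G M) : Prop :=
  ∃ N ∈ L.S, ∀ s ∈ N, ρ s = 1

/-- `m` is fixed by `N`. -/
def hc_IsLev0 (ρ : Representation k G M) (N : Subgroup G) (m : M) : Prop :=
  ∀ s ∈ N, ρ s m = m

/-- `f : G → M` is an `N`-level 1-cochain. -/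
def hc_IsLev1 (ρ : Representation k G M) (N : Subgroup G) (f : G → M) : Prop :=
  (∀ g, ∀ s ∈ N, f (g * s) = f g) ∧ ∀ x, hc_IsLev0 ρ N (f x)

/-- `f : G × G → M` is an `N`-level 2-cochain. -/
def hc_IsLev2 (ρ : Representation k G M) (N : Subgroup G) (f : G × G → M) : Prop :=
  (∀ g h, ∀ s ∈ N, ∀ t ∈ N, f (g * s, h * t) = f (g, h)) ∧ ∀ x, hc_IsLev0 ρ N (f x)

/-- `f : G × G × G → M` is an `N`-level 3-cochain. -/
def hc_IsLev3 (ρ : Representation k G M) (N : Subgroup G) (f : G × G × G → M) : Prop :=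
  (∀ g h j, ∀ s ∈ N, ∀ t ∈ N, ∀ r ∈ N, f (g * s, h * t, j * r) = f (g, h, j)) ∧
    ∀ x, hc_IsLev0 ρ N (f x)

variable {L : hc_Lev G} {ρ : Representation k G M}

lemma hc_IsLev0.mono {N N' : Subgroup G} (h : N ≤ N') {m : M} (hm : hc_IsLev0 ρ N' m) :
    hc_IsLev0 ρ N m := fun s hs => hm s (h hs)

lemma hc_IsLev1.mono {N N' : Subgroup G} (h : N ≤ N') {f : G → M} (hf : hc_IsLev1 ρ N' f) :
    hc_IsLev1 ρ N f :=
  ⟨fun g s hs => hf.1 g s (h hs), fun x => (hf.2 x).mono h⟩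

lemma hc_IsLev2.mono {N N' : Subgroup G} (h : N ≤ N') {f : G × G → M}
    (hf : hc_IsLev2 ρ N' f) : hc_IsLev2 ρ N f :=
  ⟨fun g g' s hs t ht => hf.1 g g' s (h hs) t (h ht), fun x => (hf.2 x).mono h⟩

lemma hc_IsLev3.mono {N N' : Subgroup G} (h : N ≤ N') {f : G × G × G → M}
    (hf : hc_IsLev3 ρ N' f) : hc_IsLev3 ρ N f :=
  ⟨fun g g' g'' s hs t ht r hr => hf.1 g g' g'' s (h hs) t (h ht) r (h hr),
    fun x => (hf.2 x).mono h⟩

lemma hc_isLev0_zero (N : Subgroup G) : hc_IsLev0 ρ N (0 : M) := fun s _ => map_zero (ρ s)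

lemma hc_IsLev0.add {N : Subgroup G} {m m' : M} (h : hc_IsLev0 ρ N m) (h' : hc_IsLev0 ρ N m') :
    hc_IsLev0 ρ N (m + m') := fun s hs => by rw [map_add, h s hs, h' s hs]

lemma hc_IsLev0.sub {N : Subgroup G} {m m' : M} (h : hc_IsLev0 ρ N m) (h' : hc_IsLev0 ρ N m') :
    hc_IsLev0 ρ N (m - m') := fun s hs => by rw [map_sub, h s hs, h' s hs]

lemma hc_IsLev0.neg {N : Subgroup G} {m : M} (h : hc_IsLev0 ρ N m) :
    hc_IsLev0 ρ N (-m) := fun s hs => by rw [map_neg, h s hs]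

lemma hc_IsLev0.smul {N : Subgroup G} {m : M} (c : k) (h : hc_IsLev0 ρ N m) :
    hc_IsLev0 ρ N (c • m) := fun s hs => by rw [map_smul, h s hs]

/-- translates of `N`-fixed vectors are `N`-fixed (for `N` normal). -/
lemma hc_IsLev0.rho {N : Subgroup G} (hN : N.Normal) {m : M} (h : hc_IsLev0 ρ N m) (g : G) :
    hc_IsLev0 ρ N (ρ g m) := fun s hs => by
  have h1 : s * g = g * (g⁻¹ * s * g) := by group
  have h2 := h _ (hN.conj_mem' s hs g)
  calc ρ s (ρ g m) = ρ (s * g) m := by rw [map_mul]; rfl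
    _ = ρ g (ρ (g⁻¹ * s * g) m) := by rw [h1, map_mul]; rfl
    _ = ρ g m := by rw [h2]

/-- generic constructor: the union over all levels of a monotone family of "submodules". -/
def hc_mkSub (L : hc_Lev G) {X : Type*} [AddCommGroup X] [Module k X]
    (P : Subgroup G → X → Prop)
    (hmono : ∀ N N', N ≤ N' → ∀ x, P N' x → P N x) (h0 : ∀ N, P N 0)
    (hadd : ∀ N x y, P N x → P N y → P N (x + y))
    (hsmul : ∀ N (c : k) x, P N x → P N (c • x)) : Submodule k X where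
  carrier := {x | ∃ N ∈ L.S, P N x}
  add_mem' := by
    rintro x y ⟨N₁, hN₁, h₁⟩ ⟨N₂, hN₂, h₂⟩
    obtain ⟨N, hN, hle₁, hle₂⟩ := L.dir N₁ hN₁ N₂ hN₂
    exact ⟨N, hN, hadd N x y (hmono N N₁ hle₁ x h₁) (hmono N N₂ hle₂ y h₂)⟩
  zero_mem' := by
    obtain ⟨N, hN⟩ := L.ne
    exact ⟨N, hN, h0 N⟩
  smul_mem' := by
    rintro c x ⟨N, hN, h⟩
    exact ⟨N, hN, hsmul N c x h⟩

variable (L ρ)

/-- level 0-cochains: the smooth vectors. -/
def hc_C0 : Submodule k M :=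
  hc_mkSub L (hc_IsLev0 ρ) (fun _ _ h _ hm => hm.mono h) (fun N => hc_isLev0_zero N)
    (fun _ _ _ h h' => h.add h') (fun _ c _ h => h.smul c)

/-- level 1-cochains. -/
def hc_C1 : Submodule k (G → M) :=
  hc_mkSub L (hc_IsLev1 ρ) (fun _ _ h _ hf => hf.mono h)
    (fun N => ⟨fun _ _ _ => rfl, fun _ => hc_isLev0_zero N⟩)
    (fun _ f f' h h' => ⟨fun g s hs => by simp only [Pi.add_apply, h.1 g s hs, h'.1 g s hs],
      fun x => (h.2 x).add (h'.2 x)⟩)
    (fun _ c f h => ⟨fun g s hs => by simp only [Pi.smul_apply, h.1 g s hs],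
      fun x => (h.2 x).smul c⟩)

/-- level 2-cochains. -/
def hc_C2 : Submodule k (G × G → M) :=
  hc_mkSub L (hc_IsLev2 ρ) (fun _ _ h _ hf => hf.mono h)
    (fun N => ⟨fun _ _ _ _ _ _ => rfl, fun _ => hc_isLev0_zero N⟩)
    (fun _ f f' h h' => ⟨fun g g' s hs t ht => by
        simp only [Pi.add_apply, h.1 g g' s hs t ht, h'.1 g g' s hs t ht],
      fun x => (h.2 x).add (h'.2 x)⟩)
    (fun _ c f h => ⟨fun g g' s hs t ht => by simp only [Pi.smul_apply, h.1 g g' s hs t ht],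
      fun x => (h.2 x).smul c⟩)

/-- level 3-cochains. -/
def hc_C3 : Submodule k (G × G × G → M) :=
  hc_mkSub L (hc_IsLev3 ρ) (fun _ _ h _ hf => hf.mono h)
    (fun N => ⟨fun _ _ _ _ _ _ _ _ _ => rfl, fun _ => hc_isLev0_zero N⟩)
    (fun _ f f' h h' => ⟨fun g g' g'' s hs t ht r hr => by
        simp only [Pi.add_apply, h.1 g g' g'' s hs t ht r hr, h'.1 g g' g'' s hs t ht r hr],
      fun x => (h.2 x).add (h'.2 x)⟩)
    (fun _ c f h => ⟨fun g g' g'' s hs t ht r hr => by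
        simp only [Pi.smul_apply, h.1 g g' g'' s hs t ht r hr],
      fun x => (h.2 x).smul c⟩)

variable {L ρ}

lemma hc_mem_C0 {m : M} : m ∈ hc_C0 L ρ ↔ ∃ N ∈ L.S, hc_IsLev0 ρ N m := Iff.rfl
lemma hc_mem_C1 {f : G → M} : f ∈ hc_C1 L ρ ↔ ∃ N ∈ L.S, hc_IsLev1 ρ N f := Iff.rfl
lemma hc_mem_C2 {f : G × G → M} : f ∈ hc_C2 L ρ ↔ ∃ N ∈ L.S, hc_IsLev2 ρ N f := Iff.rfl
lemma hc_mem_C3 {f : G × G × G → M} : f ∈ hc_C3 L ρ ↔ ∃ N ∈ L.S, hc_IsLev3 ρ N f := Iff.rfl

/-- for an admissible representation every vector is a level 0-cochain. -/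
lemma hc_C0_eq_top (h : hc_Adm L ρ) : hc_C0 L ρ = ⊤ := by
  obtain ⟨N, hN, hN'⟩ := h
  exact eq_top_iff.2 fun m _ => ⟨N, hN, fun s hs => by rw [hN' s hs]; rfl⟩

/-- for an admissible representation: level 1-cochain iff right-invariant under a level
(the Prelude's `IsLevelConstant₁`-type predicate). -/
lemma hc_mem_C1_iff_of_adm (h : hc_Adm L ρ) {f : G → M} :
    f ∈ hc_C1 L ρ ↔ ∃ N ∈ L.S, ∀ g, ∀ s ∈ N, f (g * s) = f g := by
  constructor
  · rintro ⟨N, hN, hf⟩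
    exact ⟨N, hN, hf.1⟩
  · rintro ⟨N, hN, hf⟩
    obtain ⟨N', hN', hN''⟩ := h
    obtain ⟨N₀, hN₀, h1, h2⟩ := L.dir N hN N' hN'
    exact ⟨N₀, hN₀, fun g s hs => hf g s (h1 hs), fun x s hs => by rw [hN'' s (h2 hs)]; rfl⟩

lemma hc_mem_C2_iff_of_adm (h : hc_Adm L ρ) {f : G × G → M} :
    f ∈ hc_C2 L ρ ↔ ∃ N ∈ L.S, ∀ g g', ∀ s ∈ N, ∀ t ∈ N, f (g * s, g' * t) = f (g, g') := by
  constructor
  · rintro ⟨N, hN, hf⟩
    exact ⟨N, hN, hf.1⟩
  · rintro ⟨N, hN, hf⟩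
    obtain ⟨N', hN', hN''⟩ := h
    obtain ⟨N₀, hN₀, h1, h2⟩ := L.dir N hN N' hN'
    exact ⟨N₀, hN₀, fun g g' s hs t ht => hf g g' s (h1 hs) t (h1 ht),
      fun x s hs => by rw [hN'' s (h2 hs)]; rfl⟩

lemma hc_mem_C3_iff_of_adm (h : hc_Adm L ρ) {f : G × G × G → M} :
    f ∈ hc_C3 L ρ ↔ ∃ N ∈ L.S, ∀ g g' g'', ∀ s ∈ N, ∀ t ∈ N, ∀ r ∈ N,
      f (g * s, g' * t, g'' * r) = f (g, g', g'') := by
  constructor
  · rintro ⟨N, hN, hf⟩
    exact ⟨N, hN, hf.1⟩
  · rintro ⟨N, hN, hf⟩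
    obtain ⟨N', hN', hN''⟩ := h
    obtain ⟨N₀, hN₀, h1, h2⟩ := L.dir N hN N' hN'
    exact ⟨N₀, hN₀, fun g g' g'' s hs t ht r hr => hf g g' g'' s (h1 hs) t (h1 ht) r (h1 hr),
      fun x s hs => by rw [hN'' s (h2 hs)]; rfl⟩

end defs

/-! ### The differentials on all functions -/

section diff

variable {k G M : Type*} [CommRing k] [Group G] [AddCommGroup M] [Module k M]
variable (L : hc_Lev G) (ρ : Representation k G M)

/-- `d⁰ m = (g ↦ g m - m)`. -/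
def hc_d01f : M →ₗ[k] (G → M) where
  toFun m g := ρ g m - m
  map_add' x y := by
    funext g
    simp only [map_add, Pi.add_apply]
    abel
  map_smul' c x := by
    funext g
    simp only [map_smul, Pi.smul_apply, RingHom.id_apply, smul_sub]

/-- `d¹ f (g, h) = g f(h) - f(g h) + f(g)`. -/
def hc_d12f : (G → M) →ₗ[k] (G × G → M) where
  toFun f x := ρ x.1 (f x.2) - f (x.1 * x.2) + f x.1
  map_add' x y := by
    funext g
    simp only [map_add, Pi.add_apply]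
    abel
  map_smul' c x := by
    funext g
    simp only [map_smul, Pi.smul_apply, RingHom.id_apply, smul_sub, smul_add]

/-- `d² f (g, h, j) = g f(h, j) - f(g h, j) + f(g, h j) - f(g, h)`. -/
def hc_d23f : (G × G → M) →ₗ[k] (G × G × G → M) where
  toFun f x :=
    ρ x.1 (f (x.2.1, x.2.2)) - f (x.1 * x.2.1, x.2.2) + f (x.1, x.2.1 * x.2.2) - f (x.1, x.2.1)
  map_add' x y := by
    funext g
    simp only [map_add, Pi.add_apply]
    abel
  map_smul' c x := by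
    funext g
    simp only [map_smul, Pi.smul_apply, RingHom.id_apply, smul_sub, smul_add]

/-- `d³ f (g, h, j, l) = g f(h, j, l) - f(g h, j, l) + f(g, h j, l) - f(g, h, j l) + f(g, h, j)`. -/
def hc_d34f : (G × G × G → M) →ₗ[k] (G × G × G × G → M) where
  toFun f x :=
    ρ x.1 (f (x.2.1, x.2.2.1, x.2.2.2)) - f (x.1 * x.2.1, x.2.2.1, x.2.2.2)
      + f (x.1, x.2.1 * x.2.2.1, x.2.2.2) - f (x.1, x.2.1, x.2.2.1 * x.2.2.2)
      + f (x.1, x.2.1, x.2.2.1)
  map_add' x y := by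
    funext g
    simp only [map_add, Pi.add_apply]
    abel
  map_smul' c x := by
    funext g
    simp only [map_smul, Pi.smul_apply, RingHom.id_apply, smul_sub, smul_add]

@[simp] lemma hc_d01f_apply (m : M) (g : G) : hc_d01f ρ m g = ρ g m - m := rfl

@[simp] lemma hc_d12f_apply (f : G → M) (g h : G) :
    hc_d12f ρ f (g, h) = ρ g (f h) - f (g * h) + f g := rfl

@[simp] lemma hc_d23f_apply (f : G × G → M) (g h j : G) :
    hc_d23f ρ f (g, h, j) = ρ g (f (h, j)) - f (g * h, j) + f (g, h * j) - f (g, h) := rfl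

@[simp] lemma hc_d34f_apply (f : G × G × G → M) (g h j l : G) :
    hc_d34f ρ f (g, h, j, l) = ρ g (f (h, j, l)) - f (g * h, j, l) + f (g, h * j, l)
      - f (g, h, j * l) + f (g, h, j) := rfl

lemma hc_d12f_d01f (m : M) : hc_d12f ρ (hc_d01f ρ m) = 0 := by
  funext ⟨g, h⟩
  simp only [hc_d12f_apply, hc_d01f_apply, map_sub, map_mul, Module.End.mul_apply, Pi.zero_apply]
  abel

lemma hc_d23f_d12f (f : G → M) : hc_d23f ρ (hc_d12f ρ f) = 0 := by
  funext ⟨g, h, j⟩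
  simp only [hc_d23f_apply, hc_d12f_apply, map_sub, map_add, map_mul, Module.End.mul_apply,
    Pi.zero_apply, mul_assoc]
  abel

lemma hc_d34f_d23f (f : G × G → M) : hc_d34f ρ (hc_d23f ρ f) = 0 := by
  funext ⟨g, h, j, l⟩
  simp only [hc_d34f_apply, hc_d23f_apply, map_sub, map_add, map_mul, Module.End.mul_apply,
    Pi.zero_apply, mul_assoc]
  abel

variable {ρ}

lemma hc_isLev1_d01f {N : Subgroup G} (hN : N.Normal) {m : M} (hm : hc_IsLev0 ρ N m) :
    hc_IsLev1 ρ N (hc_d01f ρ m) := by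
  refine ⟨fun g s hs => ?_, fun x => ((hm.rho hN x).sub hm)⟩
  simp only [hc_d01f_apply, map_mul, Module.End.mul_apply, hm s hs]

lemma hc_isLev2_d12f {N : Subgroup G} (hN : N.Normal) {f : G → M} (hf : hc_IsLev1 ρ N f) :
    hc_IsLev2 ρ N (hc_d12f ρ f) := by
  refine ⟨fun g h s hs t ht => ?_, fun x => ?_⟩
  · have e1 : g * s * (h * t) = g * h * (h⁻¹ * s * h * t) := by group
    have m1 : h⁻¹ * s * h * t ∈ N := N.mul_mem (hN.conj_mem' s hs h) ht
    simp only [hc_d12f_apply, map_mul, Module.End.mul_apply]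
    rw [e1, hf.1 (g * h) _ m1, hf.1 h t ht, hf.1 g s hs, hf.2 h s hs]
  · obtain ⟨g, h⟩ := x
    exact (((hf.2 h).rho hN g).sub (hf.2 _)).add (hf.2 _)

lemma hc_isLev3_d23f {N : Subgroup G} (hN : N.Normal) {f : G × G → M} (hf : hc_IsLev2 ρ N f) :
    hc_IsLev3 ρ N (hc_d23f ρ f) := by
  refine ⟨fun g h j s hs t ht r hr => ?_, fun x => ?_⟩
  · have e1 : g * s * (h * t) = g * h * (h⁻¹ * s * h * t) := by group
    have m1 : h⁻¹ * s * h * t ∈ N := N.mul_mem (hN.conj_mem' s hs h) ht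
    have e2 : h * t * (j * r) = h * j * (j⁻¹ * t * j * r) := by group
    have m2 : j⁻¹ * t * j * r ∈ N := N.mul_mem (hN.conj_mem' t ht j) hr
    simp only [hc_d23f_apply, map_mul, Module.End.mul_apply]
    rw [e1, e2, hf.1 (g * h) j _ m1 r hr, hf.1 h j t ht r hr, hf.1 g (h * j) s hs _ m2,
      hf.1 g h s hs t ht, hf.2 (h, j) s hs]
  · obtain ⟨g, h, j⟩ := x
    exact ((((hf.2 (h, j)).rho hN g).sub (hf.2 _)).add (hf.2 _)).sub (hf.2 _)

variable (ρ)

/-- `d⁰` on level cochains. -/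
def hc_d01 : hc_C0 L ρ →ₗ[k] hc_C1 L ρ :=
  (hc_d01f ρ).restrict fun _ ⟨N, hN, h⟩ => ⟨N, hN, hc_isLev1_d01f (L.nor N hN) h⟩

/-- `d¹` on level cochains. -/
def hc_d12 : hc_C1 L ρ →ₗ[k] hc_C2 L ρ :=
  (hc_d12f ρ).restrict fun _ ⟨N, hN, h⟩ => ⟨N, hN, hc_isLev2_d12f (L.nor N hN) h⟩

/-- `d²` on level cochains. -/
def hc_d23 : hc_C2 L ρ →ₗ[k] hc_C3 L ρ :=
  (hc_d23f ρ).restrict fun _ ⟨N, hN, h⟩ => ⟨N, hN, hc_isLev3_d23f (L.nor N hN) h⟩

@[simp] lemma hc_d01_coe (m : hc_C0 L ρ) : (hc_d01 L ρ m : G → M) = hc_d01f ρ m := rfl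
@[simp] lemma hc_d12_coe (f : hc_C1 L ρ) : (hc_d12 L ρ f : G × G → M) = hc_d12f ρ f := rfl
@[simp] lemma hc_d23_coe (f : hc_C2 L ρ) : (hc_d23 L ρ f : G × G × G → M) = hc_d23f ρ f := rfl

lemma hc_d12_d01 (m : hc_C0 L ρ) : hc_d12 L ρ (hc_d01 L ρ m) = 0 :=
  Subtype.ext (hc_d12f_d01f ρ m)

lemma hc_d23_d12 (f : hc_C1 L ρ) : hc_d23 L ρ (hc_d12 L ρ f) = 0 :=
  Subtype.ext (hc_d23f_d12f ρ f)

lemma hc_d34f_d23 (f : hc_C2 L ρ) : hc_d34f ρ (hc_d23 L ρ f : G × G × G → M) = 0 :=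
  hc_d34f_d23f ρ f

end diff

/-! ### Functoriality in equivariant maps -/

section maps

variable {k G A B C : Type*} [CommRing k] [Group G]
  [AddCommGroup A] [Module k A] [AddCommGroup B] [Module k B] [AddCommGroup C] [Module k C]
variable (L : hc_Lev G) {ρA : Representation k G A} {ρB : Representation k G B}
  {ρC : Representation k G C}

lemma hc_isLev0_map {φ : A →ₗ[k] B} (hφ : ∀ g a, φ (ρA g a) = ρB g (φ a)) {N : Subgroup G}
    {m : A} (h : hc_IsLev0 ρA N m) : hc_IsLev0 ρB N (φ m) :=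
  fun s hs => by rw [← hφ, h s hs]

lemma hc_isLev1_map {φ : A →ₗ[k] B} (hφ : ∀ g a, φ (ρA g a) = ρB g (φ a)) {N : Subgroup G}
    {f : G → A} (h : hc_IsLev1 ρA N f) : hc_IsLev1 ρB N (fun x => φ (f x)) :=
  ⟨fun g s hs => by simp only [h.1 g s hs], fun x => hc_isLev0_map hφ (h.2 x)⟩

lemma hc_isLev2_map {φ : A →ₗ[k] B} (hφ : ∀ g a, φ (ρA g a) = ρB g (φ a)) {N : Subgroup G}
    {f : G × G → A} (h : hc_IsLev2 ρA N f) : hc_IsLev2 ρB N (fun x => φ (f x)) :=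
  ⟨fun g g' s hs t ht => by simp only [h.1 g g' s hs t ht], fun x => hc_isLev0_map hφ (h.2 x)⟩

lemma hc_isLev3_map {φ : A →ₗ[k] B} (hφ : ∀ g a, φ (ρA g a) = ρB g (φ a)) {N : Subgroup G}
    {f : G × G × G → A} (h : hc_IsLev3 ρA N f) : hc_IsLev3 ρB N (fun x => φ (f x)) :=
  ⟨fun g g' g'' s hs t ht r hr => by simp only [h.1 g g' g'' s hs t ht r hr],
    fun x => hc_isLev0_map hφ (h.2 x)⟩

/-- the map induced on level 0-cochains by an equivariant map. -/
def hc_map0 (φ : A →ₗ[k] B) (hφ : ∀ g a, φ (ρA g a) = ρB g (φ a)) :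
    hc_C0 L ρA →ₗ[k] hc_C0 L ρB :=
  φ.restrict fun _ ⟨N, hN, h⟩ => ⟨N, hN, hc_isLev0_map hφ h⟩

/-- the map induced on level 1-cochains by an equivariant map. -/
def hc_map1 (φ : A →ₗ[k] B) (hφ : ∀ g a, φ (ρA g a) = ρB g (φ a)) :
    hc_C1 L ρA →ₗ[k] hc_C1 L ρB :=
  (φ.compLeft G).restrict fun _ ⟨N, hN, h⟩ => ⟨N, hN, hc_isLev1_map hφ h⟩

/-- the map induced on level 2-cochains by an equivariant map. -/
def hc_map2 (φ : A →ₗ[k] B) (hφ : ∀ g a, φ (ρA g a) = ρB g (φ a)) :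
    hc_C2 L ρA →ₗ[k] hc_C2 L ρB :=
  (φ.compLeft (G × G)).restrict fun _ ⟨N, hN, h⟩ => ⟨N, hN, hc_isLev2_map hφ h⟩

/-- the map induced on level 3-cochains by an equivariant map. -/
def hc_map3 (φ : A →ₗ[k] B) (hφ : ∀ g a, φ (ρA g a) = ρB g (φ a)) :
    hc_C3 L ρA →ₗ[k] hc_C3 L ρB :=
  (φ.compLeft (G × G × G)).restrict fun _ ⟨N, hN, h⟩ => ⟨N, hN, hc_isLev3_map hφ h⟩

variable {L}
variable {φ : A →ₗ[k] B} (hφ : ∀ g a, φ (ρA g a) = ρB g (φ a))
  {ψ : B →ₗ[k] C} (hψ : ∀ g b, ψ (ρB g b) = ρC g (ψ b))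

@[simp] lemma hc_map0_coe (m : hc_C0 L ρA) : (hc_map0 L φ hφ m : B) = φ m := rfl
@[simp] lemma hc_map1_coe (f : hc_C1 L ρA) (x : G) :
    (hc_map1 L φ hφ f : G → B) x = φ ((f : G → A) x) := rfl
@[simp] lemma hc_map2_coe (f : hc_C2 L ρA) (x : G × G) :
    (hc_map2 L φ hφ f : G × G → B) x = φ ((f : G × G → A) x) := rfl
@[simp] lemma hc_map3_coe (f : hc_C3 L ρA) (x : G × G × G) :
    (hc_map3 L φ hφ f : G × G × G → B) x = φ ((f : G × G × G → A) x) := rfl

lemma hc_map1_d01 (m : hc_C0 L ρA) :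
    hc_map1 L φ hφ (hc_d01 L ρA m) = hc_d01 L ρB (hc_map0 L φ hφ m) := by
  apply Subtype.ext
  funext g
  simp only [hc_map1_coe, hc_d01_coe, hc_d01f_apply, hc_map0_coe, map_sub, hφ]

lemma hc_map2_d12 (f : hc_C1 L ρA) :
    hc_map2 L φ hφ (hc_d12 L ρA f) = hc_d12 L ρB (hc_map1 L φ hφ f) := by
  apply Subtype.ext
  funext ⟨g, h⟩
  simp only [hc_map2_coe, hc_d12_coe, hc_d12f_apply, hc_map1_coe, map_sub, map_add, hφ]

lemma hc_map3_d23 (f : hc_C2 L ρA) :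
    hc_map3 L φ hφ (hc_d23 L ρA f) = hc_d23 L ρB (hc_map2 L φ hφ f) := by
  apply Subtype.ext
  funext ⟨g, h, j⟩
  simp only [hc_map3_coe, hc_d23_coe, hc_d23f_apply, hc_map2_coe, map_sub, map_add, hφ]

lemma hc_map0_injective (hinj : Function.Injective φ) : Function.Injective (hc_map0 L φ hφ) :=
  fun _ _ h => Subtype.ext (hinj (congrArg Subtype.val h))

lemma hc_map1_injective (hinj : Function.Injective φ) : Function.Injective (hc_map1 L φ hφ) :=
  fun _ _ h => Subtype.ext (funext fun g => hinj (congrFun (congrArg Subtype.val h) g))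

lemma hc_map2_injective (hinj : Function.Injective φ) : Function.Injective (hc_map2 L φ hφ) :=
  fun _ _ h => Subtype.ext (funext fun g => hinj (congrFun (congrArg Subtype.val h) g))

lemma hc_map3_injective (hinj : Function.Injective φ) : Function.Injective (hc_map3 L φ hφ) :=
  fun _ _ h => Subtype.ext (funext fun g => hinj (congrFun (congrArg Subtype.val h) g))

include hφ in
/-- exactness in the middle, degree 0. -/
lemma hc_map0_exact (hinj : Function.Injective φ) (hex : ∀ b, ψ b = 0 → ∃ a, φ a = b)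
    (f : hc_C0 L ρB) (hf : hc_map0 L ψ hψ f = 0) : ∃ f' : hc_C0 L ρA, hc_map0 L φ hφ f' = f := by
  obtain ⟨a, ha⟩ := hex f (congrArg Subtype.val hf)
  obtain ⟨N, hN, h⟩ := f.2
  refine ⟨⟨a, N, hN, fun s hs => hinj ?_⟩, Subtype.ext ha⟩
  rw [hφ, ha]
  exact h s hs

include hφ in
/-- exactness in the middle, degree 1. -/
lemma hc_map1_exact (hinj : Function.Injective φ) (hex : ∀ b, ψ b = 0 → ∃ a, φ a = b)
    (f : hc_C1 L ρB) (hf : hc_map1 L ψ hψ f = 0) : ∃ f' : hc_C1 L ρA, hc_map1 L φ hφ f' = f := by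
  have key : ∀ x, φ (Function.invFun φ ((f : G → B) x)) = (f : G → B) x := fun x =>
    Function.invFun_eq (hex _ (congrFun (congrArg Subtype.val hf) x))
  obtain ⟨N, hN, h⟩ := f.2
  refine ⟨⟨fun x => Function.invFun φ ((f : G → B) x), N, hN, fun g s hs => ?_,
    fun x s hs => hinj ?_⟩, Subtype.ext (funext key)⟩
  · simp only [h.1 g s hs]
  · rw [hφ, key]
    exact h.2 x s hs

include hφ in
/-- exactness in the middle, degree 2. -/
lemma hc_map2_exact (hinj : Function.Injective φ) (hex : ∀ b, ψ b = 0 → ∃ a, φ a = b)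
    (f : hc_C2 L ρB) (hf : hc_map2 L ψ hψ f = 0) : ∃ f' : hc_C2 L ρA, hc_map2 L φ hφ f' = f := by
  have key : ∀ x, φ (Function.invFun φ ((f : G × G → B) x)) = (f : G × G → B) x := fun x =>
    Function.invFun_eq (hex _ (congrFun (congrArg Subtype.val hf) x))
  obtain ⟨N, hN, h⟩ := f.2
  refine ⟨⟨fun x => Function.invFun φ ((f : G × G → B) x), N, hN, fun g g' s hs t ht => ?_,
    fun x s hs => hinj ?_⟩, Subtype.ext (funext key)⟩
  · simp only [h.1 g g' s hs t ht]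
  · rw [hφ, key]
    exact h.2 x s hs

include hφ in
/-- exactness in the middle, degree 3. -/
lemma hc_map3_exact (hinj : Function.Injective φ) (hex : ∀ b, ψ b = 0 → ∃ a, φ a = b)
    (f : hc_C3 L ρB) (hf : hc_map3 L ψ hψ f = 0) : ∃ f' : hc_C3 L ρA, hc_map3 L φ hφ f' = f := by
  have key : ∀ x, φ (Function.invFun φ ((f : G × G × G → B) x)) = (f : G × G × G → B) x :=
    fun x => Function.invFun_eq (hex _ (congrFun (congrArg Subtype.val hf) x))
  obtain ⟨N, hN, h⟩ := f.2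
  refine ⟨⟨fun x => Function.invFun φ ((f : G × G × G → B) x), N, hN,
    fun g g' g'' s hs t ht r hr => ?_, fun x s hs => hinj ?_⟩, Subtype.ext (funext key)⟩
  · simp only [h.1 g g' g'' s hs t ht r hr]
  · rw [hφ, key]
    exact h.2 x s hs

/-- surjectivity, degree 0 (source admissible). -/
lemma hc_map0_surjective (hsurj : Function.Surjective ψ) (hadm : hc_Adm L ρB) :
    Function.Surjective (hc_map0 L ψ hψ) := by
  intro f
  obtain ⟨b, hb⟩ := hsurj f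
  obtain ⟨N', hN', hN''⟩ := hadm
  exact ⟨⟨b, N', hN', fun s hs => by rw [hN'' s hs]; rfl⟩, Subtype.ext hb⟩

/-- surjectivity, degree 1 (source admissible). -/
lemma hc_map1_surjective (hsurj : Function.Surjective ψ) (hadm : hc_Adm L ρB) :
    Function.Surjective (hc_map1 L ψ hψ) := by
  intro f
  obtain ⟨N, hN, h⟩ := f.2
  obtain ⟨N', hN', hN''⟩ := hadm
  obtain ⟨N₀, hN₀, h1, h2⟩ := L.dir N hN N' hN'
  refine ⟨⟨fun x => Function.surjInv hsurj ((f : G → C) x), N₀, hN₀, fun g s hs => ?_,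
    fun x s hs => by rw [hN'' s (h2 hs)]; rfl⟩, Subtype.ext (funext fun x => ?_)⟩
  · simp only [h.1 g s (h1 hs)]
  · exact Function.surjInv_eq hsurj _

/-- surjectivity, degree 2 (source admissible). -/
lemma hc_map2_surjective (hsurj : Function.Surjective ψ) (hadm : hc_Adm L ρB) :
    Function.Surjective (hc_map2 L ψ hψ) := by
  intro f
  obtain ⟨N, hN, h⟩ := f.2
  obtain ⟨N', hN', hN''⟩ := hadm
  obtain ⟨N₀, hN₀, h1, h2⟩ := L.dir N hN N' hN'
  refine ⟨⟨fun x => Function.surjInv hsurj ((f : G × G → C) x), N₀, hN₀,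
    fun g g' s hs t ht => ?_,
    fun x s hs => by rw [hN'' s (h2 hs)]; rfl⟩, Subtype.ext (funext fun x => ?_)⟩
  · simp only [h.1 g g' s (h1 hs) t (h1 ht)]
  · exact Function.surjInv_eq hsurj _

/-- surjectivity, degree 3 (source admissible). -/
lemma hc_map3_surjective (hsurj : Function.Surjective ψ) (hadm : hc_Adm L ρB) :
    Function.Surjective (hc_map3 L ψ hψ) := by
  intro f
  obtain ⟨N, hN, h⟩ := f.2
  obtain ⟨N', hN', hN''⟩ := hadm
  obtain ⟨N₀, hN₀, h1, h2⟩ := L.dir N hN N' hN'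
  refine ⟨⟨fun x => Function.surjInv hsurj ((f : G × G × G → C) x), N₀, hN₀,
    fun g g' g'' s hs t ht r hr => ?_,
    fun x s hs => by rw [hN'' s (h2 hs)]; rfl⟩, Subtype.ext (funext fun x => ?_)⟩
  · simp only [h.1 g g' g'' s (h1 hs) t (h1 ht) r (h1 hr)]
  · exact Function.surjInv_eq hsurj _

end maps

/-! ### Restriction along a group homomorphism -/

section res

variable {k G H M : Type*} [CommRing k] [Group G] [Group H] [AddCommGroup M] [Module k M]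

/-- compatibility of level structures along a homomorphism `ι : H →* G`: every level of `G`
pulls back to a subgroup containing a level of `H`. -/
def hc_LevCompat (LH : hc_Lev H) (L : hc_Lev G) (ι : H →* G) : Prop :=
  ∀ N ∈ L.S, ∃ N' ∈ LH.S, N' ≤ N.comap ι

variable {LH : hc_Lev H} {L : hc_Lev G} {ι : H →* G} (hι : hc_LevCompat LH L ι)
  (ρ : Representation k G M)

lemma hc_isLev0_res {N : Subgroup G} {N' : Subgroup H} (hN' : N' ≤ N.comap ι) {m : M}
    (h : hc_IsLev0 ρ N m) : hc_IsLev0 (ρ.comp ι) N' m :=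
  fun s hs => h (ι s) (hN' hs)

lemma hc_isLev1_res {N : Subgroup G} {N' : Subgroup H} (hN' : N' ≤ N.comap ι) {f : G → M}
    (h : hc_IsLev1 ρ N f) : hc_IsLev1 (ρ.comp ι) N' (fun x => f (ι x)) :=
  ⟨fun g s hs => by simp only [map_mul, h.1 (ι g) (ι s) (hN' hs)],
    fun x => hc_isLev0_res ρ hN' (h.2 _)⟩

lemma hc_isLev2_res {N : Subgroup G} {N' : Subgroup H} (hN' : N' ≤ N.comap ι) {f : G × G → M}
    (h : hc_IsLev2 ρ N f) : hc_IsLev2 (ρ.comp ι) N' (fun x => f (ι x.1, ι x.2)) :=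
  ⟨fun g g' s hs t ht => by
      simp only [map_mul, h.1 (ι g) (ι g') (ι s) (hN' hs) (ι t) (hN' ht)],
    fun x => hc_isLev0_res ρ hN' (h.2 _)⟩

lemma hc_isLev3_res {N : Subgroup G} {N' : Subgroup H} (hN' : N' ≤ N.comap ι)
    {f : G × G × G → M} (h : hc_IsLev3 ρ N f) :
    hc_IsLev3 (ρ.comp ι) N' (fun x => f (ι x.1, ι x.2.1, ι x.2.2)) :=
  ⟨fun g g' g'' s hs t ht r hr => by
      simp only [map_mul, h.1 (ι g) (ι g') (ι g'') (ι s) (hN' hs) (ι t) (hN' ht) (ι r) (hN' hr)],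
    fun x => hc_isLev0_res ρ hN' (h.2 _)⟩

/-- restriction of level 0-cochains. -/
def hc_res0 : hc_C0 L ρ →ₗ[k] hc_C0 LH (ρ.comp ι) :=
  (LinearMap.id : M →ₗ[k] M).restrict fun _ ⟨N, hN, h⟩ => by
    obtain ⟨N', hN', hle⟩ := hι N hN
    exact ⟨N', hN', hc_isLev0_res ρ hle h⟩

/-- restriction of level 1-cochains. -/
def hc_res1 : hc_C1 L ρ →ₗ[k] hc_C1 LH (ρ.comp ι) :=
  (LinearMap.funLeft k M ι).restrict fun _ ⟨N, hN, h⟩ => by
    obtain ⟨N', hN', hle⟩ := hι N hN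
    exact ⟨N', hN', hc_isLev1_res ρ hle h⟩

/-- restriction of level 2-cochains. -/
def hc_res2 : hc_C2 L ρ →ₗ[k] hc_C2 LH (ρ.comp ι) :=
  (LinearMap.funLeft k M (fun x : H × H => (ι x.1, ι x.2))).restrict fun _ ⟨N, hN, h⟩ => by
    obtain ⟨N', hN', hle⟩ := hι N hN
    exact ⟨N', hN', hc_isLev2_res ρ hle h⟩

/-- restriction of level 3-cochains. -/
def hc_res3 : hc_C3 L ρ →ₗ[k] hc_C3 LH (ρ.comp ι) :=
  (LinearMap.funLeft k M (fun x : H × H × H => (ι x.1, ι x.2.1, ι x.2.2))).restrict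
    fun _ ⟨N, hN, h⟩ => by
      obtain ⟨N', hN', hle⟩ := hι N hN
      exact ⟨N', hN', hc_isLev3_res ρ hle h⟩

@[simp] lemma hc_res0_coe (m : hc_C0 L ρ) : (hc_res0 hι ρ m : M) = m := rfl
@[simp] lemma hc_res1_coe (f : hc_C1 L ρ) (x : H) :
    (hc_res1 hι ρ f : H → M) x = (f : G → M) (ι x) := rfl
@[simp] lemma hc_res2_coe (f : hc_C2 L ρ) (x : H × H) :
    (hc_res2 hι ρ f : H × H → M) x = (f : G × G → M) (ι x.1, ι x.2) := rfl
@[simp] lemma hc_res3_coe (f : hc_C3 L ρ) (x : H × H × H) :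
    (hc_res3 hι ρ f : H × H × H → M) x = (f : G × G × G → M) (ι x.1, ι x.2.1, ι x.2.2) := rfl

lemma hc_res1_d01 (m : hc_C0 L ρ) :
    hc_res1 hι ρ (hc_d01 L ρ m) = hc_d01 LH (ρ.comp ι) (hc_res0 hι ρ m) := by
  apply Subtype.ext
  funext g
  simp only [hc_res1_coe, hc_d01_coe, hc_d01f_apply, hc_res0_coe, MonoidHom.comp_apply]

lemma hc_res2_d12 (f : hc_C1 L ρ) :
    hc_res2 hι ρ (hc_d12 L ρ f) = hc_d12 LH (ρ.comp ι) (hc_res1 hι ρ f) := by
  apply Subtype.ext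
  funext ⟨g, h⟩
  simp only [hc_res2_coe, hc_d12_coe, hc_d12f_apply, hc_res1_coe, MonoidHom.comp_apply, map_mul]

lemma hc_res3_d23 (f : hc_C2 L ρ) :
    hc_res3 hι ρ (hc_d23 L ρ f) = hc_d23 LH (ρ.comp ι) (hc_res2 hι ρ f) := by
  apply Subtype.ext
  funext ⟨g, h, j⟩
  simp only [hc_res3_coe, hc_d23_coe, hc_d23f_apply, hc_res2_coe, MonoidHom.comp_apply, map_mul]

end res

end Fermat.Agent.S55
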