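import Mathlib
import Fermat.Agent.S55.IfaceFields

/-!
# S55 interface, part 3: the level families as families of normal subgroups

The frozen predicates `IsLevelConstantS₁/₂` (global, levels = finite extensions unramified
outside `S`) and `IsLevelConstant₁/₂ r` (local, levels = all finite extensions, pulled back
along `r`) are re-expressed through down-directed families of normal finite-index subgroups:

* `pt_globalLevels S : Set (Subgroup Γ)` — fixing subgroups of finite Galois extensions
  unramified outside `S`;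
* `pt_pullbackLevels r : Set (Subgroup H)` — preimages under `r : H →* Γ` of fixing subgroups of
  finite Galois extensions.
-/

set_option autoImplicit false

open groupCohomology

namespace Fermat.Agent.S55

local notation "Qb" => AlgebraicClosure ℚ
local notation "Γ" => (AlgebraicClosure ℚ ≃ₐ[ℚ] AlgebraicClosure ℚ)

attribute [local instance] pt_qbar_isAlgebraic pt_qbar_isAlgClosure pt_qbar_isGalois

/-- The global level subgroups: fixing subgroups of finite Galois extensions unramified
outside `S`. -/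
def pt_globalLevels (S : Finset Nat.Primes) : Set (Subgroup Γ) :=
  {N | ∃ K : IntermediateField ℚ Qb, K.IsUnramifiedOutside S ∧ IsGalois ℚ K ∧
    K.fixingSubgroup = N}

theorem pt_mem_globalLevels (S : Finset Nat.Primes) (K : IntermediateField ℚ Qb)
    (hK : K.IsUnramifiedOutside S) (hKg : IsGalois ℚ K) :
    K.fixingSubgroup ∈ pt_globalLevels S := ⟨K, hK, hKg, rfl⟩

theorem pt_globalLevels_nonempty (S : Finset Nat.Primes) : (pt_globalLevels S).Nonempty :=
  ⟨_, ⊥, IntermediateField.isUnramifiedOutside_bot S, isGalois_bot, rfl⟩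

theorem pt_globalLevels_normal (S : Finset Nat.Primes) (N : Subgroup Γ)
    (hN : N ∈ pt_globalLevels S) : N.Normal := by
  obtain ⟨K, -, hKg, rfl⟩ := hN
  exact (InfiniteGalois.normal_iff_isGalois K).mpr hKg

theorem pt_globalLevels_isOpen (S : Finset Nat.Primes) (N : Subgroup Γ)
    (hN : N ∈ pt_globalLevels S) : IsOpen (N : Set Γ) := by
  obtain ⟨K, hK, -, rfl⟩ := hN
  have := hK.1
  exact K.fixingSubgroup_isOpen

theorem pt_globalLevels_finiteIndex (S : Finset Nat.Primes) (N : Subgroup Γ)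
    (hN : N ∈ pt_globalLevels S) : N.FiniteIndex := by
  have hfin : Finite (Γ ⧸ N) :=
    Subgroup.quotient_finite_of_isOpen _ (pt_globalLevels_isOpen S N hN)
  exact Subgroup.finiteIndex_of_finite_quotient

theorem pt_globalLevels_directed (S : Finset Nat.Primes) (N₁ N₂ : Subgroup Γ)
    (h₁ : N₁ ∈ pt_globalLevels S) (h₂ : N₂ ∈ pt_globalLevels S) :
    ∃ N ∈ pt_globalLevels S, N ≤ N₁ ⊓ N₂ := by
  obtain ⟨K₁, hK₁, hg₁, rfl⟩ := h₁
  obtain ⟨K₂, hK₂, hg₂, rfl⟩ := h₂
  obtain ⟨K, hK, hKg, hle⟩ := pt_exists_galois_level S (K₁ ⊔ K₂) (hK₁.sup hK₂)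
  exact ⟨_, ⟨K, hK, hKg, rfl⟩, le_inf
    (IntermediateField.fixingSubgroup_antitone (le_sup_left.trans hle))
    (IntermediateField.fixingSubgroup_antitone (le_sup_right.trans hle))⟩

theorem pt_globalLevels_mono {S S' : Finset Nat.Primes} (h : S ⊆ S') :
    pt_globalLevels S ⊆ pt_globalLevels S' := by
  rintro N ⟨K, hK, hKg, rfl⟩
  exact ⟨K, hK.mono h, hKg, rfl⟩

/-- Every finite extension of `ℚ` inside `ℚ̄` is contained in a finite Galois one. -/
theorem pt_exists_galois_fin (F : IntermediateField ℚ Qb) [FiniteDimensional ℚ F] :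
    ∃ K : IntermediateField ℚ Qb, FiniteDimensional ℚ K ∧ IsGalois ℚ K ∧ F ≤ K := by
  have hopenF : IsOpen (F.fixingSubgroup : Set Γ) := F.fixingSubgroup_isOpen
  have hfin : Finite (Γ ⧸ F.fixingSubgroup) := Subgroup.quotient_finite_of_isOpen _ hopenF
  have : F.fixingSubgroup.FiniteIndex := Subgroup.finiteIndex_of_finite_quotient
  have : F.fixingSubgroup.normalCore.FiniteIndex := inferInstance
  have hopen : IsOpen (F.fixingSubgroup.normalCore : Set Γ) := by
    apply Subgroup.isOpen_of_isClosed_of_finiteIndex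
    have : (F.fixingSubgroup.normalCore : Set Γ) =
        ⋂ τ : Γ, {σ | τ * σ * τ⁻¹ ∈ F.fixingSubgroup} := by
      ext σ
      simp [Subgroup.normalCore]
    rw [this]
    refine isClosed_iInter fun τ => ?_
    exact (F.fixingSubgroup.isClosed_of_isOpen hopenF).preimage
      ((continuous_const.mul continuous_id).mul continuous_const)
  have hclosed : IsClosed (F.fixingSubgroup.normalCore : Set Γ) :=
    Subgroup.isClosed_of_isOpen _ hopen
  have hfix : (IntermediateField.fixedField F.fixingSubgroup.normalCore).fixingSubgroup =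
      F.fixingSubgroup.normalCore :=
    InfiniteGalois.fixingSubgroup_fixedField ⟨_, hclosed⟩
  refine ⟨IntermediateField.fixedField F.fixingSubgroup.normalCore, ?_, ?_, ?_⟩
  · refine (InfiniteGalois.isOpen_iff_finite _).mp ?_
    rw [hfix]
    exact hopen
  · refine (InfiniteGalois.normal_iff_isGalois _).mp ?_
    rw [hfix]
    infer_instance
  · rw [← InfiniteGalois.fixedField_fixingSubgroup F, IntermediateField.le_iff_le,
      InfiniteGalois.fixedField_fixingSubgroup F]
    exact Subgroup.normalCore_le _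

/-- `IsLevelConstantS₁` through the family of global level subgroups. -/
theorem pt_isLevelConstantS₁_iff (S : Finset Nat.Primes) {X : Type*} (f : Γ → X) :
    IsLevelConstantS₁ S f ↔
      ∃ N ∈ pt_globalLevels S, ∀ g s : Γ, s ∈ N → f (g * s) = f g := by
  constructor
  · rintro ⟨F, hF, h⟩
    obtain ⟨K, hK, hKg, hle⟩ := pt_exists_galois_level S F hF
    exact ⟨_, ⟨K, hK, hKg, rfl⟩, fun g s hs =>
      h g s (IntermediateField.fixingSubgroup_antitone hle hs)⟩
  · rintro ⟨N, ⟨K, hK, -, rfl⟩, h⟩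
    exact ⟨K, hK, h⟩

/-- `IsLevelConstantS₂` through the family of global level subgroups. -/
theorem pt_isLevelConstantS₂_iff (S : Finset Nat.Primes) {X : Type*} (f : Γ × Γ → X) :
    IsLevelConstantS₂ S f ↔
      ∃ N ∈ pt_globalLevels S, ∀ g g' s s' : Γ, s ∈ N → s' ∈ N →
        f (g * s, g' * s') = f (g, g') := by
  constructor
  · rintro ⟨F, hF, h⟩
    obtain ⟨K, hK, hKg, hle⟩ := pt_exists_galois_level S F hF
    exact ⟨_, ⟨K, hK, hKg, rfl⟩, fun g g' s s' hs hs' =>
      h g g' s s' (IntermediateField.fixingSubgroup_antitone hle hs)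
        (IntermediateField.fixingSubgroup_antitone hle hs')⟩
  · rintro ⟨N, ⟨K, hK, -, rfl⟩, h⟩
    exact ⟨K, hK, h⟩

section Pullback

variable {H : Type} [Group H] (r : H →* Γ)

/-- The level subgroups of a group `H` mapping to `Γ`: preimages of fixing subgroups of finite
Galois extensions of `ℚ`. -/
def pt_pullbackLevels : Set (Subgroup H) :=
  {N | ∃ K : IntermediateField ℚ Qb, FiniteDimensional ℚ K ∧ IsGalois ℚ K ∧
    K.fixingSubgroup.comap r = N}

theorem pt_pullbackLevels_nonempty : (pt_pullbackLevels r).Nonempty :=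
  ⟨_, ⊥, inferInstance, isGalois_bot, rfl⟩

theorem pt_pullbackLevels_normal (N : Subgroup H) (hN : N ∈ pt_pullbackLevels r) :
    N.Normal := by
  obtain ⟨K, -, hKg, rfl⟩ := hN
  have : K.fixingSubgroup.Normal := (InfiniteGalois.normal_iff_isGalois K).mpr hKg
  infer_instance

theorem pt_pullbackLevels_finiteIndex (N : Subgroup H) (hN : N ∈ pt_pullbackLevels r) :
    N.FiniteIndex := by
  obtain ⟨K, hK, hKg, rfl⟩ := hN
  have hfin : Finite (Γ ⧸ K.fixingSubgroup) :=
    Subgroup.quotient_finite_of_isOpen _ K.fixingSubgroup_isOpen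
  have : K.fixingSubgroup.FiniteIndex := Subgroup.finiteIndex_of_finite_quotient
  refine ⟨?_⟩
  rw [Subgroup.index_comap]
  exact (Subgroup.instFiniteIndex_subgroupOf K.fixingSubgroup r.range).index_ne_zero

theorem pt_pullbackLevels_directed (N₁ N₂ : Subgroup H)
    (h₁ : N₁ ∈ pt_pullbackLevels r) (h₂ : N₂ ∈ pt_pullbackLevels r) :
    ∃ N ∈ pt_pullbackLevels r, N ≤ N₁ ⊓ N₂ := by
  obtain ⟨K₁, hK₁, hg₁, rfl⟩ := h₁
  obtain ⟨K₂, hK₂, hg₂, rfl⟩ := h₂
  have : FiniteDimensional ℚ ↥(K₁ ⊔ K₂) := IntermediateField.finiteDimensional_sup K₁ K₂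
  obtain ⟨K, hK, hKg, hle⟩ := pt_exists_galois_fin (K₁ ⊔ K₂)
  exact ⟨_, ⟨K, hK, hKg, rfl⟩, le_inf
    (Subgroup.comap_mono (IntermediateField.fixingSubgroup_antitone (le_sup_left.trans hle)))
    (Subgroup.comap_mono (IntermediateField.fixingSubgroup_antitone (le_sup_right.trans hle)))⟩

/-- Every global level subgroup pulls back to a local level subgroup. -/
theorem pt_comap_mem_pullbackLevels (S : Finset Nat.Primes) (N : Subgroup Γ)
    (hN : N ∈ pt_globalLevels S) : N.comap r ∈ pt_pullbackLevels r := by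
  obtain ⟨K, hK, hKg, rfl⟩ := hN
  exact ⟨K, hK.1, hKg, rfl⟩

/-- `IsLevelConstant₁ r` through the family of pulled-back level subgroups. -/
theorem pt_isLevelConstant₁_iff {X : Type*} (f : H → X) :
    IsLevelConstant₁ r f ↔
      ∃ N ∈ pt_pullbackLevels r, ∀ g s : H, s ∈ N → f (g * s) = f g := by
  constructor
  · rintro ⟨F, hF, h⟩
    have := hF
    obtain ⟨K, hK, hKg, hle⟩ := pt_exists_galois_fin F
    exact ⟨_, ⟨K, hK, hKg, rfl⟩, fun g s hs =>
      h g s (IntermediateField.fixingSubgroup_antitone hle (Subgroup.mem_comap.mp hs))⟩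
  · rintro ⟨N, ⟨K, hK, -, rfl⟩, h⟩
    exact ⟨K, hK, fun g s hs => h g s (Subgroup.mem_comap.mpr hs)⟩

/-- `IsLevelConstant₂ r` through the family of pulled-back level subgroups. -/
theorem pt_isLevelConstant₂_iff {X : Type*} (f : H × H → X) :
    IsLevelConstant₂ r f ↔
      ∃ N ∈ pt_pullbackLevels r, ∀ g g' s s' : H, s ∈ N → s' ∈ N →
        f (g * s, g' * s') = f (g, g') := by
  constructor
  · rintro ⟨F, hF, h⟩
    have := hF
    obtain ⟨K, hK, hKg, hle⟩ := pt_exists_galois_fin F
    exact ⟨_, ⟨K, hK, hKg, rfl⟩, fun g g' s s' hs hs' =>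
      h g g' s s' (IntermediateField.fixingSubgroup_antitone hle (Subgroup.mem_comap.mp hs))
        (IntermediateField.fixingSubgroup_antitone hle (Subgroup.mem_comap.mp hs'))⟩
  · rintro ⟨N, ⟨K, hK, -, rfl⟩, h⟩
    exact ⟨K, hK, fun g g' s s' hs hs' =>
      h g g' s s' (Subgroup.mem_comap.mpr hs) (Subgroup.mem_comap.mpr hs')⟩

end Pullback

end Fermat.Agent.S55
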