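import Mathlib
import Fermat.Agent.S55.IfaceLevels
import Fermat.Agent.S55.IfaceTwist
import Fermat.Agent.S55.HcCochain

/-!
# S55 interface, part 5: the Prelude level families as `hc_Lev` level structures

* `pt_globalLev S : hc_Lev Γ` (levels = `pt_globalLevels S`);
* `pt_localLev r : hc_Lev H` for `r : H →* Γ` (levels = `pt_pullbackLevels r`);
* `pt_levCompat` : compatibility along `r`;
* admissibility of `M` and of `M.dualTwist (cycloChar p)` under the hypotheses of S55;
* for admissible representations, `hc_C1 / hc_C2` membership is exactly the frozen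
  `IsLevelConstantS₁/₂` (global) resp. `IsLevelConstant₁/₂ r` (local).
-/

set_option autoImplicit false

open groupCohomology ExtCitation

namespace Fermat.Agent.S55

local notation "Qb" => AlgebraicClosure ℚ
local notation "Γ" => (AlgebraicClosure ℚ ≃ₐ[ℚ] AlgebraicClosure ℚ)

/-- The global level structure: fixing subgroups of finite Galois extensions unramified
outside `S`. -/
def pt_globalLev (S : Finset Nat.Primes) : hc_Lev Γ where
  S := pt_globalLevels S
  ne := pt_globalLevels_nonempty S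
  dir := fun N₁ h₁ N₂ h₂ => by
    obtain ⟨N, hN, hle⟩ := pt_globalLevels_directed S N₁ N₂ h₁ h₂
    exact ⟨N, hN, le_inf_iff.mp hle⟩
  nor := pt_globalLevels_normal S

/-- The level structure pulled back along `r : H →* Γ` from all finite Galois extensions. -/
def pt_localLev {H : Type} [Group H] (r : H →* Γ) : hc_Lev H where
  S := pt_pullbackLevels r
  ne := pt_pullbackLevels_nonempty r
  dir := fun N₁ h₁ N₂ h₂ => by
    obtain ⟨N, hN, hle⟩ := pt_pullbackLevels_directed r N₁ N₂ h₁ h₂
    exact ⟨N, hN, le_inf_iff.mp hle⟩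
  nor := pt_pullbackLevels_normal r

theorem pt_levCompat (S : Finset Nat.Primes) {H : Type} [Group H] (r : H →* Γ) :
    hc_LevCompat (pt_localLev r) (pt_globalLev S) r :=
  fun N hN => ⟨N.comap r, pt_comap_mem_pullbackLevels r S N hN, le_rfl⟩

section Adm

variable {k M : Type*} [CommRing k] [AddCommGroup M] [Module k M]

/-- A representation trivial on the fixing subgroup of a Galois `S`-level is admissible. -/
theorem pt_adm_of_level (S : Finset Nat.Primes) (ρ : Representation k Γ M)
    (K : IntermediateField ℚ Qb) (hK : K.IsUnramifiedOutside S) (hKg : IsGalois ℚ K)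
    (h : ∀ s : Γ, s ∈ K.fixingSubgroup → ρ s = 1) : hc_Adm (pt_globalLev S) ρ :=
  ⟨K.fixingSubgroup, pt_mem_globalLevels S K hK hKg, h⟩

/-- Admissibility is inherited by the local groups. -/
theorem pt_adm_local (S : Finset Nat.Primes) (ρ : Representation k Γ M)
    (h : hc_Adm (pt_globalLev S) ρ) {H : Type} [Group H] (r : H →* Γ) :
    hc_Adm (pt_localLev r) (ρ.comp r) := by
  obtain ⟨N, hN, hN'⟩ := h
  exact ⟨N.comap r, pt_comap_mem_pullbackLevels r S N hN, fun s hs => hN' (r s) hs⟩

/-- Global level 1-cochains of an admissible representation = the frozen predicate. -/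
theorem pt_mem_hc_C1_iff (S : Finset Nat.Primes) (ρ : Representation k Γ M)
    (h : hc_Adm (pt_globalLev S) ρ) (f : Γ → M) :
    f ∈ hc_C1 (pt_globalLev S) ρ ↔ IsLevelConstantS₁ S f := by
  rw [hc_mem_C1_iff_of_adm h, pt_isLevelConstantS₁_iff]
  rfl

/-- Global level 2-cochains of an admissible representation = the frozen predicate. -/
theorem pt_mem_hc_C2_iff (S : Finset Nat.Primes) (ρ : Representation k Γ M)
    (h : hc_Adm (pt_globalLev S) ρ) (f : Γ × Γ → M) :
    f ∈ hc_C2 (pt_globalLev S) ρ ↔ IsLevelConstantS₂ S f := by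
  rw [hc_mem_C2_iff_of_adm h, pt_isLevelConstantS₂_iff]
  constructor
  · rintro ⟨N, hN, hf⟩
    exact ⟨N, hN, fun g g' s s' hs hs' => hf g g' s hs s' hs'⟩
  · rintro ⟨N, hN, hf⟩
    exact ⟨N, hN, fun g g' s hs s' hs' => hf g g' s s' hs hs'⟩

/-- Local level 1-cochains of an admissible representation = the frozen predicate. -/
theorem pt_mem_hc_C1_local_iff {H : Type} [Group H] (r : H →* Γ) (ρ : Representation k H M)
    (h : hc_Adm (pt_localLev r) ρ) (f : H → M) :
    f ∈ hc_C1 (pt_localLev r) ρ ↔ IsLevelConstant₁ r f := by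
  rw [hc_mem_C1_iff_of_adm h, pt_isLevelConstant₁_iff]
  rfl

/-- Local level 2-cochains of an admissible representation = the frozen predicate. -/
theorem pt_mem_hc_C2_local_iff {H : Type} [Group H] (r : H →* Γ) (ρ : Representation k H M)
    (h : hc_Adm (pt_localLev r) ρ) (f : H × H → M) :
    f ∈ hc_C2 (pt_localLev r) ρ ↔ IsLevelConstant₂ r f := by
  rw [hc_mem_C2_iff_of_adm h, pt_isLevelConstant₂_iff]
  constructor
  · rintro ⟨N, hN, hf⟩
    exact ⟨N, hN, fun g g' s s' hs hs' => hf g g' s hs s' hs'⟩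
  · rintro ⟨N, hN, hf⟩
    exact ⟨N, hN, fun g g' s hs s' hs' => hf g g' s s' hs hs'⟩

end Adm

/-- Under the hypotheses of S55, `M` and `M.dualTwist (cycloChar p)` are admissible for the
global level structure, and so is the mod `p` cyclotomic character (as a one-dimensional
twist). -/
theorem pt_adm_S55 (p : ℕ) [Fact p.Prime] (S : Finset Nat.Primes)
    (hpS : pPrime p ∈ S) (M : Rep (ZMod p) Γ) [FiniteDimensional (ZMod p) M]
    (hsm : ∀ m : M, ∃ F : IntermediateField ℚ Qb, FiniteDimensional ℚ F ∧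
      ∀ s ∈ F.fixingSubgroup, M.ρ s m = m)
    (hMur : ∀ q : Nat.Primes, q ∉ S → ∀ A : ValuationSubring Qb,
      A.LiesOverPrime (q : ℕ) → ∀ g ∈ A.inertiaSubgroupIn ℚ, M.ρ g = 1) :
    hc_Adm (pt_globalLev S) M.ρ ∧ hc_Adm (pt_globalLev S) (M.dualTwist (cycloChar p)).ρ ∧
      ∃ N ∈ (pt_globalLev S).S, (∀ s ∈ N, M.ρ s = 1) ∧ (∀ s ∈ N, cycloChar p s = 1) ∧
        ∀ s ∈ N, (M.dualTwist (cycloChar p)).ρ s = 1 := by
  obtain ⟨K, hK, hKg, h1, h2, h3⟩ := pt_exists_splitting_twist p S hpS M hsm hMur
  exact ⟨pt_adm_of_level S _ K hK hKg h1, pt_adm_of_level S _ K hK hKg h3,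
    K.fixingSubgroup, pt_mem_globalLevels S K hK hKg, h1, h2, h3⟩

end Fermat.Agent.S55
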