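import Mathlib
import Fermat.Agent.S55.IfaceTwist

/-!
# S55, block KUM (part 1): Kummer extensions unramified outside `S`

In the Prelude's ramification model (inertia subgroups of valuation subrings of `ℚ̄`):

* `kum_root_pow_eq_one` : a `p^n`-th root of unity congruent to `1` modulo the maximal ideal of a
  valuation subring over `q ≠ p` is `1`;
* `kum_inertia_fix` : inertia at `q ≠ p` fixes `α` as soon as it fixes `α ^ p ^ n` and `c`, and
  `α * c` is a unit of the valuation subring;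
* `kum_isUnramifiedOutside` : `F(α)` is unramified outside `S` if `F` is, `p ∈ S`,
  `α ^ p ^ n ∈ F` and `α` is a unit times an element of `F` at every valuation subring outside `S`;
* `kum_prime` : the prime of `𝓞 F` cut out by a valuation subring of `ℚ̄`, with
  `kum_mem_of_valuation_le_one`;
* `kum_isUnramifiedOutside_of_val` : the same criterion in terms of the adic valuations of `F`:
  `a = α ^ p ^ n` is a unit times a `p^n`-th power at every prime of `F` not above `S`.
-/

set_option autoImplicit false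

open ExtCitation IsDedekindDomain NumberField

namespace Fermat.Agent.S55

local notation "Qb" => AlgebraicClosure ℚ
local notation "Γ" => (AlgebraicClosure ℚ ≃ₐ[ℚ] AlgebraicClosure ℚ)

/-- A `p`-th root of unity congruent to `1` modulo the maximal ideal of a valuation subring lying
over a prime `q ≠ p` is equal to `1`. -/
theorem kum_root_eq_one (p : ℕ) [Fact p.Prime] (q : ℕ) (hq : Nat.Coprime p q)
    (A : ValuationSubring Qb) (hA : A.LiesOverPrime q) (η : Qb) (hηp : η ^ p = 1)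
    (hsub : η - 1 ∈ A.nonunits) : η = 1 := by
  by_contra hη1
  have hp : p ≠ 0 := (Fact.out : p.Prime).ne_zero
  have hηA : η ∈ A := pt_rootOfUnity_mem A p hp η hηp
  have hsum : ∑ i ∈ Finset.range p, η ^ i = 0 := by
    have h1 : (η - 1) * ∑ i ∈ Finset.range p, η ^ i = 0 := by
      rw [mul_geom_sum, hηp, sub_self]
    rcases mul_eq_zero.mp h1 with h | h
    · exact absurd (sub_eq_zero.mp h) hη1
    · exact h
  have hpm : (p : Qb) ∈ A.nonunits := by
    have h1 : (p : Qb) = - ∑ i ∈ Finset.range p, (η ^ i - 1) := by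
      rw [Finset.sum_sub_distrib, hsum]
      simp
    rw [h1]
    refine neg_mem (sum_mem fun i _ => ?_)
    have h2 : η ^ i - 1 = (η - 1) * ∑ j ∈ Finset.range i, η ^ j := by
      rw [mul_geom_sum]
    rw [h2]
    exact pt_nonunits_mul_mem A _ _ hsub (sum_mem fun j _ => pow_mem hηA j)
  have hqm : (q : Qb) ∈ A.nonunits := hA
  have hcop : IsCoprime (p : ℤ) (q : ℤ) := Nat.isCoprime_iff_coprime.mpr hq
  obtain ⟨a, b, hab⟩ := hcop
  have h1 : (1 : Qb) ∈ A.nonunits := by
    have h2 : (1 : Qb) = a • (p : Qb) + b • (q : Qb) := by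
      have := congrArg (Int.cast : ℤ → Qb) hab
      push_cast at this
      rw [zsmul_eq_mul, zsmul_eq_mul]
      exact this.symm
    rw [h2]
    exact add_mem (zsmul_mem hpm a) (zsmul_mem hqm b)
  rw [ValuationSubring.mem_nonunits_iff, map_one] at h1
  exact lt_irrefl _ h1

/-- A `p^n`-th root of unity congruent to `1` modulo the maximal ideal of a valuation subring
lying over a prime `q ≠ p` is equal to `1`. -/
theorem kum_root_pow_eq_one (p : ℕ) [Fact p.Prime] (q : ℕ) (hq : Nat.Coprime p q)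
    (A : ValuationSubring Qb) (hA : A.LiesOverPrime q) (n : ℕ) (η : Qb) (hηp : η ^ p ^ n = 1)
    (hsub : η - 1 ∈ A.nonunits) : η = 1 := by
  induction n generalizing η with
  | zero => simpa using hηp
  | succ n ih =>
    have hp : p ≠ 0 := (Fact.out : p.Prime).ne_zero
    have hηA : η ∈ A := pt_rootOfUnity_mem A (p ^ (n + 1)) (pow_ne_zero _ hp) η hηp
    have h1 : (η ^ p) ^ p ^ n = 1 := by rw [← pow_mul, ← pow_succ']; exact hηp
    have h2 : η ^ p - 1 ∈ A.nonunits := by
      have h3 : η ^ p - 1 = (η - 1) * ∑ j ∈ Finset.range p, η ^ j := by rw [mul_geom_sum]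
      rw [h3]
      exact pt_nonunits_mul_mem A _ _ hsub (sum_mem fun j _ => pow_mem hηA j)
    exact kum_root_eq_one p q hq A hA η (ih (η ^ p) h1 h2) hsub

/-- If an inertia element at `q ≠ p` fixes `α ^ p ^ n` and `c ≠ 0`, and `α * c` is a unit of the
valuation subring, then it fixes `α`. -/
theorem kum_inertia_fix (p : ℕ) [Fact p.Prime] (q : ℕ) (hq : Nat.Coprime p q)
    (A : ValuationSubring Qb) (hA : A.LiesOverPrime q) (σ : Γ)
    (hσ : σ ∈ A.inertiaSubgroupIn ℚ) (n : ℕ) (α c : Qb)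
    (hα : σ (α ^ p ^ n) = α ^ p ^ n) (hc : σ c = c) (hc0 : c ≠ 0)
    (hu : α * c ∈ A) (hu' : (α * c)⁻¹ ∈ A) : σ α = α := by
  by_cases hα0 : α = 0
  · rw [hα0, map_zero]
  set η : Qb := σ α * α⁻¹ with hη
  have hηp : η ^ p ^ n = 1 := by
    rw [hη, mul_pow, ← map_pow, hα, inv_pow, mul_inv_cancel₀ (pow_ne_zero _ hα0)]
  have hsub : η - 1 ∈ A.nonunits := by
    have h1 := ((pt_mem_inertia_iff A σ).mp hσ).2 (α * c) hu
    have h2 := pt_nonunits_mul_mem A _ _ h1 hu'
    have h3 : (σ (α * c) - α * c) * (α * c)⁻¹ = η - 1 := by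
      rw [map_mul, hc, hη]
      field_simp
    rw [h3] at h2
    exact h2
  have h1 := kum_root_pow_eq_one p q hq A hA n η hηp hsub
  rw [hη] at h1
  exact (mul_inv_eq_one₀ hα0).mp h1

/-- An automorphism fixing `α` fixes `ℚ⟮α⟯` pointwise. -/
theorem kum_mem_fixingSubgroup_adjoin (σ : Γ) (α : Qb) (h : σ α = α) :
    σ ∈ (IntermediateField.adjoin ℚ {α}).fixingSubgroup := by
  rw [IntermediateField.mem_fixingSubgroup_iff]
  intro x hx
  induction hx using IntermediateField.adjoin_induction with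
  | mem x hx =>
    rw [Set.mem_singleton_iff] at hx
    rw [hx, h]
  | algebraMap x => exact σ.commutes x
  | add x y _ _ hx hy => rw [map_add, hx, hy]
  | inv x _ hx => rw [map_inv₀, hx]
  | mul x y _ _ hx hy => rw [map_mul, hx, hy]

/-- **Kummer extensions unramified outside `S`** (valuation-subring form). If `F` is unramified
outside `S`, `p ∈ S`, `α ^ p ^ n ∈ F`, and for every valuation subring `A` of `ℚ̄` over a prime
outside `S` some `F`-multiple `α * c` (`c ≠ 0`) is a unit of `A`, then `F(α)` is unramified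
outside `S`. -/
theorem kum_isUnramifiedOutside (p : ℕ) [Fact p.Prime] (S : Finset Nat.Primes)
    (hpS : pPrime p ∈ S) (F : IntermediateField ℚ Qb) (hF : F.IsUnramifiedOutside S)
    (n : ℕ) (α : Qb) (hα : α ^ p ^ n ∈ F)
    (hunit : ∀ q : Nat.Primes, q ∉ S → ∀ A : ValuationSubring Qb, A.LiesOverPrime (q : ℕ) →
      ∃ c ∈ F, c ≠ 0 ∧ α * c ∈ A ∧ (α * c)⁻¹ ∈ A) :
    (F ⊔ IntermediateField.adjoin ℚ {α}).IsUnramifiedOutside S := by
  have := hF.1
  have hαint : IsIntegral ℚ α := (AlgebraicClosure.isAlgebraic ℚ).isIntegral.1 α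
  have : FiniteDimensional ℚ (IntermediateField.adjoin ℚ {α}) :=
    IntermediateField.adjoin.finiteDimensional hαint
  refine ⟨IntermediateField.finiteDimensional_sup F _, fun q hqS A hA σ hσ => ?_⟩
  rw [IntermediateField.fixingSubgroup_sup]
  have hσF : σ ∈ F.fixingSubgroup := hF.2 q hqS A hA hσ
  refine ⟨hσF, ?_⟩
  obtain ⟨c, hcF, hc0, hu, hu'⟩ := hunit q hqS A hA
  have hfix : ∀ x ∈ F, σ x = x := (IntermediateField.mem_fixingSubgroup_iff F σ).mp hσF
  have hpq : Nat.Coprime p (q : ℕ) := by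
    rw [Nat.coprime_primes (Fact.out : p.Prime) q.2]
    intro h
    apply hqS
    have : q = pPrime p := Subtype.ext h.symm
    rw [this]
    exact hpS
  exact kum_mem_fixingSubgroup_adjoin σ α
    (kum_inertia_fix p q hpq A hA σ hσ n α c (hfix _ hα) (hfix c hcF) hc0 hu hu')

/-! ### The prime of `𝓞 F` cut out by a valuation subring of `ℚ̄` -/

/-- Algebraic integers lie in every valuation subring of `ℚ̄`. -/
theorem kum_integral_mem (A : ValuationSubring Qb) (x : Qb) (hx : IsIntegral ℤ x) : x ∈ A := by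
  have h1 : IsIntegral A x := hx.tower_top
  obtain ⟨y, hy⟩ := IsIntegrallyClosed.isIntegral_iff.mp h1
  rw [← hy]
  exact y.2

section prime

variable (F : IntermediateField ℚ Qb) [NumberField F]

omit [NumberField F] in
theorem kum_coe_integer_mem (A : ValuationSubring Qb) (x : 𝓞 F) : ((x : F) : Qb) ∈ A :=
  kum_integral_mem A _ (IntermediateField.coe_isIntegral_iff.mpr x.2)

/-- The ring homomorphism `𝓞 F → A` for a valuation subring `A` of `ℚ̄`. -/
noncomputable def kum_toVal (A : ValuationSubring Qb) : 𝓞 F →+* A :=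
  ((algebraMap F Qb).comp (algebraMap (𝓞 F) F)).codRestrict A.toSubring
    (fun x => kum_coe_integer_mem F A x)

omit [NumberField F] in
theorem kum_toVal_coe (A : ValuationSubring Qb) (x : 𝓞 F) :
    ((kum_toVal F A x : A) : Qb) = ((x : F) : Qb) := rfl

/-- The prime of `𝓞 F` below a valuation subring `A` of `ℚ̄` lying over a rational prime. -/
noncomputable def kum_prime (A : ValuationSubring Qb) (q : ℕ) (hq0 : q ≠ 0)
    (hA : A.LiesOverPrime q) : HeightOneSpectrum (𝓞 F) where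
  asIdeal := (IsLocalRing.maximalIdeal A).comap (kum_toVal F A)
  isPrime := Ideal.comap_isPrime _ _
  ne_bot := by
    intro h
    have h1 : ((q : ℕ) : 𝓞 F) ∈ (IsLocalRing.maximalIdeal A).comap (kum_toVal F A) := by
      rw [Ideal.mem_comap, ← ValuationSubring.coe_mem_nonunits_iff, kum_toVal_coe]
      have h2 : (((q : 𝓞 F) : F) : Qb) = (q : Qb) := by simp
      rw [h2]
      exact hA
    rw [h, Ideal.mem_bot] at h1
    exact hq0 (by exact_mod_cast h1)

omit [NumberField F] in
theorem kum_mem_prime_iff (A : ValuationSubring Qb) (q : ℕ) (hq0 : q ≠ 0)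
    (hA : A.LiesOverPrime q) (x : 𝓞 F) :
    x ∈ (kum_prime F A q hq0 hA).asIdeal ↔ ((x : F) : Qb) ∈ A.nonunits := by
  show x ∈ (IsLocalRing.maximalIdeal A).comap (kum_toVal F A) ↔ _
  rw [Ideal.mem_comap, ← ValuationSubring.coe_mem_nonunits_iff, kum_toVal_coe]

/-- Elements of `F` that are integral at `kum_prime F A` lie in `A`. -/
theorem kum_mem_of_valuation_le_one (A : ValuationSubring Qb) (q : ℕ) (hq0 : q ≠ 0)
    (hA : A.LiesOverPrime q) (x : F)
    (h : (kum_prime F A q hq0 hA).valuation F x ≤ 1) : (x : Qb) ∈ A := by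
  obtain ⟨n, d, hnd⟩ := (kum_prime F A q hq0 hA).exists_primeCompl_mul_eq_of_integer x h
  have hd : ((d : 𝓞 F) : F) ≠ 0 := by
    intro h0
    have h1 : (d : 𝓞 F) = 0 := by exact_mod_cast h0
    exact d.2 (by rw [h1]; exact Ideal.zero_mem _)
  have hdA : (((d : 𝓞 F) : F) : Qb) ∈ A := kum_coe_integer_mem F A d
  have hdu : (((d : 𝓞 F) : F) : Qb)⁻¹ ∈ A := by
    have h1 : ¬ (((d : 𝓞 F) : F) : Qb) ∈ A.nonunits := fun h2 =>
      d.2 ((kum_mem_prime_iff F A q hq0 hA d).mpr h2)
    rw [ValuationSubring.mem_nonunits_iff, not_lt] at h1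
    rw [← ValuationSubring.valuation_le_one_iff, map_inv₀]
    exact inv_le_one_of_one_le₀ h1
  have hx : (x : Qb) = (((n : 𝓞 F) : F) : Qb) * (((d : 𝓞 F) : F) : Qb)⁻¹ := by
    have h1 : x * ((d : 𝓞 F) : F) = ((n : 𝓞 F) : F) := hnd
    have hd' : (((d : 𝓞 F) : F) : Qb) ≠ 0 := by exact_mod_cast hd
    rw [← h1]
    push_cast
    field_simp
  rw [hx]
  exact mul_mem (kum_coe_integer_mem F A n) hdu

/-- Elements of `F` of valuation `1` at `kum_prime F A` are units of `A`. -/
theorem kum_unit_of_valuation_eq_one (A : ValuationSubring Qb) (q : ℕ) (hq0 : q ≠ 0)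
    (hA : A.LiesOverPrime q) (x : F)
    (h : (kum_prime F A q hq0 hA).valuation F x = 1) : (x : Qb) ∈ A ∧ (x : Qb)⁻¹ ∈ A := by
  refine ⟨kum_mem_of_valuation_le_one F A q hq0 hA x h.le, ?_⟩
  have h1 : (kum_prime F A q hq0 hA).valuation F x⁻¹ ≤ 1 := by rw [map_inv₀, h, inv_one]
  have h2 := kum_mem_of_valuation_le_one F A q hq0 hA x⁻¹ h1
  simpa using h2

/-- If `u ^ N` is a unit of `A` (`N ≠ 0`), then so is `u`. -/
theorem kum_unit_of_pow (A : ValuationSubring Qb) (N : ℕ) (hN : N ≠ 0) (u : Qb)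
    (h1 : u ^ N ∈ A) (h2 : (u ^ N)⁻¹ ∈ A) : u ∈ A ∧ u⁻¹ ∈ A := by
  have key : ∀ w : Qb, w ^ N ∈ A → w ∈ A := by
    intro w hw
    rcases A.mem_or_inv_mem w with h | h
    · exact h
    · by_cases hw0 : w = 0
      · rw [hw0]; exact zero_mem _
      have h3 : w = w ^ N * (w⁻¹) ^ (N - 1) := by
        rw [inv_pow]
        rw [eq_mul_inv_iff_mul_eq₀ (pow_ne_zero _ hw0), ← pow_succ',
          Nat.sub_add_cancel (Nat.pos_of_ne_zero hN)]
      rw [h3]
      exact mul_mem hw (pow_mem h _)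
  refine ⟨key u h1, key u⁻¹ ?_⟩
  rw [inv_pow]
  exact h2

/-- **Kummer extensions unramified outside `S`** (adic-valuation form). Let `F` be unramified
outside `S`, `p ∈ S`, `a ∈ F` and `α ^ p ^ n = a`. If at every prime `v` of `F` not containing
any prime of `S`, the element `a` is a unit times a `p^n`-th power, then `F(α)` is unramified
outside `S`. -/
theorem kum_isUnramifiedOutside_of_val (p : ℕ) [Fact p.Prime] (S : Finset Nat.Primes)
    (hpS : pPrime p ∈ S) (hF : F.IsUnramifiedOutside S)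
    (n : ℕ) (a : F) (α : Qb) (hα : α ^ p ^ n = (a : Qb))
    (hval : ∀ v : HeightOneSpectrum (𝓞 F),
      (∀ q : Nat.Primes, q ∈ S → (((q : ℕ) : ℕ) : 𝓞 F) ∉ v.asIdeal) →
      ∃ c : F, v.valuation F (a * c ^ p ^ n) = 1) :
    (F ⊔ IntermediateField.adjoin ℚ {α}).IsUnramifiedOutside S := by
  have hp : p ≠ 0 := (Fact.out : p.Prime).ne_zero
  refine kum_isUnramifiedOutside p S hpS F hF n α (by rw [hα]; exact a.2) ?_
  intro q hqS A hA
  have hq0 : (q : ℕ) ≠ 0 := q.2.ne_zero
  set v := kum_prime F A (q : ℕ) hq0 hA with hv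
  have hvS : ∀ q' : Nat.Primes, q' ∈ S → (((q' : ℕ) : ℕ) : 𝓞 F) ∉ v.asIdeal := by
    intro q' hq'S hmem
    have hne : q' ≠ q := fun h => hqS (h ▸ hq'S)
    have h1 : (((q' : ℕ) : 𝓞 F) : F) = ((q' : ℕ) : F) := by simp
    have hq'm : ((q' : ℕ) : Qb) ∈ A.nonunits := by
      have h2 := (kum_mem_prime_iff F A (q : ℕ) hq0 hA _).mp hmem
      have h3 : ((((q' : ℕ) : 𝓞 F) : F) : Qb) = ((q' : ℕ) : Qb) := by simp
      rw [h3] at h2
      exact h2
    have hqm : ((q : ℕ) : Qb) ∈ A.nonunits := hA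
    have hcop : IsCoprime ((q' : ℕ) : ℤ) ((q : ℕ) : ℤ) := by
      apply Nat.isCoprime_iff_coprime.mpr
      rw [Nat.coprime_primes q'.2 q.2]
      exact fun h => hne (Subtype.ext h)
    obtain ⟨x, y, hxy⟩ := hcop
    have h4 : (1 : Qb) ∈ A.nonunits := by
      have h5 : (1 : Qb) = x • ((q' : ℕ) : Qb) + y • ((q : ℕ) : Qb) := by
        have := congrArg (Int.cast : ℤ → Qb) hxy
        push_cast at this
        rw [zsmul_eq_mul, zsmul_eq_mul]
        exact this.symm
      rw [h5]
      exact add_mem (zsmul_mem hq'm x) (zsmul_mem hqm y)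
    rw [ValuationSubring.mem_nonunits_iff, map_one] at h4
    exact lt_irrefl _ h4
  obtain ⟨c, hc⟩ := hval v hvS
  have hc0 : c ≠ 0 := by
    rintro rfl
    rw [zero_pow (pow_ne_zero _ hp), mul_zero, map_zero] at hc
    exact zero_ne_one hc
  obtain ⟨hu1, hu2⟩ := kum_unit_of_valuation_eq_one F A (q : ℕ) hq0 hA _ hc
  have hpow : (α * (c : Qb)) ^ p ^ n = ((a * c ^ p ^ n : F) : Qb) := by
    rw [mul_pow, hα]
    push_cast
    rfl
  obtain ⟨h1, h2⟩ := kum_unit_of_pow A (p ^ n) (pow_ne_zero _ hp) (α * (c : Qb))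
    (by rw [hpow]; exact hu1) (by rw [hpow]; exact hu2)
  exact ⟨(c : Qb), c.2, by exact_mod_cast hc0, h1, h2⟩

end prime

end Fermat.Agent.S55
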