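import Mathlib
import Fermat.Agent.S55.KumUnram
import Fermat.Agent.S55.ShapLevel
import Fermat.Agent.S55.IfaceHc

/-!
# S55 block KUM, part 2: Kummer characters

For a primitive `p`-th root of unity `ζ ∈ ℚ̄` we define the discrete logarithm
`kum_log ζ : μ_p → ZMod p` and the Kummer cochain `kum_kappa p ζ θ σ = log (σ θ / θ)`.
For a number field `k ∋ ζ` inside `ℚ̄` and `a ∈ kˣ` the Kummer character
`kum_char p ζ k a : k.fixingSubgroup → ZMod p` is a homomorphism, additive in `a`, trivial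
exactly on `p`-th powers, and of level `S` as soon as `a` is a unit times a `p`-th power at
every prime of `k` outside `S`.
-/

set_option autoImplicit false

open ExtCitation IsDedekindDomain NumberField

namespace Fermat.Agent.S55

local notation "Qb" => AlgebraicClosure ℚ
local notation "Γ" => (AlgebraicClosure ℚ ≃ₐ[ℚ] AlgebraicClosure ℚ)

attribute [local instance] pt_qbar_isAlgebraic pt_qbar_isAlgClosure pt_qbar_isGalois

section log

variable {p : ℕ} [Fact p.Prime] {ζ : Qb}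

open Classical in
/-- the discrete logarithm on `μ_p` (junk value `0` outside `μ_p`). -/
noncomputable def kum_log (p : ℕ) (ζ : Qb) (x : Qb) : ZMod p :=
  if h : ∃ j : ZMod p, ζ ^ j.val = x then Classical.choose h else 0

theorem kum_pow_val_add (hζ : IsPrimitiveRoot ζ p) (a b : ZMod p) :
    ζ ^ (a + b).val = ζ ^ a.val * ζ ^ b.val := by
  rw [ZMod.val_add, ← pow_add, ← pow_eq_pow_mod _ hζ.pow_eq_one]

theorem kum_pow_val_inj (hζ : IsPrimitiveRoot ζ p) {a b : ZMod p}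
    (h : ζ ^ a.val = ζ ^ b.val) : a = b :=
  ZMod.val_injective p (hζ.pow_inj (ZMod.val_lt a) (ZMod.val_lt b) h)

theorem kum_exists_log (hζ : IsPrimitiveRoot ζ p) {x : Qb} (hx : x ^ p = 1) :
    ∃ j : ZMod p, ζ ^ j.val = x := by
  obtain ⟨i, hi, hix⟩ := hζ.eq_pow_of_pow_eq_one hx
  exact ⟨(i : ZMod p), by rw [ZMod.val_natCast_of_lt hi, hix]⟩

theorem kum_log_spec (hζ : IsPrimitiveRoot ζ p) {x : Qb} (hx : x ^ p = 1) :
    ζ ^ (kum_log p ζ x).val = x := by
  have h := kum_exists_log hζ hx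
  rw [kum_log, dif_pos h]
  exact Classical.choose_spec h

theorem kum_log_pow_val (hζ : IsPrimitiveRoot ζ p) (a : ZMod p) :
    kum_log p ζ (ζ ^ a.val) = a := by
  have hx : (ζ ^ a.val) ^ p = 1 := by rw [← pow_mul, mul_comm, pow_mul, hζ.pow_eq_one, one_pow]
  exact kum_pow_val_inj hζ (kum_log_spec hζ hx)

theorem kum_log_mul (hζ : IsPrimitiveRoot ζ p) {x y : Qb} (hx : x ^ p = 1) (hy : y ^ p = 1) :
    kum_log p ζ (x * y) = kum_log p ζ x + kum_log p ζ y := by
  have hxy : (x * y) ^ p = 1 := by rw [mul_pow, hx, hy, one_mul]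
  apply kum_pow_val_inj hζ
  rw [kum_log_spec hζ hxy, kum_pow_val_add hζ, kum_log_spec hζ hx, kum_log_spec hζ hy]

theorem kum_log_one (hζ : IsPrimitiveRoot ζ p) : kum_log p ζ 1 = 0 := by
  apply kum_pow_val_inj hζ
  rw [kum_log_spec hζ (one_pow p), ZMod.val_zero, pow_zero]

theorem kum_log_eq_zero_iff (hζ : IsPrimitiveRoot ζ p) {x : Qb} (hx : x ^ p = 1) :
    kum_log p ζ x = 0 ↔ x = 1 := by
  constructor
  · intro h
    have h1 := kum_log_spec hζ hx
    rw [h, ZMod.val_zero, pow_zero] at h1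
    exact h1.symm
  · rintro rfl
    exact kum_log_one hζ

theorem kum_log_inv (hζ : IsPrimitiveRoot ζ p) {x : Qb} (hx : x ^ p = 1) :
    kum_log p ζ x⁻¹ = - kum_log p ζ x := by
  have hx0 : x ≠ 0 := by
    rintro rfl
    rw [zero_pow (Fact.out : p.Prime).ne_zero] at hx
    exact zero_ne_one hx
  have hxi : x⁻¹ ^ p = 1 := by rw [inv_pow, hx, inv_one]
  have h := kum_log_mul hζ hx hxi
  rw [mul_inv_cancel₀ hx0, kum_log_one hζ] at h
  exact eq_neg_of_add_eq_zero_right h.symm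

theorem kum_log_div (hζ : IsPrimitiveRoot ζ p) {x y : Qb} (hx : x ^ p = 1) (hy : y ^ p = 1) :
    kum_log p ζ (x / y) = kum_log p ζ x - kum_log p ζ y := by
  have hyi : y⁻¹ ^ p = 1 := by rw [inv_pow, hy, inv_one]
  rw [div_eq_mul_inv, kum_log_mul hζ hx hyi, kum_log_inv hζ hy, sub_eq_add_neg]

/-- an automorphism fixing `ζ` fixes every `p`-th root of unity. -/
theorem kum_fix_root (hζ : IsPrimitiveRoot ζ p) {σ : Γ} (hσ : σ ζ = ζ) {x : Qb}
    (hx : x ^ p = 1) : σ x = x := by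
  obtain ⟨j, rfl⟩ := kum_exists_log hζ hx
  rw [map_pow, hσ]

end log

section kappa

variable {p : ℕ} [Fact p.Prime] {ζ : Qb}

/-- the Kummer cochain of `θ`: `σ ↦ log (σ θ / θ)`. -/
noncomputable def kum_kappa (p : ℕ) (ζ θ : Qb) (σ : Γ) : ZMod p :=
  kum_log p ζ (σ θ / θ)

theorem kum_quot_pow {θ : Qb} (hθ0 : θ ≠ 0) {σ : Γ} (hσ : σ (θ ^ p) = θ ^ p) :
    (σ θ / θ) ^ p = 1 := by
  rw [div_pow, ← map_pow, hσ, div_self (pow_ne_zero _ hθ0)]

theorem kum_kappa_spec (hζ : IsPrimitiveRoot ζ p) {θ : Qb} (hθ0 : θ ≠ 0) {σ : Γ}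
    (hσ : σ (θ ^ p) = θ ^ p) : σ θ = ζ ^ (kum_kappa p ζ θ σ).val * θ := by
  rw [kum_kappa, kum_log_spec hζ (kum_quot_pow hθ0 hσ), div_mul_cancel₀ _ hθ0]

theorem kum_kappa_eq_zero_iff (hζ : IsPrimitiveRoot ζ p) {θ : Qb} (hθ0 : θ ≠ 0) {σ : Γ}
    (hσ : σ (θ ^ p) = θ ^ p) : kum_kappa p ζ θ σ = 0 ↔ σ θ = θ := by
  rw [kum_kappa, kum_log_eq_zero_iff hζ (kum_quot_pow hθ0 hσ), div_eq_one_iff_eq hθ0]

theorem kum_kappa_mul (hζ : IsPrimitiveRoot ζ p) {θ : Qb} (hθ0 : θ ≠ 0) {σ τ : Γ}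
    (hσζ : σ ζ = ζ) (hσ : σ (θ ^ p) = θ ^ p) (hτ : τ (θ ^ p) = θ ^ p) :
    kum_kappa p ζ θ (σ * τ) = kum_kappa p ζ θ σ + kum_kappa p ζ θ τ := by
  have h1 : (σ * τ) θ / θ = σ θ / θ * (τ θ / θ) := by
    have h2 : σ (τ θ / θ) = τ θ / θ := kum_fix_root hζ hσζ (kum_quot_pow hθ0 hτ)
    have h3 : σ (τ θ) = τ θ / θ * σ θ := by
      have h4 : τ θ = τ θ / θ * θ := (div_mul_cancel₀ _ hθ0).symm
      conv_lhs => rw [h4, map_mul, h2]
    rw [AlgEquiv.mul_apply, h3]
    field_simp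
  rw [kum_kappa, h1, kum_log_mul hζ (kum_quot_pow hθ0 hσ) (kum_quot_pow hθ0 hτ)]
  rfl

/-- the Kummer cochain is invariant under right translation by automorphisms fixing `θ`. -/
theorem kum_kappa_mul_right (ζ θ : Qb) (σ n : Γ) (hn : n θ = θ) :
    kum_kappa p ζ θ (σ * n) = kum_kappa p ζ θ σ := by
  rw [kum_kappa, kum_kappa, AlgEquiv.mul_apply, hn]

theorem kum_kappa_prod (hζ : IsPrimitiveRoot ζ p) {θ θ' : Qb} (hθ0 : θ ≠ 0) (hθ'0 : θ' ≠ 0)
    {σ : Γ} (hσ : σ (θ ^ p) = θ ^ p) (hσ' : σ (θ' ^ p) = θ' ^ p) :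
    kum_kappa p ζ (θ * θ') σ = kum_kappa p ζ θ σ + kum_kappa p ζ θ' σ := by
  have h1 : σ (θ * θ') / (θ * θ') = σ θ / θ * (σ θ' / θ') := by
    rw [map_mul]
    field_simp
  rw [kum_kappa, h1, kum_log_mul hζ (kum_quot_pow hθ0 hσ) (kum_quot_pow hθ'0 hσ')]
  rfl

/-- the Kummer cochain only depends on `θ ^ p` (on automorphisms fixing `ζ`). -/
theorem kum_kappa_congr (hζ : IsPrimitiveRoot ζ p) {θ θ' : Qb} (hθ0 : θ ≠ 0)
    (h : θ' ^ p = θ ^ p) {σ : Γ} (hσζ : σ ζ = ζ) :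
    kum_kappa p ζ θ' σ = kum_kappa p ζ θ σ := by
  have hθ'0 : θ' ≠ 0 := by
    rintro rfl
    rw [zero_pow (Fact.out : p.Prime).ne_zero] at h
    exact pow_ne_zero _ hθ0 h.symm
  have h1 : (θ' / θ) ^ p = 1 := by rw [div_pow, h, div_self (pow_ne_zero _ hθ0)]
  have h2 : σ (θ' / θ) = θ' / θ := kum_fix_root hζ hσζ h1
  have h3 : σ θ' / θ' = σ θ / θ := by
    rw [map_div₀] at h2
    have hσθ : σ θ ≠ 0 := by simpa using hθ0
    field_simp at h2 ⊢
    linear_combination h2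
  rw [kum_kappa, kum_kappa, h3]

end kappa

section char

variable (p : ℕ) [Fact p.Prime] (ζ : Qb) (k : IntermediateField ℚ Qb)

/-- a chosen `p`-th root. -/
noncomputable def kum_root (p : ℕ) [Fact p.Prime] (a : Qb) : Qb :=
  Classical.choose (IsAlgClosed.exists_pow_nat_eq a (Fact.out : p.Prime).pos)

theorem kum_root_pow (a : Qb) : kum_root p a ^ p = a :=
  Classical.choose_spec (IsAlgClosed.exists_pow_nat_eq a (Fact.out : p.Prime).pos)

theorem kum_root_ne_zero {a : Qb} (ha : a ≠ 0) : kum_root p a ≠ 0 := by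
  intro h
  have h1 := kum_root_pow p a
  rw [h, zero_pow (Fact.out : p.Prime).ne_zero] at h1
  exact ha h1.symm

/-- the Kummer character of `a ∈ kˣ` on `k.fixingSubgroup`. -/
noncomputable def kum_char (a : kˣ) : ↥k.fixingSubgroup → ZMod p :=
  fun σ => kum_kappa p ζ (kum_root p (((a : k) : Qb))) (σ : Γ)

variable {p ζ k}

theorem kum_fix_of_mem {σ : Γ} (hσ : σ ∈ k.fixingSubgroup) {x : Qb} (hx : x ∈ k) : σ x = x :=
  (IntermediateField.mem_fixingSubgroup_iff k σ).mp hσ x hx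

theorem kum_unit_ne_zero (a : kˣ) : (((a : k) : Qb)) ≠ 0 := by
  have h : ((a : k)) ≠ 0 := a.ne_zero
  exact fun h0 => h (Subtype.ext h0)

theorem kum_root_fix (a : kˣ) (σ : ↥k.fixingSubgroup) :
    (σ : Γ) (kum_root p (((a : k) : Qb)) ^ p) = kum_root p (((a : k) : Qb)) ^ p := by
  rw [kum_root_pow]
  exact kum_fix_of_mem σ.2 (a : k).2

/-- the Kummer character is a homomorphism. -/
theorem kum_char_mul (hζ : IsPrimitiveRoot ζ p) (hζk : ζ ∈ k) (a : kˣ)
    (σ τ : ↥k.fixingSubgroup) :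
    kum_char p ζ k a (σ * τ) = kum_char p ζ k a σ + kum_char p ζ k a τ :=
  kum_kappa_mul hζ (kum_root_ne_zero p (kum_unit_ne_zero a)) (kum_fix_of_mem σ.2 hζk)
    (kum_root_fix a σ) (kum_root_fix a τ)

/-- the Kummer character is additive in `a`. -/
theorem kum_char_mul_left (hζ : IsPrimitiveRoot ζ p) (hζk : ζ ∈ k) (a b : kˣ)
    (σ : ↥k.fixingSubgroup) :
    kum_char p ζ k (a * b) σ = kum_char p ζ k a σ + kum_char p ζ k b σ := by
  have ha0 := kum_root_ne_zero p (kum_unit_ne_zero a)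
  have hb0 := kum_root_ne_zero p (kum_unit_ne_zero b)
  have h1 : kum_root p ((((a * b : kˣ) : k)) : Qb) ^ p
      = (kum_root p (((a : k) : Qb)) * kum_root p (((b : k) : Qb))) ^ p := by
    rw [kum_root_pow, mul_pow, kum_root_pow, kum_root_pow]
    simp
  rw [kum_char, kum_kappa_congr hζ (mul_ne_zero ha0 hb0) h1 (kum_fix_of_mem σ.2 hζk),
    kum_kappa_prod hζ ha0 hb0 (kum_root_fix a σ) (kum_root_fix b σ)]
  rfl

/-- the Kummer character of `a` vanishes identically iff `a` is a `p`-th power in `k`. -/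
theorem kum_char_eq_zero_iff (hζ : IsPrimitiveRoot ζ p) (hζk : ζ ∈ k) (a : kˣ) :
    (∀ σ, kum_char p ζ k a σ = 0) ↔ a ∈ (powMonoidHom p : kˣ →* kˣ).range := by
  have ha0 := kum_root_ne_zero p (kum_unit_ne_zero a)
  constructor
  · intro h
    have hfix : ∀ σ : ↥k.fixingSubgroup, (σ : Γ) (kum_root p (((a : k) : Qb)))
        = kum_root p (((a : k) : Qb)) := fun σ =>
      (kum_kappa_eq_zero_iff hζ ha0 (kum_root_fix a σ)).mp (h σ)
    have hmem : kum_root p (((a : k) : Qb)) ∈ k := by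
      have h2 : kum_root p (((a : k) : Qb)) ∈ IntermediateField.fixedField k.fixingSubgroup := by
        rw [IntermediateField.mem_fixedField_iff]
        exact fun σ hσ => hfix ⟨σ, hσ⟩
      rw [InfiniteGalois.fixedField_fixingSubgroup k] at h2
      exact h2
    have hne : (⟨kum_root p (((a : k) : Qb)), hmem⟩ : k) ≠ 0 := fun h0 =>
      ha0 (congrArg Subtype.val h0)
    refine ⟨Units.mk0 _ hne, ?_⟩
    apply Units.ext
    apply Subtype.ext
    simp only [powMonoidHom_apply, Units.val_pow_eq_pow_val, Units.val_mk0,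
      SubmonoidClass.coe_pow]
    exact kum_root_pow p _
  · rintro ⟨b, rfl⟩ σ
    have hb0 : (((b : k) : Qb)) ≠ 0 := kum_unit_ne_zero b
    have h1 : kum_root p ((((powMonoidHom p b : kˣ) : k)) : Qb) ^ p = (((b : k) : Qb)) ^ p := by
      rw [kum_root_pow]
      simp
    rw [kum_char, kum_kappa_congr hζ hb0 h1 (kum_fix_of_mem σ.2 hζk),
      kum_kappa_eq_zero_iff hζ hb0 (kum_fix_of_mem σ.2 (pow_mem (b : k).2 p))]
    exact kum_fix_of_mem σ.2 (b : k).2

/-- **Level of the Kummer character.** If `k` is unramified outside `S ∋ p` and `a` is a unit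
times a `p`-th power at every prime of `k` not above `S`, then the Kummer character of `a` is
invariant under right translation by the fixing subgroup of a finite Galois extension of `ℚ`
unramified outside `S`. -/
theorem kum_char_level [NumberField k] (S : Finset Nat.Primes) (hpS : pPrime p ∈ S)
    (hk : k.IsUnramifiedOutside S) (a : kˣ)
    (hval : ∀ v : HeightOneSpectrum (𝓞 k),
      (∀ q : Nat.Primes, q ∈ S → (((q : ℕ) : ℕ) : 𝓞 k) ∉ v.asIdeal) →
      ∃ c : k, v.valuation k ((a : k) * c ^ p) = 1) :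
    ∃ K : IntermediateField ℚ Qb, K.IsUnramifiedOutside S ∧ IsGalois ℚ K ∧
      ∀ (σ n : ↥k.fixingSubgroup), (n : Γ) ∈ K.fixingSubgroup →
        kum_char p ζ k a (σ * n) = kum_char p ζ k a σ := by
  have h1 := kum_isUnramifiedOutside_of_val k p S hpS hk 1 (a : k)
    (kum_root p (((a : k) : Qb))) (by rw [pow_one, kum_root_pow]) (by simpa using hval)
  obtain ⟨K, hK, hKg, hle⟩ := pt_exists_galois_level S _ h1
  refine ⟨K, hK, hKg, fun σ n hn => ?_⟩
  have hθ : kum_root p (((a : k) : Qb)) ∈ K :=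
    hle ((le_sup_right : _ ≤ k ⊔ IntermediateField.adjoin ℚ {kum_root p (((a : k) : Qb))})
      (IntermediateField.mem_adjoin_simple_self ℚ _))
  exact kum_kappa_mul_right ζ _ (σ : Γ) (n : Γ) (kum_fix_of_mem hn hθ)

end char

end Fermat.Agent.S55
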