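import Mathlib
import Fermat.Agent.S55.KumChar

/-!
# S55 block TR-x, part 1: the "top digit" cochain of a Kummer class

Let `ζ` be a primitive `p`-th root of unity, `θ ∈ ℚ̄ˣ` and `γ = θ ^ p`.  For `σ ∈ Γ` put
`ev_ut p γ σ` := a chosen `p`-th root of `σ γ / γ` (it only depends on `σ γ`), and
`ev_beta p ζ θ σ := log (ev_ut p γ σ * θ / σ θ) ∈ ZMod p`.

* `ev_beta_d`: `β τ - β (σ τ) + β σ = log (σ (u τ) * u σ / u (σ τ))` (for `σ` fixing `ζ`);
* `ev_beta_d_level`: hence the coboundary of `β` is invariant under right translation by the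
  fixing subgroup of any normal field `K ∋ ζ, γ` containing the values of `u`, although `β`
  itself is only invariant under automorphisms fixing `θ` (`ev_beta_mul_right`);
* `ev_beta_add_kappa_mul_right`: `β + κ_ϖ` is invariant under right translation by automorphisms
  fixing `γ` and `ϖ / θ`;
* `ev_exists_level`: for a number field `k` unramified outside `S ∋ p` and `θ ^ p ^ (m+1) = α ∈ k`
  with `α` a unit times a `p^m`-th power at all primes of `k` outside `S`, there is a finite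
  Galois `K/ℚ` unramified outside `S` containing `k`, `γ`, `ζ` and all values of `u`.
-/

set_option autoImplicit false

open ExtCitation IsDedekindDomain NumberField

namespace Fermat.Agent.S55

local notation "Qb" => AlgebraicClosure ℚ
local notation "Γ" => (AlgebraicClosure ℚ ≃ₐ[ℚ] AlgebraicClosure ℚ)

attribute [local instance] pt_qbar_isAlgebraic pt_qbar_isAlgClosure pt_qbar_isGalois

section beta

variable {p : ℕ} [Fact p.Prime] {ζ θ : Qb}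

/-- a chosen `p`-th root of `σ γ / γ`. -/
noncomputable def ev_ut (p : ℕ) [Fact p.Prime] (γ : Qb) (σ : Γ) : Qb :=
  kum_root p (σ γ / γ)

theorem ev_ut_pow (γ : Qb) (σ : Γ) : ev_ut p γ σ ^ p = σ γ / γ := kum_root_pow p _

theorem ev_ut_ne_zero {γ : Qb} (hγ : γ ≠ 0) (σ : Γ) : ev_ut p γ σ ≠ 0 :=
  kum_root_ne_zero p (div_ne_zero (by simpa using hγ) hγ)

theorem ev_ut_congr (γ : Qb) {σ σ' : Γ} (h : σ γ = σ' γ) : ev_ut p γ σ = ev_ut p γ σ' := by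
  rw [ev_ut, ev_ut, h]

theorem ev_ut_mul_right (γ : Qb) (σ n : Γ) (hn : n γ = γ) :
    ev_ut p γ (σ * n) = ev_ut p γ σ :=
  ev_ut_congr γ (by rw [AlgEquiv.mul_apply, hn])

/-- the "top digit" cochain. -/
noncomputable def ev_beta (p : ℕ) [Fact p.Prime] (ζ θ : Qb) (σ : Γ) : ZMod p :=
  kum_log p ζ (ev_ut p (θ ^ p) σ * θ / σ θ)

theorem ev_b_pow (hθ0 : θ ≠ 0) (σ : Γ) : (ev_ut p (θ ^ p) σ * θ / σ θ) ^ p = 1 := by
  have h1 : σ θ ≠ 0 := by simpa using hθ0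
  rw [div_pow, mul_pow, ev_ut_pow, map_pow]
  field_simp

/-- the coboundary of `β` in terms of `u`. -/
theorem ev_beta_d (hζ : IsPrimitiveRoot ζ p) (hθ0 : θ ≠ 0) {σ : Γ} (hσ : σ ζ = ζ) (τ : Γ) :
    ev_beta p ζ θ τ - ev_beta p ζ θ (σ * τ) + ev_beta p ζ θ σ
      = kum_log p ζ (σ (ev_ut p (θ ^ p) τ) * ev_ut p (θ ^ p) σ / ev_ut p (θ ^ p) (σ * τ)) := by
  have hγ0 : θ ^ p ≠ 0 := pow_ne_zero _ hθ0
  have h1 : σ θ ≠ 0 := by simpa using hθ0
  have h2 : τ θ ≠ 0 := by simpa using hθ0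
  have h3 : σ (τ θ) ≠ 0 := by simpa using h2
  have hu1 := ev_ut_ne_zero (p := p) hγ0 (σ * τ)
  have hu2 := ev_ut_ne_zero (p := p) hγ0 τ
  have hfix : σ (ev_ut p (θ ^ p) τ * θ / τ θ) = ev_ut p (θ ^ p) τ * θ / τ θ :=
    kum_fix_root hζ hσ (ev_b_pow hθ0 τ)
  rw [map_div₀, map_mul] at hfix
  have hprod : ev_ut p (θ ^ p) τ * θ / τ θ * (ev_ut p (θ ^ p) σ * θ / σ θ)
      / (ev_ut p (θ ^ p) (σ * τ) * θ / (σ * τ) θ)
      = σ (ev_ut p (θ ^ p) τ) * ev_ut p (θ ^ p) σ / ev_ut p (θ ^ p) (σ * τ) := by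
    rw [← hfix, AlgEquiv.mul_apply]
    field_simp
  rw [← hprod, kum_log_div hζ _ (ev_b_pow hθ0 (σ * τ)),
    kum_log_mul hζ (ev_b_pow hθ0 τ) (ev_b_pow hθ0 σ)]
  · simp only [ev_beta]
    ring
  · rw [mul_pow, ev_b_pow hθ0 τ, ev_b_pow hθ0 σ, one_mul]

/-- the expression `σ (u τ) * u σ / u (σ τ)` is invariant under right translation of `σ`, `τ`
by the fixing subgroup of a normal field containing `γ` and the values of `u`. -/
theorem ev_A_level (K : IntermediateField ℚ Qb) (hnorm : ∀ (τ : Γ) (x : Qb), x ∈ K → τ x ∈ K)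
    {γ : Qb} (hγK : γ ∈ K) {σ τ n n' : Γ} (hn : n ∈ K.fixingSubgroup)
    (hn' : n' ∈ K.fixingSubgroup) (hutτ : ev_ut p γ τ ∈ K) :
    (σ * n) (ev_ut p γ (τ * n')) * ev_ut p γ (σ * n) / ev_ut p γ (σ * n * (τ * n'))
      = σ (ev_ut p γ τ) * ev_ut p γ σ / ev_ut p γ (σ * τ) := by
  have e1 : ev_ut p γ (τ * n') = ev_ut p γ τ := ev_ut_mul_right γ τ n' (kum_fix_of_mem hn' hγK)
  have e2 : ev_ut p γ (σ * n) = ev_ut p γ σ := ev_ut_mul_right γ σ n (kum_fix_of_mem hn hγK)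
  have e3 : ev_ut p γ (σ * n * (τ * n')) = ev_ut p γ (σ * τ) := by
    apply ev_ut_congr
    simp only [AlgEquiv.mul_apply]
    rw [kum_fix_of_mem hn' hγK, kum_fix_of_mem hn (hnorm τ γ hγK)]
  have e4 : (σ * n) (ev_ut p γ τ) = σ (ev_ut p γ τ) := by
    rw [AlgEquiv.mul_apply, kum_fix_of_mem hn hutτ]
  rw [e1, e2, e3, e4]

/-- **the coboundary of `β` has the level of `K`.** -/
theorem ev_beta_d_level (hζ : IsPrimitiveRoot ζ p) (hθ0 : θ ≠ 0) (K : IntermediateField ℚ Qb)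
    (hnorm : ∀ (τ : Γ) (x : Qb), x ∈ K → τ x ∈ K) (hζK : ζ ∈ K) (hγK : θ ^ p ∈ K)
    {σ τ n n' : Γ} (hσ : σ ζ = ζ) (hn : n ∈ K.fixingSubgroup) (hn' : n' ∈ K.fixingSubgroup)
    (hutτ : ev_ut p (θ ^ p) τ ∈ K) :
    ev_beta p ζ θ (τ * n') - ev_beta p ζ θ (σ * n * (τ * n')) + ev_beta p ζ θ (σ * n)
      = ev_beta p ζ θ τ - ev_beta p ζ θ (σ * τ) + ev_beta p ζ θ σ := by
  have hσn : (σ * n) ζ = ζ := by rw [AlgEquiv.mul_apply, kum_fix_of_mem hn hζK, hσ]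
  rw [ev_beta_d hζ hθ0 hσn, ev_beta_d hζ hθ0 hσ, ev_A_level K hnorm hγK hn hn' hutτ]

/-- `β` is invariant under right translation by automorphisms fixing `θ`. -/
theorem ev_beta_mul_right (ζ θ : Qb) (σ n : Γ) (hn : n θ = θ) :
    ev_beta p ζ θ (σ * n) = ev_beta p ζ θ σ := by
  have h1 : n (θ ^ p) = θ ^ p := by rw [map_pow, hn]
  rw [ev_beta, ev_beta, ev_ut_mul_right _ σ n h1, AlgEquiv.mul_apply, hn]

/-- `β + κ_ϖ` in terms of `ϖ / θ`. -/
theorem ev_beta_add_kappa (hζ : IsPrimitiveRoot ζ p) (hθ0 : θ ≠ 0) {ϖ : Qb} (hϖ0 : ϖ ≠ 0)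
    {σ : Γ} (hσϖ : σ (ϖ ^ p) = ϖ ^ p) :
    ev_beta p ζ θ σ + kum_kappa p ζ ϖ σ
      = kum_log p ζ (ev_ut p (θ ^ p) σ * (σ (ϖ / θ) / (ϖ / θ))) := by
  have h1 : σ θ ≠ 0 := by simpa using hθ0
  have h2 : ev_ut p (θ ^ p) σ * (σ (ϖ / θ) / (ϖ / θ))
      = ev_ut p (θ ^ p) σ * θ / σ θ * (σ ϖ / ϖ) := by
    rw [map_div₀]
    field_simp
  rw [h2, kum_log_mul hζ (ev_b_pow hθ0 σ) (kum_quot_pow hϖ0 hσϖ)]
  rfl

/-- `β + κ_ϖ` is invariant under right translation by automorphisms fixing `θ ^ p` and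
`ϖ / θ`. -/
theorem ev_beta_add_kappa_mul_right (hζ : IsPrimitiveRoot ζ p) (hθ0 : θ ≠ 0) {ϖ : Qb}
    (hϖ0 : ϖ ≠ 0) {σ i : Γ} (hσϖ : σ (ϖ ^ p) = ϖ ^ p) (hiϖ : i (ϖ ^ p) = ϖ ^ p)
    (hi1 : i (θ ^ p) = θ ^ p) (hi2 : i (ϖ / θ) = ϖ / θ) :
    ev_beta p ζ θ (σ * i) + kum_kappa p ζ ϖ (σ * i)
      = ev_beta p ζ θ σ + kum_kappa p ζ ϖ σ := by
  have hσi : (σ * i) (ϖ ^ p) = ϖ ^ p := by rw [AlgEquiv.mul_apply, hiϖ, hσϖ]
  rw [ev_beta_add_kappa hζ hθ0 hϖ0 hσi, ev_beta_add_kappa hζ hθ0 hϖ0 hσϖ,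
    ev_ut_mul_right _ σ i hi1, AlgEquiv.mul_apply, hi2]

end beta

section level

variable (p : ℕ) [Fact p.Prime]

/-- a finite Galois extension of `ℚ` is stable under all automorphisms of `ℚ̄`. -/
theorem ev_normal (K : IntermediateField ℚ Qb) [IsGalois ℚ K] (τ : Γ) (x : Qb) (hx : x ∈ K) :
    τ x ∈ K := by
  have h := AlgEquiv.restrictNormal_commutes τ K ⟨x, hx⟩
  rw [← show algebraMap K Qb ⟨x, hx⟩ = x from rfl, ← h]
  exact (τ.restrictNormal K ⟨x, hx⟩).2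

/-- the field generated by a `p`-power root of unity is unramified outside `S ∋ p`. -/
theorem ev_cyclotomic_unramified (S : Finset Nat.Primes) (hpS : pPrime p ∈ S) (n : ℕ)
    (ω : Qb) (hω : ω ^ p ^ n = 1) :
    (IntermediateField.adjoin ℚ {ω}).IsUnramifiedOutside S := by
  have h := kum_isUnramifiedOutside p S hpS ⊥ (IntermediateField.isUnramifiedOutside_bot S) n ω
    (by rw [hω]; exact one_mem _) (fun q _ A _ => by
      have hp : p ^ n ≠ 0 := pow_ne_zero _ (Fact.out : p.Prime).ne_zero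
      have hω0 : ω ≠ 0 := by
        rintro rfl
        rw [zero_pow hp] at hω
        exact zero_ne_one hω
      have hωi : ω⁻¹ ^ p ^ n = 1 := by rw [inv_pow, hω, inv_one]
      refine ⟨1, one_mem _, one_ne_zero, ?_, ?_⟩
      · rw [mul_one]
        exact pt_rootOfUnity_mem A (p ^ n) hp ω hω
      · rw [mul_one]
        exact pt_rootOfUnity_mem A (p ^ n) hp ω⁻¹ hωi)
  exact h.of_le le_sup_right

/-- **Existence of the level of `d β`.** -/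
theorem ev_exists_level (k : IntermediateField ℚ Qb) [NumberField k] (S : Finset Nat.Primes)
    (hpS : pPrime p ∈ S) (hk : k.IsUnramifiedOutside S) (m : ℕ) (α : k) (hα : α ≠ 0) (θ : Qb)
    (hθ : θ ^ p ^ (m + 1) = (α : Qb))
    (hval : ∀ v : HeightOneSpectrum (𝓞 k),
      (∀ q : Nat.Primes, q ∈ S → (((q : ℕ) : ℕ) : 𝓞 k) ∉ v.asIdeal) →
      ∃ c : k, v.valuation k (α * c ^ p ^ m) = 1) :
    ∃ K : IntermediateField ℚ Qb, K.IsUnramifiedOutside S ∧ IsGalois ℚ K ∧ k ≤ K ∧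
      θ ^ p ∈ K ∧ (∀ x : Qb, x ^ p ^ (m + 1) = 1 → x ∈ K) ∧
      ∀ σ : Γ, σ ∈ k.fixingSubgroup → ev_ut p (θ ^ p) σ ∈ K := by
  have hp0 : p ^ (m + 1) ≠ 0 := pow_ne_zero _ (Fact.out : p.Prime).ne_zero
  have hγ : (θ ^ p) ^ p ^ m = (α : Qb) := by rw [← pow_mul, ← pow_succ']; exact hθ
  have h1 := kum_isUnramifiedOutside_of_val k p S hpS hk m α (θ ^ p) hγ hval
  have : NeZero (p ^ (m + 1)) := ⟨hp0⟩
  obtain ⟨ω, hω⟩ := HasEnoughRootsOfUnity.exists_primitiveRoot Qb (p ^ (m + 1))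
  have h2 := ev_cyclotomic_unramified p S hpS (m + 1) ω hω.pow_eq_one
  obtain ⟨K, hK, hKg, hle⟩ := pt_exists_galois_level S _ (h1.sup h2)
  have hkK : k ≤ K := le_trans (le_trans le_sup_left le_sup_left) hle
  have hγK : θ ^ p ∈ K :=
    hle (le_sup_left (α := IntermediateField ℚ Qb)
      ((le_sup_right : _ ≤ k ⊔ IntermediateField.adjoin ℚ {θ ^ p})
        (IntermediateField.mem_adjoin_simple_self ℚ _)))
  have hωK : ω ∈ K :=
    hle (le_sup_right (α := IntermediateField ℚ Qb)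
      (IntermediateField.mem_adjoin_simple_self ℚ _))
  have hμ : ∀ x : Qb, x ^ p ^ (m + 1) = 1 → x ∈ K := by
    intro x hx
    obtain ⟨i, _, rfl⟩ := hω.eq_pow_of_pow_eq_one hx
    exact pow_mem hωK i
  refine ⟨K, hK, hKg, hkK, hγK, hμ, fun σ hσ => hμ _ ?_⟩
  have hα0 : (α : Qb) ≠ 0 := fun h0 => hα (Subtype.ext h0)
  rw [pow_succ', pow_mul, ev_ut_pow, div_pow, ← map_pow, hγ, kum_fix_of_mem hσ α.2,
    div_self hα0]

end level

end Fermat.Agent.S55
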