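import Fermat.Agent.S55.KumChar
import Fermat.Agent.S55.IfaceHc

/-!
# S55: the fixed field of a base-case subgroup

A subgroup `U` of `Gal(ℚ̄/ℚ)` which contains an `S`-level and is contained in the kernel of the
mod `p` cyclotomic character is `k.fixingSubgroup` for a number field `k ⊆ ℚ̄` unramified outside
`S` and containing the `p`-th roots of unity.
-/

set_option autoImplicit false

namespace Fermat.Agent.S55

open ExtCitation IsDedekindDomain NumberField

local notation "Qb" => AlgebraicClosure ℚ
local notation "Γ" => (AlgebraicClosure ℚ ≃ₐ[ℚ] AlgebraicClosure ℚ)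

attribute [local instance] pt_qbar_isAlgebraic pt_qbar_isAlgClosure pt_qbar_isGalois

/-- An automorphism with trivial mod `p` cyclotomic character fixes the `p`-th roots of unity. -/
theorem kum_fix_of_cycloChar_eq_one (p : ℕ) [Fact p.Prime] (g : Γ) (hg : cycloChar p g = 1)
    (t : Qb) (ht : t ^ p = 1) : g t = t := by
  have : NeZero p := ⟨(Fact.out : p.Prime).ne_zero⟩
  have ht0 : t ≠ 0 := by
    rintro rfl
    rw [zero_pow (Fact.out : p.Prime).ne_zero] at ht
    exact zero_ne_one ht
  have hmem : (Units.mk0 t ht0) ∈ rootsOfUnity p Qb := by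
    rw [mem_rootsOfUnity]
    apply Units.ext
    simpa using ht
  have h1 := modularCyclotomicCharacter.spec Qb (card_rootsOfUnity_eq_self p)
    (g : Qb ≃+* Qb) hmem
  have h2 : modularCyclotomicCharacter Qb (card_rootsOfUnity_eq_self p) (g : Qb ≃+* Qb) = 1 := hg
  have hval : (1 : ZMod p).val = 1 := by
    have : Fact (1 < p) := ⟨(Fact.out : p.Prime).one_lt⟩
    exact ZMod.val_one p
  rw [h2, Units.val_one, hval, pow_one] at h1
  simpa using h1

/-- **The fixed field of a base-case subgroup.** -/
theorem kum_exists_field (p : ℕ) [Fact p.Prime] (S : Finset Nat.Primes) (U : Subgroup Γ)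
    (hU : ∃ N ∈ (pt_globalLev S).S, N ≤ U) (hUχ : U ≤ (cycloChar p).ker) :
    ∃ k : IntermediateField ℚ Qb, k.IsUnramifiedOutside S ∧ (∀ t : Qb, t ^ p = 1 → t ∈ k) ∧
      k.fixingSubgroup = U := by
  obtain ⟨N, ⟨K, hK, hKg, rfl⟩, hNU⟩ := hU
  have := hK.1
  have hopen : IsOpen (U : Set Γ) := Subgroup.isOpen_mono hNU K.fixingSubgroup_isOpen
  have hclosed : IsClosed (U : Set Γ) := U.isClosed_of_isOpen hopen
  have hfix : (IntermediateField.fixedField U).fixingSubgroup = U :=
    InfiniteGalois.fixingSubgroup_fixedField ⟨U, hclosed⟩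
  have hle : IntermediateField.fixedField U ≤ K := by
    have h1 : IntermediateField.fixedField U ≤ IntermediateField.fixedField K.fixingSubgroup :=
      IntermediateField.fixedField_antitone hNU
    rwa [InfiniteGalois.fixedField_fixingSubgroup K] at h1
  refine ⟨IntermediateField.fixedField U, hK.of_le hle, fun t ht => ?_, hfix⟩
  rw [IntermediateField.mem_fixedField_iff]
  intro g hg
  exact kum_fix_of_cycloChar_eq_one p g (MonoidHom.mem_ker.mp (hUχ hg)) t ht

end Fermat.Agent.S55
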