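import Mathlib
import Fermat.Agent.S55.KumChar

/-!
# S55 block KUM: every character of order `p` is a Kummer character

`k ⊆ ℚ̄` a number field containing a primitive `p`-th root of unity `ζ`.  Every additive character
`χ : Gal(ℚ̄/k) → ZMod p` of finite level is the Kummer character of some `e ∈ kˣ`.

Proof by a Lagrange resolvent: if `χ` is trivial on `Gal(ℚ̄/F)` (`F` finite over `ℚ`), then
`θ = ∑_r ζ^{-c(r)} r(x)` (sum over the restrictions `r = σ|_F`, `σ ∈ Gal(ℚ̄/k)`, `c(r) = χ(σ)`)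
satisfies `τ θ = ζ^{χ τ} θ`, and `θ ≠ 0` for a suitable `x ∈ F` by Dedekind's independence of
characters.  Then `e = θ ^ p ∈ kˣ`.
-/

set_option autoImplicit false

open ExtCitation IsDedekindDomain NumberField

namespace Fermat.Agent.S55

local notation "Qb" => AlgebraicClosure ℚ
local notation "Γ" => (AlgebraicClosure ℚ ≃ₐ[ℚ] AlgebraicClosure ℚ)

attribute [local instance] pt_qbar_isAlgebraic pt_qbar_isAlgClosure pt_qbar_isGalois

/-- Every character of `Gal(ℚ̄/k)` of order `p` and finite level is a Kummer character, when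
`ζ_p ∈ k`. -/
theorem kumgen_exists {p : ℕ} [Fact p.Prime] {ζ : Qb} (hζ : IsPrimitiveRoot ζ p)
    (k : IntermediateField ℚ Qb) [FiniteDimensional ℚ k] (hζk : ζ ∈ k)
    (χ : ↥k.fixingSubgroup → ZMod p) (hmul : ∀ σ τ, χ (σ * τ) = χ σ + χ τ)
    (hlev : ∃ F : IntermediateField ℚ Qb, FiniteDimensional ℚ F ∧
      ∀ σ : ↥k.fixingSubgroup, (σ : Γ) ∈ F.fixingSubgroup → χ σ = 0) :
    ∃ e : (↥k)ˣ, ∀ σ, χ σ = kum_char p ζ k e σ := by
  classical
  obtain ⟨F, hFfin, hF⟩ := hlev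
  have hζ0 : ζ ≠ 0 := hζ.ne_zero (Fact.out : p.Prime).ne_zero
  -- basic properties of `χ`
  have hχ1 : χ 1 = 0 := by
    have h := hmul 1 1
    rw [mul_one] at h
    exact left_eq_add.mp h
  have hχinv : ∀ σ, χ σ⁻¹ = - χ σ := by
    intro σ
    have h := hmul σ⁻¹ σ
    rw [inv_mul_cancel, hχ1] at h
    exact eq_neg_of_add_eq_zero_left h.symm
  -- restrictions to `F`
  let res : ↥k.fixingSubgroup → (F →ₐ[ℚ] Qb) := fun σ => ((σ : Γ) : Qb →ₐ[ℚ] Qb).comp F.val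
  have hres : ∀ σ (x : F), res σ x = (σ : Γ) (x : Qb) := fun σ x => rfl
  have hconst : ∀ σ τ, res σ = res τ → χ σ = χ τ := by
    intro σ τ h
    have h1 : ((σ⁻¹ * τ : ↥k.fixingSubgroup) : Γ) ∈ F.fixingSubgroup := by
      rw [IntermediateField.mem_fixingSubgroup_iff]
      intro x hx
      have h2 : (σ : Γ) x = (τ : Γ) x := by
        have h3 := congrArg (fun r : F →ₐ[ℚ] Qb => r ⟨x, hx⟩) h
        simpa only [hres] using h3
      show ((σ : Γ)⁻¹ * (τ : Γ)) x = x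
      rw [AlgEquiv.mul_apply, ← h2]
      exact (σ : Γ).symm_apply_apply x
    have h3 := hF _ h1
    rw [hmul, hχinv] at h3
    exact (neg_add_eq_zero.mp h3)
  have : Fintype (F →ₐ[ℚ] Qb) := minpoly.AlgHom.fintype ℚ F Qb
  let R : Finset (F →ₐ[ℚ] Qb) := Finset.univ.filter (fun r => ∃ σ, res σ = r)
  have hR : ∀ r, r ∈ R ↔ ∃ σ, res σ = r := fun r => by
    simp only [R, Finset.mem_filter, Finset.mem_univ, true_and]
  let c : (F →ₐ[ℚ] Qb) → ZMod p := fun r => if h : ∃ σ, res σ = r then χ h.choose else 0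
  have hc : ∀ σ, c (res σ) = χ σ := fun σ => by
    have h : ∃ τ, res τ = res σ := ⟨σ, rfl⟩
    simp only [c, dif_pos h]
    exact hconst _ _ h.choose_spec
  -- the resolvent is non-zero for a suitable `x`
  have hex : ∃ x : F, ∑ r ∈ R, ζ ^ (- c r).val * r x ≠ 0 := by
    by_contra hcon
    push Not at hcon
    have hli := linearIndependent_toLinearMap ℚ F Qb
    have h0 : ∑ r ∈ R, (ζ ^ (- c r).val) • (r.toLinearMap : F →ₗ[ℚ] Qb) = 0 := by
      ext x
      rw [LinearMap.sum_apply, LinearMap.zero_apply, ← hcon x]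
      refine Finset.sum_congr rfl fun r _ => ?_
      rfl
    have h1 := (linearIndependent_iff'.mp hli) R (fun r => ζ ^ (- c r).val) h0 (res 1)
      ((hR _).mpr ⟨1, rfl⟩)
    exact pow_ne_zero _ hζ0 h1
  obtain ⟨x, hx⟩ := hex
  set θ : Qb := ∑ r ∈ R, ζ ^ (- c r).val * r x with hθ
  -- equivariance
  have hequi : ∀ τ : ↥k.fixingSubgroup, (τ : Γ) θ = ζ ^ (χ τ).val * θ := by
    intro τ
    have hτζ : (τ : Γ) ζ = ζ := kum_fix_of_mem τ.2 hζk
    have hcomp : ∀ (ρ σ : ↥k.fixingSubgroup),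
        ((ρ : Γ) : Qb →ₐ[ℚ] Qb).comp (res σ) = res (ρ * σ) := fun ρ σ => rfl
    rw [hθ, map_sum, Finset.mul_sum]
    refine Finset.sum_bij' (fun r _ => ((τ : Γ) : Qb →ₐ[ℚ] Qb).comp r)
      (fun r _ => (((τ⁻¹ : ↥k.fixingSubgroup) : Γ) : Qb →ₐ[ℚ] Qb).comp r) ?_ ?_ ?_ ?_ ?_
    · intro r hr
      obtain ⟨σ, rfl⟩ := (hR r).mp hr
      exact (hR _).mpr ⟨τ * σ, (hcomp τ σ).symm⟩
    · intro r hr
      obtain ⟨σ, rfl⟩ := (hR r).mp hr
      exact (hR _).mpr ⟨τ⁻¹ * σ, (hcomp τ⁻¹ σ).symm⟩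
    · intro r hr
      obtain ⟨σ, rfl⟩ := (hR r).mp hr
      rw [hcomp, hcomp, inv_mul_cancel_left]
    · intro r hr
      obtain ⟨σ, rfl⟩ := (hR r).mp hr
      rw [hcomp, hcomp, mul_inv_cancel_left]
    · intro r hr
      obtain ⟨σ, rfl⟩ := (hR r).mp hr
      rw [hcomp, hc, hc, map_mul, map_pow, hτζ, ← mul_assoc, ← kum_pow_val_add hζ, hmul]
      have e1 : χ τ + -(χ τ + χ σ) = - χ σ := by ring
      rw [e1]
      rfl
  have hθ0 : θ ≠ 0 := hx
  have hθp : θ ^ p ∈ k := by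
    have h2 : θ ^ p ∈ IntermediateField.fixedField k.fixingSubgroup := by
      rw [IntermediateField.mem_fixedField_iff]
      intro σ hσ
      rw [map_pow, hequi ⟨σ, hσ⟩, mul_pow, ← pow_mul, mul_comm _ p, pow_mul, hζ.pow_eq_one,
        one_pow, one_mul]
    rw [InfiniteGalois.fixedField_fixingSubgroup k] at h2
    exact h2
  have hne : (⟨θ ^ p, hθp⟩ : k) ≠ 0 := fun h0 => pow_ne_zero p hθ0 (congrArg Subtype.val h0)
  refine ⟨Units.mk0 _ hne, fun σ => ?_⟩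
  have h1 : kum_root p ((((Units.mk0 _ hne : (↥k)ˣ) : k)) : Qb) ^ p = θ ^ p := kum_root_pow p _
  rw [kum_char, kum_kappa_congr hζ hθ0 h1 (kum_fix_of_mem σ.2 hζk), kum_kappa, hequi σ,
    mul_div_assoc, div_self hθ0, mul_one, kum_log_pow_val hζ]

end Fermat.Agent.S55
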