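import Fermat.Agent.S55.EvArith
import Fermat.Agent.S55.EvBeta
import Fermat.Agent.S55.Places2
import Fermat.Agent.S55.KumField
import Fermat.Agent.S55.KumGen

/-!
# S55 block [G4a] (EV): assembly of the evaluation data

Let `k ⊆ ℚ̄` be a number field unramified outside `S ∋ p`, `ζ_p ∈ k`, `U = Gal(ℚ̄/k)`, and let
`χ : U → 𝔽_p` be a nonzero Kummer character.  We produce the data used to detect `χ` by a cone
2-cocycle (`ev_Data`):

* a prime `v` of `k` outside `S`;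
* the "top digit" cochain `β : Γ → 𝔽_p` (of finite level, `d β` of `S`-level on `U`),
  unramified at all places outside `S` not above `v`;
* a Kummer character `ψ` with `β + ψ` unramified above `v`, `ψ` ramified above `v`;
* `χ` is nonzero on the decomposition groups above `v`.

The two local inputs (EV1), (EV2) are hypotheses here (`ev_EV1`, `ev_EV2`).
-/

set_option autoImplicit false

namespace Fermat.Agent.S55

open ExtCitation IsDedekindDomain NumberField WithZero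
open scoped Pointwise

local notation "Qb" => AlgebraicClosure ℚ
local notation "Γ" => (AlgebraicClosure ℚ ≃ₐ[ℚ] AlgebraicClosure ℚ)

attribute [local instance] pt_qbar_isAlgebraic pt_qbar_isAlgClosure pt_qbar_isGalois

section fix

variable (p : ℕ) [Fact p.Prime] (k : IntermediateField ℚ Qb) [NumberField k]

/-- An inertia element at `A` (over `q ≠ p`) fixing `k` fixes every `p^n`-th root `x` of an
element `a ∈ k` which is a unit times a `p^n`-th power at the prime of `k` below `A`. -/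
theorem ev_root_fix (q : ℕ) (hq0 : q ≠ 0) (hpq : Nat.Coprime p q) (A : ValuationSubring Qb)
    (hA : A.LiesOverPrime q) (n : ℕ) (a c : k) (hc0 : c ≠ 0) (x : Qb)
    (hx : x ^ p ^ n = (a : Qb))
    (hval : (kum_prime k A q hq0 hA).valuation k (a * c ^ p ^ n) = 1)
    (i : Γ) (hi : i ∈ A.inertiaSubgroupIn ℚ) (hik : i ∈ k.fixingSubgroup) : i x = x := by
  have hp0 : p ^ n ≠ 0 := pow_ne_zero _ (Fact.out : p.Prime).ne_zero
  obtain ⟨hu1, hu2⟩ := kum_unit_of_valuation_eq_one k A q hq0 hA _ hval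
  have hpow : (x * (c : Qb)) ^ p ^ n = ((a * c ^ p ^ n : k) : Qb) := by
    rw [mul_pow, hx]
    push_cast
    rfl
  obtain ⟨h1, h2⟩ := kum_unit_of_pow A (p ^ n) hp0 (x * (c : Qb)) (by rw [hpow]; exact hu1)
    (by rw [hpow]; exact hu2)
  have hc0' : (c : Qb) ≠ 0 := fun h0 => hc0 (Subtype.ext h0)
  exact kum_inertia_fix p q hpq A hA i hi n x (c : Qb)
    (by rw [hx]; exact kum_fix_of_mem hik a.2) (kum_fix_of_mem hik c.2) hc0' h1 h2

omit [Fact p.Prime] in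
/-- the prime of `k` below `g • padicPlace l` is `pl_place l k g`. -/
theorem ev_kum_prime_eq (l : ℕ) [Fact l.Prime] (g : Γ)
    (hA : (g • padicPlace l).LiesOverPrime l) :
    kum_prime k (g • padicPlace l) l (Fact.out : l.Prime).ne_zero hA = pl_place l k g := by
  apply HeightOneSpectrum.ext
  ext x
  rw [kum_mem_prime_iff, pl_place_asIdeal, pl_mem_below_iff]

end fix

section data

variable (p : ℕ) [Fact p.Prime] (S : Finset Nat.Primes) (k : IntermediateField ℚ Qb)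
  [NumberField k]

/-- **(EV1)**: the decomposition group at a prime `v` of `k` moves the `p`-th roots of an
integer `e` which is not a `p`-th power residue modulo `v`. -/
def ev_EV1 : Prop :=
  ∀ (l : ℕ) [Fact l.Prime] (g : Γ) (e : 𝓞 k), e ∉ (pl_place l k g).asIdeal →
    (p : 𝓞 k) ∉ (pl_place l k g).asIdeal →
    (¬ ∃ x : 𝓞 k, e - x ^ p ∈ (pl_place l k g).asIdeal) →
    ∀ η : Qb, η ^ p = ((e : k) : Qb) →
      ∃ x : PadicAlgCl l ≃ₐ[ℚ_[l]] PadicAlgCl l,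
        g * localGaloisToGlobal l x * g⁻¹ ∈ k.fixingSubgroup ∧
          (g * localGaloisToGlobal l x * g⁻¹) η ≠ η

/-- **(EV2)**: the inertia group at a prime `v ∤ p` of `k` moves the `p`-th roots of an element
whose order at `v` is prime to `p`. -/
def ev_EV2 : Prop :=
  ∀ (l : ℕ) [Fact l.Prime] (g : Γ) (c : k) (n : ℤ),
    (pl_place l k g).valuation k c = exp n → ¬ (p : ℤ) ∣ n → l ≠ p →
    (∀ x : PadicAlgCl l ≃ₐ[ℚ_[l]] PadicAlgCl l,
      localGaloisToGlobal l x ∈ (padicPlace l).inertiaSubgroupIn ℚ →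
        g * localGaloisToGlobal l x * g⁻¹ ∈ k.fixingSubgroup) →
    ∀ ϖ : Qb, ϖ ^ p = (c : Qb) →
      ∃ x : PadicAlgCl l ≃ₐ[ℚ_[l]] PadicAlgCl l,
        localGaloisToGlobal l x ∈ (padicPlace l).inertiaSubgroupIn ℚ ∧
          (g * localGaloisToGlobal l x * g⁻¹) ϖ ≠ ϖ

/-- **The evaluation data** for a character `χ` of `U = k.fixingSubgroup`. -/
structure ev_Data (χ : ↥k.fixingSubgroup → ZMod p) : Type where
  /-- the top digit cochain -/
  β : Γ → ZMod p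
  /-- the ramified Kummer character -/
  ψ : Γ → ZMod p
  /-- the auxiliary prime -/
  v : HeightOneSpectrum (𝓞 k)
  hvS : ∀ q : Nat.Primes, q ∈ S → (((q : ℕ) : ℕ) : 𝓞 k) ∉ v.asIdeal
  fin : ∃ F : IntermediateField ℚ Qb, FiniteDimensional ℚ F ∧ IsGalois ℚ F ∧
    ∀ σ n : Γ, n ∈ F.fixingSubgroup → β (σ * n) = β σ ∧ ψ (σ * n) = ψ σ
  dβ : ∃ K : IntermediateField ℚ Qb, K.IsUnramifiedOutside S ∧ IsGalois ℚ K ∧ k ≤ K ∧
    ∀ σ τ n n' : Γ, σ ∈ k.fixingSubgroup → τ ∈ k.fixingSubgroup → n ∈ K.fixingSubgroup →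
      n' ∈ K.fixingSubgroup →
        β (τ * n') - β (σ * n * (τ * n')) + β (σ * n) = β τ - β (σ * τ) + β σ
  ψ_mul : ∀ σ τ : Γ, σ ∈ k.fixingSubgroup → τ ∈ k.fixingSubgroup → ψ (σ * τ) = ψ σ + ψ τ
  β_unr : ∀ q : Nat.Primes, q ∉ S → ∀ (A : ValuationSubring Qb) (hA : A.LiesOverPrime (q : ℕ)),
    kum_prime k A (q : ℕ) q.2.ne_zero hA ≠ v → ∀ i ∈ A.inertiaSubgroupIn ℚ, ∀ σ : Γ,
      β (σ * i) = β σ
  βψ_unr : ∀ q : Nat.Primes, q ∉ S → ∀ (A : ValuationSubring Qb)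
    (hA : A.LiesOverPrime (q : ℕ)),
    kum_prime k A (q : ℕ) q.2.ne_zero hA = v → ∀ i ∈ A.inertiaSubgroupIn ℚ,
      ∀ σ ∈ k.fixingSubgroup, β (σ * i) + ψ (σ * i) = β σ + ψ σ
  ψ_ram : ∀ (l : ℕ) [Fact l.Prime] (g : Γ), pl_place l k g = v →
    ∃ x : PadicAlgCl l ≃ₐ[ℚ_[l]] PadicAlgCl l,
      localGaloisToGlobal l x ∈ (padicPlace l).inertiaSubgroupIn ℚ ∧
        ψ (g * localGaloisToGlobal l x * g⁻¹) ≠ 0
  χ_ne : ∀ (l : ℕ) [Fact l.Prime] (g : Γ), pl_place l k g = v →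
    ∃ x : PadicAlgCl l ≃ₐ[ℚ_[l]] PadicAlgCl l,
      ∃ h : g * localGaloisToGlobal l x * g⁻¹ ∈ k.fixingSubgroup, χ ⟨_, h⟩ ≠ 0

end data

section val

variable {F : Type*} [Field F] [NumberField F] (v : HeightOneSpectrum (𝓞 F))

theorem ev_val_pow {π : F} (hπ : v.valuation F π = exp (-1 : ℤ)) (h : ℕ) :
    v.valuation F (π ^ h) = exp (-(h : ℤ)) := by
  rw [map_pow, hπ, ← exp_nsmul]
  simp

theorem ev_val_one {α π : F} {N h : ℕ} (hα : v.valuation F α = exp (-((N * h : ℕ) : ℤ)))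
    (hπ : v.valuation F π = exp (-1 : ℤ)) :
    v.valuation F (α * ((π⁻¹) ^ h) ^ N) = 1 := by
  rw [map_mul, map_pow, map_pow, map_inv₀, hα, hπ, ← exp_neg, neg_neg, ← exp_nsmul, ← exp_nsmul,
    ← exp_add, ← exp_zero]
  congr 1
  push_cast
  simp only [nsmul_eq_mul]
  ring

theorem ev_val_one' {α π : F} {N h M : ℕ} (hα : v.valuation F α = exp (-((N * h : ℕ) : ℤ)))
    (hπ : v.valuation F π = exp (-1 : ℤ)) :
    v.valuation F ((π ^ h) ^ N / α * 1 ^ M) = 1 := by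
  rw [one_pow, mul_one, map_div₀, map_pow, map_pow, hα, hπ, ← exp_nsmul, ← exp_nsmul,
    ← exp_sub, ← exp_zero]
  congr 1
  push_cast
  simp only [nsmul_eq_mul]
  ring

end val

section main

variable (p : ℕ) [Fact p.Prime] (S : Finset Nat.Primes) (k : IntermediateField ℚ Qb)
  [NumberField k]

/-- **[G4a] assembly**: the evaluation data of a nonzero Kummer character. -/
theorem ev_exists_data (hpS : pPrime p ∈ S) (hk : k.IsUnramifiedOutside S)
    {ζ : Qb} (hζ : IsPrimitiveRoot ζ p) (hζk : ζ ∈ k)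
    (hEV1 : ev_EV1 p k) (hEV2 : ev_EV2 p k)
    (χ : ↥k.fixingSubgroup → ZMod p)
    (hgen : ∃ e : (↥k)ˣ, ∀ σ, χ σ = kum_char p ζ k e σ)
    (hχ : ∃ σ, χ σ ≠ 0) : Nonempty (ev_Data p S k χ) := by
  have hp := (Fact.out : p.Prime)
  have hp0 : p ≠ 0 := hp.ne_zero
  obtain ⟨e₀, he₀⟩ := hgen
  obtain ⟨e, b, heb⟩ := ev_exists_integer ↥k p hp0 e₀
  set eu : (↥k)ˣ := e₀ * b ^ p with heu
  have heu_coe : ((eu : (↥k)ˣ) : ↥k) = (e : ↥k) := by
    rw [heb, heu]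
    push_cast
    rfl
  have hχe : ∀ σ, χ σ = kum_char p ζ k eu σ := by
    intro σ
    rw [he₀, heu, kum_char_mul_left hζ hζk,
      (kum_char_eq_zero_iff hζ hζk (b ^ p)).mpr ⟨b, rfl⟩ σ, add_zero]
  have he : ∀ c : ↥k, (e : ↥k) ≠ c ^ p := by
    intro c hc
    obtain ⟨σ, hσ⟩ := hχ
    apply hσ
    rw [hχe σ]
    have hc0 : c ≠ 0 := by
      rintro rfl
      rw [zero_pow hp0, ← heu_coe] at hc
      exact eu.ne_zero hc
    refine (kum_char_eq_zero_iff hζ hζk eu).mpr ⟨Units.mk0 c hc0, ?_⟩ σ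
    apply Units.ext
    rw [heu_coe, hc]
    simp
  have hζ' : IsPrimitiveRoot (⟨ζ, hζk⟩ : ↥k) p :=
    IsPrimitiveRoot.of_map_of_injective (f := algebraMap ↥k Qb) (by exact hζ)
      (algebraMap ↥k Qb).injective
  obtain ⟨v, α, π, m, h, hvT, hpv, hev, hres, hα0, hph, hvα, hwα, hvπ⟩ :=
    ev_arith ↥k p hζ' e he (kumAbove ↥k S)
  have hvS : ∀ q : Nat.Primes, q ∈ S → (((q : ℕ) : ℕ) : 𝓞 ↥k) ∉ v.asIdeal :=
    (notMem_kumAbove ↥k S v).mp hvT
  have hpm0 : p ^ (m + 1) ≠ 0 := pow_ne_zero _ hp0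
  obtain ⟨θ, hθ⟩ := IsAlgClosed.exists_pow_nat_eq ((α : ↥k) : Qb) (Nat.pos_of_ne_zero hpm0)
  have hα0' : ((α : ↥k) : Qb) ≠ 0 := fun h0 => hα0 (Subtype.ext h0)
  have hθ0 : θ ≠ 0 := by
    rintro rfl
    rw [zero_pow hpm0] at hθ
    exact hα0' hθ.symm
  have hπ0 : π ≠ 0 := by
    rintro rfl
    rw [map_zero] at hvπ
    exact exp_ne_zero hvπ.symm
  set c : ↥k := π ^ h with hc
  have hc0 : c ≠ 0 := pow_ne_zero _ hπ0
  have hc0' : ((c : ↥k) : Qb) ≠ 0 := fun h0 => hc0 (Subtype.ext h0)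
  set ϖ : Qb := kum_root p ((c : ↥k) : Qb) with hϖ
  have hϖp : ϖ ^ p = ((c : ↥k) : Qb) := kum_root_pow p _
  have hϖ0 : ϖ ≠ 0 := kum_root_ne_zero p hc0'
  have hγ : (θ ^ p) ^ p ^ m = ((α : ↥k) : Qb) := by rw [← pow_mul, ← pow_succ']; exact hθ
  have hfixϖ : ∀ σ : Γ, σ ∈ k.fixingSubgroup → σ (ϖ ^ p) = ϖ ^ p := fun σ hσ => by
    rw [hϖp]; exact kum_fix_of_mem hσ c.2
  have hfixζ : ∀ σ : Γ, σ ∈ k.fixingSubgroup → σ ζ = ζ := fun σ hσ => kum_fix_of_mem hσ hζk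
  have hcop : ∀ q : Nat.Primes, q ∉ S → Nat.Coprime p (q : ℕ) := by
    intro q hq
    rw [Nat.coprime_primes hp q.2]
    rintro rfl
    exact hq hpS
  have hval1 : v.valuation ↥k (α * ((π⁻¹) ^ h) ^ p ^ m) = 1 := ev_val_one v hvα hvπ
  have hval2 : v.valuation ↥k (c ^ p ^ m / α * 1 ^ p ^ (m + 1)) = 1 := ev_val_one' v hvα hvπ
  have hci0 : (π⁻¹) ^ h ≠ 0 := pow_ne_zero _ (inv_ne_zero hπ0)
  -- inertia above `v` fixes `θ ^ p` and `ϖ / θ`
  have hfix_above : ∀ q : Nat.Primes, q ∉ S → ∀ (A : ValuationSubring Qb)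
      (hA : A.LiesOverPrime (q : ℕ)), kum_prime k A (q : ℕ) q.2.ne_zero hA = v →
      ∀ i ∈ A.inertiaSubgroupIn ℚ, i (θ ^ p) = θ ^ p ∧ i (ϖ / θ) = ϖ / θ := by
    intro q hq A hA hAv i hi
    have hik : i ∈ k.fixingSubgroup := hk.2 q hq A hA hi
    refine ⟨ev_root_fix p k (q : ℕ) q.2.ne_zero (hcop q hq) A hA m α _ hci0 (θ ^ p) hγ
      (by rw [hAv]; exact hval1) i hi hik, ?_⟩
    refine ev_root_fix p k (q : ℕ) q.2.ne_zero (hcop q hq) A hA (m + 1) (c ^ p ^ m / α) 1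
      one_ne_zero (ϖ / θ) ?_ (by rw [hAv]; exact hval2) i hi hik
    rw [div_pow, hθ, pow_succ', pow_mul, hϖp]
    push_cast
    rfl
  -- the level of `d β`
  have hval : ∀ w : HeightOneSpectrum (𝓞 ↥k),
      (∀ q : Nat.Primes, q ∈ S → (((q : ℕ) : ℕ) : 𝓞 ↥k) ∉ w.asIdeal) →
      ∃ c' : ↥k, w.valuation ↥k (α * c' ^ p ^ m) = 1 := by
    intro w _
    by_cases hw : w = v
    · exact ⟨(π⁻¹) ^ h, by rw [hw]; exact hval1⟩
    · exact ⟨1, by rw [one_pow, mul_one]; exact hwα w hw⟩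
  obtain ⟨K, hK, hKg, hkK, hγK, hμ, hut⟩ := ev_exists_level p k S hpS hk m α hα0 θ hθ hval
  -- the finite level of `β`, `ψ`
  have hfd1 : FiniteDimensional ℚ (IntermediateField.adjoin ℚ {θ}) :=
    IntermediateField.adjoin.finiteDimensional (pt_qbar_isAlgebraic.isAlgebraic θ).isIntegral
  have hfd2 : FiniteDimensional ℚ (IntermediateField.adjoin ℚ {ϖ}) :=
    IntermediateField.adjoin.finiteDimensional (pt_qbar_isAlgebraic.isAlgebraic ϖ).isIntegral
  have hfd : FiniteDimensional ℚ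
      ↥(IntermediateField.adjoin ℚ {θ} ⊔ IntermediateField.adjoin ℚ {ϖ}) :=
    IntermediateField.finiteDimensional_sup _ _
  obtain ⟨F, hF, hFg, hle⟩ := pt_exists_galois_fin
    (IntermediateField.adjoin ℚ {θ} ⊔ IntermediateField.adjoin ℚ {ϖ})
  have hθF : θ ∈ F := hle (le_sup_left (α := IntermediateField ℚ Qb)
    (IntermediateField.mem_adjoin_simple_self ℚ θ))
  have hϖF : ϖ ∈ F := hle (le_sup_right (α := IntermediateField ℚ Qb)
    (IntermediateField.mem_adjoin_simple_self ℚ ϖ))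
  refine ⟨{
    β := ev_beta p ζ θ
    ψ := kum_kappa p ζ ϖ
    v := v
    hvS := hvS
    fin := ⟨F, hF, hFg, fun σ n hn =>
      ⟨ev_beta_mul_right ζ θ σ n (kum_fix_of_mem hn hθF),
        kum_kappa_mul_right ζ ϖ σ n (kum_fix_of_mem hn hϖF)⟩⟩
    dβ := ⟨K, hK, hKg, hkK, fun σ τ n n' hσ hτ hn hn' =>
      ev_beta_d_level hζ hθ0 K (ev_normal K) (hkK hζk) hγK (hfixζ σ hσ) hn hn' (hut τ hτ)⟩
    ψ_mul := fun σ τ hσ hτ => kum_kappa_mul hζ hϖ0 (hfixζ σ hσ) (hfixϖ σ hσ) (hfixϖ τ hτ)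
    β_unr := ?_
    βψ_unr := ?_
    ψ_ram := ?_
    χ_ne := ?_ }⟩
  · intro q hq A hA hAv i hi σ
    have hik : i ∈ k.fixingSubgroup := hk.2 q hq A hA hi
    refine ev_beta_mul_right ζ θ σ i ?_
    exact ev_root_fix p k (q : ℕ) q.2.ne_zero (hcop q hq) A hA (m + 1) α 1 one_ne_zero θ hθ
      (by rw [one_pow, mul_one]; exact hwα _ hAv) i hi hik
  · intro q hq A hA hAv i hi σ hσ
    have hik : i ∈ k.fixingSubgroup := hk.2 q hq A hA hi
    obtain ⟨h1, h2⟩ := hfix_above q hq A hA hAv i hi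
    exact ev_beta_add_kappa_mul_right hζ hθ0 hϖ0 (hfixϖ σ hσ) (hfixϖ i hik) h1 h2
  · intro l _ g hg
    have hlv : ((l : ℕ) : 𝓞 ↥k) ∈ v.asIdeal := by rw [← hg]; exact pl_natCast_mem_place l k g
    have hlp : l ≠ p := by
      rintro rfl
      exact hpv hlv
    have hlS : (⟨l, Fact.out⟩ : Nat.Primes) ∉ S := fun hmem => hvS ⟨l, Fact.out⟩ hmem hlv
    have hAl : (g • padicPlace l).LiesOverPrime l := pl_natCast_mem_nonunits_smul l g
    have hunr : ∀ x : PadicAlgCl l ≃ₐ[ℚ_[l]] PadicAlgCl l,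
        localGaloisToGlobal l x ∈ (padicPlace l).inertiaSubgroupIn ℚ →
          g * localGaloisToGlobal l x * g⁻¹ ∈ k.fixingSubgroup := fun x hx =>
      hk.2 ⟨l, Fact.out⟩ hlS (g • padicPlace l) hAl (pt_inertia_conj (padicPlace l) g _ hx)
    have hvc : (pl_place l k g).valuation ↥k c = exp (-(h : ℤ)) := by
      rw [hg]; exact ev_val_pow v hvπ h
    have hnd : ¬ (p : ℤ) ∣ -(h : ℤ) := by
      rw [Int.dvd_neg, Int.natCast_dvd_natCast]
      exact hph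
    obtain ⟨x, hx1, hx2⟩ := hEV2 l g c (-(h : ℤ)) hvc hnd hlp hunr ϖ hϖp
    refine ⟨x, hx1, fun h0 => hx2 ?_⟩
    exact (kum_kappa_eq_zero_iff hζ hϖ0 (hfixϖ _ (hunr x hx1))).mp h0
  · intro l _ g hg
    have hη : kum_root p (((eu : ↥k) : Qb)) ^ p = (((e : 𝓞 ↥k) : ↥k) : Qb) := by
      rw [kum_root_pow, heu_coe]
    obtain ⟨x, hx1, hx2⟩ := hEV1 l g e (by rw [hg]; exact hev) (by rw [hg]; exact hpv)
      (by rw [hg]; exact hres) _ hη
    refine ⟨x, hx1, ?_⟩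
    rw [hχe]
    intro h0
    apply hx2
    exact (kum_kappa_eq_zero_iff hζ (kum_root_ne_zero p (kum_unit_ne_zero eu))
      (kum_root_fix eu ⟨_, hx1⟩)).mp h0

/-- **[G4a] assembly** for a nonzero `S`-level homomorphism `χ : U → 𝔽_p`. -/
theorem ev_exists_data_hom (hpS : pPrime p ∈ S) (hk : k.IsUnramifiedOutside S)
    {ζ : Qb} (hζ : IsPrimitiveRoot ζ p) (hζk : ζ ∈ k)
    (hEV1 : ev_EV1 p k) (hEV2 : ev_EV2 p k)
    (χ : ↥k.fixingSubgroup → ZMod p) (hmul : ∀ σ τ, χ (σ * τ) = χ σ + χ τ)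
    (hlev : ∃ F : IntermediateField ℚ Qb, FiniteDimensional ℚ F ∧
      ∀ σ n : ↥k.fixingSubgroup, (n : Γ) ∈ F.fixingSubgroup → χ (σ * n) = χ σ)
    (hχ : ∃ σ, χ σ ≠ 0) : Nonempty (ev_Data p S k χ) := by
  have hfd : FiniteDimensional ℚ k := hk.1
  have h1 : χ 1 = 0 := by
    have h := hmul 1 1
    rw [mul_one] at h
    exact left_eq_add.mp h
  obtain ⟨F, hF, hFχ⟩ := hlev
  have hgen := kumgen_exists hζ k hζk χ hmul ⟨F, hF, fun σ hσ => by
    have h := hFχ 1 σ hσ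
    rw [one_mul, h1] at h
    exact h⟩
  exact ev_exists_data p S k hpS hk hζ hζk hEV1 hEV2 χ hgen hχ

/-- the unramifiedness of `β` in local form: at a place `(l, g)` not above `v`. -/
theorem ev_Data.β_unr' {χ : ↥k.fixingSubgroup → ZMod p} (d : ev_Data p S k χ) (l : ℕ)
    [Fact l.Prime] (hl : (⟨l, Fact.out⟩ : Nat.Primes) ∉ S) (g : Γ) (hg : pl_place l k g ≠ d.v)
    (x : PadicAlgCl l ≃ₐ[ℚ_[l]] PadicAlgCl l)
    (hx : localGaloisToGlobal l x ∈ (padicPlace l).inertiaSubgroupIn ℚ) (σ : Γ) :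
    d.β (σ * (g * localGaloisToGlobal l x * g⁻¹)) = d.β σ := by
  have hAl : (g • padicPlace l).LiesOverPrime l := pl_natCast_mem_nonunits_smul l g
  refine d.β_unr ⟨l, Fact.out⟩ hl (g • padicPlace l) hAl ?_ _
    (pt_inertia_conj (padicPlace l) g _ hx) σ
  rw [ev_kum_prime_eq k l g hAl]
  exact hg

/-- the unramifiedness of `β + ψ` in local form: at a place `(l, g)` above `v`. -/
theorem ev_Data.βψ_unr' {χ : ↥k.fixingSubgroup → ZMod p} (d : ev_Data p S k χ) (l : ℕ)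
    [Fact l.Prime] (hl : (⟨l, Fact.out⟩ : Nat.Primes) ∉ S) (g : Γ) (hg : pl_place l k g = d.v)
    (x : PadicAlgCl l ≃ₐ[ℚ_[l]] PadicAlgCl l)
    (hx : localGaloisToGlobal l x ∈ (padicPlace l).inertiaSubgroupIn ℚ) (σ : Γ)
    (hσ : σ ∈ k.fixingSubgroup) :
    d.β (σ * (g * localGaloisToGlobal l x * g⁻¹)) + d.ψ (σ * (g * localGaloisToGlobal l x * g⁻¹))
      = d.β σ + d.ψ σ := by
  have hAl : (g • padicPlace l).LiesOverPrime l := pl_natCast_mem_nonunits_smul l g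
  refine d.βψ_unr ⟨l, Fact.out⟩ hl (g • padicPlace l) hAl ?_ _
    (pt_inertia_conj (padicPlace l) g _ hx) σ hσ
  rw [ev_kum_prime_eq k l g hAl]
  exact hg

omit [Fact p.Prime] [NumberField k] in
/-- a prime ideal containing a nonzero natural number contains a prime number. -/
theorem ev_exists_prime_mem {R : Type*} [CommRing R] (P : Ideal R) [P.IsPrime] (n : ℕ)
    (hn : n ≠ 0) (h : (n : R) ∈ P) : ∃ q : ℕ, q.Prime ∧ (q : R) ∈ P := by
  induction n using Nat.strong_induction_on with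
  | _ n ih =>
    by_cases h1 : n = 1
    · subst h1
      rw [Nat.cast_one] at h
      exact absurd ((Ideal.eq_top_iff_one P).mpr h) (Ideal.IsPrime.ne_top inferInstance)
    · obtain ⟨q, hq, m, rfl⟩ := Nat.exists_prime_and_dvd h1
      rw [Nat.cast_mul] at h
      rcases Ideal.IsPrime.mem_or_mem inferInstance h with h2 | h2
      · exact ⟨q, hq, h2⟩
      · have hm0 : m ≠ 0 := by
          rintro rfl
          exact hn (mul_zero q)
        have hlt : m < q * m := by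
          have := hq.one_lt
          nlinarith [Nat.pos_of_ne_zero hm0]
        exact ih m hlt hm0 h2

omit [Fact p.Prime] in
/-- every prime of `k` is `pl_place l k g` for some rational prime `l` and `g ∈ Γ`. -/
theorem ev_exists_place (v : HeightOneSpectrum (𝓞 k)) :
    ∃ (l : ℕ) (hl : l.Prime) (g : Γ), @pl_place l ⟨hl⟩ k _ g = v := by
  have := v.isPrime
  have hnorm : (Ideal.absNorm v.asIdeal : 𝓞 k) ∈ v.asIdeal := Ideal.absNorm_mem v.asIdeal
  have hnorm0 : Ideal.absNorm v.asIdeal ≠ 0 :=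
    fun h0 => v.ne_bot (Ideal.absNorm_eq_zero_iff.mp h0)
  obtain ⟨l, hl, hlv⟩ := ev_exists_prime_mem v.asIdeal _ hnorm0 hnorm
  have : Fact l.Prime := ⟨hl⟩
  obtain ⟨g, hg⟩ := pl_exists_place l k v hlv
  exact ⟨l, hl, g, hg⟩

/-- the rational prime below the auxiliary prime is outside `S`. -/
theorem ev_Data.notMem {χ : ↥k.fixingSubgroup → ZMod p} (d : ev_Data p S k χ) (l : ℕ)
    [Fact l.Prime] (g : Γ) (hg : pl_place l k g = d.v) : (⟨l, Fact.out⟩ : Nat.Primes) ∉ S := by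
  intro hmem
  refine d.hvS ⟨l, Fact.out⟩ hmem ?_
  rw [← hg]
  exact pl_natCast_mem_place l k g

end main

end Fermat.Agent.S55
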