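/-
S55 block EV-local (helper13): the two local inputs `ev_EV1`, `ev_EV2` of `EvAsm.lean`
(helper14) are theorems, by `EvLocal.lean`.
-/
import Fermat.Agent.S55.EvLocal
import Fermat.Agent.S55.EvAsm

set_option autoImplicit false

open ExtCitation IsDedekindDomain NumberField WithZero
open scoped Pointwise

namespace Fermat.Agent.S55

local notation "Qb" => AlgebraicClosure ℚ
local notation "Γ" => (AlgebraicClosure ℚ ≃ₐ[ℚ] AlgebraicClosure ℚ)

/-- **(EV1)** holds. -/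
theorem evl_EV1 (p : ℕ) [Fact p.Prime] (k : IntermediateField ℚ Qb) [NumberField k] :
    ev_EV1 p k := by
  intro l _ g e _ _ hres η hη
  exact evl_ev1 l k g p e hres η hη

/-- **(EV2)** holds. -/
theorem evl_EV2 (p : ℕ) [Fact p.Prime] (k : IntermediateField ℚ Qb) [NumberField k] :
    ev_EV2 p k := by
  intro l _ g c n hv hn _ hunr ϖ hϖ
  have hc : c ≠ 0 := by
    rintro rfl
    rw [map_zero] at hv
    exact WithZero.exp_ne_zero hv.symm
  exact evl_ev2 l k g hunr p c hc (by rw [hv, WithZero.log_exp]; exact hn) ϖ hϖ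

/-- **[G4a] assembly**, hypothesis-free: the evaluation data of a nonzero Kummer character. -/
theorem evl_exists_data (p : ℕ) [Fact p.Prime] (S : Finset Nat.Primes)
    (k : IntermediateField ℚ Qb) [NumberField k] (hpS : pPrime p ∈ S)
    (hk : k.IsUnramifiedOutside S) {ζ : Qb} (hζ : IsPrimitiveRoot ζ p) (hζk : ζ ∈ k)
    (χ : ↥k.fixingSubgroup → ZMod p)
    (hgen : ∃ e : (↥k)ˣ, ∀ σ, χ σ = kum_char p ζ k e σ)
    (hχ : ∃ σ, χ σ ≠ 0) : Nonempty (ev_Data p S k χ) :=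
  ev_exists_data p S k hpS hk hζ hζk (evl_EV1 p k) (evl_EV2 p k) χ hgen hχ

/-- **[G4a] assembly**, hypothesis-free, for a nonzero `S`-level homomorphism `χ : U → 𝔽_p`. -/
theorem evl_exists_data_hom (p : ℕ) [Fact p.Prime] (S : Finset Nat.Primes)
    (k : IntermediateField ℚ Qb) [NumberField k] (hpS : pPrime p ∈ S)
    (hk : k.IsUnramifiedOutside S) {ζ : Qb} (hζ : IsPrimitiveRoot ζ p) (hζk : ζ ∈ k)
    (χ : ↥k.fixingSubgroup → ZMod p) (hmul : ∀ σ τ, χ (σ * τ) = χ σ + χ τ)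
    (hlev : ∃ F : IntermediateField ℚ Qb, FiniteDimensional ℚ F ∧
      ∀ σ n : ↥k.fixingSubgroup, (n : Γ) ∈ F.fixingSubgroup → χ (σ * n) = χ σ)
    (hχ : ∃ σ, χ σ ≠ 0) : Nonempty (ev_Data p S k χ) :=
  ev_exists_data_hom p S k hpS hk hζ hζk (evl_EV1 p k) (evl_EV2 p k) χ hmul hlev hχ

end Fermat.Agent.S55
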