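/-
S55 block HA (helper13), slim version: abstract homological algebra of the Poitou-Tate devissage
using degrees 1 and 2 only (no degree-3 cochains, no `H^0`, no `α³`), following the simplification
of helper12 (report 423).

A "paired 2-truncated complex" `HaQC k` consists of
  * `A`-side: `A1 --dA1--> A2`, with a subspace `ZA2 ≤ A2` of "2-cocycles" containing `dA1 (A1)`
    (think: cone cochains `C_c^1(M) → C_c^2(M)` and the cone 2-cocycles),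
  * `B`-side: `B1 --dB1--> B2`, with subspaces `BB1 ≤ ker dB1` ("1-coboundaries") and
    `ZB2 ⊇ dB1 (B1)` ("2-cocycles")  (think: `C^1(G_S, M') → C^2(G_S, M')`),
  * pairings `b12 : A1 × B2 → k`, `b21 : A2 × B1 → k` with
    `b21 (dA1 x) y = e1 * b12 x (dB1 y)` (`e1 ≠ 0`) and `b21 (ZA2, BB1) = 0`.

Cochain-level properties:
  * `A1Surj` : `α¹ : H¹(A) → H²(B)^*` is surjective,
  * `A2Inj`  : `α² : H²(A) → H¹(B)^*` is injective,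
  * `A2Surj` : `α² : H²(A) → H¹(B)^*` is surjective.

Main results:
  * `HaQSES.a1Surj`, `HaQSES.a2Inj` : `A1Surj ∧ A2Inj` is closed under extensions;
  * `HaQSES.a2Surj_left` : for `0 → P₁ → P₂ → P₃ → 0`,
      `A2Surj P₂ → A1Surj P₃ → A2Inj P₃ → A2Surj P₁`;
  * `HaQRetract.a1Surj / a2Inj / a2Surj` : all three properties pass to retracts;
  * `HaQSum.a2Surj` : `A2Surj` passes to finite direct sums;
  * `HaQCone.exists_pairing` : the final step — a nondegenerate pairing between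
    `Sha¹`-side and `Sha²`-side quotients.
-/
import Mathlib

set_option autoImplicit false

namespace Fermat.Agent.S55

universe u v

/-- A paired 2-truncated complex (see the file header). -/
structure HaQC (k : Type u) [Field k] : Type (max u (v + 1)) where
  A1 : Type v
  A2 : Type v
  B1 : Type v
  B2 : Type v
  [agA1 : AddCommGroup A1]
  [agA2 : AddCommGroup A2]
  [agB1 : AddCommGroup B1]
  [agB2 : AddCommGroup B2]
  [mdA1 : Module k A1]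
  [mdA2 : Module k A2]
  [mdB1 : Module k B1]
  [mdB2 : Module k B2]
  dA1 : A1 →ₗ[k] A2
  dB1 : B1 →ₗ[k] B2
  ZA2 : Submodule k A2
  BB1 : Submodule k B1
  ZB2 : Submodule k B2
  b12 : A1 →ₗ[k] B2 →ₗ[k] k
  b21 : A2 →ₗ[k] B1 →ₗ[k] k
  e1 : k
  e1_ne : e1 ≠ 0
  dA1_mem : ∀ x, dA1 x ∈ ZA2
  dB1_mem : ∀ y, dB1 y ∈ ZB2
  dB1_BB1 : ∀ y ∈ BB1, dB1 y = 0
  rel1 : ∀ x y, b21 (dA1 x) y = e1 * b12 x (dB1 y)
  b21_BB1 : ∀ x ∈ ZA2, ∀ y ∈ BB1, b21 x y = 0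

attribute [instance] HaQC.agA1 HaQC.agA2 HaQC.agB1 HaQC.agB2
  HaQC.mdA1 HaQC.mdA2 HaQC.mdB1 HaQC.mdB2

variable {k : Type u} [Field k]

namespace HaQC

variable (P : HaQC.{u, v} k)

/-- A 1-cocycle of the `A`-side pairs to zero with `B`-side 2-coboundaries. -/
lemma b12_dB1 {x : P.A1} (hx : P.dA1 x = 0) (y : P.B1) : P.b12 x (P.dB1 y) = 0 := by
  have h := P.rel1 x y
  rw [hx, map_zero, LinearMap.zero_apply] at h
  exact (mul_eq_zero.1 h.symm).resolve_left P.e1_ne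

/-- An `A`-side 2-coboundary pairs to zero with `B`-side 1-cocycles. -/
lemma b21_dA1 (x : P.A1) {y : P.B1} (hy : P.dB1 y = 0) : P.b21 (P.dA1 x) y = 0 := by
  rw [P.rel1, hy, map_zero, mul_zero]

/-- `α¹ : H¹(A) → H²(B)^*` is surjective (cochain-level formulation). -/
def A1Surj : Prop :=
  ∀ φ : P.B2 →ₗ[k] k, (∀ y, φ (P.dB1 y) = 0) →
    ∃ x : P.A1, P.dA1 x = 0 ∧ ∀ y ∈ P.ZB2, φ y = P.b12 x y

/-- `α² : H²(A) → H¹(B)^*` is injective (cochain-level formulation). -/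
def A2Inj : Prop :=
  ∀ x ∈ P.ZA2, (∀ y, P.dB1 y = 0 → P.b21 x y = 0) → ∃ z, P.dA1 z = x

/-- `α² : H²(A) → H¹(B)^*` is surjective (cochain-level formulation). -/
def A2Surj : Prop :=
  ∀ φ : P.B1 →ₗ[k] k, (∀ y ∈ P.BB1, φ y = 0) →
    ∃ x ∈ P.ZA2, ∀ y, P.dB1 y = 0 → φ y = P.b21 x y

end HaQC

/-- Over a field, a functional `χ` on `V` that kills `ker F` factors through `F : V → W`. -/
lemma haq_factor {V W : Type*} [AddCommGroup V] [Module k V] [AddCommGroup W] [Module k W]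
    (F : V →ₗ[k] W) (χ : V →ₗ[k] k) (h : ∀ v, F v = 0 → χ v = 0) :
    ∃ φ : W →ₗ[k] k, ∀ v, φ (F v) = χ v := by
  obtain ⟨s, hs⟩ := F.rangeRestrict.exists_rightInverse_of_surjective
    (LinearMap.range_eq_top.2 F.surjective_rangeRestrict)
  obtain ⟨φ, hφ⟩ := LinearMap.exists_extend (χ ∘ₗ s)
  refine ⟨φ, fun v => ?_⟩
  have h1 : φ (F v) = χ (s ⟨F v, LinearMap.mem_range_self F v⟩) := by
    have := congrArg (fun g => g ⟨F v, LinearMap.mem_range_self F v⟩) hφ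
    simpa using this
  have h2 : F (s ⟨F v, LinearMap.mem_range_self F v⟩) = F v := by
    have := congrArg (fun g => (g ⟨F v, LinearMap.mem_range_self F v⟩ : W)) hs
    simpa using this
  have h3 : χ (s ⟨F v, LinearMap.mem_range_self F v⟩ - v) = 0 :=
    h _ (by rw [map_sub, h2, sub_self])
  rw [h1]
  rw [map_sub, sub_eq_zero] at h3
  exact h3

/-- A short exact sequence `0 → P₁ → P₂ → P₃ → 0` of paired 2-truncated complexes: covariant on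
the `A`-side, contravariant on the `B`-side, maps adjoint for the pairings. Only the exactness
properties used below are recorded. -/
structure HaQSES (P₁ P₂ P₃ : HaQC.{u, v} k) where
  f1 : P₁.A1 →ₗ[k] P₂.A1
  f2 : P₁.A2 →ₗ[k] P₂.A2
  g1 : P₂.A1 →ₗ[k] P₃.A1
  g2 : P₂.A2 →ₗ[k] P₃.A2
  f1' : P₂.B1 →ₗ[k] P₁.B1
  f2' : P₂.B2 →ₗ[k] P₁.B2
  g1' : P₃.B1 →ₗ[k] P₂.B1
  g2' : P₃.B2 →ₗ[k] P₂.B2
  f_d1 : ∀ x, f2 (P₁.dA1 x) = P₂.dA1 (f1 x)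
  g_d1 : ∀ x, g2 (P₂.dA1 x) = P₃.dA1 (g1 x)
  f'_d1 : ∀ y, f2' (P₂.dB1 y) = P₁.dB1 (f1' y)
  g'_d1 : ∀ y, g2' (P₃.dB1 y) = P₂.dB1 (g1' y)
  g1_surj : Function.Surjective g1
  gf1 : ∀ a, g1 (f1 a) = 0
  exact2 : ∀ x, g2 x = 0 → ∃ a, f2 a = x
  f2_ZA2_refl : ∀ a, f2 a ∈ P₂.ZA2 → a ∈ P₁.ZA2
  g2_ZA2 : ∀ b ∈ P₂.ZA2, g2 b ∈ P₃.ZA2
  f1'_surj : Function.Surjective f1'
  fg1' : ∀ c, f1' (g1' c) = 0
  exact2' : ∀ y, f2' y = 0 → ∃ c, g2' c = y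
  g2'_ZB2_refl : ∀ c, g2' c ∈ P₂.ZB2 → c ∈ P₃.ZB2
  f2'_ZB2 : ∀ y ∈ P₂.ZB2, f2' y ∈ P₁.ZB2
  f1'_BB1 : ∀ y ∈ P₂.BB1, f1' y ∈ P₁.BB1
  adj_f12 : ∀ x y, P₂.b12 (f1 x) y = P₁.b12 x (f2' y)
  adj_f21 : ∀ x y, P₂.b21 (f2 x) y = P₁.b21 x (f1' y)
  adj_g12 : ∀ x y, P₃.b12 (g1 x) y = P₂.b12 x (g2' y)
  adj_g21 : ∀ x y, P₃.b21 (g2 x) y = P₂.b21 x (g1' y)

namespace HaQSES

variable {P₁ P₂ P₃ : HaQC.{u, v} k} (S : HaQSES P₁ P₂ P₃)

include S in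
/-- Compatibility of the pairings with the connecting maps `H¹(A₃) → H²(A₁)` and
`H¹(B₁) → H²(B₃)`. -/
lemma delta1 {b : P₂.A1} {a : P₁.A2} (hab : P₂.dA1 b = S.f2 a)
    {b' : P₂.B1} {c' : P₃.B2} (hbc : P₂.dB1 b' = S.g2' c') :
    P₁.b21 a (S.f1' b') = P₂.e1 * P₃.b12 (S.g1 b) c' := by
  rw [← S.adj_f21, ← hab, P₂.rel1, hbc, S.adj_g12]

include S in
/-- `α¹(P₂)` is surjective if `α¹(P₁)`, `α¹(P₃)` are surjective and `α²(P₁)` is injective. -/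
theorem a1Surj (h₁ : P₁.A1Surj) (h₁' : P₁.A2Inj) (h₃ : P₃.A1Surj) : P₂.A1Surj := by
  intro φ hφ
  -- Step 1: push to `P₃`.
  obtain ⟨c, hc, hcφ⟩ := h₃ (φ ∘ₗ S.g2') (fun y => by
    simp only [LinearMap.comp_apply]; rw [S.g'_d1]; exact hφ _)
  -- Step 2: lift `c` to a cocycle of `P₂`.
  obtain ⟨b₀, hb₀⟩ := S.g1_surj c
  obtain ⟨a, ha⟩ := S.exact2 (P₂.dA1 b₀) (by rw [S.g_d1, hb₀, hc])
  have haZ : a ∈ P₁.ZA2 := S.f2_ZA2_refl a (by rw [ha]; exact P₂.dA1_mem b₀)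
  obtain ⟨z, hz⟩ := h₁' a haZ (fun a' ha' => by
    obtain ⟨b', rfl⟩ := S.f1'_surj a'
    obtain ⟨c', hc'⟩ := S.exact2' (P₂.dB1 b') (by rw [S.f'_d1, ha'])
    have hc'Z : c' ∈ P₃.ZB2 := S.g2'_ZB2_refl c' (by rw [hc']; exact P₂.dB1_mem b')
    rw [S.delta1 ha.symm hc'.symm, hb₀, ← hcφ c' hc'Z, LinearMap.comp_apply, hc', hφ, mul_zero])
  set b : P₂.A1 := b₀ - S.f1 z with hb
  have hdb : P₂.dA1 b = 0 := by rw [hb, map_sub, ← S.f_d1, hz, ha, sub_self]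
  have hgb : S.g1 b = c := by rw [hb, map_sub, S.gf1, sub_zero, hb₀]
  -- Step 3: correct by a class coming from `P₁`.
  set χ : P₂.B2 →ₗ[k] k := φ - P₂.b12 b with hχ
  have hχg : ∀ c' ∈ P₃.ZB2, χ (S.g2' c') = 0 := fun c' hc' => by
    rw [hχ, LinearMap.sub_apply, ← S.adj_g12, hgb, ← hcφ c' hc', LinearMap.comp_apply, sub_self]
  obtain ⟨φ₁, hφ₁⟩ := haq_factor (S.f2' ∘ₗ P₂.ZB2.subtype) (χ ∘ₗ P₂.ZB2.subtype) (fun y hy => by
    obtain ⟨c', hc'⟩ := S.exact2' (y : P₂.B2) (by simpa using hy)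
    have hc'Z : c' ∈ P₃.ZB2 := S.g2'_ZB2_refl c' (by rw [hc']; exact y.2)
    simp only [LinearMap.comp_apply, Submodule.subtype_apply]
    rw [← hc']; exact hχg c' hc'Z)
  have hφ₁' : ∀ y ∈ P₂.ZB2, φ₁ (S.f2' y) = χ y := fun y hy => by
    simpa using hφ₁ ⟨y, hy⟩
  obtain ⟨a₁, ha₁, ha₁φ⟩ := h₁ φ₁ (fun a' => by
    obtain ⟨b', rfl⟩ := S.f1'_surj a'
    rw [← S.f'_d1, hφ₁' _ (P₂.dB1_mem b'), hχ, LinearMap.sub_apply, hφ, P₂.b12_dB1 hdb, sub_zero])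
  refine ⟨b + S.f1 a₁, by rw [map_add, hdb, ← S.f_d1, ha₁, map_zero, add_zero], fun y hy => ?_⟩
  rw [map_add, LinearMap.add_apply, S.adj_f12, ← ha₁φ _ (S.f2'_ZB2 y hy), hφ₁' y hy, hχ,
    LinearMap.sub_apply]
  ring

include S in
/-- `α²(P₂)` is injective if `α²(P₁)`, `α²(P₃)` are injective and `α¹(P₃)` is surjective. -/
theorem a2Inj (h₁ : P₁.A2Inj) (h₃ : P₃.A1Surj) (h₃' : P₃.A2Inj) : P₂.A2Inj := by
  intro x hxZ hxy
  -- Step 1: the image in `P₃` is a coboundary; reduce to `x = f2 a` modulo coboundaries.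
  obtain ⟨c₁, hc₁⟩ := h₃' (S.g2 x) (S.g2_ZA2 x hxZ) (fun c' hc' => by
    rw [S.adj_g21]; exact hxy _ (by rw [← S.g'_d1, hc', map_zero]))
  obtain ⟨b₁, hb₁⟩ := S.g1_surj c₁
  obtain ⟨a, ha⟩ := S.exact2 (x - P₂.dA1 b₁) (by rw [map_sub, S.g_d1, hb₁, hc₁, sub_self])
  have haZ : a ∈ P₁.ZA2 := S.f2_ZA2_refl a (by
    rw [ha]; exact P₂.ZA2.sub_mem hxZ (P₂.dA1_mem b₁))
  have hay : ∀ y, P₂.dB1 y = 0 → P₁.b21 a (S.f1' y) = 0 := fun y hy => by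
    rw [← S.adj_f21, ha, map_sub, LinearMap.sub_apply, hxy y hy, P₂.b21_dA1 b₁ hy, sub_zero]
  -- Step 2: a functional on `P₃.B2` representing `α²(a)` through the connecting map.
  let E : Submodule k (P₂.B1 × P₃.B2) :=
    LinearMap.ker (P₂.dB1 ∘ₗ LinearMap.fst k P₂.B1 P₃.B2 - S.g2' ∘ₗ LinearMap.snd k P₂.B1 P₃.B2)
  have hE : ∀ (b' : P₂.B1) (c' : P₃.B2), (b', c') ∈ E ↔ P₂.dB1 b' = S.g2' c' := fun b' c' => by
    simp only [E, LinearMap.mem_ker, LinearMap.sub_apply, LinearMap.comp_apply,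
      LinearMap.fst_apply, LinearMap.snd_apply, sub_eq_zero]
  obtain ⟨φ₃, hφ₃⟩ := haq_factor (LinearMap.snd k P₂.B1 P₃.B2 ∘ₗ E.subtype)
    ((P₁.b21 a ∘ₗ S.f1') ∘ₗ LinearMap.fst k P₂.B1 P₃.B2 ∘ₗ E.subtype) (fun v hv => by
    obtain ⟨⟨b', c'⟩, hv'⟩ := v
    have hc' : c' = 0 := by simpa using hv
    have hb' : P₂.dB1 b' = 0 := by rw [(hE b' c').1 hv', hc', map_zero]
    simpa using hay b' hb')
  have hφ₃' : ∀ (b' : P₂.B1) (c' : P₃.B2), P₂.dB1 b' = S.g2' c' →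
      φ₃ c' = P₁.b21 a (S.f1' b') := fun b' c' h => by
    simpa using hφ₃ ⟨(b', c'), (hE b' c').2 h⟩
  obtain ⟨c, hc, hcφ⟩ := h₃ φ₃ (fun c₀ => by
    rw [hφ₃' (S.g1' c₀) (P₃.dB1 c₀) (S.g'_d1 c₀).symm, S.fg1', map_zero])
  -- Step 3: compare `a` with the image of `c` under the connecting map.
  obtain ⟨b₂, hb₂⟩ := S.g1_surj c
  obtain ⟨a₀, ha₀⟩ := S.exact2 (P₂.dA1 b₂) (by rw [S.g_d1, hb₂, hc])
  have ha₀Z : a₀ ∈ P₁.ZA2 := S.f2_ZA2_refl a₀ (by rw [ha₀]; exact P₂.dA1_mem b₂)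
  obtain ⟨z, hz⟩ := h₁ (a₀ - P₂.e1 • a) (P₁.ZA2.sub_mem ha₀Z (P₁.ZA2.smul_mem _ haZ))
    (fun a' ha' => by
    obtain ⟨b', rfl⟩ := S.f1'_surj a'
    obtain ⟨c', hc'⟩ := S.exact2' (P₂.dB1 b') (by rw [S.f'_d1, ha'])
    have hc'Z : c' ∈ P₃.ZB2 := S.g2'_ZB2_refl c' (by rw [hc']; exact P₂.dB1_mem b')
    rw [map_sub, map_smul, LinearMap.sub_apply, LinearMap.smul_apply, S.delta1 ha₀.symm hc'.symm,
      hb₂, ← hcφ c' hc'Z, hφ₃' b' c' hc'.symm, smul_eq_mul, sub_self])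
  refine ⟨P₂.e1⁻¹ • (b₂ - S.f1 z) + b₁, ?_⟩
  have hfa : S.f2 a = P₂.e1⁻¹ • (P₂.dA1 b₂ - P₂.dA1 (S.f1 z)) := by
    rw [← S.f_d1, hz, ← ha₀, ← map_sub, sub_sub_cancel, map_smul, smul_smul,
      inv_mul_cancel₀ P₂.e1_ne, one_smul]
  rw [map_add, map_smul, map_sub, ← hfa, ha]
  abel

include S in
/-- `α²(P₁)` is surjective if `α²(P₂)` is surjective, `α¹(P₃)` is surjective and `α²(P₃)` is
injective. (Used with `P₂` a sum of base modules into which `P₁` embeds.) -/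
theorem a2Surj_left (h₂ : P₂.A2Surj) (h₃ : P₃.A1Surj) (h₃' : P₃.A2Inj) : P₁.A2Surj := by
  intro φ₁ hφ₁
  -- Step 1: represent `φ₁ ∘ f1'` on `P₂`.
  obtain ⟨b, hbZ, hbφ⟩ := h₂ (φ₁ ∘ₗ S.f1') (fun y hy => by
    simp only [LinearMap.comp_apply]; exact hφ₁ _ (S.f1'_BB1 y hy))
  -- Step 2: the image of `b` in `P₃` is a coboundary.
  obtain ⟨c₁, hc₁⟩ := h₃' (S.g2 b) (S.g2_ZA2 b hbZ) (fun c' hc' => by
    rw [S.adj_g21, ← hbφ _ (by rw [← S.g'_d1, hc', map_zero]), LinearMap.comp_apply, S.fg1',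
      map_zero])
  obtain ⟨b₁, hb₁⟩ := S.g1_surj c₁
  obtain ⟨a, ha⟩ := S.exact2 (b - P₂.dA1 b₁) (by rw [map_sub, S.g_d1, hb₁, hc₁, sub_self])
  have haZ : a ∈ P₁.ZA2 := S.f2_ZA2_refl a (by
    rw [ha]; exact P₂.ZA2.sub_mem hbZ (P₂.dA1_mem b₁))
  have hay : ∀ y, P₂.dB1 y = 0 → P₁.b21 a (S.f1' y) = φ₁ (S.f1' y) := fun y hy => by
    rw [← S.adj_f21, ha, map_sub, LinearMap.sub_apply, P₂.b21_dA1 b₁ hy, sub_zero, ← hbφ y hy,
      LinearMap.comp_apply]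
  -- Step 3: the discrepancy `ψ = φ₁ - b21 a` factors through the connecting map.
  set ψ : P₁.B1 →ₗ[k] k := φ₁ - P₁.b21 a with hψ
  let E : Submodule k (P₂.B1 × P₃.B2) :=
    LinearMap.ker (P₂.dB1 ∘ₗ LinearMap.fst k P₂.B1 P₃.B2 - S.g2' ∘ₗ LinearMap.snd k P₂.B1 P₃.B2)
  have hE : ∀ (b' : P₂.B1) (c' : P₃.B2), (b', c') ∈ E ↔ P₂.dB1 b' = S.g2' c' := fun b' c' => by
    simp only [E, LinearMap.mem_ker, LinearMap.sub_apply, LinearMap.comp_apply,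
      LinearMap.fst_apply, LinearMap.snd_apply, sub_eq_zero]
  obtain ⟨φ₃, hφ₃⟩ := haq_factor (LinearMap.snd k P₂.B1 P₃.B2 ∘ₗ E.subtype)
    ((ψ ∘ₗ S.f1') ∘ₗ LinearMap.fst k P₂.B1 P₃.B2 ∘ₗ E.subtype) (fun v hv => by
    obtain ⟨⟨b', c'⟩, hv'⟩ := v
    have hc' : c' = 0 := by simpa using hv
    have hb' : P₂.dB1 b' = 0 := by rw [(hE b' c').1 hv', hc', map_zero]
    have := hay b' hb'
    simp only [LinearMap.comp_apply, Submodule.subtype_apply, LinearMap.fst_apply, hψ,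
      LinearMap.sub_apply]
    rw [this, sub_self])
  have hφ₃' : ∀ (b' : P₂.B1) (c' : P₃.B2), P₂.dB1 b' = S.g2' c' →
      φ₃ c' = ψ (S.f1' b') := fun b' c' h => by
    simpa using hφ₃ ⟨(b', c'), (hE b' c').2 h⟩
  obtain ⟨c, hc, hcφ⟩ := h₃ φ₃ (fun c₀ => by
    rw [hφ₃' (S.g1' c₀) (P₃.dB1 c₀) (S.g'_d1 c₀).symm, S.fg1', map_zero])
  -- Step 4: the image of `c` under the connecting map corrects `a`.
  obtain ⟨b₂, hb₂⟩ := S.g1_surj c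
  obtain ⟨a₀, ha₀⟩ := S.exact2 (P₂.dA1 b₂) (by rw [S.g_d1, hb₂, hc])
  have ha₀Z : a₀ ∈ P₁.ZA2 := S.f2_ZA2_refl a₀ (by rw [ha₀]; exact P₂.dA1_mem b₂)
  refine ⟨a + P₂.e1⁻¹ • a₀, P₁.ZA2.add_mem haZ (P₁.ZA2.smul_mem _ ha₀Z), fun a' ha' => ?_⟩
  obtain ⟨b', rfl⟩ := S.f1'_surj a'
  obtain ⟨c', hc'⟩ := S.exact2' (P₂.dB1 b') (by rw [S.f'_d1, ha'])
  have hc'Z : c' ∈ P₃.ZB2 := S.g2'_ZB2_refl c' (by rw [hc']; exact P₂.dB1_mem b')
  have h1 : P₁.b21 a₀ (S.f1' b') = P₂.e1 * ψ (S.f1' b') := by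
    rw [S.delta1 ha₀.symm hc'.symm, hb₂, ← hcφ c' hc'Z, hφ₃' b' c' hc'.symm]
  rw [map_add, map_smul, LinearMap.add_apply, LinearMap.smul_apply, h1, smul_eq_mul, ← mul_assoc,
    inv_mul_cancel₀ P₂.e1_ne, one_mul, hψ, LinearMap.sub_apply]
  ring

end HaQSES

/-- `P` is a retract of `Q` (as paired 2-truncated complexes). -/
structure HaQRetract (P Q : HaQC.{u, v} k) where
  i2 : P.A2 →ₗ[k] Q.A2
  r1 : Q.A1 →ₗ[k] P.A1
  r2 : Q.A2 →ₗ[k] P.A2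
  i1' : Q.B1 →ₗ[k] P.B1
  i2' : Q.B2 →ₗ[k] P.B2
  r1' : P.B1 →ₗ[k] Q.B1
  r2' : P.B2 →ₗ[k] Q.B2
  r_d1 : ∀ x, r2 (Q.dA1 x) = P.dA1 (r1 x)
  i'_d1 : ∀ y, i2' (Q.dB1 y) = P.dB1 (i1' y)
  r'_d1 : ∀ y, r2' (P.dB1 y) = Q.dB1 (r1' y)
  ri2 : ∀ x, r2 (i2 x) = x
  ir1' : ∀ y, i1' (r1' y) = y
  ir2' : ∀ y, i2' (r2' y) = y
  i2_ZA2 : ∀ x ∈ P.ZA2, i2 x ∈ Q.ZA2
  r2_ZA2 : ∀ x ∈ Q.ZA2, r2 x ∈ P.ZA2
  r2'_ZB2 : ∀ y ∈ P.ZB2, r2' y ∈ Q.ZB2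
  i1'_BB1 : ∀ y ∈ Q.BB1, i1' y ∈ P.BB1
  adj_r12 : ∀ x y, P.b12 (r1 x) y = Q.b12 x (r2' y)
  adj_r21 : ∀ x y, P.b21 (r2 x) y = Q.b21 x (r1' y)
  adj_i21 : ∀ x y, Q.b21 (i2 x) y = P.b21 x (i1' y)

namespace HaQRetract

variable {P Q : HaQC.{u, v} k} (R : HaQRetract P Q)

include R in
theorem a1Surj (hQ : Q.A1Surj) : P.A1Surj := by
  intro φ hφ
  obtain ⟨x, hx, hxφ⟩ := hQ (φ ∘ₗ R.i2') (fun y => by
    simp only [LinearMap.comp_apply]; rw [R.i'_d1]; exact hφ _)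
  refine ⟨R.r1 x, by rw [← R.r_d1, hx, map_zero], fun y hy => ?_⟩
  rw [R.adj_r12, ← hxφ _ (R.r2'_ZB2 y hy), LinearMap.comp_apply, R.ir2']

include R in
theorem a2Inj (hQ : Q.A2Inj) : P.A2Inj := by
  intro x hxZ hxy
  obtain ⟨z, hz⟩ := hQ (R.i2 x) (R.i2_ZA2 x hxZ) (fun y hy => by
    rw [R.adj_i21]; exact hxy _ (by rw [← R.i'_d1, hy, map_zero]))
  exact ⟨R.r1 z, by rw [← R.r_d1, hz, R.ri2]⟩

include R in
theorem a2Surj (hQ : Q.A2Surj) : P.A2Surj := by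
  intro φ hφ
  obtain ⟨x, hxZ, hxφ⟩ := hQ (φ ∘ₗ R.i1') (fun y hy => by
    simp only [LinearMap.comp_apply]; exact hφ _ (R.i1'_BB1 y hy))
  refine ⟨R.r2 x, R.r2_ZA2 x hxZ, fun y hy => ?_⟩
  rw [R.adj_r21, ← hxφ _ (by rw [← R.r'_d1, hy, map_zero]), LinearMap.comp_apply, R.ir1']

end HaQRetract

/-- `P` is a finite direct sum of the `Pi i` (only the data needed for `A2Surj`). -/
structure HaQSum {ι : Type*} [Fintype ι] (Pi : ι → HaQC.{u, v} k) (P : HaQC.{u, v} k) where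
  inj2 : ∀ i, (Pi i).A2 →ₗ[k] P.A2
  prj1' : ∀ i, P.B1 →ₗ[k] (Pi i).B1
  inj1' : ∀ i, (Pi i).B1 →ₗ[k] P.B1
  dec : ∀ y, y = ∑ i, inj1' i (prj1' i y)
  inj2_ZA2 : ∀ i, ∀ x ∈ (Pi i).ZA2, inj2 i x ∈ P.ZA2
  prj1'_Z : ∀ i y, P.dB1 y = 0 → (Pi i).dB1 (prj1' i y) = 0
  inj1'_BB1 : ∀ i, ∀ y ∈ (Pi i).BB1, inj1' i y ∈ P.BB1
  adj : ∀ i x y, P.b21 (inj2 i x) y = (Pi i).b21 x (prj1' i y)

namespace HaQSum

variable {ι : Type*} [Fintype ι] {Pi : ι → HaQC.{u, v} k} {P : HaQC.{u, v} k} (D : HaQSum Pi P)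

include D in
theorem a2Surj (h : ∀ i, (Pi i).A2Surj) : P.A2Surj := by
  intro φ hφ
  have hx : ∀ i, ∃ x ∈ (Pi i).ZA2, ∀ y, (Pi i).dB1 y = 0 →
      (φ ∘ₗ D.inj1' i) y = (Pi i).b21 x y := fun i =>
    h i (φ ∘ₗ D.inj1' i) (fun y hy => by
      simp only [LinearMap.comp_apply]; exact hφ _ (D.inj1'_BB1 i y hy))
  choose x hxZ hxφ using hx
  refine ⟨∑ i, D.inj2 i (x i), P.ZA2.sum_mem (fun i _ => D.inj2_ZA2 i _ (hxZ i)), fun y hy => ?_⟩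
  conv_lhs => rw [D.dec y]
  rw [map_sum, map_sum, LinearMap.sum_apply]
  refine Finset.sum_congr rfl (fun i _ => ?_)
  rw [D.adj, ← hxφ i _ (D.prj1'_Z i y hy), LinearMap.comp_apply]

end HaQSum

/-- Cone-shape data on a paired 2-truncated complex `P`, for the final step:
  * `G2` = global 2-cochains of `M`, `BG2` = global 2-coboundaries, `j : A2 → G2` the projection
    of the cone to its global part;
  * `L1` = local 1-cochains of `M`, `ZL1` = local 1-cocycles, `bd : L1 → A2` the inclusion of the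
    local part into the cone;
  * `L1'` = local 1-cochains of `M'`, `BL1'` = local 1-coboundaries, `loc : B1 → L1'` the
    localisation map, `lam` the (sum of the) local pairing(s) on cochains. -/
structure HaQCone (P : HaQC.{u, v} k) where
  G2 : Type v
  L1 : Type v
  L1' : Type v
  [agG2 : AddCommGroup G2]
  [agL1 : AddCommGroup L1]
  [agL1' : AddCommGroup L1']
  [mdG2 : Module k G2]
  [mdL1 : Module k L1]
  [mdL1' : Module k L1']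
  j : P.A2 →ₗ[k] G2
  bd : L1 →ₗ[k] P.A2
  loc : P.B1 →ₗ[k] L1'
  BG2 : Submodule k G2
  ZL1 : Submodule k L1
  BL1' : Submodule k L1'
  lam : L1 →ₗ[k] L1' →ₗ[k] k
  bd_ZA2 : ∀ x ∈ ZL1, bd x ∈ P.ZA2
  j_bd : ∀ x ∈ ZL1, j (bd x) ∈ BG2
  j_dA1 : ∀ w, j (P.dA1 w) ∈ BG2
  /-- exactness of `H¹(local) → H²(A) → H²(global)` at the middle -/
  j_exact : ∀ z ∈ P.ZA2, j z ∈ BG2 → ∃ x ∈ ZL1, ∃ w, z = bd x + P.dA1 w
  /-- the global pairing of a local class with a global class is the local pairing -/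
  compat : ∀ x ∈ ZL1, ∀ y, P.dB1 y = 0 → P.b21 (bd x) y = lam x (loc y)
  lam_BL1' : ∀ x ∈ ZL1, ∀ y' ∈ BL1', lam x y' = 0
  /-- local duality, surjective form: every functional on local `H¹(M')` is given by pairing
  with a local 1-cocycle of `M` (only needed on the image of the localisation map) -/
  loc_surj : ∀ ψ : L1' →ₗ[k] k, (∀ y' ∈ BL1', ψ y' = 0) →
    ∃ x ∈ ZL1, ∀ y, P.dB1 y = 0 → ψ (loc y) = lam x (loc y)

attribute [instance] HaQCone.agG2 HaQCone.agL1 HaQCone.agL1' HaQCone.mdG2 HaQCone.mdL1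
  HaQCone.mdL1'

namespace HaQCone

variable {P : HaQC.{u, v} k} (C : HaQCone P)

/-- The `B`-side 1-cocycles which are locally coboundaries (cocycles representing `Sha¹`). -/
def sha1Z : Submodule k P.B1 := LinearMap.ker P.dB1 ⊓ C.BL1'.comap C.loc

lemma mem_sha1Z {y : P.B1} : y ∈ C.sha1Z ↔ P.dB1 y = 0 ∧ C.loc y ∈ C.BL1' := by
  simp [sha1Z]

include C in
/-- A 2-cocycle of `A` which is trivial in global `H²` pairs to zero with `Sha¹`-cocycles. -/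
lemma b21_eq_zero_of_j {z : P.A2} (hz : z ∈ P.ZA2) (hjz : C.j z ∈ C.BG2) {y : P.B1}
    (hy : y ∈ C.sha1Z) : P.b21 z y = 0 := by
  obtain ⟨x, hx, w, rfl⟩ := C.j_exact z hz hjz
  obtain ⟨hy1, hy2⟩ := C.mem_sha1Z.1 hy
  rw [map_add, LinearMap.add_apply, C.compat x hx y hy1, C.lam_BL1' x hx _ hy2,
    P.b21_dA1 w hy1, add_zero]

include C in
/-- **Final step of the devissage.** If `α² : H²(A) → H¹(B)^*` is bijective (cochain-level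
`A2Inj`, `A2Surj`), then for any realisations `X1` of `Sha¹`-side
(`= sha1Z / BB1`) and `X2` of `Sha²`-side (`= ZA2 / j⁻¹(BG2)`) there is a pairing
`X1 × X2 → k` which is nondegenerate on both sides. -/
theorem exists_pairing (hinj : P.A2Inj) (hsurj : P.A2Surj)
    {X1 X2 : Type*} [AddCommGroup X1] [Module k X1] [AddCommGroup X2] [Module k X2]
    (π₁ : ↥C.sha1Z →ₗ[k] X1) (hπ₁ : Function.Surjective π₁)
    (hπ₁k : ∀ y, π₁ y = 0 ↔ (y : P.B1) ∈ P.BB1)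
    (π₂ : ↥P.ZA2 →ₗ[k] X2) (hπ₂ : Function.Surjective π₂)
    (hπ₂k : ∀ z, π₂ z = 0 ↔ C.j (z : P.A2) ∈ C.BG2) :
    ∃ B : X1 →ₗ[k] X2 →ₗ[k] k,
      (∀ y, (∀ x, B y x = 0) → y = 0) ∧ (∀ x, (∀ y, B y x = 0) → x = 0) := by
  obtain ⟨s₁, hs₁⟩ := π₁.exists_rightInverse_of_surjective (LinearMap.range_eq_top.2 hπ₁)
  obtain ⟨s₂, hs₂⟩ := π₂.exists_rightInverse_of_surjective (LinearMap.range_eq_top.2 hπ₂)
  have hs₁' : ∀ y, π₁ (s₁ y) = y := fun y => by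
    have := congrArg (fun g => g y) hs₁; simpa using this
  have hs₂' : ∀ x, π₂ (s₂ x) = x := fun x => by
    have := congrArg (fun g => g x) hs₂; simpa using this
  -- the cochain-level pairing
  let β : ↥P.ZA2 →ₗ[k] ↥C.sha1Z →ₗ[k] k := P.b21.domRestrict₁₂ P.ZA2 C.sha1Z
  have hβ : ∀ (z : ↥P.ZA2) (y : ↥C.sha1Z), β z y = P.b21 (z : P.A2) (y : P.B1) := fun z y => rfl
  -- it descends to the quotients
  have hβ₂ : ∀ (z : ↥P.ZA2) (y : ↥C.sha1Z), π₂ z = 0 → β z y = 0 := fun z y hz => by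
    rw [hβ]; exact C.b21_eq_zero_of_j z.2 ((hπ₂k z).1 hz) y.2
  have hβ₁ : ∀ (z : ↥P.ZA2) (y : ↥C.sha1Z), π₁ y = 0 → β z y = 0 := fun z y hy => by
    rw [hβ]; exact P.b21_BB1 _ z.2 _ ((hπ₁k y).1 hy)
  have hβs : ∀ (z : ↥P.ZA2) (y : ↥C.sha1Z), β (s₂ (π₂ z)) (s₁ (π₁ y)) = β z y := fun z y => by
    have h1 : β (s₂ (π₂ z) - z) (s₁ (π₁ y)) = 0 :=
      hβ₂ _ _ (by rw [map_sub, hs₂', sub_self])
    have h2 : β z (s₁ (π₁ y) - y) = 0 := hβ₁ _ _ (by rw [map_sub, hs₁', sub_self])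
    rw [map_sub, LinearMap.sub_apply, sub_eq_zero] at h1
    rw [map_sub, sub_eq_zero] at h2
    rw [h1, h2]
  refine ⟨(β.compl₁₂ s₂ s₁).flip, fun y₁ hy₁ => ?_, fun x₂ hx₂ => ?_⟩
  · -- left nondegeneracy: from `A2Surj`
    obtain ⟨y, rfl⟩ := hπ₁ y₁
    rw [hπ₁k]
    by_contra hy
    obtain ⟨φ, hφy, hφB⟩ := Submodule.exists_le_ker_of_notMem hy
    obtain ⟨x, hxZ, hxφ⟩ := hsurj φ (fun y' hy' => LinearMap.mem_ker.1 (hφB hy'))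
    apply hφy
    rw [hxφ _ (C.mem_sha1Z.1 y.2).1]
    have := hy₁ (π₂ ⟨x, hxZ⟩)
    simp only [LinearMap.flip_apply, LinearMap.compl₁₂_apply] at this
    rw [hβs, hβ] at this
    exact this
  · -- right nondegeneracy: from `A2Inj` and local duality
    obtain ⟨z, rfl⟩ := hπ₂ x₂
    rw [hπ₂k]
    have hz : ∀ y ∈ C.sha1Z, P.b21 (z : P.A2) y = 0 := fun y hy => by
      have := hx₂ (π₁ ⟨y, hy⟩)
      simp only [LinearMap.flip_apply, LinearMap.compl₁₂_apply] at this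
      rw [hβs, hβ] at this
      exact this
    -- a functional on local cochains of `M'` representing `b21 z` through localisation
    obtain ⟨ψ', hψ'⟩ := haq_factor
      (C.BL1'.mkQ ∘ₗ C.loc ∘ₗ (LinearMap.ker P.dB1).subtype)
      (P.b21 (z : P.A2) ∘ₗ (LinearMap.ker P.dB1).subtype) (fun y hy => by
        have hy' : C.loc (y : P.B1) ∈ C.BL1' := by
          simpa [Submodule.Quotient.mk_eq_zero] using hy
        simpa using hz y (C.mem_sha1Z.2 ⟨LinearMap.mem_ker.1 y.2, hy'⟩))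
    obtain ⟨x, hx, hxψ⟩ := C.loc_surj (ψ' ∘ₗ C.BL1'.mkQ) (fun y' hy' => by
      simp [(Submodule.Quotient.mk_eq_zero _).2 hy'])
    have hzx : ∀ y, P.dB1 y = 0 → P.b21 ((z : P.A2) - C.bd x) y = 0 := fun y hy => by
      have h1 := hψ' ⟨y, LinearMap.mem_ker.2 hy⟩
      have h2 := hxψ y hy
      simp only [LinearMap.comp_apply, Submodule.subtype_apply, Submodule.mkQ_apply] at h1 h2
      rw [map_sub, LinearMap.sub_apply, C.compat x hx y hy, ← h2, h1, sub_self]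
    obtain ⟨w, hw⟩ := hinj _ (P.ZA2.sub_mem z.2 (C.bd_ZA2 x hx)) hzx
    have : (z : P.A2) = C.bd x + P.dA1 w := by rw [hw]; abel
    rw [this, map_add]
    exact C.BG2.add_mem (C.j_bd x hx) (C.j_dA1 w)

end HaQCone

end Fermat.Agent.S55
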