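/-
S55 block HA (helper13): the ABSTRACT BASE-CASE COUNT (helper14's argument (C), report 440).

`P : HaQC k` is the self-dual paired complex of the base case (group `U = G_{k,S}`, coefficients
`F = F_p ≅ μ_p` trivial, pairing = multiplication): `A1 = C_c^1`, `A2 = C_c^2`, `B1 = C^1(U)`,
`B2 = C^2(U)`.  `HaQBase P` records the formal cone data (local cochains, the maps
`ℓ ↦ (0, ℓ)`, global parts, exactness of the cone sequence, symmetry of the pairings).
`HaQBase.good` proves `A1Surj ∧ A2Inj ∧ A2Surj` from the arithmetic inputs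
  [L3] `dim (local H^1) ≤ 2m`,
  [L2] locally nontrivial global 1-classes are detected by local classes,
  [G1] `dim H^1(U) ≥ m + ρ` (Kummer),
  [G2] `dim Sha^2 ≤ ρ`,
  [G4] locally trivial global 1-classes are detected by cone 2-cocycles (density),
  [L1] a global 2-class orthogonal to the local constants lifts to the cone (local invariants are
       injective).
No finiteness is assumed beyond these.
-/
import Fermat.Agent.S55.HAQ

set_option autoImplicit false

namespace Fermat.Agent.S55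

universe u v

variable {k : Type u} [Field k]

section CountCore

variable {H1 Lh Hc2 H2 : Type*} [AddCommGroup H1] [Module k H1] [AddCommGroup Lh] [Module k Lh]
  [AddCommGroup Hc2] [Module k Hc2] [AddCommGroup H2] [Module k H2]

/-- **Abstract base-case count, cohomological form.**  `H1 --res--> Lh --bd--> Hc2 --j--> H2`
a complex, exact at `Hc2`, pairing `b : Hc2 × H1 → k`.  If `dim Lh ≤ 2m`, `dim H1 ≥ m + ρ`,
`dim (im j) ≤ ρ`, locally nontrivial classes are detected by local classes and locally trivial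
classes are detected by `Hc2`, then `b` is a perfect pairing `Hc2 × H1 → k`, and the induced
pairing `ker res × im j → k` is nondegenerate on the right. -/
theorem haq_count_core
    (res : H1 →ₗ[k] Lh) (bd : Lh →ₗ[k] Hc2) (j : Hc2 →ₗ[k] H2) (b : Hc2 →ₗ[k] H1 →ₗ[k] k)
    (m ρ : ℕ)
    (e1 : ∀ y, bd (res y) = 0)
    (e3 : ∀ z, j z = 0 → ∃ l, bd l = z)
    (hs : ∀ l y, res y = 0 → b (bd l) y = 0)
    [Module.Finite k Lh] (hL3 : Module.finrank k Lh ≤ 2 * m)
    (hL2 : ∀ y, res y ≠ 0 → ∃ l, b (bd l) y ≠ 0)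
    (V : Submodule k H1) [Module.Finite k V] (hG1 : m + ρ ≤ Module.finrank k V)
    (W : Submodule k H2) [Module.Finite k W] (hW : ∀ z, j z ∈ W) (hG2 : Module.finrank k W ≤ ρ)
    (hG4 : ∀ y, res y = 0 → y ≠ 0 → ∃ z, b z y ≠ 0) :
    Module.Finite k H1 ∧ (∀ z, (∀ y, b z y = 0) → z = 0) ∧
      (∀ φ : H1 →ₗ[k] k, ∃ z, ∀ y, φ y = b z y) ∧
      (∀ z, (∀ y, res y = 0 → b z y = 0) → j z = 0) := by
  classical
  -- `Sh = range j` is finite-dimensional of dimension `≤ ρ`
  have hShW : LinearMap.range j ≤ W := by rintro _ ⟨z, rfl⟩; exact hW z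
  have : Module.Finite k (LinearMap.range j) := Submodule.finiteDimensional_of_le hShW
  have hSh : Module.finrank k (LinearMap.range j) ≤ ρ := (Submodule.finrank_mono hShW).trans hG2
  -- a section of `j`
  obtain ⟨s, hs'⟩ := j.rangeRestrict.exists_rightInverse_of_surjective
    (LinearMap.range_eq_top.2 j.surjective_rangeRestrict)
  have hsj : ∀ σ : LinearMap.range j, j (s σ) = σ := fun σ => by
    have := congrArg (fun g => (g σ : H2)) hs'
    simpa using this
  have key1 : ∀ z y, res y = 0 → b (s ⟨j z, ⟨z, rfl⟩⟩) y = b z y := by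
    intro z y hy
    obtain ⟨l, hl⟩ := e3 (s ⟨j z, ⟨z, rfl⟩⟩ - z) (by rw [map_sub, hsj]; simp)
    have := hs l y hy
    rw [hl, map_sub, LinearMap.sub_apply, sub_eq_zero] at this
    exact this
  -- `θ : ker res → (range j)^*`
  let K : Submodule k H1 := LinearMap.ker res
  let θ : K →ₗ[k] Module.Dual k (LinearMap.range j) := (b.compl₁₂ s K.subtype).flip
  have hθ_apply : ∀ (y : K) (σ : LinearMap.range j), θ y σ = b (s σ) (y : H1) := fun y σ => rfl
  have hθ : Function.Injective θ := by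
    rw [← LinearMap.ker_eq_bot, LinearMap.ker_eq_bot']
    intro y hy
    by_contra hne
    have hy0 : res (y : H1) = 0 := y.2
    obtain ⟨z, hz⟩ := hG4 (y : H1) hy0 (fun h => hne (Subtype.ext h))
    apply hz
    rw [← key1 z _ hy0, ← hθ_apply, hy, LinearMap.zero_apply]
  have : Module.Finite k K := Module.Finite.of_injective θ hθ
  have hK : Module.finrank k K ≤ Module.finrank k (LinearMap.range j) := by
    have := LinearMap.finrank_le_finrank_of_injective hθ
    rwa [Subspace.dual_finrank_eq] at this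
  -- `I = range res`
  let I : Submodule k Lh := LinearMap.range res
  -- rank-nullity on `V`
  have hV : Module.finrank k V ≤ Module.finrank k I + Module.finrank k K := by
    have h1 := LinearMap.finrank_range_add_finrank_ker (res.domRestrict V)
    have h2 : Module.finrank k (LinearMap.range (res.domRestrict V)) ≤ Module.finrank k I := by
      apply Submodule.finrank_mono
      rintro _ ⟨v, rfl⟩
      exact ⟨(v : H1), rfl⟩
    have h3 : Module.finrank k (LinearMap.ker (res.domRestrict V)) ≤ Module.finrank k K := by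
      let ι : LinearMap.ker (res.domRestrict V) →ₗ[k] K :=
        { toFun := fun v => ⟨((v : V) : H1), by
            have := v.2
            rw [LinearMap.mem_ker] at this
            exact this⟩
          map_add' := fun _ _ => rfl
          map_smul' := fun _ _ => rfl }
      have hι : Function.Injective ι := by
        intro v w hvw
        have : ((v : V) : H1) = ((w : V) : H1) := congrArg (fun x : K => (x : H1)) hvw
        exact Subtype.ext (Subtype.ext this)
      exact LinearMap.finrank_le_finrank_of_injective hι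
    omega
  -- `T : Lh → I^*`
  obtain ⟨pre, hpre'⟩ := res.rangeRestrict.exists_rightInverse_of_surjective
    (LinearMap.range_eq_top.2 res.surjective_rangeRestrict)
  have hpre : ∀ i : I, res (pre i) = i := fun i => by
    have := congrArg (fun g => (g i : Lh)) hpre'
    simpa using this
  have key2 : ∀ l y, b (bd l) (pre ⟨res y, ⟨y, rfl⟩⟩) = b (bd l) y := by
    intro l y
    have := hs l (pre ⟨res y, ⟨y, rfl⟩⟩ - y) (by rw [map_sub, hpre]; simp)
    rw [map_sub, sub_eq_zero] at this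
    exact this
  let T : Lh →ₗ[k] Module.Dual k I := b.compl₁₂ bd pre
  have hT_apply : ∀ l (i : I), T l i = b (bd l) (pre i) := fun l i => rfl
  have hTflip : Function.Injective T.flip := by
    rw [← LinearMap.ker_eq_bot, LinearMap.ker_eq_bot']
    rintro ⟨_, ⟨y, rfl⟩⟩ hi
    by_contra hne
    have hy : res y ≠ 0 := fun h => hne (Subtype.ext h)
    obtain ⟨l, hl⟩ := hL2 y hy
    apply hl
    rw [← key2, ← hT_apply, ← LinearMap.flip_apply, hi, LinearMap.zero_apply]
  have hTsurj : Function.Surjective T := LinearMap.flip_injective_iff₁.mp hTflip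
  have hIker : I ≤ LinearMap.ker T := by
    rintro _ ⟨y, rfl⟩
    rw [LinearMap.mem_ker]
    ext i
    rw [hT_apply, e1, map_zero, LinearMap.zero_apply, LinearMap.zero_apply]
  have hrn := LinearMap.finrank_range_add_finrank_ker T
  rw [LinearMap.range_eq_top.2 hTsurj, finrank_top, Subspace.dual_finrank_eq] at hrn
  have hI2 : Module.finrank k I ≤ Module.finrank k (LinearMap.ker T) := Submodule.finrank_mono hIker
  -- the numerology
  have hIm : Module.finrank k I = m := by omega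
  have hKρ : Module.finrank k K = ρ := by omega
  have hShρ : Module.finrank k (LinearMap.range j) = ρ := by omega
  have hkerT : LinearMap.ker T = I :=
    (Submodule.eq_of_le_of_finrank_le hIker (by omega)).symm
  -- (a) finiteness of `H1`
  have hfin : Module.Finite k H1 := by
    have : Module.Finite k (H1 ⧸ K) := Module.Finite.equiv res.quotKerEquivRange.symm
    exact Module.Finite.of_submodule_quotient K
  -- (d)
  have hd : ∀ z, (∀ y, res y = 0 → b z y = 0) → j z = 0 := by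
    intro z hz
    have hθs : Function.Surjective θ :=
      (LinearMap.injective_iff_surjective_of_finrank_eq_finrank
        (by rw [Subspace.dual_finrank_eq, hKρ, hShρ])).1 hθ
    have hσ : (⟨j z, ⟨z, rfl⟩⟩ : LinearMap.range j) = 0 := by
      rw [← Module.forall_dual_apply_eq_zero_iff k]
      intro φ
      obtain ⟨y, rfl⟩ := hθs φ
      rw [hθ_apply, key1 z _ y.2]
      exact hz _ y.2
    exact congrArg (fun x : LinearMap.range j => (x : H2)) hσ
  refine ⟨hfin, ?_, ?_, hd⟩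
  · -- (b)
    intro z hz
    obtain ⟨l, rfl⟩ := e3 z (hd z (fun y _ => hz y))
    have hl : l ∈ LinearMap.ker T := by
      rw [LinearMap.mem_ker]
      ext i
      rw [hT_apply, hz, LinearMap.zero_apply]
    rw [hkerT] at hl
    obtain ⟨y, rfl⟩ := hl
    exact e1 y
  · -- (c)
    have hbflip : Function.Injective b.flip := by
      rw [← LinearMap.ker_eq_bot, LinearMap.ker_eq_bot']
      intro y hy
      have hy' : ∀ z, b z y = 0 := fun z => by
        rw [← LinearMap.flip_apply, hy, LinearMap.zero_apply]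
      by_contra hne
      by_cases hr : res y = 0
      · obtain ⟨z, hz⟩ := hG4 y hr hne
        exact hz (hy' z)
      · obtain ⟨l, hl⟩ := hL2 y hr
        exact hl (hy' _)
    have hbsurj : Function.Surjective b := LinearMap.flip_injective_iff₂.mp hbflip
    intro φ
    obtain ⟨z, rfl⟩ := hbsurj φ
    exact ⟨z, fun y => rfl⟩

/-- **Abstract base-case count, degree-one part.**  Given the right-nondegeneracy `P1` of the
`Sha`-pairing (output of `haq_count_core`), the symmetry of the two pairings and the injectivity of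
the local invariants (`hL1`), the pairing `b12 : Z1 × H2 → k` is surjective onto `H2^*`. -/
theorem haq_count_core1 {Z1 L0 : Type*} [AddCommGroup Z1] [Module k Z1] [AddCommGroup L0]
    [Module k L0]
    (res : H1 →ₗ[k] Lh) (j : Hc2 →ₗ[k] H2) (b : Hc2 →ₗ[k] H1 →ₗ[k] k)
    (P1 : ∀ z, (∀ y, res y = 0 → b z y = 0) → j z = 0)
    (W : Submodule k H2) [Module.Finite k W] (hW : ∀ z, j z ∈ W)
    (j' : Z1 →ₗ[k] H1) (bd0 : L0 →ₗ[k] Z1) (b12 : Z1 →ₗ[k] H2 →ₗ[k] k) (ε : k)
    [Module.Finite k L0]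
    (hj' : ∀ y, res y = 0 → ∃ x', j' x' = y)
    (sym : ∀ z x', b z (j' x') = ε * b12 x' (j z))
    (hL1 : ∀ y, (∀ c, b12 (bd0 c) y = 0) → ∃ z, j z = y) :
    ∀ φ : H2 →ₗ[k] k, ∃ x', ∀ y, φ y = b12 x' y := by
  classical
  -- `H2` is finite-dimensional
  let E : H2 →ₗ[k] Module.Dual k L0 := (b12 ∘ₗ bd0).flip
  have hE_apply : ∀ y c, E y c = b12 (bd0 c) y := fun y c => rfl
  have hkerE : LinearMap.ker E ≤ W := by
    intro y hy
    obtain ⟨z, rfl⟩ := hL1 y (fun c => by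
      rw [← hE_apply, LinearMap.mem_ker.1 hy, LinearMap.zero_apply])
    exact hW z
  have : Module.Finite k (LinearMap.ker E) := Submodule.finiteDimensional_of_le hkerE
  have : Module.Finite k (H2 ⧸ LinearMap.ker E) := Module.Finite.equiv E.quotKerEquivRange.symm
  have hfin : Module.Finite k H2 := Module.Finite.of_submodule_quotient (LinearMap.ker E)
  have hflip : Function.Injective b12.flip := by
    rw [← LinearMap.ker_eq_bot, LinearMap.ker_eq_bot']
    intro y hy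
    have hy' : ∀ x', b12 x' y = 0 := fun x' => by
      rw [← LinearMap.flip_apply, hy, LinearMap.zero_apply]
    obtain ⟨z, rfl⟩ := hL1 y (fun c => hy' _)
    apply P1
    intro y' hy'0
    obtain ⟨x', rfl⟩ := hj' y' hy'0
    rw [sym, hy', mul_zero]
  have hsurj : Function.Surjective b12 := LinearMap.flip_injective_iff₂.mp hflip
  intro φ
  obtain ⟨x', rfl⟩ := hsurj φ
  exact ⟨x', fun y => rfl⟩

end CountCore

section Quot

variable {E E' : Type*} [AddCommGroup E] [Module k E] [AddCommGroup E'] [Module k E']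

/-- The subquotient `Z / (Z ∩ B)`. -/
abbrev HaqH (Z B : Submodule k E) : Type _ := ↥Z ⧸ (B.comap Z.subtype)

/-- The class of an element of `Z` in `Z / (Z ∩ B)`. -/
def haqMk (Z B : Submodule k E) : ↥Z →ₗ[k] HaqH Z B := (B.comap Z.subtype).mkQ

lemma haqMk_eq_zero {Z B : Submodule k E} (z : ↥Z) : haqMk Z B z = 0 ↔ (z : E) ∈ B := by
  simp [haqMk]

lemma haqMk_surjective (Z B : Submodule k E) : Function.Surjective (haqMk Z B) :=
  Submodule.mkQ_surjective _

/-- The map induced on subquotients. -/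
def haqMap {Z B : Submodule k E} {Z' B' : Submodule k E'} (f : E →ₗ[k] E')
    (hZ : ∀ x ∈ Z, f x ∈ Z') (hB : ∀ x ∈ Z, x ∈ B → f x ∈ B') : HaqH Z B →ₗ[k] HaqH Z' B' :=
  Submodule.mapQ _ _ (f.restrict hZ) (fun x hx => hB x x.2 hx)

lemma haqMap_mk {Z B : Submodule k E} {Z' B' : Submodule k E'} (f : E →ₗ[k] E')
    (hZ : ∀ x ∈ Z, f x ∈ Z') (hB : ∀ x ∈ Z, x ∈ B → f x ∈ B') (z : ↥Z) :
    haqMap f hZ hB (haqMk Z B z) = haqMk Z' B' ⟨f z, hZ z z.2⟩ := rfl

/-- The pairing induced on subquotients. -/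
def haqBil {Z B : Submodule k E} {Z' B' : Submodule k E'} (β : E →ₗ[k] E' →ₗ[k] k)
    (h1 : ∀ x ∈ Z, x ∈ B → ∀ y ∈ Z', β x y = 0) (h2 : ∀ x ∈ Z, ∀ y ∈ Z', y ∈ B' → β x y = 0) :
    HaqH Z B →ₗ[k] HaqH Z' B' →ₗ[k] k :=
  Submodule.liftQ _
    ((Submodule.liftQ (B'.comap Z'.subtype) (β.domRestrict₁₂ Z Z').flip (by
      intro y hy
      rw [LinearMap.mem_ker]
      ext x
      exact h2 x x.2 y y.2 hy)).flip) (by
      intro x hx
      rw [LinearMap.mem_ker]
      ext y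
      exact h1 x x.2 hx y y.2)

lemma haqBil_mk {Z B : Submodule k E} {Z' B' : Submodule k E'} (β : E →ₗ[k] E' →ₗ[k] k)
    (h1 : ∀ x ∈ Z, x ∈ B → ∀ y ∈ Z', β x y = 0) (h2 : ∀ x ∈ Z, ∀ y ∈ Z', y ∈ B' → β x y = 0)
    (x : ↥Z) (y : ↥Z') : haqBil β h1 h2 (haqMk Z B x) (haqMk Z' B' y) = β x y := rfl

end Quot

/-- Formal cone data of a self-dual base complex `P` (see the file header).  In the cone model
`A1 = B1 × L0`, `A2 = B2 × L1`, `dA1 (a, c) = (d a, loc a - d c)`, one takes `bd ℓ = (0, ℓ)`,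
`bd0 c = (0, c)`, `j = j' = fst`. -/
structure HaQBase (P : HaQC.{u, v} k) where
  L0 : Type v
  L1 : Type v
  [agL0 : AddCommGroup L0]
  [agL1 : AddCommGroup L1]
  [mdL0 : Module k L0]
  [mdL1 : Module k L1]
  /-- restriction of global 1-cochains to the local groups -/
  loc : P.B1 →ₗ[k] L1
  /-- `ℓ ↦ (0, ℓ)` -/
  bd : L1 →ₗ[k] P.A2
  /-- `c ↦ (0, c)` on local constants -/
  bd0 : L0 →ₗ[k] P.A1
  /-- global part of a cone 2-cochain -/
  j : P.A2 →ₗ[k] P.B2
  /-- global part of a cone 1-cochain -/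
  j' : P.A1 →ₗ[k] P.B1
  /-- local 1-cocycles -/
  ZL1 : Submodule k L1
  /-- local 1-coboundaries -/
  BL1 : Submodule k L1
  ε : k
  loc_Z : ∀ y, P.dB1 y = 0 → loc y ∈ ZL1
  loc_B : ∀ y ∈ P.BB1, loc y ∈ BL1
  bd_Z : ∀ x ∈ ZL1, bd x ∈ P.ZA2
  bd_B : ∀ x ∈ ZL1, x ∈ BL1 → ∃ w, P.dA1 w = bd x
  bd_loc : ∀ y, P.dB1 y = 0 → ∃ w, P.dA1 w = bd (loc y)
  j_Z : ∀ x ∈ P.ZA2, j x ∈ P.ZB2
  j_dA1 : ∀ w, ∃ t, P.dB1 t = j (P.dA1 w)
  /-- exactness of `H¹(local) → H_c² → H²(global)` -/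
  j_exact : ∀ z ∈ P.ZA2, (∃ t, P.dB1 t = j z) → ∃ x ∈ ZL1, ∃ w, z = bd x + P.dA1 w
  bd0_Z : ∀ c, P.dA1 (bd0 c) = 0
  j'_Z : ∀ x', P.dA1 x' = 0 → P.dB1 (j' x') = 0
  /-- a locally trivial global 1-cocycle lifts to a cone 1-cocycle -/
  j'_exact : ∀ y, P.dB1 y = 0 → loc y ∈ BL1 → ∃ x', P.dA1 x' = 0 ∧ y - j' x' ∈ P.BB1
  /-- local classes pair trivially with locally trivial global classes -/
  bd_sha : ∀ x ∈ ZL1, ∀ y, P.dB1 y = 0 → loc y ∈ BL1 → P.b21 (bd x) y = 0
  /-- symmetry of the two pairings (cup-1 homotopy) -/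
  sym : ∀ x ∈ P.ZA2, ∀ x', P.dA1 x' = 0 → P.b21 x (j' x') = ε * P.b12 x' (j x)

attribute [instance] HaQBase.agL0 HaQBase.agL1 HaQBase.mdL0 HaQBase.mdL1

namespace HaQBase

variable {P : HaQC.{u, v} k} (C : HaQBase P)

include C in
/-- **The abstract base-case count.** -/
theorem good (m ρ : ℕ) [Module.Finite k C.L0]
    {W : Type*} [AddCommGroup W] [Module k W] [Module.Finite k W]
    (g : ↥C.ZL1 →ₗ[k] W) (hg : ∀ x, g x = 0 → (x : C.L1) ∈ C.BL1)
    (hW : Module.finrank k W ≤ 2 * m)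
    (hL2 : ∀ y, P.dB1 y = 0 → C.loc y ∉ C.BL1 → ∃ x ∈ C.ZL1, P.b21 (C.bd x) y ≠ 0)
    {V : Type*} [AddCommGroup V] [Module k V] [Module.Finite k V]
    (f : V →ₗ[k] P.B1) (hf : ∀ v, P.dB1 (f v) = 0) (hf0 : ∀ v, f v ∈ P.BB1 → v = 0)
    (hV : m + ρ ≤ Module.finrank k V)
    {R : Type*} [AddCommGroup R] [Module k R] [Module.Finite k R]
    (δ : R →ₗ[k] P.B2) (hδ : ∀ z ∈ P.ZA2, ∃ c t, C.j z = δ c + P.dB1 t)
    (hR : Module.finrank k R ≤ ρ)
    (hG4 : ∀ y, P.dB1 y = 0 → C.loc y ∈ C.BL1 → y ∉ P.BB1 → ∃ z ∈ P.ZA2, P.b21 z y ≠ 0)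
    (hL1 : ∀ y ∈ P.ZB2, (∀ c, P.b12 (C.bd0 c) y = 0) →
      ∃ z ∈ P.ZA2, ∃ t, y = C.j z + P.dB1 t) :
    P.A1Surj ∧ P.A2Inj ∧ P.A2Surj := by
  classical
  -- the cohomology spaces
  let ZB1 : Submodule k P.B1 := LinearMap.ker P.dB1
  let RA : Submodule k P.A2 := LinearMap.range P.dA1
  let RB : Submodule k P.B2 := LinearMap.range P.dB1
  let res : HaqH ZB1 P.BB1 →ₗ[k] HaqH C.ZL1 C.BL1 :=
    haqMap C.loc (fun y hy => C.loc_Z y (LinearMap.mem_ker.1 hy)) (fun y _ hy => C.loc_B y hy)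
  let bd : HaqH C.ZL1 C.BL1 →ₗ[k] HaqH P.ZA2 RA :=
    haqMap C.bd C.bd_Z (fun x hx hx' => by
      obtain ⟨w, hw⟩ := C.bd_B x hx hx'
      exact ⟨w, hw⟩)
  let jj : HaqH P.ZA2 RA →ₗ[k] HaqH P.ZB2 RB :=
    haqMap C.j C.j_Z (fun x _ hx => by
      obtain ⟨w, rfl⟩ := hx
      obtain ⟨t, ht⟩ := C.j_dA1 w
      exact ⟨t, ht⟩)
  let b : HaqH P.ZA2 RA →ₗ[k] HaqH ZB1 P.BB1 →ₗ[k] k :=
    haqBil P.b21 (fun x _ hx y hy => by
        obtain ⟨w, rfl⟩ := hx
        exact P.b21_dA1 w (LinearMap.mem_ker.1 hy))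
      (fun x hx y _ hy => P.b21_BB1 x hx y hy)
  have hres_zero : ∀ y : ↥ZB1, res (haqMk ZB1 P.BB1 y) = 0 ↔ C.loc (y : P.B1) ∈ C.BL1 :=
    fun y => by
      change haqMk C.ZL1 C.BL1 ⟨C.loc y, _⟩ = 0 ↔ _
      rw [haqMk_eq_zero]
  -- `Lh` is finite-dimensional of dimension `≤ 2m`
  have hLfin : Module.Finite k (HaqH C.ZL1 C.BL1) ∧
      Module.finrank k (HaqH C.ZL1 C.BL1) ≤ 2 * m := by
    have hle : LinearMap.ker g ≤ C.BL1.comap C.ZL1.subtype := fun x hx =>
      hg x (LinearMap.mem_ker.1 hx)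
    let q : (↥C.ZL1 ⧸ LinearMap.ker g) →ₗ[k] HaqH C.ZL1 C.BL1 :=
      Submodule.mapQ _ _ LinearMap.id hle
    have hq : Function.Surjective q := by
      intro x
      obtain ⟨x, rfl⟩ := haqMk_surjective _ _ x
      exact ⟨Submodule.Quotient.mk x, rfl⟩
    have h1 : Module.Finite k (↥C.ZL1 ⧸ LinearMap.ker g) :=
      Module.Finite.equiv g.quotKerEquivRange.symm
    have h2 : Module.finrank k (↥C.ZL1 ⧸ LinearMap.ker g) ≤ Module.finrank k W := by
      rw [LinearEquiv.finrank_eq g.quotKerEquivRange]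
      exact Submodule.finrank_le _
    exact ⟨Module.Finite.of_surjective q hq,
      (LinearMap.finrank_le_finrank_of_surjective hq).trans (h2.trans hW)⟩
  obtain ⟨hLfin, hLdim⟩ := hLfin
  -- `[G1]`: a subspace of `H1` of dimension `≥ m + ρ`
  let fbar : V →ₗ[k] HaqH ZB1 P.BB1 :=
    haqMk ZB1 P.BB1 ∘ₗ f.codRestrict ZB1 (fun v => LinearMap.mem_ker.2 (hf v))
  have hfbar : Function.Injective fbar := by
    rw [← LinearMap.ker_eq_bot, LinearMap.ker_eq_bot']
    intro v hv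
    apply hf0
    have : haqMk ZB1 P.BB1 ⟨f v, LinearMap.mem_ker.2 (hf v)⟩ = 0 := hv
    rwa [haqMk_eq_zero] at this
  have hVdim : m + ρ ≤ Module.finrank k (LinearMap.range fbar) := by
    rw [LinearMap.finrank_range_of_inj hfbar]
    exact hV
  -- `[G2]`: a subspace of `H2` of dimension `≤ ρ` containing the image of `jj`
  let R' : Submodule k R := P.ZB2.comap δ
  let δbar : ↥R' →ₗ[k] HaqH P.ZB2 RB := haqMk P.ZB2 RB ∘ₗ δ.restrict (fun c hc => hc)
  have hWdim : Module.finrank k (LinearMap.range δbar) ≤ ρ :=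
    ((LinearMap.finrank_range_le δbar).trans (Submodule.finrank_le R')).trans hR
  have hjW : ∀ z, jj z ∈ LinearMap.range δbar := by
    intro z
    obtain ⟨z, rfl⟩ := haqMk_surjective _ _ z
    obtain ⟨c, t, hct⟩ := hδ z z.2
    have hc : c ∈ R' := by
      change δ c ∈ P.ZB2
      have : δ c = C.j z - P.dB1 t := by rw [hct]; abel
      rw [this]
      exact P.ZB2.sub_mem (C.j_Z z z.2) (P.dB1_mem t)
    refine ⟨⟨c, hc⟩, ?_⟩
    change haqMk P.ZB2 RB ⟨δ c, hc⟩ = haqMk P.ZB2 RB ⟨C.j z, C.j_Z z z.2⟩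
    rw [← sub_eq_zero, ← map_sub, haqMk_eq_zero]
    refine ⟨-t, ?_⟩
    change P.dB1 (-t) = δ c - C.j z
    rw [hct, map_neg]; abel
  -- the core count
  obtain ⟨hH1fin, hinj, hsurj, hP1⟩ := haq_count_core res bd jj b m ρ
    (by
      intro y
      obtain ⟨y, rfl⟩ := haqMk_surjective _ _ y
      change haqMk P.ZA2 RA ⟨C.bd (C.loc y), _⟩ = 0
      rw [haqMk_eq_zero]
      obtain ⟨w, hw⟩ := C.bd_loc y (LinearMap.mem_ker.1 y.2)
      exact ⟨w, hw⟩)
    (by
      intro z hz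
      obtain ⟨z, rfl⟩ := haqMk_surjective _ _ z
      have hz' : haqMk P.ZB2 RB ⟨C.j z, C.j_Z z z.2⟩ = 0 := hz
      rw [haqMk_eq_zero] at hz'
      obtain ⟨t, ht⟩ := hz'
      obtain ⟨x, hx, w, hxw⟩ := C.j_exact z z.2 ⟨t, ht⟩
      refine ⟨haqMk C.ZL1 C.BL1 ⟨x, hx⟩, ?_⟩
      change haqMk P.ZA2 RA ⟨C.bd x, C.bd_Z x hx⟩ = haqMk P.ZA2 RA z
      rw [← sub_eq_zero, ← map_sub, haqMk_eq_zero]
      refine ⟨-w, ?_⟩
      change P.dA1 (-w) = C.bd x - (z : P.A2)
      rw [hxw, map_neg]; abel)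
    (by
      intro l y hy
      obtain ⟨l, rfl⟩ := haqMk_surjective _ _ l
      obtain ⟨y, rfl⟩ := haqMk_surjective _ _ y
      rw [hres_zero] at hy
      exact C.bd_sha l l.2 y (LinearMap.mem_ker.1 y.2) hy)
    hLdim
    (by
      intro y hy
      obtain ⟨y, rfl⟩ := haqMk_surjective _ _ y
      rw [Ne, hres_zero] at hy
      obtain ⟨x, hx, hxy⟩ := hL2 y (LinearMap.mem_ker.1 y.2) hy
      exact ⟨haqMk C.ZL1 C.BL1 ⟨x, hx⟩, hxy⟩)
    (LinearMap.range fbar) hVdim (LinearMap.range δbar) hjW hWdim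
    (by
      intro y hy hne
      obtain ⟨y, rfl⟩ := haqMk_surjective _ _ y
      rw [hres_zero] at hy
      rw [Ne, haqMk_eq_zero] at hne
      obtain ⟨z, hz, hzy⟩ := hG4 y (LinearMap.mem_ker.1 y.2) hy hne
      exact ⟨haqMk P.ZA2 RA ⟨z, hz⟩, hzy⟩)
  refine ⟨?_, ?_, ?_⟩
  · -- `A1Surj`
    let ZA1 : Submodule k P.A1 := LinearMap.ker P.dA1
    let jj' : HaqH ZA1 (⊥ : Submodule k P.A1) →ₗ[k] HaqH ZB1 P.BB1 :=
      haqMap C.j' (fun x hx => LinearMap.mem_ker.2 (C.j'_Z x (LinearMap.mem_ker.1 hx)))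
        (fun x _ hx => by
          rw [(Submodule.mem_bot k).1 hx, map_zero]
          exact P.BB1.zero_mem)
    let bd0 : C.L0 →ₗ[k] HaqH ZA1 (⊥ : Submodule k P.A1) :=
      haqMk ZA1 ⊥ ∘ₗ C.bd0.codRestrict ZA1 (fun c => LinearMap.mem_ker.2 (C.bd0_Z c))
    let b12 : HaqH ZA1 (⊥ : Submodule k P.A1) →ₗ[k] HaqH P.ZB2 RB →ₗ[k] k :=
      haqBil P.b12 (fun x _ hx y _ => by
          rw [(Submodule.mem_bot k).1 hx, map_zero, LinearMap.zero_apply])
        (fun x hx y _ hy => by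
          obtain ⟨t, rfl⟩ := hy
          exact P.b12_dB1 (LinearMap.mem_ker.1 hx) t)
    have hcore := haq_count_core1 res jj b hP1 (LinearMap.range δbar) hjW jj' bd0 b12 C.ε
      (by
        intro y hy
        obtain ⟨y, rfl⟩ := haqMk_surjective _ _ y
        rw [hres_zero] at hy
        obtain ⟨x', hx', hyx'⟩ := C.j'_exact y (LinearMap.mem_ker.1 y.2) hy
        refine ⟨haqMk ZA1 ⊥ ⟨x', LinearMap.mem_ker.2 hx'⟩, ?_⟩
        change haqMk ZB1 P.BB1 ⟨C.j' x', _⟩ = haqMk ZB1 P.BB1 y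
        rw [← sub_eq_zero, ← map_sub, haqMk_eq_zero]
        have : C.j' x' - (y : P.B1) = -((y : P.B1) - C.j' x') := by abel
        change C.j' x' - (y : P.B1) ∈ P.BB1
        rw [this]
        exact P.BB1.neg_mem hyx')
      (by
        intro z x'
        obtain ⟨z, rfl⟩ := haqMk_surjective _ _ z
        obtain ⟨x', rfl⟩ := haqMk_surjective _ _ x'
        exact C.sym z z.2 x' (LinearMap.mem_ker.1 x'.2))
      (by
        intro y hy
        obtain ⟨y, rfl⟩ := haqMk_surjective _ _ y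
        obtain ⟨z, hz, t, hzt⟩ := hL1 y y.2 (fun c => hy c)
        refine ⟨haqMk P.ZA2 RA ⟨z, hz⟩, ?_⟩
        change haqMk P.ZB2 RB ⟨C.j z, C.j_Z z hz⟩ = haqMk P.ZB2 RB y
        rw [← sub_eq_zero, ← map_sub, haqMk_eq_zero]
        refine ⟨-t, ?_⟩
        change P.dB1 (-t) = C.j z - (y : P.B2)
        rw [hzt, map_neg]; abel)
    intro φ hφ
    let φbar : HaqH P.ZB2 RB →ₗ[k] k :=
      Submodule.liftQ _ (φ ∘ₗ P.ZB2.subtype) (by
        rintro y ⟨t, ht⟩
        rw [LinearMap.mem_ker]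
        have ht' : P.dB1 t = (y : P.B2) := ht
        change φ (y : P.B2) = 0
        rw [← ht']
        exact hφ t)
    obtain ⟨x', hx'⟩ := hcore φbar
    obtain ⟨x', rfl⟩ := haqMk_surjective _ _ x'
    exact ⟨x', LinearMap.mem_ker.1 x'.2, fun y hy => hx' (haqMk P.ZB2 RB ⟨y, hy⟩)⟩
  · -- `A2Inj`
    intro x hx hxy
    have := hinj (haqMk P.ZA2 RA ⟨x, hx⟩) (by
      intro y
      obtain ⟨y, rfl⟩ := haqMk_surjective _ _ y
      exact hxy y (LinearMap.mem_ker.1 y.2))
    rw [haqMk_eq_zero] at this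
    exact this
  · -- `A2Surj`
    intro φ hφ
    let φbar : HaqH ZB1 P.BB1 →ₗ[k] k :=
      Submodule.liftQ _ (φ ∘ₗ ZB1.subtype) (by
        intro y hy
        rw [LinearMap.mem_ker]
        exact hφ y hy)
    obtain ⟨z, hz⟩ := hsurj φbar
    obtain ⟨z, rfl⟩ := haqMk_surjective _ _ z
    exact ⟨z, z.2, fun y hy => hz (haqMk ZB1 P.BB1 ⟨y, LinearMap.mem_ker.2 hy⟩)⟩

end HaQBase

end Fermat.Agent.S55
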