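import Fermat.Agent.S55.HcCone
import Fermat.Agent.S55.HAQ

/-!
# S55 homological layer (HC), part 4: the paired complexes `HaQC` of the cone model

For local data `D`, an equivariant pairing `φ : A × B → T` and a trace functional `τ` on
`C_c^3(T)` killing cone coboundaries, `hc_QC D hφ τ hτ : HaQC k` is the paired 2-truncated
complex `C_c^1(A) → C_c^2(A)`, `C^1(B) → C^2(B)` with the cup product pairings.  Short exact
sequences, retracts and finite direct sums of representations (with adjoint maps on the dual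
side) give `HaQSES`, `HaQRetract`, `HaQSum`.
-/

set_option autoImplicit false
set_option linter.unusedSectionVars false
set_option linter.unusedVariables false

namespace Fermat.Agent.S55

universe u w

section QC

variable {k : Type w} [Field k] {G : Type u} [Group G] {L : hc_Lev G} (D : hc_Loc.{u, u, u} L)
variable {T : Type*} [AddCommGroup T] [Module k T] {ρT : Representation k G T}
  (τ : hc_Cc3 D ρT →ₗ[k] k) (hτ : ∀ x, τ (hc_dc2 D ρT x) = 0)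

section single

variable {A B : Type u} [AddCommGroup A] [Module k A] [AddCommGroup B] [Module k B]
  {φ : A →ₗ[k] B →ₗ[k] T} {ρA : Representation k G A} {ρB : Representation k G B}
  (hφ : ∀ g a b, φ (ρA g a) (ρB g b) = ρT g (φ a b))

/-- the paired 2-truncated complex of the cone model. -/
def hc_QC : HaQC.{w, u} k where
  A1 := hc_Cc1 D ρA
  A2 := hc_Cc2 D ρA
  B1 := hc_C1 L ρB
  B2 := hc_C2 L ρB
  dA1 := hc_dc1 D ρA
  dB1 := hc_d12 L ρB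
  ZA2 := LinearMap.ker (hc_dc2 D ρA)
  BB1 := LinearMap.range (hc_d01 L ρB)
  ZB2 := LinearMap.ker (hc_d23 L ρB)
  b12 := hc_b12 hφ τ
  b21 := hc_b21 hφ τ
  e1 := 1
  e1_ne := one_ne_zero
  dA1_mem x := hc_dc2_dc1 x
  dB1_mem y := hc_d23_d12 L ρB y
  dB1_BB1 := by
    rintro _ ⟨y, rfl⟩
    exact hc_d12_d01 L ρB y
  rel1 x y := by
    rw [one_mul]
    exact hc_rel1 hφ hτ x y
  b21_BB1 := by
    rintro x hx _ ⟨y, rfl⟩
    have h := hc_rel2 hφ hτ x y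
    rw [LinearMap.mem_ker.1 hx, map_zero, LinearMap.zero_apply] at h
    exact neg_eq_zero.1 h.symm

end single

/-! ### adjointness of cup products -/

section adj

variable {A₁ B₁ A₂ B₂ : Type*} [AddCommGroup A₁] [Module k A₁] [AddCommGroup B₁] [Module k B₁]
  [AddCommGroup A₂] [Module k A₂] [AddCommGroup B₂] [Module k B₂]
  {φ₁ : A₁ →ₗ[k] B₁ →ₗ[k] T} {ρA₁ : Representation k G A₁} {ρB₁ : Representation k G B₁}
  (hφ₁ : ∀ g a b, φ₁ (ρA₁ g a) (ρB₁ g b) = ρT g (φ₁ a b))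
  {φ₂ : A₂ →ₗ[k] B₂ →ₗ[k] T} {ρA₂ : Representation k G A₂} {ρB₂ : Representation k G B₂}
  (hφ₂ : ∀ g a b, φ₂ (ρA₂ g a) (ρB₂ g b) = ρT g (φ₂ a b))
  {f : A₁ →ₗ[k] A₂} (hf : ∀ g a, f (ρA₁ g a) = ρA₂ g (f a))
  {f' : B₂ →ₗ[k] B₁} (hf' : ∀ g b, f' (ρB₂ g b) = ρB₁ g (f' b))
  (hadj : ∀ a b, φ₂ (f a) b = φ₁ a (f' b))

include hadj in
lemma hc_ccup12_adj (x : hc_Cc1 D ρA₁) (y : hc_C2 L ρB₂) :
    hc_ccup12 D hφ₂ (hc_cmap1 D f hf x) y = hc_ccup12 D hφ₁ x (hc_map2 L f' hf' y) := by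
  refine Prod.ext (Subtype.ext (funext fun ⟨g, h, j⟩ => ?_))
    (funext fun v => Subtype.ext (funext fun ⟨g, h⟩ => ?_))
  · simp only [hc_ccup12_fst, hc_cup12_coe, hc_cup12f_apply, hc_cmap1_fst, hc_map1_coe,
      hc_map2_coe, hadj, hf']
  · simp only [hc_ccup12_snd, hc_cup02_coe, hc_cup02f_apply, hc_cmap1_snd, hc_map0_coe,
      hc_res2_coe, hc_map2_coe, hadj]

include hadj in
lemma hc_ccup21_adj (x : hc_Cc2 D ρA₁) (y : hc_C1 L ρB₂) :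
    hc_ccup21 D hφ₂ (hc_cmap2 D f hf x) y = hc_ccup21 D hφ₁ x (hc_map1 L f' hf' y) := by
  refine Prod.ext (Subtype.ext (funext fun ⟨g, h, j⟩ => ?_))
    (funext fun v => Subtype.ext (funext fun ⟨g, h⟩ => ?_))
  · simp only [hc_ccup21_fst, hc_cup21_coe, hc_cup21f_apply, hc_cmap2_fst, hc_map2_coe,
      hc_map1_coe, hadj, hf']
  · simp only [hc_ccup21_snd, hc_cup11_coe, hc_cup11f_apply, hc_cmap2_snd, hc_map1_coe,
      hc_res1_coe, hadj, hc_equiv_loc D hf' v]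

include hadj in
lemma hc_b12_adj (x : hc_Cc1 D ρA₁) (y : hc_C2 L ρB₂) :
    hc_b12 hφ₂ τ (hc_cmap1 D f hf x) y = hc_b12 hφ₁ τ x (hc_map2 L f' hf' y) := by
  simp only [hc_b12_apply, hc_ccup12_adj D hφ₁ hφ₂ hf hf' hadj]

include hadj in
lemma hc_b21_adj (x : hc_Cc2 D ρA₁) (y : hc_C1 L ρB₂) :
    hc_b21 hφ₂ τ (hc_cmap2 D f hf x) y = hc_b21 hφ₁ τ x (hc_map1 L f' hf' y) := by
  simp only [hc_b21_apply, hc_ccup21_adj D hφ₁ hφ₂ hf hf' hadj]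

end adj

/-! ### general facts on cone cocycles and maps -/

section mapfacts

variable {A₁ A₂ : Type*} [AddCommGroup A₁] [Module k A₁] [AddCommGroup A₂] [Module k A₂]
  {ρA₁ : Representation k G A₁} {ρA₂ : Representation k G A₂}
  {f : A₁ →ₗ[k] A₂} (hf : ∀ g a, f (ρA₁ g a) = ρA₂ g (f a))

lemma hc_cmap2_mem_ker {x : hc_Cc2 D ρA₁} (hx : x ∈ LinearMap.ker (hc_dc2 D ρA₁)) :
    hc_cmap2 D f hf x ∈ LinearMap.ker (hc_dc2 D ρA₂) := by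
  rw [LinearMap.mem_ker, ← hc_cmap3_dc2, LinearMap.mem_ker.1 hx, map_zero]

lemma hc_cmap2_mem_ker_refl (hinj : Function.Injective f) {x : hc_Cc2 D ρA₁}
    (hx : hc_cmap2 D f hf x ∈ LinearMap.ker (hc_dc2 D ρA₂)) :
    x ∈ LinearMap.ker (hc_dc2 D ρA₁) := by
  rw [LinearMap.mem_ker, ← hc_cmap3_dc2] at hx
  rw [LinearMap.mem_ker]
  exact hc_cmap3_injective hf hinj (by rw [hx, map_zero])

lemma hc_map2_mem_ker {x : hc_C2 L ρA₁} (hx : x ∈ LinearMap.ker (hc_d23 L ρA₁)) :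
    hc_map2 L f hf x ∈ LinearMap.ker (hc_d23 L ρA₂) := by
  rw [LinearMap.mem_ker, ← hc_map3_d23, LinearMap.mem_ker.1 hx, map_zero]

lemma hc_map2_mem_ker_refl (hinj : Function.Injective f) {x : hc_C2 L ρA₁}
    (hx : hc_map2 L f hf x ∈ LinearMap.ker (hc_d23 L ρA₂)) :
    x ∈ LinearMap.ker (hc_d23 L ρA₁) := by
  rw [LinearMap.mem_ker, ← hc_map3_d23] at hx
  rw [LinearMap.mem_ker]
  exact hc_map3_injective hf hinj (by rw [hx, map_zero])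

lemma hc_map1_mem_range {x : hc_C1 L ρA₁} (hx : x ∈ LinearMap.range (hc_d01 L ρA₁)) :
    hc_map1 L f hf x ∈ LinearMap.range (hc_d01 L ρA₂) := by
  obtain ⟨y, rfl⟩ := hx
  exact ⟨hc_map0 L f hf y, (hc_map1_d01 hf y).symm⟩

lemma hc_map1_mem_ker {x : hc_C1 L ρA₁} (hx : hc_d12 L ρA₁ x = 0) :
    hc_d12 L ρA₂ (hc_map1 L f hf x) = 0 := by
  rw [← hc_map2_d12, hx, map_zero]

end mapfacts

/-! ### short exact sequences -/

section ses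

variable {A₁ B₁ A₂ B₂ A₃ B₃ : Type u}
  [AddCommGroup A₁] [Module k A₁] [AddCommGroup B₁] [Module k B₁]
  [AddCommGroup A₂] [Module k A₂] [AddCommGroup B₂] [Module k B₂]
  [AddCommGroup A₃] [Module k A₃] [AddCommGroup B₃] [Module k B₃]
  {φ₁ : A₁ →ₗ[k] B₁ →ₗ[k] T} {ρA₁ : Representation k G A₁} {ρB₁ : Representation k G B₁}
  (hφ₁ : ∀ g a b, φ₁ (ρA₁ g a) (ρB₁ g b) = ρT g (φ₁ a b))
  {φ₂ : A₂ →ₗ[k] B₂ →ₗ[k] T} {ρA₂ : Representation k G A₂} {ρB₂ : Representation k G B₂}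
  (hφ₂ : ∀ g a b, φ₂ (ρA₂ g a) (ρB₂ g b) = ρT g (φ₂ a b))
  {φ₃ : A₃ →ₗ[k] B₃ →ₗ[k] T} {ρA₃ : Representation k G A₃} {ρB₃ : Representation k G B₃}
  (hφ₃ : ∀ g a b, φ₃ (ρA₃ g a) (ρB₃ g b) = ρT g (φ₃ a b))

/-- a short exact sequence `0 → A₁ → A₂ → A₃ → 0` with dual sequence `0 → B₃ → B₂ → B₁ → 0`
and adjoint pairings gives a short exact sequence of paired complexes. -/
def hc_QSES
    {f : A₁ →ₗ[k] A₂} (hf : ∀ g a, f (ρA₁ g a) = ρA₂ g (f a))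
    {g : A₂ →ₗ[k] A₃} (hg : ∀ s a, g (ρA₂ s a) = ρA₃ s (g a))
    {f' : B₂ →ₗ[k] B₁} (hf' : ∀ g b, f' (ρB₂ g b) = ρB₁ g (f' b))
    {g' : B₃ →ₗ[k] B₂} (hg' : ∀ s b, g' (ρB₃ s b) = ρB₂ s (g' b))
    (hfinj : Function.Injective f) (hgsurj : Function.Surjective g)
    (hgf : ∀ a, g (f a) = 0) (hex : ∀ b, g b = 0 → ∃ a, f a = b)
    (hf'surj : Function.Surjective f') (hg'inj : Function.Injective g')
    (hfg' : ∀ c, f' (g' c) = 0) (hex' : ∀ b, f' b = 0 → ∃ c, g' c = b)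
    (hadjf : ∀ a b, φ₂ (f a) b = φ₁ a (f' b)) (hadjg : ∀ a b, φ₃ (g a) b = φ₂ a (g' b))
    (hadmA : hc_Adm L ρA₂) (hadmB : hc_Adm L ρB₂) :
    HaQSES (hc_QC D τ hτ hφ₁) (hc_QC D τ hτ hφ₂) (hc_QC D τ hτ hφ₃) where
  f1 := hc_cmap1 D f hf
  f2 := hc_cmap2 D f hf
  g1 := hc_cmap1 D g hg
  g2 := hc_cmap2 D g hg
  f1' := hc_map1 L f' hf'
  f2' := hc_map2 L f' hf'
  g1' := hc_map1 L g' hg'
  g2' := hc_map2 L g' hg'
  f_d1 x := hc_cmap2_dc1 hf x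
  g_d1 x := hc_cmap2_dc1 hg x
  f'_d1 y := hc_map2_d12 hf' y
  g'_d1 y := hc_map2_d12 hg' y
  g1_surj := hc_cmap1_surjective hg hgsurj hadmA
  gf1 a := by
    refine Prod.ext (Subtype.ext (funext fun x => ?_)) (funext fun v => Subtype.ext ?_)
    · exact hgf _
    · exact hgf _
  exact2 x hx := hc_cmap2_exact hf hg hfinj hex x hx
  f2_ZA2_refl a ha := hc_cmap2_mem_ker_refl D hf hfinj ha
  g2_ZA2 b hb := hc_cmap2_mem_ker D hg hb
  f1'_surj := hc_map1_surjective hf' hf'surj hadmB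
  fg1' c := Subtype.ext (funext fun x => hfg' _)
  exact2' y hy := hc_map2_exact hg' hf' hg'inj hex' y hy
  g2'_ZB2_refl c hc := hc_map2_mem_ker_refl hg' hg'inj hc
  f2'_ZB2 y hy := hc_map2_mem_ker hf' hy
  f1'_BB1 y hy := hc_map1_mem_range hf' hy
  adj_f12 x y := hc_b12_adj D τ hφ₁ hφ₂ hf hf' hadjf x y
  adj_f21 x y := hc_b21_adj D τ hφ₁ hφ₂ hf hf' hadjf x y
  adj_g12 x y := hc_b12_adj D τ hφ₂ hφ₃ hg hg' hadjg x y
  adj_g21 x y := hc_b21_adj D τ hφ₂ hφ₃ hg hg' hadjg x y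

end ses

/-! ### retracts -/

section retract

variable {A₁ B₁ A₂ B₂ : Type u}
  [AddCommGroup A₁] [Module k A₁] [AddCommGroup B₁] [Module k B₁]
  [AddCommGroup A₂] [Module k A₂] [AddCommGroup B₂] [Module k B₂]
  {φ₁ : A₁ →ₗ[k] B₁ →ₗ[k] T} {ρA₁ : Representation k G A₁} {ρB₁ : Representation k G B₁}
  (hφ₁ : ∀ g a b, φ₁ (ρA₁ g a) (ρB₁ g b) = ρT g (φ₁ a b))
  {φ₂ : A₂ →ₗ[k] B₂ →ₗ[k] T} {ρA₂ : Representation k G A₂} {ρB₂ : Representation k G B₂}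
  (hφ₂ : ∀ g a b, φ₂ (ρA₂ g a) (ρB₂ g b) = ρT g (φ₂ a b))

/-- a retract `A₁ ⇄ A₂` with adjoint maps on the dual side gives a retract of paired
complexes. -/
def hc_QRetract
    {i : A₁ →ₗ[k] A₂} (hi : ∀ g a, i (ρA₁ g a) = ρA₂ g (i a))
    {r : A₂ →ₗ[k] A₁} (hr : ∀ g a, r (ρA₂ g a) = ρA₁ g (r a))
    {i' : B₂ →ₗ[k] B₁} (hi' : ∀ g b, i' (ρB₂ g b) = ρB₁ g (i' b))
    {r' : B₁ →ₗ[k] B₂} (hr' : ∀ g b, r' (ρB₁ g b) = ρB₂ g (r' b))
    (hri : ∀ a, r (i a) = a) (hir' : ∀ b, i' (r' b) = b)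
    (hadji : ∀ a b, φ₂ (i a) b = φ₁ a (i' b)) (hadjr : ∀ a b, φ₁ (r a) b = φ₂ a (r' b)) :
    HaQRetract (hc_QC D τ hτ hφ₁) (hc_QC D τ hτ hφ₂) where
  i2 := hc_cmap2 D i hi
  r1 := hc_cmap1 D r hr
  r2 := hc_cmap2 D r hr
  i1' := hc_map1 L i' hi'
  i2' := hc_map2 L i' hi'
  r1' := hc_map1 L r' hr'
  r2' := hc_map2 L r' hr'
  r_d1 x := hc_cmap2_dc1 hr x
  i'_d1 y := hc_map2_d12 hi' y
  r'_d1 y := hc_map2_d12 hr' y
  ri2 x := by
    refine Prod.ext (Subtype.ext (funext fun y => ?_))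
      (funext fun v => Subtype.ext (funext fun y => ?_))
    · exact hri _
    · exact hri _
  ir1' y := Subtype.ext (funext fun x => hir' _)
  ir2' y := Subtype.ext (funext fun x => hir' _)
  i2_ZA2 x hx := hc_cmap2_mem_ker D hi hx
  r2_ZA2 x hx := hc_cmap2_mem_ker D hr hx
  r2'_ZB2 y hy := hc_map2_mem_ker hr' hy
  i1'_BB1 y hy := hc_map1_mem_range hi' hy
  adj_r12 x y := hc_b12_adj D τ hφ₂ hφ₁ hr hr' hadjr x y
  adj_r21 x y := hc_b21_adj D τ hφ₂ hφ₁ hr hr' hadjr x y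
  adj_i21 x y := hc_b21_adj D τ hφ₁ hφ₂ hi hi' hadji x y

end retract

/-! ### finite direct sums -/

section sum

variable {ι : Type*} [Fintype ι] {Ai Bi : ι → Type u}
  [∀ i, AddCommGroup (Ai i)] [∀ i, Module k (Ai i)] [∀ i, AddCommGroup (Bi i)]
  [∀ i, Module k (Bi i)]
  {φi : ∀ i, Ai i →ₗ[k] Bi i →ₗ[k] T} {ρAi : ∀ i, Representation k G (Ai i)}
  {ρBi : ∀ i, Representation k G (Bi i)}
  (hφi : ∀ i, ∀ g a b, φi i (ρAi i g a) (ρBi i g b) = ρT g (φi i a b))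
  {A B : Type u} [AddCommGroup A] [Module k A] [AddCommGroup B] [Module k B]
  {φ : A →ₗ[k] B →ₗ[k] T} {ρA : Representation k G A} {ρB : Representation k G B}
  (hφ : ∀ g a b, φ (ρA g a) (ρB g b) = ρT g (φ a b))

lemma hc_map1_dec
    {prj' : ∀ i, B →ₗ[k] Bi i} (hprj' : ∀ i, ∀ g b, prj' i (ρB g b) = ρBi i g (prj' i b))
    {inj' : ∀ i, Bi i →ₗ[k] B} (hinj' : ∀ i, ∀ g b, inj' i (ρBi i g b) = ρB g (inj' i b))
    (hdec : ∀ b, b = ∑ i, inj' i (prj' i b)) (y : hc_C1 L ρB) :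
    y = ∑ i, hc_map1 L (inj' i) (hinj' i) (hc_map1 L (prj' i) (hprj' i) y) := by
  apply Subtype.ext
  funext x
  rw [Submodule.coe_sum, Finset.sum_apply]
  exact hdec _

/-- a finite direct sum decomposition (on the dual side) gives the sum data for `A2Surj`. -/
def hc_QSum
    {inj : ∀ i, Ai i →ₗ[k] A} (hinj : ∀ i, ∀ g a, inj i (ρAi i g a) = ρA g (inj i a))
    {prj' : ∀ i, B →ₗ[k] Bi i} (hprj' : ∀ i, ∀ g b, prj' i (ρB g b) = ρBi i g (prj' i b))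
    {inj' : ∀ i, Bi i →ₗ[k] B} (hinj' : ∀ i, ∀ g b, inj' i (ρBi i g b) = ρB g (inj' i b))
    (hdec : ∀ b, b = ∑ i, inj' i (prj' i b))
    (hadj : ∀ i a b, φ (inj i a) b = φi i a (prj' i b)) :
    HaQSum (fun i => hc_QC D τ hτ (hφi i)) (hc_QC D τ hτ hφ) where
  inj2 i := hc_cmap2 D (inj i) (hinj i)
  prj1' i := hc_map1 L (prj' i) (hprj' i)
  inj1' i := hc_map1 L (inj' i) (hinj' i)
  dec y := hc_map1_dec hprj' hinj' hdec y
  inj2_ZA2 i x hx := hc_cmap2_mem_ker D (hinj i) hx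
  prj1'_Z i y hy := hc_map1_mem_ker (hprj' i) hy
  inj1'_BB1 i y hy := hc_map1_mem_range (hinj' i) hy
  adj i x y := hc_b21_adj D τ (hφi i) hφ (hinj i) (hprj' i) (hadj i) x y

end sum

end QC

end Fermat.Agent.S55
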