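import Fermat.Agent.S55.HcCup

/-!
# S55 interface, part 6: the cup-1 homotopy (symmetry of the two compact pairings)

For a 2-cocycle `a : G × G → A`, a 1-cocycle `a' : G → B` and an equivariant pairing
`φ : A × B → T`, the 2-cochain `h (g₁, g₂) = φ (a (g₁, g₂)) (a' (g₁ g₂))` satisfies
`d h = a ∪ a' - a' ∪ a` (the second cup product taken for the flipped pairing).
Together with the local identity `pt_cup1_local` this gives, for cone cocycles
`x = (a, (b_v))`, `x' = (a', (b'_v))`:  `x ∪ a' - x' ∪ a = d_c (h, (b_v ∪ b'_v)_v)`.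
-/

set_option autoImplicit false

namespace Fermat.Agent.S55

section raw

variable {k G A B T : Type*} [CommRing k] [Group G]
  [AddCommGroup A] [Module k A] [AddCommGroup B] [Module k B] [AddCommGroup T] [Module k T]
variable (φ : A →ₗ[k] B →ₗ[k] T)

/-- The cup-1 type cochain `h (g₁, g₂) = φ (a (g₁, g₂)) (a' (g₁ g₂))`. -/
def pt_cup1 : (G × G → A) →ₗ[k] (G → B) →ₗ[k] (G × G → T) :=
  LinearMap.mk₂ k (fun a a' x => φ (a x) (a' (x.1 * x.2)))
    (fun _ _ _ => by funext x; simp) (fun _ _ _ => by funext x; simp)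
    (fun _ _ _ => by funext x; simp) (fun _ _ _ => by funext x; simp)

@[simp] lemma pt_cup1_apply (a : G × G → A) (a' : G → B) (g h : G) :
    pt_cup1 φ a a' (g, h) = φ (a (g, h)) (a' (g * h)) := rfl

variable {φ} {ρA : Representation k G A} {ρB : Representation k G B}
  {ρT : Representation k G T}

/-- **Cup-1 identity**: `d h = a ∪ a' - a' ∪ a` for a 2-cocycle `a` and a 1-cocycle `a'`. -/
theorem pt_cup1_d (hφ : ∀ g a b, φ (ρA g a) (ρB g b) = ρT g (φ a b))
    (a : G × G → A) (a' : G → B) (ha : hc_d23f ρA a = 0) (ha' : hc_d12f ρB a' = 0) :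
    hc_d23f ρT (pt_cup1 φ a a') = hc_cup21f φ ρB a a' - hc_cup12f φ.flip ρA a' a := by
  funext ⟨g, h, j⟩
  have e1 : a (g, h * j) = a (g * h, j) - ρA g (a (h, j)) + a (g, h) := by
    have h0 := congrFun ha (g, h, j)
    rw [hc_d23f_apply, Pi.zero_apply] at h0
    exact sub_eq_zero.mp ((by abel :
      a (g, h * j) - (a (g * h, j) - ρA g (a (h, j)) + a (g, h)) =
        ρA g (a (h, j)) - a (g * h, j) + a (g, h * j) - a (g, h)).trans h0)
  have e2 : a' (g * (h * j)) = ρB g (a' (h * j)) + a' g := by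
    have h0 := congrFun ha' (g, h * j)
    rw [hc_d12f_apply, Pi.zero_apply] at h0
    exact sub_eq_zero.mp ((by abel :
      a' (g * (h * j)) - (ρB g (a' (h * j)) + a' g) =
        -(ρB g (a' (h * j)) - a' (g * (h * j)) + a' g)).trans (by rw [h0, neg_zero]))
  have e3 : ρB (g * h) (a' j) = ρB g (a' (h * j)) + a' g - a' (g * h) := by
    have h0 := congrFun ha' (g * h, j)
    rw [hc_d12f_apply, Pi.zero_apply, mul_assoc, e2] at h0
    exact sub_eq_zero.mp ((by abel :
      ρB (g * h) (a' j) - (ρB g (a' (h * j)) + a' g - a' (g * h)) =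
        ρB (g * h) (a' j) - (ρB g (a' (h * j)) + a' g) + a' (g * h)).trans h0)
  simp only [hc_d23f_apply, pt_cup1_apply, Pi.sub_apply, hc_cup21f_apply, hc_cup12f_apply,
    LinearMap.flip_apply]
  rw [← hφ, mul_assoc, e2, e3, e1]
  simp only [map_add, map_sub, LinearMap.add_apply, LinearMap.sub_apply]
  abel

/-- **Local part of the cup-1 identity**: for a 1-cochain `b` and a 0-cochain `b'`,
`h (d b, d b') - d (b ∪ b') = b ∪ d b' - b' ∪ d b`. -/
theorem pt_cup1_local (hφ : ∀ g a b, φ (ρA g a) (ρB g b) = ρT g (φ a b))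
    (b : G → A) (b' : B) :
    pt_cup1 φ (hc_d12f ρA b) (hc_d01f ρB b') - hc_d12f ρT (hc_cup10f φ ρB b b') =
      hc_cup11f φ ρB b (hc_d01f ρB b') - hc_cup02f φ.flip b' (hc_d12f ρA b) := by
  funext ⟨g, h⟩
  simp only [Pi.sub_apply, pt_cup1_apply, hc_d12f_apply, hc_d01f_apply, hc_cup10f_apply,
    hc_cup11f_apply, hc_cup02f_apply, LinearMap.flip_apply, ← hφ, map_sub, map_add,
    LinearMap.sub_apply, LinearMap.add_apply, map_mul, Module.End.mul_apply]
  abel

/-- The cup-1 cochain is compatible with restriction along a group homomorphism. -/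
theorem pt_cup1_res {H : Type*} [Group H] (ι : H →* G) (a : G × G → A) (a' : G → B) :
    (fun x : H × H => pt_cup1 φ a a' (ι x.1, ι x.2)) =
      pt_cup1 φ (fun x : H × H => a (ι x.1, ι x.2)) (fun x : H => a' (ι x)) := by
  funext ⟨g, h⟩
  simp only [pt_cup1_apply, map_mul]

/-- The cup-1 cochain of level cochains is a level cochain. -/
theorem pt_isLev2_cup1 (hφ : ∀ g a b, φ (ρA g a) (ρB g b) = ρT g (φ a b))
    {N : Subgroup G} (hN : N.Normal) {a : G × G → A} {a' : G → B}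
    (ha : hc_IsLev2 ρA N a) (ha' : hc_IsLev1 ρB N a') : hc_IsLev2 ρT N (pt_cup1 φ a a') := by
  refine ⟨fun g h s hs t ht => ?_, fun x s hs => ?_⟩
  · have h1 : g * s * (h * t) = g * h * (h⁻¹ * s * h * t) := by group
    rw [pt_cup1_apply, pt_cup1_apply, ha.1 g h s hs t ht, h1,
      ha'.1 (g * h) _ (N.mul_mem (hN.conj_mem' s hs h) ht)]
  · obtain ⟨g, h⟩ := x
    rw [pt_cup1_apply, ← hφ, ha.2 (g, h) s hs, ha'.2 (g * h) s hs]

end raw

section level

variable {k G A B T : Type*} [CommRing k] [Group G]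
  [AddCommGroup A] [Module k A] [AddCommGroup B] [Module k B] [AddCommGroup T] [Module k T]
variable (L : hc_Lev G) {φ : A →ₗ[k] B →ₗ[k] T} {ρA : Representation k G A}
  {ρB : Representation k G B} {ρT : Representation k G T}
  (hφ : ∀ g a b, φ (ρA g a) (ρB g b) = ρT g (φ a b))

/-- The cup-1 cochain on level cochains. -/
def pt_cup1L : hc_C2 L ρA →ₗ[k] hc_C1 L ρB →ₗ[k] hc_C2 L ρT :=
  hc_restrict₂ (pt_cup1 φ) (hc_C2 L ρA) (hc_C1 L ρB) (hc_C2 L ρT) (by
    rintro a ⟨N₁, hN₁, h₁⟩ a' ⟨N₂, hN₂, h₂⟩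
    obtain ⟨N, hN, hle₁, hle₂⟩ := L.dir N₁ hN₁ N₂ hN₂
    exact ⟨N, hN, pt_isLev2_cup1 hφ (L.nor N hN) (h₁.mono hle₁) (h₂.mono hle₂)⟩)

@[simp] lemma pt_cup1L_coe (a : hc_C2 L ρA) (a' : hc_C1 L ρB) :
    (pt_cup1L L hφ a a' : G × G → T) = pt_cup1 φ (a : G × G → A) (a' : G → B) := rfl

end level

end Fermat.Agent.S55
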