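import Fermat.Agent.S55.HcCone
import Fermat.Agent.S55.IfaceSym

/-!
# S55 interface, part 8: symmetry of the two compact pairings on cone cocycles

For cone cocycles `X = (a, (b_v)) ∈ Z_c²(A)` and `X' = (a', (b'_v)) ∈ Z_c¹(B)`, a pairing
`φ : A × B → T` and its flip `ψ : B × A → T`:

  `X ∪ a' - X' ∪ a = d_c (h, (b_v ∪ b'_v)_v)`,   `h (g₁, g₂) = φ (a (g₁, g₂)) (a' (g₁ g₂))`.

Hence for every trace `τ` killing `d_c`:  `b21 X a' = b12 X' a`  (`pt_b21_eq_b12`).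
-/

set_option autoImplicit false

namespace Fermat.Agent.S55

universe u v w

section conesym

variable {k : Type*} [CommRing k] {G : Type u} [Group G] {L : hc_Lev G} (D : hc_Loc.{u, v, w} L)
variable {A B T : Type*} [AddCommGroup A] [Module k A] [AddCommGroup B] [Module k B]
  [AddCommGroup T] [Module k T]
  {φ : A →ₗ[k] B →ₗ[k] T} {ψ : B →ₗ[k] A →ₗ[k] T}
  {ρA : Representation k G A} {ρB : Representation k G B} {ρT : Representation k G T}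
  (hφ : ∀ g a b, φ (ρA g a) (ρB g b) = ρT g (φ a b))
  (hψ : ∀ g b a, ψ (ρB g b) (ρA g a) = ρT g (ψ b a))

/-- The cone 2-cochain `(h, (b_v ∪ b'_v)_v)` whose coboundary is `X ∪ a' - X' ∪ a`. -/
def pt_symCochain (X : hc_Cc2 D ρA) (X' : hc_Cc1 D ρB) : hc_Cc2 D ρT :=
  (pt_cup1L L hφ X.1 X'.1,
    fun v => hc_cup10 (D.Lv v) (hc_equiv₂_loc D hφ v) (X.2 v) (X'.2 v))

/-- **Symmetry on cone cocycles**: `X ∪ a' - X' ∪ a = d_c (h, (b_v ∪ b'_v)_v)`. -/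
theorem pt_cone_sym (hflip : ∀ a b, ψ b a = φ a b) (X : hc_Cc2 D ρA) (X' : hc_Cc1 D ρB)
    (hX : hc_dc2 D ρA X = 0) (hX' : hc_dc1 D ρB X' = 0) :
    hc_ccup21 D hφ X X'.1 - hc_ccup12 D hψ X' X.1 = hc_dc2 D ρT (pt_symCochain D hφ X X') := by
  have hψφ : ψ = φ.flip := by
    refine LinearMap.ext fun b => LinearMap.ext fun a => ?_
    rw [LinearMap.flip_apply]
    exact hflip a b
  subst hψφ
  have h1 : hc_d23f ρA (X.1 : G × G → A) = 0 := congrArg Subtype.val (congrArg Prod.fst hX)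
  have h1' : hc_d12f ρB (X'.1 : G → B) = 0 := congrArg Subtype.val (congrArg Prod.fst hX')
  have h2 : ∀ v : D.V, (fun x : D.Gv v × D.Gv v => (X.1 : G × G → A) (D.ι v x.1, D.ι v x.2)) =
      hc_d12f (ρA.comp (D.ι v)) ((X.2 v : hc_C1 (D.Lv v) (ρA.comp (D.ι v))) : D.Gv v → A) :=
    fun v => sub_eq_zero.mp (congrArg Subtype.val (congrFun (congrArg Prod.snd hX) v))
  have h2' : ∀ v : D.V, (fun x : D.Gv v => (X'.1 : G → B) (D.ι v x)) =
      hc_d01f (ρB.comp (D.ι v)) ((X'.2 v : hc_C0 (D.Lv v) (ρB.comp (D.ι v))) : B) :=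
    fun v => sub_eq_zero.mp (congrArg Subtype.val (congrFun (congrArg Prod.snd hX') v))
  refine Prod.ext (Subtype.ext ?_) (funext fun v => Subtype.ext ?_)
  · exact (pt_cup1_d hφ _ _ h1 h1').symm
  · show hc_cup11f φ (ρB.comp (D.ι v)) ((X.2 v : hc_C1 (D.Lv v) (ρA.comp (D.ι v))) : D.Gv v → A)
          (fun x : D.Gv v => (X'.1 : G → B) (D.ι v x)) -
        hc_cup02f φ.flip ((X'.2 v : hc_C0 (D.Lv v) (ρB.comp (D.ι v))) : B)
          (fun x : D.Gv v × D.Gv v => (X.1 : G × G → A) (D.ι v x.1, D.ι v x.2)) =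
      (fun x : D.Gv v × D.Gv v =>
          pt_cup1 φ (X.1 : G × G → A) (X'.1 : G → B) (D.ι v x.1, D.ι v x.2)) -
        hc_d12f (ρT.comp (D.ι v)) (hc_cup10f φ (ρB.comp (D.ι v))
          ((X.2 v : hc_C1 (D.Lv v) (ρA.comp (D.ι v))) : D.Gv v → A)
          ((X'.2 v : hc_C0 (D.Lv v) (ρB.comp (D.ι v))) : B))
    rw [pt_cup1_res (φ := φ) (D.ι v), h2 v, h2' v]
    exact (pt_cup1_local (hc_equiv₂_loc D hφ v) _ _).symm

/-- **Symmetry of the two compact pairings**: for cone cocycles `X ∈ Z_c²(A)`, `X' ∈ Z_c¹(B)`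
and a trace `τ` killing cone coboundaries, `τ (X ∪ a') = τ (X' ∪ a)`. -/
theorem pt_b21_eq_b12 (hflip : ∀ a b, ψ b a = φ a b) {τ : hc_Cc3 D ρT →ₗ[k] k}
    (hτ : ∀ x, τ (hc_dc2 D ρT x) = 0) (X : hc_Cc2 D ρA) (X' : hc_Cc1 D ρB)
    (hX : hc_dc2 D ρA X = 0) (hX' : hc_dc1 D ρB X' = 0) :
    hc_b21 hφ τ X X'.1 = hc_b12 hψ τ X' X.1 := by
  have h := congrArg τ (pt_cone_sym D hφ hψ hflip X X' hX hX')
  rw [map_sub, hτ, sub_eq_zero] at h
  exact h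

end conesym

end Fermat.Agent.S55
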