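/-
S55 block BASE-FORMAL (helper13): the formal cone data `HaQBase` (input of the abstract base-case
count `HaQBase.good`, HACount.lean) for helper4's cone model `hc_QC D τ hτ hφ` in the self-dual
situation: one coefficient module `A` with representation `ρ` on both sides and a symmetric
pairing `φ : A × A → T`.

  `L1 = ∏_v C^1(G_v, A)`,  `ZL1 / BL1` = local 1-cocycles / 1-coboundaries,
  `L0 = ∏_v H^0(G_v, A)` (local invariants),  `loc = (res_v)_v`,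
  `bd ℓ = (0, ℓ)`,  `bd0 c = (0, c)`,  `j = j' = fst`,  `ε = 1`.
-/
import Fermat.Agent.S55.HcQC
import Fermat.Agent.S55.HACount
import Fermat.Agent.S55.IfaceSymCone

set_option autoImplicit false
set_option linter.unusedSectionVars false

namespace Fermat.Agent.S55

universe u w

section base

variable {k : Type w} [Field k] {G : Type u} [Group G] {L : hc_Lev G} (D : hc_Loc.{u, u, u} L)
variable {T : Type*} [AddCommGroup T] [Module k T] {ρT : Representation k G T}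
  (τ : hc_Cc3 D ρT →ₗ[k] k) (hτ : ∀ x, τ (hc_dc2 D ρT x) = 0)
variable {A : Type u} [AddCommGroup A] [Module k A]
  {φ : A →ₗ[k] A →ₗ[k] T} (ρ : Representation k G A)
  (hφ : ∀ g a b, φ (ρ g a) (ρ g b) = ρT g (φ a b))

/-- local 1-cochains. -/
abbrev hcb_L1 : Type u := ∀ v : D.V, hc_C1 (D.Lv v) (ρ.comp (D.ι v))

/-- local 0-cochains. -/
abbrev hcb_C0 : Type u := ∀ v : D.V, hc_C0 (D.Lv v) (ρ.comp (D.ι v))

/-- local 1-cocycles. -/
def hcb_ZL1 : Submodule k (hcb_L1 D ρ) :=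
  Submodule.pi Set.univ fun v => LinearMap.ker (hc_d12 (D.Lv v) (ρ.comp (D.ι v)))

/-- local 1-coboundaries. -/
def hcb_BL1 : Submodule k (hcb_L1 D ρ) :=
  Submodule.pi Set.univ fun v => LinearMap.range (hc_d01 (D.Lv v) (ρ.comp (D.ι v)))

/-- local invariants (local 0-cocycles). -/
def hcb_Z0 : Submodule k (hcb_C0 D ρ) :=
  Submodule.pi Set.univ fun v => LinearMap.ker (hc_d01 (D.Lv v) (ρ.comp (D.ι v)))

variable {D ρ}

lemma hcb_mem_ZL1 {l : hcb_L1 D ρ} :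
    l ∈ hcb_ZL1 D ρ ↔ ∀ v, hc_d12 (D.Lv v) (ρ.comp (D.ι v)) (l v) = 0 := by
  simp [hcb_ZL1, Submodule.mem_pi]

lemma hcb_mem_BL1 {l : hcb_L1 D ρ} :
    l ∈ hcb_BL1 D ρ ↔ ∃ c : hcb_C0 D ρ, ∀ v, hc_d01 (D.Lv v) (ρ.comp (D.ι v)) (c v) = l v := by
  simp only [hcb_BL1, Submodule.mem_pi, Set.mem_univ, LinearMap.mem_range, true_implies]
  constructor
  · intro h
    choose c hc using h
    exact ⟨c, hc⟩
  · rintro ⟨c, hc⟩ v
    exact ⟨c v, hc v⟩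

lemma hcb_mem_Z0 {c : hcb_C0 D ρ} :
    c ∈ hcb_Z0 D ρ ↔ ∀ v, hc_d01 (D.Lv v) (ρ.comp (D.ι v)) (c v) = 0 := by
  simp [hcb_Z0, Submodule.mem_pi]

variable (D ρ)

/-- localisation of global 1-cochains. -/
def hcb_loc : hc_C1 L ρ →ₗ[k] hcb_L1 D ρ := LinearMap.pi fun v => hc_res1 (D.compat v) ρ

variable {D ρ}

@[simp] lemma hcb_loc_apply (y : hc_C1 L ρ) (v : D.V) :
    hcb_loc D ρ y v = hc_res1 (D.compat v) ρ y := rfl

/-- `d_c (0, -c) = (0, d c)`. -/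
lemma hcb_dc1_inr (c : hcb_C0 D ρ) :
    hc_dc1 D ρ ((0 : hc_C1 L ρ), -c)
      = ((0 : hc_C2 L ρ), fun v => hc_d01 (D.Lv v) (ρ.comp (D.ι v)) (c v)) := by
  refine Prod.ext (by simp) (funext fun v => ?_)
  simp only [hc_dc1_snd, map_zero, Pi.neg_apply, map_neg, zero_sub, neg_neg]

/-- `d_c (y, 0) = (d y, loc y)`. -/
lemma hcb_dc1_inl (y : hc_C1 L ρ) :
    hc_dc1 D ρ (y, (0 : hcb_C0 D ρ)) = (hc_d12 L ρ y, hcb_loc D ρ y) := by
  refine Prod.ext (by simp) (funext fun v => ?_)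
  simp only [hc_dc1_snd, Pi.zero_apply, map_zero, sub_zero, hcb_loc_apply]

/-- `d_c (0, ℓ) = (0, -d ℓ)`. -/
lemma hcb_dc2_inr (l : hcb_L1 D ρ) :
    hc_dc2 D ρ ((0 : hc_C2 L ρ), l)
      = ((0 : hc_C3 L ρ), fun v => -hc_d12 (D.Lv v) (ρ.comp (D.ι v)) (l v)) := by
  refine Prod.ext (by simp) (funext fun v => ?_)
  simp only [hc_dc2_snd, map_zero, zero_sub]

lemma hcb_loc_Z (y : hc_C1 L ρ) (hy : hc_d12 L ρ y = 0) : hcb_loc D ρ y ∈ hcb_ZL1 D ρ := by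
  rw [hcb_mem_ZL1]
  intro v
  rw [hcb_loc_apply, ← hc_res2_d12, hy, map_zero]

lemma hcb_loc_B (y : hc_C1 L ρ) (hy : y ∈ LinearMap.range (hc_d01 L ρ)) :
    hcb_loc D ρ y ∈ hcb_BL1 D ρ := by
  obtain ⟨m, rfl⟩ := hy
  rw [hcb_mem_BL1]
  exact ⟨fun v => hc_res0 (D.compat v) ρ m, fun v => (hc_res1_d01 (D.compat v) ρ m).symm⟩

lemma hcb_bd_Z (l : hcb_L1 D ρ) (hl : l ∈ hcb_ZL1 D ρ) :
    hc_dc2 D ρ ((0 : hc_C2 L ρ), l) = 0 := by
  rw [hcb_mem_ZL1] at hl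
  rw [hcb_dc2_inr]
  refine Prod.ext rfl (funext fun v => ?_)
  simp only [hl v, neg_zero, Prod.snd_zero, Pi.zero_apply]

lemma hcb_bd_B (l : hcb_L1 D ρ) (hl : l ∈ hcb_BL1 D ρ) :
    ∃ w, hc_dc1 D ρ w = ((0 : hc_C2 L ρ), l) := by
  obtain ⟨c, hc⟩ := hcb_mem_BL1.1 hl
  refine ⟨((0 : hc_C1 L ρ), -c), ?_⟩
  rw [hcb_dc1_inr]
  exact Prod.ext rfl (funext hc)

lemma hcb_bd_loc (y : hc_C1 L ρ) (hy : hc_d12 L ρ y = 0) :
    ∃ w, hc_dc1 D ρ w = ((0 : hc_C2 L ρ), hcb_loc D ρ y) :=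
  ⟨(y, (0 : hcb_C0 D ρ)), by rw [hcb_dc1_inl, hy]⟩

lemma hcb_j_exact (z : hc_Cc2 D ρ) (hz : hc_dc2 D ρ z = 0) (t : hc_C1 L ρ)
    (ht : hc_d12 L ρ t = z.1) :
    ∃ x ∈ hcb_ZL1 D ρ, ∃ w, z = ((0 : hc_C2 L ρ), x) + hc_dc1 D ρ w := by
  refine ⟨z.2 - hcb_loc D ρ t, ?_, (t, (0 : hcb_C0 D ρ)), ?_⟩
  · rw [hcb_mem_ZL1]
    intro v
    have h2 : hc_res2 (D.compat v) ρ z.1 - hc_d12 (D.Lv v) (ρ.comp (D.ι v)) (z.2 v) = 0 :=
      congrFun (congrArg Prod.snd hz) v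
    rw [Pi.sub_apply, map_sub, hcb_loc_apply, ← hc_res2_d12, ht, ← sub_eq_zero.1 h2, sub_self]
  · rw [hcb_dc1_inl, ht]
    refine Prod.ext (by simp) ?_
    simp only [Prod.snd_add, sub_add_cancel]

lemma hcb_bd0_Z (c : hcb_C0 D ρ) (hc : c ∈ hcb_Z0 D ρ) :
    hc_dc1 D ρ ((0 : hc_C1 L ρ), c) = 0 := by
  rw [hcb_mem_Z0] at hc
  refine Prod.ext (by simp) (funext fun v => ?_)
  simp only [hc_dc1_snd, map_zero, hc v, sub_zero, Prod.snd_zero, Pi.zero_apply]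

lemma hcb_j'_exact (y : hc_C1 L ρ) (hy : hc_d12 L ρ y = 0) (hloc : hcb_loc D ρ y ∈ hcb_BL1 D ρ) :
    ∃ x' : hc_Cc1 D ρ, hc_dc1 D ρ x' = 0 ∧ y - x'.1 ∈ LinearMap.range (hc_d01 L ρ) := by
  obtain ⟨c, hc⟩ := hcb_mem_BL1.1 hloc
  refine ⟨(y, c), ?_, ?_⟩
  · refine Prod.ext hy (funext fun v => ?_)
    have := hc v
    rw [hcb_loc_apply] at this
    simp only [hc_dc1_snd, this, sub_self, Prod.snd_zero, Pi.zero_apply]
  · rw [sub_self]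
    exact Submodule.zero_mem _

include hτ in
/-- local classes pair trivially with locally trivial global classes. -/
lemma hcb_bd_sha (l : hcb_L1 D ρ) (hl : l ∈ hcb_ZL1 D ρ) (y : hc_C1 L ρ)
    (hy : hcb_loc D ρ y ∈ hcb_BL1 D ρ) :
    hc_b21 hφ τ ((0 : hc_C2 L ρ), l) y = 0 := by
  obtain ⟨c, hc⟩ := hcb_mem_BL1.1 hy
  rw [hcb_mem_ZL1] at hl
  have key : hc_ccup21 D hφ ((0 : hc_C2 L ρ), l) y
      = hc_dc2 D ρT ((0 : hc_C2 L ρT),
          fun v => hc_cup10 (D.Lv v) (hc_equiv₂_loc D hφ v) (l v) (c v)) := by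
    refine Prod.ext ?_ (funext fun v => ?_)
    · simp only [hc_ccup21_fst, map_zero, LinearMap.zero_apply, hc_dc2_fst]
    · have := hc v
      rw [hcb_loc_apply] at this
      simp only [hc_ccup21_snd, hc_dc2_snd, map_zero, zero_sub, hc_leibniz10, hl v,
        LinearMap.zero_apply, neg_neg, ← this]
  rw [hc_b21_apply, key, hτ]

variable (D ρ)

/-- **BASE-FORMAL**: the formal cone data of the self-dual paired complex `hc_QC D τ hτ hφ`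
(`ρA = ρB = ρ`, `φ` symmetric). -/
def hcb_base (hsymm : ∀ a b, φ a b = φ b a) : HaQBase (hc_QC D τ hτ hφ) where
  L0 := ↥(hcb_Z0 D ρ)
  L1 := hcb_L1 D ρ
  loc := hcb_loc D ρ
  bd := LinearMap.inr k (hc_C2 L ρ) (hcb_L1 D ρ)
  bd0 := LinearMap.inr k (hc_C1 L ρ) (hcb_C0 D ρ) ∘ₗ (hcb_Z0 D ρ).subtype
  j := LinearMap.fst k (hc_C2 L ρ) (hcb_L1 D ρ)
  j' := LinearMap.fst k (hc_C1 L ρ) (hcb_C0 D ρ)
  ZL1 := hcb_ZL1 D ρ
  BL1 := hcb_BL1 D ρ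
  ε := 1
  loc_Z := fun y hy => hcb_loc_Z y hy
  loc_B := fun y hy => hcb_loc_B y hy
  bd_Z := fun l hl => hcb_bd_Z l hl
  bd_B := fun l _ hl => hcb_bd_B l hl
  bd_loc := fun y hy => hcb_bd_loc y hy
  j_Z := fun x hx => congrArg Prod.fst (show hc_dc2 D ρ x = 0 from hx)
  j_dA1 := fun w => ⟨w.1, rfl⟩
  j_exact := fun z hz ⟨t, ht⟩ => hcb_j_exact z hz t ht
  bd0_Z := fun c => hcb_bd0_Z (c : hcb_C0 D ρ) c.2
  j'_Z := fun x hx => congrArg Prod.fst (show hc_dc1 D ρ x = 0 from hx)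
  j'_exact := fun y hy hloc => hcb_j'_exact y hy hloc
  bd_sha := fun l hl y _ hloc => hcb_bd_sha τ hτ hφ l hl y hloc
  sym := fun x hx x' hx' => by
    rw [one_mul]
    exact pt_b21_eq_b12 D hφ hφ (fun a b => hsymm b a) hτ x x' hx hx'

variable {D ρ}

/-- the pairing of a purely local cone 2-cochain with a global 1-cochain. -/
lemma hcb_b21_inr (l : hcb_L1 D ρ) (y : hc_C1 L ρ) :
    hc_b21 hφ τ ((0 : hc_C2 L ρ), l) y
      = τ ((0 : hc_C3 L ρT), fun v => hc_cup11 (D.Lv v) (hc_equiv₂_loc D hφ v) (l v)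
          (hc_res1 (D.compat v) ρ y)) := by
  rw [hc_b21_apply]
  congr 1
  refine Prod.ext ?_ rfl
  simp only [hc_ccup21_fst, map_zero, LinearMap.zero_apply]

/-- the pairing of a purely local cone 1-cochain with a global 2-cochain. -/
lemma hcb_b12_inr (c : hcb_C0 D ρ) (y : hc_C2 L ρ) :
    hc_b12 hφ τ ((0 : hc_C1 L ρ), c) y
      = τ ((0 : hc_C3 L ρT), fun v => hc_cup02 (D.Lv v) (hc_equiv₂_loc D hφ v) (c v)
          (hc_res2 (D.compat v) ρ y)) := by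
  rw [hc_b12_apply]
  congr 1
  refine Prod.ext ?_ rfl
  simp only [hc_ccup12_fst, map_zero, LinearMap.zero_apply]

/-- the local invariants form a finite-dimensional space (finitely many places, finite module). -/
lemma hcb_finite_Z0 [Finite D.V] [Module.Finite k A] : Module.Finite k ↥(hcb_Z0 D ρ) := by
  have : Module.Finite k (hcb_C0 D ρ) := Module.Finite.pi
  infer_instance

include hτ in
/-- **The base-case count on the cone model** (`HaQBase.good` for `hcb_base`): the exact contract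
for the arithmetic inputs `[L1]`-`[L3]`, `[G1]`, `[G2]`, `[G4]` of the base case, in the language
of `HcCone.lean`. -/
theorem hcb_good (hsymm : ∀ a b, φ a b = φ b a) (m r : ℕ) [Module.Finite k ↥(hcb_Z0 D ρ)]
    {W : Type*} [AddCommGroup W] [Module k W] [Module.Finite k W]
    (g : ↥(hcb_ZL1 D ρ) →ₗ[k] W) (hg : ∀ x, g x = 0 → (x : hcb_L1 D ρ) ∈ hcb_BL1 D ρ)
    (hW : Module.finrank k W ≤ 2 * m)
    (hL2 : ∀ y : hc_C1 L ρ, hc_d12 L ρ y = 0 → hcb_loc D ρ y ∉ hcb_BL1 D ρ →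
      ∃ l ∈ hcb_ZL1 D ρ, τ ((0 : hc_C3 L ρT), fun v =>
        hc_cup11 (D.Lv v) (hc_equiv₂_loc D hφ v) (l v) (hc_res1 (D.compat v) ρ y)) ≠ 0)
    {V : Type*} [AddCommGroup V] [Module k V] [Module.Finite k V]
    (f : V →ₗ[k] hc_C1 L ρ) (hf : ∀ v, hc_d12 L ρ (f v) = 0)
    (hf0 : ∀ v, f v ∈ LinearMap.range (hc_d01 L ρ) → v = 0)
    (hV : m + r ≤ Module.finrank k V)
    {R : Type*} [AddCommGroup R] [Module k R] [Module.Finite k R]
    (δ : R →ₗ[k] hc_C2 L ρ)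
    (hδ : ∀ z : hc_Cc2 D ρ, hc_dc2 D ρ z = 0 → ∃ c t, z.1 = δ c + hc_d12 L ρ t)
    (hR : Module.finrank k R ≤ r)
    (hG4 : ∀ y : hc_C1 L ρ, hc_d12 L ρ y = 0 → hcb_loc D ρ y ∈ hcb_BL1 D ρ →
      y ∉ LinearMap.range (hc_d01 L ρ) →
      ∃ z : hc_Cc2 D ρ, hc_dc2 D ρ z = 0 ∧ hc_b21 hφ τ z y ≠ 0)
    (hL1 : ∀ y : hc_C2 L ρ, hc_d23 L ρ y = 0 →
      (∀ c ∈ hcb_Z0 D ρ, τ ((0 : hc_C3 L ρT), fun v =>
        hc_cup02 (D.Lv v) (hc_equiv₂_loc D hφ v) (c v) (hc_res2 (D.compat v) ρ y)) = 0) →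
      ∀ v, hc_res2 (D.compat v) ρ y ∈ LinearMap.range (hc_d12 (D.Lv v) (ρ.comp (D.ι v)))) :
    (hc_QC D τ hτ hφ).A1Surj ∧ (hc_QC D τ hτ hφ).A2Inj ∧ (hc_QC D τ hτ hφ).A2Surj := by
  have hfin : Module.Finite k (hcb_base D τ hτ ρ hφ hsymm).L0 :=
    (inferInstance : Module.Finite k ↥(hcb_Z0 D ρ))
  refine (hcb_base D τ hτ ρ hφ hsymm).good m r g hg hW ?_ f hf hf0 hV δ ?_ hR ?_ ?_
  · intro y hy hloc
    obtain ⟨l, hl, hne⟩ := hL2 y hy hloc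
    exact ⟨l, hl, by rw [← hcb_b21_inr] at hne; exact hne⟩
  · intro z hz
    exact hδ z hz
  · intro y hy hloc hyB
    obtain ⟨z, hz, hne⟩ := hG4 y hy hloc hyB
    exact ⟨z, hz, hne⟩
  · intro (y : hc_C2 L ρ) (hy : hc_d23 L ρ y = 0) hc
    have hloc := hL1 y hy (fun c hc' => by
      have := hc ⟨c, hc'⟩
      rw [← hcb_b12_inr]
      exact this)
    choose b hb using hloc
    refine ⟨(y, b), ?_, (0 : hc_C1 L ρ), ?_⟩
    · change hc_dc2 D ρ (y, b) = 0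
      refine Prod.ext hy (funext fun v => ?_)
      simp only [hc_dc2_snd, hb v, sub_self, Prod.snd_zero, Pi.zero_apply]
    · change y = (y : hc_C2 L ρ) + hc_d12 L ρ (0 : hc_C1 L ρ)
      rw [map_zero, add_zero]

end base

end Fermat.Agent.S55
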