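import Fermat.Agent.S55.IndDual
import Fermat.Agent.S55.HcQC

/-!
# S55, block DI, part 2: transport of the base case along `Coind_U k(χ|U) ≅ (indBase p U)'`

The paired complex of `(indBase p U, (indBase p U).dualTwist χ, evaluation)` and the paired
complex of `(Coind_U k, Coind_U k(χ|U), shapPair)` (the one produced by the Shapiro transfer)
are retracts of each other, hence have the same properties `A1Surj`, `A2Inj`, `A2Surj`.
-/

set_option autoImplicit false

namespace Fermat.Agent.S55

variable {Γ : Type} [Group Γ] {p : ℕ} [Fact p.Prime] (χ : Γ →* (ZMod p)ˣ) (U : Subgroup Γ)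
  [U.FiniteIndex] {L : hc_Lev Γ} (D : hc_Loc.{0, 0, 0} L)
  (τ : hc_Cc3 D (dual_rhoT χ) →ₗ[ZMod p] ZMod p) (hτ : ∀ x, τ (hc_dc2 D (dual_rhoT χ) x) = 0)

/-- The paired complex of `(indBase p U, its dual twist, evaluation pairing)`. -/
noncomputable def idual_QCdual : HaQC.{0, 0} (ZMod p) :=
  hc_QC D τ hτ (φ := dual_pair (indBase p U)) (ρA := (indBase p U).ρ)
    (ρB := ((indBase p U).dualTwist χ).ρ) (dual_pair_equivariant χ (indBase p U))

/-- The paired complex of `(Coind_U k, Coind_U k(χ|U), shapPair)`. -/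
noncomputable def idual_QCshap : HaQC.{0, 0} (ZMod p) :=
  hc_QC D τ hτ (φ := idual_pair χ U)
    (ρA := Representation.coind U.subtype (Representation.trivial (ZMod p) U (ZMod p)))
    (ρB := Representation.coind U.subtype (idual_rhoN χ U)) (idual_pair_equivariant χ U)

/-- The dual-twist complex is a retract of the Shapiro complex. -/
noncomputable def idual_retract : HaQRetract (idual_QCdual χ U D τ hτ) (idual_QCshap χ U D τ hτ) :=
  hc_QRetract D τ hτ (dual_pair_equivariant χ (indBase p U)) (idual_pair_equivariant χ U)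
    (i := LinearMap.id) (fun _ _ => rfl) (r := LinearMap.id) (fun _ _ => rfl)
    (i' := idual_beta χ U) (idual_beta_equivariant χ U)
    (r' := idual_betaInv χ U) (idual_betaInv_equivariant χ U)
    (fun _ => rfl) (idual_beta_betaInv χ U)
    (fun a b => (idual_pair_beta χ U a b).symm)
    (fun a b => (idual_pair_betaInv χ U a b).symm)

/-- The Shapiro complex is a retract of the dual-twist complex. -/
noncomputable def idual_retract' :
    HaQRetract (idual_QCshap χ U D τ hτ) (idual_QCdual χ U D τ hτ) :=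
  hc_QRetract D τ hτ (idual_pair_equivariant χ U) (dual_pair_equivariant χ (indBase p U))
    (i := LinearMap.id) (fun _ _ => rfl) (r := LinearMap.id) (fun _ _ => rfl)
    (i' := idual_betaInv χ U) (idual_betaInv_equivariant χ U)
    (r' := idual_beta χ U) (idual_beta_equivariant χ U)
    (fun _ => rfl) (idual_betaInv_beta χ U)
    (fun a b => (idual_pair_betaInv χ U a b).symm)
    (fun a b => (idual_pair_beta χ U a b).symm)

theorem idual_a1Surj_iff : (idual_QCdual χ U D τ hτ).A1Surj ↔ (idual_QCshap χ U D τ hτ).A1Surj :=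
  ⟨(idual_retract' χ U D τ hτ).a1Surj, (idual_retract χ U D τ hτ).a1Surj⟩

theorem idual_a2Inj_iff : (idual_QCdual χ U D τ hτ).A2Inj ↔ (idual_QCshap χ U D τ hτ).A2Inj :=
  ⟨(idual_retract' χ U D τ hτ).a2Inj, (idual_retract χ U D τ hτ).a2Inj⟩

theorem idual_a2Surj_iff : (idual_QCdual χ U D τ hτ).A2Surj ↔ (idual_QCshap χ U D τ hτ).A2Surj :=
  ⟨(idual_retract' χ U D τ hτ).a2Surj, (idual_retract χ U D τ hτ).a2Surj⟩

end Fermat.Agent.S55
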