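import Fermat.Agent.S55.HAQ

/-!
# S55, block SHAP: transfer of the duality properties along a quasi-isomorphism

Abstract (group-free) lemma in the language of `HAQ.lean`.  `P` and `Q` are paired 2-truncated
complexes (think: `P` = the complex of `(Γ; Coind_U N, Coind_U N')`, `Q` = the complex of
`(U; N, N')`).  A `ShapQData P Q` consists of

* `B`-side maps `s : P.B → Q.B` (Shapiro map) and `j : Q.B → P.B` (its section), cochain maps
  with `y - j (s y)` a coboundary for cocycles `y` of `P`;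
* `A`-side comparison statements on cocycles (`t1`, `t2`, `t3`), adjoint to `s` / `j` for the
  pairings.

Then `A1Surj`, `A2Inj`, `A2Surj` pass from `Q` to `P`.
-/

set_option autoImplicit false

namespace Fermat.Agent.S55

universe u v

variable {k : Type u} [Field k]

/-- comparison data between two paired 2-truncated complexes (see the file header). -/
structure ShapQData (P Q : HaQC.{u, v} k) where
  s1 : P.B1 →ₗ[k] Q.B1
  s2 : P.B2 →ₗ[k] Q.B2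
  j1 : Q.B1 →ₗ[k] P.B1
  j2 : Q.B2 →ₗ[k] P.B2
  j_d : ∀ y, j2 (Q.dB1 y) = P.dB1 (j1 y)
  s_d : ∀ y, s2 (P.dB1 y) = Q.dB1 (s1 y)
  s2_Z : ∀ y ∈ P.ZB2, s2 y ∈ Q.ZB2
  j1_B : ∀ y ∈ Q.BB1, j1 y ∈ P.BB1
  hom2 : ∀ y ∈ P.ZB2, ∃ w, y - j2 (s2 y) = P.dB1 w
  hom1 : ∀ y, P.dB1 y = 0 → y - j1 (s1 y) ∈ P.BB1
  /-- surjectivity of the comparison on `H¹` of the `A`-side, with adjointness -/
  t1 : ∀ x, Q.dA1 x = 0 → ∃ x', P.dA1 x' = 0 ∧ ∀ y ∈ P.ZB2, P.b12 x' y = Q.b12 x (s2 y)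
  /-- injectivity of the comparison on `H²` of the `A`-side, with adjointness -/
  t2 : ∀ x ∈ P.ZA2, ∃ x' ∈ Q.ZA2, (∀ y, Q.dB1 y = 0 → Q.b21 x' y = P.b21 x (j1 y)) ∧
    ((∃ z, Q.dA1 z = x') → ∃ z, P.dA1 z = x)
  /-- surjectivity of the comparison on `H²` of the `A`-side, with adjointness -/
  t3 : ∀ x ∈ Q.ZA2, ∃ x' ∈ P.ZA2, ∀ y, P.dB1 y = 0 → P.b21 x' y = Q.b21 x (s1 y)

namespace ShapQData

variable {P Q : HaQC.{u, v} k} (S : ShapQData P Q)

include S in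
theorem a1Surj (hQ : Q.A1Surj) : P.A1Surj := by
  intro φ hφ
  obtain ⟨x, hx, hxφ⟩ := hQ (φ ∘ₗ S.j2) (fun y => by
    simp only [LinearMap.comp_apply]; rw [S.j_d]; exact hφ _)
  obtain ⟨x', hx', h⟩ := S.t1 x hx
  refine ⟨x', hx', fun y hy => ?_⟩
  obtain ⟨w, hw⟩ := S.hom2 y hy
  have h1 : φ y = φ (S.j2 (S.s2 y)) := by
    have : φ (y - S.j2 (S.s2 y)) = 0 := by rw [hw]; exact hφ w
    rw [map_sub, sub_eq_zero] at this
    exact this
  rw [h y hy, ← hxφ _ (S.s2_Z y hy), h1, LinearMap.comp_apply]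

include S in
theorem a2Inj (hQ : Q.A2Inj) : P.A2Inj := by
  intro x hxZ hxy
  obtain ⟨x', hx'Z, hpair, hinj⟩ := S.t2 x hxZ
  refine hinj (hQ x' hx'Z (fun y hy => ?_))
  rw [hpair y hy]
  exact hxy _ (by rw [← S.j_d, hy, map_zero])

include S in
theorem a2Surj (hQ : Q.A2Surj) : P.A2Surj := by
  intro φ hφ
  obtain ⟨x, hxZ, hxφ⟩ := hQ (φ ∘ₗ S.j1) (fun y hy => by
    simp only [LinearMap.comp_apply]; exact hφ _ (S.j1_B y hy))
  obtain ⟨x', hx'Z, h⟩ := S.t3 x hxZ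
  refine ⟨x', hx'Z, fun y hy => ?_⟩
  have h1 : φ y = φ (S.j1 (S.s1 y)) := by
    have : φ (y - S.j1 (S.s1 y)) = 0 := hφ _ (S.hom1 y hy)
    rw [map_sub, sub_eq_zero] at this
    exact this
  rw [h y hy, ← hxφ _ (by rw [← S.s_d, hy, map_zero]), h1, LinearMap.comp_apply]

end ShapQData

end Fermat.Agent.S55
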