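import Fermat.Agent.S55.IfaceMain
import Fermat.Agent.S55.IndDualQC
import Fermat.Agent.S55.ShapQis
import Fermat.Agent.S55.ShapLevel
import Fermat.Agent.S55.HcBase

/-!
# S55 interface, part 12: the base case from the `U`-level inputs

For a subgroup `U ≤ ker χ` of a leveled group `Γ` (so `U` acts trivially on `𝔽_p(χ)`), local
data `DU` for `U` and a trace `τU` on `C_c³(U; 𝔽_p(χ)|_U)`:

* `pt_UInputs χ U DU τU` : the six arithmetic inputs `[L3]`, `[L2]`, `[G1]`, `[G2]`, `[G4]`,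
  `[L1]` of helper13's `hcb_good` for the trivial module `𝔽_p` and the multiplication pairing;
* `pt_U_good` : they give `A1Surj ∧ A2Inj ∧ A2Surj` for the `U`-level complex
  `hc_QC DU τU hτU (idual_hφ χ U)` (coefficients `𝔽_p`, `𝔽_p(χ|U)`), the target of the Shapiro
  transfer;
* `pt_baseCase_of_transfer` : `pt_BaseCase` from a Shapiro comparison (`ShapQData`) and the
  inputs, for every `U`.
-/

set_option autoImplicit false

open CategoryTheory groupCohomology ExtCitation

namespace Fermat.Agent.S55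

section general

variable {Γ : Type} [Group Γ] {p : ℕ} [Fact p.Prime] (χ : Γ →* (ZMod p)ˣ) (U : Subgroup Γ)

/-- On a subgroup of the kernel of `χ` the module `𝔽_p(χ|U)` is trivial. -/
theorem pt_rhoN_eq_trivial (hU : U ≤ χ.ker) :
    idual_rhoN χ U = Representation.trivial (ZMod p) U (ZMod p) := by
  refine MonoidHom.ext fun u => LinearMap.ext fun c => ?_
  have h : χ (u : Γ) = 1 := MonoidHom.mem_ker.mp (hU u.2)
  rw [idual_rhoN_apply, h]
  simp

/-- Multiplication `𝔽_p × 𝔽_p → 𝔽_p(χ|U)` is equivariant for the trivial actions when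
`U ≤ ker χ`. -/
theorem pt_hφ_triv (hU : U ≤ χ.ker) (u : U) (a b : ZMod p) :
    LinearMap.mul (ZMod p) (ZMod p) (Representation.trivial (ZMod p) U (ZMod p) u a)
        (Representation.trivial (ZMod p) U (ZMod p) u b) =
      idual_rhoN χ U u (LinearMap.mul (ZMod p) (ZMod p) a b) := by
  rw [pt_rhoN_eq_trivial χ U hU]
  rfl

end general

/-- The three duality properties of `hc_QC` do not depend on the presentation of the `B`-side
representation. -/
theorem pt_QC_congr {k : Type} [Field k] {G : Type} [Group G] {L : hc_Lev G}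
    (D : hc_Loc.{0, 0, 0} L) {T : Type} [AddCommGroup T] [Module k T]
    {ρT : Representation k G T} (τ : hc_Cc3 D ρT →ₗ[k] k)
    (hτ : ∀ x, τ (hc_dc2 D ρT x) = 0)
    {A B : Type} [AddCommGroup A] [Module k A] [AddCommGroup B] [Module k B]
    {φ : A →ₗ[k] B →ₗ[k] T} {ρA : Representation k G A} {ρB ρB' : Representation k G B}
    (h : ρB = ρB') (hφ : ∀ g a b, φ (ρA g a) (ρB g b) = ρT g (φ a b))
    (hφ' : ∀ g a b, φ (ρA g a) (ρB' g b) = ρT g (φ a b)) :
    ((hc_QC D τ hτ hφ).A1Surj ∧ (hc_QC D τ hτ hφ).A2Inj ∧ (hc_QC D τ hτ hφ).A2Surj) →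
    ((hc_QC D τ hτ hφ').A1Surj ∧ (hc_QC D τ hτ hφ').A2Inj ∧ (hc_QC D τ hτ hφ').A2Surj) := by
  subst h
  exact id

section inputs

variable {Γ : Type} [Group Γ] {p : ℕ} [Fact p.Prime] (χ : Γ →* (ZMod p)ˣ) (U : Subgroup Γ)
  {LU : hc_Lev ↥U} (DU : hc_Loc.{0, 0, 0} LU)
  (τU : hc_Cc3 DU (idual_rhoN χ U) →ₗ[ZMod p] ZMod p)

/-- **The arithmetic inputs of the base case** for the leveled group `U ≤ ker χ` with local
data `DU` and trace `τU` (trivial coefficients `𝔽_p`, pairing = multiplication): the hypotheses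
`[L3]`, `[L2]`, `[G1]`, `[G2]`, `[G4]`, `[L1]` of `hcb_good`. -/
structure pt_UInputs (hU : U ≤ χ.ker) where
  /-- the numbers `m` (local count) and `r` (class group rank) -/
  m : ℕ
  r : ℕ
  /-- `[L3]` : the local `H¹` has dimension `≤ 2m` -/
  W : Type
  [agW : AddCommGroup W]
  [mdW : Module (ZMod p) W]
  [finW : Module.Finite (ZMod p) W]
  g : ↥(hcb_ZL1 DU (Representation.trivial (ZMod p) U (ZMod p))) →ₗ[ZMod p] W
  hg : ∀ x, g x = 0 →
    (x : hcb_L1 DU (Representation.trivial (ZMod p) U (ZMod p))) ∈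
      hcb_BL1 DU (Representation.trivial (ZMod p) U (ZMod p))
  hW : Module.finrank (ZMod p) W ≤ 2 * m
  /-- `[L2]` : local classes are detected by local cup products -/
  hL2 : ∀ y : hc_C1 LU (Representation.trivial (ZMod p) U (ZMod p)),
    hc_d12 LU (Representation.trivial (ZMod p) U (ZMod p)) y = 0 →
    hcb_loc DU (Representation.trivial (ZMod p) U (ZMod p)) y ∉
      hcb_BL1 DU (Representation.trivial (ZMod p) U (ZMod p)) →
    ∃ l ∈ hcb_ZL1 DU (Representation.trivial (ZMod p) U (ZMod p)),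
      τU ((0 : hc_C3 LU (idual_rhoN χ U)), fun v =>
        hc_cup11 (DU.Lv v) (hc_equiv₂_loc DU (pt_hφ_triv χ U hU) v) (l v)
          (hc_res1 (DU.compat v) (Representation.trivial (ZMod p) U (ZMod p)) y)) ≠ 0
  /-- `[G1]` : Kummer classes, `m + r` independent global classes -/
  V : Type
  [agV : AddCommGroup V]
  [mdV : Module (ZMod p) V]
  [finV : Module.Finite (ZMod p) V]
  f : V →ₗ[ZMod p] hc_C1 LU (Representation.trivial (ZMod p) U (ZMod p))
  hf : ∀ v, hc_d12 LU (Representation.trivial (ZMod p) U (ZMod p)) (f v) = 0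
  hf0 : ∀ v, f v ∈ LinearMap.range (hc_d01 LU (Representation.trivial (ZMod p) U (ZMod p))) →
    v = 0
  hV : m + r ≤ Module.finrank (ZMod p) V
  /-- `[G2]` : global parts of cone 2-cocycles lie in an `r`-dimensional span mod coboundaries -/
  R : Type
  [agR : AddCommGroup R]
  [mdR : Module (ZMod p) R]
  [finR : Module.Finite (ZMod p) R]
  δ : R →ₗ[ZMod p] hc_C2 LU (Representation.trivial (ZMod p) U (ZMod p))
  hδ : ∀ z : hc_Cc2 DU (Representation.trivial (ZMod p) U (ZMod p)),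
    hc_dc2 DU (Representation.trivial (ZMod p) U (ZMod p)) z = 0 →
    ∃ c t, z.1 = δ c + hc_d12 LU (Representation.trivial (ZMod p) U (ZMod p)) t
  hR : Module.finrank (ZMod p) R ≤ r
  /-- `[G4]` : locally trivial global classes are detected by cone 2-cocycles -/
  hG4 : ∀ y : hc_C1 LU (Representation.trivial (ZMod p) U (ZMod p)),
    hc_d12 LU (Representation.trivial (ZMod p) U (ZMod p)) y = 0 →
    hcb_loc DU (Representation.trivial (ZMod p) U (ZMod p)) y ∈
      hcb_BL1 DU (Representation.trivial (ZMod p) U (ZMod p)) →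
    y ∉ LinearMap.range (hc_d01 LU (Representation.trivial (ZMod p) U (ZMod p))) →
    ∃ z : hc_Cc2 DU (Representation.trivial (ZMod p) U (ZMod p)),
      hc_dc2 DU (Representation.trivial (ZMod p) U (ZMod p)) z = 0 ∧
        hc_b21 (pt_hφ_triv χ U hU) τU z y ≠ 0
  /-- `[L1]` : the local functionals are injective on local `H²` -/
  hL1 : ∀ y : hc_C2 LU (Representation.trivial (ZMod p) U (ZMod p)),
    hc_d23 LU (Representation.trivial (ZMod p) U (ZMod p)) y = 0 →
    (∀ c ∈ hcb_Z0 DU (Representation.trivial (ZMod p) U (ZMod p)),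
      τU ((0 : hc_C3 LU (idual_rhoN χ U)), fun v =>
        hc_cup02 (DU.Lv v) (hc_equiv₂_loc DU (pt_hφ_triv χ U hU) v) (c v)
          (hc_res2 (DU.compat v) (Representation.trivial (ZMod p) U (ZMod p)) y)) = 0) →
    ∀ v, hc_res2 (DU.compat v) (Representation.trivial (ZMod p) U (ZMod p)) y ∈
      LinearMap.range (hc_d12 (DU.Lv v)
        ((Representation.trivial (ZMod p) U (ZMod p)).comp (DU.ι v)))

attribute [instance] pt_UInputs.agW pt_UInputs.mdW pt_UInputs.finW pt_UInputs.agV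
  pt_UInputs.mdV pt_UInputs.finV pt_UInputs.agR pt_UInputs.mdR pt_UInputs.finR

variable {χ U DU τU}

/-- **The `U`-level base case**: the inputs give `α¹` surjective and `α²` bijective for the
`U`-level complex with coefficients `(𝔽_p, 𝔽_p(χ|U))` and the multiplication pairing. -/
theorem pt_U_good [Finite DU.V] (hU : U ≤ χ.ker)
    (hτU : ∀ x, τU (hc_dc2 DU (idual_rhoN χ U) x) = 0) (I : pt_UInputs χ U DU τU hU) :
    (hc_QC DU τU hτU (idual_hφ χ U)).A1Surj ∧ (hc_QC DU τU hτU (idual_hφ χ U)).A2Inj ∧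
      (hc_QC DU τU hτU (idual_hφ χ U)).A2Surj := by
  have hfin : Module.Finite (ZMod p)
      ↥(hcb_Z0 DU (Representation.trivial (ZMod p) U (ZMod p))) := hcb_finite_Z0
  have key := hcb_good τU hτU (pt_hφ_triv χ U hU) (fun a b => mul_comm a b) I.m I.r I.g I.hg
    I.hW I.hL2 I.f I.hf I.hf0 I.hV I.δ I.hδ I.hR I.hG4 I.hL1
  exact pt_QC_congr DU τU hτU (pt_rhoN_eq_trivial χ U hU).symm (pt_hφ_triv χ U hU)
    (idual_hφ χ U) key

end inputs

section transfer

local notation "Γ" => (AlgebraicClosure ℚ ≃ₐ[ℚ] AlgebraicClosure ℚ)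

/-- **The base case from the Shapiro transfer and the `U`-level inputs.**  For every subgroup
`U` containing an `S`-level and contained in the kernel of the mod `p` cyclotomic character:
local data `DU` and a trace `τU` for `U`, a Shapiro comparison (`ShapQData`) between the
`Γ`-complex of `(Coind_U 𝔽_p, Coind_U 𝔽_p(χ|U))` and the `U`-complex of `(𝔽_p, 𝔽_p(χ|U))`, and
the arithmetic inputs `pt_UInputs` give `pt_BaseCase`. -/
theorem pt_baseCase_of_transfer {p : ℕ} [Fact p.Prime] (S : Finset Nat.Primes)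
    (τ : hc_Cc3 (pt_loc S) (dual_rhoT (cycloChar p)) →ₗ[ZMod p] ZMod p)
    (hτ : ∀ x, τ (hc_dc2 (pt_loc S) (dual_rhoT (cycloChar p)) x) = 0)
    (H : ∀ U : Subgroup Γ, (∃ N ∈ (pt_globalLev S).S, N ≤ U) →
      ∀ (hU : U ≤ (cycloChar p).ker) [U.FiniteIndex],
      ∃ (LU : hc_Lev ↥U) (DU : hc_Loc.{0, 0, 0} LU) (_ : Finite DU.V)
        (τU : hc_Cc3 DU (idual_rhoN (cycloChar p) U) →ₗ[ZMod p] ZMod p)
        (hτU : ∀ x, τU (hc_dc2 DU (idual_rhoN (cycloChar p) U) x) = 0),
        Nonempty (ShapQData (idual_QCshap (cycloChar p) U (pt_loc S) τ hτ)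
          (hc_QC DU τU hτU (idual_hφ (cycloChar p) U))) ∧
        Nonempty (pt_UInputs (cycloChar p) U DU τU hU)) :
    pt_BaseCase p S τ hτ := by
  intro U hUlev hUχ
  obtain ⟨N, hN, hNU⟩ := hUlev
  have : N.FiniteIndex := pt_globalLevels_finiteIndex S N hN
  have : U.FiniteIndex := Subgroup.finiteIndex_of_le hNU
  obtain ⟨LU, DU, hfin, τU, hτU, ⟨Sd⟩, ⟨I⟩⟩ := H U ⟨N, hN, hNU⟩ hUχ
  obtain ⟨q1, q2, q3⟩ := pt_U_good hUχ hτU I
  exact ⟨(idual_a1Surj_iff (cycloChar p) U (pt_loc S) τ hτ).mpr (Sd.a1Surj q1),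
    (idual_a2Inj_iff (cycloChar p) U (pt_loc S) τ hτ).mpr (Sd.a2Inj q2),
    (idual_a2Surj_iff (cycloChar p) U (pt_loc S) τ hτ).mpr (Sd.a2Surj q3)⟩

end transfer

end Fermat.Agent.S55
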