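import Fermat.Agent.S55.LocKumLocU
import Fermat.Agent.S55.BaseInst

/-!
# S55: the leaf contracts `[L3]` and `[LC4']` of `bi_inputs` at the `U`-level

Adapters producing the hypotheses `g`, `hg`, `hW` (`[L3]`) and `hLC4` (`[LC4']`) of helper29's
`bi_inputs` for `DU := shapLocU (pt_loc S) U Δ`, `U = Gal(ℚ̄/k)`, `k ∋ ζ_p`:

* `lkc_hLC4_of_notin` : generic, `[LC4']` from `[LC4]` (cup product not a coboundary) and `[LC3]`
  (the local functional detects coboundaries);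
* `lkc_hLC4` : `[LC4']` for `shapLocU (pt_loc S) U Δ` from `[LC3]`;
* `lkm_hg_id` : the `hg` field for `g = id`.
-/

set_option autoImplicit false

open ExtCitation IsDedekindDomain NumberField

namespace Fermat.Agent.S55

section generic

variable {k : Type} [Field k] {G : Type} [Group G] {L : hc_Lev G} (D : hc_Loc.{0, 0, 0} L)
  {ρT : Representation k G k}
  (hφ : ∀ g a b, LinearMap.mul k k (Representation.trivial k G k g a)
    (Representation.trivial k G k g b) = ρT g (LinearMap.mul k k a b))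
  {inv : ∀ v : D.V, hc_C2 (D.Lv v) (ρT.comp (D.ι v)) →ₗ[k] k}

/-- `[LC4']` from `[LC4]` and `[LC3]`. -/
theorem lkc_hLC4_of_notin
    (hLC3 : ∀ (v : D.V) (x : hc_C2 (D.Lv v) (ρT.comp (D.ι v))),
      hc_d23 (D.Lv v) (ρT.comp (D.ι v)) x = 0 → inv v x = 0 →
      x ∈ LinearMap.range (hc_d12 (D.Lv v) (ρT.comp (D.ι v))))
    (h4 : ∀ (v : D.V) (χ0 : hc_C1 (D.Lv v) ((Representation.trivial k G k).comp (D.ι v))),
      hc_d12 (D.Lv v) ((Representation.trivial k G k).comp (D.ι v)) χ0 = 0 → χ0 ≠ 0 →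
      ∃ ψ : hc_C1 (D.Lv v) ((Representation.trivial k G k).comp (D.ι v)),
        hc_d12 (D.Lv v) ((Representation.trivial k G k).comp (D.ι v)) ψ = 0 ∧
          hc_cup11 (D.Lv v) (hc_equiv₂_loc D hφ v) ψ χ0 ∉
            LinearMap.range (hc_d12 (D.Lv v) (ρT.comp (D.ι v)))) :
    ∀ (v : D.V) (χ0 : hc_C1 (D.Lv v) ((Representation.trivial k G k).comp (D.ι v))),
      hc_d12 (D.Lv v) ((Representation.trivial k G k).comp (D.ι v)) χ0 = 0 → χ0 ≠ 0 →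
      ∃ ψ : hc_C1 (D.Lv v) ((Representation.trivial k G k).comp (D.ι v)),
        hc_d12 (D.Lv v) ((Representation.trivial k G k).comp (D.ι v)) ψ = 0 ∧
          inv v (hc_cup11 (D.Lv v) (hc_equiv₂_loc D hφ v) ψ χ0) ≠ 0 := by
  intro v χ0 hχ0 hne
  obtain ⟨ψ, hψ, hnot⟩ := h4 v χ0 hχ0 hne
  refine ⟨ψ, hψ, fun hinv => hnot (hLC3 v _ ?_ hinv)⟩
  rw [hc_leibniz11, hψ, hχ0, map_zero, LinearMap.zero_apply, map_zero, sub_zero]

/-- The `hg` field of `[L3]` for `g = id`. -/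
theorem lkm_hg_id (ρ : Representation k G k) (x : ↥(hcb_ZL1 D ρ))
    (hx : (LinearMap.id : ↥(hcb_ZL1 D ρ) →ₗ[k] ↥(hcb_ZL1 D ρ)) x = 0) :
    (x : hcb_L1 D ρ) ∈ hcb_BL1 D ρ := by
  have h0 : x = 0 := hx
  rw [h0]
  exact Submodule.zero_mem _

end generic

local notation "Qb" => AlgebraicClosure ℚ
local notation "Γ" => (AlgebraicClosure ℚ ≃ₐ[ℚ] AlgebraicClosure ℚ)

/-- **`[LC4']` at the `U`-level** from `[LC3]`: the hypothesis `hLC4` of `bi_inputs` for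
`DU = shapLocU (pt_loc S) U Δ`, `U = Gal(ℚ̄/k)`, `k ∋ ζ_p`. -/
theorem lkc_hLC4 (p : ℕ) [Fact p.Prime] (S : Finset Nat.Primes) (χ : Γ →* (ZMod p)ˣ)
    (U : Subgroup Γ) (hUχ : U ≤ χ.ker) (k : IntermediateField ℚ Qb) [FiniteDimensional ℚ k]
    (hU : U = k.fixingSubgroup) {ζ : Qb} (hζ : IsPrimitiveRoot ζ p) (hζk : ζ ∈ k)
    {W : (pt_loc S).V → Type} (Δ : ∀ v, ShlDec ((pt_loc S).ι v) U (W v))
    {inv : ∀ v : (shapLocU (pt_loc S) U Δ).V,
      hc_C2 ((shapLocU (pt_loc S) U Δ).Lv v)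
        ((idual_rhoN χ U).comp ((shapLocU (pt_loc S) U Δ).ι v)) →ₗ[ZMod p] ZMod p}
    (hLC3 : ∀ (v : (shapLocU (pt_loc S) U Δ).V)
      (x : hc_C2 ((shapLocU (pt_loc S) U Δ).Lv v)
        ((idual_rhoN χ U).comp ((shapLocU (pt_loc S) U Δ).ι v))),
      hc_d23 ((shapLocU (pt_loc S) U Δ).Lv v)
        ((idual_rhoN χ U).comp ((shapLocU (pt_loc S) U Δ).ι v)) x = 0 → inv v x = 0 →
      x ∈ LinearMap.range (hc_d12 ((shapLocU (pt_loc S) U Δ).Lv v)
        ((idual_rhoN χ U).comp ((shapLocU (pt_loc S) U Δ).ι v)))) :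
    ∀ (v : (shapLocU (pt_loc S) U Δ).V)
      (χ0 : hc_C1 ((shapLocU (pt_loc S) U Δ).Lv v)
        ((Representation.trivial (ZMod p) U (ZMod p)).comp ((shapLocU (pt_loc S) U Δ).ι v))),
      hc_d12 ((shapLocU (pt_loc S) U Δ).Lv v)
        ((Representation.trivial (ZMod p) U (ZMod p)).comp
          ((shapLocU (pt_loc S) U Δ).ι v)) χ0 = 0 → χ0 ≠ 0 →
      ∃ ψ : hc_C1 ((shapLocU (pt_loc S) U Δ).Lv v)
        ((Representation.trivial (ZMod p) U (ZMod p)).comp ((shapLocU (pt_loc S) U Δ).ι v)),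
        hc_d12 ((shapLocU (pt_loc S) U Δ).Lv v)
          ((Representation.trivial (ZMod p) U (ZMod p)).comp
            ((shapLocU (pt_loc S) U Δ).ι v)) ψ = 0 ∧
          inv v (hc_cup11 ((shapLocU (pt_loc S) U Δ).Lv v)
            (hc_equiv₂_loc (shapLocU (pt_loc S) U Δ) (pt_hφ_triv χ U hUχ) v) ψ χ0) ≠ 0 := by
  have hρT : ∀ (g : ↥U) (c : ZMod p), idual_rhoN χ U g c = c := by
    intro g c
    rw [pt_rhoN_eq_trivial χ U hUχ]
    rfl
  exact lkc_hLC4_of_notin (shapLocU (pt_loc S) U Δ) (pt_hφ_triv χ U hUχ) hLC3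
    (fun v χ0 hχ0 hne => lkc_LC4_locU_of_eq p S U k hU hζ hζk Δ (idual_rhoN χ U) hρT
      (pt_hφ_triv χ U hUχ) v χ0 hχ0 hne)

end Fermat.Agent.S55
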