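import Mathlib

/-!
# S55, block SHAP: the trace map `Σ_* : Coind_U (T|U) → T` and the pairing of coinduced modules

`G` a group, `U ≤ G` of finite index, `ρT` a representation of `G` on `T`.

* `shapSigma U ρT : Coind_U^G (T|U) → T`, `f ↦ Σ_{yU ∈ G/U} y • f (y⁻¹)` (equivalently
  `Σ_{Ux ∈ U\G} x⁻¹ • f x`), a `G`-equivariant linear map (`shapSigma_equivariant`);
* `shapMul φ`: the pointwise product `Coind_U N × Coind_U N' → Coind_U (T|U)` attached to a
  `U`-equivariant bilinear map `φ : N × N' → T`;
* `shapPair φ = Σ_* ∘ shapMul φ : Coind_U N × Coind_U N' → T`, a `G`-equivariant pairing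
  (`shapPair_equivariant`).
-/

set_option autoImplicit false

namespace Fermat.Agent.S55

section sigma

variable {k : Type*} [CommRing k] {G : Type*} [Group G] (U : Subgroup G)
  {T : Type*} [AddCommGroup T] [Module k T] (ρT : Representation k G T)

/-- the summand of the trace map, as a function on `G ⧸ U`: `y U ↦ y • f (y⁻¹)`. -/
def shapSigmaFun (f : G → T) (hf : ∀ (u : U) (x : G), f ((u : G) * x) = ρT (u : G) (f x)) :
    G ⧸ U → T :=
  Quotient.lift (fun y : G => ρT y (f y⁻¹)) (by
    intro a b hab
    have hab' : a⁻¹ * b ∈ U := QuotientGroup.leftRel_apply.mp hab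
    have h1 : f a⁻¹ = ρT (a⁻¹ * b) (f b⁻¹) := by
      have := hf ⟨a⁻¹ * b, hab'⟩ b⁻¹
      simpa [mul_assoc] using this
    show ρT a (f a⁻¹) = ρT b (f b⁻¹)
    rw [h1, ← Module.End.mul_apply, ← map_mul, mul_inv_cancel_left])

@[simp] theorem shapSigmaFun_mk (f : G → T)
    (hf : ∀ (u : U) (x : G), f ((u : G) * x) = ρT (u : G) (f x)) (y : G) :
    shapSigmaFun U ρT f hf (y : G ⧸ U) = ρT y (f y⁻¹) := rfl

theorem shapSigmaFun_add (f f' : G → T)
    (hf : ∀ (u : U) (x : G), f ((u : G) * x) = ρT (u : G) (f x))
    (hf' : ∀ (u : U) (x : G), f' ((u : G) * x) = ρT (u : G) (f' x))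
    (hff' : ∀ (u : U) (x : G), (f + f') ((u : G) * x) = ρT (u : G) ((f + f') x)) (q : G ⧸ U) :
    shapSigmaFun U ρT (f + f') hff' q = shapSigmaFun U ρT f hf q + shapSigmaFun U ρT f' hf' q := by
  induction q using QuotientGroup.induction_on with
  | H y => simp

theorem shapSigmaFun_smul (c : k) (f : G → T)
    (hf : ∀ (u : U) (x : G), f ((u : G) * x) = ρT (u : G) (f x))
    (hcf : ∀ (u : U) (x : G), (c • f) ((u : G) * x) = ρT (u : G) ((c • f) x)) (q : G ⧸ U) :
    shapSigmaFun U ρT (c • f) hcf q = c • shapSigmaFun U ρT f hf q := by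
  induction q using QuotientGroup.induction_on with
  | H y => simp

/-- the action on the coinduced module, unfolded. -/
theorem shap_coind_apply {H : Type*} [Group H] {A : Type*} [AddCommGroup A] [Module k A]
    (φ : H →* G) (σ : Representation k H A) (g : G) (f : Representation.coindV φ σ) (x : G) :
    ((Representation.coind φ σ g) f).1 x = f.1 (x * g) := rfl

/-- membership in the coinduced module, unfolded. -/
theorem shap_coindV_apply (f : Representation.coindV U.subtype (ρT.comp U.subtype)) (u : U)
    (x : G) : f.1 ((u : G) * x) = ρT (u : G) (f.1 x) := f.2 u x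

variable [U.FiniteIndex]

/-- the trace map `Σ_* : Coind_U^G (T|U) → T`, `f ↦ Σ_{yU ∈ G/U} y • f (y⁻¹)`. -/
noncomputable def shapSigma :
    Representation.coindV U.subtype (ρT.comp U.subtype) →ₗ[k] T where
  toFun f := ∑ᶠ q : G ⧸ U, shapSigmaFun U ρT f.1 (shap_coindV_apply U ρT f) q
  map_add' f f' := by
    rw [← finsum_add_distrib (Set.toFinite _) (Set.toFinite _)]
    exact finsum_congr fun q => shapSigmaFun_add U ρT f.1 f'.1 _ _ _ q
  map_smul' c f := by
    simp only [RingHom.id_apply]
    rw [smul_finsum' c (Set.toFinite _)]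
    exact finsum_congr fun q => shapSigmaFun_smul U ρT c f.1 _ _ q

theorem shapSigma_apply (f : Representation.coindV U.subtype (ρT.comp U.subtype)) :
    shapSigma U ρT f = ∑ᶠ q : G ⧸ U, shapSigmaFun U ρT f.1 (shap_coindV_apply U ρT f) q := rfl

/-- `Σ_*` is `G`-equivariant. -/
theorem shapSigma_equivariant (g : G)
    (f : Representation.coindV U.subtype (ρT.comp U.subtype)) :
    shapSigma U ρT (Representation.coind U.subtype (ρT.comp U.subtype) g f) =
      ρT g (shapSigma U ρT f) := by
  rw [shapSigma_apply, shapSigma_apply, map_finsum _ (Set.toFinite _)]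
  have h := finsum_comp_equiv (MulAction.toPerm (g⁻¹ : G) : G ⧸ U ≃ G ⧸ U)
    (f := fun q => ρT g (shapSigmaFun U ρT f.1 (shap_coindV_apply U ρT f) q))
  rw [← h]
  refine finsum_congr fun q => ?_
  induction q using QuotientGroup.induction_on with
  | H y =>
    show shapSigmaFun U ρT _ _ ((y : G) : G ⧸ U) =
      ρT g (shapSigmaFun U ρT _ _ ((g⁻¹ * y : G) : G ⧸ U))
    rw [shapSigmaFun_mk, shapSigmaFun_mk, shap_coind_apply, mul_inv_rev, inv_inv,
      ← Module.End.mul_apply, ← map_mul, mul_inv_cancel_left]

/-- formula with chosen coset representatives. -/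
theorem shapSigma_eq_sum_out (f : Representation.coindV U.subtype (ρT.comp U.subtype)) :
    shapSigma U ρT f = ∑ᶠ q : G ⧸ U, ρT q.out (f.1 q.out⁻¹) := by
  rw [shapSigma_apply]
  refine finsum_congr fun q => ?_
  conv_lhs => rw [← QuotientGroup.out_eq' q]
  rfl

end sigma

section pairing

variable {k : Type*} [CommRing k] {G : Type*} [Group G] (U : Subgroup G)
  {N N' T : Type*} [AddCommGroup N] [Module k N] [AddCommGroup N'] [Module k N']
  [AddCommGroup T] [Module k T]
  {ρN : Representation k U N} {ρN' : Representation k U N'} (ρT : Representation k G T)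
  (φ : N →ₗ[k] N' →ₗ[k] T)
  (hφ : ∀ (u : U) (a : N) (b : N'), φ (ρN u a) (ρN' u b) = ρT (u : G) (φ a b))

/-- pointwise product `Coind_U N × Coind_U N' → Coind_U (T|U)`. -/
def shapMul : Representation.coindV U.subtype ρN →ₗ[k] Representation.coindV U.subtype ρN' →ₗ[k]
    Representation.coindV U.subtype (ρT.comp U.subtype) :=
  LinearMap.mk₂ k
    (fun f f' => ⟨fun x => φ (f.1 x) (f'.1 x), fun u x => by
      show φ (f.1 (U.subtype u * x)) (f'.1 (U.subtype u * x)) = ρT (u : G) (φ (f.1 x) (f'.1 x))
      rw [f.2 u x, f'.2 u x, hφ]⟩)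
    (fun f₁ f₂ f' => Subtype.ext (funext fun x => by simp))
    (fun c f f' => Subtype.ext (funext fun x => by simp))
    (fun f f₁' f₂' => Subtype.ext (funext fun x => by simp))
    (fun c f f' => Subtype.ext (funext fun x => by simp))

@[simp] theorem shapMul_apply (f : Representation.coindV U.subtype ρN)
    (f' : Representation.coindV U.subtype ρN') (x : G) :
    (shapMul U ρT φ hφ f f').1 x = φ (f.1 x) (f'.1 x) := rfl

theorem shapMul_equivariant (g : G) (f : Representation.coindV U.subtype ρN)
    (f' : Representation.coindV U.subtype ρN') :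
    shapMul U ρT φ hφ (Representation.coind U.subtype ρN g f)
        (Representation.coind U.subtype ρN' g f') =
      Representation.coind U.subtype (ρT.comp U.subtype) g (shapMul U ρT φ hφ f f') := rfl

variable [U.FiniteIndex]

/-- the pairing `Coind_U N × Coind_U N' → T`, `(f, f') ↦ Σ_{yU ∈ G/U} y • φ (f y⁻¹) (f' y⁻¹)`. -/
noncomputable def shapPair : Representation.coindV U.subtype ρN →ₗ[k]
    Representation.coindV U.subtype ρN' →ₗ[k] T :=
  (shapMul U ρT φ hφ).compr₂ (shapSigma U ρT)

theorem shapPair_apply (f : Representation.coindV U.subtype ρN)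
    (f' : Representation.coindV U.subtype ρN') :
    shapPair U ρT φ hφ f f' = shapSigma U ρT (shapMul U ρT φ hφ f f') := rfl

/-- the pairing of coinduced modules is `G`-equivariant. -/
theorem shapPair_equivariant (g : G) (f : Representation.coindV U.subtype ρN)
    (f' : Representation.coindV U.subtype ρN') :
    shapPair U ρT φ hφ (Representation.coind U.subtype ρN g f)
        (Representation.coind U.subtype ρN' g f') = ρT g (shapPair U ρT φ hφ f f') := by
  rw [shapPair_apply, shapMul_equivariant, shapSigma_equivariant, shapPair_apply]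

/-- formula with chosen coset representatives. -/
theorem shapPair_eq_sum_out (f : Representation.coindV U.subtype ρN)
    (f' : Representation.coindV U.subtype ρN') :
    shapPair U ρT φ hφ f f' = ∑ᶠ q : G ⧸ U, ρT q.out (φ (f.1 q.out⁻¹) (f'.1 q.out⁻¹)) := by
  rw [shapPair_apply, shapSigma_eq_sum_out]
  rfl

end pairing

end Fermat.Agent.S55
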