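import Fermat.Agent.S55.ShapGlob
import Fermat.Agent.S55.ShapPair
import Fermat.Agent.S55.HcCone

/-!
# S55, block SHAP: cup products and the Shapiro section; cone 3-cocycles from cup products

* `shapJL₀` and `shapJL_d01`: the section `j` in degree 0;
* `shapJL_cup12`, `shapJL_cup21`: `j a ∪ j c = j (a ∪ c)` for the pointwise product `shapMul` on
  coinduced modules;
* `shap_d34_cup12f`, `shap_d34_cup21f`: Leibniz rule in total degree 3;
* `shap_ccup12_mem_Zc3`, `shap_ccup21_mem_Zc3`: the mixed cup product of a cone cocycle and a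
  cocycle is a cone 3-cocycle;
* `shap_ccup12_compr`, `shap_ccup21_compr`: naturality of mixed cup products in the target.
-/

set_option autoImplicit false
set_option linter.unusedSectionVars false
set_option linter.unusedVariables false

namespace Fermat.Agent.S55

universe u v w

/-! ### the section `j` in degree 0 -/

section j0

variable {k : Type*} [CommRing k] {G : Type*} [Group G] (L : hc_Lev G) (U : Subgroup G)
  {N : Type*} [AddCommGroup N] [Module k N] (ρ : Representation k U N)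
  (r : G → U) (hr : ∀ (u : U) (x : G), r ((u : G) * x) = u * r x)
  (hU : ∃ M ∈ L.S, M ≤ U)

/-- ambient linear map of `j`, degree 0. -/
def shapJF₀ : N →ₗ[k] ↥(Representation.coindV U.subtype ρ) where
  toFun n := ⟨fun x => shapJ₀ r ρ n x, fun u x => shapJ₀_equiv r ρ hr n u x⟩
  map_add' n n' := by
    apply Subtype.ext; funext x
    simp [shapJ₀, shapC₀]
  map_smul' a n := by
    apply Subtype.ext; funext x
    simp [shapJ₀, shapC₀]

/-- the section of the Shapiro map on level 0-cochains. -/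
def shapJL₀ : hc_C0 (shapLevSub L U) ρ →ₗ[k] hc_C0 L (Representation.coind U.subtype ρ) :=
  (shapJF₀ U ρ r hr).restrict fun n ⟨M', hM', hn⟩ => by
    obtain ⟨M, hM, hMn, hR, hle⟩ := shap_exists_level L U r hr hU hM'
    exact ⟨M, hM, (shap_isLev0_iff M _).2
      (shapLev_J₀ r hR (fun s hs => hn s (hle (Subgroup.mem_subgroupOf.mpr hs))))⟩

theorem shapJL₀_apply (n : hc_C0 (shapLevSub L U) ρ) (x : G) :
    (shapJL₀ L U ρ r hr hU n).1.1 x = ρ (r x) n.1 := rfl

/-- `j` is a cochain map, degree `0 → 1`. -/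
theorem shapJL_d01 (n : hc_C0 (shapLevSub L U) ρ) :
    hc_d01 L _ (shapJL₀ L U ρ r hr hU n) = shapJL₁ L U ρ r hr hU (hc_d01 _ ρ n) := by
  apply Subtype.ext
  funext g
  apply Subtype.ext
  funext x
  show (hc_d01f (Representation.coind U.subtype ρ) (shapJL₀ L U ρ r hr hU n).1 g).1 x =
    shapJ₁ r ρ (fun u => hc_d01f ρ n.1 u) g x
  rw [shap_d01_raw]
  exact congrFun (congrFun (shapDI_J₀ r ρ n.1) g) x

end j0

/-! ### multiplicativity of the section -/

section mult

variable {k : Type*} [CommRing k] {G : Type*} [Group G] (L : hc_Lev G) (U : Subgroup G)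
  {N N' T : Type*} [AddCommGroup N] [Module k N] [AddCommGroup N'] [Module k N']
  [AddCommGroup T] [Module k T]
  {ρN : Representation k U N} {ρN' : Representation k U N'} (ρT : Representation k G T)
  (φ : N →ₗ[k] N' →ₗ[k] T)
  (hφ : ∀ (u : U) (a : N) (b : N'), φ (ρN u a) (ρN' u b) = ρT (u : G) (φ a b))
  (r : G → U) (hr : ∀ (u : U) (x : G), r ((u : G) * x) = u * r x)

include hφ in
theorem shap_phi_twist (p q : U) (a : N) (b : N') :
    φ (ρN p a) (ρN' q b) = ρT (p : G) (φ a (ρN' (p⁻¹ * q) b)) := by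
  rw [← hφ, ← Module.End.mul_apply, ← map_mul, mul_inv_cancel_left]

include hφ in
/-- raw multiplicativity of `j`, bidegree `(1,2)`. -/
theorem shapJ_mul12 (a : U → N) (c : U → U → N') (g h j x : G) :
    φ (shapJ₁ r ρN a g x) (shapJ₂ r ρN' c h j (x * g)) =
      shapJ₃ r (ρT.comp U.subtype) (fun u v w => φ (a u) (ρN' u (c v w))) g h j x := by
  simp only [shapJ₁, shapJ₂, shapJ₃, shapTinv₁, shapTinv₂, shapTinv₃, shapC₁, shapC₂, shapC₃]
  rw [shap_phi_twist U ρT φ hφ]
  rfl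

include hφ in
/-- raw multiplicativity of `j`, bidegree `(2,1)`. -/
theorem shapJ_mul21 (a : U → U → N) (c : U → N') (g h j x : G) :
    φ (shapJ₂ r ρN a g h x) (shapJ₁ r ρN' c j (x * (g * h))) =
      shapJ₃ r (ρT.comp U.subtype) (fun u v w => φ (a u v) (ρN' (u * v) (c w))) g h j x := by
  have e : (r x)⁻¹ * r (x * g) * ((r (x * g))⁻¹ * r (x * g * h)) = (r x)⁻¹ * r (x * (g * h)) := by
    rw [← mul_assoc x g h]; group
  simp only [shapJ₁, shapJ₂, shapJ₃, shapTinv₁, shapTinv₂, shapTinv₃, shapC₁, shapC₂, shapC₃]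
  rw [shap_phi_twist U ρT φ hφ, e, ← mul_assoc x g h]
  rfl

variable (hU : ∃ M ∈ L.S, M ≤ U)

/-- `j a ∪ j c = j (a ∪ c)`, bidegree `(1,2)`. -/
theorem shapJL_cup12 (a : hc_C1 (shapLevSub L U) ρN) (c : hc_C2 (shapLevSub L U) ρN') :
    hc_cup12 L (shapMul_equivariant U ρT φ hφ) (shapJL₁ L U ρN r hr hU a)
        (shapJL₂ L U ρN' r hr hU c) =
      shapJL₃ L U (ρT.comp U.subtype) r hr hU
        (hc_cup12 (shapLevSub L U) (ρT := ρT.comp U.subtype) hφ a c) := by
  apply Subtype.ext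
  funext ⟨g, h, j⟩
  apply Subtype.ext
  funext x
  exact shapJ_mul12 U ρT φ hφ r a.1 (fun u v => c.1 (u, v)) g h j x

/-- `j a ∪ j c = j (a ∪ c)`, bidegree `(2,1)`. -/
theorem shapJL_cup21 (a : hc_C2 (shapLevSub L U) ρN) (c : hc_C1 (shapLevSub L U) ρN') :
    hc_cup21 L (shapMul_equivariant U ρT φ hφ) (shapJL₂ L U ρN r hr hU a)
        (shapJL₁ L U ρN' r hr hU c) =
      shapJL₃ L U (ρT.comp U.subtype) r hr hU
        (hc_cup21 (shapLevSub L U) (ρT := ρT.comp U.subtype) hφ a c) := by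
  apply Subtype.ext
  funext ⟨g, h, j⟩
  apply Subtype.ext
  funext x
  exact shapJ_mul21 U ρT φ hφ r (fun u v => a.1 (u, v)) c.1 g h j x

end mult

/-! ### Leibniz rule in total degree 3 -/

section leib

variable {k G A B T : Type*} [CommRing k] [Group G]
  [AddCommGroup A] [Module k A] [AddCommGroup B] [Module k B] [AddCommGroup T] [Module k T]
  {φ : A →ₗ[k] B →ₗ[k] T} {ρA : Representation k G A} {ρB : Representation k G B}
  {ρT : Representation k G T} (hφ : ∀ g a b, φ (ρA g a) (ρB g b) = ρT g (φ a b))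

include hφ in
theorem shap_d34_cup12f (f : G → A) (f' : G × G → B) (g h j l : G) :
    hc_d34f ρT (hc_cup12f φ ρB f f') (g, h, j, l) =
      φ (hc_d12f ρA f (g, h)) (ρB (g * h) (f' (j, l)))
        - φ (f g) (ρB g (hc_d23f ρB f' (h, j, l))) := by
  simp only [hc_d34f_apply, hc_d12f_apply, hc_d23f_apply, hc_cup12f_apply, ← hφ, map_sub,
    map_add, LinearMap.sub_apply, LinearMap.add_apply, map_mul, Module.End.mul_apply]
  abel

include hφ in
theorem shap_d34_cup21f (f : G × G → A) (f' : G → B) (g h j l : G) :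
    hc_d34f ρT (hc_cup21f φ ρB f f') (g, h, j, l) =
      φ (hc_d23f ρA f (g, h, j)) (ρB (g * h * j) (f' l))
        + φ (f (g, h)) (ρB (g * h) (hc_d12f ρB f' (j, l))) := by
  simp only [hc_d34f_apply, hc_d12f_apply, hc_d23f_apply, hc_cup21f_apply, ← hφ, map_sub,
    map_add, LinearMap.sub_apply, LinearMap.add_apply, map_mul, Module.End.mul_apply, mul_assoc]
  abel

include hφ in
theorem shap_d34_cup12f_zero (f : G → A) (f' : G × G → B) (hf : hc_d12f ρA f = 0)
    (hf' : hc_d23f ρB f' = 0) : hc_d34f ρT (hc_cup12f φ ρB f f') = 0 := by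
  funext ⟨g, h, j, l⟩
  rw [shap_d34_cup12f hφ, hf, hf']
  simp

include hφ in
theorem shap_d34_cup21f_zero (f : G × G → A) (f' : G → B) (hf : hc_d23f ρA f = 0)
    (hf' : hc_d12f ρB f' = 0) : hc_d34f ρT (hc_cup21f φ ρB f f') = 0 := by
  funext ⟨g, h, j, l⟩
  rw [shap_d34_cup21f hφ, hf, hf']
  simp

end leib

/-! ### cone 3-cocycles from cup products -/

section zc3

variable {k : Type*} [CommRing k] {G : Type u} [Group G] {L : hc_Lev G} {D : hc_Loc.{u, v, w} L}
variable {A B T : Type*} [AddCommGroup A] [Module k A] [AddCommGroup B] [Module k B]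
  [AddCommGroup T] [Module k T]
  {φ : A →ₗ[k] B →ₗ[k] T} {ρA : Representation k G A} {ρB : Representation k G B}
  {ρT : Representation k G T} (hφ : ∀ g a b, φ (ρA g a) (ρB g b) = ρT g (φ a b))

/-- restriction is compatible with cup products, bidegree (1,2). -/
lemma shap_res3_cup12 {H : Type*} [Group H] {LH : hc_Lev H} {ι : H →* G}
    (hι : hc_LevCompat LH L ι) (x : hc_C1 L ρA) (y : hc_C2 L ρB) :
    hc_res3 hι ρT (hc_cup12 L hφ x y)
      = hc_cup12 LH (fun g a b => hφ (ι g) a b) (hc_res1 hι ρA x) (hc_res2 hι ρB y) := rfl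

/-- restriction is compatible with cup products, bidegree (2,1). -/
lemma shap_res3_cup21 {H : Type*} [Group H] {LH : hc_Lev H} {ι : H →* G}
    (hι : hc_LevCompat LH L ι) (x : hc_C2 L ρA) (y : hc_C1 L ρB) :
    hc_res3 hι ρT (hc_cup21 L hφ x y)
      = hc_cup21 LH (fun g a b => hφ (ι g) a b) (hc_res2 hι ρA x) (hc_res1 hι ρB y) := by
  apply Subtype.ext
  funext ⟨g, h, j⟩
  simp only [hc_res3_coe, hc_cup21_coe, hc_cup21f_apply, hc_res2_coe, hc_res1_coe,
    MonoidHom.comp_apply, map_mul]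

/-- the cup product of a cone 1-cocycle and a 2-cocycle is a cone 3-cocycle. -/
theorem shap_ccup12_mem_Zc3 (x : hc_Cc1 D ρA) (hx : hc_dc1 D ρA x = 0) (y : hc_C2 L ρB)
    (hy : hc_d23 L ρB y = 0) : hc_ccup12 D hφ x y ∈ hc_Zc3 D ρT := by
  have hx1 : hc_d12 L ρA x.1 = 0 := congrArg Prod.fst hx
  have hx2 : ∀ v, hc_res1 (D.compat v) ρA x.1 = hc_d01 (D.Lv v) (ρA.comp (D.ι v)) (x.2 v) :=
    fun v => sub_eq_zero.1 (congrFun (congrArg Prod.snd hx) v)
  refine ⟨?_, fun v => ?_⟩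
  · exact shap_d34_cup12f_zero hφ _ _ (congrArg Subtype.val hx1) (congrArg Subtype.val hy)
  · rw [hc_ccup12_fst, hc_ccup12_snd, hc_leibniz02, ← hc_res3_d23, hy, map_zero, map_zero,
      add_zero, ← hx2 v]
    rfl

/-- the cup product of a cone 2-cocycle and a 1-cocycle is a cone 3-cocycle. -/
theorem shap_ccup21_mem_Zc3 (x : hc_Cc2 D ρA) (hx : hc_dc2 D ρA x = 0) (y : hc_C1 L ρB)
    (hy : hc_d12 L ρB y = 0) : hc_ccup21 D hφ x y ∈ hc_Zc3 D ρT := by
  have hx1 : hc_d23 L ρA x.1 = 0 := congrArg Prod.fst hx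
  have hx2 : ∀ v, hc_res2 (D.compat v) ρA x.1 = hc_d12 (D.Lv v) (ρA.comp (D.ι v)) (x.2 v) :=
    fun v => sub_eq_zero.1 (congrFun (congrArg Prod.snd hx) v)
  refine ⟨?_, fun v => ?_⟩
  · exact shap_d34_cup21f_zero hφ _ _ (congrArg Subtype.val hx1) (congrArg Subtype.val hy)
  · rw [hc_ccup21_fst, hc_ccup21_snd, hc_leibniz11, ← hc_res2_d12, hy, map_zero, map_zero,
      sub_zero, ← hx2 v]
    exact shap_res3_cup21 hφ (D.compat v) x.1 y

/-! ### naturality of the mixed cup products in the target -/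

variable {T' : Type*} [AddCommGroup T'] [Module k T'] {ρT' : Representation k G T'}
  (σ : T →ₗ[k] T') (hσ : ∀ g t, σ (ρT g t) = ρT' g (σ t))

include hφ hσ in
theorem shap_compr_equiv : ∀ g a b, (φ.compr₂ σ) (ρA g a) (ρB g b) = ρT' g ((φ.compr₂ σ) a b) :=
  fun g a b => by
    simp only [LinearMap.compr₂_apply, hφ, hσ]

theorem shap_ccup12_compr (x : hc_Cc1 D ρA) (y : hc_C2 L ρB) :
    hc_ccup12 D (shap_compr_equiv hφ σ hσ) x y = hc_cmap3 D σ hσ (hc_ccup12 D hφ x y) := rfl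

theorem shap_ccup21_compr (x : hc_Cc2 D ρA) (y : hc_C1 L ρB) :
    hc_ccup21 D (shap_compr_equiv hφ σ hσ) x y = hc_cmap3 D σ hσ (hc_ccup21 D hφ x y) := rfl

end zc3

end Fermat.Agent.S55
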