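import Fermat.Agent.S55.ShapPkg
import Fermat.Agent.S55.ShapCup
import Fermat.Agent.S55.HcQC
import Fermat.Agent.S55.ShapQis

/-!
# S55, block SHAP: the Shapiro comparison for the cone complexes

`G` a leveled group with local data `D`, `U ≤ G` an open subgroup of finite index, `Δ v` double
coset data for `U \ G / ι_v(G_v)`.  We build the local data `shapLocU D U Δ` of `U` (the places
of `U` above the places of `G`), the comparison maps `J_n` from the cone complex of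
`(U; N)` to the cone complex of `(G; Coind_U N)`, the transferred trace functional
`shapTauU`, and the comparison data `ShapQData` between the paired complexes.
-/

set_option autoImplicit false
set_option linter.unusedSectionVars false
set_option linter.unusedVariables false

namespace Fermat.Agent.S55

universe u v w

section locU

variable {G : Type u} [Group G] {L : hc_Lev G} (D : hc_Loc.{u, v, w} L) (U : Subgroup G)
  {W : D.V → Type w} (Δ : ∀ v, ShlDec (D.ι v) U (W v))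

/-- the local data of `U`: the local groups `H_{v,a} = ι_v⁻¹(g_a⁻¹ U g_a)` with the maps
`θ_{v,a} : H_{v,a} → U`, indexed by the pairs `(v, a)`, `a` a double coset. -/
@[reducible] def shapLocU : hc_Loc.{u, v, w} (shapLevSub L U) where
  V := Σ v : D.V, W v
  Gv p := ↥((Δ p.1).Ha p.2)
  Lv p := shapLevSub (D.Lv p.1) ((Δ p.1).Ha p.2)
  ι p := (Δ p.1).th p.2
  compat p := shap_levSub_compat_of (D.compat p.1) _ _ _ (fun N hN y hy => by
    rw [ShlDec.th_coe]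
    exact (L.nor N hN).conj_mem _ hy _)

variable (r : G → U) (hr : ∀ (u : U) (x : G), r ((u : G) * x) = u * r x)
  (hrg : ∀ v a, r ((Δ v).g a) = 1)

include hr hrg in
theorem shap_r_g_mul (v : D.V) (a : W v) (z : (Δ v).Ha a) :
    r ((Δ v).g a * D.ι v (z : D.Gv v)) = (Δ v).th a z := by
  rw [(Δ v).g_mul_iota, hr, hrg, mul_one]

include hr hrg in
theorem shap_r_g_mul₂ (v : D.V) (a : W v) (z z' : (Δ v).Ha a) :
    r ((Δ v).g a * D.ι v (z : D.Gv v) * D.ι v (z' : D.Gv v)) = (Δ v).th a z * (Δ v).th a z' := by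
  have h := shap_r_g_mul D U Δ r hr hrg v a (z * z')
  rw [Subgroup.coe_mul, map_mul, ← mul_assoc, map_mul] at h
  exact h

include hr hrg in
theorem shap_r_g_mul₃ (v : D.V) (a : W v) (z z' z'' : (Δ v).Ha a) :
    r ((Δ v).g a * D.ι v (z : D.Gv v) * D.ι v (z' : D.Gv v) * D.ι v (z'' : D.Gv v)) =
      (Δ v).th a z * (Δ v).th a z' * (Δ v).th a z'' := by
  have h := shap_r_g_mul D U Δ r hr hrg v a (z * z' * z'')
  rw [Subgroup.coe_mul, Subgroup.coe_mul, map_mul, map_mul, ← mul_assoc, ← mul_assoc, map_mul,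
    map_mul] at h
  exact h

end locU

/-! ### `Φ_a ∘ res_v ∘ j = res_{θ_a}` -/

section phires

variable {k : Type*} [CommRing k] {G : Type u} [Group G] {L : hc_Lev G} (D : hc_Loc.{u, v, w} L)
  (U : Subgroup G) {W : D.V → Type w} (Δ : ∀ v, ShlDec (D.ι v) U (W v))
  {N : Type*} [AddCommGroup N] [Module k N] (ρ : Representation k U N)
  (r : G → U) (hr : ∀ (u : U) (x : G), r ((u : G) * x) = u * r x)
  (hU : ∃ M ∈ L.S, M ≤ U) (hrg : ∀ v a, r ((Δ v).g a) = 1)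

include hrg in
theorem shapPhi_res_J₀ (v : D.V) (a : W v) (c : hc_C0 (shapLevSub L U) ρ) :
    shapPhiL₀ (D.Lv v) (Δ v) ρ a (hc_res0 (D.compat v) _ (shapJL₀ L U ρ r hr hU c)) =
      hc_res0 ((shapLocU D U Δ).compat ⟨v, a⟩) ρ c := by
  apply Subtype.ext
  show ρ (r ((Δ v).g a)) c.1 = c.1
  rw [hrg, map_one]
  rfl

include hrg in
theorem shapPhi_res_J₁ (v : D.V) (a : W v) (c : hc_C1 (shapLevSub L U) ρ) :
    shapPhiL₁ (D.Lv v) (Δ v) ρ a (hc_res1 (D.compat v) _ (shapJL₁ L U ρ r hr hU c)) =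
      hc_res1 ((shapLocU D U Δ).compat ⟨v, a⟩) ρ c := by
  apply Subtype.ext
  funext z
  show shapJ₁ r ρ c.1 (D.ι v (z : D.Gv v)) ((Δ v).g a) = c.1 ((Δ v).th a z)
  simp only [shapJ₁, shapTinv₁, shapC₁, shap_r_g_mul D U Δ r hr hrg, hrg, map_one, inv_one,
    one_mul, Module.End.one_apply]

include hrg in
theorem shapPhi_res_J₂ (v : D.V) (a : W v) (c : hc_C2 (shapLevSub L U) ρ) :
    shapPhiL₂ (D.Lv v) (Δ v) ρ a (hc_res2 (D.compat v) _ (shapJL₂ L U ρ r hr hU c)) =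
      hc_res2 ((shapLocU D U Δ).compat ⟨v, a⟩) ρ c := by
  apply Subtype.ext
  funext ⟨z, z'⟩
  show shapJ₂ r ρ (fun u v => c.1 (u, v)) (D.ι v (z : D.Gv v)) (D.ι v (z' : D.Gv v))
    ((Δ v).g a) = c.1 ((Δ v).th a z, (Δ v).th a z')
  simp only [shapJ₂, shapTinv₂, shapC₂, shap_r_g_mul D U Δ r hr hrg,
    shap_r_g_mul₂ D U Δ r hr hrg, hrg, map_one, inv_one, one_mul, Module.End.one_apply,
    inv_mul_cancel_left]

include hrg in
theorem shapPhi_res_J₃ (v : D.V) (a : W v) (c : hc_C3 (shapLevSub L U) ρ) :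
    shapPhiL₃ (D.Lv v) (Δ v) ρ a (hc_res3 (D.compat v) _ (shapJL₃ L U ρ r hr hU c)) =
      hc_res3 ((shapLocU D U Δ).compat ⟨v, a⟩) ρ c := by
  apply Subtype.ext
  funext ⟨z, z', z''⟩
  show shapJ₃ r ρ (fun u v w => c.1 (u, v, w)) (D.ι v (z : D.Gv v)) (D.ι v (z' : D.Gv v))
    (D.ι v (z'' : D.Gv v)) ((Δ v).g a) = c.1 ((Δ v).th a z, (Δ v).th a z', (Δ v).th a z'')
  simp only [shapJ₃, shapTinv₃, shapC₃, shap_r_g_mul D U Δ r hr hrg,
    shap_r_g_mul₂ D U Δ r hr hrg, shap_r_g_mul₃ D U Δ r hr hrg, hrg, map_one, inv_one, one_mul,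
    Module.End.one_apply, inv_mul_cancel_left]

end phires

/-! ### the comparison maps `J_n` on cone cochains -/

section coneJ

variable {k : Type*} [CommRing k] {G : Type u} [Group G] {L : hc_Lev G} (D : hc_Loc.{u, v, w} L)
  (U : Subgroup G) {W : D.V → Type w} (Δ : ∀ v, ShlDec (D.ι v) U (W v))
  {N : Type*} [AddCommGroup N] [Module k N] (ρ : Representation k U N)
  (r : G → U) (hr : ∀ (u : U) (x : G), r ((u : G) * x) = u * r x)
  (hU : ∃ M ∈ L.S, M ≤ U) (hrg : ∀ v a, r ((Δ v).g a) = 1)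
  (pk : ∀ v, ShapLP (D.Lv v) (Δ v) ρ)

/-- the slice over a place `v` of `G` of a family indexed by the places of `U`. -/
def shapSlice₀ (v : D.V) :
    (∀ p : (shapLocU D U Δ).V, hc_C0 ((shapLocU D U Δ).Lv p) (ρ.comp ((shapLocU D U Δ).ι p)))
      →ₗ[k] (∀ a : W v, hc_C0 (shapLevSub (D.Lv v) ((Δ v).Ha a)) (ρ.comp ((Δ v).th a))) :=
  LinearMap.pi fun a => LinearMap.proj (⟨v, a⟩ : (shapLocU D U Δ).V)

/-- the slice over a place `v` of `G` of a family indexed by the places of `U`. -/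
def shapSlice₁ (v : D.V) :
    (∀ p : (shapLocU D U Δ).V, hc_C1 ((shapLocU D U Δ).Lv p) (ρ.comp ((shapLocU D U Δ).ι p)))
      →ₗ[k] (∀ a : W v, hc_C1 (shapLevSub (D.Lv v) ((Δ v).Ha a)) (ρ.comp ((Δ v).th a))) :=
  LinearMap.pi fun a => LinearMap.proj (⟨v, a⟩ : (shapLocU D U Δ).V)

/-- the slice over a place `v` of `G` of a family indexed by the places of `U`. -/
def shapSlice₂ (v : D.V) :
    (∀ p : (shapLocU D U Δ).V, hc_C2 ((shapLocU D U Δ).Lv p) (ρ.comp ((shapLocU D U Δ).ι p)))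
      →ₗ[k] (∀ a : W v, hc_C2 (shapLevSub (D.Lv v) ((Δ v).Ha a)) (ρ.comp ((Δ v).th a))) :=
  LinearMap.pi fun a => LinearMap.proj (⟨v, a⟩ : (shapLocU D U Δ).V)

/-- the comparison map on cone 1-cochains. -/
def shapConeJ₁ :
    hc_Cc1 (shapLocU D U Δ) ρ →ₗ[k] hc_Cc1 D (Representation.coind U.subtype ρ) :=
  LinearMap.prod ((shapJL₁ L U ρ r hr hU).comp (LinearMap.fst k _ _))
    (LinearMap.pi fun v =>
      ((pk v).psi0.comp ((shapSlice₀ D U Δ ρ v).comp (LinearMap.snd k _ _)))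
        + ((pk v).e1.comp ((hc_res1 (D.compat v) _).comp
            ((shapJL₁ L U ρ r hr hU).comp (LinearMap.fst k _ _)))))

/-- the comparison map on cone 2-cochains. -/
def shapConeJ₂ :
    hc_Cc2 (shapLocU D U Δ) ρ →ₗ[k] hc_Cc2 D (Representation.coind U.subtype ρ) :=
  LinearMap.prod ((shapJL₂ L U ρ r hr hU).comp (LinearMap.fst k _ _))
    (LinearMap.pi fun v =>
      ((pk v).psi1.comp ((shapSlice₁ D U Δ ρ v).comp (LinearMap.snd k _ _)))
        + ((pk v).e2.comp ((hc_res2 (D.compat v) _).comp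
            ((shapJL₂ L U ρ r hr hU).comp (LinearMap.fst k _ _)))))

/-- the comparison map on cone 3-cochains. -/
def shapConeJ₃ :
    hc_Cc3 (shapLocU D U Δ) ρ →ₗ[k] hc_Cc3 D (Representation.coind U.subtype ρ) :=
  LinearMap.prod ((shapJL₃ L U ρ r hr hU).comp (LinearMap.fst k _ _))
    (LinearMap.pi fun v =>
      ((pk v).psi2.comp ((shapSlice₂ D U Δ ρ v).comp (LinearMap.snd k _ _)))
        + ((pk v).e3.comp ((hc_res3 (D.compat v) _).comp
            ((shapJL₃ L U ρ r hr hU).comp (LinearMap.fst k _ _)))))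

theorem shapConeJ₁_fst (x : hc_Cc1 (shapLocU D U Δ) ρ) :
    (shapConeJ₁ D U Δ ρ r hr hU pk x).1 = shapJL₁ L U ρ r hr hU x.1 := rfl

theorem shapConeJ₁_snd (x : hc_Cc1 (shapLocU D U Δ) ρ) (v : D.V) :
    (shapConeJ₁ D U Δ ρ r hr hU pk x).2 v =
      (pk v).psi0 (fun a => x.2 ⟨v, a⟩)
        + (pk v).e1 (hc_res1 (D.compat v) _ (shapJL₁ L U ρ r hr hU x.1)) := rfl

theorem shapConeJ₂_fst (x : hc_Cc2 (shapLocU D U Δ) ρ) :
    (shapConeJ₂ D U Δ ρ r hr hU pk x).1 = shapJL₂ L U ρ r hr hU x.1 := rfl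

theorem shapConeJ₂_snd (x : hc_Cc2 (shapLocU D U Δ) ρ) (v : D.V) :
    (shapConeJ₂ D U Δ ρ r hr hU pk x).2 v =
      (pk v).psi1 (fun a => x.2 ⟨v, a⟩)
        + (pk v).e2 (hc_res2 (D.compat v) _ (shapJL₂ L U ρ r hr hU x.1)) := rfl

theorem shapConeJ₃_fst (x : hc_Cc3 (shapLocU D U Δ) ρ) :
    (shapConeJ₃ D U Δ ρ r hr hU pk x).1 = shapJL₃ L U ρ r hr hU x.1 := rfl

theorem shapConeJ₃_snd (x : hc_Cc3 (shapLocU D U Δ) ρ) (v : D.V) :
    (shapConeJ₃ D U Δ ρ r hr hU pk x).2 v =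
      (pk v).psi2 (fun a => x.2 ⟨v, a⟩)
        + (pk v).e3 (hc_res3 (D.compat v) _ (shapJL₃ L U ρ r hr hU x.1)) := rfl

/-- restriction of a raw 3-cocycle is a 3-cocycle. -/
theorem shap_d34f_res {H : Type*} [Group H] {M : Type*} [AddCommGroup M] [Module k M]
    (ι : H →* G) (σ : Representation k G M) (f : G × G × G → M) (hf : hc_d34f σ f = 0) :
    hc_d34f (σ.comp ι) (fun x : H × H × H => f (ι x.1, ι x.2.1, ι x.2.2)) = 0 := by
  funext ⟨g, h, j, l⟩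
  have := congrFun hf (ι g, ι h, ι j, ι l)
  simp only [hc_d34f_apply, Pi.zero_apply, MonoidHom.comp_apply, map_mul] at this ⊢
  exact this

include hrg in
/-- `J₁` maps cone 1-cocycles to cone 1-cocycles. -/
theorem shapConeJ₁_cocycle (x : hc_Cc1 (shapLocU D U Δ) ρ)
    (hx : hc_dc1 (shapLocU D U Δ) ρ x = 0) :
    hc_dc1 D _ (shapConeJ₁ D U Δ ρ r hr hU pk x) = 0 := by
  have hx1 : hc_d12 (shapLevSub L U) ρ x.1 = 0 := congrArg Prod.fst hx
  have hx2 : ∀ p, hc_res1 ((shapLocU D U Δ).compat p) ρ x.1 = hc_d01 _ _ (x.2 p) :=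
    fun p => sub_eq_zero.1 (congrFun (congrArg Prod.snd hx) p)
  refine Prod.ext ?_ (funext fun v => ?_)
  · show hc_d12 L _ (shapJL₁ L U ρ r hr hU x.1) = 0
    rw [shapJL_d12, hx1, map_zero]
  · show hc_res1 (D.compat v) _ (shapJL₁ L U ρ r hr hU x.1)
      - hc_d01 _ _ ((pk v).psi0 (fun a => x.2 ⟨v, a⟩)
          + (pk v).e1 (hc_res1 (D.compat v) _ (shapJL₁ L U ρ r hr hU x.1))) = 0
    refine sub_eq_zero.2 ((pk v).k1 _ (fun a => x.2 ⟨v, a⟩) ?_ (fun a => ?_))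
    · rw [← hc_res2_d12, shapJL_d12, hx1, map_zero, map_zero]
    · rw [shapPhi_res_J₁ D U Δ ρ r hr hU hrg]
      exact hx2 ⟨v, a⟩

include hrg in
/-- `J₂` maps cone 2-cocycles to cone 2-cocycles. -/
theorem shapConeJ₂_cocycle (x : hc_Cc2 (shapLocU D U Δ) ρ)
    (hx : hc_dc2 (shapLocU D U Δ) ρ x = 0) :
    hc_dc2 D _ (shapConeJ₂ D U Δ ρ r hr hU pk x) = 0 := by
  have hx1 : hc_d23 (shapLevSub L U) ρ x.1 = 0 := congrArg Prod.fst hx
  have hx2 : ∀ p, hc_res2 ((shapLocU D U Δ).compat p) ρ x.1 = hc_d12 _ _ (x.2 p) :=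
    fun p => sub_eq_zero.1 (congrFun (congrArg Prod.snd hx) p)
  refine Prod.ext ?_ (funext fun v => ?_)
  · show hc_d23 L _ (shapJL₂ L U ρ r hr hU x.1) = 0
    rw [shapJL_d23, hx1, map_zero]
  · show hc_res2 (D.compat v) _ (shapJL₂ L U ρ r hr hU x.1)
      - hc_d12 _ _ ((pk v).psi1 (fun a => x.2 ⟨v, a⟩)
          + (pk v).e2 (hc_res2 (D.compat v) _ (shapJL₂ L U ρ r hr hU x.1))) = 0
    refine sub_eq_zero.2 ((pk v).k2 _ (fun a => x.2 ⟨v, a⟩) ?_ (fun a => ?_))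
    · rw [← hc_res3_d23, shapJL_d23, hx1, map_zero, map_zero]
    · rw [shapPhi_res_J₂ D U Δ ρ r hr hU hrg]
      exact hx2 ⟨v, a⟩

include hrg in
/-- `J₃` maps cone 3-cocycles to cone 3-cocycles. -/
theorem shapConeJ₃_mem_Zc3 (x : hc_Cc3 (shapLocU D U Δ) ρ)
    (hx : x ∈ hc_Zc3 (shapLocU D U Δ) ρ) :
    shapConeJ₃ D U Δ ρ r hr hU pk x ∈ hc_Zc3 D (Representation.coind U.subtype ρ) := by
  obtain ⟨hx1, hx2⟩ := hx
  refine ⟨shapJL_d34 L U ρ r hr hU x.1 hx1, fun v => ?_⟩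
  show hc_res3 (D.compat v) _ (shapJL₃ L U ρ r hr hU x.1)
    = hc_d23 _ _ ((pk v).psi2 (fun a => x.2 ⟨v, a⟩)
        + (pk v).e3 (hc_res3 (D.compat v) _ (shapJL₃ L U ρ r hr hU x.1)))
  refine (pk v).k3 _ (fun a => x.2 ⟨v, a⟩) ?_ (fun a => ?_)
  · exact shap_d34f_res (D.ι v) (Representation.coind U.subtype ρ)
      (shapJL₃ L U ρ r hr hU x.1).1 (shapJL_d34 L U ρ r hr hU x.1 hx1)
  · rw [shapPhi_res_J₃ D U Δ ρ r hr hU hrg]
    exact hx2 ⟨v, a⟩

include pk in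
/-- Key lemma: two cone 3-cocycles of `Coind` with the same global part and the same
`Φ`-components of the local parts differ by a cone coboundary. -/
theorem shap_KL3 (Z Z' : hc_Cc3 D (Representation.coind U.subtype ρ))
    (hZ : Z ∈ hc_Zc3 D (Representation.coind U.subtype ρ))
    (hZ' : Z' ∈ hc_Zc3 D (Representation.coind U.subtype ρ)) (h1 : Z.1 = Z'.1)
    (h2 : ∀ v a, shapPhiL₂ (D.Lv v) (Δ v) ρ a (Z.2 v) = shapPhiL₂ (D.Lv v) (Δ v) ρ a (Z'.2 v)) :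
    ∃ y : hc_Cc2 D (Representation.coind U.subtype ρ), hc_dc2 D _ y = Z - Z' := by
  refine ⟨(0, fun v => -(pk v).e2 (Z.2 v - Z'.2 v)), Prod.ext ?_ (funext fun v => ?_)⟩
  · show hc_d23 L _ 0 = Z.1 - Z'.1
    rw [map_zero]
    exact (sub_eq_zero.2 h1).symm
  · show hc_res2 (D.compat v) _ 0 - hc_d12 _ _ (-(pk v).e2 (Z.2 v - Z'.2 v)) = Z.2 v - Z'.2 v
    have hk := (pk v).k2 (Z.2 v - Z'.2 v) 0
      ((map_sub (hc_d23 (D.Lv v) ((Representation.coind U.subtype ρ).comp (D.ι v)))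
        (Z.2 v) (Z'.2 v)).trans (sub_eq_zero.2 (by rw [← hZ.2 v, ← hZ'.2 v, h1]))) (fun a => by
      have e := map_sub (shapPhiL₂ (D.Lv v) (Δ v) ρ a) (Z.2 v) (Z'.2 v)
      rw [e, h2 v a, Pi.zero_apply, map_zero]
      exact sub_self _)
    rw [map_zero, zero_add] at hk
    have e3 := map_neg (hc_d12 (D.Lv v) ((Representation.coind U.subtype ρ).comp (D.ι v)))
      ((pk v).e2 (Z.2 v - Z'.2 v))
    rw [map_zero, e3, ← hk]
    abel

end coneJ

/-! ### the transferred trace functional -/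

section tau

variable {k : Type*} [CommRing k] {G : Type u} [Group G] {L : hc_Lev G} (D : hc_Loc.{u, v, w} L)
  (U : Subgroup G) [U.FiniteIndex] {W : D.V → Type w} (Δ : ∀ v, ShlDec (D.ι v) U (W v))
  {T : Type*} [AddCommGroup T] [Module k T] (ρT : Representation k G T)
  (r : G → U) (hr : ∀ (u : U) (x : G), r ((u : G) * x) = u * r x)
  (hU : ∃ M ∈ L.S, M ≤ U) (hrg : ∀ v a, r ((Δ v).g a) = 1)
  (pkT : ∀ v, ShapLP (D.Lv v) (Δ v) (ρT.comp U.subtype))
  (τ : hc_Cc3 D ρT →ₗ[k] k) (hτ : ∀ x, τ (hc_dc2 D ρT x) = 0)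

/-- `τ ∘ Σ_*` on the cone complex of `Coind_U (T|U)`. -/
noncomputable def shapTauS :
    hc_Cc3 D (Representation.coind U.subtype (ρT.comp U.subtype)) →ₗ[k] k :=
  τ.comp (hc_cmap3 D (shapSigma U ρT) (shapSigma_equivariant U ρT))

include hτ in
theorem shapTauS_dc2 (y : hc_Cc2 D (Representation.coind U.subtype (ρT.comp U.subtype))) :
    shapTauS D U ρT τ (hc_dc2 D _ y) = 0 := by
  show τ (hc_cmap3 D _ _ (hc_dc2 D _ y)) = 0
  rw [hc_cmap3_dc2]
  exact hτ _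

include hτ pkT in
theorem shapTauS_congr (Z Z' : hc_Cc3 D (Representation.coind U.subtype (ρT.comp U.subtype)))
    (hZ : Z ∈ hc_Zc3 D (Representation.coind U.subtype (ρT.comp U.subtype)))
    (hZ' : Z' ∈ hc_Zc3 D (Representation.coind U.subtype (ρT.comp U.subtype))) (h1 : Z.1 = Z'.1)
    (h2 : ∀ v a, shapPhiL₂ (D.Lv v) (Δ v) (ρT.comp U.subtype) a (Z.2 v) =
      shapPhiL₂ (D.Lv v) (Δ v) (ρT.comp U.subtype) a (Z'.2 v)) :
    shapTauS D U ρT τ Z = shapTauS D U ρT τ Z' := by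
  obtain ⟨y, hy⟩ := shap_KL3 D U Δ _ pkT Z Z' hZ hZ' h1 h2
  have h : shapTauS D U ρT τ (Z - Z') = 0 := by
    rw [← hy]
    exact shapTauS_dc2 D U ρT τ hτ y
  exact sub_eq_zero.1 ((map_sub _ Z Z').symm.trans h)

/-- the transferred trace functional on the cone complex of `U`. -/
noncomputable def shapTauU : hc_Cc3 (shapLocU D U Δ) (ρT.comp U.subtype) →ₗ[k] k :=
  (shapTauS D U ρT τ).comp (shapConeJ₃ D U Δ (ρT.comp U.subtype) r hr hU pkT)

theorem shapTauU_apply (x : hc_Cc3 (shapLocU D U Δ) (ρT.comp U.subtype)) :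
    shapTauU D U Δ ρT r hr hU pkT τ x =
      shapTauS D U ρT τ (shapConeJ₃ D U Δ (ρT.comp U.subtype) r hr hU pkT x) := rfl

include hτ hrg in
/-- the transferred trace kills cone coboundaries. -/
theorem shapTauU_dc2 (x : hc_Cc2 (shapLocU D U Δ) (ρT.comp U.subtype)) :
    shapTauU D U Δ ρT r hr hU pkT τ (hc_dc2 (shapLocU D U Δ) _ x) = 0 := by
  have h := shapTauS_congr D U Δ ρT pkT τ hτ
    (shapConeJ₃ D U Δ (ρT.comp U.subtype) r hr hU pkT (hc_dc2 (shapLocU D U Δ) _ x))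
    (hc_dc2 D _ (shapConeJ₂ D U Δ (ρT.comp U.subtype) r hr hU pkT x))
    (shapConeJ₃_mem_Zc3 D U Δ _ r hr hU hrg pkT _ (hc_dc2_mem_Zc3 x)) (hc_dc2_mem_Zc3 _)
    (by
      show shapJL₃ L U _ r hr hU (hc_d23 _ _ x.1) = hc_d23 L _ (shapJL₂ L U _ r hr hU x.1)
      rw [shapJL_d23])
    (fun v a => by
      have e1 : shapPhiL₂ (D.Lv v) (Δ v) (ρT.comp U.subtype) a
          ((hc_dc2 D _ (shapConeJ₂ D U Δ (ρT.comp U.subtype) r hr hU pkT x)).2 v) =
          shapPhiL₂ (D.Lv v) (Δ v) (ρT.comp U.subtype) a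
            (hc_res2 (D.compat v) _ (shapJL₂ L U (ρT.comp U.subtype) r hr hU x.1))
          - shapPhiL₂ (D.Lv v) (Δ v) (ρT.comp U.subtype) a (hc_d12 _ _
            ((shapConeJ₂ D U Δ (ρT.comp U.subtype) r hr hU pkT x).2 v)) :=
        map_sub (shapPhiL₂ (D.Lv v) (Δ v) (ρT.comp U.subtype) a)
          (hc_res2 (D.compat v) _ (shapJL₂ L U (ρT.comp U.subtype) r hr hU x.1))
          (hc_d12 _ _ ((shapConeJ₂ D U Δ (ρT.comp U.subtype) r hr hU pkT x).2 v))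
      rw [e1, shapConeJ₃_snd, map_add, (pkT v).phi_psi2, (pkT v).phi_e3, add_zero,
        shapPhi_res_J₂ D U Δ _ r hr hU hrg, shapPhiL_d12, shapConeJ₂_snd, map_add,
        (pkT v).phi_psi1, (pkT v).phi_e2, add_zero]
      rfl)
  rw [shapTauU_apply, h]
  exact shapTauS_dc2 D U ρT τ hτ _

end tau

end Fermat.Agent.S55
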