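import Fermat.Agent.S55.ShapSlot
import Fermat.Agent.S55.ShapLevel

/-!
# S55, block SHAP: the global Shapiro maps on level cochains

`G` a leveled group (`L : hc_Lev G`), `U ≤ G` a subgroup containing a level, `ρ` a representation
of `U` on `N`, `ρI = Representation.coind U.subtype ρ` the coinduced representation of `G`.
With an equivariant retraction `r : G → U` we package the raw maps of `ShapCore` as linear maps
between the level cochain modules of `HcCochain`:

* `shapShL₁/₂/₃ : hc_Cn L ρI → hc_Cn (shapLevSub L U) ρ`   (Shapiro map),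
* `shapJL₁/₂/₃ : hc_Cn (shapLevSub L U) ρ → hc_Cn L ρI`    (its section),
* `shapEL₁ : hc_C1 L ρI → hc_C0 L ρI`, `shapEL₂ : hc_C2 L ρI → hc_C1 L ρI`  (homotopy),

and prove: `sh ∘ j = id`, `sh`, `j` are cochain maps, `f - j (sh f) = d (e f)` on cocycles.
-/

set_option autoImplicit false
set_option linter.unusedSectionVars false
set_option linter.unusedVariables false

namespace Fermat.Agent.S55

section raw

variable {k : Type*} [CommRing k] {G : Type*} [Group G] {U : Subgroup G}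
  {N : Type*} [AddCommGroup N] [Module k N] {ρ : Representation k U N}

/-- curried raw form of a `Coind`-valued 1-cochain. -/
def shapRaw₁ (f : G → ↥(Representation.coindV U.subtype ρ)) : G → G → N :=
  fun g x => (f g).1 x

/-- curried raw form of a `Coind`-valued 2-cochain. -/
def shapRaw₂ (f : G × G → ↥(Representation.coindV U.subtype ρ)) : G → G → G → N :=
  fun g h x => (f (g, h)).1 x

/-- curried raw form of a `Coind`-valued 3-cochain. -/
def shapRaw₃ (f : G × G × G → ↥(Representation.coindV U.subtype ρ)) : G → G → G → G → N :=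
  fun g h j x => (f (g, h, j)).1 x

theorem shapRaw₁_equiv (f : G → ↥(Representation.coindV U.subtype ρ)) (g : G) (u : U) (x : G) :
    shapRaw₁ f g ((u : G) * x) = ρ u (shapRaw₁ f g x) := (f g).2 u x

theorem shapRaw₂_equiv (f : G × G → ↥(Representation.coindV U.subtype ρ)) (g h : G) (u : U)
    (x : G) : shapRaw₂ f g h ((u : G) * x) = ρ u (shapRaw₂ f g h x) := (f (g, h)).2 u x

theorem shapRaw₃_equiv (f : G × G × G → ↥(Representation.coindV U.subtype ρ)) (g h j : G)
    (u : U) (x : G) : shapRaw₃ f g h j ((u : G) * x) = ρ u (shapRaw₃ f g h j x) :=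
  (f (g, h, j)).2 u x

theorem shap_coind_val (g : G) (a : ↥(Representation.coindV U.subtype ρ)) (x : G) :
    ((Representation.coind U.subtype ρ g) a).1 x = a.1 (x * g) := rfl

theorem shap_d01_raw (a : ↥(Representation.coindV U.subtype ρ)) (g x : G) :
    (hc_d01f (Representation.coind U.subtype ρ) a g).1 x = shapDI₀₁ a.1 g x := rfl

theorem shap_d12_raw (f : G → ↥(Representation.coindV U.subtype ρ)) (g h x : G) :
    (hc_d12f (Representation.coind U.subtype ρ) f (g, h)).1 x = shapDI₁₂ (shapRaw₁ f) g h x :=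
  rfl

theorem shap_d23_raw (f : G × G → ↥(Representation.coindV U.subtype ρ)) (g h j x : G) :
    (hc_d23f (Representation.coind U.subtype ρ) f (g, h, j)).1 x =
      shapDI₂₃ (shapRaw₂ f) g h j x := rfl

theorem shap_d34_raw (f : G × G × G → ↥(Representation.coindV U.subtype ρ)) (g h j l x : G) :
    (hc_d34f (Representation.coind U.subtype ρ) f (g, h, j, l)).1 x =
      shapDI₃₄ (shapRaw₃ f) g h j l x := rfl

/-! ### level conditions: packaged ↔ raw -/

theorem shap_isLev0_iff (M : Subgroup G) (a : ↥(Representation.coindV U.subtype ρ)) :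
    hc_IsLev0 (Representation.coind U.subtype ρ) M a ↔ shapSlot₀ M a.1 := by
  constructor
  · intro h x s hs
    have := congrArg (fun b : ↥(Representation.coindV U.subtype ρ) => b.1 x) (h s hs)
    exact this
  · intro h s hs
    exact Subtype.ext (funext fun x => h x s hs)

theorem shap_isLev1_iff (M : Subgroup G) (f : G → ↥(Representation.coindV U.subtype ρ)) :
    hc_IsLev1 (Representation.coind U.subtype ρ) M f ↔ shapLevR₁ M (shapRaw₁ f) := by
  constructor
  · intro h g x s hs t ht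
    have h2 := (shap_isLev0_iff M (f g)).1 (h.2 g) x t ht
    simp only [shapRaw₁]
    rw [h.1 g s hs, h2]
  · intro h
    refine ⟨fun g s hs => Subtype.ext (funext fun x => ?_), fun g => ?_⟩
    · have := h g x s hs 1 M.one_mem
      simpa [shapRaw₁] using this
    · rw [shap_isLev0_iff]
      intro x t ht
      have := h g x 1 M.one_mem t ht
      simpa [shapRaw₁] using this

theorem shap_isLev2_iff (M : Subgroup G) (f : G × G → ↥(Representation.coindV U.subtype ρ)) :
    hc_IsLev2 (Representation.coind U.subtype ρ) M f ↔ shapLevR₂ M (shapRaw₂ f) := by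
  constructor
  · intro h g g' x s hs t ht w hw
    have h2 := (shap_isLev0_iff M (f (g, g'))).1 (h.2 (g, g')) x w hw
    simp only [shapRaw₂]
    rw [h.1 g g' s hs t ht, h2]
  · intro h
    refine ⟨fun g g' s hs t ht => Subtype.ext (funext fun x => ?_), fun p => ?_⟩
    · have := h g g' x s hs t ht 1 M.one_mem
      simpa [shapRaw₂] using this
    · rw [shap_isLev0_iff]
      intro x t ht
      have := h p.1 p.2 x 1 M.one_mem 1 M.one_mem t ht
      simpa [shapRaw₂] using this

theorem shap_isLev3_iff (M : Subgroup G)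
    (f : G × G × G → ↥(Representation.coindV U.subtype ρ)) :
    hc_IsLev3 (Representation.coind U.subtype ρ) M f ↔ shapLevR₃ M (shapRaw₃ f) := by
  constructor
  · intro h g g' g'' x s hs t ht w hw z hz
    have h2 := (shap_isLev0_iff M (f (g, g', g''))).1 (h.2 (g, g', g'')) x z hz
    simp only [shapRaw₃]
    rw [h.1 g g' g'' s hs t ht w hw, h2]
  · intro h
    refine ⟨fun g g' g'' s hs t ht w hw => Subtype.ext (funext fun x => ?_), fun p => ?_⟩
    · have := h g g' g'' x s hs t ht w hw 1 M.one_mem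
      simpa [shapRaw₃] using this
    · rw [shap_isLev0_iff]
      intro x t ht
      have := h p.1 p.2.1 p.2.2 x 1 M.one_mem 1 M.one_mem 1 M.one_mem t ht
      simpa [shapRaw₃] using this

theorem shap_isLevU1_iff (M : Subgroup G) (c : ↥U → N) :
    hc_IsLev1 ρ (M.subgroupOf U) c ↔ shapLevU₁ M ρ c := Iff.rfl

theorem shap_isLevU2_iff (M : Subgroup G) (c : ↥U × ↥U → N) :
    hc_IsLev2 ρ (M.subgroupOf U) c ↔ shapLevU₂ M ρ (fun u v => c (u, v)) :=
  ⟨fun h => ⟨fun u v s t hs ht => h.1 u v s hs t ht, fun u v => h.2 (u, v)⟩,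
    fun h => ⟨fun u v s hs t ht => h.1 u v s t hs ht, fun p => h.2 p.1 p.2⟩⟩

theorem shap_isLevU3_iff (M : Subgroup G) (c : ↥U × ↥U × ↥U → N) :
    hc_IsLev3 ρ (M.subgroupOf U) c ↔ shapLevU₃ M ρ (fun u v w => c (u, v, w)) :=
  ⟨fun h => ⟨fun u v w s t z hs ht hz => h.1 u v w s hs t ht z hz, fun u v w => h.2 (u, v, w)⟩,
    fun h => ⟨fun u v w s hs t ht z hz => h.1 u v w s t z hs ht hz, fun p => h.2 p.1 p.2.1 p.2.2⟩⟩

end raw

section maps

variable {k : Type*} [CommRing k] {G : Type*} [Group G] (L : hc_Lev G) (U : Subgroup G)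
  {N : Type*} [AddCommGroup N] [Module k N] (ρ : Representation k U N)

/-! ### the Shapiro map on level cochains -/

/-- ambient linear map of `sh`, degree 1. -/
def shapShF₁ : (G → ↥(Representation.coindV U.subtype ρ)) →ₗ[k] (↥U → N) where
  toFun f u := (f (u : G)).1 1
  map_add' _ _ := rfl
  map_smul' _ _ := rfl

/-- ambient linear map of `sh`, degree 2. -/
def shapShF₂ : (G × G → ↥(Representation.coindV U.subtype ρ)) →ₗ[k] (↥U × ↥U → N) where
  toFun f p := (f ((p.1 : G), (p.2 : G))).1 1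
  map_add' _ _ := rfl
  map_smul' _ _ := rfl

/-- ambient linear map of `sh`, degree 3. -/
def shapShF₃ :
    (G × G × G → ↥(Representation.coindV U.subtype ρ)) →ₗ[k] (↥U × ↥U × ↥U → N) where
  toFun f p := (f ((p.1 : G), (p.2.1 : G), (p.2.2 : G))).1 1
  map_add' _ _ := rfl
  map_smul' _ _ := rfl

variable {U ρ} in
theorem shap_sh_fixed {M : Subgroup G} {a : ↥(Representation.coindV U.subtype ρ)}
    (ha : hc_IsLev0 (Representation.coind U.subtype ρ) M a) :
    hc_IsLev0 ρ (M.subgroupOf U) (a.1 1) := by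
  intro s hs
  have h1 : a.1 ((s : G) * 1) = ρ s (a.1 1) := a.2 s 1
  have h2 := (shap_isLev0_iff M a).1 ha 1 (s : G) hs
  rw [← h1, mul_one, ← h2, one_mul]

/-- the Shapiro map on level 1-cochains. -/
def shapShL₁ : hc_C1 L (Representation.coind U.subtype ρ) →ₗ[k] hc_C1 (shapLevSub L U) ρ :=
  (shapShF₁ U ρ).restrict fun f ⟨M, hM, hf⟩ =>
    ⟨M.subgroupOf U, shap_mem_levSub hM,
      fun u s hs => by
        show (f ((u * s : U) : G)).1 1 = (f (u : G)).1 1
        rw [Subgroup.coe_mul, hf.1 (u : G) (s : G) hs],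
      fun u => shap_sh_fixed (hf.2 (u : G))⟩

/-- the Shapiro map on level 2-cochains. -/
def shapShL₂ : hc_C2 L (Representation.coind U.subtype ρ) →ₗ[k] hc_C2 (shapLevSub L U) ρ :=
  (shapShF₂ U ρ).restrict fun f ⟨M, hM, hf⟩ =>
    ⟨M.subgroupOf U, shap_mem_levSub hM,
      fun u v s hs t ht => by
        show (f (((u * s : U) : G), ((v * t : U) : G))).1 1 = (f ((u : G), (v : G))).1 1
        rw [Subgroup.coe_mul, Subgroup.coe_mul, hf.1 (u : G) (v : G) (s : G) hs (t : G) ht],
      fun p => shap_sh_fixed (hf.2 ((p.1 : G), (p.2 : G)))⟩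

/-- the Shapiro map on level 3-cochains. -/
def shapShL₃ : hc_C3 L (Representation.coind U.subtype ρ) →ₗ[k] hc_C3 (shapLevSub L U) ρ :=
  (shapShF₃ U ρ).restrict fun f ⟨M, hM, hf⟩ =>
    ⟨M.subgroupOf U, shap_mem_levSub hM,
      fun u v w s hs t ht z hz => by
        show (f (((u * s : U) : G), ((v * t : U) : G), ((w * z : U) : G))).1 1 =
          (f ((u : G), (v : G), (w : G))).1 1
        rw [Subgroup.coe_mul, Subgroup.coe_mul, Subgroup.coe_mul,
          hf.1 (u : G) (v : G) (w : G) (s : G) hs (t : G) ht (z : G) hz],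
      fun p => shap_sh_fixed (hf.2 ((p.1 : G), (p.2.1 : G), (p.2.2 : G)))⟩

@[simp] theorem shapShL₁_apply (f : hc_C1 L (Representation.coind U.subtype ρ)) (u : U) :
    (shapShL₁ L U ρ f : ↥U → N) u = (f.1 (u : G)).1 1 := rfl

@[simp] theorem shapShL₂_apply (f : hc_C2 L (Representation.coind U.subtype ρ)) (u v : U) :
    (shapShL₂ L U ρ f : ↥U × ↥U → N) (u, v) = (f.1 ((u : G), (v : G))).1 1 := rfl

@[simp] theorem shapShL₃_apply (f : hc_C3 L (Representation.coind U.subtype ρ)) (u v w : U) :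
    (shapShL₃ L U ρ f : ↥U × ↥U × ↥U → N) (u, v, w) =
      (f.1 ((u : G), (v : G), (w : G))).1 1 := rfl

/-- `sh` is a cochain map, degree `1 → 2`. -/
theorem shapShL_d12 (f : hc_C1 L (Representation.coind U.subtype ρ)) :
    shapShL₂ L U ρ (hc_d12 L _ f) = hc_d12 (shapLevSub L U) ρ (shapShL₁ L U ρ f) := by
  apply Subtype.ext
  funext ⟨u, v⟩
  have h1 : (f.1 (v : G)).1 ((u : G) * 1) = ρ u ((f.1 (v : G)).1 1) := (f.1 (v : G)).2 u 1
  show (hc_d12f (Representation.coind U.subtype ρ) f.1 ((u : G), (v : G))).1 1 =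
    ρ u ((f.1 (v : G)).1 1) - (f.1 ((u * v : U) : G)).1 1 + (f.1 (u : G)).1 1
  rw [shap_d12_raw, ← h1, mul_one]
  simp only [shapDI₁₂, shapRaw₁, one_mul, Subgroup.coe_mul]

/-- `sh` is a cochain map, degree `2 → 3`. -/
theorem shapShL_d23 (f : hc_C2 L (Representation.coind U.subtype ρ)) :
    shapShL₃ L U ρ (hc_d23 L _ f) = hc_d23 (shapLevSub L U) ρ (shapShL₂ L U ρ f) := by
  apply Subtype.ext
  funext ⟨u, v, w⟩
  have h1 : (f.1 ((v : G), (w : G))).1 ((u : G) * 1) = ρ u ((f.1 ((v : G), (w : G))).1 1) :=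
    (f.1 ((v : G), (w : G))).2 u 1
  show (hc_d23f (Representation.coind U.subtype ρ) f.1 ((u : G), (v : G), (w : G))).1 1 =
    ρ u ((f.1 ((v : G), (w : G))).1 1) - (f.1 (((u * v : U) : G), (w : G))).1 1
      + (f.1 ((u : G), ((v * w : U) : G))).1 1 - (f.1 ((u : G), (v : G))).1 1
  rw [shap_d23_raw, ← h1, mul_one]
  simp only [shapDI₂₃, shapRaw₂, one_mul, Subgroup.coe_mul]

end maps

section section_maps

variable {k : Type*} [CommRing k] {G : Type*} [Group G] (L : hc_Lev G) (U : Subgroup G)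
  {N : Type*} [AddCommGroup N] [Module k N] (ρ : Representation k U N)
  (r : G → U) (hr : ∀ (u : U) (x : G), r ((u : G) * x) = u * r x)
  (hU : ∃ M ∈ L.S, M ≤ U)

/-! ### the section `j` on level cochains -/

/-- ambient linear map of `j`, degree 1. -/
def shapJF₁ : (↥U → N) →ₗ[k] (G → ↥(Representation.coindV U.subtype ρ)) where
  toFun c g := ⟨fun x => shapJ₁ r ρ c g x, fun u x => shapJ₁_equiv r ρ hr c g u x⟩
  map_add' c c' := by
    funext g; apply Subtype.ext; funext x
    simp [shapJ₁, shapTinv₁, shapC₁]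
  map_smul' a c := by
    funext g; apply Subtype.ext; funext x
    simp [shapJ₁, shapTinv₁, shapC₁]

/-- ambient linear map of `j`, degree 2. -/
def shapJF₂ : (↥U × ↥U → N) →ₗ[k] (G × G → ↥(Representation.coindV U.subtype ρ)) where
  toFun c p := ⟨fun x => shapJ₂ r ρ (fun u v => c (u, v)) p.1 p.2 x,
    fun u x => shapJ₂_equiv r ρ hr _ p.1 p.2 u x⟩
  map_add' c c' := by
    funext p; apply Subtype.ext; funext x
    simp [shapJ₂, shapTinv₂, shapC₂]
  map_smul' a c := by
    funext p; apply Subtype.ext; funext x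
    simp [shapJ₂, shapTinv₂, shapC₂]

/-- ambient linear map of `j`, degree 3. -/
def shapJF₃ :
    (↥U × ↥U × ↥U → N) →ₗ[k] (G × G × G → ↥(Representation.coindV U.subtype ρ)) where
  toFun c p := ⟨fun x => shapJ₃ r ρ (fun u v w => c (u, v, w)) p.1 p.2.1 p.2.2 x,
    fun u x => shapJ₃_equiv r ρ hr _ p.1 p.2.1 p.2.2 u x⟩
  map_add' c c' := by
    funext p; apply Subtype.ext; funext x
    simp [shapJ₃, shapTinv₃, shapC₃]
  map_smul' a c := by
    funext p; apply Subtype.ext; funext x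
    simp [shapJ₃, shapTinv₃, shapC₃]

include hr hU in
/-- a level of `U` contains `M ⊓ U` for a level `M ≤ U` of `G` with which `r` is compatible. -/
theorem shap_exists_level {M' : Subgroup ↥U} (hM' : M' ∈ (shapLevSub L U).S) :
    ∃ M ∈ L.S, M.Normal ∧ shapRCompat r M ∧ M.subgroupOf U ≤ M' := by
  obtain ⟨M, hM, hMU, hle⟩ := shap_levSub_exists_le hU hM'
  exact ⟨M, hM, L.nor M hM, shap_rCompat r hr (L.nor M hM) hMU, hle⟩

/-- the section of the Shapiro map on level 1-cochains. -/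
def shapJL₁ : hc_C1 (shapLevSub L U) ρ →ₗ[k] hc_C1 L (Representation.coind U.subtype ρ) :=
  (shapJF₁ U ρ r hr).restrict fun c ⟨M', hM', hc⟩ => by
    obtain ⟨M, hM, hMn, hR, hle⟩ := shap_exists_level L U r hr hU hM'
    exact ⟨M, hM, (shap_isLev1_iff M _).2
      (shapLev_J₁ r hR hMn ((shap_isLevU1_iff M c).1 (hc.mono hle)))⟩

/-- the section of the Shapiro map on level 2-cochains. -/
def shapJL₂ : hc_C2 (shapLevSub L U) ρ →ₗ[k] hc_C2 L (Representation.coind U.subtype ρ) :=
  (shapJF₂ U ρ r hr).restrict fun c ⟨M', hM', hc⟩ => by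
    obtain ⟨M, hM, hMn, hR, hle⟩ := shap_exists_level L U r hr hU hM'
    exact ⟨M, hM, (shap_isLev2_iff M _).2
      (shapLev_J₂ r hR hMn ((shap_isLevU2_iff M c).1 (hc.mono hle)))⟩

/-- the section of the Shapiro map on level 3-cochains. -/
def shapJL₃ : hc_C3 (shapLevSub L U) ρ →ₗ[k] hc_C3 L (Representation.coind U.subtype ρ) :=
  (shapJF₃ U ρ r hr).restrict fun c ⟨M', hM', hc⟩ => by
    obtain ⟨M, hM, hMn, hR, hle⟩ := shap_exists_level L U r hr hU hM'
    exact ⟨M, hM, (shap_isLev3_iff M _).2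
      (shapLev_J₃ r hR hMn ((shap_isLevU3_iff M c).1 (hc.mono hle)))⟩

theorem shapJL₁_apply (c : hc_C1 (shapLevSub L U) ρ) (g x : G) :
    ((shapJL₁ L U ρ r hr hU c).1 g).1 x = shapJ₁ r ρ c.1 g x := rfl

theorem shapJL₂_apply (c : hc_C2 (shapLevSub L U) ρ) (g h x : G) :
    ((shapJL₂ L U ρ r hr hU c).1 (g, h)).1 x = shapJ₂ r ρ (fun u v => c.1 (u, v)) g h x := rfl

theorem shapJL₃_apply (c : hc_C3 (shapLevSub L U) ρ) (g h j x : G) :
    ((shapJL₃ L U ρ r hr hU c).1 (g, h, j)).1 x =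
      shapJ₃ r ρ (fun u v w => c.1 (u, v, w)) g h j x := rfl

/-- `j` is a cochain map, degree `1 → 2`. -/
theorem shapJL_d12 (c : hc_C1 (shapLevSub L U) ρ) :
    hc_d12 L _ (shapJL₁ L U ρ r hr hU c) = shapJL₂ L U ρ r hr hU (hc_d12 _ ρ c) := by
  apply Subtype.ext
  funext ⟨g, h⟩
  apply Subtype.ext
  funext x
  show (hc_d12f (Representation.coind U.subtype ρ) (shapJL₁ L U ρ r hr hU c).1 (g, h)).1 x =
    shapJ₂ r ρ (fun u v => hc_d12f ρ c.1 (u, v)) g h x
  rw [shap_d12_raw]
  exact congrFun (congrFun (congrFun (shapDI_J₁ r ρ c.1) g) h) x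

/-- `j` is a cochain map, degree `2 → 3`. -/
theorem shapJL_d23 (c : hc_C2 (shapLevSub L U) ρ) :
    hc_d23 L _ (shapJL₂ L U ρ r hr hU c) = shapJL₃ L U ρ r hr hU (hc_d23 _ ρ c) := by
  apply Subtype.ext
  funext ⟨g, h, j⟩
  apply Subtype.ext
  funext x
  show (hc_d23f (Representation.coind U.subtype ρ) (shapJL₂ L U ρ r hr hU c).1 (g, h, j)).1 x =
    shapJ₃ r ρ (fun u v w => hc_d23f ρ c.1 (u, v, w)) g h j x
  rw [shap_d23_raw]
  exact congrFun (congrFun (congrFun (congrFun
    (shapDI_J₂ r ρ (fun u v => c.1 (u, v))) g) h) j) x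

/-- `j` maps 3-cocycles to 3-cocycles. -/
theorem shapJL_d34 (c : hc_C3 (shapLevSub L U) ρ) (hc : hc_d34f ρ c.1 = 0) :
    hc_d34f (Representation.coind U.subtype ρ) (shapJL₃ L U ρ r hr hU c).1 = 0 := by
  funext ⟨g, h, j, l⟩
  apply Subtype.ext
  funext x
  rw [shap_d34_raw]
  exact shapDI_J₃ r ρ (fun u v w => c.1 (u, v, w))
    (fun u v w z => congrFun hc (u, v, w, z)) g h j l x

variable (h1 : r 1 = 1)

include h1 in
/-- `sh ∘ j = id`, degree 1. -/
theorem shapShL_JL₁ (c : hc_C1 (shapLevSub L U) ρ) :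
    shapShL₁ L U ρ (shapJL₁ L U ρ r hr hU c) = c := by
  apply Subtype.ext
  funext u
  exact congrFun (shapSh_J₁ r ρ hr h1 c.1) u

include h1 in
/-- `sh ∘ j = id`, degree 2. -/
theorem shapShL_JL₂ (c : hc_C2 (shapLevSub L U) ρ) :
    shapShL₂ L U ρ (shapJL₂ L U ρ r hr hU c) = c := by
  apply Subtype.ext
  funext ⟨u, v⟩
  exact congrFun (congrFun (shapSh_J₂ r ρ hr h1 (fun u v => c.1 (u, v))) u) v

include h1 in
/-- `sh ∘ j = id`, degree 3. -/
theorem shapShL_JL₃ (c : hc_C3 (shapLevSub L U) ρ) :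
    shapShL₃ L U ρ (shapJL₃ L U ρ r hr hU c) = c := by
  apply Subtype.ext
  funext ⟨u, v, w⟩
  exact congrFun (congrFun (congrFun (shapSh_J₃ r ρ hr h1 (fun u v w => c.1 (u, v, w))) u) v) w

/-! ### the homotopy on level cochains -/

/-- ambient linear map of the homotopy, degree `1 → 0`. -/
def shapEF₁ : (G → ↥(Representation.coindV U.subtype ρ)) →ₗ[k]
    ↥(Representation.coindV U.subtype ρ) where
  toFun f := ⟨fun x => shapE₁ r (shapRaw₁ f) x,
    fun u x => shapE₁_equiv r ρ hr _ (shapRaw₁_equiv f) u x⟩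
  map_add' f f' := by
    apply Subtype.ext; funext x
    simp [shapE₁, shapHH₁, shapT₁, shapRaw₁]; abel
  map_smul' a f := by
    apply Subtype.ext; funext x
    simp [shapE₁, shapHH₁, shapT₁, shapRaw₁]

/-- ambient linear map of the homotopy, degree `2 → 1`. -/
def shapEF₂ : (G × G → ↥(Representation.coindV U.subtype ρ)) →ₗ[k]
    (G → ↥(Representation.coindV U.subtype ρ)) where
  toFun f g := ⟨fun x => shapE₂ r (shapRaw₂ f) g x,
    fun u x => shapE₂_equiv r ρ hr _ (shapRaw₂_equiv f) g u x⟩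
  map_add' f f' := by
    funext g; apply Subtype.ext; funext x
    simp [shapE₂, shapTinv₁, shapHH₂, shapT₂, shapRaw₂]; abel
  map_smul' a f := by
    funext g; apply Subtype.ext; funext x
    simp [shapE₂, shapTinv₁, shapHH₂, shapT₂, shapRaw₂, smul_sub]

include hr hU in
/-- a level of `G` contains a level `M ≤ U` with which `r` is compatible. -/
theorem shap_exists_level' {M' : Subgroup G} (hM' : M' ∈ L.S) :
    ∃ M ∈ L.S, M.Normal ∧ shapRCompat r M ∧ M ≤ M' := by
  obtain ⟨M₀, hM₀, hM₀U⟩ := hU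
  obtain ⟨M, hM, h1, h0⟩ := L.dir M' hM' M₀ hM₀
  exact ⟨M, hM, L.nor M hM, shap_rCompat r hr (L.nor M hM) (h0.trans hM₀U), h1⟩

/-- the homotopy on level cochains, degree `1 → 0`. -/
def shapEL₁ : hc_C1 L (Representation.coind U.subtype ρ) →ₗ[k]
    hc_C0 L (Representation.coind U.subtype ρ) :=
  (shapEF₁ U ρ r hr).restrict fun f ⟨M', hM', hf⟩ => by
    obtain ⟨M, hM, hMn, hR, hle⟩ := shap_exists_level' L U r hr hU hM'
    exact ⟨M, hM, (shap_isLev0_iff M _).2
      (shapLev_E₁ r hR hMn ((shap_isLev1_iff M f).1 (hf.mono hle)))⟩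

/-- the homotopy on level cochains, degree `2 → 1`. -/
def shapEL₂ : hc_C2 L (Representation.coind U.subtype ρ) →ₗ[k]
    hc_C1 L (Representation.coind U.subtype ρ) :=
  (shapEF₂ U ρ r hr).restrict fun f ⟨M', hM', hf⟩ => by
    obtain ⟨M, hM, hMn, hR, hle⟩ := shap_exists_level' L U r hr hU hM'
    exact ⟨M, hM, (shap_isLev1_iff M _).2
      (shapLev_E₂ r hR hMn ((shap_isLev2_iff M f).1 (hf.mono hle)))⟩

include h1 in
/-- `f - j (sh f) = d (e f)` for level 1-cocycles. -/
theorem shapL_homotopy₁ (f : hc_C1 L (Representation.coind U.subtype ρ))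
    (hf : hc_d12 L _ f = 0) :
    f - shapJL₁ L U ρ r hr hU (shapShL₁ L U ρ f) = hc_d01 L _ (shapEL₁ L U ρ r hr hU f) := by
  apply Subtype.ext
  funext g
  apply Subtype.ext
  funext x
  have hcoc : ∀ g h x, shapDI₁₂ (shapRaw₁ f.1) g h x = 0 := fun g h x => by
    rw [← shap_d12_raw]
    have := congrFun (congrArg Subtype.val hf) (g, h)
    exact congrFun (congrArg Subtype.val this) x
  exact shap_homotopy₁ r ρ (shapRaw₁ f.1) (shapRaw₁_equiv f.1) hcoc g x

include h1 in
/-- `f - j (sh f) = d (e f)` for level 2-cocycles. -/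
theorem shapL_homotopy₂ (f : hc_C2 L (Representation.coind U.subtype ρ))
    (hf : hc_d23 L _ f = 0) :
    f - shapJL₂ L U ρ r hr hU (shapShL₂ L U ρ f) = hc_d12 L _ (shapEL₂ L U ρ r hr hU f) := by
  apply Subtype.ext
  funext ⟨g, h⟩
  apply Subtype.ext
  funext x
  have hcoc : ∀ g h j x, shapDI₂₃ (shapRaw₂ f.1) g h j x = 0 := fun g h j x => by
    rw [← shap_d23_raw]
    have := congrFun (congrArg Subtype.val hf) (g, h, j)
    exact congrFun (congrArg Subtype.val this) x
  exact shap_homotopy₂ r ρ (shapRaw₂ f.1) (shapRaw₂_equiv f.1) hcoc g h x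

end section_maps

end Fermat.Agent.S55
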