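import Fermat.Agent.S55.ShapGlob
import Fermat.Agent.S55.ShapLoc

/-!
# S55, block SHAP: the local package at the level of `hc` cochains (contract)

`ι : H →* G` (a local group), `LH` a level structure on `H`, `U ≤ G`, `Δ : ShlDec ι U W` double
coset data, `ρ` a representation of `U` on `N`.  The local group `H` acts on `Coind_U^G N`
through `ι`; `H_a = Δ.Ha a` acts on `N` through `θ_a = Δ.th a`.

* `shapPhiL₀..₃ LH Δ ρ a : hc_Cn LH (Coind ∘ ι) → hc_Cn (shapLevSub LH H_a) (ρ ∘ θ_a)`: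
  evaluation at `g_a` (a cochain map);
* `structure ShapLP LH Δ ρ`: the data (`ψ`, homotopy `e`) and identities the cone comparison
  needs from the local Mackey decomposition.
-/

set_option autoImplicit false
set_option linter.unusedSectionVars false
set_option linter.unusedVariables false

namespace Fermat.Agent.S55

section phi

variable {k : Type*} [CommRing k] {G H : Type*} [Group G] [Group H]
  (LH : hc_Lev H) {ι : H →* G} {U : Subgroup G} {W : Type*} (Δ : ShlDec ι U W)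
  {N : Type*} [AddCommGroup N] [Module k N] (ρ : Representation k U N)

/-- ambient linear map of `Φ_a`, degree 0. -/
def shapPhiF₀ (a : W) : ↥(Representation.coindV U.subtype ρ) →ₗ[k] N where
  toFun f := f.1 (Δ.g a)
  map_add' _ _ := rfl
  map_smul' _ _ := rfl

/-- ambient linear map of `Φ_a`, degree 1. -/
def shapPhiF₁ (a : W) :
    (H → ↥(Representation.coindV U.subtype ρ)) →ₗ[k] (↥(Δ.Ha a) → N) where
  toFun f z := (f (z : H)).1 (Δ.g a)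
  map_add' _ _ := rfl
  map_smul' _ _ := rfl

/-- ambient linear map of `Φ_a`, degree 2. -/
def shapPhiF₂ (a : W) :
    (H × H → ↥(Representation.coindV U.subtype ρ)) →ₗ[k] (↥(Δ.Ha a) × ↥(Δ.Ha a) → N) where
  toFun f z := (f ((z.1 : H), (z.2 : H))).1 (Δ.g a)
  map_add' _ _ := rfl
  map_smul' _ _ := rfl

/-- ambient linear map of `Φ_a`, degree 3. -/
def shapPhiF₃ (a : W) :
    (H × H × H → ↥(Representation.coindV U.subtype ρ)) →ₗ[k]
      (↥(Δ.Ha a) × ↥(Δ.Ha a) × ↥(Δ.Ha a) → N) where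
  toFun f z := (f ((z.1 : H), (z.2.1 : H), (z.2.2 : H))).1 (Δ.g a)
  map_add' _ _ := rfl
  map_smul' _ _ := rfl

variable {Δ ρ} in
/-- the value of a `Coind`-valued level cochain at `g_a` is fixed by the level of `H_a`. -/
theorem shap_phi_fixed {M : Subgroup H} {f : ↥(Representation.coindV U.subtype ρ)} (a : W)
    (hf : hc_IsLev0 ((Representation.coind U.subtype ρ).comp ι) M f) :
    hc_IsLev0 (ρ.comp (Δ.th a)) (M.subgroupOf (Δ.Ha a)) (f.1 (Δ.g a)) := by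
  intro s hs
  have h1 : f.1 (((Δ.th a s : U) : G) * Δ.g a) = ρ (Δ.th a s) (f.1 (Δ.g a)) :=
    f.2 (Δ.th a s) (Δ.g a)
  have h2 := congrArg (fun b : ↥(Representation.coindV U.subtype ρ) => b.1 (Δ.g a))
    (hf (s : H) hs)
  have h3 : f.1 (Δ.g a * ι (s : H)) = f.1 (Δ.g a) := h2
  show ρ (Δ.th a s) (f.1 (Δ.g a)) = f.1 (Δ.g a)
  rw [← h1, ← Δ.g_mul_iota, h3]

/-- `Φ_a` on level 0-cochains. -/
def shapPhiL₀ (a : W) : hc_C0 LH ((Representation.coind U.subtype ρ).comp ι) →ₗ[k]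
    hc_C0 (shapLevSub LH (Δ.Ha a)) (ρ.comp (Δ.th a)) :=
  (shapPhiF₀ Δ ρ a).restrict fun f ⟨M, hM, hf⟩ =>
    ⟨M.subgroupOf (Δ.Ha a), shap_mem_levSub hM, shap_phi_fixed a hf⟩

/-- `Φ_a` on level 1-cochains. -/
def shapPhiL₁ (a : W) : hc_C1 LH ((Representation.coind U.subtype ρ).comp ι) →ₗ[k]
    hc_C1 (shapLevSub LH (Δ.Ha a)) (ρ.comp (Δ.th a)) :=
  (shapPhiF₁ Δ ρ a).restrict fun f ⟨M, hM, hf⟩ =>
    ⟨M.subgroupOf (Δ.Ha a), shap_mem_levSub hM,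
      fun z s hs => by
        show (f ((z * s : ↥(Δ.Ha a)) : H)).1 (Δ.g a) = (f (z : H)).1 (Δ.g a)
        rw [Subgroup.coe_mul, hf.1 (z : H) (s : H) hs],
      fun z => shap_phi_fixed a (hf.2 (z : H))⟩

/-- `Φ_a` on level 2-cochains. -/
def shapPhiL₂ (a : W) : hc_C2 LH ((Representation.coind U.subtype ρ).comp ι) →ₗ[k]
    hc_C2 (shapLevSub LH (Δ.Ha a)) (ρ.comp (Δ.th a)) :=
  (shapPhiF₂ Δ ρ a).restrict fun f ⟨M, hM, hf⟩ =>
    ⟨M.subgroupOf (Δ.Ha a), shap_mem_levSub hM,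
      fun z z' s hs t ht => by
        show (f (((z * s : ↥(Δ.Ha a)) : H), ((z' * t : ↥(Δ.Ha a)) : H))).1 (Δ.g a) =
          (f ((z : H), (z' : H))).1 (Δ.g a)
        rw [Subgroup.coe_mul, Subgroup.coe_mul, hf.1 (z : H) (z' : H) (s : H) hs (t : H) ht],
      fun z => shap_phi_fixed a (hf.2 ((z.1 : H), (z.2 : H)))⟩

/-- `Φ_a` on level 3-cochains. -/
def shapPhiL₃ (a : W) : hc_C3 LH ((Representation.coind U.subtype ρ).comp ι) →ₗ[k]
    hc_C3 (shapLevSub LH (Δ.Ha a)) (ρ.comp (Δ.th a)) :=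
  (shapPhiF₃ Δ ρ a).restrict fun f ⟨M, hM, hf⟩ =>
    ⟨M.subgroupOf (Δ.Ha a), shap_mem_levSub hM,
      fun z z' z'' s hs t ht w hw => by
        show (f (((z * s : ↥(Δ.Ha a)) : H), ((z' * t : ↥(Δ.Ha a)) : H),
          ((z'' * w : ↥(Δ.Ha a)) : H))).1 (Δ.g a) = (f ((z : H), (z' : H), (z'' : H))).1 (Δ.g a)
        rw [Subgroup.coe_mul, Subgroup.coe_mul, Subgroup.coe_mul,
          hf.1 (z : H) (z' : H) (z'' : H) (s : H) hs (t : H) ht (w : H) hw],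
      fun z => shap_phi_fixed a (hf.2 ((z.1 : H), (z.2.1 : H), (z.2.2 : H)))⟩

@[simp] theorem shapPhiL₀_apply (a : W)
    (f : hc_C0 LH ((Representation.coind U.subtype ρ).comp ι)) :
    (shapPhiL₀ LH Δ ρ a f : N) = f.1.1 (Δ.g a) := rfl

@[simp] theorem shapPhiL₁_apply (a : W)
    (f : hc_C1 LH ((Representation.coind U.subtype ρ).comp ι)) (z : Δ.Ha a) :
    (shapPhiL₁ LH Δ ρ a f : ↥(Δ.Ha a) → N) z = (f.1 (z : H)).1 (Δ.g a) := rfl

@[simp] theorem shapPhiL₂_apply (a : W)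
    (f : hc_C2 LH ((Representation.coind U.subtype ρ).comp ι)) (z z' : Δ.Ha a) :
    (shapPhiL₂ LH Δ ρ a f : ↥(Δ.Ha a) × ↥(Δ.Ha a) → N) (z, z') =
      (f.1 ((z : H), (z' : H))).1 (Δ.g a) := rfl

@[simp] theorem shapPhiL₃_apply (a : W)
    (f : hc_C3 LH ((Representation.coind U.subtype ρ).comp ι)) (z z' z'' : Δ.Ha a) :
    (shapPhiL₃ LH Δ ρ a f : ↥(Δ.Ha a) × ↥(Δ.Ha a) × ↥(Δ.Ha a) → N) (z, z', z'') =
      (f.1 ((z : H), (z' : H), (z'' : H))).1 (Δ.g a) := rfl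

/-- the basic identity: evaluation at `g_a * ι z` for `z ∈ H_a`. -/
theorem shap_eval_g_mul (a : W) (f : ↥(Representation.coindV U.subtype ρ)) (z : Δ.Ha a) :
    f.1 (Δ.g a * ι (z : H)) = ρ (Δ.th a z) (f.1 (Δ.g a)) := by
  rw [Δ.g_mul_iota]
  exact f.2 (Δ.th a z) (Δ.g a)

/-- `Φ_a` is a cochain map, degree `0 → 1`. -/
theorem shapPhiL_d01 (a : W) (f : hc_C0 LH ((Representation.coind U.subtype ρ).comp ι)) :
    shapPhiL₁ LH Δ ρ a (hc_d01 LH _ f) = hc_d01 _ _ (shapPhiL₀ LH Δ ρ a f) := by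
  apply Subtype.ext
  funext z
  show (f.1).1 (Δ.g a * ι (z : H)) - (f.1).1 (Δ.g a) =
    ρ (Δ.th a z) ((f.1).1 (Δ.g a)) - (f.1).1 (Δ.g a)
  rw [shap_eval_g_mul]

/-- `Φ_a` is a cochain map, degree `1 → 2`. -/
theorem shapPhiL_d12 (a : W) (f : hc_C1 LH ((Representation.coind U.subtype ρ).comp ι)) :
    shapPhiL₂ LH Δ ρ a (hc_d12 LH _ f) = hc_d12 _ _ (shapPhiL₁ LH Δ ρ a f) := by
  apply Subtype.ext
  funext ⟨z, z'⟩
  show (f.1 (z' : H)).1 (Δ.g a * ι (z : H)) - (f.1 ((z : H) * (z' : H))).1 (Δ.g a)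
      + (f.1 (z : H)).1 (Δ.g a) =
    ρ (Δ.th a z) ((f.1 (z' : H)).1 (Δ.g a)) - (f.1 ((z * z' : ↥(Δ.Ha a)) : H)).1 (Δ.g a)
      + (f.1 (z : H)).1 (Δ.g a)
  rw [shap_eval_g_mul, Subgroup.coe_mul]

/-- `Φ_a` is a cochain map, degree `2 → 3`. -/
theorem shapPhiL_d23 (a : W) (f : hc_C2 LH ((Representation.coind U.subtype ρ).comp ι)) :
    shapPhiL₃ LH Δ ρ a (hc_d23 LH _ f) = hc_d23 _ _ (shapPhiL₂ LH Δ ρ a f) := by
  apply Subtype.ext
  funext ⟨z, z', z''⟩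
  show (f.1 ((z' : H), (z'' : H))).1 (Δ.g a * ι (z : H))
      - (f.1 ((z : H) * (z' : H), (z'' : H))).1 (Δ.g a)
      + (f.1 ((z : H), (z' : H) * (z'' : H))).1 (Δ.g a) - (f.1 ((z : H), (z' : H))).1 (Δ.g a) =
    ρ (Δ.th a z) ((f.1 ((z' : H), (z'' : H))).1 (Δ.g a))
      - (f.1 (((z * z' : ↥(Δ.Ha a)) : H), (z'' : H))).1 (Δ.g a)
      + (f.1 ((z : H), ((z' * z'' : ↥(Δ.Ha a)) : H))).1 (Δ.g a)
      - (f.1 ((z : H), (z' : H))).1 (Δ.g a)
  rw [shap_eval_g_mul, Subgroup.coe_mul, Subgroup.coe_mul]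

end phi

/-! ### the contract for the local package -/

/-- The local Mackey package at the level of `hc` cochains: a section `ψ` of
`Φ = (Φ_a)_a` in degrees `0, 1, 2` and a homotopy `e` in degrees `1, 2, 3` such that
`Φ ∘ e = 0` and every `Coind`-valued cocycle `f` whose components `Φ_a f` are coboundaries
`d b_a` is the coboundary of `ψ b + e f`. -/
structure ShapLP {k : Type*} [CommRing k] {G H : Type*} [Group G] [Group H]
    (LH : hc_Lev H) {ι : H →* G} {U : Subgroup G} {W : Type*} (Δ : ShlDec ι U W)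
    {N : Type*} [AddCommGroup N] [Module k N] (ρ : Representation k U N) where
  /-- `ψ`, degree 0 -/
  psi0 : (∀ a, hc_C0 (shapLevSub LH (Δ.Ha a)) (ρ.comp (Δ.th a))) →ₗ[k]
    hc_C0 LH ((Representation.coind U.subtype ρ).comp ι)
  /-- `ψ`, degree 1 -/
  psi1 : (∀ a, hc_C1 (shapLevSub LH (Δ.Ha a)) (ρ.comp (Δ.th a))) →ₗ[k]
    hc_C1 LH ((Representation.coind U.subtype ρ).comp ι)
  /-- `ψ`, degree 2 -/
  psi2 : (∀ a, hc_C2 (shapLevSub LH (Δ.Ha a)) (ρ.comp (Δ.th a))) →ₗ[k]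
    hc_C2 LH ((Representation.coind U.subtype ρ).comp ι)
  /-- the homotopy, degree `1 → 0` -/
  e1 : hc_C1 LH ((Representation.coind U.subtype ρ).comp ι) →ₗ[k]
    hc_C0 LH ((Representation.coind U.subtype ρ).comp ι)
  /-- the homotopy, degree `2 → 1` -/
  e2 : hc_C2 LH ((Representation.coind U.subtype ρ).comp ι) →ₗ[k]
    hc_C1 LH ((Representation.coind U.subtype ρ).comp ι)
  /-- the homotopy, degree `3 → 2` -/
  e3 : hc_C3 LH ((Representation.coind U.subtype ρ).comp ι) →ₗ[k]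
    hc_C2 LH ((Representation.coind U.subtype ρ).comp ι)
  phi_psi0 : ∀ c a, shapPhiL₀ LH Δ ρ a (psi0 c) = c a
  phi_psi1 : ∀ c a, shapPhiL₁ LH Δ ρ a (psi1 c) = c a
  phi_psi2 : ∀ c a, shapPhiL₂ LH Δ ρ a (psi2 c) = c a
  phi_e1 : ∀ f a, shapPhiL₀ LH Δ ρ a (e1 f) = 0
  phi_e2 : ∀ f a, shapPhiL₁ LH Δ ρ a (e2 f) = 0
  phi_e3 : ∀ f a, shapPhiL₂ LH Δ ρ a (e3 f) = 0
  k1 : ∀ (f : hc_C1 LH ((Representation.coind U.subtype ρ).comp ι))
    (b : ∀ a, hc_C0 (shapLevSub LH (Δ.Ha a)) (ρ.comp (Δ.th a))),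
    hc_d12 LH _ f = 0 → (∀ a, shapPhiL₁ LH Δ ρ a f = hc_d01 _ _ (b a)) →
    f = hc_d01 LH _ (psi0 b + e1 f)
  k2 : ∀ (f : hc_C2 LH ((Representation.coind U.subtype ρ).comp ι))
    (b : ∀ a, hc_C1 (shapLevSub LH (Δ.Ha a)) (ρ.comp (Δ.th a))),
    hc_d23 LH _ f = 0 → (∀ a, shapPhiL₂ LH Δ ρ a f = hc_d12 _ _ (b a)) →
    f = hc_d12 LH _ (psi1 b + e2 f)
  k3 : ∀ (f : hc_C3 LH ((Representation.coind U.subtype ρ).comp ι))
    (b : ∀ a, hc_C2 (shapLevSub LH (Δ.Ha a)) (ρ.comp (Δ.th a))),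
    hc_d34f ((Representation.coind U.subtype ρ).comp ι) f.1 = 0 →
    (∀ a, shapPhiL₃ LH Δ ρ a f = hc_d23 _ _ (b a)) →
    f = hc_d23 LH _ (psi2 b + e3 f)

end Fermat.Agent.S55
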