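import Mathlib
import Fermat.Agent.S55.ShapPkg
import Fermat.Agent.S55.ShapLocHc

/-!
# S55, block SHAP-L: the local Mackey package `ShapLP`

The contract structure `ShapLP LH Δ ρ` of `ShapPkg` is inhabited as soon as the set `W` of double
cosets is finite and all the local subgroups `H_a` contain a common level of `H`
(`shlLP`); in terms of an ambient level structure on `G`: as soon as `U` contains a level
(`shlLP_of_level`).
-/

set_option autoImplicit false
set_option linter.unusedSectionVars false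
set_option linter.unusedVariables false

namespace Fermat.Agent.S55

section pkg

variable {k : Type*} [CommRing k] {G H : Type*} [Group G] [Group H]
  (LH : hc_Lev H) {ι : H →* G} {U : Subgroup G} {W : Type*} (Δ : ShlDec ι U W)
  {N : Type*} [AddCommGroup N] [Module k N] (ρ : Representation k U N)

theorem shapPhiL₀_eq_shl (a : W) : shapPhiL₀ LH Δ ρ a = shlPhiL₀ Δ ρ LH a :=
  LinearMap.ext fun _ => Subtype.ext rfl

theorem shapPhiL₁_eq_shl (a : W) : shapPhiL₁ LH Δ ρ a = shlPhiL₁ Δ ρ LH a :=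
  LinearMap.ext fun _ => Subtype.ext rfl

theorem shapPhiL₂_eq_shl (a : W) : shapPhiL₂ LH Δ ρ a = shlPhiL₂ Δ ρ LH a :=
  LinearMap.ext fun _ => Subtype.ext rfl

theorem shapPhiL₃_eq_shl (a : W) : shapPhiL₃ LH Δ ρ a = shlPhiL₃ Δ ρ LH a :=
  LinearMap.ext fun _ => Subtype.ext rfl

variable [Finite W] (hopen : ∃ M₀ ∈ LH.S, ∀ a, M₀ ≤ Δ.Ha a)

/-- The local Mackey package. -/
noncomputable def shlLP : ShapLP LH Δ ρ where
  psi0 := shlPsiL₀ Δ ρ LH hopen
  psi1 := shlPsiL₁ Δ ρ LH hopen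
  psi2 := shlPsiL₂ Δ ρ LH hopen
  e1 := shlEL₁ Δ ρ LH hopen
  e2 := shlEL₂ Δ ρ LH hopen
  e3 := shlEL₃ Δ ρ LH hopen
  phi_psi0 c a := by rw [shapPhiL₀_eq_shl]; exact shlPhiL_PsiL₀ Δ ρ LH hopen c a
  phi_psi1 c a := by rw [shapPhiL₁_eq_shl]; exact shlPhiL_PsiL₁ Δ ρ LH hopen c a
  phi_psi2 c a := by rw [shapPhiL₂_eq_shl]; exact shlPhiL_PsiL₂ Δ ρ LH hopen c a
  phi_e1 f a := by
    rw [shapPhiL₀_eq_shl]
    exact (shl_K₁_phi Δ ρ LH hopen f a)
  phi_e2 f a := by
    rw [shapPhiL₁_eq_shl]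
    exact (shl_K₂_phi Δ ρ LH hopen f a)
  phi_e3 f a := by
    rw [shapPhiL₂_eq_shl]
    exact (shl_K₃_phi Δ ρ LH hopen f a)
  k1 f b hf hb := by
    have h1 := (shl_K₁ Δ ρ LH hopen f hf).1
    have h2 : (fun a => shlPhiL₁ Δ ρ LH a f) = fun a => hc_d01 _ _ (b a) :=
      funext fun a => by rw [← shapPhiL₁_eq_shl]; exact hb a
    rw [h2, ← shlPsiL_d₀] at h1
    rw [map_add, ← h1]
    abel
  k2 f b hf hb := by
    have h1 := (shl_K₂ Δ ρ LH hopen f hf).1
    have h2 : (fun a => shlPhiL₂ Δ ρ LH a f) = fun a => hc_d12 _ _ (b a) :=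
      funext fun a => by rw [← shapPhiL₂_eq_shl]; exact hb a
    rw [h2, ← shlPsiL_d₁] at h1
    rw [map_add, ← h1]
    abel
  k3 f b hf hb :=
    (shl_K₃ Δ ρ LH hopen f hf b (fun a => by rw [← shapPhiL₃_eq_shl]; exact hb a)).1.symm

end pkg

section ambient

variable {k : Type*} [CommRing k] {G H : Type*} [Group G] [Group H]
  {LH : hc_Lev H} {L : hc_Lev G} {ι : H →* G} {U : Subgroup G} {W : Type*} [Finite W]
  (Δ : ShlDec ι U W) {N : Type*} [AddCommGroup N] [Module k N] (ρ : Representation k U N)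

/-- The local Mackey package, when `U` contains a level of the ambient group. -/
noncomputable def shlLP_of_level (hι : hc_LevCompat LH L ι) (hU : ∃ N ∈ L.S, N ≤ U) :
    ShapLP LH Δ ρ :=
  shlLP LH Δ ρ (shl_hopen Δ hι hU)

end ambient

end Fermat.Agent.S55
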