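import Mathlib
import Fermat.Agent.S55.ShapLocPkg

/-!
# S55, block SHAP-L: fixed-level ("unramified") preservation and the full homotopy identities

`M ≤ H` normal with `M ≤ H_a` for all `a` (`M` need not be one of the levels of `LH`: the
application is `M` = inertia at an unramified place).

* `shlPsiL₀..₂_isLev`, `shlEL₁..₃_isLev`, `shlPhiL₀..₃_isLev`: the maps of the local Mackey
  package preserve `M`-levelness (`hc_IsLev_n … M`);
* `shlP_full₁`, `shlP_full₂`: the full homotopy identity for arbitrary (non-cocycle) cochains,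
  for any package `P : ShapLP LH Δ ρ`;
* `shlLP_psi₀..`, `shlLP_e₁..`: the fields of the concrete package `shlLP`.
-/

set_option autoImplicit false
set_option linter.unusedSectionVars false
set_option linter.unusedVariables false

namespace Fermat.Agent.S55

section unr

variable {k : Type*} [CommRing k] {G H : Type*} [Group G] [Group H] {ι : H →* G}
  {U : Subgroup G} {W : Type*} (D : ShlDec ι U W)
  {N : Type*} [AddCommGroup N] [Module k N] (ρ : Representation k U N)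
  (LH : hc_Lev H)

local notation "CoindV" => Representation.coindV U.subtype ρ
local notation "ρI" => Representation.coind U.subtype ρ

/-! ### `Φ` preserves fixed levels (any `M`) -/

theorem shlPhiL₀_isLev (M : Subgroup H) (a : W) (f : hc_C0 LH ((ρI).comp ι))
    (hf : hc_IsLev0 ((ρI).comp ι) M (f : CoindV)) :
    hc_IsLev0 (ρ.comp (D.th a)) (M.subgroupOf (D.Ha a)) (shlPhiL₀ D ρ LH a f : N) :=
  shap_phi_fixed a hf

theorem shlPhiL₁_isLev (M : Subgroup H) (a : W) (f : hc_C1 LH ((ρI).comp ι))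
    (hf : hc_IsLev1 ((ρI).comp ι) M (f : H → CoindV)) :
    hc_IsLev1 (ρ.comp (D.th a)) (M.subgroupOf (D.Ha a))
      (shlPhiL₁ D ρ LH a f : D.Ha a → N) :=
  ⟨fun z s hs => by
      show ((f : H → CoindV) ((z * s : ↥(D.Ha a)) : H)).1 (D.g a) =
        ((f : H → CoindV) (z : H)).1 (D.g a)
      rw [Subgroup.coe_mul, hf.1 (z : H) (s : H) hs],
    fun z => shap_phi_fixed a (hf.2 (z : H))⟩

theorem shlPhiL₂_isLev (M : Subgroup H) (a : W) (f : hc_C2 LH ((ρI).comp ι))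
    (hf : hc_IsLev2 ((ρI).comp ι) M (f : H × H → CoindV)) :
    hc_IsLev2 (ρ.comp (D.th a)) (M.subgroupOf (D.Ha a))
      (shlPhiL₂ D ρ LH a f : D.Ha a × D.Ha a → N) :=
  ⟨fun z z' s hs t ht => by
      show ((f : H × H → CoindV) (((z * s : ↥(D.Ha a)) : H), ((z' * t : ↥(D.Ha a)) : H))).1
          (D.g a) = ((f : H × H → CoindV) ((z : H), (z' : H))).1 (D.g a)
      rw [Subgroup.coe_mul, Subgroup.coe_mul, hf.1 (z : H) (z' : H) (s : H) hs (t : H) ht],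
    fun z => shap_phi_fixed a (hf.2 ((z.1 : H), (z.2 : H)))⟩

theorem shlPhiL₃_isLev (M : Subgroup H) (a : W) (f : hc_C3 LH ((ρI).comp ι))
    (hf : hc_IsLev3 ((ρI).comp ι) M (f : H × H × H → CoindV)) :
    hc_IsLev3 (ρ.comp (D.th a)) (M.subgroupOf (D.Ha a))
      (shlPhiL₃ D ρ LH a f : D.Ha a × D.Ha a × D.Ha a → N) :=
  ⟨fun z z' z'' s hs t ht w hw => by
      show ((f : H × H × H → CoindV) (((z * s : ↥(D.Ha a)) : H), ((z' * t : ↥(D.Ha a)) : H),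
          ((z'' * w : ↥(D.Ha a)) : H))).1 (D.g a) =
        ((f : H × H × H → CoindV) ((z : H), (z' : H), (z'' : H))).1 (D.g a)
      rw [Subgroup.coe_mul, Subgroup.coe_mul, Subgroup.coe_mul,
        hf.1 (z : H) (z' : H) (z'' : H) (s : H) hs (t : H) ht (w : H) hw],
    fun z => shap_phi_fixed a (hf.2 ((z.1 : H), (z.2.1 : H), (z.2.2 : H)))⟩

variable [Finite W] (hopen : ∃ M₀ ∈ LH.S, ∀ a, M₀ ≤ D.Ha a)
  (M : Subgroup H) [M.Normal] (hM : ∀ a, M ≤ D.Ha a)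

/-! ### `ψ` preserves fixed levels -/

include hM in
theorem shlPsiL₀_isLev (c : ∀ a, hc_C0 (shapLevSub LH (D.Ha a)) (ρ.comp (D.th a)))
    (hc : ∀ a, hc_IsLev0 (ρ.comp (D.th a)) (M.subgroupOf (D.Ha a)) (c a : N)) :
    hc_IsLev0 ((ρI).comp ι) M (shlPsiL₀ D ρ LH hopen c : CoindV) :=
  (shl_lv0_iff ρ M _).2 (shlPsi₀_lev D ρ M hM (fun a m hm => hc a m hm))

include hM in
theorem shlPsiL₁_isLev (c : ∀ a, hc_C1 (shapLevSub LH (D.Ha a)) (ρ.comp (D.th a)))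
    (hc : ∀ a, hc_IsLev1 (ρ.comp (D.th a)) (M.subgroupOf (D.Ha a)) (c a : D.Ha a → N)) :
    hc_IsLev1 ((ρI).comp ι) M (shlPsiL₁ D ρ LH hopen c : H → CoindV) :=
  (shl_lv1_iff ρ M _).2
    (shlPsi₁_lev D ρ M hM (fun a => (shl_flv1_iff D ρ M a _).1 (hc a)))

include hM in
theorem shlPsiL₂_isLev (c : ∀ a, hc_C2 (shapLevSub LH (D.Ha a)) (ρ.comp (D.th a)))
    (hc : ∀ a, hc_IsLev2 (ρ.comp (D.th a)) (M.subgroupOf (D.Ha a))
      (c a : D.Ha a × D.Ha a → N)) :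
    hc_IsLev2 ((ρI).comp ι) M (shlPsiL₂ D ρ LH hopen c : H × H → CoindV) :=
  (shl_lv2_iff ρ M _).2
    (shlPsi₂_lev D ρ M hM (fun a => (shl_flv2_iff D ρ M a _).1 (hc a)))

/-! ### the homotopy preserves fixed levels -/

omit [Finite W] in
include hM in
theorem shlEL₁_isLev (f : hc_C1 LH ((ρI).comp ι))
    (hf : hc_IsLev1 ((ρI).comp ι) M (f : H → CoindV)) :
    hc_IsLev0 ((ρI).comp ι) M (shlEL₁ D ρ LH hopen f : CoindV) :=
  (shl_lv0_iff ρ M _).2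
    (shlE'₁_lev D ρ M hM (shlRaw₁_equiv ρ f.1) ((shl_lv1_iff ρ M f.1).1 hf))

omit [Finite W] in
include hM in
theorem shlEL₂_isLev (f : hc_C2 LH ((ρI).comp ι))
    (hf : hc_IsLev2 ((ρI).comp ι) M (f : H × H → CoindV)) :
    hc_IsLev1 ((ρI).comp ι) M (shlEL₂ D ρ LH hopen f : H → CoindV) :=
  (shl_lv1_iff ρ M _).2
    (shlE'₂_lev D ρ M hM (shlRaw₂_equiv ρ f.1) ((shl_lv2_iff ρ M f.1).1 hf))

omit [Finite W] in
include hM in
theorem shlEL₃_isLev (f : hc_C3 LH ((ρI).comp ι))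
    (hf : hc_IsLev3 ((ρI).comp ι) M (f : H × H × H → CoindV)) :
    hc_IsLev2 ((ρI).comp ι) M (shlEL₃ D ρ LH hopen f : H × H → CoindV) :=
  (shl_lv2_iff ρ M _).2
    (shlE'₃_lev D ρ M hM (shlRaw₃_equiv ρ f.1) ((shl_lv3_iff ρ M f.1).1 hf))

end unr

/-! ### the full homotopy identities, for any package -/

section full

variable {k : Type*} [CommRing k] {G H : Type*} [Group G] [Group H]
  {LH : hc_Lev H} {ι : H →* G} {U : Subgroup G} {W : Type*} {Δ : ShlDec ι U W}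
  {N : Type*} [AddCommGroup N] [Module k N] {ρ : Representation k U N}
  (P : ShapLP LH Δ ρ)

/-- `ψ₁ ∘ d = d ∘ ψ₀` up to the homotopy: `ψ₁ (d b)` is the coboundary of `ψ₀ b + e₁ (…)`. -/
theorem shlP_psi1_d (b : ∀ a, hc_C0 (shapLevSub LH (Δ.Ha a)) (ρ.comp (Δ.th a))) :
    P.psi1 (fun a => hc_d01 _ _ (b a)) =
      hc_d01 LH _ (P.psi0 b + P.e1 (P.psi1 (fun a => hc_d01 _ _ (b a)))) := by
  have h0 : hc_d12 LH _ (P.psi1 (fun a => hc_d01 _ _ (b a))) = 0 := by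
    have h := P.k2 0 (fun a => hc_d01 _ _ (b a)) (map_zero _)
      (fun a => by rw [map_zero, hc_d12_d01])
    rw [map_zero, add_zero] at h
    exact h.symm
  exact P.k1 _ b h0 (fun a => P.phi_psi1 _ a)

/-- `ψ₂` maps cocycles to cocycles. -/
theorem shlP_psi2_cocycle (c : ∀ a, hc_C2 (shapLevSub LH (Δ.Ha a)) (ρ.comp (Δ.th a)))
    (hc : ∀ a, hc_d23 _ _ (c a) = 0) : hc_d23 LH _ (P.psi2 c) = 0 := by
  have h := P.k3 0 c (by simp) (fun a => by rw [map_zero, hc a])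
  rw [map_zero, add_zero] at h
  exact h.symm

/-- `ψ₂ ∘ d = d ∘ ψ₁` up to the homotopy: `ψ₂ (d b)` is the coboundary of `ψ₁ b + e₂ (…)`. -/
theorem shlP_psi2_d (b : ∀ a, hc_C1 (shapLevSub LH (Δ.Ha a)) (ρ.comp (Δ.th a))) :
    P.psi2 (fun a => hc_d12 _ _ (b a)) =
      hc_d12 LH _ (P.psi1 b + P.e2 (P.psi2 (fun a => hc_d12 _ _ (b a)))) :=
  P.k2 _ b (shlP_psi2_cocycle P _ (fun a => hc_d23_d12 _ _ _)) (fun a => P.phi_psi2 _ a)

/-- the full homotopy identity in degree 1 (no cocycle condition):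
`f = ψ₁ (Φ₁ f) + e₂ (d f) + d (e₁ (…))`. -/
theorem shlP_full₁ (f : hc_C1 LH ((Representation.coind U.subtype ρ).comp ι)) :
    f = P.psi1 (fun a => shapPhiL₁ LH Δ ρ a f) + P.e2 (hc_d12 LH _ f)
      + hc_d01 LH _ (P.e1 (f - P.psi1 (fun a => shapPhiL₁ LH Δ ρ a f)
          - P.e2 (hc_d12 LH _ f))) := by
  have h3 : hc_d12 LH _ f = hc_d12 LH _ (P.psi1 (fun a => shapPhiL₁ LH Δ ρ a f)
      + P.e2 (hc_d12 LH _ f)) :=
    P.k2 (hc_d12 LH _ f) (fun a => shapPhiL₁ LH Δ ρ a f) (hc_d23_d12 _ _ _)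
      (fun a => shapPhiL_d12 LH Δ ρ a f)
  set c := f - P.psi1 (fun a => shapPhiL₁ LH Δ ρ a f) - P.e2 (hc_d12 LH _ f) with hc
  have hc' : c + (P.psi1 (fun a => shapPhiL₁ LH Δ ρ a f) + P.e2 (hc_d12 LH _ f)) = f := by
    rw [hc]; abel
  have hc0 : hc_d12 LH _ c = 0 := by
    have h := congrArg (hc_d12 LH _) hc'
    rw [map_add, ← h3] at h
    exact add_eq_right.mp h
  have hΦ : ∀ a, shapPhiL₁ LH Δ ρ a c = hc_d01 _ _ ((0 : ∀ a, hc_C0 (shapLevSub LH (Δ.Ha a))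
      (ρ.comp (Δ.th a))) a) := by
    intro a
    have h := congrArg (shapPhiL₁ LH Δ ρ a) hc'
    rw [map_add, map_add, P.phi_psi1, P.phi_e2, add_zero] at h
    rw [add_eq_right.mp h]
    simp
  have h2 := P.k1 c 0 hc0 hΦ
  rw [map_zero, zero_add] at h2
  rw [← h2]
  rw [add_comm] at hc'
  exact hc'.symm

/-- the full homotopy identity in degree 2 (no cocycle condition):
`f = ψ₂ (Φ₂ f) + e₃ (d f) + d (e₂ (…))`. -/
theorem shlP_full₂ (f : hc_C2 LH ((Representation.coind U.subtype ρ).comp ι)) :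
    f = P.psi2 (fun a => shapPhiL₂ LH Δ ρ a f) + P.e3 (hc_d23 LH _ f)
      + hc_d12 LH _ (P.e2 (f - P.psi2 (fun a => shapPhiL₂ LH Δ ρ a f)
          - P.e3 (hc_d23 LH _ f))) := by
  have h3 : hc_d23 LH _ f = hc_d23 LH _ (P.psi2 (fun a => shapPhiL₂ LH Δ ρ a f)
      + P.e3 (hc_d23 LH _ f)) :=
    P.k3 (hc_d23 LH _ f) (fun a => shapPhiL₂ LH Δ ρ a f) (hc_d34f_d23 _ _ _)
      (fun a => shapPhiL_d23 LH Δ ρ a f)
  set c := f - P.psi2 (fun a => shapPhiL₂ LH Δ ρ a f) - P.e3 (hc_d23 LH _ f) with hc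
  have hc' : c + (P.psi2 (fun a => shapPhiL₂ LH Δ ρ a f) + P.e3 (hc_d23 LH _ f)) = f := by
    rw [hc]; abel
  have hc0 : hc_d23 LH _ c = 0 := by
    have h := congrArg (hc_d23 LH _) hc'
    rw [map_add, ← h3] at h
    exact add_eq_right.mp h
  have hΦ : ∀ a, shapPhiL₂ LH Δ ρ a c = hc_d12 _ _ ((0 : ∀ a, hc_C1 (shapLevSub LH (Δ.Ha a))
      (ρ.comp (Δ.th a))) a) := by
    intro a
    have h := congrArg (shapPhiL₂ LH Δ ρ a) hc'
    rw [map_add, map_add, P.phi_psi2, P.phi_e3, add_zero] at h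
    rw [add_eq_right.mp h]
    simp
  have h2 := P.k2 c 0 hc0 hΦ
  rw [map_zero, zero_add] at h2
  rw [← h2]
  rw [add_comm] at hc'
  exact hc'.symm

/-- `(K_3)` with the full identity: for a `3`-cochain `F = d f` one has
`d (ψ₂ (Φ₂ f) + e₃ F) = F`. -/
theorem shlP_full₃ (f : hc_C2 LH ((Representation.coind U.subtype ρ).comp ι)) :
    hc_d23 LH _ f = hc_d23 LH _ (P.psi2 (fun a => shapPhiL₂ LH Δ ρ a f)
      + P.e3 (hc_d23 LH _ f)) :=
  P.k3 (hc_d23 LH _ f) (fun a => shapPhiL₂ LH Δ ρ a f) (hc_d34f_d23 _ _ _)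
    (fun a => shapPhiL_d23 LH Δ ρ a f)

end full

/-! ### the fields of the concrete package -/

section fields

variable {k : Type*} [CommRing k] {G H : Type*} [Group G] [Group H]
  (LH : hc_Lev H) {ι : H →* G} {U : Subgroup G} {W : Type*} (Δ : ShlDec ι U W)
  {N : Type*} [AddCommGroup N] [Module k N] (ρ : Representation k U N)
  [Finite W] (hopen : ∃ M₀ ∈ LH.S, ∀ a, M₀ ≤ Δ.Ha a)

@[simp] theorem shlLP_psi0 : (shlLP LH Δ ρ hopen).psi0 = shlPsiL₀ Δ ρ LH hopen := rfl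
@[simp] theorem shlLP_psi1 : (shlLP LH Δ ρ hopen).psi1 = shlPsiL₁ Δ ρ LH hopen := rfl
@[simp] theorem shlLP_psi2 : (shlLP LH Δ ρ hopen).psi2 = shlPsiL₂ Δ ρ LH hopen := rfl
@[simp] theorem shlLP_e1 : (shlLP LH Δ ρ hopen).e1 = shlEL₁ Δ ρ LH hopen := rfl
@[simp] theorem shlLP_e2 : (shlLP LH Δ ρ hopen).e2 = shlEL₂ Δ ρ LH hopen := rfl
@[simp] theorem shlLP_e3 : (shlLP LH Δ ρ hopen).e3 = shlEL₃ Δ ρ LH hopen := rfl

end fields

end Fermat.Agent.S55
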