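import Mathlib
import Fermat.Agent.S55.ShapLocUnr
import Fermat.Agent.S55.ShapPair
import Fermat.Agent.S55.ShapGlob

/-!
# S55, block SHAP-L: the local components of the trace are corestrictions (Mackey)

`ι : H →* G`, `U ≤ G` of finite index, `Δ : ShlDec ι U W`, `ρT` a representation of `G` on `T`.
For a double coset `a`, the `a`-component of the transfer
`corA a := Σ^U_* ∘ ψ ∘ single a : C^n(H_a, T^{θ_a}) → C^n(H, T)` is, **on the nose**, the
cochain corestriction from `H_a` to `H` (`Σ^{H_a}_* ∘ j`, with the retraction `Δ.rr a`) of the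
twisted cochain `g_a⁻¹ • x` (`shlCorA₁_eq`, `shlCorA₂_eq`).
-/

set_option autoImplicit false
set_option linter.unusedSectionVars false
set_option linter.unusedVariables false

namespace Fermat.Agent.S55

section sigma

variable {k : Type*} [CommRing k] {G H : Type*} [Group G] [Group H] {ι : H →* G}
  {U : Subgroup G} {W : Type*} (D : ShlDec ι U W)
  {T : Type*} [AddCommGroup T] [Module k T] (ρT : Representation k G T)

/-- the local subgroups have finite index. -/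
theorem shl_Ha_finiteIndex [U.FiniteIndex] (a : W) : (D.Ha a).FiniteIndex := by
  unfold ShlDec.Ha
  constructor
  rw [Subgroup.index_comap]
  exact (inferInstance : (U.subgroupOf _).FiniteIndex).index_ne_zero

/-- the map of coset spaces `H ⧸ H_a → G ⧸ U`, `h H_a ↦ ι h g_a⁻¹ U`. -/
def shlCosetMap (a : W) : H ⧸ D.Ha a → G ⧸ U :=
  Quotient.map' (fun h => ι h * (D.g a)⁻¹) (by
    intro h h' hh'
    rw [QuotientGroup.leftRel_apply] at hh' ⊢
    have := (D.mem_Ha).1 hh'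
    simpa [mul_assoc] using this)

theorem shlCosetMap_mk (a : W) (h : H) :
    shlCosetMap D a (h : H ⧸ D.Ha a) = ((ι h * (D.g a)⁻¹ : G) : G ⧸ U) := rfl

theorem shlCosetMap_injective (a : W) : Function.Injective (shlCosetMap D a) := by
  intro q q' e
  induction q using QuotientGroup.induction_on with
  | H h =>
    induction q' using QuotientGroup.induction_on with
    | H h' =>
      rw [shlCosetMap_mk, shlCosetMap_mk, QuotientGroup.eq] at e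
      rw [QuotientGroup.eq, D.mem_Ha]
      simpa [mul_assoc] using e

theorem shl_mem_range_cosetMap (a : W) (y : G) (hy : D.w y⁻¹ = a) :
    ((y : G) : G ⧸ U) ∈ Set.range (shlCosetMap D a) := by
  refine ⟨(((D.hh y⁻¹)⁻¹ : H) : H ⧸ D.Ha a), ?_⟩
  rw [shlCosetMap_mk, QuotientGroup.eq]
  have h := D.dec y⁻¹
  rw [hy] at h
  obtain ⟨u, hu⟩ : ∃ u : U, y⁻¹ = (u : G) * D.g a * ι (D.hh y⁻¹) := ⟨D.uu y⁻¹, h⟩
  generalize D.hh y⁻¹ = hh at hu ⊢
  have h3 : y = ((u : G) * D.g a * ι hh)⁻¹ := by rw [← hu, inv_inv]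
  rw [h3]
  have h4 : (ι hh⁻¹ * (D.g a)⁻¹)⁻¹ * ((u : G) * D.g a * ι hh)⁻¹ = ((u⁻¹ : U) : G) := by
    simp [mul_assoc]
  rw [h4]
  exact (u⁻¹ : U).2

/-- **Transfer of the trace**: if `F1 ∈ Coind_U^G T` is the extension by zero of
`F2 ∈ Coind_{H_a}^H T` to the double coset `a`, then `Σ^U F1 = Σ^{H_a} F2`. -/
theorem shl_sigma_transfer [U.FiniteIndex] (a : W) [(D.Ha a).FiniteIndex]
    (F1 : Representation.coindV U.subtype (ρT.comp U.subtype))
    (F2 : Representation.coindV (D.Ha a).subtype ((ρT.comp ι).comp (D.Ha a).subtype))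
    (h1 : ∀ x, D.w x = a → F1.1 x = ρT ((D.uu x : G) * D.g a) (F2.1 (D.hh x)))
    (h0 : ∀ x, D.w x ≠ a → F1.1 x = 0) :
    shapSigma U ρT F1 = shapSigma (D.Ha a) (ρT.comp ι) F2 := by
  rw [shapSigma_apply, shapSigma_apply]
  have hsupp : ∀ q ∈ Function.support (shapSigmaFun U ρT F1.1 (shap_coindV_apply U ρT F1)),
      q ∈ (Set.univ : Set (G ⧸ U)) ↔ q ∈ Set.range (shlCosetMap D a) := by
    intro q hq
    refine ⟨fun _ => ?_, fun _ => Set.mem_univ _⟩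
    induction q using QuotientGroup.induction_on with
    | H y =>
      by_contra hne
      apply hq
      rw [shapSigmaFun_mk]
      have : D.w y⁻¹ ≠ a := fun e => hne (shl_mem_range_cosetMap D a y e)
      rw [h0 _ this, map_zero]
  rw [← finsum_mem_univ, finsum_mem_inter_support_eq' _ _ _ hsupp,
    finsum_mem_range (shlCosetMap_injective D a)]
  refine finsum_congr fun q => ?_
  induction q using QuotientGroup.induction_on with
  | H h =>
    rw [shlCosetMap_mk, shapSigmaFun_mk, shapSigmaFun_mk]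
    have hx : (ι h * (D.g a)⁻¹)⁻¹ = D.g a * ι h⁻¹ := by simp
    have hw : D.w (D.g a * ι h⁻¹) = a := by rw [D.w_right, D.w_g]
    rw [hx, h1 _ hw]
    have hF2 := F2.2 (D.rr a h⁻¹) (D.hh (D.g a * ι h⁻¹))
    have hmul : ((D.rr a h⁻¹ : D.Ha a) : H) * D.hh (D.g a * ι h⁻¹) = h⁻¹ := by
      rw [ShlDec.rr_coe]; simp
    have hF2' : F2.1 h⁻¹ = ρT (ι (D.rr a h⁻¹ : H)) (F2.1 (D.hh (D.g a * ι h⁻¹))) := by
      rw [show ((D.Ha a).subtype (D.rr a h⁻¹) : H) * D.hh (D.g a * ι h⁻¹) = h⁻¹ from hmul] at hF2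
      exact hF2
    have huu : (D.uu (D.g a * ι h⁻¹) : G) * D.g a = D.g a * ι (D.rr a h⁻¹ : H) := by
      rw [ShlDec.uu_coe, hw, ShlDec.rr_coe]
      simp [mul_assoc]
    show ρT (ι h * (D.g a)⁻¹) (ρT ((D.uu (D.g a * ι h⁻¹) : G) * D.g a)
      (F2.1 (D.hh (D.g a * ι h⁻¹)))) = ρT (ι h) (F2.1 h⁻¹)
    rw [hF2', huu, ← Module.End.mul_apply, ← map_mul, ← Module.End.mul_apply, ← map_mul]
    congr 2
    simp [mul_assoc]

end sigma

section cor

variable {k : Type*} [CommRing k] {G H : Type*} [Group G] [Group H]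
  (LH : hc_Lev H) {ι : H →* G} {U : Subgroup G} [U.FiniteIndex] {W : Type*}
  (Δ : ShlDec ι U W) {T : Type*} [AddCommGroup T] [Module k T] (ρT : Representation k G T)

omit LH in
/-- `Σ^U_*` is equivariant for the local group acting through `ι`. -/
theorem shl_sigma_equivariant (h : H)
    (f : Representation.coindV U.subtype (ρT.comp U.subtype)) :
    shapSigma U ρT (((Representation.coind U.subtype (ρT.comp U.subtype)).comp ι) h f) =
      (ρT.comp ι) h (shapSigma U ρT f) :=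
  shapSigma_equivariant U ρT (ι h) f

omit LH [U.FiniteIndex] in
/-- `g_a⁻¹` intertwines `T` with `H_a` acting through `θ_a` and `T` with `H_a ≤ H` acting
through `ι`. -/
theorem shl_tw_equivariant (a : W) (z : Δ.Ha a) (t : T) :
    ρT (Δ.g a)⁻¹ (((ρT.comp U.subtype).comp (Δ.th a)) z t) =
      ((ρT.comp ι).comp (Δ.Ha a).subtype) z (ρT (Δ.g a)⁻¹ t) := by
  show ρT (Δ.g a)⁻¹ (ρT (Δ.th a z : G) t) = ρT (ι (z : H)) (ρT (Δ.g a)⁻¹ t)
  rw [← Module.End.mul_apply, ← map_mul, ← Module.End.mul_apply, ← map_mul, ShlDec.th_coe]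
  congr 2
  group

/-- the twist by `g_a⁻¹`, degree 1. -/
def shlTw₁ (a : W) : hc_C1 (shapLevSub LH (Δ.Ha a)) ((ρT.comp U.subtype).comp (Δ.th a)) →ₗ[k]
    hc_C1 (shapLevSub LH (Δ.Ha a)) ((ρT.comp ι).comp (Δ.Ha a).subtype) :=
  hc_map1 _ (ρT (Δ.g a)⁻¹) (shl_tw_equivariant Δ ρT a)

/-- the twist by `g_a⁻¹`, degree 2. -/
def shlTw₂ (a : W) : hc_C2 (shapLevSub LH (Δ.Ha a)) ((ρT.comp U.subtype).comp (Δ.th a)) →ₗ[k]
    hc_C2 (shapLevSub LH (Δ.Ha a)) ((ρT.comp ι).comp (Δ.Ha a).subtype) :=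
  hc_map2 _ (ρT (Δ.g a)⁻¹) (shl_tw_equivariant Δ ρT a)

/-- the twist by `g_a⁻¹`, degree 3. -/
def shlTw₃ (a : W) : hc_C3 (shapLevSub LH (Δ.Ha a)) ((ρT.comp U.subtype).comp (Δ.th a)) →ₗ[k]
    hc_C3 (shapLevSub LH (Δ.Ha a)) ((ρT.comp ι).comp (Δ.Ha a).subtype) :=
  hc_map3 _ (ρT (Δ.g a)⁻¹) (shl_tw_equivariant Δ ρT a)

omit [U.FiniteIndex] in
@[simp] theorem shlTw₁_coe (a : W)
    (x : hc_C1 (shapLevSub LH (Δ.Ha a)) ((ρT.comp U.subtype).comp (Δ.th a))) (z : Δ.Ha a) :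
    (shlTw₁ LH Δ ρT a x : Δ.Ha a → T) z = ρT (Δ.g a)⁻¹ ((x : Δ.Ha a → T) z) := rfl

omit [U.FiniteIndex] in
@[simp] theorem shlTw₂_coe (a : W)
    (x : hc_C2 (shapLevSub LH (Δ.Ha a)) ((ρT.comp U.subtype).comp (Δ.th a)))
    (z : Δ.Ha a × Δ.Ha a) :
    (shlTw₂ LH Δ ρT a x : Δ.Ha a × Δ.Ha a → T) z =
      ρT (Δ.g a)⁻¹ ((x : Δ.Ha a × Δ.Ha a → T) z) := rfl

omit [U.FiniteIndex] in
/-- the twist is a cochain map. -/
theorem shlTw_d12 (a : W)
    (x : hc_C1 (shapLevSub LH (Δ.Ha a)) ((ρT.comp U.subtype).comp (Δ.th a))) :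
    shlTw₂ LH Δ ρT a (hc_d12 _ _ x) = hc_d12 _ _ (shlTw₁ LH Δ ρT a x) :=
  hc_map2_d12 _ x

omit [U.FiniteIndex] in
/-- the twist is a cochain map. -/
theorem shlTw_d23 (a : W)
    (x : hc_C2 (shapLevSub LH (Δ.Ha a)) ((ρT.comp U.subtype).comp (Δ.th a))) :
    shlTw₃ LH Δ ρT a (hc_d23 _ _ x) = hc_d23 _ _ (shlTw₂ LH Δ ρT a x) :=
  hc_map3_d23 _ x

variable [Finite W] [DecidableEq W] (hopen : ∃ M₀ ∈ LH.S, ∀ a, M₀ ≤ Δ.Ha a)

/-- the `a`-component of the transfer, degree 1: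
`Σ^U_* ∘ ψ₁ ∘ single a : C^1(H_a, T^{θ_a}) → C^1(H, T)`. -/
noncomputable def shlCorA₁ (a : W) :
    hc_C1 (shapLevSub LH (Δ.Ha a)) ((ρT.comp U.subtype).comp (Δ.th a)) →ₗ[k]
      hc_C1 LH (ρT.comp ι) :=
  (hc_map1 LH (shapSigma U ρT) (shl_sigma_equivariant ρT)).comp
    ((shlPsiL₁ Δ (ρT.comp U.subtype) LH hopen).comp
      (LinearMap.single k (fun a => hc_C1 (shapLevSub LH (Δ.Ha a))
        ((ρT.comp U.subtype).comp (Δ.th a))) a))

/-- the `a`-component of the transfer, degree 2: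
`Σ^U_* ∘ ψ₂ ∘ single a : C^2(H_a, T^{θ_a}) → C^2(H, T)`. -/
noncomputable def shlCorA₂ (a : W) :
    hc_C2 (shapLevSub LH (Δ.Ha a)) ((ρT.comp U.subtype).comp (Δ.th a)) →ₗ[k]
      hc_C2 LH (ρT.comp ι) :=
  (hc_map2 LH (shapSigma U ρT) (shl_sigma_equivariant ρT)).comp
    ((shlPsiL₂ Δ (ρT.comp U.subtype) LH hopen).comp
      (LinearMap.single k (fun a => hc_C2 (shapLevSub LH (Δ.Ha a))
        ((ρT.comp U.subtype).comp (Δ.th a))) a))

theorem shlCorA₁_apply (a : W)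
    (x : hc_C1 (shapLevSub LH (Δ.Ha a)) ((ρT.comp U.subtype).comp (Δ.th a))) :
    shlCorA₁ LH Δ ρT hopen a x =
      hc_map1 LH (shapSigma U ρT) (shl_sigma_equivariant ρT)
        (shlPsiL₁ Δ (ρT.comp U.subtype) LH hopen (Pi.single a x)) := rfl

theorem shlCorA₂_apply (a : W)
    (x : hc_C2 (shapLevSub LH (Δ.Ha a)) ((ρT.comp U.subtype).comp (Δ.th a))) :
    shlCorA₂ LH Δ ρT hopen a x =
      hc_map2 LH (shapSigma U ρT) (shl_sigma_equivariant ρT)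
        (shlPsiL₂ Δ (ρT.comp U.subtype) LH hopen (Pi.single a x)) := rfl

/-- the components of the transfer commute with the differential. -/
theorem shlCorA_d12 (a : W)
    (x : hc_C1 (shapLevSub LH (Δ.Ha a)) ((ρT.comp U.subtype).comp (Δ.th a))) :
    shlCorA₂ LH Δ ρT hopen a (hc_d12 _ _ x) = hc_d12 _ _ (shlCorA₁ LH Δ ρT hopen a x) := by
  rw [shlCorA₂_apply, shlCorA₁_apply, ← hc_map2_d12, shlPsiL_d₁]
  congr 2
  funext b
  by_cases hb : b = a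
  · subst hb; simp
  · simp [Pi.single_eq_of_ne hb]

/-- **Mackey, on the nose (degree 2)**: the `a`-component of the transfer is the cochain
corestriction from `H_a` to `H` (with the retraction `Δ.rr a`) of the twisted cochain. -/
theorem shlCorA₂_eq (a : W) [(Δ.Ha a).FiniteIndex] (hK : ∃ M ∈ LH.S, M ≤ Δ.Ha a)
    (x : hc_C2 (shapLevSub LH (Δ.Ha a)) ((ρT.comp U.subtype).comp (Δ.th a))) :
    shlCorA₂ LH Δ ρT hopen a x =
      hc_map2 LH (shapSigma (Δ.Ha a) (ρT.comp ι)) (shapSigma_equivariant (Δ.Ha a) (ρT.comp ι))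
        (shapJL₂ LH (Δ.Ha a) ((ρT.comp ι).comp (Δ.Ha a).subtype) (Δ.rr a) (Δ.rr_mul a) hK
          (shlTw₂ LH Δ ρT a x)) := by
  apply Subtype.ext
  funext y
  rw [shlCorA₂_apply, hc_map2_coe, hc_map2_coe]
  refine shl_sigma_transfer Δ ρT a _ _ (fun x' hx' => ?_) (fun x' hx' => ?_)
  · subst hx'
    show shlPsi₂ Δ (ρT.comp U.subtype) (fun b z1 z2 =>
        ((Pi.single (Δ.w x') x : ∀ b, hc_C2 (shapLevSub LH (Δ.Ha b))
          ((ρT.comp U.subtype).comp (Δ.th b))) b : Δ.Ha b × Δ.Ha b → T) (z1, z2)) y.1 y.2 x' =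
      ρT ((Δ.uu x' : G) * Δ.g (Δ.w x')) (shapJ₂ (Δ.rr (Δ.w x'))
        ((ρT.comp ι).comp (Δ.Ha (Δ.w x')).subtype)
        (fun u v => (shlTw₂ LH Δ ρT (Δ.w x') x).1 (u, v)) y.1 y.2 (Δ.hh x'))
    simp only [shlPsi₂, shapJ₂, shapTinv₂, shapC₂, Pi.single_eq_same]
    generalize ((Δ.rr (Δ.w x') (Δ.hh x'))⁻¹ * Δ.rr (Δ.w x') (Δ.hh x' * y.1),
      (Δ.rr (Δ.w x') (Δ.hh x' * y.1))⁻¹ * Δ.rr (Δ.w x') (Δ.hh x' * y.1 * y.2)) = p
    generalize Δ.rr (Δ.w x') (Δ.hh x') = κ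
    show ρT (Δ.uu x' : G) (ρT ((Δ.th (Δ.w x') κ : U) : G) (x.1 p)) =
      ρT ((Δ.uu x' : G) * Δ.g (Δ.w x')) (ρT (ι (κ : H)) (ρT (Δ.g (Δ.w x'))⁻¹ (x.1 p)))
    rw [← Module.End.mul_apply, ← map_mul, ← Module.End.mul_apply, ← Module.End.mul_apply,
      ← map_mul, ← map_mul, ShlDec.th_coe]
    congr 2
    simp [mul_assoc]
  · show shlPsi₂ Δ (ρT.comp U.subtype) (fun b z1 z2 =>
        ((Pi.single a x : ∀ b, hc_C2 (shapLevSub LH (Δ.Ha b))
          ((ρT.comp U.subtype).comp (Δ.th b))) b : Δ.Ha b × Δ.Ha b → T) (z1, z2)) y.1 y.2 x' = 0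
    simp only [shlPsi₂, shapJ₂, shapTinv₂, shapC₂, Pi.single_eq_of_ne hx']
    simp

/-- **Mackey, on the nose (degree 1)**. -/
theorem shlCorA₁_eq (a : W) [(Δ.Ha a).FiniteIndex] (hK : ∃ M ∈ LH.S, M ≤ Δ.Ha a)
    (x : hc_C1 (shapLevSub LH (Δ.Ha a)) ((ρT.comp U.subtype).comp (Δ.th a))) :
    shlCorA₁ LH Δ ρT hopen a x =
      hc_map1 LH (shapSigma (Δ.Ha a) (ρT.comp ι)) (shapSigma_equivariant (Δ.Ha a) (ρT.comp ι))
        (shapJL₁ LH (Δ.Ha a) ((ρT.comp ι).comp (Δ.Ha a).subtype) (Δ.rr a) (Δ.rr_mul a) hK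
          (shlTw₁ LH Δ ρT a x)) := by
  apply Subtype.ext
  funext y
  rw [shlCorA₁_apply, hc_map1_coe, hc_map1_coe]
  refine shl_sigma_transfer Δ ρT a _ _ (fun x' hx' => ?_) (fun x' hx' => ?_)
  · subst hx'
    show shlPsi₁ Δ (ρT.comp U.subtype) (fun b =>
        ((Pi.single (Δ.w x') x : ∀ b, hc_C1 (shapLevSub LH (Δ.Ha b))
          ((ρT.comp U.subtype).comp (Δ.th b))) b : Δ.Ha b → T)) y x' =
      ρT ((Δ.uu x' : G) * Δ.g (Δ.w x')) (shapJ₁ (Δ.rr (Δ.w x'))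
        ((ρT.comp ι).comp (Δ.Ha (Δ.w x')).subtype)
        (shlTw₁ LH Δ ρT (Δ.w x') x).1 y (Δ.hh x'))
    simp only [shlPsi₁, shapJ₁, shapTinv₁, shapC₁, Pi.single_eq_same]
    generalize (Δ.rr (Δ.w x') (Δ.hh x'))⁻¹ * Δ.rr (Δ.w x') (Δ.hh x' * y) = p
    generalize Δ.rr (Δ.w x') (Δ.hh x') = κ
    show ρT (Δ.uu x' : G) (ρT ((Δ.th (Δ.w x') κ : U) : G) (x.1 p)) =
      ρT ((Δ.uu x' : G) * Δ.g (Δ.w x')) (ρT (ι (κ : H)) (ρT (Δ.g (Δ.w x'))⁻¹ (x.1 p)))
    rw [← Module.End.mul_apply, ← map_mul, ← Module.End.mul_apply, ← Module.End.mul_apply,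
      ← map_mul, ← map_mul, ShlDec.th_coe]
    congr 2
    simp [mul_assoc]
  · show shlPsi₁ Δ (ρT.comp U.subtype) (fun b =>
        ((Pi.single a x : ∀ b, hc_C1 (shapLevSub LH (Δ.Ha b))
          ((ρT.comp U.subtype).comp (Δ.th b))) b : Δ.Ha b → T)) y x' = 0
    simp only [shlPsi₁, shapJ₁, shapTinv₁, shapC₁, Pi.single_eq_of_ne hx']
    simp

/-- the components of the transfer map cocycles to cocycles. -/
theorem shlCorA₂_cocycle (a : W)
    (x : hc_C2 (shapLevSub LH (Δ.Ha a)) ((ρT.comp U.subtype).comp (Δ.th a)))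
    (hx : hc_d23 _ _ x = 0) : hc_d23 _ _ (shlCorA₂ LH Δ ρT hopen a x) = 0 := by
  rw [shlCorA₂_apply, ← hc_map3_d23]
  have h := shlP_psi2_cocycle (shlLP LH Δ (ρT.comp U.subtype) hopen) (Pi.single a x)
    (fun b => by
      by_cases hb : b = a
      · subst hb; simpa using hx
      · simp [Pi.single_eq_of_ne hb])
  rw [shlLP_psi2] at h
  rw [h, map_zero]

/-- the components of the transfer preserve fixed levels (`M` normal, inside all `H_a`; e.g.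
`M` = inertia at an unramified place). -/
theorem shlCorA₂_isLev (M : Subgroup H) [M.Normal] (hM : ∀ a, M ≤ Δ.Ha a) (a : W)
    (x : hc_C2 (shapLevSub LH (Δ.Ha a)) ((ρT.comp U.subtype).comp (Δ.th a)))
    (hx : hc_IsLev2 ((ρT.comp U.subtype).comp (Δ.th a)) (M.subgroupOf (Δ.Ha a))
      (x : Δ.Ha a × Δ.Ha a → T)) :
    hc_IsLev2 (ρT.comp ι) M (shlCorA₂ LH Δ ρT hopen a x : H × H → T) := by
  rw [shlCorA₂_apply]
  refine hc_isLev2_map (shl_sigma_equivariant ρT) ?_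
  refine shlPsiL₂_isLev Δ (ρT.comp U.subtype) LH hopen M hM _ (fun b => ?_)
  by_cases hb : b = a
  · subst hb; simpa using hx
  · rw [Pi.single_eq_of_ne hb]
    exact ⟨fun _ _ _ _ _ _ => rfl, fun _ => hc_isLev0_zero _⟩

/-- the components of the transfer preserve fixed levels, degree 1. -/
theorem shlCorA₁_isLev (M : Subgroup H) [M.Normal] (hM : ∀ a, M ≤ Δ.Ha a) (a : W)
    (x : hc_C1 (shapLevSub LH (Δ.Ha a)) ((ρT.comp U.subtype).comp (Δ.th a)))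
    (hx : hc_IsLev1 ((ρT.comp U.subtype).comp (Δ.th a)) (M.subgroupOf (Δ.Ha a))
      (x : Δ.Ha a → T)) :
    hc_IsLev1 (ρT.comp ι) M (shlCorA₁ LH Δ ρT hopen a x : H → T) := by
  rw [shlCorA₁_apply]
  refine hc_isLev1_map (shl_sigma_equivariant ρT) ?_
  refine shlPsiL₁_isLev Δ (ρT.comp U.subtype) LH hopen M hM _ (fun b => ?_)
  by_cases hb : b = a
  · subst hb; simpa using hx
  · rw [Pi.single_eq_of_ne hb]
    exact ⟨fun _ _ _ => rfl, fun _ => hc_isLev0_zero _⟩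

/-- `Σ^U_* ∘ ψ₂` is the sum of the components. -/
theorem shl_sigma_psi₂_eq_sum [Fintype W]
    (c : ∀ a, hc_C2 (shapLevSub LH (Δ.Ha a)) ((ρT.comp U.subtype).comp (Δ.th a))) :
    hc_map2 LH (shapSigma U ρT) (shl_sigma_equivariant ρT)
        (shlPsiL₂ Δ (ρT.comp U.subtype) LH hopen c) =
      ∑ a, shlCorA₂ LH Δ ρT hopen a (c a) := by
  conv_lhs => rw [← Finset.univ_sum_single c]
  rw [map_sum, map_sum]
  rfl

/-- `Σ^U_* ∘ ψ₁` is the sum of the components. -/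
theorem shl_sigma_psi₁_eq_sum [Fintype W]
    (c : ∀ a, hc_C1 (shapLevSub LH (Δ.Ha a)) ((ρT.comp U.subtype).comp (Δ.th a))) :
    hc_map1 LH (shapSigma U ρT) (shl_sigma_equivariant ρT)
        (shlPsiL₁ Δ (ρT.comp U.subtype) LH hopen c) =
      ∑ a, shlCorA₁ LH Δ ρT hopen a (c a) := by
  conv_lhs => rw [← Finset.univ_sum_single c]
  rw [map_sum, map_sum]
  rfl

end cor

end Fermat.Agent.S55
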