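import Mathlib
import Fermat.Agent.S55.ShapLocCor
import Fermat.Agent.S55.ShapCone
import Fermat.Agent.S55.TrIs
import Fermat.Agent.S55.EvOut

/-!
# S55, block SHAP-L / TRU: the `U`-level outside data and local functionals

For a subgroup `U ≤ G` and double coset data at the places of the cone (`Δ v`) and at the
outside places (`ΔO w`):

* the outside data of `U` is `ev_outU O U ΔO` of `EvOut.lean`;
* `shl_hDU`: the local groups of `shapLocU D U Δ` are compatible with `shapLevSub Linf U`;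
* `shlLam inv p`, `shlLamW invW p`: the transferred local functionals
  `inv_v ∘ Σ_* ∘ ψ₂ ∘ single a` at the places `p = (v, a)` of `U`.
-/

set_option autoImplicit false
set_option linter.unusedSectionVars false
set_option linter.unusedVariables false

namespace Fermat.Agent.S55

universe u v w v' w'

section hD

variable {G : Type u} [Group G] {L Linf : hc_Lev G} (D : hc_Loc.{u, v, w} L)
  (hD : ∀ v, hc_LevCompat (D.Lv v) Linf (D.ι v)) (U : Subgroup G)
  {W : D.V → Type w} (Δ : ∀ v, ShlDec (D.ι v) U (W v))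

include hD in
/-- the local groups of `U` are compatible with the finer level structure. -/
theorem shl_hDU (p : (shapLocU D U Δ).V) :
    hc_LevCompat ((shapLocU D U Δ).Lv p) (shapLevSub Linf U) ((shapLocU D U Δ).ι p) :=
  shl_th_compat (Δ p.1) (hD p.1) p.2

end hD

section lam

variable {k : Type*} [CommRing k] {G : Type u} [Group G] {L Linf : hc_Lev G}
  (D : hc_Loc.{u, v, w} L) (O : tr_Out.{u, v', w'} L Linf)
  (U : Subgroup G) [U.FiniteIndex]
  {W : D.V → Type w} (Δ : ∀ v, ShlDec (D.ι v) U (W v))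
  {WO : O.W → Type w'} (ΔO : ∀ w, ShlDec (O.ι w) U (WO w))
  {T : Type*} [AddCommGroup T] [Module k T] (ρT : Representation k G T)
  [∀ v, Finite (W v)] [∀ v, DecidableEq (W v)] [∀ w, Finite (WO w)] [∀ w, DecidableEq (WO w)]
  (hopen : ∀ v, ∃ M₀ ∈ (D.Lv v).S, ∀ a, M₀ ≤ (Δ v).Ha a)
  (hopenO : ∀ w, ∃ M₀ ∈ (O.LW w).S, ∀ a, M₀ ≤ (ΔO w).Ha a)

/-- the transferred local functionals at the places `(v, a)` of `U`:
`inv_v ∘ Σ_* ∘ ψ₂ ∘ single a`. -/
noncomputable def shlLam (inv : ∀ v : D.V, hc_C2 (D.Lv v) (ρT.comp (D.ι v)) →ₗ[k] k)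
    (p : (shapLocU D U Δ).V) :
    hc_C2 ((shapLocU D U Δ).Lv p) ((ρT.comp U.subtype).comp ((shapLocU D U Δ).ι p)) →ₗ[k] k :=
  (inv p.1).comp (shlCorA₂ (D.Lv p.1) (Δ p.1) ρT (hopen p.1) p.2)

/-- the transferred local functionals at the outside places `(w, a)` of `U`. -/
noncomputable def shlLamW (invW : ∀ w : O.W, hc_C2 (O.LW w) (ρT.comp (O.ι w)) →ₗ[k] k)
    (p : (ev_outU O U ΔO).W) :
    hc_C2 ((ev_outU O U ΔO).LW p) ((ρT.comp U.subtype).comp ((ev_outU O U ΔO).ι p)) →ₗ[k] k :=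
  (invW p.1).comp (shlCorA₂ (O.LW p.1) (ΔO p.1) ρT (hopenO p.1) p.2)

theorem shlLam_apply (inv : ∀ v : D.V, hc_C2 (D.Lv v) (ρT.comp (D.ι v)) →ₗ[k] k)
    (v : D.V) (a : W v)
    (x : hc_C2 (shapLevSub (D.Lv v) ((Δ v).Ha a)) ((ρT.comp U.subtype).comp ((Δ v).th a))) :
    shlLam D U Δ ρT hopen inv ⟨v, a⟩ x = inv v (shlCorA₂ (D.Lv v) (Δ v) ρT (hopen v) a x) := rfl

theorem shlLamW_apply (invW : ∀ w : O.W, hc_C2 (O.LW w) (ρT.comp (O.ι w)) →ₗ[k] k)
    (w : O.W) (a : WO w)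
    (x : hc_C2 (shapLevSub (O.LW w) ((ΔO w).Ha a)) ((ρT.comp U.subtype).comp ((ΔO w).th a))) :
    shlLamW O U ΔO ρT hopenO invW ⟨w, a⟩ x =
      invW w (shlCorA₂ (O.LW w) (ΔO w) ρT (hopenO w) a x) := rfl

end lam

end Fermat.Agent.S55
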