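import Fermat.Agent.S55.TrInst

/-!
# S55: group forms of the finiteness and normality of the inertia data of `tri_out`

* `tri_I_normal` : the inertia subgroup `tri_I q` of the local Galois group is normal;
* `tri_out_I_normal` : the same for the inertia groups of `tri_out S`;
* `tri_hfinN` : every finite level is unramified at almost all outside places (group form of
  the finiteness condition `fin` of `tri_inv`).
-/

set_option autoImplicit false

open ExtCitation

open scoped Pointwise

namespace Fermat.Agent.S55

local notation "Qb" => AlgebraicClosure ℚ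
local notation "Γ" => (AlgebraicClosure ℚ ≃ₐ[ℚ] AlgebraicClosure ℚ)

/-- The inertia subgroup of the local Galois group at `q` is normal. -/
theorem tri_I_normal (q : Nat.Primes) : (tri_I q).Normal := by
  have : Fact (q : ℕ).Prime := ⟨q.2⟩
  refine ⟨fun s hs g => ?_⟩
  show primeLocalToGlobal q (g * s * g⁻¹) ∈ (primeLocalPlace q).inertiaSubgroupIn ℚ
  rw [map_mul, map_mul, map_inv]
  have h1 := pt_inertia_conj (primeLocalPlace q) (primeLocalToGlobal q g)
    (primeLocalToGlobal q s) hs
  have h2 : primeLocalToGlobal q g • primeLocalPlace q = primeLocalPlace q :=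
    MulAction.mem_stabilizer_iff.mp (localGaloisToGlobal_mem_decompositionSubgroup (q : ℕ) g)
  rwa [h2] at h1

/-- The inertia groups of the outside data of S55 are normal. -/
theorem tri_out_I_normal (S : Finset Nat.Primes) (w : (tri_out S).W) :
    ((tri_out S).I w).Normal :=
  tri_I_normal w.1

/-- Every finite level is unramified at almost all outside places. -/
theorem tri_hfinN (S : Finset Nat.Primes)
    (hfin : ∀ F : IntermediateField ℚ Qb, FiniteDimensional ℚ F →
      ∃ T : Finset Nat.Primes, F.IsUnramifiedOutside T) :
    ∀ M ∈ tr_fullLev.S,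
      {w : (tri_out S).W | ¬ (tri_out S).I w ≤ M.comap ((tri_out S).ι w)}.Finite := by
  classical
  intro M hM
  obtain ⟨K, hK, -, rfl⟩ := hM
  obtain ⟨T, hT⟩ := hfin K hK
  have hinj : Function.Injective (fun w : {q : Nat.Primes // q ∉ S} => w.1) :=
    Subtype.val_injective
  refine Set.Finite.subset (Set.Finite.preimage hinj.injOn T.finite_toSet) ?_
  intro w hw
  by_contra hwT
  exact hw (tri_I_le T w.1 hwT K hT)

end Fermat.Agent.S55
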