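import Fermat.Agent.S55.TrLc3U
import Fermat.Agent.S55.TrFin
import Fermat.Agent.S55.LocKumBi
import Fermat.Agent.S55.ShapLocOut
import Fermat.Agent.S55.EvFormal
import Fermat.Agent.S55.IfaceBase

/-!
# S55 final assembly: the local leaves at the `U`-level

For `U = Gal(ℚ̄/k)` (`k ∋ ζ_p`), the local data `shapLocU (pt_loc S) U Δ`, the outside data
`ev_outU (tri_out S) U ΔO` and the transferred local invariants `shlLam`, `shlLamW` of an
arithmetic package `A : tri_Arith p` with `[LC3]` (`tri_LC3 A`):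

* `fin_hL_sub` : finer level structures stay finer on a subgroup;
* `fin_hLC3` : `[LC3]` at the places of `shapLocU` (the hypothesis `hLC3` of `bi_inputs`);
* `fin_LC6` : `[LC6']` at the outside places: `ψ` ramified, `χ0 ≠ 0` unramified cocycles
  ⇒ `λ_w (ψ ∪ χ0) ≠ 0`.
-/

set_option autoImplicit false

open ExtCitation IsDedekindDomain NumberField

namespace Fermat.Agent.S55

local notation "Qb" => AlgebraicClosure ℚ
local notation "Γ" => (AlgebraicClosure ℚ ≃ₐ[ℚ] AlgebraicClosure ℚ)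

/-- Finer level structures stay finer on a subgroup. -/
theorem fin_hL_sub {G : Type} [Group G] {L Linf : hc_Lev G}
    (hL : ∀ N ∈ L.S, ∃ N' ∈ Linf.S, N' ≤ N) (U : Subgroup G) :
    ∀ N ∈ (shapLevSub L U).S, ∃ N' ∈ (shapLevSub Linf U).S, N' ≤ N := by
  rintro _ ⟨N, hN, rfl⟩
  obtain ⟨N', hN', hle⟩ := hL N hN
  exact ⟨N'.subgroupOf U, ⟨N', hN', rfl⟩, fun x hx => hle hx⟩

section

variable {p : ℕ} [Fact p.Prime]

/-- `[LC3]` at the places of the `U`-level local data, for the transferred local invariants. -/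
theorem fin_hLC3 (S : Finset Nat.Primes) (hpS : pPrime p ∈ S) (A : tri_Arith p)
    (hA : tri_LC3 A)
    (hfin : ∀ F : IntermediateField ℚ Qb, FiniteDimensional ℚ F →
      ∃ T : Finset Nat.Primes, F.IsUnramifiedOutside T)
    (U : Subgroup Γ) [U.FiniteIndex] (hUχ : U ≤ (cycloChar p).ker)
    {W : (pt_loc S).V → Type} [∀ v, Finite (W v)] [∀ v, DecidableEq (W v)]
    (Δ : ∀ v, ShlDec ((pt_loc S).ι v) U (W v))
    (hopen : ∀ v, ∃ M₀ ∈ ((pt_loc S).Lv v).S, ∀ a, M₀ ≤ (Δ v).Ha a)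
    (v : (shapLocU (pt_loc S) U Δ).V)
    (x : hc_C2 ((shapLocU (pt_loc S) U Δ).Lv v)
      ((idual_rhoN (cycloChar p) U).comp ((shapLocU (pt_loc S) U Δ).ι v)))
    (hx : hc_d23 ((shapLocU (pt_loc S) U Δ).Lv v)
      ((idual_rhoN (cycloChar p) U).comp ((shapLocU (pt_loc S) U Δ).ι v)) x = 0)
    (h0 : shlLam (pt_loc S) U Δ (dual_rhoT (cycloChar p)) hopen
      (tri_inv S hpS A hfin).inv v x = 0) :
    x ∈ LinearMap.range (hc_d12 ((shapLocU (pt_loc S) U Δ).Lv v)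
      ((idual_rhoN (cycloChar p) U).comp ((shapLocU (pt_loc S) U Δ).ι v))) := by
  obtain ⟨v, a⟩ := v
  exact tri_LC3_U A hA v.1 U hUχ (Δ v) (hopen v) a x hx h0

/-- **[LC6']** at the outside places of the `U`-level data: for the transferred outside
invariants, `ψ` ramified, `χ0 ≠ 0` unramified cocycles ⇒ `λ_w (ψ ∪ χ0) ≠ 0`. -/
theorem fin_LC6 (hp2 : p ≠ 2) (S : Finset Nat.Primes) (hpS : pPrime p ∈ S)
    (A : tri_Arith p) (hA : tri_LC3 A)
    (hfin : ∀ F : IntermediateField ℚ Qb, FiniteDimensional ℚ F →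
      ∃ T : Finset Nat.Primes, F.IsUnramifiedOutside T)
    (k : IntermediateField ℚ Qb) [FiniteDimensional ℚ k] {ζ : Qb} (hζ : IsPrimitiveRoot ζ p)
    (hζk : ζ ∈ k) (hUχ : k.fixingSubgroup ≤ (cycloChar p).ker) [k.fixingSubgroup.FiniteIndex]
    {WO : (tri_out S).W → Type} [∀ w, Finite (WO w)] [∀ w, DecidableEq (WO w)]
    (ΔO : ∀ w, ShlDec ((tri_out S).ι w) k.fixingSubgroup (WO w))
    (hopenO : ∀ w, ∃ M₀ ∈ ((tri_out S).LW w).S, ∀ a, M₀ ≤ (ΔO w).Ha a)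
    (w0 : (ev_outU (tri_out S) k.fixingSubgroup ΔO).W)
    (ψ χ0 : hc_C1 ((ev_outU (tri_out S) k.fixingSubgroup ΔO).LW w0)
      ((Representation.trivial (ZMod p) ↥k.fixingSubgroup (ZMod p)).comp
        ((ev_outU (tri_out S) k.fixingSubgroup ΔO).ι w0)))
    (hψ : hc_d12 ((ev_outU (tri_out S) k.fixingSubgroup ΔO).LW w0)
      ((Representation.trivial (ZMod p) ↥k.fixingSubgroup (ZMod p)).comp
        ((ev_outU (tri_out S) k.fixingSubgroup ΔO).ι w0)) ψ = 0)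
    (hχ : hc_d12 ((ev_outU (tri_out S) k.fixingSubgroup ΔO).LW w0)
      ((Representation.trivial (ZMod p) ↥k.fixingSubgroup (ZMod p)).comp
        ((ev_outU (tri_out S) k.fixingSubgroup ΔO).ι w0)) χ0 = 0)
    (hψI : ∃ s ∈ (ev_outU (tri_out S) k.fixingSubgroup ΔO).I w0,
      (ψ : (ev_outU (tri_out S) k.fixingSubgroup ΔO).H w0 → ZMod p) s ≠ 0)
    (hχI : ∀ s ∈ (ev_outU (tri_out S) k.fixingSubgroup ΔO).I w0,
      (χ0 : (ev_outU (tri_out S) k.fixingSubgroup ΔO).H w0 → ZMod p) s = 0)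
    (hne : χ0 ≠ 0) :
    shlLamW (tri_out S) k.fixingSubgroup ΔO (dual_rhoT (cycloChar p)) hopenO
        (tri_inv S hpS A hfin).invW w0
      (hc_cup11 ((ev_outU (tri_out S) k.fixingSubgroup ΔO).LW w0)
        (ev_hφ_comp (pt_hφ_triv (cycloChar p) k.fixingSubgroup hUχ)
          ((ev_outU (tri_out S) k.fixingSubgroup ΔO).ι w0)) ψ χ0) ≠ 0 := by
  obtain ⟨w, a⟩ := w0
  have hpq : p ≠ ((w.1 : Nat.Primes) : ℕ) := by
    intro h
    exact w.2 ((Subtype.ext h : pPrime p = w.1) ▸ hpS)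
  have hρT : ∀ (g : ↥((ΔO w).Ha a)) (c : ZMod p),
      ((idual_rhoN (cycloChar p) k.fixingSubgroup).comp ((ΔO w).th a)) g c = c := by
    intro g c
    show idual_rhoN (cycloChar p) k.fixingSubgroup ((ΔO w).th a g) c = c
    rw [pt_rhoN_eq_trivial (cycloChar p) k.fixingSubgroup hUχ]
    rfl
  have hnot := lkc_cup11_tame_prime p hp2 w.1 hpq k hζ hζk (ΔO w) a
    ((Representation.trivial (ZMod p) ↥k.fixingSubgroup (ZMod p)).comp ((ΔO w).th a))
    ((idual_rhoN (cycloChar p) k.fixingSubgroup).comp ((ΔO w).th a))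
    (fun g c => rfl) hρT
    (ev_hφ_comp (pt_hφ_triv (cycloChar p) k.fixingSubgroup hUχ) ((ΔO w).th a))
    ((tri_I w.1).subgroupOf ((ΔO w).Ha a)) ψ χ0 hψ hχ hψI hχI hne
  intro h0
  apply hnot
  refine tri_LC3_U A hA w.1 k.fixingSubgroup hUχ (ΔO w) (hopenO w) a _ ?_ h0
  exact ev_cup11_cocycle _ ψ χ0 hψ hχ

end

end Fermat.Agent.S55
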