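/-
S55, block TR input (FIN): a finite extension of `ℚ` inside `ℚ̄` is unramified outside a finite
set of primes, in the Prelude's model (inertia subgroups of valuation subrings of `ℚ̄`).

* `fin_exists_int_multiple` : a nonzero algebraic integer divides a nonzero rational integer.
* `fin_exists_disc`         : for an algebraic integer `α` there is a nonzero integer `N`
                              divisible (in `ℤ̄`) by every nonzero `σ α - α`.
* `fin_exists_unramifiedOutside` : `∃ T : Finset Nat.Primes, F.IsUnramifiedOutside T`.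
* `fin_finite_ramified` : for `F` finite over `ℚ`, the set of primes `q` at which some inertia
                          group does not fix `F` is finite.
-/
import Mathlib
import Fermat.Agent.S55.Places2

set_option autoImplicit false

open scoped Pointwise

namespace Fermat.Agent.S55

noncomputable section

local notation "Qb" => AlgebraicClosure ℚ
local notation "Γ" => (AlgebraicClosure ℚ ≃ₐ[ℚ] AlgebraicClosure ℚ)
local notation "Zb" => integralClosure ℤ (AlgebraicClosure ℚ)

open Fermat.Agent.S54 Fermat.Agent.S14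

attribute [local instance] qbar_isAlgebraic qbar_isAlgClosure qbar_isGalois

/-- A nonzero algebraic integer divides a nonzero rational integer in `ℤ̄`. -/
theorem fin_exists_int_multiple (γ : Qb) (hγ : IsIntegral ℤ γ) (h0 : γ ≠ 0) :
    ∃ c : ℤ, c ≠ 0 ∧ ∃ h : Qb, IsIntegral ℤ h ∧ (c : Qb) = γ * h := by
  set P := minpoly ℤ γ with hP
  have hPQ : minpoly ℚ γ = P.map (algebraMap ℤ ℚ) :=
    minpoly.isIntegrallyClosed_eq_field_fractions' ℚ hγ
  have hc0 : P.coeff 0 ≠ 0 := by
    intro h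
    have h1 := minpoly.coeff_zero_ne_zero (A := ℚ) hγ.tower_top h0
    rw [hPQ, Polynomial.coeff_map, h, map_zero] at h1
    exact h1 rfl
  refine ⟨P.coeff 0, hc0, -(Polynomial.aeval γ P.divX), ?_, ?_⟩
  · apply IsIntegral.neg
    have h1 : Polynomial.aeval γ P.divX =
        ((Polynomial.aeval (⟨γ, hγ⟩ : Zb) P.divX : Zb) : Qb) :=
      (Polynomial.aeval_subalgebra_coe P.divX (integralClosure ℤ Qb) ⟨γ, hγ⟩).symm
    rw [h1]
    exact (Polynomial.aeval (⟨γ, hγ⟩ : Zb) P.divX).2
  · have h1 : Polynomial.aeval γ P = 0 := minpoly.aeval ℤ γ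
    have h2 : P = P.divX * Polynomial.X + Polynomial.C (P.coeff 0) :=
      (Polynomial.divX_mul_X_add P).symm
    rw [h2, map_add, map_mul, Polynomial.aeval_X, Polynomial.aeval_C] at h1
    have h3 : algebraMap ℤ Qb (P.coeff 0) = ((P.coeff 0 : ℤ) : Qb) := by
      rw [eq_intCast]
    rw [h3] at h1
    linear_combination h1

/-- For an algebraic integer `α` there is a nonzero integer divisible in `ℤ̄` by every nonzero
difference `σ α - α`. -/
theorem fin_exists_disc (α : Qb) (hα : IsIntegral ℤ α) :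
    ∃ N : ℤ, N ≠ 0 ∧ ∀ σ : Γ, σ α ≠ α → ∃ h : Qb, IsIntegral ℤ h ∧ (N : Qb) = (σ α - α) * h := by
  classical
  have hRfin : ((minpoly ℚ α).rootSet Qb).Finite := Polynomial.rootSet_finite _ _
  set D : Finset Qb := (hRfin.toFinset.image (fun β => β - α)).erase 0 with hD
  -- a choice of integer multiple for each element
  have hch : ∀ γ : Qb, ∃ c : ℤ, c ≠ 0 ∧ (IsIntegral ℤ γ → γ ≠ 0 →
      ∃ h : Qb, IsIntegral ℤ h ∧ (c : Qb) = γ * h) := by
    intro γ
    by_cases h : IsIntegral ℤ γ ∧ γ ≠ 0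
    · obtain ⟨c, hc, hh⟩ := fin_exists_int_multiple γ h.1 h.2
      exact ⟨c, hc, fun _ _ => hh⟩
    · exact ⟨1, one_ne_zero, fun h1 h2 => absurd ⟨h1, h2⟩ h⟩
  choose c hc0 hc using hch
  refine ⟨∏ γ ∈ D, c γ, Finset.prod_ne_zero_iff.2 (fun γ _ => hc0 γ), fun σ hσ => ?_⟩
  have hσα : IsIntegral ℤ (σ α) := map_isIntegral_int σ hα
  have hγint : IsIntegral ℤ (σ α - α) := hσα.sub hα
  have hγ0 : σ α - α ≠ 0 := sub_ne_zero.2 hσ
  have hmem : σ α - α ∈ D := by
    rw [hD, Finset.mem_erase]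
    refine ⟨hγ0, Finset.mem_image.2 ⟨σ α, ?_, rfl⟩⟩
    rw [Set.Finite.mem_toFinset, Polynomial.mem_rootSet]
    refine ⟨minpoly.ne_zero hα.tower_top, ?_⟩
    rw [Polynomial.aeval_algEquiv, AlgHom.comp_apply, minpoly.aeval, map_zero]
  obtain ⟨h, hh, hch⟩ := hc (σ α - α) hγint hγ0
  refine ⟨h * ((∏ γ ∈ D.erase (σ α - α), c γ : ℤ) : Qb), hh.mul ?_, ?_⟩
  · have h1 : IsIntegral ℤ (algebraMap ℤ Qb (∏ γ ∈ D.erase (σ α - α), c γ)) :=
      isIntegral_algebraMap
    rwa [eq_intCast] at h1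
  · rw [← Finset.mul_prod_erase D c hmem, Int.cast_mul, hch]
    ring

/-- Finite-family version of `fin_exists_disc`. -/
theorem fin_exists_disc_family {ι : Type*} [Fintype ι] (α : ι → Qb) (hα : ∀ i, IsIntegral ℤ (α i)) :
    ∃ N : ℤ, N ≠ 0 ∧ ∀ (i : ι) (σ : Γ), σ (α i) ≠ α i →
      ∃ h : Qb, IsIntegral ℤ h ∧ (N : Qb) = (σ (α i) - α i) * h := by
  classical
  choose N hN0 hN using fun i => fin_exists_disc (α i) (hα i)
  refine ⟨∏ i, N i, Finset.prod_ne_zero_iff.2 (fun i _ => hN0 i), fun i σ hσ => ?_⟩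
  obtain ⟨h, hh, hNi⟩ := hN i σ hσ
  refine ⟨h * ((∏ j ∈ Finset.univ.erase i, N j : ℤ) : Qb), hh.mul ?_, ?_⟩
  · have h1 : IsIntegral ℤ (algebraMap ℤ Qb (∏ j ∈ Finset.univ.erase i, N j)) :=
      isIntegral_algebraMap
    rwa [eq_intCast] at h1
  · rw [← Finset.mul_prod_erase Finset.univ N (Finset.mem_univ i), Int.cast_mul, hNi]
    ring

/-- **(FIN-core)**: a finite extension of `ℚ` in `ℚ̄` is unramified outside a finite set. -/
theorem fin_exists_unramifiedOutside (F : IntermediateField ℚ Qb) [FiniteDimensional ℚ F] :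
    ∃ T : Finset Nat.Primes, F.IsUnramifiedOutside T := by
  classical
  set b := Module.finBasis ℚ F with hb
  -- integral multiples of the basis vectors
  have hm : ∀ i, ∃ m : ℤ, m ≠ 0 ∧ IsIntegral ℤ (m • ((b i : F) : Qb)) := fun i =>
    ((IsFractionRing.isAlgebraic_iff ℤ ℚ Qb).mpr
      (Algebra.IsAlgebraic.isAlgebraic ((b i : F) : Qb))).exists_integral_multiple
  choose m hm0 hmint using hm
  obtain ⟨N, hN0, hN⟩ := fin_exists_disc_family (fun i => m i • ((b i : F) : Qb)) hmint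
  refine ⟨(N.natAbs.primeFactors).subtype Nat.Prime, inferInstance, fun q hq A hA σ hσ => ?_⟩
  obtain ⟨hσA, hσres⟩ := (pt_mem_inertia_iff A σ).1 hσ
  -- σ fixes every basis vector
  have hfix : ∀ i, σ ((b i : F) : Qb) = ((b i : F) : Qb) := by
    intro i
    by_contra hne
    have hne' : σ (m i • ((b i : F) : Qb)) ≠ m i • ((b i : F) : Qb) := by
      intro h
      apply hne
      rw [map_zsmul] at h
      have hm' : ((m i : ℤ) : Qb) ≠ 0 := Int.cast_ne_zero.2 (hm0 i)
      rw [zsmul_eq_mul, zsmul_eq_mul] at h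
      exact mul_left_cancel₀ hm' h
    obtain ⟨h, hh, hNh⟩ := hN i σ hne'
    have hαA : m i • ((b i : F) : Qb) ∈ A := zbar_mem A ⟨_, hmint i⟩
    have h1 : σ (m i • ((b i : F) : Qb)) - m i • ((b i : F) : Qb) ∈ A.nonunits :=
      hσres _ hαA
    have h2 : (N : Qb) ∈ A.nonunits := by
      rw [hNh, mul_comm]
      exact val_mul_lt_one A (zbar_mem A ⟨h, hh⟩) h1
    have h3 : ((q : ℕ) : ℤ) ∣ N := (pl_intCast_mem_nonunits_iff q q.2 A hA N).1 h2
    apply hq
    refine (Finset.mem_subtype (p := Nat.Prime) (s := N.natAbs.primeFactors) (a := q)).2 ?_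
    exact Nat.mem_primeFactors.2 ⟨q.2, Int.natCast_dvd.1 h3, Int.natAbs_ne_zero.2 hN0⟩
  rw [IntermediateField.mem_fixingSubgroup_iff]
  intro x hx
  have hlin : (σ.toLinearMap.comp F.val.toLinearMap : F →ₗ[ℚ] Qb) = F.val.toLinearMap := by
    apply b.ext
    intro i
    exact hfix i
  exact congrArg (fun f : F →ₗ[ℚ] Qb => f ⟨x, hx⟩) hlin

/-- The set of primes at which some inertia group moves `F` is finite. -/
theorem fin_finite_ramified (F : IntermediateField ℚ Qb) [FiniteDimensional ℚ F] :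
    {q : Nat.Primes | ∃ A : ValuationSubring Qb, A.LiesOverPrime (q : ℕ) ∧
      ¬ A.inertiaSubgroupIn ℚ ≤ F.fixingSubgroup}.Finite := by
  obtain ⟨T, hT⟩ := fin_exists_unramifiedOutside F
  refine T.finite_toSet.subset ?_
  rintro q ⟨A, hA, hnot⟩
  by_contra hq
  exact hnot (hT.2 q hq A hA)

end

end Fermat.Agent.S55
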