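/-
S55 block FINRAM (roster v2): every finite extension of `ℚ` inside `AlgebraicClosure ℚ` is
unramified outside a finite set of primes.  The proof is `fin_exists_unramifiedOutside`
(`FinUnram.lean`); this file only provides the roster name `finram_exists`.
-/
import Fermat.Agent.S55.FinUnram

namespace Fermat.Agent.S55

theorem finram_exists (F : IntermediateField ℚ (AlgebraicClosure ℚ)) [FiniteDimensional ℚ F] :
    ∃ T : Finset Nat.Primes, F.IsUnramifiedOutside T :=
  fin_exists_unramifiedOutside F

end Fermat.Agent.S55
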