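import Fermat.Agent.S55.KumCount

set_option autoImplicit false

/-!
# S55 block [G1]/SHA2: consequences of the Kummer count

* `kum_exists_val_eq_one` : elements of `V_S` are `p`-th powers up to units at every `w ∉ S`.
* `kum_dep` : any `ρ + 1` divisors mod `p` outside `S` are dependent modulo principal divisors
  (`ρ = kumRho K p S`), i.e. `dim Cl_S / p ≤ ρ`.
* `kumAbove K S` : the primes of `K` above a finite set of rational primes.
-/

namespace Fermat.Agent.S55

open IsDedekindDomain NumberField WithZero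

variable (K : Type*) [Field K] [NumberField K]

/-- Elements of `V_S` are `p`-th powers up to units at every prime outside `S`. -/
theorem kum_exists_val_eq_one (p : ℕ) (S : Finset (HeightOneSpectrum (𝓞 K))) (a : Kˣ)
    (ha : a ∈ kumV K p S) (w : HeightOneSpectrum (𝓞 K)) (hw : w ∉ S) :
    ∃ c : K, w.valuation K ((a : K) * c ^ p) = 1 := by
  obtain ⟨k, hk⟩ := ha w hw
  obtain ⟨ϖ, hϖ⟩ := w.valuation_exists_uniformizer K
  have hϖ0 : ϖ ≠ 0 := by
    intro h
    rw [h, map_zero] at hϖ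
    exact exp_ne_zero hϖ.symm
  set π : Kˣ := Units.mk0 ϖ hϖ0 with hπ
  refine ⟨((π ^ k : Kˣ) : K), ?_⟩
  have h1 : (a : K) * ((π ^ k : Kˣ) : K) ^ p = ((a * (π ^ k) ^ p : Kˣ) : K) := by
    push_cast
    rfl
  rw [h1]
  apply (suOrd_eq_zero_iff K w _).mp
  have h2 : Additive.ofMul (a * (π ^ k) ^ p) =
      Additive.ofMul a + p • (k • Additive.ofMul π) := rfl
  have h3 : suOrd K w (Additive.ofMul π) = -1 := by
    rw [suOrd_apply]
    change log (w.valuation K ϖ) = -1
    rw [hϖ, log_exp]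
  have h4 : suOrd K w (Additive.ofMul a) = (p : ℤ) * k := hk
  rw [h2, map_add, map_nsmul, map_zsmul, h3, h4]
  simp only [smul_eq_mul, nsmul_eq_mul]
  ring

/-- `N + 1` elements of a `ZMod p`-module of order `p ^ N` are dependent. -/
theorem kum_dep_zmod {M : Type*} [AddCommGroup M] (p : ℕ) [hp : Fact p.Prime]
    [Module (ZMod p) M] (N : ℕ) (hN : Nat.card M = p ^ N) (x : Fin (N + 1) → M) :
    ∃ n : Fin (N + 1) → ZMod p, n ≠ 0 ∧ ∑ i, ((n i).cast : ℤ) • x i = 0 := by
  have hfin : Finite M :=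
    Nat.finite_of_card_ne_zero (by rw [hN]; exact pow_ne_zero _ hp.out.ne_zero)
  have hfr : Module.finrank (ZMod p) M = N := by
    have h1 : Nat.card M = Nat.card (ZMod p) ^ Module.finrank (ZMod p) M :=
      Module.natCard_eq_pow_finrank
    rw [hN, Nat.card_zmod] at h1
    exact (Nat.pow_right_injective hp.out.two_le h1).symm
  have hnot : ¬ LinearIndependent (ZMod p) x := by
    intro h
    have := h.fintype_card_le_finrank
    rw [Fintype.card_fin, hfr] at this
    omega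
  obtain ⟨g, hg, i, hi⟩ := Fintype.not_linearIndependent_iff.mp hnot
  refine ⟨g, fun h => hi (by rw [h]; rfl), ?_⟩
  rw [← hg]
  refine Finset.sum_congr rfl (fun i _ => ?_)
  rw [← Int.cast_smul_eq_zsmul (ZMod p), ZMod.intCast_cast, ZMod.cast_id', id_eq]

/-- `N + 1` elements of a group are dependent modulo a subgroup of index `p ^ N` containing
all multiples of `p`. -/
theorem kum_dep_quot {G : Type*} [AddCommGroup G] (p : ℕ) [hp : Fact p.Prime]
    (H : AddSubgroup G) (hH : ∀ x : G, p • x ∈ H) (N : ℕ) (hN : H.index = p ^ N)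
    (x : Fin (N + 1) → G) :
    ∃ n : Fin (N + 1) → ZMod p, n ≠ 0 ∧ ∑ i, ((n i).cast : ℤ) • x i ∈ H := by
  obtain ⟨n, hn, h⟩ := @kum_dep_zmod (G ⧸ H) _ p _ (QuotientAddGroup.zmodModule hH) N hN
    (fun i => QuotientAddGroup.mk (x i))
  refine ⟨n, hn, ?_⟩
  apply (QuotientAddGroup.eq_zero_iff _).mp
  rw [QuotientAddGroup.mk_sum, ← h]
  refine Finset.sum_congr rfl (fun i _ => ?_)
  rw [QuotientAddGroup.mk_zsmul]

/-- **`dim Cl_S / p ≤ ρ`**: any `ρ + 1` divisors mod `p` (finitely supported `ZMod p`-valued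
functions on the primes) are dependent modulo principal divisors, outside `S`. -/
theorem kum_dep (p : ℕ) [hp : Fact p.Prime] {ζ : K} (hζ : IsPrimitiveRoot ζ p)
    (S : Finset (HeightOneSpectrum (𝓞 K)))
    (D : Fin (kumRho K p S + 1) → HeightOneSpectrum (𝓞 K) → ZMod p)
    (hD : ∀ i, {w | D i w ≠ 0}.Finite) :
    ∃ n : Fin (kumRho K p S + 1) → ZMod p, n ≠ 0 ∧ ∃ α : Kˣ,
      ∀ w : HeightOneSpectrum (𝓞 K), w ∉ S →
        ∃ m : ℤ, w.valuation K (α : K) = exp (-m) ∧ ∑ i, n i * D i w = (m : ZMod p) := by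
  classical
  obtain ⟨S', hSS', hPID⟩ := su_exists_pid K S
  set T := S' \ S with hT
  -- integer lifts
  let Dt : Fin (kumRho K p S + 1) → HeightOneSpectrum (𝓞 K) → ℤ := fun i w => ((D i w).cast : ℤ)
  have hDt : ∀ i w, ((Dt i w : ℤ) : ZMod p) = D i w := by
    intro i w
    change (((D i w).cast : ℤ) : ZMod p) = D i w
    rw [ZMod.intCast_cast, ZMod.cast_id', id_eq]
  have hfin : ∀ i, (Function.support (fun w => -(Dt i w))).Finite := by
    intro i
    refine (hD i).subset ?_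
    intro w hw h0
    apply hw
    change -(((D i w).cast : ℤ)) = 0
    rw [h0, ZMod.cast_zero, neg_zero]
  choose b hb using fun i => kum_exists_ord hPID _ (hfin i)
  let f : Fin (kumRho K p S + 1) → (T → ℤ) :=
    fun i w => Dt i w.1 + suOrd K w.1 (Additive.ofMul (b i))
  set E' := Subgroup.toAddSubgroup ((S' : Set (HeightOneSpectrum (𝓞 K))).unit K) with hE'
  set H := (E'.map (kumOrd K T)) ⊔ (nsmulAddMonoidHom p : (T → ℤ) →+ (T → ℤ)).range with hH'
  have hH : ∀ x : T → ℤ, p • x ∈ H := fun x => AddSubgroup.mem_sup_right ⟨x, rfl⟩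
  have hidx : H.index = p ^ kumRho K p S := kum_index_sup K p hp.out hζ S S' hSS' hPID
  obtain ⟨n, hn, hmem⟩ := kum_dep_quot p H hH (kumRho K p S) hidx f
  refine ⟨n, hn, ?_⟩
  obtain ⟨y, hy, z, hz, hyz⟩ := AddSubgroup.mem_sup.mp hmem
  obtain ⟨u, hu, rfl⟩ := hy
  obtain ⟨g, rfl⟩ := hz
  let nt : Fin (kumRho K p S + 1) → ℤ := fun i => ((n i).cast : ℤ)
  have hnt : ∀ i, ((nt i : ℤ) : ZMod p) = n i := by
    intro i
    change (((n i).cast : ℤ) : ZMod p) = n i
    rw [ZMod.intCast_cast, ZMod.cast_id', id_eq]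
  have hsu : ∀ w : HeightOneSpectrum (𝓞 K),
      suOrd K w (Additive.ofMul ((Additive.toMul u)⁻¹ * ∏ i, b i ^ nt i)) =
        -suOrd K w u + ∑ i, nt i * suOrd K w (Additive.ofMul (b i)) := by
    intro w
    have h1 : Additive.ofMul ((Additive.toMul u)⁻¹ * ∏ i, b i ^ nt i) =
        -u + ∑ i, nt i • Additive.ofMul (b i) := by
      rw [ofMul_mul, ofMul_prod]
      rfl
    rw [h1, map_add, map_neg, map_sum]
    congr 1
    refine Finset.sum_congr rfl (fun i _ => ?_)
    rw [map_zsmul, smul_eq_mul]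
  refine ⟨(Additive.toMul u)⁻¹ * ∏ i, b i ^ nt i, ?_⟩
  intro w hw
  refine ⟨-suOrd K w (Additive.ofMul ((Additive.toMul u)⁻¹ * ∏ i, b i ^ nt i)), ?_, ?_⟩
  · rw [neg_neg, suOrd_apply, exp_log]
    exact (Valuation.ne_zero_iff _).mpr (Units.ne_zero _)
  · rw [hsu w]
    by_cases hwS' : w ∈ S'
    · have hwT : w ∈ T := Finset.mem_sdiff.mpr ⟨hwS', hw⟩
      have h1 := congrFun hyz ⟨w, hwT⟩
      have h2 : suOrd K w u + (p : ℤ) * g ⟨w, hwT⟩ =
          ∑ i, nt i * (Dt i w + suOrd K w (Additive.ofMul (b i))) := by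
        have e1 : (kumOrd K T u + (nsmulAddMonoidHom p : (T → ℤ) →+ (T → ℤ)) g) ⟨w, hwT⟩ =
            suOrd K w u + (p : ℤ) * g ⟨w, hwT⟩ := by
          change suOrd K w u + (p • g) ⟨w, hwT⟩ = _
          rw [Pi.smul_apply, nsmul_eq_mul]
        have e2 : (∑ i, ((n i).cast : ℤ) • f i) ⟨w, hwT⟩ =
            ∑ i, nt i * (Dt i w + suOrd K w (Additive.ofMul (b i))) := by
          rw [Finset.sum_apply]
          rfl
        rw [← e1, ← e2, h1]
      have h3 : -(-suOrd K w u + ∑ i, nt i * suOrd K w (Additive.ofMul (b i))) =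
          ∑ i, nt i * Dt i w - (p : ℤ) * g ⟨w, hwT⟩ := by
        have e3 : ∑ i, nt i * (Dt i w + suOrd K w (Additive.ofMul (b i))) =
            ∑ i, nt i * Dt i w + ∑ i, nt i * suOrd K w (Additive.ofMul (b i)) := by
          rw [← Finset.sum_add_distrib]
          refine Finset.sum_congr rfl (fun i _ => ?_)
          ring
        rw [e3] at h2
        linarith
      rw [h3]
      push_cast
      rw [ZMod.natCast_self, zero_mul, sub_zero]
      refine Finset.sum_congr rfl (fun i _ => ?_)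
      rw [hnt, hDt]
    · have hu0 : suOrd K w u = 0 := by
        have := hu w hwS'
        exact (suOrd_eq_zero_iff K w (Additive.toMul u)).mpr this
      have h3 : -(-suOrd K w u + ∑ i, nt i * suOrd K w (Additive.ofMul (b i))) =
          ∑ i, nt i * Dt i w := by
        rw [hu0, neg_zero, zero_add, ← Finset.sum_neg_distrib]
        refine Finset.sum_congr rfl (fun i _ => ?_)
        rw [hb i w hwS']
        ring
      rw [h3]
      push_cast
      refine Finset.sum_congr rfl (fun i _ => ?_)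
      rw [hnt, hDt]

/-- The primes of `K` above a finite set of rational primes form a finite set. -/
theorem kum_finite_above (S : Finset Nat.Primes) :
    {w : HeightOneSpectrum (𝓞 K) | ∃ q ∈ S, (((q : ℕ) : ℕ) : 𝓞 K) ∈ w.asIdeal}.Finite := by
  have h : {w : HeightOneSpectrum (𝓞 K) | ∃ q ∈ S, (((q : ℕ) : ℕ) : 𝓞 K) ∈ w.asIdeal} =
      ⋃ q ∈ (S : Set Nat.Primes), {w : HeightOneSpectrum (𝓞 K) |
        (((q : ℕ) : ℕ) : 𝓞 K) ∈ w.asIdeal} := by
    ext w
    simp
  rw [h]
  refine Set.Finite.biUnion S.finite_toSet (fun q _ => ?_)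
  have hq0 : (((q : ℕ) : ℕ) : 𝓞 K) ≠ 0 := Nat.cast_ne_zero.mpr q.2.ne_zero
  have hI : Ideal.span {(((q : ℕ) : ℕ) : 𝓞 K)} ≠ 0 := by
    rw [Ne, Ideal.zero_eq_bot, Ideal.span_singleton_eq_bot]
    exact hq0
  refine (Ideal.finite_factors hI).subset ?_
  intro w hw
  change w.asIdeal ∣ Ideal.span {(((q : ℕ) : ℕ) : 𝓞 K)}
  rw [Ideal.dvd_iff_le, Ideal.span_singleton_le_iff_mem]
  exact hw

/-- The primes of `K` above a finite set of rational primes. -/
noncomputable def kumAbove (S : Finset Nat.Primes) : Finset (HeightOneSpectrum (𝓞 K)) :=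
  (kum_finite_above K S).toFinset

theorem mem_kumAbove (S : Finset Nat.Primes) (w : HeightOneSpectrum (𝓞 K)) :
    w ∈ kumAbove K S ↔ ∃ q ∈ S, (((q : ℕ) : ℕ) : 𝓞 K) ∈ w.asIdeal := by
  rw [kumAbove, Set.Finite.mem_toFinset]
  rfl

theorem notMem_kumAbove (S : Finset Nat.Primes) (w : HeightOneSpectrum (𝓞 K)) :
    w ∉ kumAbove K S ↔ ∀ q : Nat.Primes, q ∈ S → (((q : ℕ) : ℕ) : 𝓞 K) ∉ w.asIdeal := by
  rw [mem_kumAbove]
  constructor
  · intro h q hq hmem
    exact h ⟨q, hq, hmem⟩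
  · rintro h ⟨q, hq, hmem⟩
    exact h q hq hmem

end Fermat.Agent.S55
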