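import Fermat.Agent.S55.KumChar
import Fermat.Agent.S55.KumDep
import Fermat.Agent.S55.ShapLevel
import Fermat.Agent.S55.IfaceHc

/-!
# S55 block [G1]: the Kummer classes as level 1-cocycles

For a number field `k ⊂ ℚ̄` unramified outside `S ∋ p`, containing `ζ_p`, the Kummer characters of
a `p`-independent family of `m + ρ` elements of `V_S(k)` (`KumCount.lean`) give an injective linear
map from `F_p^(m+ρ)` into the level 1-cocycles of `k.fixingSubgroup` modulo coboundaries
(`kum_G1`): the inputs `hf`, `hf0` of the abstract count.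
-/

set_option autoImplicit false

open ExtCitation IsDedekindDomain NumberField

namespace Fermat.Agent.S55

local notation "Qb" => AlgebraicClosure ℚ
local notation "Γ" => (AlgebraicClosure ℚ ≃ₐ[ℚ] AlgebraicClosure ℚ)

attribute [local instance] pt_qbar_isAlgebraic pt_qbar_isAlgClosure pt_qbar_isGalois

section

variable {p : ℕ} [Fact p.Prime] {ζ : Qb} {k : IntermediateField ℚ Qb}

theorem kum_char_one (hζ : IsPrimitiveRoot ζ p) (hζk : ζ ∈ k) (σ : ↥k.fixingSubgroup) :
    kum_char p ζ k 1 σ = 0 := by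
  have h := kum_char_mul_left hζ hζk 1 1 σ
  rw [mul_one] at h
  exact left_eq_add.mp h

theorem kum_char_pow (hζ : IsPrimitiveRoot ζ p) (hζk : ζ ∈ k) (a : kˣ) (n : ℕ)
    (σ : ↥k.fixingSubgroup) :
    kum_char p ζ k (a ^ n) σ = (n : ZMod p) * kum_char p ζ k a σ := by
  induction n with
  | zero => rw [pow_zero, kum_char_one hζ hζk, Nat.cast_zero, zero_mul]
  | succ n ih =>
    rw [pow_succ, kum_char_mul_left hζ hζk, ih]
    push_cast
    ring

theorem kum_char_prod_pow (hζ : IsPrimitiveRoot ζ p) (hζk : ζ ∈ k) {ι : Type*}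
    (s : Finset ι) (a : ι → kˣ) (n : ι → ℕ) (σ : ↥k.fixingSubgroup) :
    kum_char p ζ k (∏ i ∈ s, a i ^ n i) σ = ∑ i ∈ s, (n i : ZMod p) * kum_char p ζ k (a i) σ := by
  classical
  induction s using Finset.induction_on with
  | empty => rw [Finset.prod_empty, Finset.sum_empty, kum_char_one hζ hζk]
  | insert i s hi ih =>
    rw [Finset.prod_insert hi, Finset.sum_insert hi, kum_char_mul_left hζ hζk,
      kum_char_pow hζ hζk, ih]

end

/-- **[G1]**: `m + ρ` independent Kummer classes at level `S`. -/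
theorem kum_G1 (p : ℕ) [Fact p.Prime] (S : Finset Nat.Primes) (hpS : pPrime p ∈ S)
    (k : IntermediateField ℚ Qb) [NumberField k] (hk : k.IsUnramifiedOutside S) {ζ : Qb}
    (hζ : IsPrimitiveRoot ζ p) (hζk : ζ ∈ k) :
    ∃ f : (Fin ((kumAbove ↥k S).card + NumberField.Units.rank ↥k + 1 +
        kumRho ↥k p (kumAbove ↥k S)) → ZMod p) →ₗ[ZMod p]
        hc_C1 (shapLevSub (pt_globalLev S) k.fixingSubgroup)
          (Representation.trivial (ZMod p) ↥k.fixingSubgroup (ZMod p)),
      (∀ v, hc_d12 _ _ (f v) = 0) ∧ (∀ v, f v ∈ LinearMap.range (hc_d01 _ _) → v = 0) := by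
  classical
  -- the primitive root in `k`
  have hζ' : IsPrimitiveRoot (⟨ζ, hζk⟩ : ↥k) p :=
    IsPrimitiveRoot.of_map_of_injective (f := algebraMap ↥k Qb) hζ
      (FaithfulSMul.algebraMap_injective ↥k Qb)
  set N := (kumAbove ↥k S).card + NumberField.Units.rank ↥k + 1 +
    kumRho ↥k p (kumAbove ↥k S) with hN
  obtain ⟨a, ha1, ha2⟩ := kum_exists_indep ↥k p hζ' (kumAbove ↥k S)
  set ρ := Representation.trivial (ZMod p) ↥k.fixingSubgroup (ZMod p) with hρ
  set L := shapLevSub (pt_globalLev S) k.fixingSubgroup with hL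
  -- the Kummer characters are level cochains
  have hmem : ∀ i, kum_char p ζ k (a i) ∈ hc_C1 L ρ := by
    intro i
    obtain ⟨K, hK, hKg, hKinv⟩ := kum_char_level (ζ := ζ) S hpS hk (a i)
      (fun v hv => kum_exists_val_eq_one ↥k p (kumAbove ↥k S) (a i) (ha1 i) v
        ((notMem_kumAbove ↥k S v).mpr hv))
    refine ⟨K.fixingSubgroup.subgroupOf k.fixingSubgroup,
      shap_mem_levSub (pt_mem_globalLevels S K hK hKg), ?_, ?_⟩
    · intro g s hs
      exact hKinv g s (Subgroup.mem_subgroupOf.mp hs)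
    · intro x s _
      rfl
  let χ : Fin N → hc_C1 L ρ := fun i => ⟨kum_char p ζ k (a i), hmem i⟩
  let f : (Fin N → ZMod p) →ₗ[ZMod p] hc_C1 L ρ := Fintype.linearCombination (ZMod p) χ
  have hf : ∀ (v : Fin N → ZMod p) (σ : ↥k.fixingSubgroup),
      (f v : ↥k.fixingSubgroup → ZMod p) σ = ∑ i, v i * kum_char p ζ k (a i) σ := by
    intro v σ
    change ((Fintype.linearCombination (ZMod p) χ v : hc_C1 L ρ) : ↥k.fixingSubgroup → ZMod p) σ
      = _
    rw [Fintype.linearCombination_apply, Submodule.coe_sum, Finset.sum_apply]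
    rfl
  refine ⟨f, ?_, ?_⟩
  · intro v
    apply Subtype.ext
    funext ⟨g, h⟩
    rw [hc_d12_coe, hc_d12f_apply]
    change (f v : ↥k.fixingSubgroup → ZMod p) h - (f v : ↥k.fixingSubgroup → ZMod p) (g * h)
      + (f v : ↥k.fixingSubgroup → ZMod p) g = 0
    rw [hf, hf, hf, ← Finset.sum_sub_distrib, ← Finset.sum_add_distrib]
    refine Finset.sum_eq_zero (fun i _ => ?_)
    rw [kum_char_mul hζ hζk]
    ring
  · rintro v ⟨m, hm⟩
    -- `f v = 0` as a function
    have h0 : ∀ σ : ↥k.fixingSubgroup, (f v : ↥k.fixingSubgroup → ZMod p) σ = 0 := by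
      intro σ
      rw [← hm, hc_d01_coe, hc_d01f_apply]
      change (m : ZMod p) - (m : ZMod p) = 0
      exact sub_self _
    -- the product of powers is a `p`-th power
    have h1 : ∀ σ : ↥k.fixingSubgroup,
        kum_char p ζ k (∏ i, a i ^ (v i).val) σ = 0 := by
      intro σ
      rw [kum_char_prod_pow hζ hζk, ← h0 σ, hf]
      refine Finset.sum_congr rfl (fun i _ => ?_)
      rw [ZMod.natCast_zmod_val]
    have h2 := (kum_char_eq_zero_iff hζ hζk _).mp h1
    have h3 := ha2 (fun i => ((v i).val : ℤ)) (by simpa only [zpow_natCast] using h2)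
    funext i
    have h4 := h3 i
    have h5 : ((v i).val : ZMod p) = 0 := by
      rw [ZMod.natCast_eq_zero_iff]
      exact_mod_cast h4
    rw [ZMod.natCast_zmod_val] at h5
    exact h5

end Fermat.Agent.S55
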