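import Fermat.Agent.S55.ShapGlob
import Fermat.Agent.S55.ShapPair

/-!
# S55, block LC3: corestriction on level cochains (formal cochain algebra)

`H` a leveled group (`LH : hc_Lev H`), `K ≤ H` a subgroup of finite index containing a level,
`ρ` a representation of `H` on `N`, `r : H → K` a `K`-equivariant retraction.  The corestriction

`lc3_cor : hc_C2 (shapLevSub LH K) (ρ.comp K.subtype) →ₗ[k] hc_C2 LH ρ`

is *literally* the composite `(shapSigma)_* ∘ shapJL₂` (`lc3_cor_apply`).  We prove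

* (A1) `lc3_cor_d12`, `lc3_cor_cocycle`: compatibility with the differentials;
* (A2) `lc3_cor_res`: `cor (res y) = [H : K] • y + d t` for 2-cocycles `y`;
* (A3) `lc3_cor_natural`: naturality in the coefficients (additive equivariant maps, the base
  rings may differ).
-/

set_option autoImplicit false

namespace Fermat.Agent.S55

section lc3

variable {k : Type*} [CommRing k] {H : Type*} [Group H] (LH : hc_Lev H) (K : Subgroup H)
  [K.FiniteIndex] {N : Type*} [AddCommGroup N] [Module k N] (ρ : Representation k H N)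
  (r : H → K) (hr : ∀ (u : K) (x : H), r ((u : H) * x) = u * r x)
  (hK : ∃ M ∈ LH.S, M ≤ K)

/-- corestriction on level 1-cochains: `Σ_* ∘ j`. -/
noncomputable def lc3_cor1 : hc_C1 (shapLevSub LH K) (ρ.comp K.subtype) →ₗ[k] hc_C1 LH ρ :=
  (hc_map1 LH (shapSigma K ρ) (shapSigma_equivariant K ρ)).comp
    (shapJL₁ LH K (ρ.comp K.subtype) r hr hK)

/-- corestriction on level 2-cochains: `Σ_* ∘ j`. -/
noncomputable def lc3_cor : hc_C2 (shapLevSub LH K) (ρ.comp K.subtype) →ₗ[k] hc_C2 LH ρ :=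
  (hc_map2 LH (shapSigma K ρ) (shapSigma_equivariant K ρ)).comp
    (shapJL₂ LH K (ρ.comp K.subtype) r hr hK)

/-- corestriction on level 3-cochains: `Σ_* ∘ j`. -/
noncomputable def lc3_cor3 : hc_C3 (shapLevSub LH K) (ρ.comp K.subtype) →ₗ[k] hc_C3 LH ρ :=
  (hc_map3 LH (shapSigma K ρ) (shapSigma_equivariant K ρ)).comp
    (shapJL₃ LH K (ρ.comp K.subtype) r hr hK)

theorem lc3_cor1_apply (c : hc_C1 (shapLevSub LH K) (ρ.comp K.subtype)) :
    lc3_cor1 LH K ρ r hr hK c =
      hc_map1 LH (shapSigma K ρ) (shapSigma_equivariant K ρ)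
        (shapJL₁ LH K (ρ.comp K.subtype) r hr hK c) := rfl

theorem lc3_cor_apply (c : hc_C2 (shapLevSub LH K) (ρ.comp K.subtype)) :
    lc3_cor LH K ρ r hr hK c =
      hc_map2 LH (shapSigma K ρ) (shapSigma_equivariant K ρ)
        (shapJL₂ LH K (ρ.comp K.subtype) r hr hK c) := rfl

theorem lc3_cor3_apply (c : hc_C3 (shapLevSub LH K) (ρ.comp K.subtype)) :
    lc3_cor3 LH K ρ r hr hK c =
      hc_map3 LH (shapSigma K ρ) (shapSigma_equivariant K ρ)
        (shapJL₃ LH K (ρ.comp K.subtype) r hr hK c) := rfl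

/-- explicit formula for the corestriction of a 2-cochain. -/
theorem lc3_cor_val (c : hc_C2 (shapLevSub LH K) (ρ.comp K.subtype)) (g h : H) :
    (lc3_cor LH K ρ r hr hK c).1 (g, h) =
      ∑ᶠ q : H ⧸ K, ρ q.out (ρ (r q.out⁻¹ : H)
        (c.1 ((r q.out⁻¹)⁻¹ * r (q.out⁻¹ * g), (r (q.out⁻¹ * g))⁻¹ * r (q.out⁻¹ * g * h)))) := by
  rw [lc3_cor_apply]
  show shapSigma K ρ ((shapJL₂ LH K (ρ.comp K.subtype) r hr hK c).1 (g, h)) = _
  rw [shapSigma_eq_sum_out]
  rfl

/-- explicit formula for the corestriction of a 1-cochain. -/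
theorem lc3_cor1_val (c : hc_C1 (shapLevSub LH K) (ρ.comp K.subtype)) (g : H) :
    (lc3_cor1 LH K ρ r hr hK c).1 g =
      ∑ᶠ q : H ⧸ K, ρ q.out (ρ (r q.out⁻¹ : H)
        (c.1 ((r q.out⁻¹)⁻¹ * r (q.out⁻¹ * g)))) := by
  rw [lc3_cor1_apply]
  show shapSigma K ρ ((shapJL₁ LH K (ρ.comp K.subtype) r hr hK c).1 g) = _
  rw [shapSigma_eq_sum_out]
  rfl

/-! ### (A1) compatibility with the differentials -/

/-- `cor` commutes with `d : C¹ → C²`. -/
theorem lc3_cor_d12 (c : hc_C1 (shapLevSub LH K) (ρ.comp K.subtype)) :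
    lc3_cor LH K ρ r hr hK (hc_d12 _ _ c) = hc_d12 LH ρ (lc3_cor1 LH K ρ r hr hK c) := by
  rw [lc3_cor_apply, lc3_cor1_apply, ← shapJL_d12, hc_map2_d12]

/-- `cor` commutes with `d : C² → C³`. -/
theorem lc3_cor_d23 (c : hc_C2 (shapLevSub LH K) (ρ.comp K.subtype)) :
    lc3_cor3 LH K ρ r hr hK (hc_d23 _ _ c) = hc_d23 LH ρ (lc3_cor LH K ρ r hr hK c) := by
  rw [lc3_cor3_apply, lc3_cor_apply, ← shapJL_d23, hc_map3_d23]

/-- `cor` maps 2-cocycles to 2-cocycles. -/
theorem lc3_cor_cocycle (x : hc_C2 (shapLevSub LH K) (ρ.comp K.subtype))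
    (hx : hc_d23 _ _ x = 0) : hc_d23 LH ρ (lc3_cor LH K ρ r hr hK x) = 0 := by
  rw [← lc3_cor_d23, hx, map_zero]

/-- `cor` maps 2-coboundaries to 2-coboundaries. -/
theorem lc3_cor_coboundary (x : hc_C2 (shapLevSub LH K) (ρ.comp K.subtype))
    (hx : ∃ c, hc_d12 _ _ c = x) : ∃ t, hc_d12 LH ρ t = lc3_cor LH K ρ r hr hK x := by
  obtain ⟨c, rfl⟩ := hx
  exact ⟨lc3_cor1 LH K ρ r hr hK c, (lc3_cor_d12 LH K ρ r hr hK c).symm⟩

/-! ### (A2) `cor ∘ res = index` on cohomology -/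

/-- the diagonal embedding `N → Coind_K^H (N|K)`, `n ↦ (x ↦ ρ x n)`. -/
def lc3_delta : N →ₗ[k] Representation.coindV K.subtype (ρ.comp K.subtype) where
  toFun n := ⟨fun x => ρ x n, fun u x => by
    show ρ ((u : H) * x) n = ρ (u : H) (ρ x n)
    rw [map_mul]; rfl⟩
  map_add' a b := Subtype.ext (funext fun x => map_add (ρ x) a b)
  map_smul' c a := Subtype.ext (funext fun x => map_smul (ρ x) c a)

omit [K.FiniteIndex] in
theorem lc3_delta_val (n : N) (x : H) : (lc3_delta K ρ n).1 x = ρ x n := rfl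

omit [K.FiniteIndex] in
theorem lc3_delta_equivariant (g : H) (n : N) :
    lc3_delta K ρ (ρ g n) =
      Representation.coind K.subtype (ρ.comp K.subtype) g (lc3_delta K ρ n) := by
  apply Subtype.ext
  funext x
  show ρ x (ρ g n) = ρ (x * g) n
  rw [map_mul]; rfl

/-- `Σ_* ∘ δ = [H : K]`. -/
theorem lc3_sigma_delta (n : N) : shapSigma K ρ (lc3_delta K ρ n) = (K.index : k) • n := by
  rw [shapSigma_eq_sum_out]
  have h : ∀ q : H ⧸ K, ρ q.out ((lc3_delta K ρ n).1 q.out⁻¹) = n := fun q => by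
    show ρ q.out (ρ q.out⁻¹ n) = n
    rw [← Module.End.mul_apply, ← map_mul, mul_inv_cancel, map_one]; rfl
  simp only [h]
  let _ : Fintype (H ⧸ K) := Fintype.ofFinite _
  rw [finsum_eq_sum_of_fintype, Finset.sum_const, Finset.card_univ, Subgroup.index_eq_card,
    Nat.card_eq_fintype_card, Nat.cast_smul_eq_nsmul]

/-- (A2) `cor (res y) = [H : K] • y + d t` for level 2-cocycles `y`. -/
theorem lc3_cor_res (h1 : r 1 = 1) (y : hc_C2 LH ρ) (hy : hc_d23 LH ρ y = 0) :
    ∃ t : hc_C1 LH ρ, lc3_cor LH K ρ r hr hK (hc_res2 (shap_levSub_compat LH K) ρ y) =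
      (K.index : k) • y + hc_d12 LH ρ t := by
  set f := hc_map2 LH (lc3_delta K ρ) (lc3_delta_equivariant K ρ) y with hf
  have hfd : hc_d23 LH _ f = 0 := by rw [hf, ← hc_map3_d23, hy, map_zero]
  have hsh : shapShL₂ LH K (ρ.comp K.subtype) f = hc_res2 (shap_levSub_compat LH K) ρ y := by
    apply Subtype.ext
    funext ⟨u, v⟩
    show ρ 1 (y.1 ((u : H), (v : H))) = y.1 ((u : H), (v : H))
    rw [map_one]; rfl
  have hom := shapL_homotopy₂ LH K (ρ.comp K.subtype) r hr hK h1 f hfd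
  have h3 : hc_map2 LH (shapSigma K ρ) (shapSigma_equivariant K ρ) f = (K.index : k) • y := by
    apply Subtype.ext
    funext x
    show shapSigma K ρ (lc3_delta K ρ (y.1 x)) = (K.index : k) • y.1 x
    exact lc3_sigma_delta K ρ _
  have h2 : hc_map2 LH (shapSigma K ρ) (shapSigma_equivariant K ρ) f -
      hc_map2 LH (shapSigma K ρ) (shapSigma_equivariant K ρ)
        (shapJL₂ LH K (ρ.comp K.subtype) r hr hK (shapShL₂ LH K (ρ.comp K.subtype) f)) =
      hc_map2 LH (shapSigma K ρ) (shapSigma_equivariant K ρ)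
        (hc_d12 LH _ (shapEL₂ LH K (ρ.comp K.subtype) r hr hK f)) :=
    ((hc_map2 LH (shapSigma K ρ) (shapSigma_equivariant K ρ)).map_sub f _).symm.trans
      (congrArg _ hom)
  rw [hc_map2_d12, hsh, h3] at h2
  refine ⟨-hc_map1 LH (shapSigma K ρ) (shapSigma_equivariant K ρ)
    (shapEL₂ LH K (ρ.comp K.subtype) r hr hK f), ?_⟩
  rw [lc3_cor_apply, map_neg, ← h2]
  abel

/-! ### (A3) naturality in the coefficients -/

section natural

variable {k' : Type*} [CommRing k'] {N' : Type*} [AddCommGroup N'] [Module k' N']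
  (ρ' : Representation k' H N') (E : N →+ N') (hE : ∀ h n, E (ρ h n) = ρ' h (E n))

include hE in
/-- (A3) naturality of `cor` (degree 2) in the coefficients, for an additive equivariant map
between representations over possibly different rings. -/
theorem lc3_cor_natural (c : hc_C2 (shapLevSub LH K) (ρ.comp K.subtype))
    (c' : hc_C2 (shapLevSub LH K) (ρ'.comp K.subtype)) (hcc' : ∀ x, c'.1 x = E (c.1 x))
    (x : H × H) :
    (lc3_cor LH K ρ' r hr hK c').1 x = E ((lc3_cor LH K ρ r hr hK c).1 x) := by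
  obtain ⟨g, h⟩ := x
  rw [lc3_cor_val, lc3_cor_val, AddMonoidHom.map_finsum E (Set.toFinite _)]
  refine finsum_congr fun q => ?_
  rw [hE, hE, hcc']

include hE in
/-- (A3) naturality of `cor` (degree 1) in the coefficients. -/
theorem lc3_cor1_natural (c : hc_C1 (shapLevSub LH K) (ρ.comp K.subtype))
    (c' : hc_C1 (shapLevSub LH K) (ρ'.comp K.subtype)) (hcc' : ∀ x, c'.1 x = E (c.1 x))
    (x : H) :
    (lc3_cor1 LH K ρ' r hr hK c').1 x = E ((lc3_cor1 LH K ρ r hr hK c).1 x) := by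
  rw [lc3_cor1_val, lc3_cor1_val, AddMonoidHom.map_finsum E (Set.toFinite _)]
  refine finsum_congr fun q => ?_
  rw [hE, hE, hcc']

end natural

end lc3

/-- every subgroup admits an equivariant retraction `r : H → K` with `r 1 = 1`. -/
theorem lc3_exists_retraction {H : Type*} [Group H] (K : Subgroup H) :
    ∃ r : H → K, (∀ (u : K) (x : H), r ((u : H) * x) = u * r x) ∧ r 1 = 1 := by
  obtain ⟨S, hS, h1S⟩ := Subgroup.exists_isComplement_right K (1 : H)
  refine ⟨fun x => (hS.equiv x).1, fun u x => ?_, ?_⟩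
  · show (hS.equiv ((u : H) * x)).1 = u * (hS.equiv x).1
    rw [Subgroup.IsComplement.equiv_mul_left]
  · show (hS.equiv 1).1 = 1
    rw [hS.equiv_one K.one_mem h1S]
    rfl

end Fermat.Agent.S55
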