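import Fermat.Agent.S55.SUnitRank

/-!
# Enlarging `S` so that the ring of `S`-integers is principal

* `suPid K S`: every prime `v ∉ S` has a generator `π ∈ Kˣ` up to primes of `S`
  (`v(π) = exp (-1)`, `v'(π) = 1` for the other `v' ∉ S`).
* `suPid_mono`: monotone in `S`.
* `su_exists_pid`: every finite `S0` is contained in a finite `S` with `suPid K S`.
-/

set_option autoImplicit false

namespace Fermat.Agent.S55

open IsDedekindDomain NumberField

open scoped nonZeroDivisors

section Pid

variable (K : Type*) [Field K] [NumberField K]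

/-- The ring of `S`-integers is principal, in elementwise form. -/
def suPid (S : Finset (HeightOneSpectrum (𝓞 K))) : Prop :=
  ∀ v : HeightOneSpectrum (𝓞 K), v ∉ S → ∃ π : Kˣ,
    v.valuation K (π : K) = WithZero.exp (-1 : ℤ) ∧
    ∀ v' : HeightOneSpectrum (𝓞 K), v' ∉ S → v' ≠ v → v'.valuation K (π : K) = 1

variable {K}

theorem suPid_mono {S S' : Finset (HeightOneSpectrum (𝓞 K))} (h : S ⊆ S') (hS : suPid K S) :
    suPid K S' := by
  intro v hv
  obtain ⟨π, h1, h2⟩ := hS v (fun hmem => hv (h hmem))
  exact ⟨π, h1, fun v' hv' hne => h2 v' (fun hmem => hv' (h hmem)) hne⟩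

/-- The count of a prime in a product of ideals. -/
theorem su_count_mul (w : HeightOneSpectrum (𝓞 K)) {I J : Ideal (𝓞 K)} (hI : I ≠ 0) (hJ : J ≠ 0) :
    (Associates.mk w.asIdeal).count (Associates.mk (I * J)).factors =
      (Associates.mk w.asIdeal).count (Associates.mk I).factors +
        (Associates.mk w.asIdeal).count (Associates.mk J).factors := by
  rw [← Associates.mk_mul_mk]
  exact Associates.count_mul (Associates.mk_ne_zero.mpr hI) (Associates.mk_ne_zero.mpr hJ)
    w.associates_irreducible

variable (K)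

theorem su_exists_pid (S0 : Finset (HeightOneSpectrum (𝓞 K))) :
    ∃ S : Finset (HeightOneSpectrum (𝓞 K)), S0 ⊆ S ∧ suPid K S := by
  classical
  -- integral representatives of the ideal classes
  have hrep : ∀ c : ClassGroup (𝓞 K), ∃ I : (Ideal (𝓞 K))⁰, ClassGroup.mk0 I = c :=
    ClassGroup.mk0_surjective
  choose rep hrep using hrep
  have hrep0 : ∀ c, (rep c : Ideal (𝓞 K)) ≠ 0 := fun c => nonZeroDivisors.coe_ne_zero (rep c)
  let T : ClassGroup (𝓞 K) → Finset (HeightOneSpectrum (𝓞 K)) :=
    fun c => (Ideal.finite_factors (hrep0 c)).toFinset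
  refine ⟨S0 ∪ Finset.univ.biUnion T, Finset.subset_union_left, ?_⟩
  intro v hv
  have hv0 : v.asIdeal ∈ (Ideal (𝓞 K))⁰ := mem_nonZeroDivisors_of_ne_zero v.ne_bot
  set c := ClassGroup.mk0 ⟨v.asIdeal, hv0⟩ with hc
  have hcl : ClassGroup.mk0 ⟨v.asIdeal, hv0⟩ = ClassGroup.mk0 (rep c) := (hrep c).symm
  obtain ⟨x, y, hx, hy, hxy⟩ := ClassGroup.mk0_eq_mk0_iff.mp hcl
  have hxy' : Ideal.span {x} * v.asIdeal = Ideal.span {y} * (rep c : Ideal (𝓞 K)) := hxy
  have hsx : (Ideal.span {x} : Ideal (𝓞 K)) ≠ 0 := by
    rw [Ne, Ideal.zero_eq_bot, Ideal.span_singleton_eq_bot]; exact hx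
  have hsy : (Ideal.span {y} : Ideal (𝓞 K)) ≠ 0 := by
    rw [Ne, Ideal.zero_eq_bot, Ideal.span_singleton_eq_bot]; exact hy
  have hxK : algebraMap (𝓞 K) K x ≠ 0 := by
    rw [Ne, FaithfulSMul.algebraMap_eq_zero_iff]; exact hx
  have hyK : algebraMap (𝓞 K) K y ≠ 0 := by
    rw [Ne, FaithfulSMul.algebraMap_eq_zero_iff]; exact hy
  -- counts at a prime outside `S`
  have hcount : ∀ w : HeightOneSpectrum (𝓞 K), w ∉ S0 ∪ Finset.univ.biUnion T →
      (Associates.mk w.asIdeal).count (Associates.mk (Ideal.span {x})).factors +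
        (Associates.mk w.asIdeal).count (Associates.mk v.asIdeal).factors =
      (Associates.mk w.asIdeal).count (Associates.mk (Ideal.span {y})).factors := by
    intro w hw
    have h1 := su_count_mul w hsx v.ne_bot
    have h2 := su_count_mul w hsy (hrep0 c)
    rw [hxy'] at h1
    have h3 : (Associates.mk w.asIdeal).count (Associates.mk (rep c : Ideal (𝓞 K))).factors = 0 := by
      by_contra hne
      have hne := (Associates.count_ne_zero_iff_dvd (hrep0 c) w.irreducible).mp hne
      apply hw
      rw [Finset.mem_union]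
      right
      rw [Finset.mem_biUnion]
      exact ⟨c, Finset.mem_univ c, (Set.Finite.mem_toFinset _).mpr hne⟩
    rw [h3, add_zero] at h2
    rw [← h1, h2]
  have hval : ∀ w : HeightOneSpectrum (𝓞 K), w.valuation K (algebraMap (𝓞 K) K y / algebraMap (𝓞 K) K x) =
      WithZero.exp ((Associates.mk w.asIdeal).count (Associates.mk (Ideal.span {x})).factors : ℤ) /
        WithZero.exp ((Associates.mk w.asIdeal).count (Associates.mk (Ideal.span {y})).factors : ℤ) := by
    intro w
    rw [map_div₀, HeightOneSpectrum.valuation_of_algebraMap, HeightOneSpectrum.valuation_of_algebraMap,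
      w.intValuation_if_neg hx, w.intValuation_if_neg hy, WithZero.exp_neg, WithZero.exp_neg,
      inv_div_inv]
  refine ⟨Units.mk0 (algebraMap (𝓞 K) K y / algebraMap (𝓞 K) K x) (div_ne_zero hyK hxK), ?_, ?_⟩
  · rw [Units.val_mk0, hval, ← hcount v hv, Associates.count_self v.associates_irreducible,
      ← WithZero.exp_sub]
    congr 1
    push_cast
    ring
  · intro w hw hne
    have hw0 : (Associates.mk w.asIdeal).count (Associates.mk v.asIdeal).factors = 0 :=
      Associates.count_eq_zero_of_ne w.associates_irreducible v.associates_irreducible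
        (fun h => hne (HeightOneSpectrum.ext (Associates.mk_injective h)))
    rw [Units.val_mk0, hval, ← hcount w hw, hw0, add_zero, div_self WithZero.exp_ne_zero]

end Pid

end Fermat.Agent.S55
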