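import Fermat.Agent.S55.SUnitGalois
import Fermat.Agent.S55.SUnitPid

/-!
# Valuation of the norm of a uniformizer at a split prime

`L / K` a Galois extension of number fields, `S` a finite set of primes of `K`, `S_L` the set of
primes of `L` above `S` with `suPid L S_L`.  If `w` is a prime of `L` above `v ∉ S` with trivial
stabiliser, then there is `η ∈ Lˣ` whose norm is a uniformizer at `v` and a unit at all other
primes outside `S`.
-/

set_option autoImplicit false

namespace Fermat.Agent.S55

open IsDedekindDomain NumberField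

section NormVal

variable {K L : Type*} [Field K] [Field L] [NumberField K] [NumberField L] [Algebra K L]
  [IsGalois K L]

/-- The valuation of a norm at a prime of `L` is the product of the valuations at the conjugate
primes. -/
theorem ksi_valuation_norm (w : HeightOneSpectrum (𝓞 L)) (x : L) :
    w.valuation L (algebraMap K L (Algebra.norm K x)) =
      ∏ σ : L ≃ₐ[K] L, (suComap σ w).valuation L x := by
  rw [Algebra.norm_eq_prod_automorphisms, map_prod]
  exact Finset.prod_congr rfl (fun σ _ => su_valuation_algEquiv σ w x)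

theorem ksi_norm_uniformizer (S : Finset (HeightOneSpectrum (𝓞 K)))
    (SL : Finset (HeightOneSpectrum (𝓞 L)))
    (hSL : ∀ w : HeightOneSpectrum (𝓞 L), w ∈ SL ↔ w.under (𝓞 K) ∈ S) (hPIDL : suPid L SL)
    (v : HeightOneSpectrum (𝓞 K)) (hv : v ∉ S) (w : HeightOneSpectrum (𝓞 L))
    (hw : w.under (𝓞 K) = v) (hstab : ∀ σ : L ≃ₐ[K] L, σ ≠ 1 → suComap σ w ≠ w) :
    ∃ η : Lˣ, v.valuation K (Algebra.norm K (η : L)) = WithZero.exp (-1 : ℤ) ∧
      ∀ v' : HeightOneSpectrum (𝓞 K), v' ∉ S → v' ≠ v →
        v'.valuation K (Algebra.norm K (η : L)) = 1 := by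
  classical
  have hwSL : w ∉ SL := fun h => hv (hw ▸ (hSL w).mp h)
  obtain ⟨η, hη1, hη2⟩ := hPIDL w hwSL
  refine ⟨η, ?_, ?_⟩
  · -- the valuation at `w`
    have h1 : w.valuation L (algebraMap K L (Algebra.norm K (η : L))) = WithZero.exp (-1 : ℤ) := by
      rw [ksi_valuation_norm, Finset.prod_eq_single (1 : L ≃ₐ[K] L)]
      · rw [suComap_one, hη1]
      · intro σ _ hσ
        apply hη2 _ _ (hstab σ hσ)
        intro hmem
        rw [hSL, suComap_under, hw] at hmem
        exact hv hmem
      · intro h
        exact absurd (Finset.mem_univ _) h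
    have hlies : w.asIdeal.LiesOver (w.under (𝓞 K)).asIdeal := ⟨rfl⟩
    subst hw
    rw [← HeightOneSpectrum.valuation_liesOver L (w.under (𝓞 K)) w] at h1
    have he0 : (w.under (𝓞 K)).asIdeal.ramificationIdx' w.asIdeal ≠ 0 :=
      Ideal.IsDedekindDomain.ramificationIdx'_ne_zero_of_liesOver w.asIdeal
        (w.under (𝓞 K)).ne_bot
    generalize (w.under (𝓞 K)).asIdeal.ramificationIdx' w.asIdeal = e at h1 he0
    have hc0 : (w.under (𝓞 K)).valuation K (Algebra.norm K (η : L)) ≠ 0 := by
      intro h0
      rw [h0, zero_pow he0] at h1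
      exact WithZero.exp_ne_zero h1.symm
    have h2 := congrArg WithZero.log h1
    rw [WithZero.log_pow, WithZero.log_exp, nsmul_eq_mul] at h2
    generalize hl : WithZero.log ((w.under (𝓞 K)).valuation K (Algebra.norm K (η : L))) = l at h2
    have hdvd : (e : ℤ) ∣ 1 := ⟨-l, by linarith⟩
    have he1 : (e : ℤ) = 1 := Int.eq_one_of_dvd_one (by positivity) hdvd
    rw [he1, one_mul] at h2
    rw [← WithZero.exp_log hc0, hl, h2]
  · intro v' hv' hne
    obtain ⟨w', hw'⟩ := su_exists_under (L := L) v'
    have h1 : w'.valuation L (algebraMap K L (Algebra.norm K (η : L))) = 1 := by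
      rw [ksi_valuation_norm]
      apply Finset.prod_eq_one
      intro σ _
      apply hη2
      · intro hmem
        rw [hSL, suComap_under, hw'] at hmem
        exact hv' hmem
      · intro heq
        have := congrArg (fun u : HeightOneSpectrum (𝓞 L) => u.under (𝓞 K)) heq
        simp only [suComap_under, hw', hw] at this
        exact hne this
    rw [su_valuation_algebraMap_eq_one_iff, hw'] at h1
    exact h1

end NormVal

end Fermat.Agent.S55
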