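import Mathlib

/-!
# Herbrand quotients (abstract form)

For an additive commutative group `A` with two endomorphisms `f`, `g` such that `f ∘ g = 0` and
`g ∘ f = 0`, put `hq f g = [ker f : im g]` (as a natural number, `0` when infinite).  The Herbrand
quotient of `(A, f, g)` is `hq f g / hq g f`.  For a finite cyclic group `G = ⟨σ⟩` acting on `A`,
taking `f = σ - 1` and `g = N` gives `hq f g = |Ĥ⁰(G, A)|` and `hq g f = |H¹(G, A)|`.

Main results:

* `hq_eq_of_finite`: if `A` is finite then `hq f g = hq g f` (Herbrand quotient `1`).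
* `hq_mul_exact`: multiplicativity in short exact sequences (as an unconditional identity in `ℕ`),
  together with the two-out-of-three finiteness statements `hq_ne_zero_of_sub_quot`,
  `hq_quot_ne_zero`, `hq_sub_ne_zero`.
* `hq_eq_of_finite_index`-type corollary `hq_sub_of_finite_quot`.
-/

set_option autoImplicit false

namespace Fermat.Agent.S55

open AddSubgroup

variable {A : Type*} [AddCommGroup A]

/-- `hq f g = [ker f : im g]` (`0` if infinite). -/
noncomputable def hq (f g : A →+ A) : ℕ := g.range.relIndex f.ker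

/-- The analogue of `hq` for the subobject `A'`: `[ker f ∩ A' : g(A')]`. -/
noncomputable def hqSub (f g : A →+ A) (A' : AddSubgroup A) : ℕ :=
  (A'.map g).relIndex (f.ker ⊓ A')

/-- The analogue of `hq` for the quotient `A / A'`: `[f⁻¹(A') : g(A) + A']`. -/
noncomputable def hqQuot (f g : A →+ A) (A' : AddSubgroup A) : ℕ :=
  (g.range ⊔ A').relIndex (A'.comap f)

/-- The defect `[f(A) ∩ A' : f(A')]`. -/
noncomputable def hqK (f : A →+ A) (A' : AddSubgroup A) : ℕ :=
  (A'.map f).relIndex (f.range ⊓ A')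

/-- Auxiliary index `[ker f : g(A) + (ker f ∩ A')]`. -/
noncomputable def hqX (f g : A →+ A) (A' : AddSubgroup A) : ℕ :=
  (g.range ⊔ (f.ker ⊓ A')).relIndex f.ker

/-- Auxiliary index `[ker f ∩ A' : g(A) ∩ A']`. -/
noncomputable def hqY (f g : A →+ A) (A' : AddSubgroup A) : ℕ :=
  (g.range ⊓ A').relIndex (f.ker ⊓ A')

section Identities

variable (f g : A →+ A) (A' : AddSubgroup A)

theorem hq_range_le_ker (hfg : f.comp g = 0) : g.range ≤ f.ker := by
  rintro _ ⟨a, rfl⟩
  rw [AddMonoidHom.mem_ker]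
  exact DFunLike.congr_fun hfg a

/-- `[ker f : im g] = [ker f : g(A) + ker f ∩ A'] · [ker f ∩ A' : g(A) ∩ A']`. -/
theorem hq_eq_hqX_mul_hqY (hfg : f.comp g = 0) : hq f g = hqX f g A' * hqY f g A' := by
  have hle := hq_range_le_ker f g hfg
  have h1 : g.range.relIndex (g.range ⊔ (f.ker ⊓ A')) = hqY f g A' := by
    rw [AddSubgroup.relIndex_sup_left, hqY, ← AddSubgroup.inf_relIndex_right g.range (f.ker ⊓ A'),
      ← inf_assoc, inf_eq_left.mpr hle]
  have h2 := AddSubgroup.relIndex_mul_relIndex g.range (g.range ⊔ (f.ker ⊓ A')) f.ker le_sup_left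
    (sup_le hle inf_le_left)
  rw [hq, ← h2, h1, hqX, mul_comm]

/-- `[ker f ∩ A' : g(A')] = [g(A) ∩ A' : g(A')] · [ker f ∩ A' : g(A) ∩ A']`. -/
theorem hqSub_eq (hfg : f.comp g = 0) (hg : A'.map g ≤ A') :
    hqSub f g A' = hqK g A' * hqY f g A' := by
  have hle := hq_range_le_ker f g hfg
  have h2 := AddSubgroup.relIndex_mul_relIndex (A'.map g) (g.range ⊓ A') (f.ker ⊓ A')
    (le_inf (AddSubgroup.map_le_range g A') hg) (inf_le_inf_right A' hle)
  rw [hqSub, ← h2, hqK, hqY]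

/-- `[f⁻¹(A') : g(A) + A'] = [f(A) ∩ A' : f(A')] · [ker f : g(A) + ker f ∩ A']`. -/
theorem hqQuot_eq (hfg : f.comp g = 0) (hf : A'.map f ≤ A') :
    hqQuot f g A' = hqK f A' * hqX f g A' := by
  have hle := hq_range_le_ker f g hfg
  have hA' : A' ≤ A'.comap f := AddSubgroup.map_le_iff_le_comap.mp hf
  have hker : f.ker ≤ A'.comap f := fun a ha => by
    rw [AddSubgroup.mem_comap, AddMonoidHom.mem_ker.mp ha]
    exact A'.zero_mem
  -- `[f⁻¹(A') : ker f + A'] = [f(A) ∩ A' : f(A')]`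
  have h1 : (A' ⊔ f.ker).relIndex (A'.comap f) = hqK f A' := by
    rw [← AddSubgroup.comap_map_eq, AddSubgroup.relIndex_comap, AddSubgroup.map_comap_eq, hqK]
  -- `[ker f + A' : g(A) + A'] = [ker f : g(A) + ker f ∩ A']`
  have h3 : (g.range ⊔ A').relIndex (A' ⊔ f.ker) = hqX f g A' := by
    have e1 : A' ⊔ f.ker = (g.range ⊔ A') ⊔ f.ker := by
      rw [sup_comm g.range A', sup_assoc, sup_eq_right.mpr hle]
    have e2 : (g.range ⊔ A') ⊓ f.ker = g.range ⊔ (f.ker ⊓ A') := by
      rw [sup_inf_assoc_of_le A' hle, inf_comm]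
    rw [e1, AddSubgroup.relIndex_sup_left, ← AddSubgroup.inf_relIndex_right, e2, hqX]
  have h2 := AddSubgroup.relIndex_mul_relIndex (g.range ⊔ A') (A' ⊔ f.ker) (A'.comap f)
    (sup_le (hle.trans le_sup_right) le_sup_left) (sup_le hA' hker)
  rw [hqQuot, ← h2, h1, h3, mul_comm]

/-- The key identity: `h(A') · h(A/A') = k(g) · k(f) · h(A)`. -/
theorem hqSub_mul_hqQuot (hfg : f.comp g = 0) (hf : A'.map f ≤ A') (hg : A'.map g ≤ A') :
    hqSub f g A' * hqQuot f g A' = hqK g A' * hqK f A' * hq f g := by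
  rw [hqSub_eq f g A' hfg hg, hqQuot_eq f g A' hfg hf, hq_eq_hqX_mul_hqY f g A' hfg]
  ring

/-- **Multiplicativity of the Herbrand quotient** (subgroup form), as an identity in `ℕ`. -/
theorem hq_mul (hfg : f.comp g = 0) (hgf : g.comp f = 0) (hf : A'.map f ≤ A')
    (hg : A'.map g ≤ A') :
    hq f g * (hqSub g f A' * hqQuot g f A') = hq g f * (hqSub f g A' * hqQuot f g A') := by
  rw [hqSub_mul_hqQuot f g A' hfg hf hg, hqSub_mul_hqQuot g f A' hgf hg hf]
  ring

/-- If the four indices of sub and quotient are finite, so are those of the total group. -/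
theorem hq_ne_zero_of_sub_quot (hfg : f.comp g = 0) (hf : A'.map f ≤ A') (hg : A'.map g ≤ A')
    (h1 : hqSub f g A' ≠ 0) (h2 : hqQuot f g A' ≠ 0) : hq f g ≠ 0 := by
  have h := hqSub_mul_hqQuot f g A' hfg hf hg
  intro h0
  rw [h0, mul_zero] at h
  exact mul_ne_zero h1 h2 h

/-- If the indices of the total group and of the sub are finite, so are those of the quotient. -/
theorem hqQuot_ne_zero (hfg : f.comp g = 0) (hgf : g.comp f = 0) (hf : A'.map f ≤ A')
    (h1 : hq f g ≠ 0) (h2 : hqSub g f A' ≠ 0) : hqQuot f g A' ≠ 0 := by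
  rw [hqQuot_eq f g A' hfg hf]
  rw [hq_eq_hqX_mul_hqY f g A' hfg] at h1
  rw [hqSub_eq g f A' hgf hf] at h2
  exact mul_ne_zero (left_ne_zero_of_mul h2) (left_ne_zero_of_mul h1)

/-- If the indices of the total group and of the quotient are finite, so are those of the sub. -/
theorem hqSub_ne_zero (hfg : f.comp g = 0) (hgf : g.comp f = 0)
    (hg : A'.map g ≤ A') (h1 : hq f g ≠ 0) (h2 : hqQuot g f A' ≠ 0) : hqSub f g A' ≠ 0 := by
  rw [hqSub_eq f g A' hfg hg]
  rw [hq_eq_hqX_mul_hqY f g A' hfg] at h1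
  rw [hqQuot_eq g f A' hgf hg] at h2
  exact mul_ne_zero (left_ne_zero_of_mul h2) (right_ne_zero_of_mul h1)

end Identities

section Finite

/-- For a finite group the Herbrand quotient is `1`: `[ker f : im g] = [ker g : im f]`. -/
theorem hq_eq_of_finite [Finite A] (f g : A →+ A) (hfg : f.comp g = 0) (hgf : g.comp f = 0) :
    hq f g = hq g f := by
  have key : ∀ (f g : A →+ A), f.comp g = 0 →
      Nat.card g.range * Nat.card f.range * hq f g = Nat.card A := by
    intro f g hfg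
    have hle := hq_range_le_ker f g hfg
    have h1 := AddSubgroup.relIndex_mul_relIndex ⊥ g.range f.ker bot_le hle
    rw [AddSubgroup.relIndex_bot_left, AddSubgroup.relIndex_bot_left] at h1
    have h2 := AddSubgroup.card_mul_index f.ker
    have h3 : f.ker.index = Nat.card f.range := by
      rw [← AddSubgroup.relIndex_top_right, AddSubgroup.relIndex_ker, ← AddMonoidHom.range_eq_map]
    rw [h3, ← h1] at h2
    rw [← h2, hq]
    ring
  have e1 := key f g hfg
  have e2 := key g f hgf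
  have hpos : 0 < Nat.card g.range * Nat.card f.range :=
    Nat.mul_pos Nat.card_pos Nat.card_pos
  have : Nat.card g.range * Nat.card f.range * hq f g =
      Nat.card g.range * Nat.card f.range * hq g f := by
    rw [e1, ← e2]
    ring
  exact Nat.eq_of_mul_eq_mul_left hpos this

theorem hq_ne_zero_of_finite [Finite A] (f g : A →+ A) : hq f g ≠ 0 := by
  unfold hq AddSubgroup.relIndex
  exact AddSubgroup.index_ne_zero_of_finite

end Finite

section Exact

variable {B C : Type*} [AddCommGroup B] [AddCommGroup C]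

/-- Transport to a subobject: for an injective equivariant map `ι : B → A`,
`hq f' g' = hqSub f g (im ι)`. -/
theorem hq_eq_hqSub (ι : B →+ A) (hι : Function.Injective ι) (f g : A →+ A) (f' g' : B →+ B)
    (hf : ∀ b, ι (f' b) = f (ι b)) (hg : ∀ b, ι (g' b) = g (ι b)) :
    hq f' g' = hqSub f g ι.range := by
  have e1 : g'.range.map ι = ι.range.map g := by
    ext a
    constructor
    · rintro ⟨_, ⟨b, rfl⟩, rfl⟩
      exact ⟨ι b, ⟨b, rfl⟩, (hg b).symm⟩
    · rintro ⟨_, ⟨b, rfl⟩, rfl⟩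
      exact ⟨g' b, ⟨b, rfl⟩, hg b⟩
  have e2 : f'.ker.map ι = f.ker ⊓ ι.range := by
    ext a
    constructor
    · rintro ⟨b, hb, rfl⟩
      refine ⟨?_, b, rfl⟩
      change f (ι b) = 0
      rw [← hf, AddMonoidHom.mem_ker.mp hb, map_zero]
    · rintro ⟨ha, b, rfl⟩
      refine ⟨b, ?_, rfl⟩
      change f' b = 0
      apply hι
      rw [hf, map_zero]
      exact AddMonoidHom.mem_ker.mp ha
  rw [hq, ← AddSubgroup.relIndex_map_map_of_injective _ _ hι, e1, e2, hqSub]

/-- Transport to a quotient: for a surjective equivariant map `π : A → C`,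
`hq f'' g'' = hqQuot f g (ker π)`. -/
theorem hq_eq_hqQuot (π : A →+ C) (hπ : Function.Surjective π) (f g : A →+ A) (f'' g'' : C →+ C)
    (hf : ∀ a, π (f a) = f'' (π a)) (hg : ∀ a, π (g a) = g'' (π a)) :
    hq f'' g'' = hqQuot f g π.ker := by
  have e1 : g''.range.comap π = g.range ⊔ π.ker := by
    ext a
    rw [AddSubgroup.mem_comap, AddSubgroup.mem_sup]
    constructor
    · rintro ⟨c, hc⟩
      obtain ⟨b, rfl⟩ := hπ c
      refine ⟨g b, ⟨b, rfl⟩, a - g b, ?_, by abel⟩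
      rw [AddMonoidHom.mem_ker, map_sub, hg, hc, sub_self]
    · rintro ⟨_, ⟨b, rfl⟩, z, hz, rfl⟩
      refine ⟨π b, ?_⟩
      rw [map_add, AddMonoidHom.mem_ker.mp hz, add_zero, hg]
  have e2 : f''.ker.comap π = π.ker.comap f := by
    ext a
    simp only [AddSubgroup.mem_comap, AddMonoidHom.mem_ker, hf]
  have e3 : (f''.ker.comap π).map π = f''.ker :=
    AddSubgroup.map_comap_eq_self_of_surjective hπ _
  rw [hq, ← e3, ← AddSubgroup.relIndex_comap, e1, e2, hqQuot]

/-- **Multiplicativity of the Herbrand quotient** in a short exact sequence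
`0 → B → A → C → 0` of groups with compatible pairs of endomorphisms: the identity
`h⁰(A) h¹(B) h¹(C) = h¹(A) h⁰(B) h⁰(C)` in `ℕ` (no finiteness assumption). -/
theorem hq_mul_exact (ι : B →+ A) (π : A →+ C) (hι : Function.Injective ι)
    (hπ : Function.Surjective π) (hex : ι.range = π.ker)
    (f g : A →+ A) (f' g' : B →+ B) (f'' g'' : C →+ C)
    (hfg : f.comp g = 0) (hgf : g.comp f = 0)
    (hf' : ∀ b, ι (f' b) = f (ι b)) (hg' : ∀ b, ι (g' b) = g (ι b))
    (hf'' : ∀ a, π (f a) = f'' (π a)) (hg'' : ∀ a, π (g a) = g'' (π a)) :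
    hq f g * (hq g' f' * hq g'' f'') = hq g f * (hq f' g' * hq f'' g'') := by
  have hfs : ι.range.map f ≤ ι.range := by
    rintro _ ⟨_, ⟨b, rfl⟩, rfl⟩
    exact ⟨f' b, hf' b⟩
  have hgs : ι.range.map g ≤ ι.range := by
    rintro _ ⟨_, ⟨b, rfl⟩, rfl⟩
    exact ⟨g' b, hg' b⟩
  rw [hq_eq_hqSub ι hι f g f' g' hf' hg', hq_eq_hqSub ι hι g f g' f' hg' hf',
    hq_eq_hqQuot π hπ f g f'' g'' hf'' hg'', hq_eq_hqQuot π hπ g f g'' f'' hg'' hf'', ← hex]
  exact hq_mul f g ι.range hfg hgf hfs hgs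

/-- In a short exact sequence, finiteness for `B` and `C` implies finiteness for `A`. -/
theorem hq_ne_zero_of_exact (ι : B →+ A) (π : A →+ C) (hι : Function.Injective ι)
    (hπ : Function.Surjective π) (hex : ι.range = π.ker)
    (f g : A →+ A) (f' g' : B →+ B) (f'' g'' : C →+ C)
    (hfg : f.comp g = 0)
    (hf' : ∀ b, ι (f' b) = f (ι b)) (hg' : ∀ b, ι (g' b) = g (ι b))
    (hf'' : ∀ a, π (f a) = f'' (π a)) (hg'' : ∀ a, π (g a) = g'' (π a))
    (h1 : hq f' g' ≠ 0) (h2 : hq f'' g'' ≠ 0) : hq f g ≠ 0 := by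
  have hfs : ι.range.map f ≤ ι.range := by
    rintro _ ⟨_, ⟨b, rfl⟩, rfl⟩
    exact ⟨f' b, hf' b⟩
  have hgs : ι.range.map g ≤ ι.range := by
    rintro _ ⟨_, ⟨b, rfl⟩, rfl⟩
    exact ⟨g' b, hg' b⟩
  rw [hq_eq_hqSub ι hι f g f' g' hf' hg'] at h1
  rw [hq_eq_hqQuot π hπ f g f'' g'' hf'' hg'', ← hex] at h2
  exact hq_ne_zero_of_sub_quot f g ι.range hfg hfs hgs h1 h2

/-- In a short exact sequence, finiteness for `A` and `B` implies finiteness for `C`. -/
theorem hq_quot_ne_zero_of_exact (ι : B →+ A) (π : A →+ C) (hι : Function.Injective ι)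
    (hπ : Function.Surjective π) (hex : ι.range = π.ker)
    (f g : A →+ A) (f' g' : B →+ B) (f'' g'' : C →+ C)
    (hfg : f.comp g = 0) (hgf : g.comp f = 0)
    (hf' : ∀ b, ι (f' b) = f (ι b)) (hg' : ∀ b, ι (g' b) = g (ι b))
    (hf'' : ∀ a, π (f a) = f'' (π a)) (hg'' : ∀ a, π (g a) = g'' (π a))
    (h1 : hq f g ≠ 0) (h2 : hq g' f' ≠ 0) : hq f'' g'' ≠ 0 := by
  have hfs : ι.range.map f ≤ ι.range := by
    rintro _ ⟨_, ⟨b, rfl⟩, rfl⟩
    exact ⟨f' b, hf' b⟩
  have hgs : ι.range.map g ≤ ι.range := by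
    rintro _ ⟨_, ⟨b, rfl⟩, rfl⟩
    exact ⟨g' b, hg' b⟩
  rw [hq_eq_hqSub ι hι g f g' f' hg' hf'] at h2
  rw [hq_eq_hqQuot π hπ f g f'' g'' hf'' hg'', ← hex]
  exact hqQuot_ne_zero f g ι.range hfg hgf hfs h1 h2

/-- In a short exact sequence, finiteness for `A` and `C` implies finiteness for `B`. -/
theorem hq_sub_ne_zero_of_exact (ι : B →+ A) (π : A →+ C) (hι : Function.Injective ι)
    (hπ : Function.Surjective π) (hex : ι.range = π.ker)
    (f g : A →+ A) (f' g' : B →+ B) (f'' g'' : C →+ C)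
    (hfg : f.comp g = 0) (hgf : g.comp f = 0)
    (hf' : ∀ b, ι (f' b) = f (ι b)) (hg' : ∀ b, ι (g' b) = g (ι b))
    (hf'' : ∀ a, π (f a) = f'' (π a)) (hg'' : ∀ a, π (g a) = g'' (π a))
    (h1 : hq f g ≠ 0) (h2 : hq g'' f'' ≠ 0) : hq f' g' ≠ 0 := by
  have hfs : ι.range.map f ≤ ι.range := by
    rintro _ ⟨_, ⟨b, rfl⟩, rfl⟩
    exact ⟨f' b, hf' b⟩
  have hgs : ι.range.map g ≤ ι.range := by
    rintro _ ⟨_, ⟨b, rfl⟩, rfl⟩
    exact ⟨g' b, hg' b⟩
  rw [hq_eq_hqQuot π hπ g f g'' f'' hg'' hf'', ← hex] at h2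
  rw [hq_eq_hqSub ι hι f g f' g' hf' hg']
  exact hqSub_ne_zero f g ι.range hfg hgf hgs h1 h2

end Exact

end Fermat.Agent.S55
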