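import Mathlib
import Fermat.Agent.S55.Herbrand

/-!
# Herbrand quotient of a finitely generated module over a cyclic group of prime order

Let `σ` be an additive automorphism of order dividing the prime `p` of a finitely generated
abelian group `A`, `D = σ - 1`, `N = 1 + σ + ... + σ^(p-1)`.  Then
`h(A) = [ker D : im N] / [ker N : im D] = p ^ (a - b)` where `a = rank (ker D)` and
`rank A = a + (p - 1) b`  (`hqp_rank_formula`).
-/

set_option autoImplicit false

namespace Fermat.Agent.S55

open Polynomial AddSubgroup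

/-- `1 + (1+X) + ... + (1+X)^(p-1) = X^(p-1) + p (1 + X q)`. -/
theorem hqp_poly (p : ℕ) (hp : p.Prime) :
    ∃ q : ℤ[X], ∑ i ∈ Finset.range p, (X + 1 : ℤ[X]) ^ i
      = X ^ (p - 1) + C (p : ℤ) * (1 + X * q) := by
  have : Fact p.Prime := ⟨hp⟩
  set F : ℤ[X] := ∑ i ∈ Finset.range p, (X + 1 : ℤ[X]) ^ i with hF
  have hmul : F * X = (X + 1) ^ p - 1 := by
    have := geom_sum_mul (X + 1 : ℤ[X]) p
    simpa using this
  have hdvd : C (p : ℤ) ∣ F - X ^ (p - 1) := by
    rw [C_dvd_iff_dvd_coeff]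
    intro i
    have hz : (F - X ^ (p - 1)).map (Int.castRingHom (ZMod p)) = 0 := by
      have h1 : (F.map (Int.castRingHom (ZMod p))) * X = X ^ p := by
        have := congrArg (Polynomial.map (Int.castRingHom (ZMod p))) hmul
        simp only [Polynomial.map_mul, map_X, Polynomial.map_sub, Polynomial.map_pow,
          Polynomial.map_add, Polynomial.map_one] at this
        rw [this, add_pow_char, one_pow]; ring
      have h2 : (F.map (Int.castRingHom (ZMod p)) - X ^ (p - 1)) * X = 0 := by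
        rw [sub_mul, h1, ← pow_succ, Nat.sub_add_cancel hp.one_le, sub_self]
      rw [Polynomial.map_sub, Polynomial.map_pow, map_X]
      exact (mul_eq_zero.mp h2).resolve_right X_ne_zero
    have h3 := congrArg (fun f => f.coeff i) hz
    simp only [coeff_map, coeff_zero, eq_intCast] at h3
    exact (ZMod.intCast_zmod_eq_zero_iff_dvd _ p).mp h3
  obtain ⟨r, hr⟩ := hdvd
  have hr0 : r.coeff 0 = 1 := by
    have h := congrArg (fun f => f.coeff 0) hr
    have hF0 : F.coeff 0 = p := by
      rw [coeff_zero_eq_eval_zero, hF, eval_finsetSum]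
      simp
    have hX0 : (X ^ (p - 1) : ℤ[X]).coeff 0 = 0 := by
      rw [coeff_X_pow, if_neg]
      have := hp.two_le
      omega
    simp only [coeff_sub, coeff_C_mul, hF0, hX0, sub_zero] at h
    have hp0 : (p : ℤ) ≠ 0 := by exact_mod_cast hp.ne_zero
    exact (mul_left_cancel₀ hp0 (by rw [← h, mul_one])).symm
  refine ⟨r.divX, ?_⟩
  have hr' : r = 1 + X * r.divX := by
    conv_lhs => rw [← divX_mul_X_add r, hr0]
    simp only [map_one]
    ring
  rw [← hr', ← hr]
  ring

section Operators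

variable {C : Type*} [AddCommGroup C]

/-- If `1 + τ + ... + τ^(p-1) = 0` then `(τ-1)^(p-1) = -p u` with `u = 1 + (τ-1) w`. -/
theorem hqp_exists_u (p : ℕ) (hp : p.Prime) (τ : AddMonoid.End C)
    (hN : ∑ i ∈ Finset.range p, τ ^ i = 0) :
    ∃ u w : AddMonoid.End C, (τ - 1) ^ (p - 1) = -((p : ℤ) • u) ∧ u = 1 + (τ - 1) * w ∧
      Commute u (τ - 1) := by
  obtain ⟨q, hq⟩ := hqp_poly p hp
  have h := congrArg (Polynomial.aeval (τ - 1)) hq
  simp only [map_sum, map_pow, map_add, aeval_X, map_one, sub_add_cancel, hN, map_mul,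
    map_natCast] at h
  refine ⟨1 + (τ - 1) * Polynomial.aeval (τ - 1) q, Polynomial.aeval (τ - 1) q, ?_, rfl, ?_⟩
  · rw [eq_neg_iff_add_eq_zero, h, zsmul_eq_mul, Int.cast_natCast]
  · have : (1 + (τ - 1) * Polynomial.aeval (τ - 1) q : AddMonoid.End C)
        = Polynomial.aeval (τ - 1) (1 + X * q) := by simp
    rw [this]
    have h2 : (τ - 1 : AddMonoid.End C) = Polynomial.aeval (τ - 1) (X : ℤ[X]) := by simp
    conv_rhs => rw [h2]
    exact (Commute.all _ _).map (Polynomial.aeval (τ - 1))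

/-- `u` is surjective. -/
theorem hqp_u_surj (p : ℕ) (τ u w : AddMonoid.End C)
    (h1 : (τ - 1) ^ (p - 1) = -((p : ℤ) • u)) (h2 : u = 1 + (τ - 1) * w)
    (h3 : Commute u (τ - 1)) : Function.Surjective u := by
  intro c
  have key : ∀ k : ℕ, ∀ c : C, ∃ x y : C, c = u x + ((τ - 1) ^ k) y := by
    intro k
    induction k with
    | zero => intro c; exact ⟨0, c, by simp⟩
    | succ k ih =>
      intro c
      obtain ⟨x, y, rfl⟩ := ih c
      refine ⟨x + ((τ - 1) ^ k) y, -(w y), ?_⟩
      have hy : y = u y - (τ - 1) (w y) := by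
        rw [h2]
        have : (1 + (τ - 1) * w : AddMonoid.End C) y = y + (τ - 1) (w y) := rfl
        rw [this]
        abel
      have hc : ((τ - 1) ^ k) (u y) = u (((τ - 1) ^ k) y) := by
        have := (h3.pow_right k)
        exact (DFunLike.congr_fun this.eq y).symm
      have hs : ((τ - 1) ^ (k + 1)) (-(w y)) = -(((τ - 1) ^ k) ((τ - 1) (w y))) := by
        rw [pow_succ, map_neg]
        rfl
      rw [hs, map_add, ← hc]
      conv_lhs => rw [hy]
      rw [map_sub]
      abel
  obtain ⟨x, y, rfl⟩ := key (p - 1) c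
  refine ⟨x - (p : ℤ) • y, ?_⟩
  have h5 : (-((p : ℤ) • u) : AddMonoid.End C) y = -((p : ℤ) • u y) := rfl
  rw [h1, map_sub, map_zsmul, h5]
  abel

/-- `τ - 1` is injective when there is no `p`-torsion. -/
theorem hqp_D_inj (p : ℕ) (τ : AddMonoid.End C)
    (hN : ∑ i ∈ Finset.range p, τ ^ i = 0) (htf : ∀ x : C, p • x = 0 → x = 0) :
    Function.Injective (τ - 1 : AddMonoid.End C) := by
  rw [injective_iff_map_eq_zero]
  intro x hx
  have hx1 : τ x = x := by
    have : (τ - 1 : AddMonoid.End C) x = τ x - x := rfl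
    rw [this, sub_eq_zero] at hx
    exact hx
  have hpow : ∀ i : ℕ, (τ ^ i) x = x := by
    intro i
    induction i with
    | zero => rfl
    | succ i ih =>
      rw [pow_succ]
      change (τ ^ i) (τ x) = x
      rw [hx1, ih]
  apply htf
  have h := DFunLike.congr_fun hN x
  have h2 : (∑ i ∈ Finset.range p, τ ^ i) x = ∑ i ∈ Finset.range p, (τ ^ i) x := by
    change (AddMonoidHom.id C).comp (∑ i ∈ Finset.range p, τ ^ i) x = _
    exact map_sum (AddMonoidHom.eval x) _ _
  rw [h2] at h
  simp only [hpow, Finset.sum_const, Finset.card_range] at h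
  exact h

/-- `[C : D^k C] = [C : D C]^k` for injective `D`. -/
theorem hqp_index_pow (D : AddMonoid.End C) (hD : Function.Injective D) (k : ℕ) :
    (AddMonoidHom.range (D ^ k : AddMonoid.End C)).index = (AddMonoidHom.range D).index ^ k := by
  induction k with
  | zero =>
    have : AddMonoidHom.range (D ^ 0 : AddMonoid.End C) = ⊤ := by
      rw [pow_zero]
      exact AddMonoidHom.range_eq_top.mpr (fun x => ⟨x, rfl⟩)
    rw [this, AddSubgroup.index_top, pow_zero]
  | succ k ih =>
    have hinj : Function.Injective (D ^ k : AddMonoid.End C) := by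
      rw [AddMonoid.End.coe_pow]
      exact hD.iterate k
    have h1 : AddMonoidHom.range (D ^ (k + 1) : AddMonoid.End C)
        = (AddMonoidHom.range D).map (D ^ k : AddMonoid.End C) := by
      rw [AddMonoidHom.map_range, pow_succ]
      rfl
    have h2 : AddMonoidHom.range (D ^ k : AddMonoid.End C)
        = (⊤ : AddSubgroup C).map (D ^ k : AddMonoid.End C) :=
      (AddMonoidHom.range_eq_map _)
    have h3 : (AddMonoidHom.range D).map (D ^ k : AddMonoid.End C)
        ≤ (⊤ : AddSubgroup C).map (D ^ k : AddMonoid.End C) :=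
      AddSubgroup.map_mono le_top
    have h4 := AddSubgroup.relIndex_mul_index h3
    rw [AddSubgroup.relIndex_map_map_of_injective _ _ hinj, AddSubgroup.relIndex_top_right] at h4
    rw [h1, ← h4, ← h2, ih, pow_succ, mul_comm]

/-- `[C : pC] = p ^ rank` for free `C`. -/
theorem hqp_index_smul [Module.Free ℤ C] [Module.Finite ℤ C] (p : ℕ) (hp : p ≠ 0) :
    (AddMonoidHom.range ((p : ℤ) • (1 : AddMonoid.End C) : AddMonoid.End C)).index
      = p ^ Module.finrank ℤ C := by
  have : NeZero p := ⟨hp⟩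
  rw [← ModN.natCard_eq C p]
  have : AddMonoidHom.range ((p : ℤ) • (1 : AddMonoid.End C) : AddMonoid.End C)
      = (LinearMap.range (LinearMap.lsmul ℤ C p)).toAddSubgroup := by
    ext x
    constructor
    · rintro ⟨y, rfl⟩
      exact ⟨y, rfl⟩
    · rintro ⟨y, rfl⟩
      exact ⟨y, rfl⟩
  rw [this]
  rfl

end Operators

section Free

variable {C : Type*} [AddCommGroup C] [Module.Finite ℤ C] [Module.IsTorsionFree ℤ C]

omit [Module.Finite ℤ C] in
theorem hqp_tf (n : ℕ) (hn : n ≠ 0) (x : C) (h : n • x = 0) : x = 0 := by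
  have hreg : IsRegular (n : ℤ) := IsRegular.of_ne_zero (by exact_mod_cast hn)
  have := Module.IsTorsionFree.isSMulRegular (M := C) hreg
  apply this
  simp only [smul_zero, natCast_zsmul]
  exact h

/-- Torsion-free case with `N = 0`: `τ - 1` is injective of index `p ^ b`. -/
theorem hqp_free_N0 (p : ℕ) (hp : p.Prime) (τ : AddMonoid.End C)
    (hN : ∑ i ∈ Finset.range p, τ ^ i = 0) (b : ℕ) (hr : Module.finrank ℤ C = (p - 1) * b) :
    Function.Injective (τ - 1 : AddMonoid.End C) ∧
      (AddMonoidHom.range (τ - 1 : AddMonoid.End C)).index = p ^ b := by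
  obtain ⟨u, w, h1, h2, h3⟩ := hqp_exists_u p hp τ hN
  have hu := hqp_u_surj p τ u w h1 h2 h3
  have hinj := hqp_D_inj p τ hN (fun x hx => hqp_tf p hp.ne_zero x hx)
  refine ⟨hinj, ?_⟩
  have hpow := hqp_index_pow (τ - 1 : AddMonoid.End C) hinj (p - 1)
  have hrange : AddMonoidHom.range ((τ - 1) ^ (p - 1) : AddMonoid.End C)
      = AddMonoidHom.range ((p : ℤ) • (1 : AddMonoid.End C) : AddMonoid.End C) := by
    rw [h1]
    ext x
    constructor
    · rintro ⟨y, rfl⟩
      refine ⟨-(u y), ?_⟩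
      change (p : ℤ) • (-(u y)) = -((p : ℤ) • u y)
      rw [smul_neg]
    · rintro ⟨y, rfl⟩
      obtain ⟨z, rfl⟩ := hu y
      refine ⟨-z, ?_⟩
      change -((p : ℤ) • u (-z)) = (p : ℤ) • (u z)
      rw [map_neg, smul_neg, neg_neg]
  rw [hrange, hqp_index_smul p hp.ne_zero, hr, mul_comm, pow_mul] at hpow
  exact (Nat.pow_left_injective (Nat.sub_ne_zero_of_lt hp.one_lt) hpow).symm

theorem hqp_free_N0_hq (p : ℕ) (hp : p.Prime) (τ : AddMonoid.End C)
    (hN : ∑ i ∈ Finset.range p, τ ^ i = 0) (b : ℕ) (hr : Module.finrank ℤ C = (p - 1) * b) :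
    hq (τ - 1 : AddMonoid.End C) (0 : C →+ C) = 1 ∧
      hq (0 : C →+ C) (τ - 1 : AddMonoid.End C) = p ^ b := by
  obtain ⟨hinj, hidx⟩ := hqp_free_N0 p hp τ hN b hr
  constructor
  · unfold hq
    rw [(AddMonoidHom.ker_eq_bot_iff _).mpr hinj, AddMonoidHom.range_zero,
      AddSubgroup.relIndex_self]
  · unfold hq
    rw [AddMonoidHom.ker_zero, AddSubgroup.relIndex_top_right, hidx]

/-- Torsion-free case with trivial action: `[C : pC] = p ^ rank`, no `p`-torsion. -/
theorem hqp_free_triv_hq (p : ℕ) (hp : p ≠ 0) (P : C →+ C) (hP : ∀ x, P x = p • x) :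
    hq (0 : C →+ C) P = p ^ Module.finrank ℤ C ∧ hq P (0 : C →+ C) = 1 := by
  have hPe : P = ((p : ℤ) • (1 : AddMonoid.End C) : AddMonoid.End C) := by
    ext x
    rw [hP]
    change p • x = (p : ℤ) • x
    rw [natCast_zsmul]
  constructor
  · unfold hq
    rw [AddMonoidHom.ker_zero, AddSubgroup.relIndex_top_right, hPe, hqp_index_smul p hp]
  · unfold hq
    have hker : P.ker = ⊥ := by
      rw [AddMonoidHom.ker_eq_bot_iff, injective_iff_map_eq_zero]
      intro x hx
      rw [hP] at hx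
      exact hqp_tf p hp x hx
    rw [hker, AddMonoidHom.range_zero, AddSubgroup.relIndex_self]

end Free

section Torsion

variable {M : Type*} [AddCommGroup M]

theorem hqp_torsion_stable (f : M →+ M) :
    Submodule.torsion ℤ M ≤ (Submodule.torsion ℤ M).comap f.toIntLinearMap := by
  intro x hx
  rw [Submodule.mem_comap]
  obtain ⟨a, ha⟩ := (Submodule.mem_torsion_iff x).mp hx
  refine (Submodule.mem_torsion_iff _).mpr ⟨a, ?_⟩
  rw [Submonoid.smul_def] at ha ⊢
  rw [← map_smul, ha, map_zero]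

/-- The induced endomorphism of the torsion-free quotient, as a ring homomorphism. -/
noncomputable def hqpBar :
    AddMonoid.End M →+* AddMonoid.End (M ⧸ Submodule.torsion ℤ M) where
  toFun f := ((Submodule.torsion ℤ M).mapQ (Submodule.torsion ℤ M) f.toIntLinearMap
    (hqp_torsion_stable f)).toAddMonoidHom
  map_one' := by
    ext x
    induction x using Submodule.Quotient.induction_on
    rfl
  map_mul' f g := by
    ext x
    induction x using Submodule.Quotient.induction_on
    rfl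
  map_zero' := by
    ext x
    induction x using Submodule.Quotient.induction_on
    rfl
  map_add' f g := by
    ext x
    induction x using Submodule.Quotient.induction_on
    rfl

theorem hqpBar_mk (f : AddMonoid.End M) (x : M) :
    hqpBar f (Submodule.Quotient.mk x) = Submodule.Quotient.mk (f x) := rfl

variable [Module.Finite ℤ M]

instance hqp_finite_torsion : Finite (Submodule.torsion ℤ M) :=
  Module.finite_of_fg_torsion _ (Submodule.torsion_isTorsion)

theorem hqp_finrank_quot :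
    Module.finrank ℤ (M ⧸ Submodule.torsion ℤ M) = Module.finrank ℤ M := by
  have h := Submodule.finrank_quotient_add_finrank (Submodule.torsion ℤ M)
  have h0 : Module.finrank ℤ (Submodule.torsion ℤ M) = 0 :=
    Module.finrank_eq_zero_iff_isTorsion.mpr Submodule.torsion_isTorsion
  rw [h0, add_zero] at h
  exact h

/-- Torsion reduction for Herbrand quotients. -/
theorem hqp_torsion_reduction (f g : AddMonoid.End M) (hfg : f * g = 0) (hgf : g * f = 0) :
    hq f g * hq (hqpBar g) (hqpBar f) = hq g f * hq (hqpBar f) (hqpBar g) ∧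
      (hq (hqpBar f) (hqpBar g) ≠ 0 → hq f g ≠ 0) := by
  set T := Submodule.torsion ℤ M with hT
  let ι : T →+ M := T.subtype.toAddMonoidHom
  let π : M →+ (M ⧸ T) := T.mkQ.toAddMonoidHom
  let f' : T →+ T := (f.toIntLinearMap.restrict (p := T) (q := T)
    (fun x hx => hqp_torsion_stable f hx)).toAddMonoidHom
  let g' : T →+ T := (g.toIntLinearMap.restrict (p := T) (q := T)
    (fun x hx => hqp_torsion_stable g hx)).toAddMonoidHom
  have hι : Function.Injective ι := Subtype.val_injective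
  have hπ : Function.Surjective π := T.mkQ_surjective
  have hex : ι.range = π.ker := by
    ext x
    constructor
    · rintro ⟨y, rfl⟩
      exact (Submodule.Quotient.mk_eq_zero T).mpr y.2
    · intro hx
      exact ⟨⟨x, (Submodule.Quotient.mk_eq_zero T).mp hx⟩, rfl⟩
  have hfg' : (f : M →+ M).comp g = 0 := hfg
  have hgf' : (g : M →+ M).comp f = 0 := hgf
  have hfin : hq f' g' = hq g' f' := by
    apply hq_eq_of_finite
    · ext x
      exact DFunLike.congr_fun hfg' (x : M)
    · ext x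
      exact DFunLike.congr_fun hgf' (x : M)
  have hne : hq f' g' ≠ 0 := hq_ne_zero_of_finite f' g'
  have key := hq_mul_exact ι π hι hπ hex f g f' g' (hqpBar f) (hqpBar g) hfg' hgf'
    (fun _ => rfl) (fun _ => rfl) (fun _ => rfl) (fun _ => rfl)
  constructor
  · rw [← hfin] at key
    have : hq f' g' * (hq f g * hq (hqpBar g) (hqpBar f))
        = hq f' g' * (hq g f * hq (hqpBar f) (hqpBar g)) := by
      calc hq f' g' * (hq f g * hq (hqpBar g) (hqpBar f))
          = hq f g * (hq f' g' * hq (hqpBar g) (hqpBar f)) := by ring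
        _ = hq g f * (hq f' g' * hq (hqpBar f) (hqpBar g)) := key
        _ = _ := by ring
    exact Nat.eq_of_mul_eq_mul_left (Nat.pos_of_ne_zero hne) this
  · intro h2
    exact hq_ne_zero_of_exact ι π hι hπ hex f g f' g' (hqpBar f) (hqpBar g) hfg'
      (fun _ => rfl) (fun _ => rfl) (fun _ => rfl) (fun _ => rfl) hne h2

end Torsion

section General

variable {M : Type*} [AddCommGroup M]

theorem hqp_sum_pow_apply (τ : AddMonoid.End M) (n : ℕ) (x : M) :
    (∑ i ∈ Finset.range n, τ ^ i : AddMonoid.End M) x = ∑ i ∈ Finset.range n, τ^[i] x := by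
  have h : (∑ i ∈ Finset.range n, τ ^ i : AddMonoid.End M) x
      = ∑ i ∈ Finset.range n, (τ ^ i : AddMonoid.End M) x :=
    map_sum (AddMonoidHom.eval x) _ _
  rw [h]
  rfl

variable [Module.Finite ℤ M]

/-- General finitely generated `M` with `N = 0`: `h(M) = p ^ (-b)`. -/
theorem hqp_N0 (p : ℕ) (hp : p.Prime) (τ : AddMonoid.End M)
    (hN : ∑ i ∈ Finset.range p, τ ^ i = 0) (b : ℕ) (hr : Module.finrank ℤ M = (p - 1) * b) :
    hq (τ - 1 : AddMonoid.End M) (0 : AddMonoid.End M) ≠ 0 ∧
    hq (0 : AddMonoid.End M) (τ - 1 : AddMonoid.End M) ≠ 0 ∧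
    hq (τ - 1 : AddMonoid.End M) (0 : AddMonoid.End M) * p ^ b
      = hq (0 : AddMonoid.End M) (τ - 1 : AddMonoid.End M) := by
  have hN' : ∑ i ∈ Finset.range p, (hqpBar τ) ^ i = 0 := by
    simp_rw [← map_pow]
    rw [← map_sum, hN, map_zero]
  have hr' : Module.finrank ℤ (M ⧸ Submodule.torsion ℤ M) = (p - 1) * b := by
    rw [hqp_finrank_quot, hr]
  obtain ⟨h1, h2⟩ := hqp_free_N0_hq p hp (hqpBar τ) hN' b hr'
  have hb1 : hqpBar (τ - 1) = hqpBar τ - 1 := by rw [map_sub, map_one]
  have hb0 : hqpBar (0 : AddMonoid.End M) = 0 := map_zero _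
  obtain ⟨e1, n1⟩ := hqp_torsion_reduction (τ - 1 : AddMonoid.End M) 0 (mul_zero _) (zero_mul _)
  obtain ⟨e2, n2⟩ := hqp_torsion_reduction (0 : AddMonoid.End M) (τ - 1) (zero_mul _) (mul_zero _)
  rw [hb1, hb0] at e1 n1 e2 n2
  have h1' : hq (hqpBar τ - 1 : AddMonoid.End (M ⧸ Submodule.torsion ℤ M))
      (0 : AddMonoid.End (M ⧸ Submodule.torsion ℤ M)) = 1 := h1
  have h2' : hq (0 : AddMonoid.End (M ⧸ Submodule.torsion ℤ M))
      (hqpBar τ - 1 : AddMonoid.End (M ⧸ Submodule.torsion ℤ M)) = p ^ b := h2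
  rw [h1', h2'] at e1
  rw [h1'] at n1
  rw [h2'] at n2
  refine ⟨n1 one_ne_zero, n2 (pow_ne_zero _ hp.ne_zero), ?_⟩
  rw [e1, mul_one]

/-- General finitely generated `M` with trivial action: `h(M) = p ^ rank`. -/
theorem hqp_triv (p : ℕ) (hp : p ≠ 0) (P : AddMonoid.End M) (hP : ∀ x, P x = p • x) :
    hq (0 : AddMonoid.End M) P ≠ 0 ∧ hq P (0 : AddMonoid.End M) ≠ 0 ∧
      hq (0 : AddMonoid.End M) P = hq P (0 : AddMonoid.End M) * p ^ Module.finrank ℤ M := by
  have hP' : ∀ x, hqpBar P x = p • x := by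
    intro x
    induction x using Submodule.Quotient.induction_on with
    | H x =>
      rw [hqpBar_mk, hP]
      rfl
  obtain ⟨h1, h2⟩ := hqp_free_triv_hq p hp (hqpBar P) hP'
  rw [hqp_finrank_quot] at h1
  have hb0 : hqpBar (0 : AddMonoid.End M) = 0 := map_zero _
  obtain ⟨e1, n1⟩ := hqp_torsion_reduction (0 : AddMonoid.End M) P (zero_mul _) (mul_zero _)
  obtain ⟨e2, n2⟩ := hqp_torsion_reduction (P : AddMonoid.End M) 0 (mul_zero _) (zero_mul _)
  rw [hb0] at e1 n1 e2 n2
  have h1' : hq (0 : AddMonoid.End (M ⧸ Submodule.torsion ℤ M)) (hqpBar P)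
      = p ^ Module.finrank ℤ M := h1
  have h2' : hq (hqpBar P) (0 : AddMonoid.End (M ⧸ Submodule.torsion ℤ M)) = 1 := h2
  rw [h1', h2'] at e1
  rw [h1'] at n1
  rw [h2'] at n2
  refine ⟨n1 (pow_ne_zero _ hp), n2 one_ne_zero, ?_⟩
  rw [← e1, mul_one]

end General

section Main

variable {A : Type*} [AddCommGroup A] [Module.Finite ℤ A]

/-- **Herbrand quotient over a cyclic group of prime order** (endomorphism-ring form). -/
theorem hqp_rank_formula_end (p : ℕ) (hp : p.Prime) (σ : AddMonoid.End A) (hσ : σ ^ p = 1)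
    (a b : ℕ)
    (ha : Module.finrank ℤ
      (LinearMap.ker ((σ - 1 : AddMonoid.End A) : A →+ A).toIntLinearMap) = a)
    (hr : Module.finrank ℤ A = a + (p - 1) * b) :
    hq (σ - 1 : AddMonoid.End A) (∑ i ∈ Finset.range p, σ ^ i : AddMonoid.End A) ≠ 0 ∧
    hq (∑ i ∈ Finset.range p, σ ^ i : AddMonoid.End A) (σ - 1 : AddMonoid.End A) ≠ 0 ∧
    hq (σ - 1 : AddMonoid.End A) (∑ i ∈ Finset.range p, σ ^ i : AddMonoid.End A) * p ^ b
      = hq (∑ i ∈ Finset.range p, σ ^ i : AddMonoid.End A) (σ - 1 : AddMonoid.End A) * p ^ a := by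
  set D : AddMonoid.End A := σ - 1 with hD
  set N : AddMonoid.End A := ∑ i ∈ Finset.range p, σ ^ i with hN
  have hDN : D * N = 0 := by rw [hD, hN, mul_geom_sum, hσ, sub_self]
  have hND : N * D = 0 := by rw [hD, hN, geom_sum_mul, hσ, sub_self]
  set Dl : A →ₗ[ℤ] A := (D : A →+ A).toIntLinearMap with hDl
  let B := LinearMap.ker Dl
  let Cm := LinearMap.range Dl
  let ι : B →+ A := B.subtype.toAddMonoidHom
  let π : A →+ Cm := Dl.rangeRestrict.toAddMonoidHom
  have hι : Function.Injective ι := Subtype.val_injective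
  have hπ : Function.Surjective π := Dl.surjective_rangeRestrict
  have hex : ι.range = π.ker := by
    ext x
    constructor
    · rintro ⟨y, rfl⟩
      exact Subtype.ext y.2
    · intro hx
      exact ⟨⟨x, congrArg Subtype.val hx⟩, rfl⟩
  -- the invariant part
  have hσB : ∀ y : B, σ (y : A) = y := by
    intro y
    have h1 : D (y : A) = 0 := y.2
    have h2 : D (y : A) = σ y - y := rfl
    rw [h2, sub_eq_zero] at h1
    exact h1
  let P : AddMonoid.End B := (p : AddMonoid.End B)
  have hP : ∀ x, P x = p • x := fun x => rfl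
  have hNB : ∀ y : B, N (y : A) = p • (y : A) := by
    intro y
    rw [hN, hqp_sum_pow_apply]
    have : ∀ i, σ^[i] (y : A) = y := fun i => Function.iterate_fixed (hσB y) i
    simp only [this, Finset.sum_const, Finset.card_range]
  -- the image part
  have hcomm : D * σ = σ * D := by
    rw [hD]
    noncomm_ring
  have hstab : ∀ x ∈ Cm, (σ : A →+ A).toIntLinearMap x ∈ Cm := by
    rintro _ ⟨y, rfl⟩
    exact ⟨σ y, DFunLike.congr_fun hcomm y⟩
  let τC : AddMonoid.End Cm :=
    ((σ : A →+ A).toIntLinearMap.restrict (p := Cm) (q := Cm) hstab).toAddMonoidHom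
  have hτC : ∀ z : Cm, ((τC z : Cm) : A) = σ (z : A) := fun z => rfl
  have hNC : ∑ i ∈ Finset.range p, τC ^ i = 0 := by
    ext z
    rw [hqp_sum_pow_apply]
    have hit : ∀ i, ((τC^[i] z : Cm) : A) = σ^[i] (z : A) := by
      intro i
      induction i with
      | zero => rfl
      | succ i ih => rw [Function.iterate_succ_apply', Function.iterate_succ_apply', hτC, ih]
    rw [Submodule.coe_sum]
    simp only [hit]
    rw [← hqp_sum_pow_apply]
    obtain ⟨y, hy⟩ := z.2
    rw [← hy]
    exact DFunLike.congr_fun hND y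
  -- ranks
  have hrank : Module.finrank ℤ Cm = (p - 1) * b := by
    have h1 := Submodule.finrank_quotient_add_finrank B
    have h2 : Module.finrank ℤ (A ⧸ B) = Module.finrank ℤ Cm :=
      LinearEquiv.finrank_eq Dl.quotKerEquivRange
    have h3 : Module.finrank ℤ B = a := ha
    omega
  obtain ⟨t1, t2, t3⟩ := hqp_triv (M := B) p hp.ne_zero P hP
  rw [show Module.finrank ℤ B = a from ha] at t3
  obtain ⟨c1, c2, c3⟩ := hqp_N0 (M := Cm) p hp τC hNC b hrank
  have hf' : ∀ y : B, ι ((0 : AddMonoid.End B) y) = D (ι y) := fun y => y.2.symm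
  have hg' : ∀ y : B, ι (P y) = N (ι y) := fun y => (hNB y).symm
  have hf'' : ∀ x : A, π (D x) = (τC - 1 : AddMonoid.End Cm) (π x) := fun x => rfl
  have hg'' : ∀ x : A, π (N x) = (0 : AddMonoid.End Cm) (π x) := fun x =>
    Subtype.ext (DFunLike.congr_fun hDN x)
  have key := hq_mul_exact ι π hι hπ hex D N (0 : AddMonoid.End B) P
    (τC - 1 : AddMonoid.End Cm) (0 : AddMonoid.End Cm) hDN hND hf' hg' hf'' hg''
  refine ⟨?_, ?_, ?_⟩
  · exact hq_ne_zero_of_exact ι π hι hπ hex D N (0 : AddMonoid.End B) P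
      (τC - 1 : AddMonoid.End Cm) (0 : AddMonoid.End Cm) hDN hf' hg' hf'' hg'' t1 c1
  · exact hq_ne_zero_of_exact ι π hι hπ hex N D P (0 : AddMonoid.End B)
      (0 : AddMonoid.End Cm) (τC - 1 : AddMonoid.End Cm) hND hg' hf' hg'' hf'' t2 c2
  · rw [← c3, t3] at key
    have hpos : 0 < hq P (0 : AddMonoid.End B)
        * hq (τC - 1 : AddMonoid.End Cm) (0 : AddMonoid.End Cm) :=
      Nat.pos_of_ne_zero (mul_ne_zero t2 c1)
    apply Nat.eq_of_mul_eq_mul_left hpos
    calc hq P (0 : AddMonoid.End B) * hq (τC - 1 : AddMonoid.End Cm) (0 : AddMonoid.End Cm)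
          * (hq D N * p ^ b)
        = hq D N * (hq P (0 : AddMonoid.End B)
          * (hq (τC - 1 : AddMonoid.End Cm) (0 : AddMonoid.End Cm) * p ^ b)) := by ring
      _ = hq N D * (hq P (0 : AddMonoid.End B) * p ^ a
          * hq (τC - 1 : AddMonoid.End Cm) (0 : AddMonoid.End Cm)) := key
      _ = _ := by ring

/-- **Herbrand quotient over a cyclic group of prime order**: if `σ` is an additive endomorphism
of a finitely generated abelian group `A` with `σ^p = 1`, `D = σ - 1`, `N = ∑_{i<p} σ^i`,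
`a = rank (ker D)` and `rank A = a + (p - 1) b`, then both indices `[ker D : im N]`,
`[ker N : im D]` are finite and `[ker D : im N] * p ^ b = [ker N : im D] * p ^ a`. -/
theorem hqp_rank_formula (p : ℕ) (hp : p.Prime) (σ D N : A →+ A)
    (hσ : ∀ x, σ^[p] x = x) (hD : ∀ x, D x = σ x - x)
    (hN : ∀ x, N x = ∑ i ∈ Finset.range p, σ^[i] x) (a b : ℕ)
    (ha : Module.finrank ℤ D.ker = a) (hr : Module.finrank ℤ A = a + (p - 1) * b) :
    hq D N ≠ 0 ∧ hq N D ≠ 0 ∧ hq D N * p ^ b = hq N D * p ^ a := by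
  let τ : AddMonoid.End A := σ
  have hD' : D = (τ - 1 : AddMonoid.End A) := by
    ext x
    exact hD x
  have hN' : N = (∑ i ∈ Finset.range p, τ ^ i : AddMonoid.End A) := by
    ext x
    rw [hN]
    exact (hqp_sum_pow_apply τ p x).symm
  have hσ' : τ ^ p = 1 := by
    ext x
    exact hσ x
  let e : D.ker ≃ₗ[ℤ] LinearMap.ker (D : A →+ A).toIntLinearMap :=
    (AddEquiv.mk ⟨fun x => ⟨x.1, x.2⟩, fun x => ⟨x.1, x.2⟩, fun _ => rfl, fun _ => rfl⟩
      (fun _ _ => rfl)).toIntLinearEquiv
  have ha' : Module.finrank ℤ (LinearMap.ker (D : A →+ A).toIntLinearMap) = a := by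
    rw [← ha]
    exact (LinearEquiv.finrank_eq e).symm
  rw [hD'] at ha'
  rw [hD', hN']
  exact hqp_rank_formula_end p hp τ hσ' a b ha' hr

end Main

end Fermat.Agent.S55
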