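import Fermat.Agent.S55.SUnitGalois
import Fermat.Agent.S55.HerbrandPrime

/-!
# Herbrand quotient of `S`-units in a cyclic extension of prime degree

`L / k` a Galois extension of number fields of odd prime degree `p`, `G = ⟨σ⟩`, `S` a finite set
of primes of `k`, `S_L` the set of primes of `L` above `S`.

* `su_exists_suComap_eq`: the Galois group acts transitively on the primes above a prime.
* `su_card_above`: the number of primes above a prime is `1` or `p`.
* `suNonsplit k L v`: exactly one prime of `L` lies above `v`.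
* `su_card_SL`: `#S_L = u + p (#S - u)`.
* `su_fixed`: the `σ`-fixed `S_L`-units are the `S`-units of `k`.
* `su_hq_units`: `|Ĥ^0(G, E_{S_L})| · p = |H^1(G, E_{S_L})| · p ^ u`, both finite,
  `u` the number of nonsplit primes in `S`.
-/

set_option autoImplicit false

namespace Fermat.Agent.S55

open IsDedekindDomain NumberField

section Galois

variable {k L : Type*} [Field k] [Field L] [NumberField k] [NumberField L] [Algebra k L]
  [IsGalois k L]

/-- The Galois group acts transitively on the primes above a given prime. -/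
theorem su_exists_suComap_eq (w w' : HeightOneSpectrum (𝓞 L))
    (h : w.under (𝓞 k) = w'.under (𝓞 k)) : ∃ τ : L ≃ₐ[k] L, suComap τ w = w' := by
  have := IsGaloisGroup.of_isFractionRing Gal(L/k) (𝓞 k) (𝓞 L) k L
  have h1 : w.asIdeal.LiesOver (w.under (𝓞 k)).asIdeal := ⟨rfl⟩
  have h2 : w'.asIdeal.LiesOver (w.under (𝓞 k)).asIdeal := ⟨by rw [h]; rfl⟩
  obtain ⟨σ, hσ⟩ := Ideal.exists_smul_eq_of_isGaloisGroup (w.under (𝓞 k)).asIdeal w.asIdeal
    w'.asIdeal Gal(L/k)
  refine ⟨σ⁻¹, ?_⟩
  apply HeightOneSpectrum.ext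
  rw [← hσ]
  ext a
  rw [mem_suComap, Ideal.mem_pointwise_smul_iff_inv_smul_mem]
  rfl

/-- The (left) action of the Galois group on the primes of `L`. -/
@[reducible] noncomputable def suMulAction : MulAction (L ≃ₐ[k] L) (HeightOneSpectrum (𝓞 L)) where
  smul τ w := suComap τ⁻¹ w
  one_smul w := by
    change suComap (1 : L ≃ₐ[k] L)⁻¹ w = w
    rw [inv_one, suComap_one]
  mul_smul τ τ' w := by
    change suComap (τ * τ')⁻¹ w = suComap τ⁻¹ (suComap τ'⁻¹ w)
    rw [mul_inv_rev, suComap_mul]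

/-- For a Galois extension of prime degree `p`, the number of primes above a given prime is
`1` or `p`. -/
theorem su_card_above (p : ℕ) (hp : p.Prime) (hdeg : Module.finrank k L = p)
    (v : HeightOneSpectrum (𝓞 k)) (T : Finset (HeightOneSpectrum (𝓞 L)))
    (hT : ∀ w : HeightOneSpectrum (𝓞 L), w ∈ T ↔ w.under (𝓞 k) = v) :
    T.card = 1 ∨ T.card = p := by
  let _ := suMulAction (k := k) (L := L)
  obtain ⟨w₀, hw₀⟩ := su_exists_under (L := L) v
  have horb : MulAction.orbit (L ≃ₐ[k] L) w₀ = (T : Set (HeightOneSpectrum (𝓞 L))) := by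
    ext w
    rw [Finset.mem_coe, hT]
    constructor
    · rintro ⟨τ, rfl⟩
      change (suComap τ⁻¹ w₀).under (𝓞 k) = v
      rw [suComap_under, hw₀]
    · intro hw
      obtain ⟨τ, hτ⟩ := su_exists_suComap_eq w₀ w (hw₀.trans hw.symm)
      refine ⟨τ⁻¹, ?_⟩
      change suComap τ⁻¹⁻¹ w₀ = w
      rw [inv_inv, hτ]
  have h1 := MulAction.index_stabilizer (L ≃ₐ[k] L) w₀
  rw [horb, Set.ncard_coe_finset] at h1
  have h2 : (MulAction.stabilizer (L ≃ₐ[k] L) w₀).index ∣ Nat.card (L ≃ₐ[k] L) :=
    Subgroup.index_dvd_card _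
  rw [h1, IsGalois.card_aut_eq_finrank, hdeg] at h2
  exact (Nat.dvd_prime hp).mp h2

/-- A prime of `k` is nonsplit in `L` if there is exactly one prime above it. -/
def suNonsplit (k L : Type*) [Field k] [Field L] [NumberField k] [NumberField L] [Algebra k L]
    (v : HeightOneSpectrum (𝓞 k)) : Prop :=
  ∀ w w' : HeightOneSpectrum (𝓞 L), w.under (𝓞 k) = v → w'.under (𝓞 k) = v → w = w'

/-- Counting the primes above `S`: `#S_L = u + p (#S - u)`, `u` the number of nonsplit primes. -/
theorem su_card_SL (p : ℕ) (hp : p.Prime) (hdeg : Module.finrank k L = p)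
    (S U : Finset (HeightOneSpectrum (𝓞 k))) (SL : Finset (HeightOneSpectrum (𝓞 L)))
    (hSL : ∀ w : HeightOneSpectrum (𝓞 L), w ∈ SL ↔ w.under (𝓞 k) ∈ S)
    (hU : ∀ v, v ∈ U ↔ v ∈ S ∧ suNonsplit k L v) :
    SL.card = U.card + p * (S.card - U.card) := by
  classical
  have hfib : SL.card = ∑ v ∈ S, (SL.filter (fun w => w.under (𝓞 k) = v)).card :=
    Finset.card_eq_sum_card_fiberwise (fun w hw => (hSL w).mp hw)
  have hUS : U ⊆ S := fun v hv => ((hU v).mp hv).1
  have hcard : ∀ v ∈ S, (SL.filter (fun w => w.under (𝓞 k) = v)).card =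
      if v ∈ U then 1 else p := by
    intro v hv
    have hT : ∀ w : HeightOneSpectrum (𝓞 L),
        w ∈ SL.filter (fun w => w.under (𝓞 k) = v) ↔ w.under (𝓞 k) = v := by
      intro w
      rw [Finset.mem_filter, hSL]
      constructor
      · exact fun h => h.2
      · exact fun h => ⟨h ▸ hv, h⟩
    have h1 := su_card_above p hp hdeg v _ hT
    by_cases hvU : v ∈ U
    · rw [if_pos hvU]
      have hns := ((hU v).mp hvU).2
      apply le_antisymm
      · rw [Finset.card_le_one]
        intro w hw w' hw'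
        exact hns w w' ((hT w).mp hw) ((hT w').mp hw')
      · rcases h1 with h1 | h1
        · rw [h1]
        · rw [h1]; exact hp.one_lt.le
    · rw [if_neg hvU]
      rcases h1 with h1 | h1
      · exfalso
        apply hvU
        rw [hU]
        refine ⟨hv, ?_⟩
        intro w w' hw hw'
        rw [Finset.card_eq_one] at h1
        obtain ⟨w₁, hw₁⟩ := h1
        have e1 : w ∈ ({w₁} : Finset _) := hw₁ ▸ (hT w).mpr hw
        have e2 : w' ∈ ({w₁} : Finset _) := hw₁ ▸ (hT w').mpr hw'
        rw [Finset.mem_singleton] at e1 e2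
        rw [e1, e2]
      · exact h1
  rw [hfib, Finset.sum_congr rfl hcard, Finset.sum_ite, Finset.sum_const, Finset.sum_const,
    smul_eq_mul, smul_eq_mul, mul_one]
  have e1 : S.filter (fun v => v ∈ U) = U := by
    ext v
    rw [Finset.mem_filter]
    exact ⟨fun h => h.2, fun h => ⟨hUS h, h⟩⟩
  have e2 : (S.filter (fun v => v ∉ U)).card = S.card - U.card := by
    have := Finset.card_filter_add_card_filter_not (s := S) (fun v => v ∈ U)
    rw [e1] at this
    omega
  rw [e1, e2, mul_comm]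

end Galois

section Hq

variable {k L : Type*} [Field k] [Field L] [NumberField k] [NumberField L] [Algebra k L]
  [IsGalois k L]

variable (S : Finset (HeightOneSpectrum (𝓞 k))) (SL : Finset (HeightOneSpectrum (𝓞 L)))

/-- The additive form of the action of `τ` on the `S_L`-units. -/
noncomputable def suActAdd (hSL : ∀ w : HeightOneSpectrum (𝓞 L), w ∈ SL ↔ w.under (𝓞 k) ∈ S)
    (τ : L ≃ₐ[k] L) :
    Additive ((SL : Set (HeightOneSpectrum (𝓞 L))).unit L) →+
      Additive ((SL : Set (HeightOneSpectrum (𝓞 L))).unit L) :=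
  MonoidHom.toAdditive (suAct S SL hSL τ)

theorem suActAdd_apply (hSL : ∀ w : HeightOneSpectrum (𝓞 L), w ∈ SL ↔ w.under (𝓞 k) ∈ S)
    (τ : L ≃ₐ[k] L) (x : (SL : Set (HeightOneSpectrum (𝓞 L))).unit L) :
    suActAdd S SL hSL τ (Additive.ofMul x) = Additive.ofMul (suAct S SL hSL τ x) := rfl

theorem suActAdd_iterate (hSL : ∀ w : HeightOneSpectrum (𝓞 L), w ∈ SL ↔ w.under (𝓞 k) ∈ S)
    (τ : L ≃ₐ[k] L) (n : ℕ) (x : Additive ((SL : Set (HeightOneSpectrum (𝓞 L))).unit L)) :
    (⇑(suActAdd S SL hSL τ))^[n] x = suActAdd S SL hSL (τ ^ n) x := by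
  induction n generalizing x with
  | zero =>
    obtain ⟨x, rfl⟩ := Additive.ofMul.surjective x
    rw [pow_zero, suActAdd_apply, suAct_one]
    rfl
  | succ n ih =>
    obtain ⟨x, rfl⟩ := Additive.ofMul.surjective x
    rw [Function.iterate_succ_apply, ih, pow_succ, suActAdd_apply, suActAdd_apply,
      suActAdd_apply, suAct_mul]

/-- The fixed points of a generator `σ` on the `S_L`-units are the `S`-units of `k`. -/
theorem su_fixed (hSL : ∀ w : HeightOneSpectrum (𝓞 L), w ∈ SL ↔ w.under (𝓞 k) ∈ S)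
    (σ : L ≃ₐ[k] L) (hσ : ∀ τ : L ≃ₐ[k] L, τ ∈ Subgroup.zpowers σ)
    (x : (SL : Set (HeightOneSpectrum (𝓞 L))).unit L) (hx : suAct S SL hSL σ x = x) :
    ∃ z, suBase S SL hSL z = x := by
  have hx' : σ ((x : Lˣ) : L) = ((x : Lˣ) : L) := by
    rw [← suAct_apply S SL hSL σ x, hx]
  have hall : ∀ τ : L ≃ₐ[k] L, τ ((x : Lˣ) : L) = ((x : Lˣ) : L) := by
    intro τ
    obtain ⟨n, rfl⟩ := Subgroup.mem_zpowers_iff.mp (hσ τ)
    have hsymm : σ.symm ((x : Lˣ) : L) = ((x : Lˣ) : L) := by
      conv_lhs => rw [← hx']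
      exact σ.symm_apply_apply _
    have hpow : ∀ m : ℕ, (σ ^ m) ((x : Lˣ) : L) = ((x : Lˣ) : L) := by
      intro m
      induction m with
      | zero => rfl
      | succ m ih =>
        rw [pow_succ, AlgEquiv.mul_apply, hx', ih]
    have hpow' : ∀ m : ℕ, (σ⁻¹ ^ m) ((x : Lˣ) : L) = ((x : Lˣ) : L) := by
      intro m
      induction m with
      | zero => rfl
      | succ m ih =>
        rw [pow_succ, AlgEquiv.mul_apply]
        change (σ⁻¹ ^ m) (σ.symm ((x : Lˣ) : L)) = _
        rw [hsymm, ih]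
    cases n with
    | ofNat m => exact hpow m
    | negSucc m =>
      rw [zpow_negSucc, ← inv_pow]
      exact hpow' (m + 1)
  obtain ⟨y, hy⟩ := (IsGalois.mem_range_algebraMap_iff_fixed ((x : Lˣ) : L)).mpr hall
  exact su_mem_range_suBase S SL hSL x y hy

/-- **Herbrand quotient of `S`-units** for a Galois extension `L / k` of odd prime degree `p`
with group `⟨σ⟩`: `|Ĥ^0| · p = |H^1| · p ^ u`, `u` the number of nonsplit primes in `S`
(`S_L` the set of primes of `L` above `S`). -/
theorem su_hq_units (p : ℕ) (hp : p.Prime) (hp2 : p ≠ 2) (hdeg : Module.finrank k L = p)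
    (σ : L ≃ₐ[k] L) (hσ : σ ≠ 1)
    (U : Finset (HeightOneSpectrum (𝓞 k)))
    (hSL : ∀ w : HeightOneSpectrum (𝓞 L), w ∈ SL ↔ w.under (𝓞 k) ∈ S)
    (hU : ∀ v, v ∈ U ↔ v ∈ S ∧ suNonsplit k L v)
    (D N : Additive ((SL : Set (HeightOneSpectrum (𝓞 L))).unit L) →+
      Additive ((SL : Set (HeightOneSpectrum (𝓞 L))).unit L))
    (hD : ∀ x, D x = suActAdd S SL hSL σ x - x)
    (hN : ∀ x, N x = ∑ i ∈ Finset.range p, (⇑(suActAdd S SL hSL σ))^[i] x) :
    hq D N ≠ 0 ∧ hq N D ≠ 0 ∧ hq D N * p = hq N D * p ^ U.card := by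
  classical
  have : Fact p.Prime := ⟨hp⟩
  have hcard : Nat.card (L ≃ₐ[k] L) = p := by rw [IsGalois.card_aut_eq_finrank, hdeg]
  have hgen : ∀ τ : L ≃ₐ[k] L, τ ∈ Subgroup.zpowers σ := by
    intro τ
    rw [zpowers_eq_top_of_prime_card hcard hσ]
    exact Subgroup.mem_top τ
  have hσp : σ ^ p = 1 := by rw [← hcard]; exact pow_card_eq_one'
  -- finiteness and ranks
  obtain ⟨hfinL, hrankL⟩ := su_finrank L SL
  obtain ⟨hfink, hrankk⟩ := su_finrank k S
  -- the kernel of `D`
  let ι : Additive ((S : Set (HeightOneSpectrum (𝓞 k))).unit k) →+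
      Additive ((SL : Set (HeightOneSpectrum (𝓞 L))).unit L) :=
    MonoidHom.toAdditive (suBase S SL hSL)
  have hι : Function.Injective ι := fun x y h => by
    obtain ⟨x, rfl⟩ := Additive.ofMul.surjective x
    obtain ⟨y, rfl⟩ := Additive.ofMul.surjective y
    have : suBase S SL hSL x = suBase S SL hSL y := Additive.ofMul.injective h
    rw [suBase_injective S SL hSL this]
  have hker : ι.range = D.ker := by
    ext x
    obtain ⟨x, rfl⟩ := Additive.ofMul.surjective x
    rw [AddMonoidHom.mem_ker, hD, sub_eq_zero, suActAdd_apply]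
    constructor
    · rintro ⟨z, hz⟩
      obtain ⟨z, rfl⟩ := Additive.ofMul.surjective z
      have hz' : suBase S SL hSL z = x := Additive.ofMul.injective hz
      congr 1
      apply Subtype.ext
      apply Units.ext
      rw [suAct_apply, ← hz', suBase_apply]
      exact σ.commutes _
    · intro h
      obtain ⟨z, hz⟩ := su_fixed S SL hSL σ hgen x (Additive.ofMul.injective h)
      exact ⟨Additive.ofMul z, congrArg Additive.ofMul hz⟩
  let eker : Additive ((S : Set (HeightOneSpectrum (𝓞 k))).unit k) ≃+ D.ker :=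
    (AddMonoidHom.ofInjective hι).trans (AddEquiv.addSubgroupCongr hker)
  have ha : Module.finrank ℤ D.ker = S.card + NumberField.Units.rank k := by
    rw [← hrankk]
    exact (LinearEquiv.finrank_eq eker.toIntLinearEquiv).symm
  -- counting
  have hSLcard := su_card_SL p hp hdeg S U SL hSL hU
  have hodd : Odd (Module.finrank k L) := by
    rw [hdeg]
    exact hp.odd_of_ne_two hp2
  have := IsUnramifiedAtInfinitePlaces_of_odd_finrank hodd
  have hinf := IsUnramifiedAtInfinitePlaces.card_infinitePlace k L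
  rw [hdeg] at hinf
  have hipos : 0 < Fintype.card (InfinitePlace k) := Fintype.card_pos
  have hUS : U.card ≤ S.card := Finset.card_le_card (fun v hv => ((hU v).mp hv).1)
  have hp1 : 1 ≤ p := hp.one_lt.le
  set i := Fintype.card (InfinitePlace k) with hi
  set s := S.card with hs
  set u := U.card with hu
  have hr : Module.finrank ℤ (Additive ((SL : Set (HeightOneSpectrum (𝓞 L))).unit L)) =
      (s + NumberField.Units.rank k) + (p - 1) * (s - u + i) := by
    rw [hrankL, hSLcard, NumberField.Units.rank, NumberField.Units.rank, hinf, ← hi]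
    obtain ⟨q, rfl⟩ : ∃ q, p = q + 1 := ⟨p - 1, by omega⟩
    obtain ⟨t, ht⟩ : ∃ t, s = u + t := ⟨s - u, by omega⟩
    obtain ⟨j, hj⟩ : ∃ j, i = j + 1 := ⟨i - 1, by omega⟩
    rw [ht, hj]
    simp only [Nat.add_sub_cancel, Nat.add_sub_cancel_left]
    have e : (j + 1) * (q + 1) - 1 = j * q + j + q := by
      have : (j + 1) * (q + 1) = j * q + j + q + 1 := by ring
      omega
    rw [e]
    ring
  have hσit : ∀ x, (⇑(suActAdd S SL hSL σ))^[p] x = x := by
    intro x
    obtain ⟨x, rfl⟩ := Additive.ofMul.surjective x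
    rw [suActAdd_iterate, hσp, suActAdd_apply, suAct_one]
  obtain ⟨h1, h2, h3⟩ := hqp_rank_formula p hp (suActAdd S SL hSL σ) D N hσit hD hN
    (s + NumberField.Units.rank k) (s - u + i) (by rw [ha]) hr
  refine ⟨h1, h2, ?_⟩
  have hpp : 0 < p ^ (s - u + i) := pow_pos hp.pos _
  have hexp : s + NumberField.Units.rank k + 1 = (s - u + i) + u := by
    rw [NumberField.Units.rank, ← hi]
    omega
  apply Nat.eq_of_mul_eq_mul_right hpp
  calc hq D N * p * p ^ (s - u + i) = (hq D N * p ^ (s - u + i)) * p := by ring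
    _ = hq N D * p ^ (s + NumberField.Units.rank k) * p := by rw [h3]
    _ = hq N D * p ^ (s + NumberField.Units.rank k + 1) := by rw [pow_succ, mul_assoc]
    _ = hq N D * p ^ u * p ^ (s - u + i) := by rw [hexp, pow_add]; ring

end Hq

end Fermat.Agent.S55
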