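import Fermat.Agent.S55.KsiTorsion
import Fermat.Agent.S55.SUnitHq

set_option autoImplicit false

/-!
# S55 block KSI: Kummer splitting (completions-free)

`K ∋ ζ_p`, `M = K(x^{1/p})` of degree `p`.  If `x` is a `p`-th power at `v` up to a sufficiently
high precision, then no prime of `M` above `v` is fixed by a nontrivial automorphism
(`ksi_split`), i.e. `v` splits in `M`.
-/

namespace Fermat.Agent.S55

open IsDedekindDomain NumberField WithZero

variable {K M : Type*} [Field K] [NumberField K] [Field M] [NumberField M] [Algebra K M]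
  [IsGalois K M]

/-- An automorphism of a degree-`p` extension fixing a generator outside the base is trivial. -/
theorem ksi_eq_one_of_fix (p : ℕ) [hp : Fact p.Prime] (hM : Module.finrank K M = p) (θ : M)
    (hθ : θ ∉ (algebraMap K M).range) (σ : M ≃ₐ[K] M) (hσ : σ θ = θ) : σ = 1 := by
  have hsimple : IsSimpleOrder (IntermediateField K M) :=
    IntermediateField.isSimpleOrder_of_finrank_prime K M (hM ▸ hp.out)
  have htop : IntermediateField.adjoin K {θ} = ⊤ := by
    rcases eq_bot_or_eq_top (IntermediateField.adjoin K {θ}) with h | h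
    · exfalso
      have hmem : θ ∈ IntermediateField.adjoin K {θ} :=
        IntermediateField.mem_adjoin_simple_self K θ
      rw [h, IntermediateField.mem_bot] at hmem
      obtain ⟨t, ht⟩ := hmem
      exact hθ ⟨t, ht⟩
    · exact h
  ext m
  have hm : m ∈ IntermediateField.adjoin K {θ} := by rw [htop]; trivial
  change σ m = m
  induction hm using IntermediateField.adjoin_induction with
  | mem x hx =>
    rw [Set.mem_singleton_iff] at hx
    rw [hx, hσ]
  | algebraMap x => exact σ.commutes x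
  | add x y _ _ hx hy => rw [map_add, hx, hy]
  | inv x _ hx => rw [map_inv₀, hx]
  | mul x y _ _ hx hy => rw [map_mul, hx, hy]

theorem ksi_split (p : ℕ) [hp : Fact p.Prime] {ζ : K} (hζ : IsPrimitiveRoot ζ p)
    (hM : Module.finrank K M = p) (θ : M) (x : Kˣ) (hθ : θ ^ p = algebraMap K M x)
    (hx : x ∉ (powMonoidHom p : Kˣ →* Kˣ).range) (v : HeightOneSpectrum (𝓞 K)) (d : ℕ)
    (hd : v.valuation K (1 - ζ) = exp (-(d : ℤ))) (n : ℕ) (hn : p * d < n)
    (hxv : x ∈ ksiPow K p v n) (w : HeightOneSpectrum (𝓞 M)) (hw : w.under (𝓞 K) = v)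
    (σ : M ≃ₐ[K] M) (hσ : σ ≠ 1) : suComap σ w ≠ w := by
  classical
  subst hw
  intro hfix
  have hp0 : p ≠ 0 := hp.out.ne_zero
  have : NeZero p := ⟨hp0⟩
  have hlies : w.asIdeal.LiesOver (w.under (𝓞 K)).asIdeal := ⟨rfl⟩
  set e := (w.under (𝓞 K)).asIdeal.ramificationIdx' w.asIdeal with he
  have he0 : e ≠ 0 :=
    Ideal.IsDedekindDomain.ramificationIdx'_ne_zero_of_liesOver w.asIdeal (w.under (𝓞 K)).ne_bot
  have hval : ∀ c : K, w.valuation M (algebraMap K M c) = (w.under (𝓞 K)).valuation K c ^ e :=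
    fun c => (HeightOneSpectrum.valuation_liesOver M (w.under (𝓞 K)) w c).symm
  -- the root of unity in `M`
  set ζM : M := algebraMap K M ζ with hζM
  have hζM' : IsPrimitiveRoot ζM p := hζ.map_of_injective (algebraMap K M).injective
  -- decompose `x`
  obtain ⟨y, u, hu, hyu⟩ := mem_ksiPow_iff.1 hxv
  rw [mem_ksiU_iff] at hu
  have hy0 : algebraMap K M (y : K) ≠ 0 := by
    rw [Ne, map_eq_zero]
    exact y.ne_zero
  set η : M := θ / algebraMap K M (y : K) with hη
  have hηp : η ^ p = algebraMap K M (u : K) := by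
    have hx' : (x : K) = (y : K) ^ p * (u : K) := by
      rw [← hyu]
      push_cast
      rfl
    rw [hη, div_pow, hθ, hx', map_mul, map_pow]
    field_simp
  have hwη : w.valuation M η = 1 := by
    apply ksi_val_eq_one_of_pow hp0
    rw [hηp, hval, hu.1, one_pow]
  -- `η^p - 1` is small
  have hsmall : w.valuation M (η ^ p - 1) < w.valuation M (1 - ζM) ^ p := by
    have h1 : η ^ p - 1 = algebraMap K M ((u : K) - 1) := by rw [hηp, map_sub, map_one]
    have h2 : (1 : M) - ζM = algebraMap K M (1 - ζ) := by rw [map_sub, map_one]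
    rw [h1, h2, hval, hval, hd, ← pow_mul, mul_comm e p, pow_mul]
    refine lt_of_le_of_lt (pow_le_pow_left₀ zero_le hu.2 e) ?_
    refine pow_lt_pow_left₀ ?_ zero_le he0
    rw [← exp_nsmul, exp_lt_exp]
    simp only [nsmul_eq_mul]
    have : ((p * d : ℕ) : ℤ) < n := by exact_mod_cast hn
    push_cast at this
    linarith
  -- a root of unity close to `η`
  have hprod : η ^ p - 1 = ∏ μ ∈ Polynomial.nthRootsFinset p (1 : M), (η - μ) := by
    have := hζM'.pow_sub_pow_eq_prod_sub_mul η 1 hp.out.pos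
    simpa using this
  have hcard : (Polynomial.nthRootsFinset p (1 : M)).card = p := hζM'.card_nthRootsFinset
  have hex : ∃ μ₀ ∈ Polynomial.nthRootsFinset p (1 : M),
      w.valuation M (η - μ₀) < w.valuation M (1 - ζM) := by
    by_contra h
    push Not at h
    have h1 := Finset.pow_card_le_prod (Polynomial.nthRootsFinset p (1 : M))
      (fun μ => w.valuation M (η - μ)) (w.valuation M (1 - ζM)) h
    rw [hcard, ← map_prod, ← hprod] at h1
    exact absurd h1 (not_le.2 hsmall)
  obtain ⟨μ₀, hμ₀, hlt⟩ := hex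
  have hμ₀p : μ₀ ^ p = 1 := (Polynomial.mem_nthRootsFinset hp.out.pos (1 : M)).mp hμ₀
  -- `σ` fixes the roots of unity
  have hσμ : σ μ₀ = μ₀ := by
    obtain ⟨i, -, hi⟩ := hζM'.eq_pow_of_pow_eq_one hμ₀p
    rw [← hi, map_pow, hζM, σ.commutes]
  -- `σ θ = ζ' θ`
  have hθ0 : θ ≠ 0 := by
    intro h0
    rw [h0, zero_pow hp0] at hθ
    exact x.ne_zero ((algebraMap K M).injective (by rw [map_zero]; exact hθ.symm))
  have hθK : θ ∉ (algebraMap K M).range := by
    rintro ⟨t, ht⟩
    apply hx
    have ht0 : t ≠ 0 := by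
      rintro rfl
      rw [map_zero] at ht
      exact hθ0 ht.symm
    refine ⟨Units.mk0 t ht0, ?_⟩
    apply Units.ext
    apply (algebraMap K M).injective
    rw [powMonoidHom_apply, Units.val_pow_eq_pow_val, Units.val_mk0, map_pow, ht, hθ]
  have hσθ : σ θ ≠ θ := fun h => hσ (ksi_eq_one_of_fix p hM θ hθK σ h)
  set ζ' : M := σ θ / θ with hζ'
  have hζ'p : ζ' ^ p = 1 := by
    rw [hζ', div_pow, ← map_pow, hθ, σ.commutes]
    exact div_self (by rw [← hθ]; exact pow_ne_zero p hθ0)
  have hζ'1 : ζ' ≠ 1 := by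
    intro h
    rw [hζ', div_eq_one_iff_eq hθ0] at h
    exact hσθ h
  have hση : σ η = ζ' * η := by
    rw [hη, map_div₀, σ.commutes, hζ']
    field_simp
  -- valuations are `σ`-invariant
  have hinv : ∀ z : M, w.valuation M (σ z) = w.valuation M z := by
    intro z
    rw [su_valuation_algEquiv, hfix]
  have hlt' : w.valuation M (ζ' * η - μ₀) < w.valuation M (1 - ζM) := by
    have := hinv (η - μ₀)
    rw [map_sub, hση, hσμ] at this
    rw [this]
    exact hlt
  have h3 : w.valuation M (ζ' * η - η) < w.valuation M (1 - ζM) := by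
    have e1 : ζ' * η - η = (ζ' * η - μ₀) - (η - μ₀) := by ring
    rw [e1]
    exact lt_of_le_of_lt (Valuation.map_sub _ _ _) (max_lt hlt' hlt)
  have h4 : w.valuation M (ζ' * η - η) = w.valuation M (1 - ζM) := by
    have e2 : ζ' * η - η = (ζ' - 1) * η := by ring
    rw [e2, map_mul, hwη, mul_one]
    exact ksi_val_root_sub_root p hζM' w hζ'p (one_pow p) hζ'1
  exact absurd h4 h3.ne

/-- Under the hypotheses of `ksi_split`, the prime `v` is not nonsplit in `M`. -/
theorem ksi_not_nonsplit (p : ℕ) [hp : Fact p.Prime] {ζ : K} (hζ : IsPrimitiveRoot ζ p)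
    (hM : Module.finrank K M = p) (θ : M) (x : Kˣ) (hθ : θ ^ p = algebraMap K M x)
    (hx : x ∉ (powMonoidHom p : Kˣ →* Kˣ).range) (v : HeightOneSpectrum (𝓞 K)) (d : ℕ)
    (hd : v.valuation K (1 - ζ) = exp (-(d : ℤ))) (n : ℕ) (hn : p * d < n)
    (hxv : x ∈ ksiPow K p v n) : ¬ suNonsplit K M v := by
  intro hns
  obtain ⟨w, hw⟩ := su_exists_under (L := M) v
  have hcard : Nat.card (M ≃ₐ[K] M) = p := by rw [IsGalois.card_aut_eq_finrank, hM]
  have hnt : Nontrivial (M ≃ₐ[K] M) := by
    rw [← Finite.one_lt_card_iff_nontrivial, hcard]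
    exact hp.out.one_lt
  obtain ⟨σ, hσ⟩ := exists_ne (1 : M ≃ₐ[K] M)
  exact ksi_split p hζ hM θ x hθ hx v d hd n hn hxv w hw σ hσ
    (hns _ _ (by rw [suComap_under, hw]) hw)

end Fermat.Agent.S55
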