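import Fermat.Agent.S55.KsiAux
import Fermat.Agent.S55.KsiSplit
import Fermat.Agent.S55.KsiNormVal
import Fermat.Agent.S55.SUnitPid

set_option autoImplicit false

/-!
# S55 block KSI: adjusting valuations at the auxiliary primes
-/

namespace Fermat.Agent.S55

open IsDedekindDomain NumberField WithZero

variable {K : Type} [Field K] [NumberField K]

/-- Generic adjustment: given "uniformizers" `π w` for `w ∈ T` (units outside `S ∪ {w}`), every
`z` can be multiplied by a product of powers of the `π w` to become a unit at all `w ∈ T`. -/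
theorem ksi_adjust [DecidableEq (HeightOneSpectrum (𝓞 K))]
    (S T : Finset (HeightOneSpectrum (𝓞 K))) (π : HeightOneSpectrum (𝓞 K) → Kˣ)
    (hπ : ∀ w ∈ T, w.valuation K (π w : K) = exp (-1 : ℤ) ∧
      ∀ v' : HeightOneSpectrum (𝓞 K), v' ∉ S → v' ≠ w → v'.valuation K (π w : K) = 1)
    (hTS : ∀ w ∈ T, w ∉ S) (z : Kˣ) :
    ∃ k : HeightOneSpectrum (𝓞 K) → ℤ,
      (∀ w ∈ T, w.valuation K ((z * ∏ w' ∈ T, π w' ^ k w' : Kˣ) : K) = 1) ∧
      ∀ v' : HeightOneSpectrum (𝓞 K), v' ∉ S → v' ∉ T →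
        v'.valuation K ((∏ w' ∈ T, π w' ^ k w' : Kˣ) : K) = 1 := by
  refine ⟨fun w => log (w.valuation K (z : K)), ?_, ?_⟩
  · intro w hw
    have hz : w.valuation K (z : K) = exp (log (w.valuation K (z : K))) :=
      (exp_log (by simp)).symm
    rw [Units.val_mul, Units.coe_prod, map_mul, map_prod]
    rw [Finset.prod_eq_single w]
    · rw [Units.val_zpow_eq_zpow_val, map_zpow₀, (hπ w hw).1, ← exp_zsmul]
      nth_rewrite 1 [hz]
      rw [← exp_add]
      simp
    · intro w' hw' hne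
      rw [Units.val_zpow_eq_zpow_val, map_zpow₀, (hπ w' hw').2 w (hTS w hw) (Ne.symm hne),
        one_zpow]
    · intro h
      exact absurd hw h
  · intro v' hv'S hv'T
    rw [Units.coe_prod, map_prod]
    apply Finset.prod_eq_one
    intro w' hw'
    have hne : v' ≠ w' := fun h => hv'T (h ▸ hw')
    rw [Units.val_zpow_eq_zpow_val, map_zpow₀, (hπ w' hw').2 v' hv'S hne, one_zpow]

/-- Every element of `Kˣ` is (a unit at all `w ∈ T`) times (an `S ∪ T`-unit). -/
theorem ksi_top_le_units_sup [DecidableEq (HeightOneSpectrum (𝓞 K))]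
    (S T : Finset (HeightOneSpectrum (𝓞 K))) (hPID : suPid K S) (hT : ∀ w ∈ T, w ∉ S) :
    (⨅ w ∈ T, ksiU K w 0) ⊔ ((↑(S ∪ T) : Set (HeightOneSpectrum (𝓞 K))).unit K) = ⊤ := by
  classical
  rw [eq_top_iff]
  intro z _
  let π : HeightOneSpectrum (𝓞 K) → Kˣ := fun w =>
    if h : w ∉ S then (hPID w h).choose else 1
  have hπ : ∀ w ∈ T, w.valuation K (π w : K) = exp (-1 : ℤ) ∧
      ∀ v' : HeightOneSpectrum (𝓞 K), v' ∉ S → v' ≠ w → v'.valuation K (π w : K) = 1 := by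
    intro w hw
    have h := hT w hw
    simp only [π, dif_pos h]
    exact (hPID w h).choose_spec
  obtain ⟨k, hk1, hk2⟩ := ksi_adjust S T π hπ hT z
  set u : Kˣ := ∏ w' ∈ T, π w' ^ k w' with hu
  have hz : z = (z * u) * u⁻¹ := by group
  rw [hz]
  refine Subgroup.mul_mem _ (Subgroup.mem_sup_left ?_) (Subgroup.mem_sup_right ?_)
  · rw [Subgroup.mem_iInf]
    intro w
    rw [Subgroup.mem_iInf]
    intro hw
    rw [mem_ksiU_zero_iff]
    exact hk1 w hw
  · apply Subgroup.inv_mem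
    rw [ksi_mem_sunit_iff]
    intro v hv
    rw [Finset.mem_union, not_or] at hv
    exact hk2 v hv.1 hv.2

/-- `S ∪ T`-units are `S`-units times global norms from `L`, when the primes of `T` split in
`L = K(a^{1/p})` and the `S_L`-class group of `L` is trivial. -/
theorem ksi_units_le_sup_norm (p : ℕ) [hp : Fact p.Prime]
    [DecidableEq (HeightOneSpectrum (𝓞 K))] {ζ : K} (hζ : IsPrimitiveRoot ζ p)
    (L : Type) [Field L] [NumberField L] [Algebra K L] [IsGalois K L]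
    (hL : Module.finrank K L = p) (a : Kˣ) (θ : L) (hθ : θ ^ p = algebraMap K L (a : K))
    (hap : a ∉ (powMonoidHom p : Kˣ →* Kˣ).range)
    (S : Finset (HeightOneSpectrum (𝓞 K)))
    (hpS : ∀ v : HeightOneSpectrum (𝓞 K), (p : 𝓞 K) ∈ v.asIdeal → v ∈ S)
    (SL : Finset (HeightOneSpectrum (𝓞 L)))
    (hSL : ∀ w : HeightOneSpectrum (𝓞 L), w ∈ SL ↔ w.under (𝓞 K) ∈ S) (hPIDL : suPid L SL)
    (T : Finset (HeightOneSpectrum (𝓞 K))) (hT : ∀ w ∈ T, w ∉ S ∧ a ∈ ksiPow K p w 1) :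
    ((↑(S ∪ T) : Set (HeightOneSpectrum (𝓞 K))).unit K) ≤
      ((S : Set (HeightOneSpectrum (𝓞 K))).unit K) ⊔
        (Units.map (Algebra.norm K : L →* K)).range := by
  classical
  have hη : ∀ w ∈ T, ∃ η : Lˣ, w.valuation K (Algebra.norm K (η : L)) = exp (-1 : ℤ) ∧
      ∀ v' : HeightOneSpectrum (𝓞 K), v' ∉ S → v' ≠ w →
        v'.valuation K (Algebra.norm K (η : L)) = 1 := by
    intro w hw
    obtain ⟨hwS, haw⟩ := hT w hw
    have hpw : (p : 𝓞 K) ∉ w.asIdeal := fun h => hwS (hpS w h)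
    have hd0 : ksiD ζ w = 0 := ksiD_eq_zero p hζ w hpw
    have hd : w.valuation K (1 - ζ) = exp (-((0 : ℕ) : ℤ)) := by
      rw [← hd0]; exact ksiD_spec p hζ w
    obtain ⟨𝔚, h𝔚⟩ := su_exists_under (L := L) w
    have hstab : ∀ σ : L ≃ₐ[K] L, σ ≠ 1 → suComap σ 𝔚 ≠ 𝔚 := fun σ hσ =>
      ksi_split p hζ hL θ a hθ hap w 0 hd 1 (by simp) haw 𝔚 h𝔚 σ hσ
    exact ksi_norm_uniformizer S SL hSL hPIDL w hwS 𝔚 h𝔚 hstab
  let π : HeightOneSpectrum (𝓞 K) → Kˣ := fun w =>
    if h : w ∈ T then Units.map (Algebra.norm K : L →* K) (hη w h).choose else 1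
  have hπ : ∀ w ∈ T, w.valuation K (π w : K) = exp (-1 : ℤ) ∧
      ∀ v' : HeightOneSpectrum (𝓞 K), v' ∉ S → v' ≠ w → v'.valuation K (π w : K) = 1 := by
    intro w hw
    simp only [π, dif_pos hw]
    exact (hη w hw).choose_spec
  have hπrange : ∀ w, π w ∈ (Units.map (Algebra.norm K : L →* K)).range := by
    intro w
    by_cases h : w ∈ T
    · simp only [π, dif_pos h]
      exact ⟨_, rfl⟩
    · simp only [π, dif_neg h]
      exact Subgroup.one_mem _
  intro x hx
  obtain ⟨k, hk1, hk2⟩ := ksi_adjust S T π hπ (fun w hw => (hT w hw).1) x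
  set u : Kˣ := ∏ w' ∈ T, π w' ^ k w' with hu
  have hx' : x = (x * u) * u⁻¹ := by group
  rw [hx']
  refine Subgroup.mul_mem _ (Subgroup.mem_sup_left ?_) (Subgroup.mem_sup_right ?_)
  · rw [ksi_mem_sunit_iff]
    intro v hvS
    by_cases hvT : v ∈ T
    · exact hk1 v hvT
    · have h1 : v.valuation K (x : K) = 1 :=
        (ksi_mem_sunit_iff (S ∪ T) x).mp hx v (by
          rw [Finset.mem_union, not_or]; exact ⟨hvS, hvT⟩)
      rw [Units.val_mul, map_mul, h1, hk2 v hvS hvT, one_mul]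
  · apply Subgroup.inv_mem
    rw [hu]
    exact Subgroup.prod_mem _ (fun w _ => Subgroup.zpow_mem _ (hπrange w) _)

end Fermat.Agent.S55
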