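import Mathlib

set_option autoImplicit false

/-!
# S55 block KSI: the Kummer extension `K(x^{1/p})` as a number field
-/

namespace Fermat.Agent.S55

open Polynomial

theorem ksi_exists_kummer_ext (p : ℕ) [hp : Fact p.Prime] (K : Type) [Field K] [NumberField K]
    {ζ : K} (hζ : IsPrimitiveRoot ζ p) (x : K) (hx : ∀ t : K, t ^ p ≠ x) :
    ∃ (M : Type) (_ : Field M) (_ : NumberField M) (_ : Algebra K M) (_ : IsGalois K M),
      Module.finrank K M = p ∧ ∃ θ : M, θ ^ p = algebraMap K M x := by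
  have H : Irreducible (X ^ p - C x) := X_pow_sub_C_irreducible_of_prime hp.out hx
  have hfact : Fact (Irreducible (X ^ p - C x)) := ⟨H⟩
  have hζ' : (primitiveRoots p K).Nonempty := ⟨ζ, (mem_primitiveRoots hp.out.pos).mpr hζ⟩
  have hsplit : IsSplittingField K (AdjoinRoot (X ^ p - C x)) (X ^ p - C x) :=
    isSplittingField_AdjoinRoot_X_pow_sub_C hζ' H
  have hgal : IsGalois K (AdjoinRoot (X ^ p - C x)) :=
    isGalois_of_isSplittingField_X_pow_sub_C hζ' H (AdjoinRoot (X ^ p - C x))
  have hfin : Module.finrank K (AdjoinRoot (X ^ p - C x)) = p :=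
    finrank_of_isSplittingField_X_pow_sub_C hζ' H (AdjoinRoot (X ^ p - C x))
  have hfd : FiniteDimensional K (AdjoinRoot (X ^ p - C x)) :=
    Module.finite_of_finrank_pos (by rw [hfin]; exact hp.out.pos)
  have hnf : NumberField (AdjoinRoot (X ^ p - C x)) :=
    NumberField.of_module_finite K (AdjoinRoot (X ^ p - C x))
  refine ⟨AdjoinRoot (X ^ p - C x), inferInstance, hnf, inferInstance, hgal, hfin,
    AdjoinRoot.root _, ?_⟩
  have h := AdjoinRoot.eval₂_root (X ^ p - C x)
  rw [eval₂_sub, eval₂_pow, eval₂_X, eval₂_C, sub_eq_zero] at h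
  exact h

end Fermat.Agent.S55
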