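import Fermat.Agent.S55.KsiMain
import Fermat.Agent.S55.KsiExt
import Fermat.Agent.S55.KsiAdjust

set_option autoImplicit false

/-!
# S55 block KSI: the second inequality for cyclic Kummer extensions of prime degree

`K ∋ ζ_p` a number field, `S ⊇ {v | p}` a finite set of primes with trivial `S`-class group,
`a` an `S`-unit which is not a `p`-th power, `L = K(a^{1/p})` (with trivial `S_L`-class group).
Then for every precision function `n`,

  `[Kˣ : E_S · {x | x is a local norm from L at all v ∈ S to precision n v}] ≤ p`.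

The only non-elementary input is the weak first inequality `hFI` (owner: helper1, `fi_weak`).
-/

namespace Fermat.Agent.S55

open IsDedekindDomain NumberField WithZero

/-- **Second inequality** (Kummer index computation), completions-free form. -/
theorem ksi_second_inequality (p : ℕ) [hp : Fact p.Prime] (hp2 : p ≠ 2)
    (K : Type) [Field K] [NumberField K] {ζ : K} (hζ : IsPrimitiveRoot ζ p)
    (S : Finset (HeightOneSpectrum (𝓞 K)))
    (hpS : ∀ v : HeightOneSpectrum (𝓞 K), (p : 𝓞 K) ∈ v.asIdeal → v ∈ S) (hPID : suPid K S)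
    (a : Kˣ) (ha : a ∈ (S : Set (HeightOneSpectrum (𝓞 K))).unit K)
    (hap : a ∉ (powMonoidHom p : Kˣ →* Kˣ).range)
    (L : Type) [Field L] [NumberField L] [Algebra K L] [IsGalois K L]
    (hL : Module.finrank K L = p) (θ : L) (hθ : θ ^ p = algebraMap K L (a : K))
    (SL : Finset (HeightOneSpectrum (𝓞 L)))
    (hSL : ∀ w : HeightOneSpectrum (𝓞 L), w ∈ SL ↔ w.under (𝓞 K) ∈ S) (hPIDL : suPid L SL)
    (hFI : ∀ (S' : Finset (HeightOneSpectrum (𝓞 K))),
      (∀ v : HeightOneSpectrum (𝓞 K), (p : 𝓞 K) ∈ v.asIdeal → v ∈ S') → suPid K S' →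
      ∀ x : Kˣ, x ∈ (S' : Set (HeightOneSpectrum (𝓞 K))).unit K →
      x ∉ (powMonoidHom p : Kˣ →* Kˣ).range →
      ∀ (M : Type) [Field M] [NumberField M] [Algebra K M] [IsGalois K M],
      Module.finrank K M = p → ∀ θ : M, θ ^ p = algebraMap K M (x : K) →
      (∀ v : HeightOneSpectrum (𝓞 K), (p : 𝓞 K) ∈ v.asIdeal → ¬ suNonsplit K M v) →
      ((S' : Set (HeightOneSpectrum (𝓞 K))).unit K ⊔
        ⨅ v ∈ S', ⨅ (_ : suNonsplit K M v), ksiNorm K M v 1) ≠ ⊤)
    (n : HeightOneSpectrum (𝓞 K) → ℕ) :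
    ((S : Set (HeightOneSpectrum (𝓞 K))).unit K ⊔ ⨅ v ∈ S, ksiNorm K L v (n v)).index ≤ p ∧
      ((S : Set (HeightOneSpectrum (𝓞 K))).unit K ⊔ ⨅ v ∈ S, ksiNorm K L v (n v)).index ≠ 0 := by
  have _ := hp2
  exact ksi_second_inequality_aux p hζ S hpS hPID a ha hap L hL θ hθ
    (fun x hx => ksi_exists_kummer_ext p K hζ x hx)
    (fun T hT => ksi_top_le_units_sup S T hPID hT)
    (fun T hT => ksi_units_le_sup_norm p hζ L hL a θ hθ hap S hpS SL hSL hPIDL T hT)
    hFI n

end Fermat.Agent.S55
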