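import Fermat.Agent.S55.FiHasse
import Fermat.Agent.S55.KsiSecond

/-!
# The Hasse norm theorem for cyclic extensions of prime degree (completions-free)

`K ∋ ζ_p` a number field, `L / K` Galois of odd prime degree `p`.  If `x ∈ Kˣ` is a local norm
to every precision at all primes of `K` with a unique prime of `L` above them, then `x` is a norm
from `L` (`fi_hasse_norm`).  The only remaining hypothesis `hwild` is local: the local norm group
at a nonsplit prime above `p` is proper.
-/

set_option autoImplicit false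

namespace Fermat.Agent.S55

open IsDedekindDomain NumberField WithZero

/-- **Hasse norm theorem**, cyclic of odd prime degree over a field containing `ζ_p`. -/
theorem fi_hasse_norm (p : ℕ) [hp : Fact p.Prime] (hp2 : p ≠ 2) (K : Type) [Field K]
    [NumberField K] {ζ : K} (hζ : IsPrimitiveRoot ζ p)
    (L : Type) [Field L] [NumberField L] [Algebra K L] [IsGalois K L]
    (hL : Module.finrank K L = p)
    (hwild : ∀ v : HeightOneSpectrum (𝓞 K), (p : 𝓞 K) ∈ v.asIdeal → suNonsplit K L v →
      ∃ n, ksiNorm K L v n ≠ ⊤)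
    (x : Kˣ) (hx : ∀ v : HeightOneSpectrum (𝓞 K), suNonsplit K L v → ∀ n, x ∈ ksiNorm K L v n) :
    ∃ y : Lˣ, Units.map (Algebra.norm K : L →* K) y = x := by
  apply fi_hasse_norm_of_si p hp2 K hζ L hL _ hwild x hx
  intro S hpS hPID a ha hap θ hθ hPIDL n
  exact ksi_second_inequality p hp2 K hζ S hpS hPID a ha hap L hL θ hθ (suAbove K L S)
    (mem_suAbove K L S) hPIDL
    (fun S' h1 h2 x h3 h4 M _ _ _ _ h5 θ h6 h7 => fi_weak p hp2 K hζ S' h1 h2 x h3 h4 M h5 θ h6 h7) n

end Fermat.Agent.S55
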