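import Fermat.Agent.S55.TcBasic

/-!
# S55, block TC, part 2: invariants under a normal subgroup and inflation

* `tc_H1_isZero_iff`, `tc_H2_isZero_iff`: vanishing of `H¹`, `H²` in terms of cocycles;
* `tc_isZero_fun_inv`: `Fun(G, V)^N = Fun(G/N, V)` is acyclic for `G/N`;
* `tc_inv_shortExact`: `N`-invariants are exact on `0 → A → B → C → 0` when `H¹(N, A) = 0`;
* `tc_isZero_of_inf`: if `H^i(N, A) = 0` for all `i ≥ 1` and `H^n(G/N, A^N) = 0` then `H^n(G, A) = 0`.
-/

set_option autoImplicit false

namespace Fermat.Agent.S55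

open CategoryTheory CategoryTheory.Limits groupCohomology

universe u

section LowDegree

variable {k G : Type u} [CommRing k] [Group G] (A : Rep.{u} k G)

/-- `H¹(G, A) = 0` iff every 1-cocycle is a coboundary. -/
theorem tc_H1_isZero_iff :
    IsZero (groupCohomology A 1) ↔
      ∀ c : G → A, (∀ g h : G, c (g * h) = A.ρ g (c h) + c g) →
        ∃ a : A, ∀ g : G, c g = A.ρ g a - a := by
  constructor
  · intro h c hc
    have hc' : c ∈ cocycles₁ A := (mem_cocycles₁_iff c).2 hc
    have h0 : H1π A ⟨c, hc'⟩ = 0 := by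
      have : H1π A = 0 := h.eq_of_tgt _ _
      rw [this]
      rfl
    obtain ⟨a, ha⟩ := (H1π_eq_zero_iff _).1 h0
    exact ⟨a, fun g => (congrFun ha g).symm⟩
  · intro h
    rw [IsZero.iff_id_eq_zero]
    ext x
    induction x using H1_induction_on with | h x =>
    obtain ⟨a, ha⟩ := h x ((mem_cocycles₁_iff x).1 x.2)
    have : H1π A x = 0 := (H1π_eq_zero_iff x).2 ⟨a, funext fun g => (ha g).symm⟩
    simp [this]

/-- `H²(G, A) = 0` iff every 2-cocycle is a coboundary. -/
theorem tc_H2_isZero_iff :
    IsZero (groupCohomology A 2) ↔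
      ∀ c : G × G → A, c ∈ cocycles₂ A →
        ∃ b : G → A, ∀ g h : G, c (g, h) = A.ρ g (b h) - b (g * h) + b g := by
  constructor
  · intro h c hc
    have h0 : H2π A ⟨c, hc⟩ = 0 := by
      have : H2π A = 0 := h.eq_of_tgt _ _
      rw [this]
      rfl
    obtain ⟨b, hb⟩ := (H2π_eq_zero_iff _).1 h0
    exact ⟨b, fun g h => (congrFun hb (g, h)).symm⟩
  · intro h
    rw [IsZero.iff_id_eq_zero]
    ext x
    induction x using H2_induction_on with | h x =>
    obtain ⟨b, hb⟩ := h x x.2
    have : H2π A x = 0 := (H2π_eq_zero_iff x).2 ⟨b, funext fun g => (hb g.1 g.2).symm⟩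
    simp [this]

end LowDegree

section Invariants

variable (k : Type u) (G : Type u) [CommRing k] [Group G] (N : Subgroup G) [N.Normal]
  (V : Type u) [AddCommGroup V] [Module k V]

theorem tc_inv_apply_eq {f : G → V}
    (hf : f ∈ Representation.invariants (MonoidHom.comp (tcFunRep k G V) N.subtype)) {x y : G}
    (hxy : (QuotientGroup.mk x : G ⧸ N) = QuotientGroup.mk y) : f x = f y := by
  have hmem : x⁻¹ * y ∈ N := QuotientGroup.eq.1 hxy
  have h := congrFun (hf ⟨x⁻¹ * y, hmem⟩) x
  simp only [MonoidHom.comp_apply, Subgroup.subtype_apply, tcFunRep_apply] at h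
  rw [← h]
  congr 1
  group

/-- `Fun(G, V)^N = Fun(G/N, V)` as representations of `G/N`. -/
noncomputable def tcFunInvEquiv :
    Representation.Equiv ((tcFunRep k G V).quotientToInvariants N) (tcFunRep k (G ⧸ N) V) :=
  Representation.Equiv.mk
    { toFun := fun f q => f.1 q.out
      map_add' := fun _ _ => rfl
      map_smul' := fun _ _ => rfl
      invFun := fun F => ⟨fun g => F (QuotientGroup.mk g), fun n => by
        funext x
        simp only [MonoidHom.comp_apply, Subgroup.subtype_apply, tcFunRep_apply]
        congr 1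
        rw [QuotientGroup.mk_mul, (QuotientGroup.eq_one_iff _).2 n.2, mul_one]⟩
      left_inv := fun f => by
        apply Subtype.ext
        funext g
        exact tc_inv_apply_eq k G N V f.2 (QuotientGroup.out_eq' _)
      right_inv := fun F => by
        funext q
        simp [QuotientGroup.out_eq'] }
    (fun q => by
      induction q using QuotientGroup.induction_on with | H g =>
      ext f q'
      simp only [LinearMap.coe_comp, Function.comp_apply, LinearEquiv.coe_coe,
        LinearEquiv.coe_mk, LinearMap.coe_mk, AddHom.coe_mk, tcFunRep_apply]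
      have h1 : (((tcFunRep k G V).quotientToInvariants N) (QuotientGroup.mk g) f).1 =
          tcFunRep k G V g f.1 := rfl
      rw [h1, tcFunRep_apply]
      apply tc_inv_apply_eq k G N V f.2
      rw [QuotientGroup.mk_mul, QuotientGroup.out_eq', QuotientGroup.out_eq'])

/-- `Fun(G, V)^N` is acyclic for `G/N`. -/
theorem tc_isZero_fun_inv (n : ℕ) :
    IsZero (groupCohomology ((tcFun k G V).quotientToInvariants N) (n + 1)) := by
  have e : (tcFun k G V).quotientToInvariants N ≅ tcFun k (G ⧸ N) V :=
    Rep.mkIso (tcFunInvEquiv k G N V)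
  exact tc_isZero_of_iso e (n + 1) (tc_isZero_fun k (G ⧸ N) V n)

end Invariants

section InvExact

variable {k G : Type u} [CommRing k] [Group G] (N : Subgroup G) [N.Normal]

theorem tc_inv_map_apply {A B : Rep.{u} k G} (f : A ⟶ B) (x : A.quotientToInvariants N) :
    (((Rep.quotientToInvariantsFunctor k N).map f).hom x).1 = f.hom x.1 := rfl

instance tc_inv_preservesZero :
    (Rep.quotientToInvariantsFunctor.{u} k N).PreservesZeroMorphisms where
  map_zero A B := by
    apply Rep.hom_ext
    apply Representation.IntertwiningMap.ext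
    apply LinearMap.ext
    intro x
    apply Subtype.ext
    rfl

/-- `N`-invariants are exact on a short exact sequence whose kernel has `H¹(N, -) = 0`. -/
theorem tc_inv_shortExact {X : ShortComplex (Rep.{u} k G)} (hX : X.ShortExact)
    (h1 : IsZero (groupCohomology (Rep.res N.subtype X.X₁) 1)) :
    (X.map (Rep.quotientToInvariantsFunctor k N)).ShortExact := by
  obtain ⟨hinj, hsurj, hex⟩ := (tc_shortExact_iff X).1 hX
  rw [tc_shortExact_iff]
  refine ⟨?_, ?_, ?_⟩
  · -- injective
    intro x y hxy
    apply Subtype.ext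
    apply hinj
    exact congrArg Subtype.val hxy
  · -- surjective
    intro z
    obtain ⟨y, hy⟩ := hsurj z.1
    have hz : ∀ n : N, X.X₃.ρ n z.1 = z.1 := fun n => z.2 n
    have hc : ∀ n : N, ∃ c : X.X₁, X.f.hom c = X.X₂.ρ n y - y := by
      intro n
      apply hex
      rw [map_sub, Rep.hom_comm_apply, hy, hz n, sub_self]
    choose c hc using hc
    have hcoc : ∀ n m : N, c (n * m) =
        (Rep.res N.subtype X.X₁).ρ n (c m) + c n := by
      intro n m
      apply hinj
      rw [hc, map_add, hc]
      change _ = X.f.hom (X.X₁.ρ n (c m)) + _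
      rw [Rep.hom_comm_apply, hc]
      simp only [Subgroup.coe_mul, map_mul, Module.End.mul_apply, map_sub]
      abel
    obtain ⟨a, ha⟩ := (tc_H1_isZero_iff _).1 h1 c hcoc
    have hmem : y - X.f.hom a ∈
        Representation.invariants (MonoidHom.comp X.X₂.ρ N.subtype) := by
      intro n
      change X.X₂.ρ n (y - X.f.hom a) = y - X.f.hom a
      have h2 : X.f.hom (c n) = X.f.hom (X.X₁.ρ n a - a) := congrArg _ (ha n)
      rw [hc, map_sub, Rep.hom_comm_apply] at h2
      rw [map_sub]
      have h3 : X.X₂.ρ n y - X.X₂.ρ n (X.f.hom a) = y - X.f.hom a := by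
        have := sub_eq_zero.2 h2
        rw [← sub_eq_zero]
        rw [← this]
        abel
      exact h3
    refine ⟨⟨y - X.f.hom a, hmem⟩, ?_⟩
    apply Subtype.ext
    change X.g.hom (y - X.f.hom a) = z.1
    rw [map_sub, hy]
    have : X.g.hom (X.f.hom a) = 0 := by
      have h4 : (X.f ≫ X.g).hom a = 0 := by
        rw [X.zero]
        rfl
      rw [Rep.hom_comp, Representation.IntertwiningMap.comp_apply] at h4
      exact h4
    rw [this, sub_zero]
  · -- exact
    intro y hy
    obtain ⟨x, hx⟩ := hex y.1 (congrArg Subtype.val hy)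
    refine ⟨⟨x, ?_⟩, Subtype.ext hx⟩
    intro n
    apply hinj
    change X.f.hom (X.X₁.ρ n x) = _
    rw [Rep.hom_comm_apply, hx]
    exact y.2 n

end InvExact

section Inflation

variable {k G : Type u} [CommRing k] [Group G] (N : Subgroup G) [N.Normal]

set_option backward.isDefEq.respectTransparency false in
theorem tc_H1_inf_mono (A : Rep.{u} k G) : Mono (H1InfRes A N).f := inferInstance

set_option backward.isDefEq.respectTransparency false in
/-- `H¹(G/N, A^N) = 0` if `H¹(G, A) = 0` (inflation is injective). -/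
theorem tc_isZero_inv_one (A : Rep.{u} k G) (h1 : IsZero (groupCohomology A 1)) :
    IsZero (groupCohomology (A.quotientToInvariants N) 1) := by
  have : Mono (H1InfRes A N).f := inferInstance
  exact IsZero.of_mono (H1InfRes A N).f h1

/-- `H²(G/N, A^N) = 0` if `H¹(N, A) = 0` and `H²(G, A) = 0`. -/
theorem tc_isZero_inv_two (A : Rep.{u} k G)
    (hN : IsZero (groupCohomology (Rep.res N.subtype A) 1))
    (h2 : IsZero (groupCohomology A 2)) :
    IsZero (groupCohomology (A.quotientToInvariants N) 2) := by
  have hX := tcSeq_shortExact A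
  have h1' : IsZero (groupCohomology (tcShift A) 1) := tc_shift_down A 0 h2
  have h1Q : IsZero (groupCohomology ((tcShift A).quotientToInvariants N) 1) :=
    tc_isZero_inv_one N (tcShift A) h1'
  have hinv := tc_inv_shortExact N hX hN
  exact tc_isZero_X₁ hinv 1 h1Q (tc_isZero_fun_inv k G N A.V 1)

/-- If `H^i(N, A) = 0` for all `i ≥ 1` and `H^n(G/N, A^N) = 0` (`n ≥ 1`), then `H^n(G, A) = 0`. -/
theorem tc_isZero_of_inf (n : ℕ) :
    ∀ (A : Rep.{u} k G),
      (∀ i : ℕ, IsZero (groupCohomology (Rep.res N.subtype A) (i + 1))) →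
      IsZero (groupCohomology (A.quotientToInvariants N) (n + 1)) →
      IsZero (groupCohomology A (n + 1)) := by
  induction n with
  | zero =>
    intro A hN hQ
    exact (H1InfRes_exact A N).isZero_of_both_zeros (hQ.eq_of_src _ _) ((hN 0).eq_of_tgt _ _)
  | succ n ih =>
    intro A hN hQ
    have hX := tcSeq_shortExact A
    have hN' : ∀ i, IsZero (groupCohomology (Rep.res N.subtype (tcShift A)) (i + 1)) := by
      intro i
      have hres : ((tcSeq A).map (Rep.resFunctor N.subtype)).ShortExact :=
        (Rep.shortExact_res N.subtype).2 hX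
      exact tc_isZero_X₃ hres (i + 1) (tc_isZero_fun_res k G N A.V i) (hN (i + 1))
    have hinv := tc_inv_shortExact N hX (hN 0)
    have hQ' : IsZero (groupCohomology ((tcShift A).quotientToInvariants N) (n + 1)) :=
      tc_isZero_X₃ hinv (n + 1) (tc_isZero_fun_inv k G N A.V n) hQ
    exact tc_shift_up A (n + 1) (ih (tcShift A) hN' hQ')

end Inflation

end Fermat.Agent.S55
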