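import Fermat.Agent.S55.BrhMain
import Fermat.Agent.S55.TcInf

/-!
# S55, block BRH, part 3: multiplicative form of the abstract Hasse principle

`brh_hasse_mul`: the statement of `brh_hasse_cocycle` for a commutative group `M` with a
`MulDistribMulAction` of a finite group `G`, in terms of Mathlib's `IsMulCocycle₂` and
`IsMulCoboundary₂`, with all hypotheses (Hilbert 90, Hasse norm theorem) in elementary
multiplicative form.
-/

set_option autoImplicit false

namespace Fermat.Agent.S55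

open CategoryTheory CategoryTheory.Limits groupCohomology

section Mul

variable {G : Type} [Group G] {M : Type} [CommGroup M] [MulDistribMulAction G M]
  {I : Type*} (Gl : I → Type) [∀ i, Group (Gl i)] (ψ : ∀ i, Gl i →* G)
  (Ml : I → Type) [∀ i, CommGroup (Ml i)] [∀ i, MulDistribMulAction (Gl i) (Ml i)]
  (f : ∀ i, M →* Ml i)

/-- The equivariant map `f i`, as a morphism of representations. -/
noncomputable def brhMulHom (hf : ∀ (i : I) (t : Gl i) (x : M), f i (ψ i t • x) = t • f i x)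
    (i : I) :
    Rep.res (ψ i) (Rep.ofMulDistribMulAction G M) ⟶ Rep.ofMulDistribMulAction (Gl i) (Ml i) :=
  Rep.ofHom ⟨(MonoidHom.toAdditive (f i)).toIntLinearMap, fun t => by
    ext x
    exact congrArg Additive.ofMul (hf i t x.toMul)⟩

theorem brhMulHom_apply (hf : ∀ (i : I) (t : Gl i) (x : M), f i (ψ i t • x) = t • f i x)
    (i : I) (x : Additive M) :
    (brhMulHom Gl ψ Ml f hf i).hom x = Additive.ofMul (f i x.toMul) := rfl

theorem brh_ofMul_sum_range {N : Type} [CommGroup N] (n : ℕ) (g : ℕ → N) :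
    ∑ k ∈ Finset.range n, Additive.ofMul (g k) = Additive.ofMul (∏ k ∈ Finset.range n, g k) :=
  (ofMul_prod _ _).symm

/-- **Hasse principle for `H²` from the Hasse norm theorem**, multiplicative cocycle form. -/
theorem brh_hasse_mul [Finite G] (p : ℕ) [Fact p.Prime]
    (hf : ∀ (i : I) (t : Gl i) (x : M), f i (ψ i t • x) = t • f i x)
    (h90 : ∀ (H : Subgroup G) (c : H → M), (∀ g h : H, c (g * h) = (g : G) • c h * c g) →
      ∃ x : M, ∀ g : H, c g = (g : G) • x / x)
    (h90loc : ∀ (i : I) (H : Subgroup (Gl i)) (c : H → Ml i),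
      (∀ g h : H, c (g * h) = (g : Gl i) • c h * c g) →
      ∃ x : Ml i, ∀ g : H, c g = (g : Gl i) • x / x)
    (hnt : ∀ (H N : Subgroup G), N ≤ H → (∀ h ∈ H, ∀ n ∈ N, h * n * h⁻¹ ∈ N) →
      N.relIndex H = p → ∀ σ ∈ H, σ ∉ N → ∀ a : M, (∀ h ∈ H, h • a = a) →
      (∀ (i : I) (t : Gl i), ψ i t ∈ H → ψ i t ∉ N →
        ∃ y : Ml i, (∀ n : Gl i, ψ i n ∈ N → n • y = y) ∧
          f i a = ∏ k ∈ Finset.range p, t ^ k • y) →
      ∃ x : M, (∀ n ∈ N, n • x = x) ∧ a = ∏ k ∈ Finset.range p, σ ^ k • x)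
    (c : G × G → M) (hc : IsMulCocycle₂ c)
    (hp : ∃ m : ℕ, IsMulCoboundary₂ (fun g => c g ^ p ^ m))
    (hloc : ∀ i, IsMulCoboundary₂ (fun g : Gl i × Gl i => f i (c (ψ i g.1, ψ i g.2)))) :
    IsMulCoboundary₂ c := by
  have key := brh_hasse_cocycle (Rep.ofMulDistribMulAction G M) Gl ψ
    (fun i => Rep.ofMulDistribMulAction (Gl i) (Ml i)) (brhMulHom Gl ψ Ml f hf) p ?h90 ?h90loc
    ?hnt (cocyclesOfIsMulCocycle₂ hc).1 (cocyclesOfIsMulCocycle₂ hc).2 ?hp ?hloc
  · exact isMulCoboundary₂_of_mem_coboundaries₂ _ key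
  case h90 =>
    intro H
    rw [tc_H1_isZero_iff]
    intro c1 hc1
    obtain ⟨x, hx⟩ := h90 H (fun g => (c1 g).toMul) (fun g h => congrArg Additive.toMul (hc1 g h))
    exact ⟨Additive.ofMul x, fun g => congrArg Additive.ofMul (hx g)⟩
  case h90loc =>
    intro i H
    rw [tc_H1_isZero_iff]
    intro c1 hc1
    obtain ⟨x, hx⟩ := h90loc i H (fun g => (c1 g).toMul)
      (fun g h => congrArg Additive.toMul (hc1 g h))
    exact ⟨Additive.ofMul x, fun g => congrArg Additive.ofMul (hx g)⟩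
  case hnt =>
    intro H N hNH hnorm hidx σ hσ hσN a ha hlocal
    obtain ⟨x, hx1, hx2⟩ := hnt H N hNH hnorm hidx σ hσ hσN a.toMul
      (fun h hh => congrArg Additive.toMul (ha h hh)) (by
        intro i t ht htN
        obtain ⟨y, hy1, hy2⟩ := hlocal i t ht htN
        refine ⟨@Additive.toMul (Ml i) y,
          fun n hn => congrArg Additive.toMul (hy1 n hn), ?_⟩
        have h1 : Additive.ofMul (f i a.toMul) = Additive.ofMul
            (∏ k ∈ Finset.range p, t ^ k • @Additive.toMul (Ml i) y) := by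
          rw [← brh_ofMul_sum_range]
          exact hy2
        exact Additive.ofMul.injective h1)
    refine ⟨Additive.ofMul x, fun n hn => congrArg Additive.ofMul (hx1 n hn), ?_⟩
    have h2 : a = Additive.ofMul (∏ k ∈ Finset.range p, σ ^ k • x) :=
      congrArg Additive.ofMul hx2
    rw [h2, ← brh_ofMul_sum_range]
    rfl
  case hp =>
    obtain ⟨m, hm⟩ := hp
    refine ⟨m, ?_⟩
    have h1 := (coboundariesOfIsMulCoboundary₂ hm).2
    have h2 : p ^ m • (cocyclesOfIsMulCocycle₂ hc).1 = (coboundariesOfIsMulCoboundary₂ hm).1 := by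
      funext g
      rfl
    rw [h2]
    exact h1
  case hloc =>
    intro i
    exact (coboundariesOfIsMulCoboundary₂ (hloc i)).2

end Mul

end Fermat.Agent.S55
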