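import Mathlib

/-!
# S55, block HPB: the local model for the cohomological Hasse principle

`K ⊂ L` fields (`L/K` normal), `q` a prime, `τ : L →+* PadicAlgCl q` an embedding.
* `hpbKloc K τ = ℚ_q(τ K)` (`K_τ`), an intermediate field of `PadicAlgCl q / ℚ_q`;
* `hpbLloc K τ = K_τ(τ L)` (`L_τ`), an intermediate field of `PadicAlgCl q / K_τ`;
* `hpbTau K τ : L →+* L_τ`, `hpbTauBase K τ : K →+* K_τ`;
* `hpbPsi K τ : Gal(L_τ/K_τ) →* Gal(L/K)` (restriction to `τ L`), with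
  `hpbTau (hpbPsi σ x) = σ (hpbTau x)`;
* `hpbLocTriv K x τ`: the 2-cocycle `x` of `Gal(L/K)` in `Lˣ` becomes a coboundary for
  `Gal(L_τ/K_τ)` acting on `L_τˣ`.
-/

set_option autoImplicit false
set_option linter.style.haveILetI false

namespace Fermat.Agent.S55

open groupCohomology

section

variable (K : Type) {L : Type} [Field K] [Field L] [Algebra K L] {q : ℕ} [Fact q.Prime]
  (τ : L →+* PadicAlgCl q)

/-- `K_τ = ℚ_q(τ K)`. -/
noncomputable def hpbKloc : IntermediateField ℚ_[q] (PadicAlgCl q) :=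
  IntermediateField.adjoin ℚ_[q] (Set.range (τ.comp (algebraMap K L)))

/-- `L_τ = K_τ(τ L)`, as an extension of `K_τ`. -/
noncomputable def hpbLloc : IntermediateField (hpbKloc K τ) (PadicAlgCl q) :=
  IntermediateField.adjoin (hpbKloc K τ) (Set.range τ)

/-- `τ` as a map `L → L_τ`. -/
noncomputable def hpbTau : L →+* hpbLloc K τ :=
  τ.codRestrict (hpbLloc K τ) fun x => IntermediateField.subset_adjoin _ _ ⟨x, rfl⟩

/-- `τ` as a map `K → K_τ`. -/
noncomputable def hpbTauBase : K →+* hpbKloc K τ :=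
  (τ.comp (algebraMap K L)).codRestrict (hpbKloc K τ) fun x =>
    IntermediateField.subset_adjoin _ _ ⟨x, rfl⟩

@[simp] theorem hpbTau_coe (x : L) : ((hpbTau K τ x : hpbLloc K τ) : PadicAlgCl q) = τ x := rfl

@[simp] theorem hpbTauBase_coe (x : K) :
    ((hpbTauBase K τ x : hpbKloc K τ) : PadicAlgCl q) = τ (algebraMap K L x) := rfl

theorem hpbTau_injective : Function.Injective (hpbTau K τ) := (hpbTau K τ).injective

theorem hpbTau_algebraMap (x : K) :
    hpbTau K τ (algebraMap K L x) = algebraMap (hpbKloc K τ) (hpbLloc K τ) (hpbTauBase K τ x) :=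
  Subtype.ext rfl

/-- The restriction of an element of `Gal(L_τ/K_τ)` to `L` (via `τ`). -/
noncomputable def hpbPsiFun [Normal K L] (σ : hpbLloc K τ ≃ₐ[hpbKloc K τ] hpbLloc K τ) :
    L ≃ₐ[K] L :=
  letI : Algebra K (hpbLloc K τ) := ((hpbTau K τ).comp (algebraMap K L)).toAlgebra
  letI : Algebra L (hpbLloc K τ) := (hpbTau K τ).toAlgebra
  haveI : IsScalarTower K L (hpbLloc K τ) := IsScalarTower.of_algebraMap_eq fun _ => rfl
  AlgEquiv.restrictNormal (AlgEquiv.ofRingEquiv (f := σ.toRingEquiv) (fun k => by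
    show σ (hpbTau K τ (algebraMap K L k)) = hpbTau K τ (algebraMap K L k)
    rw [hpbTau_algebraMap, σ.commutes])) L

theorem hpbPsiFun_spec [Normal K L] (σ : hpbLloc K τ ≃ₐ[hpbKloc K τ] hpbLloc K τ) (x : L) :
    hpbTau K τ (hpbPsiFun K τ σ x) = σ (hpbTau K τ x) := by
  letI : Algebra K (hpbLloc K τ) := ((hpbTau K τ).comp (algebraMap K L)).toAlgebra
  letI : Algebra L (hpbLloc K τ) := (hpbTau K τ).toAlgebra
  haveI : IsScalarTower K L (hpbLloc K τ) := IsScalarTower.of_algebraMap_eq fun _ => rfl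
  exact AlgEquiv.restrictNormal_commutes (AlgEquiv.ofRingEquiv (f := σ.toRingEquiv) (fun k => by
    show σ (hpbTau K τ (algebraMap K L k)) = hpbTau K τ (algebraMap K L k)
    rw [hpbTau_algebraMap, σ.commutes])) L x

/-- `ψ_τ : Gal(L_τ/K_τ) →* Gal(L/K)`. -/
noncomputable def hpbPsi [Normal K L] :
    (hpbLloc K τ ≃ₐ[hpbKloc K τ] hpbLloc K τ) →* (L ≃ₐ[K] L) where
  toFun := hpbPsiFun K τ
  map_one' := by
    ext x
    apply hpbTau_injective K τ
    rw [hpbPsiFun_spec]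
    rfl
  map_mul' σ σ' := by
    ext x
    apply hpbTau_injective K τ
    rw [hpbPsiFun_spec, AlgEquiv.mul_apply, AlgEquiv.mul_apply, hpbPsiFun_spec, hpbPsiFun_spec]

theorem hpbPsi_spec [Normal K L] (σ : hpbLloc K τ ≃ₐ[hpbKloc K τ] hpbLloc K τ) (x : L) :
    hpbTau K τ (hpbPsi K τ σ x) = σ (hpbTau K τ x) :=
  hpbPsiFun_spec K τ σ x

/-- `ψ_τ` is injective: an automorphism of `L_τ = K_τ(τ L)` over `K_τ` is determined by its
values on `τ L`. -/
theorem hpbPsi_injective [Normal K L] : Function.Injective (hpbPsi K τ) := by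
  rw [injective_iff_map_eq_one]
  intro σ hσ
  have h1 : ∀ x : L, σ (hpbTau K τ x) = hpbTau K τ x := fun x => by
    rw [← hpbPsi_spec, hσ]; rfl
  -- `σ` fixes the generators of `L_τ` over `K_τ`
  have h2 : ∀ z : PadicAlgCl q, ∀ hz : z ∈ hpbLloc K τ,
      σ ⟨z, hz⟩ = ⟨z, hz⟩ := by
    intro z hz
    induction hz using IntermediateField.adjoin_induction with
    | mem z hz =>
      obtain ⟨x, rfl⟩ := hz
      exact h1 x
    | algebraMap z => exact σ.commutes z
    | add x y hx hy hx' hy' =>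
      have : (⟨x + y, add_mem hx hy⟩ : hpbLloc K τ) = ⟨x, hx⟩ + ⟨y, hy⟩ := rfl
      rw [this, map_add, hx', hy']
    | inv x hx hx' =>
      have : (⟨x⁻¹, inv_mem hx⟩ : hpbLloc K τ) = (⟨x, hx⟩ : hpbLloc K τ)⁻¹ := rfl
      rw [this, map_inv₀, hx']
    | mul x y hx hy hx' hy' =>
      have : (⟨x * y, mul_mem hx hy⟩ : hpbLloc K τ) = ⟨x, hx⟩ * ⟨y, hy⟩ := rfl
      rw [this, map_mul, hx', hy']
  ext ⟨z, hz⟩
  exact congrArg Subtype.val (h2 z hz)

/-- **Finite-level local triviality**: the 2-cocycle `x` of `Gal(L/K)` with values in `Lˣ` becomes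
a coboundary on `Gal(L_τ/K_τ)` with values in `L_τˣ`. -/
def hpbLocTriv [Normal K L] (x : (L ≃ₐ[K] L) × (L ≃ₐ[K] L) → Lˣ) : Prop :=
  IsMulCoboundary₂ (G := hpbLloc K τ ≃ₐ[hpbKloc K τ] hpbLloc K τ) (M := (hpbLloc K τ)ˣ)
    fun σ => Units.map (hpbTau K τ : L →* hpbLloc K τ) (x (hpbPsi K τ σ.1, hpbPsi K τ σ.2))

end

end Fermat.Agent.S55
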