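import Mathlib

set_option autoImplicit false

/-!
# S55 block KSI: definitions for the Kummer second inequality (completions-free model)

`K` a number field, `v : HeightOneSpectrum (𝓞 K)`.
* `ksiU K v n` : the subgroup of `Kˣ` of `v`-units `x` with `x ≡ 1 mod v^n` (for `n = 0`: all `v`-units).
* `ksiPow K p v n` : `Kˣ^p · ksiU K v n`  (elements which are `p`-th powers at `v` up to precision `n`).
* `ksiNorm K L v n` : `N_{L/K}(Lˣ) · ksiU K v n` (elements which are norms from `L` at `v` up to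
  precision `n`).
-/

namespace Fermat.Agent.S55

open IsDedekindDomain NumberField WithZero

variable (K : Type*) [Field K] [NumberField K]

/-- `v`-units of `Kˣ` congruent to `1` modulo `v^n`. -/
def ksiU (v : HeightOneSpectrum (𝓞 K)) (n : ℕ) : Subgroup Kˣ where
  carrier := {x | v.valuation K (x : K) = 1 ∧ v.valuation K ((x : K) - 1) ≤ exp (-(n : ℤ))}
  one_mem' := by simp
  mul_mem' := by
    rintro x y ⟨hx, hx'⟩ ⟨hy, hy'⟩
    refine ⟨by simp [hx, hy], ?_⟩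
    have : ((x * y : Kˣ) : K) - 1 = ((x : K) - 1) * y + ((y : K) - 1) := by push_cast; ring
    rw [this]
    refine (Valuation.map_add_le_max' _ _ _).trans (max_le ?_ hy')
    have h2 : v.valuation K (((x : K) - 1) * y) = v.valuation K ((x : K) - 1) := by
      rw [map_mul, hy, mul_one]
    exact h2.le.trans hx'
  inv_mem' := by
    rintro x ⟨hx, hx'⟩
    have hx0 : (x : K) ≠ 0 := x.ne_zero
    refine ⟨by simp [hx], ?_⟩
    have : ((x⁻¹ : Kˣ) : K) - 1 = -(((x : K) - 1) * ((x : K))⁻¹) := by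
      push_cast; field_simp; ring
    rw [this, Valuation.map_neg, map_mul, map_inv₀, hx, inv_one, mul_one]; exact hx'

variable {K}

theorem mem_ksiU_iff {v : HeightOneSpectrum (𝓞 K)} {n : ℕ} {x : Kˣ} :
    x ∈ ksiU K v n ↔
      v.valuation K (x : K) = 1 ∧ v.valuation K ((x : K) - 1) ≤ exp (-(n : ℤ)) := Iff.rfl

theorem mem_ksiU_zero_iff {v : HeightOneSpectrum (𝓞 K)} {x : Kˣ} :
    x ∈ ksiU K v 0 ↔ v.valuation K (x : K) = 1 := by
  rw [mem_ksiU_iff]
  refine ⟨fun h => h.1, fun h => ⟨h, ?_⟩⟩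
  simp only [CharP.cast_eq_zero, neg_zero, exp_zero]
  refine (Valuation.map_sub _ _ _).trans (max_le h.le ?_)
  simp

theorem ksiU_anti (v : HeightOneSpectrum (𝓞 K)) {m n : ℕ} (h : m ≤ n) :
    ksiU K v n ≤ ksiU K v m := by
  intro x hx
  rw [mem_ksiU_iff] at hx ⊢
  refine ⟨hx.1, hx.2.trans ?_⟩
  rw [exp_le_exp]
  omega

variable (K)

/-- Elements of `Kˣ` which are `p`-th powers at `v` up to precision `n`. -/
def ksiPow (p : ℕ) (v : HeightOneSpectrum (𝓞 K)) (n : ℕ) : Subgroup Kˣ :=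
  (powMonoidHom p : Kˣ →* Kˣ).range ⊔ ksiU K v n

/-- Elements of `Kˣ` which are norms from `L` at `v` up to precision `n`. -/
noncomputable def ksiNorm (L : Type*) [Field L] [Algebra K L] (v : HeightOneSpectrum (𝓞 K)) (n : ℕ) :
    Subgroup Kˣ :=
  (Units.map (Algebra.norm K : L →* K)).range ⊔ ksiU K v n

variable {K}

theorem ksiPow_anti (p : ℕ) (v : HeightOneSpectrum (𝓞 K)) {m n : ℕ} (h : m ≤ n) :
    ksiPow K p v n ≤ ksiPow K p v m :=
  sup_le_sup_left (ksiU_anti v h) _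

theorem ksiNorm_anti (L : Type*) [Field L] [Algebra K L] (v : HeightOneSpectrum (𝓞 K))
    {m n : ℕ} (h : m ≤ n) : ksiNorm K L v n ≤ ksiNorm K L v m :=
  sup_le_sup_left (ksiU_anti v h) _

omit [NumberField K] in
theorem ksi_pow_le_norm_range (p : ℕ) (L : Type*) [Field L] [Algebra K L]
    (hL : Module.finrank K L = p) :
    (powMonoidHom p : Kˣ →* Kˣ).range ≤ (Units.map (Algebra.norm K : L →* K)).range := by
  rintro _ ⟨y, rfl⟩
  refine ⟨Units.map (algebraMap K L : K →* L) y, ?_⟩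
  ext
  simp [Algebra.norm_algebraMap, hL]

theorem ksiPow_le_ksiNorm (p : ℕ) (L : Type*) [Field L] [Algebra K L]
    (hL : Module.finrank K L = p) (v : HeightOneSpectrum (𝓞 K)) (n : ℕ) :
    ksiPow K p v n ≤ ksiNorm K L v n :=
  sup_le_sup_right (ksi_pow_le_norm_range p L hL) _

theorem mem_ksiPow_iff {p : ℕ} {v : HeightOneSpectrum (𝓞 K)} {n : ℕ} {x : Kˣ} :
    x ∈ ksiPow K p v n ↔ ∃ y : Kˣ, ∃ u ∈ ksiU K v n, y ^ p * u = x := by
  unfold ksiPow
  rw [Subgroup.mem_sup]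
  constructor
  · rintro ⟨_, ⟨y, rfl⟩, u, hu, rfl⟩
    exact ⟨y, u, hu, rfl⟩
  · rintro ⟨y, u, hu, rfl⟩
    exact ⟨_, ⟨y, rfl⟩, u, hu, rfl⟩

theorem mem_ksiNorm_iff {L : Type*} [Field L] [Algebra K L] {v : HeightOneSpectrum (𝓞 K)}
    {n : ℕ} {x : Kˣ} :
    x ∈ ksiNorm K L v n ↔ ∃ y : Lˣ, ∃ u ∈ ksiU K v n,
      Units.map (Algebra.norm K : L →* K) y * u = x := by
  unfold ksiNorm
  rw [Subgroup.mem_sup]
  constructor
  · rintro ⟨_, ⟨y, rfl⟩, u, hu, rfl⟩
    exact ⟨y, u, hu, rfl⟩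
  · rintro ⟨y, u, hu, rfl⟩
    exact ⟨_, ⟨y, rfl⟩, u, hu, rfl⟩

end Fermat.Agent.S55
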