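/-
S55 block HPB, piece P5 (local input), part 1: abstract Galois descent.

* `linf_hilbert90`   : Hilbert 90 (Noether) for a finite group acting faithfully on a field.
* `linf_descent`     : Hilbert 90 "in the limit": a finite-level 1-cochain on a group `G` mapping
                       to `Gal(Ω/k)` which is a 1-cocycle on the part fixing `E` is a coboundary
                       there.
* `linf_cyclic_norm` : if a normalised 2-cochain `x` of `Gal(F/K)` with values in `F`, pulled back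
                       along `ρ : G → Gal(F/K)` and `τ : F → Ω`, is the coboundary of a finite-level
                       1-cochain `θ : G → Ωˣ`, then for every `g₀ : G` with `ρ g₀ ^ n = 1` the
                       element `τ (∏_{i<n} x (ρ g₀ ^ i) (ρ g₀))` is the "norm"
                       `∏_{i<n} (ι g₀)^i y` of some nonzero `y` in `k(τ F)`.
-/
import Mathlib

namespace Fermat.Agent.S55



/-- Hilbert 90 (Noether's form) for a finite group acting faithfully on a field by ring
automorphisms: every 1-cocycle with values in `Lˣ` is a coboundary. -/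
theorem linf_hilbert90 {L : Type*} [Field L] {Γ : Type*} [Group Γ] [Finite Γ]
    (a : Γ →* (L ≃+* L)) (ha : Function.Injective a)
    (f : Γ → Lˣ) (hf : ∀ g h, f (g * h) = f g * Units.map (a g : L →* L) (f h)) :
    ∃ β : Lˣ, ∀ g, f g = Units.map (a g : L →* L) β / β := by
  classical
  have := Fintype.ofFinite Γ
  have hli : LinearIndependent L (fun g : Γ => ((a g : L →* L) : L → L)) :=
    LinearIndependent.comp (ι' := Γ) (linearIndependent_monoidHom L L)
      (fun g => ((a g : L ≃+* L) : L →* L))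
      (fun x y h => ha (by ext z; exact DFunLike.congr_fun h z))
  have hex : ∃ z : L, ∑ g : Γ, (f g : L) * a g z ≠ 0 := by
    by_contra hcon
    push Not at hcon
    have h0 : ∑ g : Γ, (f g : L) • ((a g : L →* L) : L → L) = 0 := by
      funext z
      simpa using hcon z
    have := (Fintype.linearIndependent_iff.1 hli) (fun g => (f g : L)) h0 1
    exact Units.ne_zero _ this
  obtain ⟨z, hz⟩ := hex
  refine ⟨(Units.mk0 _ hz)⁻¹, fun g => ?_⟩
  rw [map_inv, div_inv_eq_mul, eq_inv_mul_iff_mul_eq]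
  ext
  simp only [Units.val_mul, Units.coe_map, Units.val_mk0, MonoidHom.coe_coe]
  rw [map_sum, Finset.sum_mul]
  have hre : ∑ h : Γ, (f h : L) * a h z = ∑ h : Γ, (f (g * h) : L) * a (g * h) z :=
    (Fintype.sum_bijective (fun i => g * i) (Group.mulLeft_bijective g) _ _ (fun i => rfl)).symm
  rw [hre]
  refine Finset.sum_congr rfl fun h _ => ?_
  rw [hf g h, map_mul, map_mul]
  simp only [Units.val_mul, Units.coe_map, MonoidHom.coe_coe]
  have : (a g * a h) z = a g (a h z) := rfl
  rw [this]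
  ring



section Descent

variable {k Ω : Type*} [Field k] [Field Ω] [Algebra k Ω]
variable {G : Type*} [Group G] (ι : G →* (Ω ≃ₐ[k] Ω))

theorem linf_eq_of_restrict_eq {X : Type*} (θ : G → X) (M : IntermediateField k Ω)
    (hM : ∀ g s, ι s ∈ M.fixingSubgroup → θ (g * s) = θ g) {g g' : G}
    (h : ∀ m ∈ M, ι g m = ι g' m) : θ g = θ g' := by
  have h1 : ι (g⁻¹ * g') ∈ M.fixingSubgroup := by
    rw [IntermediateField.mem_fixingSubgroup_iff]
    intro m hm
    rw [map_mul, map_inv, AlgEquiv.mul_apply, ← h m hm]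
    exact (ι g).symm_apply_apply m
  have h2 := hM g (g⁻¹ * g') h1
  rw [mul_inv_cancel_left] at h2
  exact h2.symm

theorem linf_finite_range {X : Type*} (θ : G → X) (M : IntermediateField k Ω)
    [FiniteDimensional k M]
    (hM : ∀ g s, ι s ∈ M.fixingSubgroup → θ (g * s) = θ g) : (Set.range θ).Finite := by
  classical
  rcases isEmpty_or_nonempty G with hG | ⟨⟨g₀⟩⟩
  · exact Set.toFinite _
  let r : G → (M →ₐ[k] Ω) := fun g => ((ι g : Ω ≃ₐ[k] Ω) : Ω →ₐ[k] Ω).comp M.val
  let ψ : (M →ₐ[k] Ω) → X := fun φ => if h : ∃ g, r g = φ then θ h.choose else θ g₀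
  refine (Set.finite_range ψ).subset ?_
  rintro _ ⟨g, rfl⟩
  refine ⟨r g, ?_⟩
  have hex : ∃ g', r g' = r g := ⟨g, rfl⟩
  simp only [ψ, dif_pos hex]
  apply linf_eq_of_restrict_eq ι θ M hM
  intro m hm
  exact DFunLike.congr_fun hex.choose_spec ⟨m, hm⟩

variable [IsGalois k Ω]

theorem linf_descent (E : IntermediateField k Ω) (θ : G → Ωˣ)
    (hlev : ∃ M : IntermediateField k Ω, FiniteDimensional k M ∧
      ∀ g s, ι s ∈ M.fixingSubgroup → θ (g * s) = θ g)
    (hcoc : ∀ g h, ι g ∈ E.fixingSubgroup → ι h ∈ E.fixingSubgroup →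
      θ (g * h) = θ g * Units.map ((ι g : Ω ≃ₐ[k] Ω) : Ω →* Ω) (θ h)) :
    ∃ α : Ωˣ, ∀ h, ι h ∈ E.fixingSubgroup →
      θ h = Units.map ((ι h : Ω ≃ₐ[k] Ω) : Ω →* Ω) α / α := by
  classical
  obtain ⟨M, hMfin, hM⟩ := hlev
  have hVfin : (Set.range fun g => (θ g : Ω)).Finite :=
    linf_finite_range ι (fun g => (θ g : Ω)) M (fun g s hs => by rw [hM g s hs])
  set V : Set Ω := Set.range fun g => (θ g : Ω) with hV
  have : Finite V := hVfin
  have : FiniteDimensional k (IntermediateField.adjoin k V) :=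
    IntermediateField.finiteDimensional_adjoin (fun x _ => (Algebra.IsIntegral.isIntegral x))
  let M₀ : IntermediateField k Ω := M ⊔ IntermediateField.adjoin k V
  let N : IntermediateField k Ω := IntermediateField.normalClosure k M₀ Ω
  have hMN : M ≤ N := le_sup_left.trans (IntermediateField.le_normalClosure M₀)
  have hVN : ∀ g, (θ g : Ω) ∈ N := fun g =>
    (le_sup_right.trans (IntermediateField.le_normalClosure M₀) :
      IntermediateField.adjoin k V ≤ N) (IntermediateField.subset_adjoin k V ⟨g, rfl⟩)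
  have : FiniteDimensional k N := inferInstance
  have : Normal k N := inferInstance
  let res : G →* (N ≃ₐ[k] N) := (AlgEquiv.restrictNormalHom N).comp ι
  have hres : ∀ g (x : N), ((res g x : N) : Ω) = ι g x := fun g x =>
    AlgEquiv.restrictNormal_commutes (ι g) N x
  let H : Subgroup G := E.fixingSubgroup.comap ι
  let Γ : Subgroup (N ≃ₐ[k] N) := H.map res
  let a : Γ →* (N ≃+* N) :=
    { toFun := fun σ => (σ.1 : N ≃ₐ[k] N).toRingEquiv
      map_one' := rfl
      map_mul' := fun _ _ => rfl }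
  have ha : Function.Injective a := by
    intro σ σ' h
    apply Subtype.ext
    apply AlgEquiv.ext
    intro x
    exact DFunLike.congr_fun h x
  have hlift : ∀ σ : Γ, ∃ h : G, ι h ∈ E.fixingSubgroup ∧ res h = σ.1 := by
    rintro ⟨σ, h, hh, rfl⟩
    exact ⟨h, hh, rfl⟩
  choose lift hliftE hliftres using hlift
  -- θ only depends on the restriction to N
  have hθres : ∀ g g' : G, res g = res g' → θ g = θ g' := by
    intro g g' hgg
    apply linf_eq_of_restrict_eq ι θ M hM
    intro m hm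
    have := congrArg (fun σ : N ≃ₐ[k] N => ((σ ⟨m, hMN hm⟩ : N) : Ω)) hgg
    simpa only [hres] using this
  let f : Γ → Nˣ := fun σ =>
    Units.mk0 ⟨(θ (lift σ) : Ω), hVN _⟩ (fun h0 => Units.ne_zero (θ (lift σ))
      (congrArg Subtype.val h0))
  have hfval : ∀ σ : Γ, ((f σ : N) : Ω) = θ (lift σ) := fun σ => rfl
  have hf : ∀ σ σ' : Γ, f (σ * σ') = f σ * Units.map (a σ : N →* N) (f σ') := by
    intro σ σ'
    apply Units.ext
    apply Subtype.ext
    rw [hfval]
    have h1 : θ (lift (σ * σ')) = θ (lift σ * lift σ') := by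
      apply hθres
      rw [hliftres, map_mul, hliftres, hliftres]
      rfl
    rw [h1, hcoc _ _ (hliftE σ) (hliftE σ')]
    simp only [Units.val_mul, Units.coe_map, MonoidHom.coe_coe, MulMemClass.coe_mul, hfval]
    congr 1
    have h2 : ((a σ (f σ' : N) : N) : Ω) = ι (lift σ) ((f σ' : N) : Ω) := by
      rw [← hres, hliftres]
      rfl
    rw [h2, hfval]
  obtain ⟨β, hβ⟩ := linf_hilbert90 a ha f hf
  refine ⟨Units.map (algebraMap N Ω : N →* Ω) β, fun h hh => ?_⟩
  have hmem : res h ∈ Γ := ⟨h, hh, rfl⟩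
  have h1 : θ h = θ (lift ⟨res h, hmem⟩) := hθres _ _ (hliftres ⟨res h, hmem⟩).symm
  rw [h1]
  apply Units.ext
  rw [← hfval, hβ ⟨res h, hmem⟩]
  simp only [Units.val_div_eq_div_val, Units.coe_map, MonoidHom.coe_coe]
  have h2 : ((a ⟨res h, hmem⟩ (β : N) : N) : Ω) = ι h ((β : N) : Ω) := by
    rw [← hres]
    rfl
  have h3 : algebraMap N Ω (β : N) = ((β : N) : Ω) := rfl
  rw [h3, ← h2]
  rfl

end Descent



section Cyclic

variable {k Ω : Type*} [Field k] [Field Ω] [Algebra k Ω]
variable {G : Type*} [Group G] (ι : G →* (Ω ≃ₐ[k] Ω))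
variable {K F : Type*} [Field K] [Field F] [Algebra K F] (τ : F →+* Ω)
variable (ρ : G → (F ≃ₐ[K] F))

theorem linf_rho_mul (hρ : ∀ g y, τ (ρ g y) = ι g (τ y)) (g h : G) : ρ (g * h) = ρ g * ρ h := by
  apply AlgEquiv.ext
  intro y
  apply τ.injective
  rw [hρ, AlgEquiv.mul_apply, hρ, hρ, map_mul, AlgEquiv.mul_apply]

theorem linf_rho_one (hρ : ∀ g y, τ (ρ g y) = ι g (τ y)) : ρ 1 = 1 := by
  apply AlgEquiv.ext
  intro y
  apply τ.injective
  rw [hρ, map_one]
  rfl

theorem linf_rho_pow (hρ : ∀ g y, τ (ρ g y) = ι g (τ y)) (g : G) (n : ℕ) :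
    ρ (g ^ n) = ρ g ^ n := by
  induction n with
  | zero => rw [pow_zero, pow_zero, linf_rho_one ι τ ρ hρ]
  | succ n ih => rw [pow_succ, pow_succ, linf_rho_mul ι τ ρ hρ, ih]

theorem linf_mem_fixingSubgroup_iff (hρ : ∀ g y, τ (ρ g y) = ι g (τ y)) (g : G) :
    ι g ∈ (IntermediateField.adjoin k (Set.range τ)).fixingSubgroup ↔ ρ g = 1 := by
  rw [IntermediateField.mem_fixingSubgroup_iff]
  constructor
  · intro h
    apply AlgEquiv.ext
    intro y
    apply τ.injective
    rw [hρ]
    exact h _ (IntermediateField.subset_adjoin k _ ⟨y, rfl⟩)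
  · intro h x hx
    induction hx using IntermediateField.adjoin_induction with
    | mem x hx =>
      obtain ⟨y, rfl⟩ := hx
      rw [← hρ, h]
      rfl
    | algebraMap x => exact (ι g).commutes x
    | add x y _ _ hx hy => rw [map_add, hx, hy]
    | inv x _ hx => rw [map_inv₀, hx]
    | mul x y _ _ hx hy => rw [map_mul, hx, hy]

/-- **Local descent + telescoping** (P5, steps (A)+(B)). -/
theorem linf_cyclic_norm [IsGalois k Ω] (hρ : ∀ g y, τ (ρ g y) = ι g (τ y))
    (hι : (IntermediateField.adjoin k (Set.range τ)).fixingSubgroup ≤ ι.range)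
    (x : (F ≃ₐ[K] F) → (F ≃ₐ[K] F) → F)
    (hx1 : ∀ σ, x 1 σ = 1) (hx2 : ∀ σ, x σ 1 = 1)
    (θ : G → Ωˣ)
    (hlev : ∃ M : IntermediateField k Ω, FiniteDimensional k M ∧
      ∀ g s, ι s ∈ M.fixingSubgroup → θ (g * s) = θ g)
    (hθ : ∀ g h, τ (x (ρ g) (ρ h)) = θ g * ι g (θ h) / θ (g * h))
    (g₀ : G) (n : ℕ) (hn : ρ g₀ ^ n = 1) :
    ∃ y ∈ IntermediateField.adjoin k (Set.range τ), y ≠ 0 ∧
      τ (∏ i ∈ Finset.range n, x (ρ g₀ ^ i) (ρ g₀)) = ∏ i ∈ Finset.range n, (ι g₀ ^ i) y := by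
  set E := IntermediateField.adjoin k (Set.range τ) with hE
  have hH : ∀ g, ι g ∈ E.fixingSubgroup ↔ ρ g = 1 := linf_mem_fixingSubgroup_iff ι τ ρ hρ
  have hmul := linf_rho_mul ι τ ρ hρ
  have hone := linf_rho_one ι τ ρ hρ
  -- step 1: θ is a 1-cocycle on H
  have hcoc : ∀ g h, ι g ∈ E.fixingSubgroup → ι h ∈ E.fixingSubgroup →
      θ (g * h) = θ g * Units.map ((ι g : Ω ≃ₐ[k] Ω) : Ω →* Ω) (θ h) := by
    intro g h hg hh
    have h1 := hθ g h
    rw [(hH g).1 hg, (hH h).1 hh, hx1, map_one] at h1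
    apply Units.ext
    simp only [Units.val_mul, Units.coe_map, MonoidHom.coe_coe]
    have h2 : (θ (g * h) : Ω) ≠ 0 := Units.ne_zero _
    field_simp at h1
    exact h1
  obtain ⟨α, hα⟩ := linf_descent ι E θ hlev hcoc
  have hA : (α : Ω) ≠ 0 := Units.ne_zero _
  have hθ0 : ∀ g, (θ g : Ω) ≠ 0 := fun g => Units.ne_zero _
  have hιA : ∀ g, ι g (α : Ω) ≠ 0 := fun g => (map_ne_zero _).2 hA
  -- the twisted cochain
  set t : G → Ω := fun g => θ g * α / ι g α with ht
  have ht0 : ∀ g, t g ≠ 0 := fun g => div_ne_zero (mul_ne_zero (hθ0 g) hA) (hιA g)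
  have htH : ∀ h, ρ h = 1 → t h = 1 := by
    intro h hh
    have h1 := congrArg Units.val (hα h ((hH h).2 hh))
    simp only [Units.val_div_eq_div_val, Units.coe_map, MonoidHom.coe_coe] at h1
    simp only [ht, h1]
    field_simp
  have htid : ∀ g h, τ (x (ρ g) (ρ h)) = t g * ι g (t h) / t (g * h) := by
    intro g h
    rw [hθ g h]
    simp only [ht, map_div₀, map_mul]
    have h3 : (ι g * ι h) (α : Ω) = ι g (ι h α) := rfl
    rw [h3]
    have h4 : ι g (ι h (α : Ω)) ≠ 0 := (map_ne_zero _).2 (hιA h)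
    have h5 : ι g (θ h : Ω) ≠ 0 := (map_ne_zero _).2 (hθ0 h)
    field_simp
  -- right invariance under H
  have htr : ∀ g h, ρ h = 1 → t (g * h) = t g := by
    intro g h hh
    have h1 := htid g h
    rw [hh, hx2, map_one, htH h hh, map_one, mul_one] at h1
    have := ht0 (g * h)
    field_simp at h1
    exact h1
  -- values are fixed by H
  have htfix : ∀ g h, ρ h = 1 → ι h (t g) = t g := by
    intro g h hh
    have h1 := htid h g
    rw [hh, hx1, map_one, htH h hh, one_mul] at h1
    have h2 : t (h * g) = t g := by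
      have h3 : h * g = g * (g⁻¹ * h * g) := by group
      rw [h3]
      apply htr
      rw [hmul, hmul, hh, mul_one, ← hmul, inv_mul_cancel, hone]
    rw [h2] at h1
    have := ht0 g
    field_simp at h1
    exact h1.symm
  have htE : ∀ g, t g ∈ E := by
    intro g
    rw [← InfiniteGalois.fixedField_fixingSubgroup E, IntermediateField.mem_fixedField_iff]
    intro σ hσ
    obtain ⟨h, rfl⟩ := hι hσ
    exact htfix g h ((hH h).1 hσ)
  refine ⟨t g₀, htE g₀, ht0 g₀, ?_⟩
  have hpow := linf_rho_pow ι τ ρ hρ g₀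
  have key : ∀ m : ℕ, τ (∏ i ∈ Finset.range m, x (ρ g₀ ^ i) (ρ g₀)) * t (g₀ ^ m) =
      ∏ i ∈ Finset.range m, (ι g₀ ^ i) (t g₀) := by
    intro m
    induction m with
    | zero =>
      rw [Finset.prod_range_zero, Finset.prod_range_zero, map_one, pow_zero, htH 1 hone, mul_one]
    | succ m ih =>
      rw [Finset.prod_range_succ, Finset.prod_range_succ, map_mul, ← ih, ← hpow, htid,
        ← pow_succ, map_pow]
      have := ht0 (g₀ ^ (m + 1))
      field_simp
  have h1 := key n
  rw [htH (g₀ ^ n) (by rw [hpow, hn]), mul_one] at h1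
  exact h1

end Cyclic

end Fermat.Agent.S55
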