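/-
S55 block HPB, piece P5 (local input), part 2: the local norm statement over `PadicAlgCl q`.

* `linf_norm_algEquiv` : `ℚ_q`-automorphisms of `PadicAlgCl q` are isometries.
* `linf_dense`         : for any field embedding `τ : F → PadicAlgCl q`, the image `τ F` is dense
                         in `ℚ_q(τ F)`.
* `linf_prod_pow`      : product over a cyclic group = product over powers of a generator.
* `linf_local_norm`    : P5, norm form: if the cyclic 2-cochain with "norm residue" `b`, pulled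
                         back to the local group, is the coboundary of a finite-level cochain,
                         then `b` is arbitrarily close (at `τ`) to global norms from `F`.
-/
import Mathlib
import Fermat.Agent.S55.LocInf

namespace Fermat.Agent.S55

variable (q : ℕ) [Fact q.Prime]

/-- `ℚ_q`-automorphisms of `PadicAlgCl q` are isometries. -/
theorem linf_norm_algEquiv (σ : PadicAlgCl q ≃ₐ[ℚ_[q]] PadicAlgCl q) (y : PadicAlgCl q) :
    ‖σ y‖ = ‖y‖ :=
  (spectralNorm_eq_of_equiv σ y).symm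

theorem linf_continuous_algEquiv (σ : PadicAlgCl q ≃ₐ[ℚ_[q]] PadicAlgCl q) :
    Continuous (σ : PadicAlgCl q → PadicAlgCl q) := by
  refine AddMonoidHomClass.continuous_of_bound σ 1 (fun y => ?_)
  rw [linf_norm_algEquiv, one_mul]

/-- For any field embedding `τ : F → PadicAlgCl q`, the image `τ F` is dense in `ℚ_q(τ F)`. -/
theorem linf_dense {F : Type*} [Field F] (τ : F →+* PadicAlgCl q) {z : PadicAlgCl q}
    (hz : z ∈ IntermediateField.adjoin ℚ_[q] (Set.range τ)) {ε : ℝ} (hε : 0 < ε) :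
    ∃ y : F, ‖τ y - z‖ < ε := by
  have halg : ∀ x ∈ Set.range τ, IsAlgebraic ℚ_[q] x :=
    fun x _ => Algebra.IsAlgebraic.isAlgebraic x
  have hz' : z ∈ (IntermediateField.adjoin ℚ_[q] (Set.range τ)).toSubalgebra := hz
  rw [IntermediateField.adjoin_toSubalgebra_of_isAlgebraic halg] at hz'
  clear hz
  have hcl : z ∈ closure (Set.range τ) := by
    induction hz' using Algebra.adjoin_induction with
    | mem x hx => exact subset_closure hx
    | algebraMap c =>
      rw [Metric.mem_closure_iff]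
      intro δ hδ
      obtain ⟨r, hr⟩ := Padic.rat_dense q c hδ
      refine ⟨τ (r : F), ⟨_, rfl⟩, ?_⟩
      rw [map_ratCast, dist_eq_norm]
      have h2 : ((r : ℚ) : PadicAlgCl q) = algebraMap ℚ_[q] (PadicAlgCl q) ((r : ℚ) : ℚ_[q]) := by
        rw [map_ratCast]
      rw [h2, ← map_sub, norm_algebraMap']
      exact hr
    | add x y _ _ hx hy =>
      refine map_mem_closure₂ continuous_add hx hy ?_
      rintro _ ⟨a, rfl⟩ _ ⟨b, rfl⟩
      exact ⟨a + b, map_add _ _ _⟩
    | mul x y _ _ hx hy =>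
      refine map_mem_closure₂ continuous_mul hx hy ?_
      rintro _ ⟨a, rfl⟩ _ ⟨b, rfl⟩
      exact ⟨a * b, map_mul _ _ _⟩
  obtain ⟨y, hy⟩ := Metric.mem_closure_range_iff.1 hcl ε hε
  exact ⟨y, by rw [← dist_eq_norm, dist_comm]; exact hy⟩

/-- Product over a finite cyclic group = product over the powers of a generator. -/
theorem linf_prod_pow {Γ : Type*} [Group Γ] [Fintype Γ] {M : Type*} [CommMonoid M] (s : Γ)
    (hgen : ∀ σ : Γ, σ ∈ Subgroup.zpowers s) (f : Γ → M) :
    ∏ σ : Γ, f σ = ∏ i ∈ Finset.range (Fintype.card Γ), f (s ^ i) := by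
  classical
  have hord : orderOf s = Fintype.card Γ := by
    rw [orderOf_eq_card_of_forall_mem_zpowers hgen, Nat.card_eq_fintype_card]
  have hinj : Set.InjOn (fun i : ℕ => s ^ i) (Finset.range (Fintype.card Γ) : Set ℕ) := by
    rw [← hord, Finset.coe_range]
    exact pow_injOn_Iio_orderOf
  have himg : (Finset.range (Fintype.card Γ)).image (fun i : ℕ => s ^ i) = Finset.univ := by
    apply Finset.eq_univ_of_card
    rw [Finset.card_image_of_injOn hinj, Finset.card_range]
  rw [← himg, Finset.prod_image hinj]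

/-- **P5, norm form.**  `K ⊂ F` finite Galois with group generated by `ρ g₀`; `τ : F → PadicAlgCl q`
an embedding; `G` a group mapping to `Gal(PadicAlgCl q / ℚ_q)` (via `ι`), acting on `F` through
`ρ` compatibly with `τ`, and whose image contains everything fixing `ℚ_q(τ F)`.  If the
normalised 2-cochain `x` on `Gal(F/K)`, pulled back to `G`, is the coboundary of a finite-level
1-cochain `θ`, and `b = ∏_{i<[F:K]} x (s^i, s)` (`s = ρ g₀`) lies in `K`, then `b ≠ 0` and `b` is
arbitrarily `τ`-close to norms of nonzero elements of `F`. -/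
theorem linf_local_norm {K F : Type*} [Field K] [Field F] [Algebra K F] [FiniteDimensional K F]
    [IsGalois K F] {G : Type*} [Group G]
    (ι : G →* (PadicAlgCl q ≃ₐ[ℚ_[q]] PadicAlgCl q)) (τ : F →+* PadicAlgCl q)
    (ρ : G → (F ≃ₐ[K] F)) (hρ : ∀ g y, τ (ρ g y) = ι g (τ y))
    (hι : (IntermediateField.adjoin ℚ_[q] (Set.range τ)).fixingSubgroup ≤ ι.range)
    (x : (F ≃ₐ[K] F) → (F ≃ₐ[K] F) → F) (hx1 : ∀ σ, x 1 σ = 1) (hx2 : ∀ σ, x σ 1 = 1)
    (θ : G → (PadicAlgCl q)ˣ)
    (hlev : ∃ M : IntermediateField ℚ_[q] (PadicAlgCl q), FiniteDimensional ℚ_[q] M ∧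
      ∀ g s, ι s ∈ M.fixingSubgroup → θ (g * s) = θ g)
    (hθ : ∀ g h, τ (x (ρ g) (ρ h)) = θ g * ι g (θ h) / θ (g * h))
    (g₀ : G) (hgen : ∀ σ : F ≃ₐ[K] F, σ ∈ Subgroup.zpowers (ρ g₀))
    (b : K)
    (hb : algebraMap K F b = ∏ i ∈ Finset.range (Module.finrank K F), x (ρ g₀ ^ i) (ρ g₀)) :
    b ≠ 0 ∧ ∀ ε : ℝ, 0 < ε →
      ∃ y : F, y ≠ 0 ∧ ‖τ (algebraMap K F (b / Algebra.norm K y)) - 1‖ < ε := by
  classical
  set n := Module.finrank K F with hn
  have hcard : Fintype.card (F ≃ₐ[K] F) = n := by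
    rw [← Nat.card_eq_fintype_card, IsGalois.card_aut_eq_finrank]
  have hord : orderOf (ρ g₀) = n := by
    rw [orderOf_eq_card_of_forall_mem_zpowers hgen, IsGalois.card_aut_eq_finrank]
  have hpow : ρ g₀ ^ n = 1 := by rw [← hord]; exact pow_orderOf_eq_one _
  obtain ⟨y, hyE, hy0, hy⟩ :=
    linf_cyclic_norm ι τ ρ hρ hι x hx1 hx2 θ hlev hθ g₀ n hpow
  rw [← hb] at hy
  -- the "norm" map on `PadicAlgCl q`
  set P : PadicAlgCl q → PadicAlgCl q := fun z => ∏ i ∈ Finset.range n, (ι g₀ ^ i) z with hP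
  have hPcont : Continuous P :=
    continuous_finsetProd _ (fun i _ => linf_continuous_algEquiv q (ι g₀ ^ i))
  have hPτ : ∀ y' : F, P (τ y') = τ (algebraMap K F (Algebra.norm K y')) := by
    intro y'
    rw [Algebra.norm_eq_prod_automorphisms, linf_prod_pow (ρ g₀) hgen, hcard, map_prod]
    refine Finset.prod_congr rfl (fun i _ => ?_)
    rw [← linf_rho_pow ι τ ρ hρ, hρ, map_pow]
  have hτb : τ (algebraMap K F b) ≠ 0 := by
    rw [hy]
    exact Finset.prod_ne_zero_iff.2 (fun i _ => (map_ne_zero _).2 hy0)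
  have hb0 : b ≠ 0 := by
    rintro rfl
    exact hτb (by simp)
  refine ⟨hb0, fun ε hε => ?_⟩
  set B : ℝ := ‖τ (algebraMap K F b)‖ with hB
  have hBpos : 0 < B := norm_pos_iff.2 hτb
  set ε' : ℝ := min ε 1 * B / 2 with hε'
  have hε'pos : 0 < ε' := by positivity
  obtain ⟨δ, hδ, hcont⟩ := (Metric.continuous_iff.1 hPcont) y ε' hε'pos
  obtain ⟨y', hy'⟩ := linf_dense q τ hyE (lt_min hδ (norm_pos_iff.2 hy0))
  have hy'0 : y' ≠ 0 := by
    rintro rfl
    rw [map_zero, zero_sub, norm_neg] at hy'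
    exact absurd (lt_of_lt_of_le hy' (min_le_right _ _)) (lt_irrefl _)
  refine ⟨y', hy'0, ?_⟩
  have h1 : ‖P (τ y') - P y‖ < ε' := by
    have := hcont (τ y') (by rw [dist_eq_norm]; exact lt_of_lt_of_le hy' (min_le_left _ _))
    rwa [dist_eq_norm] at this
  rw [hPτ] at h1
  have hPy : P y = τ (algebraMap K F b) := hy.symm
  rw [hPy] at h1
  set Nv := τ (algebraMap K F (Algebra.norm K y')) with hNv
  have hNvB : B / 2 ≤ ‖Nv‖ := by
    have h2 : B ≤ ‖Nv‖ + ‖Nv - τ (algebraMap K F b)‖ := by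
      have := norm_sub_le Nv (Nv - τ (algebraMap K F b))
      rwa [sub_sub_cancel] at this
    have h3 : ε' ≤ B / 2 := by
      rw [hε']
      have : min ε 1 ≤ 1 := min_le_right _ _
      nlinarith
    linarith
  have hNv0 : Nv ≠ 0 := norm_pos_iff.1 (lt_of_lt_of_le (by positivity) hNvB)
  have h4 : τ (algebraMap K F (b / Algebra.norm K y')) - 1 = (τ (algebraMap K F b) - Nv) / Nv := by
    rw [map_div₀, map_div₀, sub_div, div_self hNv0]
  rw [h4, norm_div, norm_sub_rev, div_lt_iff₀ (norm_pos_iff.2 hNv0)]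
  calc ‖Nv - τ (algebraMap K F b)‖ < ε' := h1
    _ = min ε 1 * (B / 2) := by rw [hε']; ring
    _ ≤ ε * ‖Nv‖ := mul_le_mul (min_le_left _ _) hNvB (by positivity) hε.le

end Fermat.Agent.S55
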