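import Mathlib
import Fermat.Agent.S55.HpbDefs
import Fermat.Agent.S55.LocInfNorm
import Fermat.Agent.S55.KsiDefs
import Fermat.Agent.S55.SUnitHq

/-!
# S55, block HPB: the index-`p` layer (Hasse norm theorem in Galois-theoretic form)

* `hpb_exists_restrict`: an automorphism of `Ω` fixing `τ K` restricts to `L` (`L/K` normal).
* `hpb_dense_norm`: if `τ b = ∏_{i<[F:K]} g^i y` with `y ∈ ℚ_q(τ F)` and `g` inducing a generator
  of `Gal(F/K)`, then `b` is `τ`-adically arbitrarily close to norms from `F`.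
* `hpb_layer_top`, `hpb_layer`: the Hasse norm theorem for the layer `L^N / L^H`.
-/

set_option autoImplicit false
set_option linter.style.haveILetI false

namespace Fermat.Agent.S55

open IsDedekindDomain NumberField

section Restrict

/-- An automorphism `g` of `Ω` fixing `τ K` pointwise restricts to an element of `Gal(L/K)`
(`L/K` normal, `τ : L → Ω` an embedding). -/
theorem hpb_exists_restrict {K L Ω : Type*} [Field K] [Field L] [Field Ω] [Algebra K L]
    [Normal K L] (τ : L →+* Ω) (g : Ω ≃+* Ω)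
    (hg : ∀ k : K, g (τ (algebraMap K L k)) = τ (algebraMap K L k)) :
    ∃ s : L ≃ₐ[K] L, ∀ x, τ (s x) = g (τ x) := by
  letI : Algebra K Ω := (τ.comp (algebraMap K L)).toAlgebra
  letI : Algebra L Ω := τ.toAlgebra
  haveI : IsScalarTower K L Ω := IsScalarTower.of_algebraMap_eq fun _ => rfl
  let g' : Ω ≃ₐ[K] Ω := AlgEquiv.ofRingEquiv (f := g) (fun k => hg k)
  exact ⟨AlgEquiv.restrictNormal g' L, fun x => AlgEquiv.restrictNormal_commutes g' L x⟩

end Restrict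

section Dense

variable {q : ℕ} [Fact q.Prime]

/-- If `τ b` is the "local norm" `∏_{i<[F:K]} g^i y` of some `y ∈ ℚ_q(τ F)`, where `g` induces a
generator `s` of `Gal(F/K)`, then `b` is arbitrarily `τ`-close to norms from `F`.
(The density argument of helper6's `linf_local_norm`.) -/
theorem hpb_dense_norm {K F : Type*} [Field K] [Field F] [Algebra K F] [FiniteDimensional K F]
    [IsGalois K F] (τ : F →+* PadicAlgCl q) (g : PadicAlgCl q ≃ₐ[ℚ_[q]] PadicAlgCl q)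
    (s : F ≃ₐ[K] F) (hs : ∀ x, τ (s x) = g (τ x)) (hgen : ∀ σ : F ≃ₐ[K] F, σ ∈ Subgroup.zpowers s)
    (b : K) (y : PadicAlgCl q) (hy0 : y ≠ 0)
    (hyE : y ∈ IntermediateField.adjoin ℚ_[q] (Set.range τ))
    (hy : τ (algebraMap K F b) = ∏ i ∈ Finset.range (Module.finrank K F), (g ^ i) y) :
    b ≠ 0 ∧ ∀ ε : ℝ, 0 < ε →
      ∃ y' : F, y' ≠ 0 ∧ ‖τ (algebraMap K F (b / Algebra.norm K y')) - 1‖ < ε := by
  classical
  set n := Module.finrank K F with hn
  have hcard : Fintype.card (F ≃ₐ[K] F) = n := by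
    rw [← Nat.card_eq_fintype_card, IsGalois.card_aut_eq_finrank]
  have hspow : ∀ (i : ℕ) (x : F), τ ((s ^ i) x) = (g ^ i) (τ x) := by
    intro i
    induction i with
    | zero => intro x; rfl
    | succ i ih =>
      intro x
      rw [pow_succ, pow_succ, AlgEquiv.mul_apply, AlgEquiv.mul_apply, ih, hs]
  set P : PadicAlgCl q → PadicAlgCl q := fun z => ∏ i ∈ Finset.range n, (g ^ i) z with hP
  have hPcont : Continuous P :=
    continuous_finsetProd _ (fun i _ => linf_continuous_algEquiv q (g ^ i))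
  have hPτ : ∀ y' : F, P (τ y') = τ (algebraMap K F (Algebra.norm K y')) := by
    intro y'
    rw [Algebra.norm_eq_prod_automorphisms, linf_prod_pow s hgen, hcard, map_prod]
    exact Finset.prod_congr rfl (fun i _ => (hspow i y').symm)
  have hτb : τ (algebraMap K F b) ≠ 0 := by
    rw [hy]
    exact Finset.prod_ne_zero_iff.2 (fun i _ => (map_ne_zero _).2 hy0)
  have hb0 : b ≠ 0 := by
    rintro rfl
    exact hτb (by simp)
  refine ⟨hb0, fun ε hε => ?_⟩
  set B : ℝ := ‖τ (algebraMap K F b)‖ with hB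
  have hBpos : 0 < B := norm_pos_iff.2 hτb
  set ε' : ℝ := min ε 1 * B / 2 with hε'
  have hε'pos : 0 < ε' := by positivity
  obtain ⟨δ, hδ, hcont⟩ := (Metric.continuous_iff.1 hPcont) y ε' hε'pos
  obtain ⟨y', hy'⟩ := linf_dense q τ hyE (lt_min hδ (norm_pos_iff.2 hy0))
  have hy'0 : y' ≠ 0 := by
    rintro rfl
    rw [map_zero, zero_sub, norm_neg] at hy'
    exact absurd (lt_of_lt_of_le hy' (min_le_right _ _)) (lt_irrefl _)
  refine ⟨y', hy'0, ?_⟩
  have h1 : ‖P (τ y') - P y‖ < ε' := by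
    have := hcont (τ y') (by rw [dist_eq_norm]; exact lt_of_lt_of_le hy' (min_le_left _ _))
    rwa [dist_eq_norm] at this
  rw [hPτ] at h1
  have hPy : P y = τ (algebraMap K F b) := hy.symm
  rw [hPy] at h1
  set Nv := τ (algebraMap K F (Algebra.norm K y')) with hNv
  have hNvB : B / 2 ≤ ‖Nv‖ := by
    have h2 : B ≤ ‖Nv‖ + ‖Nv - τ (algebraMap K F b)‖ := by
      have := norm_sub_le Nv (Nv - τ (algebraMap K F b))
      rwa [sub_sub_cancel] at this
    have h3 : ε' ≤ B / 2 := by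
      rw [hε']
      have : min ε 1 ≤ 1 := min_le_right _ _
      nlinarith
    linarith
  have hNv0 : Nv ≠ 0 := norm_pos_iff.1 (lt_of_lt_of_le (by positivity) hNvB)
  have h4 : τ (algebraMap K F (b / Algebra.norm K y')) - 1 = (τ (algebraMap K F b) - Nv) / Nv := by
    rw [map_div₀, map_div₀, sub_div, div_self hNv0]
  rw [h4, norm_div, norm_sub_rev, div_lt_iff₀ (norm_pos_iff.2 hNv0)]
  calc ‖Nv - τ (algebraMap K F b)‖ < ε' := h1
    _ = min ε 1 * (B / 2) := by rw [hε']; ring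
    _ ≤ ε * ‖Nv‖ := mul_le_mul (min_le_left _ _) hNvB (by positivity) hε.le

end Dense

section Layer

variable {K L : Type} [Field K] [NumberField K] [Field L] [NumberField L] [Algebra K L]
  [IsGalois K L]

/-- **The index-`p` layer, case `H = ⊤`.**  `N ◁ Gal(L/K)` of index `p`, `F = L^N`, `a ∈ Kˣ`.
If for every embedding `τ : L → PadicAlgCl q` and every local automorphism `g` inducing an element
of `Gal(L/K)` outside `N`, `τ a` is the local norm `∏_{k<p} g^k y` of some `y ∈ ℚ_q(τ F)`, then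
`a` is a norm from `F`: `a = ∏_{k<p} σ^k x` with `x ∈ Fˣ`, for any `σ ∉ N`.

The arithmetic inputs are explicit hypotheses: `R` ("`τ₀` induces the prime `v`"), `Pa` (every
prime is induced by an embedding), `Pb` (nonsplit primes have a nontrivial local automorphism),
`Cv` (`τ`-adic approximation by norms gives membership in `ksiNorm`), `HNT` (Hasse norm theorem
for cyclic extensions of degree `p`). -/
theorem hpb_layer_top (p : ℕ) [Fact p.Prime]
    (R : ∀ (K₀ : Type) [Field K₀] [NumberField K₀] (q : ℕ) [Fact q.Prime],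
      (K₀ →+* PadicAlgCl q) → HeightOneSpectrum (𝓞 K₀) → Prop)
    (Pa : ∀ (K₀ : Type) [Field K₀] [NumberField K₀] (v : HeightOneSpectrum (𝓞 K₀)),
      ∃ (q : ℕ) (_ : Fact q.Prime) (τ₀ : K₀ →+* PadicAlgCl q), R K₀ q τ₀ v)
    (Pb : ∀ (K₀ F₀ : Type) [Field K₀] [NumberField K₀] [Field F₀] [NumberField F₀]
      [Algebra K₀ F₀] [IsGalois K₀ F₀], Module.finrank K₀ F₀ = p →
      ∀ (v : HeightOneSpectrum (𝓞 K₀)) (q : ℕ) [Fact q.Prime] (τ : F₀ →+* PadicAlgCl q),
      suNonsplit K₀ F₀ v → R K₀ q (τ.comp (algebraMap K₀ F₀)) v →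
      ∃ g : PadicAlgCl q ≃ₐ[ℚ_[q]] PadicAlgCl q,
        (∀ k : K₀, g (τ (algebraMap K₀ F₀ k)) = τ (algebraMap K₀ F₀ k)) ∧ ∃ x : F₀, g (τ x) ≠ τ x)
    (Cv : ∀ (K₀ F₀ : Type) [Field K₀] [NumberField K₀] [Field F₀] [NumberField F₀]
      [Algebra K₀ F₀] (v : HeightOneSpectrum (𝓞 K₀)) (q : ℕ) [Fact q.Prime]
      (τ : F₀ →+* PadicAlgCl q), R K₀ q (τ.comp (algebraMap K₀ F₀)) v → ∀ b : K₀ˣ,
      (∀ ε : ℝ, 0 < ε → ∃ y' : F₀, y' ≠ 0 ∧
        ‖τ (algebraMap K₀ F₀ ((b : K₀) / Algebra.norm K₀ y')) - 1‖ < ε) →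
      ∀ n, b ∈ ksiNorm K₀ F₀ v n)
    (HNT : ∀ (K₀ F₀ : Type) [Field K₀] [NumberField K₀] [Field F₀] [NumberField F₀]
      [Algebra K₀ F₀] [IsGalois K₀ F₀], Module.finrank K₀ F₀ = p →
      (∃ ζ : K₀, IsPrimitiveRoot ζ p) → ∀ x : K₀ˣ,
      (∀ v, suNonsplit K₀ F₀ v → ∀ n, x ∈ ksiNorm K₀ F₀ v n) →
      ∃ y : F₀ˣ, Units.map (Algebra.norm K₀ : F₀ →* K₀) y = x)
    (hζ : ∃ ζ : K, IsPrimitiveRoot ζ p)
    (N : Subgroup (L ≃ₐ[K] L)) [N.Normal] (hidx : N.index = p)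
    (σ : L ≃ₐ[K] L) (hσ : σ ∉ N) (a : Kˣ)
    (hloc : ∀ (q : ℕ) [Fact q.Prime] (τ : L →+* PadicAlgCl q)
      (g : PadicAlgCl q ≃ₐ[ℚ_[q]] PadicAlgCl q) (s : L ≃ₐ[K] L), (∀ x, τ (s x) = g (τ x)) →
      s ∉ N → ∃ y : PadicAlgCl q, y ≠ 0 ∧
        y ∈ IntermediateField.adjoin ℚ_[q] (τ '' (IntermediateField.fixedField N : Set L)) ∧
        τ (algebraMap K L a) = ∏ k ∈ Finset.range p, (g ^ k) y) :
    ∃ x : Lˣ, (∀ n ∈ N, n (x : L) = x) ∧
      algebraMap K L a = ∏ k ∈ Finset.range p, (σ ^ k) (x : L) := by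
  classical
  set F : IntermediateField K L := IntermediateField.fixedField N with hF
  have hfix : F.fixingSubgroup = N := IntermediateField.fixingSubgroup_fixedField N
  have hdeg : Module.finrank K F = p := by
    rw [IntermediateField.finrank_eq_fixingSubgroup_index, hfix, hidx]
  have hres : ∀ (s : L ≃ₐ[K] L) (x : F), ((AlgEquiv.restrictNormalHom F s x : F) : L) = s x :=
    fun s x => AlgEquiv.restrictNormal_commutes s F x
  have hne : ∀ s : L ≃ₐ[K] L, s ∉ N → AlgEquiv.restrictNormalHom F s ≠ 1 := by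
    intro s hs h1
    apply hs
    rw [← hfix, IntermediateField.mem_fixingSubgroup_iff]
    intro x hx
    have := hres s ⟨x, hx⟩
    rw [h1] at this
    exact this.symm
  have hcardF : Nat.card (F ≃ₐ[K] F) = p := by rw [IsGalois.card_aut_eq_finrank, hdeg]
  have hgen : ∀ s : L ≃ₐ[K] L, s ∉ N →
      ∀ γ : F ≃ₐ[K] F, γ ∈ Subgroup.zpowers (AlgEquiv.restrictNormalHom F s) :=
    fun s hs γ => mem_zpowers_of_prime_card hcardF (hne s hs)
  have hx : ∀ v, suNonsplit K F v → ∀ n, a ∈ ksiNorm K F v n := by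
    intro v hv n
    obtain ⟨q, hq, τ₀, hR⟩ := Pa K v
    haveI := hq
    obtain ⟨τ, hτ⟩ : ∃ τ : L →+* PadicAlgCl q, τ.comp (algebraMap K L) = τ₀ := by
      letI : Algebra K (PadicAlgCl q) := τ₀.toAlgebra
      let φ : L →ₐ[K] PadicAlgCl q := IsAlgClosed.lift
      exact ⟨φ.toRingHom, RingHom.ext fun k => φ.commutes k⟩
    set τF : F →+* PadicAlgCl q := τ.comp (algebraMap F L) with hτF
    have hτF0 : τF.comp (algebraMap K F) = τ₀ := by rw [← hτ]; rfl
    obtain ⟨g, hgK, x₀, hx₀⟩ := Pb K F hdeg v q τF hv (by rw [hτF0]; exact hR)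
    obtain ⟨s, hs⟩ := hpb_exists_restrict τ g.toRingEquiv (fun k => hgK k)
    have hs' : ∀ x, τ (s x) = g (τ x) := hs
    have hsN : s ∉ N := by
      intro hsN
      apply hx₀
      have h1 : s (x₀ : L) = x₀ := by
        rw [← hfix] at hsN
        exact (IntermediateField.mem_fixingSubgroup_iff F s).1 hsN x₀ x₀.2
      show g (τ (x₀ : L)) = τ (x₀ : L)
      rw [← hs', h1]
    obtain ⟨y, hy0, hyE, hyprod⟩ := hloc q τ g s hs' hsN
    refine Cv K F v q τF (by rw [hτF0]; exact hR) a ?_ n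
    refine (hpb_dense_norm τF g (AlgEquiv.restrictNormalHom F s) (fun x => ?_) (hgen s hsN)
      (a : K) y hy0 ?_ ?_).2
    · show τ ((AlgEquiv.restrictNormalHom F s x : F) : L) = g (τ (x : L))
      rw [hres, hs']
    · have : Set.range τF = τ '' (F : Set L) := by
        ext z
        constructor
        · rintro ⟨x, rfl⟩
          exact ⟨x, x.2, rfl⟩
        · rintro ⟨x, hx, rfl⟩
          exact ⟨⟨x, hx⟩, rfl⟩
      rw [this]
      exact hyE
    · rw [hdeg]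
      exact hyprod
  obtain ⟨y, hy⟩ := HNT K F hdeg hζ a hx
  refine ⟨Units.map ((algebraMap F L : F →+* L) : F →* L) y, fun n hn => ?_, ?_⟩
  · exact (IntermediateField.mem_fixedField_iff N _).1 (y : F).2 n hn
  · have h1 : algebraMap K F (Algebra.norm K (y : F)) = ∏ γ : F ≃ₐ[K] F, γ (y : F) :=
      Algebra.norm_eq_prod_automorphisms K (y : F)
    have h2 : (a : K) = Algebra.norm K (y : F) := by
      rw [← hy]; rfl
    have hcard' : Fintype.card (F ≃ₐ[K] F) = p := by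
      rw [← Nat.card_eq_fintype_card, hcardF]
    rw [linf_prod_pow (AlgEquiv.restrictNormalHom F σ) (hgen σ hσ), hcard'] at h1
    have h3 : algebraMap K L (a : K) = algebraMap F L (algebraMap K F (a : K)) := rfl
    rw [h3, h2, h1, map_prod]
    refine Finset.prod_congr rfl fun i _ => ?_
    rw [← map_pow]
    exact hres (σ ^ i) (y : F)

/-- **The index-`p` layer `L^N / L^H`** (`N ◁ H ≤ Gal(L/K)`, `[H : N] = p`), by base change to
`L^H` from `hpb_layer_top`. -/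
theorem hpb_layer (p : ℕ) [Fact p.Prime]
    (R : ∀ (K₀ : Type) [Field K₀] [NumberField K₀] (q : ℕ) [Fact q.Prime],
      (K₀ →+* PadicAlgCl q) → HeightOneSpectrum (𝓞 K₀) → Prop)
    (Pa : ∀ (K₀ : Type) [Field K₀] [NumberField K₀] (v : HeightOneSpectrum (𝓞 K₀)),
      ∃ (q : ℕ) (_ : Fact q.Prime) (τ₀ : K₀ →+* PadicAlgCl q), R K₀ q τ₀ v)
    (Pb : ∀ (K₀ F₀ : Type) [Field K₀] [NumberField K₀] [Field F₀] [NumberField F₀]
      [Algebra K₀ F₀] [IsGalois K₀ F₀], Module.finrank K₀ F₀ = p →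
      ∀ (v : HeightOneSpectrum (𝓞 K₀)) (q : ℕ) [Fact q.Prime] (τ : F₀ →+* PadicAlgCl q),
      suNonsplit K₀ F₀ v → R K₀ q (τ.comp (algebraMap K₀ F₀)) v →
      ∃ g : PadicAlgCl q ≃ₐ[ℚ_[q]] PadicAlgCl q,
        (∀ k : K₀, g (τ (algebraMap K₀ F₀ k)) = τ (algebraMap K₀ F₀ k)) ∧ ∃ x : F₀, g (τ x) ≠ τ x)
    (Cv : ∀ (K₀ F₀ : Type) [Field K₀] [NumberField K₀] [Field F₀] [NumberField F₀]
      [Algebra K₀ F₀] (v : HeightOneSpectrum (𝓞 K₀)) (q : ℕ) [Fact q.Prime]
      (τ : F₀ →+* PadicAlgCl q), R K₀ q (τ.comp (algebraMap K₀ F₀)) v → ∀ b : K₀ˣ,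
      (∀ ε : ℝ, 0 < ε → ∃ y' : F₀, y' ≠ 0 ∧
        ‖τ (algebraMap K₀ F₀ ((b : K₀) / Algebra.norm K₀ y')) - 1‖ < ε) →
      ∀ n, b ∈ ksiNorm K₀ F₀ v n)
    (HNT : ∀ (K₀ F₀ : Type) [Field K₀] [NumberField K₀] [Field F₀] [NumberField F₀]
      [Algebra K₀ F₀] [IsGalois K₀ F₀], Module.finrank K₀ F₀ = p →
      (∃ ζ : K₀, IsPrimitiveRoot ζ p) → ∀ x : K₀ˣ,
      (∀ v, suNonsplit K₀ F₀ v → ∀ n, x ∈ ksiNorm K₀ F₀ v n) →
      ∃ y : F₀ˣ, Units.map (Algebra.norm K₀ : F₀ →* K₀) y = x)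
    (hζ : ∃ ζ : K, IsPrimitiveRoot ζ p)
    (H N : Subgroup (L ≃ₐ[K] L)) (hNH : N ≤ H) (hnorm : (N.subgroupOf H).Normal)
    (hidx : N.relIndex H = p)
    (σ : L ≃ₐ[K] L) (hσH : σ ∈ H) (hσ : σ ∉ N) (a : Lˣ) (ha : ∀ h ∈ H, h (a : L) = a)
    (hloc : ∀ (q : ℕ) [Fact q.Prime] (τ : L →+* PadicAlgCl q)
      (g : PadicAlgCl q ≃ₐ[ℚ_[q]] PadicAlgCl q) (s : L ≃ₐ[K] L), (∀ x, τ (s x) = g (τ x)) →
      s ∈ H → s ∉ N → ∃ y : PadicAlgCl q, y ≠ 0 ∧
        y ∈ IntermediateField.adjoin ℚ_[q] (τ '' (IntermediateField.fixedField N : Set L)) ∧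
        τ (a : L) = ∏ k ∈ Finset.range p, (g ^ k) y) :
    ∃ x : Lˣ, (∀ n ∈ N, n (x : L) = x) ∧ (a : L) = ∏ k ∈ Finset.range p, (σ ^ k) (x : L) := by
  classical
  set K' : IntermediateField K L := IntermediateField.fixedField H with hK'
  have hfixH : K'.fixingSubgroup = H := IntermediateField.fixingSubgroup_fixedField H
  -- the comparison map `Gal(L/K') → Gal(L/K)`
  let ι : (L ≃ₐ[K'] L) →* (L ≃ₐ[K] L) :=
    (Subgroup.subtype _).comp (IntermediateField.fixingSubgroupEquiv K').symm.toMonoidHom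
  have hι : ∀ (g' : L ≃ₐ[K'] L) (x : L), ι g' x = g' x := fun g' x => rfl
  have hιH : ∀ g' : L ≃ₐ[K'] L, ι g' ∈ H := fun g' => by
    rw [← hfixH]
    exact ((IntermediateField.fixingSubgroupEquiv K').symm g').2
  have hιsurj : ∀ h ∈ H, ∃ g' : L ≃ₐ[K'] L, ι g' = h := by
    intro h hh
    rw [← hfixH] at hh
    refine ⟨IntermediateField.fixingSubgroupEquiv K' ⟨h, hh⟩, ?_⟩
    show ((IntermediateField.fixingSubgroupEquiv K').symm
      (IntermediateField.fixingSubgroupEquiv K' ⟨h, hh⟩) : L ≃ₐ[K] L) = h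
    rw [MulEquiv.symm_apply_apply]
  have hιrange : ι.range = H := by
    ext h
    constructor
    · rintro ⟨g', rfl⟩
      exact hιH g'
    · intro hh
      exact hιsurj h hh
  let N' : Subgroup (L ≃ₐ[K'] L) := N.comap ι
  haveI hN'normal : N'.Normal := by
    constructor
    intro n' hn' g'
    show ι (g' * n' * g'⁻¹) ∈ N
    rw [map_mul, map_mul, map_inv]
    have h1 := hnorm.conj_mem ⟨ι n', hιH n'⟩ (Subgroup.mem_subgroupOf.2 hn') ⟨ι g', hιH g'⟩
    exact Subgroup.mem_subgroupOf.1 h1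
  have hN'idx : N'.index = p := by
    rw [Subgroup.index_comap, hιrange, hidx]
  obtain ⟨σ', hσ'⟩ := hιsurj σ hσH
  have hσ'N : σ' ∉ N' := fun h => hσ (hσ' ▸ h)
  have haK' : (a : L) ∈ K' := (IntermediateField.mem_fixedField_iff H _).2 ha
  let a' : (K')ˣ := Units.mk0 ⟨(a : L), haK'⟩ (fun h => a.ne_zero (congrArg Subtype.val h))
  have hζ' : ∃ ζ : K', IsPrimitiveRoot ζ p := by
    obtain ⟨ζ, hζ⟩ := hζ
    exact ⟨algebraMap K K' ζ, hζ.map_of_injective (algebraMap K K').injective⟩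
  have hfixed : (IntermediateField.fixedField N' : Set L) = (IntermediateField.fixedField N : Set L) := by
    ext x
    simp only [SetLike.mem_coe, IntermediateField.mem_fixedField_iff]
    constructor
    · intro h n hn
      obtain ⟨n', rfl⟩ := hιsurj n (hNH hn)
      exact h n' hn
    · intro h n' hn'
      exact h (ι n') hn'
  obtain ⟨x, hx1, hx2⟩ := hpb_layer_top (K := K') (L := L) p R Pa Pb Cv HNT hζ' N' hN'idx σ' hσ'N a'
    (fun q _ τ g s' hs' hs'N => by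
      have := hloc q τ g (ι s') hs' (hιH s') hs'N
      rw [hfixed]
      exact this)
  refine ⟨x, fun n hn => ?_, ?_⟩
  · obtain ⟨n', rfl⟩ := hιsurj n (hNH hn)
    exact hx1 n' hn
  · have h1 : (a : L) = algebraMap K' L a' := rfl
    rw [h1, hx2]
    refine Finset.prod_congr rfl fun k _ => ?_
    rw [← hσ', ← map_pow]
    rfl

end Layer

end Fermat.Agent.S55
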