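/-
S55 block HPB, piece P5 (local input), part 3: from `q`-adic embeddings to primes and valuations.

For a number field `K` and a ring homomorphism `σ : K →+* PadicAlgCl q`:
* `linf_prime q σ : HeightOneSpectrum (𝓞 K)`  — the prime `{a | ‖σ a‖ < 1}`;
* `linf_valuation_le` : `‖σ z‖ ≤ q^(-n) → (linf_prime q σ).valuation K z ≤ WithZero.exp (-n)`;
* `linf_exists_embedding` : every prime of `K` is `linf_prime q σ` for some `q`, `σ`;
* `linf_exists_extension` : embeddings extend along algebraic extensions;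
* `linf_local_norm_val` : P5 in completions-free valuation form.
-/
import Mathlib
import Fermat.Prelude.Def_GaloisRep_CompletionBridge
import Fermat.Agent.S55.LocInfNorm

namespace Fermat.Agent.S55

open NumberField IsDedekindDomain



section Val

variable (q : ℕ) [Fact q.Prime]

/-- Elements of `PadicAlgCl q` integral over `ℤ` have norm `≤ 1`. -/
theorem linf_norm_le_one_of_isIntegral {z : PadicAlgCl q} (hz : IsIntegral ℤ z) : ‖z‖ ≤ 1 := by
  have h1 : IsIntegral (padicIntegers q) z := hz.tower_top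
  obtain ⟨y, rfl⟩ := IsIntegrallyClosed.isIntegral_iff.1 h1
  exact (mem_padicIntegers_iff q).1 y.2

theorem linf_norm_natCast_self : ‖((q : ℕ) : PadicAlgCl q)‖ = (q : ℝ)⁻¹ := by
  have h : ((q : ℕ) : PadicAlgCl q) = algebraMap ℚ_[q] (PadicAlgCl q) (q : ℚ_[q]) := by
    rw [map_natCast]
  rw [h, norm_algebraMap']
  exact Padic.norm_p

variable {K : Type*} [Field K] (σ : K →+* PadicAlgCl q)

theorem linf_norm_integer_le_one (a : 𝓞 K) : ‖σ (algebraMap (𝓞 K) K a)‖ ≤ 1 :=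
  linf_norm_le_one_of_isIntegral q (map_isIntegral_int σ (RingOfIntegers.isIntegral_coe a))

variable [NumberField K]

/-- The ideal of `𝓞 K` cut out by an embedding `σ : K → PadicAlgCl q`. -/
def linf_ideal : Ideal (𝓞 K) where
  carrier := {a | ‖σ (algebraMap (𝓞 K) K a)‖ < 1}
  add_mem' := fun {a b} ha hb => by
    change ‖σ (algebraMap (𝓞 K) K (a + b))‖ < 1
    rw [map_add, map_add]
    exact lt_of_le_of_lt (IsUltrametricDist.norm_add_le_max _ _) (max_lt ha hb)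
  zero_mem' := by
    change ‖σ (algebraMap (𝓞 K) K 0)‖ < 1
    simp
  smul_mem' := fun c a ha => by
    change ‖σ (algebraMap (𝓞 K) K (c * a))‖ < 1
    rw [map_mul, map_mul, norm_mul]
    exact mul_lt_one_of_nonneg_of_lt_one_right (linf_norm_integer_le_one q σ c) (norm_nonneg _) ha

theorem linf_mem_ideal_iff (a : 𝓞 K) :
    a ∈ linf_ideal q σ ↔ ‖σ (algebraMap (𝓞 K) K a)‖ < 1 := Iff.rfl

instance linf_ideal_isPrime : (linf_ideal q σ).IsPrime := by
  refine ⟨?_, ?_⟩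
  · rw [Ideal.ne_top_iff_one]
    rw [linf_mem_ideal_iff]
    simp
  · intro a b hab
    rw [linf_mem_ideal_iff] at hab
    by_contra hcon
    push Not at hcon
    rw [linf_mem_ideal_iff, linf_mem_ideal_iff] at hcon
    have ha : ‖σ (algebraMap (𝓞 K) K a)‖ = 1 :=
      le_antisymm (linf_norm_integer_le_one q σ a) (not_lt.1 hcon.1)
    have hb : ‖σ (algebraMap (𝓞 K) K b)‖ = 1 :=
      le_antisymm (linf_norm_integer_le_one q σ b) (not_lt.1 hcon.2)
    rw [map_mul, map_mul, norm_mul, ha, hb, one_mul] at hab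
    exact lt_irrefl _ hab

theorem linf_natCast_mem : ((q : ℕ) : 𝓞 K) ∈ linf_ideal q σ := by
  rw [linf_mem_ideal_iff]
  have h : σ (algebraMap (𝓞 K) K ((q : ℕ) : 𝓞 K)) = ((q : ℕ) : PadicAlgCl q) := by
    rw [map_natCast, map_natCast]
  rw [h, linf_norm_natCast_self]
  exact inv_lt_one_of_one_lt₀ (by exact_mod_cast (Fact.out : q.Prime).one_lt)

theorem linf_ideal_ne_bot : linf_ideal q σ ≠ ⊥ := by
  intro h
  have h1 := linf_natCast_mem q σ
  rw [h, Ideal.mem_bot] at h1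
  have h2 : ((q : ℕ) : 𝓞 K) ≠ 0 := by
    exact_mod_cast (Fact.out : q.Prime).ne_zero
  exact h2 h1

/-- The prime of `K` induced by an embedding `σ : K → PadicAlgCl q`. -/
noncomputable def linf_prime : HeightOneSpectrum (𝓞 K) :=
  ⟨linf_ideal q σ, inferInstance, linf_ideal_ne_bot q σ⟩

theorem linf_mem_prime_iff (a : 𝓞 K) :
    a ∈ (linf_prime q σ).asIdeal ↔ ‖σ (algebraMap (𝓞 K) K a)‖ < 1 := Iff.rfl

theorem linf_norm_lt_one_of_valuation_lt_one (z : K)
    (h : (linf_prime q σ).valuation K z < 1) : ‖σ z‖ < 1 := by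
  obtain ⟨n, d, hnd⟩ := (linf_prime q σ).exists_primeCompl_mul_eq_of_integer z h.le
  have hd : ‖σ (algebraMap (𝓞 K) K (d : 𝓞 K))‖ = 1 := by
    refine le_antisymm (linf_norm_integer_le_one q σ d) (not_lt.1 ?_)
    exact fun hlt => d.2 ((linf_mem_prime_iff q σ d).2 hlt)
  have hdv : (linf_prime q σ).valuation K (algebraMap (𝓞 K) K d) = 1 := by
    rw [HeightOneSpectrum.valuation_eq_one_iff_notMem]  -- may differ
    exact d.2
  have hn : n ∈ (linf_prime q σ).asIdeal := by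
    have h2 : (linf_prime q σ).valuation K (algebraMap (𝓞 K) K n) < 1 := by
      rw [← hnd, map_mul, hdv, mul_one]
      exact h
    exact (HeightOneSpectrum.valuation_lt_one_iff_mem _ _).1 h2
  have h1 := congrArg (fun t => ‖σ t‖) hnd
  simp only [map_mul, norm_mul] at h1
  rw [hd, mul_one] at h1
  rw [h1]
  exact (linf_mem_prime_iff q σ n).1 hn

theorem linf_valuation_le_one_of_norm_le_one (z : K) (h : ‖σ z‖ ≤ 1) :
    (linf_prime q σ).valuation K z ≤ 1 := by
  by_contra hcon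
  push Not at hcon
  have hz : z ≠ 0 := by
    rintro rfl
    simp at hcon
  have h1 : (linf_prime q σ).valuation K z⁻¹ < 1 := by
    rw [map_inv₀]
    exact inv_lt_one_of_one_lt₀ hcon
  have h2 := linf_norm_lt_one_of_valuation_lt_one q σ z⁻¹ h1
  rw [map_inv₀, norm_inv] at h2
  have h3 : 0 < ‖σ z‖ := norm_pos_iff.2 ((map_ne_zero σ).2 hz)
  have h4 : 1 < ‖σ z‖ := by
    by_contra h5
    push Not at h5
    exact absurd h2 (not_lt.2 ((one_le_inv₀ h3).2 h5))
  linarith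

/-- **Norm-to-valuation conversion**: `‖σ z‖ ≤ q^(-n)` implies `v_σ(z) ≤ exp(-n)`. -/
theorem linf_valuation_le (z : K) (n : ℕ) (h : ‖σ z‖ ≤ (q : ℝ) ^ (-(n : ℤ))) :
    (linf_prime q σ).valuation K z ≤ WithZero.exp (-(n : ℤ)) := by
  have hq0 : (q : ℝ) ≠ 0 := by exact_mod_cast (Fact.out : q.Prime).ne_zero
  have hqK : ((q : ℕ) : K) ≠ 0 := by exact_mod_cast (Fact.out : q.Prime).ne_zero
  -- valuation of q
  have hvq : (linf_prime q σ).valuation K ((q : ℕ) : K) ≤ WithZero.exp (-1 : ℤ) := by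
    have h1 : (linf_prime q σ).valuation K (algebraMap (𝓞 K) K ((q : ℕ) : 𝓞 K)) < 1 :=
      (HeightOneSpectrum.valuation_lt_one_iff_mem _ _).2 (linf_natCast_mem q σ)
    rw [map_natCast] at h1
    have h0 : (linf_prime q σ).valuation K ((q : ℕ) : K) ≠ 0 := (map_ne_zero _).2 hqK
    rw [← WithZero.log_le_iff_le_exp h0]
    have h2 : WithZero.log ((linf_prime q σ).valuation K ((q : ℕ) : K)) < 0 := by
      rw [WithZero.log_lt_iff_lt_exp h0, WithZero.exp_zero]
      exact h1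
    omega
  -- z / q^n has norm ≤ 1
  have h1 : ‖σ (z / ((q : ℕ) : K) ^ n)‖ ≤ 1 := by
    rw [map_div₀, map_pow, map_natCast, norm_div, norm_pow, linf_norm_natCast_self, inv_pow,
      div_inv_eq_mul]
    rw [zpow_neg, zpow_natCast] at h
    have h2 : (0 : ℝ) < (q : ℝ) ^ n := by positivity
    calc ‖σ z‖ * (q : ℝ) ^ n ≤ ((q : ℝ) ^ n)⁻¹ * (q : ℝ) ^ n :=
          mul_le_mul_of_nonneg_right h h2.le
      _ = 1 := inv_mul_cancel₀ h2.ne'
  have h2 := linf_valuation_le_one_of_norm_le_one q σ _ h1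
  rw [map_div₀, map_pow] at h2
  have h3 : (linf_prime q σ).valuation K ((q : ℕ) : K) ^ n ≠ 0 :=
    pow_ne_zero _ ((map_ne_zero _).2 hqK)
  rw [div_le_one₀ (zero_lt_iff.2 h3)] at h2
  refine h2.trans ?_
  calc (linf_prime q σ).valuation K ((q : ℕ) : K) ^ n ≤ WithZero.exp (-1 : ℤ) ^ n :=
        pow_le_pow_left' hvq n
    _ = WithZero.exp (-(n : ℤ)) := by
        rw [← WithZero.exp_nsmul]
        simp

end Val

section Exists

variable {K : Type*} [Field K] [NumberField K]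

/-- Every prime of `𝓞 K` contains a rational prime. -/
theorem linf_exists_prime_mem (v : HeightOneSpectrum (𝓞 K)) :
    ∃ q : ℕ, q.Prime ∧ ((q : ℕ) : 𝓞 K) ∈ v.asIdeal := by
  have hN0 : Ideal.absNorm v.asIdeal ≠ 0 := by
    rw [Ne, Ideal.absNorm_eq_zero_iff]
    exact v.ne_bot
  have hNv := Ideal.absNorm_mem v.asIdeal
  have key : ∀ n : ℕ, n ≠ 0 → ((n : ℕ) : 𝓞 K) ∈ v.asIdeal →
      ∃ q : ℕ, q.Prime ∧ ((q : ℕ) : 𝓞 K) ∈ v.asIdeal := by
    intro n
    induction n using Nat.recOnMul with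
    | zero => intro h; exact absurd rfl h
    | one =>
      intro _ h
      rw [Nat.cast_one] at h
      exact absurd ((Ideal.eq_top_iff_one _).2 h) v.isPrime.ne_top
    | prime p hp => intro _ h; exact ⟨p, hp, h⟩
    | mul a b iha ihb =>
      intro hab h
      rw [Nat.cast_mul] at h
      rcases v.isPrime.mem_or_mem h with h | h
      · exact iha (fun h0 => hab (by rw [h0, zero_mul])) h
      · exact ihb (fun h0 => hab (by rw [h0, mul_zero])) h
  exact key _ hN0 hNv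

/-- **Every prime of a number field comes from a `q`-adic embedding.** -/
theorem linf_exists_embedding (v : HeightOneSpectrum (𝓞 K)) :
    ∃ (q : ℕ) (_ : Fact q.Prime) (σ : K →+* PadicAlgCl q), linf_prime q σ = v := by
  classical
  obtain ⟨q, hq, hqv⟩ := linf_exists_prime_mem v
  have : Fact q.Prime := ⟨hq⟩
  refine ⟨q, ⟨hq⟩, ?_⟩
  by_contra hcon
  push Not at hcon
  have σ₀ : K →ₐ[ℚ] PadicAlgCl q := IsAlgClosed.lift
  let f : (K →ₐ[ℚ] PadicAlgCl q) → Ideal (𝓞 K) := fun σ => linf_ideal q σ.toRingHom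
  have hnot : ¬ ∃ σ ∈ (Finset.univ : Finset (K →ₐ[ℚ] PadicAlgCl q)), v.asIdeal ≤ f σ := by
    rintro ⟨σ, -, hle⟩
    apply hcon σ.toRingHom
    apply HeightOneSpectrum.ext
    exact ((v.isMaximal).eq_of_le (Ideal.IsPrime.ne_top inferInstance) hle).symm
  rw [← Ideal.subset_union_prime σ₀ σ₀ (fun σ _ _ _ => linf_ideal_isPrime q σ.toRingHom)]
    at hnot
  obtain ⟨a, hav, ha⟩ := Set.not_subset.1 hnot
  have h1 : ∀ σ : K →ₐ[ℚ] PadicAlgCl q, ‖σ (algebraMap (𝓞 K) K a)‖ = 1 := by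
    intro σ
    refine le_antisymm (linf_norm_integer_le_one q σ.toRingHom a) (not_lt.1 fun hlt => ha ?_)
    simp only [Set.mem_iUnion]
    exact ⟨σ, Finset.mem_coe.2 (Finset.mem_univ _), hlt⟩
  have h2 : ‖algebraMap ℚ (PadicAlgCl q) (Algebra.norm ℚ (algebraMap (𝓞 K) K a))‖ = 1 := by
    rw [Algebra.norm_eq_prod_embeddings, norm_prod]
    exact Finset.prod_eq_one (fun σ _ => h1 σ)
  set M : ℤ := Algebra.norm ℤ a with hM
  have hMnorm : ‖((M : ℤ) : PadicAlgCl q)‖ = 1 := by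
    have h3 : ((M : ℤ) : ℚ) = Algebra.norm ℚ (algebraMap (𝓞 K) K a) := Algebra.coe_norm_int a
    rw [← h3, map_intCast] at h2
    exact h2
  have hmv : ((M.natAbs : ℕ) : 𝓞 K) ∈ v.asIdeal := by
    have := Ideal.absNorm_mem (Ideal.span ({a} : Set (𝓞 K)))
    rw [Ideal.absNorm_span_singleton] at this
    exact (Ideal.span_le.2 (Set.singleton_subset_iff.2 hav)) this
  have hmnorm : ‖((M.natAbs : ℕ) : PadicAlgCl q)‖ = 1 := by
    rcases Int.natAbs_eq M with h | h
    · rw [← hMnorm]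
      conv_rhs => rw [h]
      rw [Int.cast_natCast]
    · rw [← hMnorm]
      conv_rhs => rw [h]
      rw [Int.cast_neg, norm_neg, Int.cast_natCast]
  have hqm : q ∣ M.natAbs := by
    by_contra hndvd
    have hcop : Nat.Coprime q M.natAbs := (Nat.Prime.coprime_iff_not_dvd hq).2 hndvd
    obtain ⟨u, w, huw⟩ := Nat.isCoprime_iff_coprime.2 hcop
    have h4 : (1 : 𝓞 K) ∈ v.asIdeal := by
      have h5 : ((u * (q : ℤ) + w * (M.natAbs : ℤ) : ℤ) : 𝓞 K) = 1 := by
        rw [huw, Int.cast_one]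
      rw [← h5, Int.cast_add, Int.cast_mul, Int.cast_mul, Int.cast_natCast, Int.cast_natCast]
      exact v.asIdeal.add_mem (v.asIdeal.mul_mem_left _ hqv) (v.asIdeal.mul_mem_left _ hmv)
    exact v.isPrime.ne_top ((Ideal.eq_top_iff_one _).2 h4)
  obtain ⟨m', hm'⟩ := hqm
  rw [hm', Nat.cast_mul, norm_mul, linf_norm_natCast_self] at hmnorm
  have h6 : ‖((m' : ℕ) : PadicAlgCl q)‖ ≤ 1 := by
    apply linf_norm_le_one_of_isIntegral
    have := isIntegral_algebraMap (R := ℤ) (A := PadicAlgCl q) (x := (m' : ℤ))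
    simpa using this
  have h7 : ((q : ℝ))⁻¹ < 1 :=
    inv_lt_one_of_one_lt₀ (by exact_mod_cast hq.one_lt)
  have h8 : ((q : ℝ))⁻¹ * ‖((m' : ℕ) : PadicAlgCl q)‖ < 1 := by
    calc ((q : ℝ))⁻¹ * ‖((m' : ℕ) : PadicAlgCl q)‖ ≤ ((q : ℝ))⁻¹ * 1 :=
          mul_le_mul_of_nonneg_left h6 (by positivity)
      _ < 1 := by rw [mul_one]; exact h7
  linarith

/-- Embeddings extend along algebraic extensions. -/
theorem linf_exists_extension (q : ℕ) [Fact q.Prime] {K F : Type*} [Field K] [Field F]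
    [Algebra K F] [Algebra.IsAlgebraic K F] (σ : K →+* PadicAlgCl q) :
    ∃ τ : F →+* PadicAlgCl q, τ.comp (algebraMap K F) = σ := by
  let _ : Algebra K (PadicAlgCl q) := σ.toAlgebra
  let τ : F →ₐ[K] PadicAlgCl q := IsAlgClosed.lift
  refine ⟨τ.toRingHom, ?_⟩
  ext x
  exact τ.commutes x

end Exists

/-- **P5, valuation form.**  Same hypotheses as `linf_local_norm`, with `K` a number field:
`b` is a local norm at the prime of `K` induced by `τ`, to any precision. -/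
theorem linf_local_norm_val (q : ℕ) [Fact q.Prime] {K F : Type*} [Field K] [NumberField K]
    [Field F] [Algebra K F] [FiniteDimensional K F] [IsGalois K F] {G : Type*} [Group G]
    (ι : G →* (PadicAlgCl q ≃ₐ[ℚ_[q]] PadicAlgCl q)) (τ : F →+* PadicAlgCl q)
    (ρ : G → (F ≃ₐ[K] F)) (hρ : ∀ g y, τ (ρ g y) = ι g (τ y))
    (hι : (IntermediateField.adjoin ℚ_[q] (Set.range τ)).fixingSubgroup ≤ ι.range)
    (x : (F ≃ₐ[K] F) → (F ≃ₐ[K] F) → F) (hx1 : ∀ σ, x 1 σ = 1) (hx2 : ∀ σ, x σ 1 = 1)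
    (θ : G → (PadicAlgCl q)ˣ)
    (hlev : ∃ M : IntermediateField ℚ_[q] (PadicAlgCl q), FiniteDimensional ℚ_[q] M ∧
      ∀ g s, ι s ∈ M.fixingSubgroup → θ (g * s) = θ g)
    (hθ : ∀ g h, τ (x (ρ g) (ρ h)) = θ g * ι g (θ h) / θ (g * h))
    (g₀ : G) (hgen : ∀ σ : F ≃ₐ[K] F, σ ∈ Subgroup.zpowers (ρ g₀))
    (b : K)
    (hb : algebraMap K F b = ∏ i ∈ Finset.range (Module.finrank K F), x (ρ g₀ ^ i) (ρ g₀)) :
    b ≠ 0 ∧ ∀ n : ℕ, ∃ y : F, y ≠ 0 ∧
      (linf_prime q (τ.comp (algebraMap K F))).valuation K (b / Algebra.norm K y - 1) ≤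
        WithZero.exp (-(n : ℤ)) := by
  obtain ⟨hb0, h⟩ := linf_local_norm q ι τ ρ hρ hι x hx1 hx2 θ hlev hθ g₀ hgen b hb
  refine ⟨hb0, fun n => ?_⟩
  have hq0 : (0 : ℝ) < q := by exact_mod_cast (Fact.out : q.Prime).pos
  obtain ⟨y, hy0, hy⟩ := h ((q : ℝ) ^ (-(n : ℤ))) (zpow_pos hq0 _)
  refine ⟨y, hy0, linf_valuation_le q _ _ n ?_⟩
  rw [RingHom.comp_apply, map_sub, map_sub, map_one, map_one]
  exact hy.le

end Fermat.Agent.S55
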