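import Mathlib
import Fermat.Agent.S55.HpbDefs
import Fermat.Agent.S55.LocInfVal
import Fermat.Agent.S55.SUnitHq

/-!
# S55, block HPB: nonsplit primes have nontrivial local automorphisms

For an embedding `σ : K →+* PadicAlgCl q` of a number field, helper6's `linf_prime q σ` is the
prime of `K` induced by `σ`.
* `hpb_norm_le_one_iff`: `‖σ z‖ ≤ 1 ↔ v_σ(z) ≤ 1`;
* `hpb_norm_eq_of_prime_eq`: the norm `‖σ ·‖` only depends on the prime `linf_prime q σ`;
* `hpb_prime_under`: `linf_prime q τ` lies over `linf_prime q (τ ∘ algebraMap K F)`;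
* `hpb_nonsplit_aut`: if `F/K` is Galois, nontrivial, and the prime of `K` induced by `τ` has a
  unique prime of `F` above it, then some `g ∈ Gal(PadicAlgCl q/ℚ_q)` fixes `τ K` pointwise but
  moves `τ F`;
* `hpb_nonsplit_not_mem`: in that situation `τ F ⊄ K_τ`.
-/

set_option autoImplicit false

namespace Fermat.Agent.S55

open NumberField IsDedekindDomain

section Norm

variable (q : ℕ) [Fact q.Prime] {K : Type*} [Field K] [NumberField K]

theorem hpb_norm_le_one_of_valuation_le_one (σ : K →+* PadicAlgCl q) (z : K)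
    (h : (linf_prime q σ).valuation K z ≤ 1) : ‖σ z‖ ≤ 1 := by
  obtain ⟨n, d, hnd⟩ := (linf_prime q σ).exists_primeCompl_mul_eq_of_integer z h
  have hd : ‖σ (algebraMap (𝓞 K) K (d : 𝓞 K))‖ = 1 := by
    refine le_antisymm (linf_norm_integer_le_one q σ d) (not_lt.1 ?_)
    exact fun hlt => d.2 ((linf_mem_prime_iff q σ d).2 hlt)
  have h1 := congrArg (fun t => ‖σ t‖) hnd
  simp only [map_mul, norm_mul] at h1
  rw [hd, mul_one] at h1
  rw [h1]
  exact linf_norm_integer_le_one q σ n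

theorem hpb_norm_le_one_iff (σ : K →+* PadicAlgCl q) (z : K) :
    ‖σ z‖ ≤ 1 ↔ (linf_prime q σ).valuation K z ≤ 1 :=
  ⟨linf_valuation_le_one_of_norm_le_one q σ z, hpb_norm_le_one_of_valuation_le_one q σ z⟩

theorem hpb_norm_natCast (σ : K →+* PadicAlgCl q) : ‖σ ((q : ℕ) : K)‖ = (q : ℝ)⁻¹ := by
  rw [map_natCast]
  exact linf_norm_natCast_self q

theorem hpb_norm_le_of_prime_eq (σ σ' : K →+* PadicAlgCl q)
    (h : linf_prime q σ = linf_prime q σ') (z : K) : ‖σ' z‖ ≤ ‖σ z‖ := by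
  by_contra hlt
  push Not at hlt
  have hq1 : (1 : ℝ) < q := by exact_mod_cast (Fact.out : q.Prime).one_lt
  have hq0 : (0 : ℝ) < q := lt_trans one_pos hq1
  have hz0 : z ≠ 0 := by
    rintro rfl
    simp at hlt
  set u := ‖σ z‖ with hu
  set w := ‖σ' z‖ with hw
  have hu0 : 0 < u := by
    rw [hu, norm_pos_iff]
    exact (map_ne_zero _).2 hz0
  have huw : 1 < w / u := by rwa [one_lt_div hu0]
  obtain ⟨b, hb⟩ := pow_unbounded_of_one_lt (q : ℝ) huw
  obtain ⟨n, hn1, hn2⟩ := exists_mem_Ico_zpow (pow_pos hu0 b) hq1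
  set y : K := z ^ b * ((q : ℕ) : K) ^ (n + 1) with hy
  have hnq : ∀ τ : K →+* PadicAlgCl q, ‖τ y‖ = ‖τ z‖ ^ b * ((q : ℝ)⁻¹) ^ (n + 1) := by
    intro τ
    rw [hy, map_mul, map_pow, map_zpow₀, norm_mul, norm_pow, norm_zpow, hpb_norm_natCast]
  have h1 : ‖σ y‖ ≤ 1 := by
    rw [hnq σ, ← hu, inv_zpow, ← div_eq_mul_inv, div_le_one (zpow_pos hq0 _)]
    exact hn2.le
  have h2 : 1 < ‖σ' y‖ := by
    rw [hnq σ', ← hw, inv_zpow, ← div_eq_mul_inv, one_lt_div (zpow_pos hq0 _)]
    have h3 : w ^ b = u ^ b * (w / u) ^ b := by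
      rw [div_pow, mul_div_cancel₀ _ (pow_pos hu0 b).ne']
    rw [h3, zpow_add_one₀ hq0.ne']
    exact mul_lt_mul' hn1 hb hq0.le (pow_pos hu0 b)
  have h4 : ‖σ' y‖ ≤ 1 := by
    rw [hpb_norm_le_one_iff, ← h, ← hpb_norm_le_one_iff]
    exact h1
  exact absurd h4 (not_le.2 h2)

/-- The norm `‖σ ·‖` is determined by the prime induced by `σ`. -/
theorem hpb_norm_eq_of_prime_eq (σ σ' : K →+* PadicAlgCl q)
    (h : linf_prime q σ = linf_prime q σ') (z : K) : ‖σ z‖ = ‖σ' z‖ :=
  le_antisymm (hpb_norm_le_of_prime_eq q σ' σ h.symm z) (hpb_norm_le_of_prime_eq q σ σ' h z)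

/-- `linf_prime q τ` lies over `linf_prime q (τ ∘ algebraMap K F)`. -/
theorem hpb_prime_under {F : Type*} [Field F] [NumberField F] [Algebra K F]
    (τ : F →+* PadicAlgCl q) :
    (linf_prime q τ).under (𝓞 K) = linf_prime q (τ.comp (algebraMap K F)) := by
  apply HeightOneSpectrum.ext
  ext x
  rw [HeightOneSpectrum.under_asIdeal, Ideal.under_def, Ideal.mem_comap, linf_mem_prime_iff,
    linf_mem_prime_iff]
  rfl

end Norm

section Nonsplit

variable (q : ℕ) [Fact q.Prime] {K F : Type*} [Field K] [NumberField K] [Field F] [NumberField F]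
  [Algebra K F] [IsGalois K F]

/-- **Nonsplit primes have a nontrivial local automorphism.** -/
theorem hpb_nonsplit_aut (hKF : ∃ σ : F ≃ₐ[K] F, σ ≠ 1) (τ : F →+* PadicAlgCl q)
    (hns : suNonsplit K F (linf_prime q (τ.comp (algebraMap K F)))) :
    ∃ g : PadicAlgCl q ≃ₐ[ℚ_[q]] PadicAlgCl q,
      (∀ k : K, g (τ (algebraMap K F k)) = τ (algebraMap K F k)) ∧ ∃ x : F, g (τ x) ≠ τ x := by
  obtain ⟨σ, hσ⟩ := hKF
  set τσ : F →+* PadicAlgCl q := τ.comp (σ : F →+* F) with hτσ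
  have hcomp : τσ.comp (algebraMap K F) = τ.comp (algebraMap K F) := by
    ext k
    show τ (σ (algebraMap K F k)) = τ (algebraMap K F k)
    rw [σ.commutes]
  have h1 : linf_prime q τσ = linf_prime q τ :=
    hns _ _ (by rw [hpb_prime_under, hcomp]) (hpb_prime_under q τ)
  have hiso : ∀ z : F, ‖τ (σ z)‖ = ‖τ z‖ := fun z => hpb_norm_eq_of_prime_eq q τσ τ h1 z
  by_contra hcon
  push Not at hcon
  set E : IntermediateField ℚ_[q] (PadicAlgCl q) :=
    IntermediateField.adjoin ℚ_[q] (Set.range (τ.comp (algebraMap K F))) with hE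
  have hmem : ∀ x : F, τ x ∈ E := by
    intro x
    rw [← InfiniteGalois.fixedField_fixingSubgroup E, IntermediateField.mem_fixedField_iff]
    intro g hg
    refine hcon g (fun k => ?_) x
    exact (IntermediateField.mem_fixingSubgroup_iff E g).1 hg _
      (IntermediateField.subset_adjoin _ _ ⟨k, rfl⟩)
  apply hσ
  ext x
  apply τ.injective
  show τ (σ x) = τ x
  by_contra hne
  have hε : 0 < ‖τ (σ x) - τ x‖ := norm_pos_iff.2 (sub_ne_zero.2 hne)
  obtain ⟨k, hk⟩ := linf_dense q (τ.comp (algebraMap K F)) (hmem x) (half_pos hε)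
  have hk' : ‖τ (algebraMap K F k - x)‖ < ‖τ (σ x) - τ x‖ / 2 := by
    rw [map_sub]
    exact hk
  have h2 : τ (σ x) - τ x = τ (algebraMap K F k - x) - τ (σ (algebraMap K F k - x)) := by
    rw [map_sub, map_sub, map_sub, σ.commutes]
    ring
  have h3 : ‖τ (σ x) - τ x‖ ≤ ‖τ (algebraMap K F k - x)‖ + ‖τ (σ (algebraMap K F k - x))‖ := by
    conv_lhs => rw [h2]
    exact norm_sub_le _ _
  rw [hiso] at h3
  linarith

/-- In the nonsplit situation, `τ F` is not contained in `K_τ = ℚ_q(τ K)`. -/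
theorem hpb_nonsplit_not_mem {K F : Type} [Field K] [NumberField K] [Field F] [NumberField F]
    [Algebra K F] [IsGalois K F] (hKF : ∃ σ : F ≃ₐ[K] F, σ ≠ 1) (τ : F →+* PadicAlgCl q)
    (hns : suNonsplit K F (linf_prime q (τ.comp (algebraMap K F)))) :
    ∃ x : F, τ x ∉ hpbKloc K τ := by
  obtain ⟨g, hg, x, hx⟩ := hpb_nonsplit_aut q hKF τ hns
  refine ⟨x, fun hmem => hx ?_⟩
  have hfix : ∀ z ∈ hpbKloc K τ, g z = z := by
    intro z hz
    induction hz using IntermediateField.adjoin_induction with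
    | mem z hz =>
      obtain ⟨k, rfl⟩ := hz
      exact hg k
    | algebraMap z => exact g.commutes z
    | add x y _ _ hx hy => rw [map_add, hx, hy]
    | inv x _ hx => rw [map_inv₀, hx]
    | mul x y _ _ hx hy => rw [map_mul, hx, hy]
  exact hfix _ hmem

/-- A Galois extension of prime degree has a nontrivial automorphism. -/
theorem hpb_exists_ne_one {K F : Type*} [Field K] [Field F] [Algebra K F] [IsGalois K F]
    [FiniteDimensional K F] {p : ℕ} (hp : p.Prime) (hdeg : Module.finrank K F = p) :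
    ∃ σ : F ≃ₐ[K] F, σ ≠ 1 := by
  by_contra hcon
  push Not at hcon
  have hsub : Subsingleton (F ≃ₐ[K] F) := ⟨fun a b => by rw [hcon a, hcon b]⟩
  have h1 : Nat.card (F ≃ₐ[K] F) = 1 := Nat.card_of_subsingleton 1
  rw [IsGalois.card_aut_eq_finrank, hdeg] at h1
  exact hp.one_lt.ne' h1

end Nonsplit

end Fermat.Agent.S55
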