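import Mathlib
import Fermat.Agent.S55.HpbDefs
import Fermat.Agent.S55.HpbLayer
import Fermat.Agent.S55.HpbNonsplit

/-!
# S55, block HPB: local plumbing

* `hpb_exists_loc_restrict`: an automorphism `g` of `PadicAlgCl q / ℚ_q` fixing `τ K` restricts to
  an element `t` of `Gal(L_τ/K_τ)`, and `hpbPsi K τ t` is the restriction of `g` to `L`.
* `hpb_Cv`: `τ`-adic approximation by norms gives membership in `ksiNorm`.
* `hpb_hnt`: the index-`p` layer with FINITE-LEVEL local hypothesis (the shape of helper2's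
  `BrhHNT`), with only the Hasse norm theorem as a hypothesis.
-/

set_option autoImplicit false
set_option linter.style.haveILetI false

namespace Fermat.Agent.S55

open IsDedekindDomain NumberField

section Restrict

variable (K : Type) {L : Type} [Field K] [Field L] [Algebra K L] {q : ℕ} [Fact q.Prime]
  (τ : L →+* PadicAlgCl q)

/-- An automorphism fixing `τ K` pointwise fixes `K_τ` pointwise. -/
theorem hpb_fix_Kloc (g : PadicAlgCl q ≃ₐ[ℚ_[q]] PadicAlgCl q)
    (hg : ∀ k : K, g (τ (algebraMap K L k)) = τ (algebraMap K L k)) :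
    ∀ z ∈ hpbKloc K τ, g z = z := by
  intro z hz
  induction hz using IntermediateField.adjoin_induction with
  | mem z hz =>
    obtain ⟨k, rfl⟩ := hz
    exact hg k
  | algebraMap z => exact g.commutes z
  | add x y _ _ hx hy => rw [map_add, hx, hy]
  | inv x _ hx => rw [map_inv₀, hx]
  | mul x y _ _ hx hy => rw [map_mul, hx, hy]

/-- An automorphism fixing `K_τ` and mapping `τ L` into itself maps `L_τ` into itself. -/
theorem hpb_map_Lloc (g : PadicAlgCl q ≃ₐ[ℚ_[q]] PadicAlgCl q) (s : L → L)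
    (hK : ∀ z ∈ hpbKloc K τ, g z = z) (hs : ∀ x, g (τ x) = τ (s x)) :
    ∀ z ∈ hpbLloc K τ, g z ∈ hpbLloc K τ := by
  intro z hz
  induction hz using IntermediateField.adjoin_induction with
  | mem z hz =>
    obtain ⟨x, rfl⟩ := hz
    rw [hs]
    exact IntermediateField.subset_adjoin _ _ ⟨s x, rfl⟩
  | algebraMap z =>
    have h1 : g (algebraMap (hpbKloc K τ) (PadicAlgCl q) z) = algebraMap (hpbKloc K τ) (PadicAlgCl q) z :=
      hK _ z.2
    rw [h1]
    exact IntermediateField.algebraMap_mem _ z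
  | add x y _ _ hx hy => rw [map_add]; exact add_mem hx hy
  | inv x _ hx => rw [map_inv₀]; exact inv_mem hx
  | mul x y _ _ hx hy => rw [map_mul]; exact mul_mem hx hy

/-- **Restriction to the finite level.** -/
theorem hpb_exists_loc_restrict [Normal K L] (g : PadicAlgCl q ≃ₐ[ℚ_[q]] PadicAlgCl q)
    (s : L ≃ₐ[K] L) (hs : ∀ x, τ (s x) = g (τ x)) :
    ∃ t : hpbLloc K τ ≃ₐ[hpbKloc K τ] hpbLloc K τ,
      (∀ z : hpbLloc K τ, ((t z : hpbLloc K τ) : PadicAlgCl q) = g z) ∧ hpbPsi K τ t = s := by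
  have hg : ∀ k : K, g (τ (algebraMap K L k)) = τ (algebraMap K L k) := fun k => by
    rw [← hs, s.commutes]
  have hK := hpb_fix_Kloc K τ g hg
  have hK' : ∀ z ∈ hpbKloc K τ, g.symm z = z := fun z hz => by
    conv_lhs => rw [← hK z hz]
    exact g.symm_apply_apply z
  have h1 := hpb_map_Lloc K τ g s hK (fun x => (hs x).symm)
  have h2 := hpb_map_Lloc K τ g.symm s.symm hK' (fun x => by
    rw [AlgEquiv.symm_apply_eq, ← hs, AlgEquiv.apply_symm_apply])
  let t : hpbLloc K τ ≃ₐ[hpbKloc K τ] hpbLloc K τ :=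
    { toFun := fun z => ⟨g z, h1 z z.2⟩
      invFun := fun z => ⟨g.symm z, h2 z z.2⟩
      left_inv := fun z => Subtype.ext (g.symm_apply_apply z)
      right_inv := fun z => Subtype.ext (g.apply_symm_apply z)
      map_mul' := fun a b => Subtype.ext (map_mul g (a : PadicAlgCl q) b)
      map_add' := fun a b => Subtype.ext (map_add g (a : PadicAlgCl q) b)
      commutes' := fun r => Subtype.ext (hK _ r.2) }
  refine ⟨t, fun z => rfl, ?_⟩
  ext x
  apply hpbTau_injective K τ
  rw [hpbPsi_spec]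
  apply Subtype.ext
  show g (τ x) = τ (s x)
  exact (hs x).symm

end Restrict

section Cv

open WithZero in
/-- `τ`-adic approximation of `b` by norms gives `b ∈ ksiNorm` at the prime induced by `τ`. -/
theorem hpb_Cv {K F : Type*} [Field K] [NumberField K] [Field F] [Algebra K F]
    [FiniteDimensional K F] {q : ℕ} [Fact q.Prime] (τ : F →+* PadicAlgCl q) (b : Kˣ)
    (h : ∀ ε : ℝ, 0 < ε → ∃ y' : F, y' ≠ 0 ∧
      ‖τ (algebraMap K F ((b : K) / Algebra.norm K y')) - 1‖ < ε) (n : ℕ) :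
    b ∈ ksiNorm K F (linf_prime q (τ.comp (algebraMap K F))) n := by
  set v := linf_prime q (τ.comp (algebraMap K F)) with hv
  have hq0 : (0 : ℝ) < q := by exact_mod_cast (Fact.out : q.Prime).pos
  obtain ⟨y', hy'0, hy'⟩ := h ((q : ℝ) ^ (-((n + 1 : ℕ) : ℤ))) (zpow_pos hq0 _)
  have hN0 : Algebra.norm K y' ≠ 0 := Algebra.norm_ne_zero_iff.2 hy'0
  set u : K := (b : K) / Algebra.norm K y' with hu
  have hu1 : v.valuation K (u - 1) ≤ exp (-((n + 1 : ℕ) : ℤ)) :=
    linf_valuation_le q _ (u - 1) (n + 1) (by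
      rw [RingHom.comp_apply, map_sub, map_sub, map_one, map_one]
      exact hy'.le)
  have hu1' : v.valuation K (u - 1) < 1 := by
    refine lt_of_le_of_lt hu1 ?_
    rw [← exp_zero, exp_lt_exp]
    push_cast
    omega
  have huval : v.valuation K u = 1 := by
    have h1 : u = 1 + (u - 1) := by ring
    rw [h1]
    exact Valuation.map_one_add_of_lt _ hu1'
  have hu0 : u ≠ 0 := by
    intro h0
    rw [h0, map_zero] at huval
    exact zero_ne_one huval
  rw [mem_ksiNorm_iff]
  refine ⟨Units.mk0 y' hy'0, Units.mk0 u hu0, ⟨huval, hu1.trans ?_⟩, ?_⟩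
  · rw [exp_le_exp]
    push_cast
    omega
  · ext
    simp only [Units.val_mul, Units.coe_map, Units.val_mk0, MonoidHom.coe_coe, hu]
    field_simp

end Cv

section Hnt

variable {K L : Type} [Field K] [NumberField K] [Field L] [NumberField L] [Algebra K L]
  [IsGalois K L]

/-- Powers of a finite-level restriction. -/
theorem hpb_loc_restrict_pow {q : ℕ} [Fact q.Prime] (τ : L →+* PadicAlgCl q)
    (g : PadicAlgCl q ≃ₐ[ℚ_[q]] PadicAlgCl q)
    (t : hpbLloc K τ ≃ₐ[hpbKloc K τ] hpbLloc K τ)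
    (ht : ∀ z : hpbLloc K τ, ((t z : hpbLloc K τ) : PadicAlgCl q) = g z) (k : ℕ)
    (z : hpbLloc K τ) : (((t ^ k) z : hpbLloc K τ) : PadicAlgCl q) = (g ^ k) z := by
  induction k generalizing z with
  | zero => rfl
  | succ k ih => rw [pow_succ, pow_succ, AlgEquiv.mul_apply, AlgEquiv.mul_apply, ih, ht]

/-- **The index-`p` layer with finite-level local hypothesis** (the shape of helper2's `BrhHNT`
for `A = Lˣ`, `Gl = Gal(L_τ/K_τ)`, `B = L_τˣ`). The Hasse norm theorem is a hypothesis. -/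
theorem hpb_hnt (p : ℕ) [Fact p.Prime]
    (HNT : ∀ (K₀ F₀ : Type) [Field K₀] [NumberField K₀] [Field F₀] [NumberField F₀]
      [Algebra K₀ F₀] [IsGalois K₀ F₀], Module.finrank K₀ F₀ = p →
      (∃ ζ : K₀, IsPrimitiveRoot ζ p) → ∀ x : K₀ˣ,
      (∀ v, suNonsplit K₀ F₀ v → ∀ n, x ∈ ksiNorm K₀ F₀ v n) →
      ∃ y : F₀ˣ, Units.map (Algebra.norm K₀ : F₀ →* K₀) y = x)
    (hζ : ∃ ζ : K, IsPrimitiveRoot ζ p)
    (H N : Subgroup (L ≃ₐ[K] L)) (hNH : N ≤ H) (hnorm : ∀ h ∈ H, ∀ n ∈ N, h * n * h⁻¹ ∈ N)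
    (hidx : N.relIndex H = p)
    (σ : L ≃ₐ[K] L) (hσH : σ ∈ H) (hσ : σ ∉ N) (a : Lˣ) (ha : ∀ h ∈ H, h • a = a)
    (hloc : ∀ (q : ℕ) [Fact q.Prime] (τ : L →+* PadicAlgCl q)
      (t : hpbLloc K τ ≃ₐ[hpbKloc K τ] hpbLloc K τ), hpbPsi K τ t ∈ H → hpbPsi K τ t ∉ N →
      ∃ y : (hpbLloc K τ)ˣ,
        (∀ n : hpbLloc K τ ≃ₐ[hpbKloc K τ] hpbLloc K τ, hpbPsi K τ n ∈ N → n • y = y) ∧
        Units.map (hpbTau K τ : L →* hpbLloc K τ) a = ∏ k ∈ Finset.range p, t ^ k • y) :
    ∃ x : Lˣ, (∀ n ∈ N, n • x = x) ∧ a = ∏ k ∈ Finset.range p, σ ^ k • x := by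
  classical
  have hnormal : (N.subgroupOf H).Normal := by
    constructor
    intro n hn g
    rw [Subgroup.mem_subgroupOf] at hn ⊢
    exact hnorm g g.2 n hn
  have hfixN : (IntermediateField.fixedField N).fixingSubgroup = N :=
    IntermediateField.fixingSubgroup_fixedField N
  obtain ⟨x, hx1, hx2⟩ := hpb_layer (K := K) (L := L) p
    (fun K₀ _ _ q _ τ₀ v => linf_prime q τ₀ = v)
    (fun K₀ _ _ v => linf_exists_embedding v)
    (fun K₀ F₀ _ _ _ _ _ _ hdeg v q _ τ hns hR => by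
      subst hR
      exact hpb_nonsplit_aut q (hpb_exists_ne_one (Fact.out : p.Prime) hdeg) τ hns)
    (fun K₀ F₀ _ _ _ _ _ v q _ τ hR b hb n => by
      subst hR
      exact hpb_Cv τ b hb n)
    HNT hζ H N hNH hnormal hidx σ hσH hσ a
    (fun h hh => by
      have := congrArg Units.val (ha h hh)
      exact this)
    (fun q _ τ g s hs hsH hsN => by
      obtain ⟨t, ht, htψ⟩ := hpb_exists_loc_restrict K τ g s hs
      obtain ⟨y, hyinv, hyprod⟩ := hloc q τ t (htψ ▸ hsH) (htψ ▸ hsN)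
      refine ⟨((y : hpbLloc K τ) : PadicAlgCl q), ?_, ?_, ?_⟩
      · intro h0
        exact y.ne_zero (Subtype.ext h0)
      · -- infinite Galois theory
        set E : IntermediateField ℚ_[q] (PadicAlgCl q) :=
          IntermediateField.adjoin ℚ_[q] (τ '' (IntermediateField.fixedField N : Set L)) with hE
        rw [← InfiniteGalois.fixedField_fixingSubgroup E, IntermediateField.mem_fixedField_iff]
        intro g₁ hg₁
        have hg₁F : ∀ x ∈ IntermediateField.fixedField N, g₁ (τ x) = τ x := fun x hx =>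
          (IntermediateField.mem_fixingSubgroup_iff E g₁).1 hg₁ _
            (IntermediateField.subset_adjoin _ _ ⟨x, hx, rfl⟩)
        obtain ⟨s₁, hs₁⟩ := hpb_exists_restrict τ g₁.toRingEquiv (fun k =>
          hg₁F _ (IntermediateField.algebraMap_mem _ k))
        have hs₁' : ∀ x, τ (s₁ x) = g₁ (τ x) := hs₁
        have hs₁N : s₁ ∈ N := by
          rw [← hfixN, IntermediateField.mem_fixingSubgroup_iff]
          intro x hx
          apply τ.injective
          rw [hs₁', hg₁F x hx]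
        obtain ⟨t₁, ht₁, ht₁ψ⟩ := hpb_exists_loc_restrict K τ g₁ s₁ hs₁'
        have h1 := hyinv t₁ (ht₁ψ ▸ hs₁N)
        have h2 := congrArg (fun u : (hpbLloc K τ)ˣ => ((u : hpbLloc K τ) : PadicAlgCl q)) h1
        simp only [AlgEquiv.smul_units_def, Units.coe_map, MonoidHom.coe_coe] at h2
        rw [ht₁] at h2
        exact h2
      · have h2 := congrArg (fun u : (hpbLloc K τ)ˣ => ((u : hpbLloc K τ) : PadicAlgCl q)) hyprod
        simp only [Units.coe_map, MonoidHom.coe_coe, hpbTau_coe, Units.coe_prod,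
          AlgEquiv.smul_units_def] at h2
        rw [h2, ← IntermediateField.coe_val, map_prod]
        refine Finset.prod_congr rfl fun k _ => ?_
        exact hpb_loc_restrict_pow τ g t ht k _)
  refine ⟨x, fun n hn => ?_, ?_⟩
  · ext
    exact hx1 n hn
  · ext
    rw [hx2, Units.coe_prod]
    rfl

end Hnt

end Fermat.Agent.S55
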