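import Mathlib
import Fermat.Agent.S55.HpbLocal
import Fermat.Agent.S55.BrhMul

/-!
# S55, block HPB: the cohomological Hasse principle for `p`-primary Brauer classes

`hpb_main`: `L/K` a finite Galois extension of number fields, `ζ_p ∈ K`, `x` a 2-cocycle of
`Gal(L/K)` with values in `Lˣ` whose class is killed by a power of `p`.  If `x` becomes a
coboundary for `Gal(L_τ/K_τ)` acting on `L_τˣ` for every embedding `τ : L → PadicAlgCl q`
(`hpbLocTriv K τ x`), then `x` is a coboundary.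

The Hasse norm theorem for cyclic extensions of degree `p` (helper1's `fi_hasse_norm`) enters as
the hypothesis `HNT`.
-/

set_option autoImplicit false

namespace Fermat.Agent.S55

open groupCohomology IsDedekindDomain NumberField

/-- Index set of the local data: a prime `q` and an embedding `τ : L → PadicAlgCl q`. -/
structure HpbIdx (L : Type) [Field L] : Type where
  /-- the residue characteristic -/
  q : ℕ
  [hq : Fact q.Prime]
  /-- the embedding -/
  τ : L →+* PadicAlgCl q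

attribute [instance] HpbIdx.hq

/-- Hilbert 90 for a subgroup of a finite group of field automorphisms, in the shape of
`brh_hasse_mul`. -/
theorem hpb_h90 {K L : Type*} [Field K] [Field L] [Algebra K L] [Finite (L ≃ₐ[K] L)]
    (H : Subgroup (L ≃ₐ[K] L)) (c : H → Lˣ)
    (hc : ∀ g h : H, c (g * h) = (g : L ≃ₐ[K] L) • c h * c g) :
    ∃ x : Lˣ, ∀ g : H, c g = (g : L ≃ₐ[K] L) • x / x := by
  let a : H →* (L ≃+* L) :=
    { toFun := fun h => (h : L ≃ₐ[K] L).toRingEquiv
      map_one' := rfl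
      map_mul' := fun _ _ => rfl }
  have ha : Function.Injective a := by
    intro g h hgh
    apply Subtype.ext
    apply AlgEquiv.ext
    intro x
    exact DFunLike.congr_fun hgh x
  obtain ⟨β, hβ⟩ := linf_hilbert90 a ha c (fun g h => by
    rw [hc g h, mul_comm]
    rfl)
  exact ⟨β, fun g => hβ g⟩

section Main

variable {K L : Type} [Field K] [NumberField K] [Field L] [NumberField L] [Algebra K L]
  [IsGalois K L]

/-- **Cohomological Hasse principle for `p`-primary classes of `H²(Gal(L/K), Lˣ)`.** -/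
theorem hpb_main (p : ℕ) [Fact p.Prime]
    (HNT : ∀ (K₀ F₀ : Type) [Field K₀] [NumberField K₀] [Field F₀] [NumberField F₀]
      [Algebra K₀ F₀] [IsGalois K₀ F₀], Module.finrank K₀ F₀ = p →
      (∃ ζ : K₀, IsPrimitiveRoot ζ p) → ∀ x : K₀ˣ,
      (∀ v, suNonsplit K₀ F₀ v → ∀ n, x ∈ ksiNorm K₀ F₀ v n) →
      ∃ y : F₀ˣ, Units.map (Algebra.norm K₀ : F₀ →* K₀) y = x)
    (hζ : ∃ ζ : K, IsPrimitiveRoot ζ p)
    (x : (L ≃ₐ[K] L) × (L ≃ₐ[K] L) → Lˣ) (hx : IsMulCocycle₂ x)
    (hp : ∃ m : ℕ, IsMulCoboundary₂ (fun g => x g ^ p ^ m))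
    (hloc : ∀ (q : ℕ) [Fact q.Prime] (τ : L →+* PadicAlgCl q), hpbLocTriv K τ x) :
    IsMulCoboundary₂ x := by
  haveI : Finite (L ≃ₐ[K] L) := inferInstance
  haveI hfin : ∀ i : HpbIdx L,
      Finite (hpbLloc K i.τ ≃ₐ[hpbKloc K i.τ] hpbLloc K i.τ) := fun i =>
    Finite.of_injective (hpbPsi K i.τ) (hpbPsi_injective K i.τ)
  refine brh_hasse_mul (G := L ≃ₐ[K] L) (M := Lˣ) (I := HpbIdx L)
    (fun i => hpbLloc K i.τ ≃ₐ[hpbKloc K i.τ] hpbLloc K i.τ) (fun i => hpbPsi K i.τ)
    (fun i => (hpbLloc K i.τ)ˣ) (fun i => Units.map (hpbTau K i.τ : L →* hpbLloc K i.τ)) p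
    ?_ ?_ ?_ ?_ x hx hp ?_
  · intro i t u
    apply Units.ext
    exact hpbPsi_spec K i.τ t u
  · intro H c hc
    exact hpb_h90 H c hc
  · intro i H c hc
    exact hpb_h90 H c hc
  · intro H N hNH hnorm hidx σ hσH hσN a ha hlocal
    exact hpb_hnt p HNT hζ H N hNH hnorm hidx σ hσH hσN a ha
      (fun q _ τ t ht htN => hlocal ⟨q, τ⟩ t ht htN)
  · intro i
    exact hloc i.q i.τ

end Main

end Fermat.Agent.S55
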