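import Fermat.Agent.S55.Herbrand

/-!
# Herbrand quotients and cohomology of finite cyclic groups

For a finite cyclic group `G = ⟨g⟩` and `A : Rep k G`, the orders of the cohomology groups are
the indices `hq` of `Herbrand.lean` for the pair `(ρ(g) - 1, N)`:
`|Hⁱ(G, A)| = [ker (ρ(g) - 1) : im N]` for even `i > 0` and `|Hⁱ(G, A)| = [ker N : im (ρ(g) - 1)]`
for odd `i`.
-/

set_option autoImplicit false

namespace Fermat.Agent.S55

open CategoryTheory

universe u

/-- The cardinality of the homology of a short complex of modules, as a relative index. -/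
theorem hq_card_homology {R : Type*} [Ring R] (S : ShortComplex (ModuleCat R)) :
    Nat.card S.homology =
      (LinearMap.range S.f.hom).toAddSubgroup.relIndex (LinearMap.ker S.g.hom).toAddSubgroup := by
  rw [Nat.card_congr S.moduleCatHomologyIso.toLinearEquiv.toEquiv]
  change Nat.card (LinearMap.ker S.g.hom ⧸ LinearMap.range S.moduleCatToCycles) = _
  have h1 : Nat.card (LinearMap.ker S.g.hom ⧸ LinearMap.range S.moduleCatToCycles) =
      (LinearMap.range S.moduleCatToCycles).toAddSubgroup.index := rfl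
  rw [h1, AddSubgroup.relIndex]
  congr 1
  ext ⟨x, hx⟩
  simp only [Submodule.mem_toAddSubgroup, LinearMap.mem_range]
  constructor
  · rintro ⟨y, hy⟩
    exact ⟨y, congrArg Subtype.val hy⟩
  · rintro ⟨y, hy⟩
    exact ⟨y, Subtype.ext hy⟩

variable {k G : Type u} [CommRing k] [CommGroup G] [Fintype G] (A : Rep k G) (g : G)

/-- `ρ(g) - 1` as an additive endomorphism of `A`. -/
noncomputable def hqD : A →+ A :=
  ((Rep.applyAsHom A g - 𝟙 A).hom.toLinearMap).toAddMonoidHom

/-- The norm `N = ∑ ρ(h)` as an additive endomorphism of `A`. -/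
noncomputable def hqN : A →+ A := (A.norm.hom.toLinearMap).toAddMonoidHom

omit [Fintype G] in
theorem hqD_apply (x : A) : hqD A g x = A.ρ g x - x := by
  simp [hqD, Rep.applyAsHom, Rep.sub_hom]

theorem hqN_apply (x : A) : hqN A x = ∑ h : G, A.ρ h x := by
  simp [hqN, Rep.norm, Representation.norm]

theorem hqD_comp_hqN : (hqD A g).comp (hqN A) = 0 := by
  have h := (Rep.FiniteCyclicGroup.normHomCompSub A g).zero
  ext x
  have h2 := congrArg (fun φ => φ.hom x) h
  simpa [hqD, hqN] using h2

theorem hqN_comp_hqD : (hqN A).comp (hqD A g) = 0 := by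
  have h := (Rep.FiniteCyclicGroup.subCompNormHom A g).zero
  ext x
  have h2 := congrArg (fun φ => φ.hom x) h
  simpa [hqD, hqN] using h2

/-- `|Hⁱ(G, A)| = [ker (ρ(g) - 1) : im N]` for even `i > 0`, `G = ⟨g⟩` finite cyclic. -/
theorem hq_card_groupCohomology_even (hg : ∀ x, x ∈ Subgroup.zpowers g) (i : ℕ) [NeZero i]
    (hi : Even i) : Nat.card (groupCohomology A i) = hq (hqD A g) (hqN A) := by
  rw [Nat.card_congr
    (Rep.FiniteCyclicGroup.groupCohomologyIsoEven A g hg i hi).toLinearEquiv.toEquiv,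
    hq_card_homology]
  rfl

/-- `|Hⁱ(G, A)| = [ker N : im (ρ(g) - 1)]` for odd `i`, `G = ⟨g⟩` finite cyclic. -/
theorem hq_card_groupCohomology_odd (hg : ∀ x, x ∈ Subgroup.zpowers g) (i : ℕ)
    (hi : Odd i) : Nat.card (groupCohomology A i) = hq (hqN A) (hqD A g) := by
  rw [Nat.card_congr
    (Rep.FiniteCyclicGroup.groupCohomologyIsoOdd A g hg i hi).toLinearEquiv.toEquiv,
    hq_card_homology]
  rfl

end Fermat.Agent.S55
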