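import Mathlib

/-!
# Local fields: basic facts in norm language (block LOC of S55)

A *local field* is modelled by the Mathlib typeclasses
`[NontriviallyNormedField K] [IsUltrametricDist K] [ProperSpace K]`.
A finite extension is `[NormedField L] [NormedAlgebra K L] [FiniteDimensional K L]`.

Contents:
* `loc_IsUnif`, `loc_exists_unif`: uniformizers (elements of maximal norm `< 1`);
* `loc_ord`: the normalized valuation `Additive Kˣ →+ ℤ`, surjective with kernel the units;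
* `loc_norm_algEquiv`: `K`-automorphisms of `L` are isometries;
* `loc_norm_algebraNorm`: `‖N_{L/K} x‖ = ‖x‖ ^ [L:K]` for Galois `L/K`;
* `loc_relIndex_ne_zero`: a subgroup of `Lˣ` containing a ball around `1` has finite index in
  (any subgroup of) the unit group.
-/

set_option autoImplicit false

namespace Fermat.Agent.S55

section Unif

variable {K : Type*} [NontriviallyNormedField K]

/-- `ϖ` is a uniformizer: an element of maximal norm `< 1`. -/
def loc_IsUnif (ϖ : K) : Prop := 0 < ‖ϖ‖ ∧ ‖ϖ‖ < 1 ∧ ∀ x : K, ‖x‖ < 1 → ‖x‖ ≤ ‖ϖ‖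

theorem loc_exists_unif (K : Type*) [NontriviallyNormedField K] [IsUltrametricDist K]
    [ProperSpace K] : ∃ ϖ : K, loc_IsUnif ϖ := by
  obtain ⟨x₀, hx₀, hx₀'⟩ := NormedField.exists_norm_lt_one K
  have hc : IsCompact (Metric.ball (0 : K) 1) :=
    (isCompact_closedBall (0 : K) 1).of_isClosed_subset (IsUltrametricDist.isClosed_ball _ _)
      Metric.ball_subset_closedBall
  obtain ⟨ϖ, hϖ, hmax⟩ := hc.exists_isMaxOn ⟨x₀, by simpa using hx₀'⟩ continuous_norm.continuousOn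
  refine ⟨ϖ, ?_, by simpa using hϖ, fun x hx => hmax (by simpa using hx)⟩
  exact hx₀.trans_le (hmax (by simpa using hx₀'))

theorem loc_IsUnif.ne_zero {ϖ : K} (h : loc_IsUnif ϖ) : ϖ ≠ 0 := norm_pos_iff.mp h.1

theorem loc_IsUnif.exists_zpow {ϖ : K} (h : loc_IsUnif ϖ) {x : K} (hx : x ≠ 0) :
    ∃ k : ℤ, ‖x‖ = ‖ϖ‖ ^ k := by
  obtain ⟨h0, h1, hmax⟩ := h
  have hb : 1 < ‖ϖ‖⁻¹ := (one_lt_inv₀ h0).mpr h1
  obtain ⟨n, hn1, hn2⟩ := exists_mem_Ico_zpow (norm_pos_iff.mpr hx) hb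
  refine ⟨-n, ?_⟩
  rw [inv_zpow', ] at hn1
  refine le_antisymm ?_ hn1
  by_contra hlt
  rw [not_le] at hlt
  -- `y = ϖ ^ (-n) / x` has norm `< 1`, hence `≤ ‖ϖ‖`
  have hy : ‖ϖ ^ (-n) / x‖ < 1 := by
    rw [norm_div, norm_zpow, div_lt_one (norm_pos_iff.mpr hx)]
    exact hlt
  have hy' := hmax _ hy
  rw [norm_div, norm_zpow, div_le_iff₀ (norm_pos_iff.mpr hx)] at hy'
  have : ‖x‖ < ‖ϖ‖⁻¹ * ‖ϖ‖ ^ (-n) := by
    rwa [inv_zpow', neg_add, zpow_add₀ h0.ne', zpow_neg_one, mul_comm] at hn2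
  have h3 : ‖ϖ‖ * ‖x‖ < ‖ϖ‖ ^ (-n) := by
    calc ‖ϖ‖ * ‖x‖ < ‖ϖ‖ * (‖ϖ‖⁻¹ * ‖ϖ‖ ^ (-n)) := by gcongr
      _ = ‖ϖ‖ ^ (-n) := by rw [← mul_assoc, mul_inv_cancel₀ h0.ne', one_mul]
  linarith

theorem loc_IsUnif.zpow_inj {ϖ : K} (h : loc_IsUnif ϖ) {k l : ℤ} (hkl : ‖ϖ‖ ^ k = ‖ϖ‖ ^ l) :
    k = l :=
  zpow_right_injective₀ h.1 h.2.1.ne hkl

/-- The normalized valuation attached to a uniformizer, as a homomorphism `Additive Kˣ →+ ℤ`. -/
noncomputable def loc_ord {ϖ : K} (h : loc_IsUnif ϖ) : Additive Kˣ →+ ℤ :=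
  AddMonoidHom.mk' (fun x => (h.exists_zpow (Additive.toMul x).ne_zero).choose) (by
    intro x y
    apply h.zpow_inj
    rw [← (h.exists_zpow (Additive.toMul (x + y)).ne_zero).choose_spec, zpow_add₀ h.1.ne',
      ← (h.exists_zpow (Additive.toMul x).ne_zero).choose_spec,
      ← (h.exists_zpow (Additive.toMul y).ne_zero).choose_spec, toMul_add, Units.val_mul, norm_mul])

theorem loc_ord_spec {ϖ : K} (h : loc_IsUnif ϖ) (x : Additive Kˣ) :
    ‖((Additive.toMul x : Kˣ) : K)‖ = ‖ϖ‖ ^ (loc_ord h x) :=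
  (h.exists_zpow (Additive.toMul x).ne_zero).choose_spec

theorem loc_ord_eq_iff {ϖ : K} (h : loc_IsUnif ϖ) (x : Additive Kˣ) (k : ℤ) :
    loc_ord h x = k ↔ ‖((Additive.toMul x : Kˣ) : K)‖ = ‖ϖ‖ ^ k := by
  rw [loc_ord_spec h]
  exact ⟨fun e => by rw [e], fun e => h.zpow_inj e⟩

theorem loc_ord_eq_zero_iff {ϖ : K} (h : loc_IsUnif ϖ) (x : Additive Kˣ) :
    loc_ord h x = 0 ↔ ‖((Additive.toMul x : Kˣ) : K)‖ = 1 := by
  rw [loc_ord_eq_iff, zpow_zero]

theorem loc_ord_unif {ϖ : K} (h : loc_IsUnif ϖ) :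
    loc_ord h (Additive.ofMul (Units.mk0 ϖ h.ne_zero)) = 1 := by
  rw [loc_ord_eq_iff, zpow_one]
  rfl

theorem loc_ord_surjective {ϖ : K} (h : loc_IsUnif ϖ) : Function.Surjective (loc_ord h) := by
  intro k
  refine ⟨k • Additive.ofMul (Units.mk0 ϖ h.ne_zero), ?_⟩
  rw [map_zsmul, loc_ord_unif, smul_eq_mul, mul_one]

end Unif

section Ext

variable {K L : Type*} [NontriviallyNormedField K] [IsUltrametricDist K] [CompleteSpace K]
  [NormedField L] [NormedAlgebra K L] [Algebra.IsAlgebraic K L]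

/-- `K`-automorphisms of an algebraic normed extension of a complete field are isometries. -/
theorem loc_norm_algEquiv (σ : L ≃ₐ[K] L) (x : L) : ‖σ x‖ = ‖x‖ := by
  rw [NormedAlgebra.norm_eq_spectralNorm K, NormedAlgebra.norm_eq_spectralNorm K x,
    ← spectralNorm_eq_of_equiv]

omit [Algebra.IsAlgebraic K L] in
/-- `‖N_{L/K} x‖ = ‖x‖ ^ [L:K]` for a finite Galois extension. -/
theorem loc_norm_algebraNorm [FiniteDimensional K L] [IsGalois K L] (x : L) :
    ‖Algebra.norm K x‖ = ‖x‖ ^ Module.finrank K L := by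
  have h : ‖algebraMap K L (Algebra.norm K x)‖ = ‖x‖ ^ Module.finrank K L := by
    rw [Algebra.norm_eq_prod_automorphisms, norm_prod]
    simp only [loc_norm_algEquiv, Finset.prod_const, Finset.card_univ]
    rw [← Nat.card_eq_fintype_card, IsGalois.card_aut_eq_finrank]
  rwa [norm_algebraMap'] at h

end Ext

section FiniteIndex

open Additive

variable {L : Type*} [NontriviallyNormedField L] [ProperSpace L]

/-- A subgroup `V` of `Lˣ` containing a ball around `1` has finite index in any subgroup `B`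
of the unit group (additive formulation, as used by the Herbrand quotient). -/
theorem loc_relIndex_ne_zero (B V : AddSubgroup (Additive Lˣ))
    (hB : ∀ x ∈ B, ‖((toMul x : Lˣ) : L)‖ = 1) {r : ℝ} (hr : 0 < r)
    (hV : ∀ x : Lˣ, ‖(x : L) - 1‖ < r → ofMul x ∈ V) : V.relIndex B ≠ 0 := by
  obtain ⟨t, -, htfin, hcov⟩ :=
    finite_cover_balls_of_compact (isCompact_sphere (0 : L) 1) (half_pos hr)
  have : Finite t := htfin
  -- choose for each centre a point of `B` in its ball, if any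
  classical
  let pick : t → ↥B := fun c =>
    if h : ∃ b : ↥B, ((toMul (b : Additive Lˣ) : Lˣ) : L) ∈ Metric.ball (c : L) (r / 2) then h.choose
    else 0
  have hsurj : Function.Surjective
      (fun c : t => (QuotientAddGroup.mk (pick c) : ↥B ⧸ V.addSubgroupOf B)) := by
    intro q
    induction q using QuotientAddGroup.induction_on with
    | H b =>
      have hb1 : ((toMul (b : Additive Lˣ) : Lˣ) : L) ∈ Metric.sphere (0 : L) 1 := by
        simpa using hB b b.2
      obtain ⟨c, hc, hbc⟩ := Set.mem_iUnion₂.mp (hcov hb1)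
      have hex : ∃ b' : ↥B, ((toMul (b' : Additive Lˣ) : Lˣ) : L) ∈ Metric.ball (c : L) (r / 2) :=
        ⟨b, hbc⟩
      refine ⟨⟨c, hc⟩, ?_⟩
      have hp : pick ⟨c, hc⟩ = hex.choose := dif_pos hex
      have hp2 := hex.choose_spec
      rw [← hp] at hp2
      change (QuotientAddGroup.mk (pick ⟨c, hc⟩) : ↥B ⧸ V.addSubgroupOf B) = QuotientAddGroup.mk b
      rw [QuotientAddGroup.eq, AddSubgroup.mem_addSubgroupOf]
      set p := pick ⟨c, hc⟩ with hpdef
      have hpn : ‖((toMul (p : Additive Lˣ) : Lˣ) : L)‖ = 1 := hB p p.2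
      have hd : ‖((toMul (b : Additive Lˣ) : Lˣ) : L) - ((toMul (p : Additive Lˣ) : Lˣ) : L)‖
          < r := by
        have h1 : dist ((toMul (b : Additive Lˣ) : Lˣ) : L) c < r / 2 := hbc
        have h2 : dist ((toMul (p : Additive Lˣ) : Lˣ) : L) c < r / 2 := hp2
        rw [← dist_eq_norm]
        have h3 := dist_triangle_right ((toMul (b : Additive Lˣ) : Lˣ) : L)
          ((toMul (p : Additive Lˣ) : Lˣ) : L) c
        linarith
      have : ((-p + b : ↥B) : Additive Lˣ) = ofMul ((toMul (p : Additive Lˣ))⁻¹ * toMul (b : Additive Lˣ)) := rfl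
      rw [this]
      apply hV
      rw [Units.val_mul, Units.val_inv_eq_inv_val]
      have : ((toMul (p : Additive Lˣ) : Lˣ) : L)⁻¹ * ((toMul (b : Additive Lˣ) : Lˣ) : L) - 1 =
          ((toMul (p : Additive Lˣ) : Lˣ) : L)⁻¹ *
            (((toMul (b : Additive Lˣ) : Lˣ) : L) - ((toMul (p : Additive Lˣ) : Lˣ) : L)) := by
        field_simp
      rw [this, norm_mul, norm_inv, hpn, inv_one, one_mul]
      exact hd
  have hfin : Finite (↥B ⧸ V.addSubgroupOf B) := Finite.of_surjective _ hsurj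
  exact AddSubgroup.index_ne_zero_of_finite

end FiniteIndex

end Fermat.Agent.S55
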