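import Mathlib
import Fermat.Agent.S55.Herbrand

/-!
# A Herbrand quotient computation for groups of the shape `ℤ × (compact)` (block LOC of S55)

`loc_hq_of_ord`: let `A` be an abelian group with endomorphisms `f, g` (`f g = g f = 0`) and a
surjection `π : A → ℤ` with `π ∘ f = 0`, `π ∘ g = n π`.  If `ker π` contains a subgroup `V` of
finite index, stable under `f`, `g`, on which `ker f = im g` and `ker g = im f`, then
`[ker f : im g] = n · [ker g : im f]`.
-/

set_option autoImplicit false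

namespace Fermat.Agent.S55

theorem loc_hq_of_ord {A : Type*} [AddCommGroup A] (f g : A →+ A) (hfg : f.comp g = 0)
    (hgf : g.comp f = 0) (π : A →+ ℤ) (hπ : Function.Surjective π) (n : ℕ) (hn : n ≠ 0)
    (hπf : ∀ x, π (f x) = 0) (hπg : ∀ x, π (g x) = n * π x) (V : AddSubgroup A)
    (hVB : V ≤ π.ker) (hVfin : V.relIndex π.ker ≠ 0) (hVf : ∀ x ∈ V, f x ∈ V)
    (hVg : ∀ x ∈ V, g x ∈ V) (h1 : ∀ x ∈ V, f x = 0 → ∃ y ∈ V, g y = x)
    (h2 : ∀ x ∈ V, g x = 0 → ∃ y ∈ V, f y = x) : hq f g = n * hq g f := by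
  set B : AddSubgroup A := π.ker with hB
  have hfB : ∀ x : ↥B, f x ∈ B := fun x => AddMonoidHom.mem_ker.mpr (hπf x)
  have hgB : ∀ x : ↥B, g x ∈ B := fun x => by
    apply AddMonoidHom.mem_ker.mpr
    rw [hπg, AddMonoidHom.mem_ker.mp x.2, mul_zero]
  let f' : ↥B →+ ↥B := (f.comp B.subtype).codRestrict B hfB
  let g' : ↥B →+ ↥B := (g.comp B.subtype).codRestrict B hgB
  have hf'g' : f'.comp g' = 0 := by
    ext x
    exact DFunLike.congr_fun hfg (x : A)
  have hg'f' : g'.comp f' = 0 := by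
    ext x
    exact DFunLike.congr_fun hgf (x : A)
  let f'' : ℤ →+ ℤ := 0
  let g'' : ℤ →+ ℤ := AddMonoidHom.mulLeft (n : ℤ)
  have key := hq_mul_exact B.subtype π B.subtype_injective hπ (AddSubgroup.range_subtype B)
    f g f' g' f'' g'' hfg hgf (fun b => rfl) (fun b => rfl) (fun a => by simp [f'', hπf])
    (fun a => by simp [g'', hπg])
  have hZ1 : hq g'' f'' = 1 := by
    have hker : g''.ker = ⊥ := by
      rw [eq_bot_iff]
      intro x hx
      rw [AddMonoidHom.mem_ker] at hx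
      have hx' : (n : ℤ) * x = 0 := hx
      rcases mul_eq_zero.mp hx' with h | h
      · exact absurd (by exact_mod_cast h) hn
      · exact h
    have hrange : f''.range = ⊥ := by simp [f'']
    rw [hq, hrange, AddSubgroup.relIndex_bot_left, hker]
    simp
  have hZ2 : hq f'' g'' = n := by
    have hker : f''.ker = ⊤ := by simp [f'']
    have hrange : g''.range = AddSubgroup.zmultiples (n : ℤ) := by
      ext x
      simp [g'', AddSubgroup.mem_zmultiples_iff, AddMonoidHom.mem_range, mul_comm]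
    rw [hq, hker, hrange, AddSubgroup.relIndex_top_right, Int.index_zmultiples]
    simp
  rw [hZ1, hZ2, mul_one] at key
  let V' : AddSubgroup ↥B := V.addSubgroupOf B
  have hV'f : V'.map f' ≤ V' := by
    rintro _ ⟨x, hx, rfl⟩
    exact hVf _ hx
  have hV'g : V'.map g' ≤ V' := by
    rintro _ ⟨x, hx, rfl⟩
    exact hVg _ hx
  have hS1 : hqSub f' g' V' = 1 := by
    rw [hqSub, AddSubgroup.relIndex_eq_one]
    rintro x ⟨hx1, hx2⟩
    obtain ⟨y, hy, hyx⟩ := h1 (x : A) hx2 (congrArg Subtype.val (AddMonoidHom.mem_ker.mp hx1))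
    exact ⟨⟨y, hVB hy⟩, hy, Subtype.ext hyx⟩
  have hS2 : hqSub g' f' V' = 1 := by
    rw [hqSub, AddSubgroup.relIndex_eq_one]
    rintro x ⟨hx1, hx2⟩
    obtain ⟨y, hy, hyx⟩ := h2 (x : A) hx2 (congrArg Subtype.val (AddMonoidHom.mem_ker.mp hx1))
    exact ⟨⟨y, hVB hy⟩, hy, Subtype.ext hyx⟩
  have hfin : Finite (↥B ⧸ V') := by
    have hi : V'.index ≠ 0 := hVfin
    have : V'.FiniteIndex := ⟨hi⟩
    exact AddSubgroup.finite_quotient_of_finiteIndex
  let fq : ↥B ⧸ V' →+ ↥B ⧸ V' :=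
    QuotientAddGroup.map V' V' f' (AddSubgroup.map_le_iff_le_comap.mp hV'f)
  let gq : ↥B ⧸ V' →+ ↥B ⧸ V' :=
    QuotientAddGroup.map V' V' g' (AddSubgroup.map_le_iff_le_comap.mp hV'g)
  have hQ1 : hq fq gq = hqQuot f' g' V' := by
    have h3 := hq_eq_hqQuot (QuotientAddGroup.mk' V') (QuotientAddGroup.mk'_surjective V') f' g'
      fq gq (fun a => rfl) (fun a => rfl)
    rwa [QuotientAddGroup.ker_mk'] at h3
  have hQ2 : hq gq fq = hqQuot g' f' V' := by
    have h3 := hq_eq_hqQuot (QuotientAddGroup.mk' V') (QuotientAddGroup.mk'_surjective V') g' f'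
      gq fq (fun a => rfl) (fun a => rfl)
    rwa [QuotientAddGroup.ker_mk'] at h3
  have hfq : fq.comp gq = 0 := by
    ext z
    show (QuotientAddGroup.mk (f' (g' z)) : ↥B ⧸ V') = 0
    rw [show f' (g' z) = 0 from DFunLike.congr_fun hf'g' z]
    rfl
  have hgq : gq.comp fq = 0 := by
    ext z
    show (QuotientAddGroup.mk (g' (f' z)) : ↥B ⧸ V') = 0
    rw [show g' (f' z) = 0 from DFunLike.congr_fun hg'f' z]
    rfl
  have hQeq : hq fq gq = hq gq fq := hq_eq_of_finite fq gq hfq hgq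
  have hQne : hq gq fq ≠ 0 := hq_ne_zero_of_finite gq fq
  have key2 := hq_mul f' g' V' hf'g' hg'f' hV'f hV'g
  rw [hS1, hS2, one_mul, one_mul, ← hQ1, ← hQ2, hQeq] at key2
  have hB1 : hq f' g' = hq g' f' := Nat.eq_of_mul_eq_mul_right (Nat.pos_of_ne_zero hQne) key2
  have hB2 : hq g' f' ≠ 0 :=
    hq_ne_zero_of_sub_quot g' f' V' hg'f' hV'g hV'f (by rw [hS2]; exact one_ne_zero)
      (by rw [← hQ2]; exact hQne)
  rw [hB1] at key
  have key3 : hq f g * hq g' f' = (n * hq g f) * hq g' f' := by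
    rw [key]
    ring
  exact Nat.eq_of_mul_eq_mul_right (Nat.pos_of_ne_zero hB2) key3

end Fermat.Agent.S55
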