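import Mathlib

/-!
# Successive approximation and a telescoping lemma for cyclic groups (block LOC of S55)

* `loc_approx`: if a commutative group `V` carries a separated, complete filtration `F k` and
  `f, g : V →* V` preserve it with `g ∘ f = 1`, then exactness of `ker g = im f` on the graded
  pieces implies exactness on `F 0`.
* `loc_cyclic_telescope`: for a finite cyclic group `G = ⟨σ⟩` and `c : G → K` (ultrametric field),
  there is `d : G → K`, bounded by `c`, with `c - (σ d - d) = (∑ c) · δ₁`.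
-/

set_option autoImplicit false

namespace Fermat.Agent.S55

theorem loc_approx {V : Type*} [CommGroup V] (F : ℕ → Subgroup V)
    (hsep : ∀ x, (∀ k, x ∈ F k) → x = 1)
    (hcompl : ∀ y : ℕ → V, (∀ k, y k ∈ F k) → ∃ z, ∀ k, z / ∏ i ∈ Finset.range k, y i ∈ F k)
    (f g : V →* V) (hf : ∀ k x, x ∈ F k → f x ∈ F k) (hgf : ∀ x, g (f x) = 1)
    (hgr : ∀ k, ∀ x ∈ F k, g x = 1 → ∃ y ∈ F k, x / f y ∈ F (k + 1)) :
    ∀ x ∈ F 0, g x = 1 → ∃ y ∈ F 0, f y = x := by
  intro x hx hgx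
  have step : ∀ k (x : V), ∃ y, (x ∈ F k ∧ g x = 1) → (y ∈ F k ∧ x / f y ∈ F (k + 1)) := by
    intro k x
    by_cases h : x ∈ F k ∧ g x = 1
    · obtain ⟨y, hy, hy'⟩ := hgr k x h.1 h.2
      exact ⟨y, fun _ => ⟨hy, hy'⟩⟩
    · exact ⟨1, fun h' => absurd h' h⟩
  choose Y hY using step
  let X : ℕ → V := fun k => Nat.rec x (fun k xk => xk / f (Y k xk)) k
  have hX0 : X 0 = x := rfl
  have hXs : ∀ k, X (k + 1) = X k / f (Y k (X k)) := fun k => rfl
  have hXm : ∀ k, X k ∈ F k ∧ g (X k) = 1 := by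
    intro k
    induction k with
    | zero => exact ⟨hx, hgx⟩
    | succ k ih =>
      refine ⟨(hY k (X k) ih).2, ?_⟩
      rw [hXs, map_div, ih.2, hgf, div_one]
  let y : ℕ → V := fun k => Y k (X k)
  have hy : ∀ k, y k ∈ F k := fun k => (hY k (X k) (hXm k)).1
  obtain ⟨z, hz⟩ := hcompl y hy
  have hXP : ∀ k, X k = x / f (∏ i ∈ Finset.range k, y i) := by
    intro k
    induction k with
    | zero => simp [hX0]
    | succ k ih => rw [hXs, Finset.prod_range_succ, map_mul, ← div_div, ← ih]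
  refine ⟨z, by simpa using hz 0, ?_⟩
  have h1 : x / f z = 1 := by
    apply hsep
    intro k
    have h2 : x / f z = X k / f (z / ∏ i ∈ Finset.range k, y i) := by
      rw [hXP k, map_div, div_div_div_cancel_right]
    rw [h2]
    exact (F k).div_mem (hXm k).1 (hf k _ (hz k))
  exact (div_eq_one.mp h1).symm

theorem loc_cyclic_telescope {G : Type*} [Group G] [Fintype G] [DecidableEq G] (σ : G)
    (hσ : ∀ τ, τ ∈ Subgroup.zpowers σ) {K : Type*} [NormedField K] [IsUltrametricDist K]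
    (c : G → K) :
    ∃ d : G → K, (∀ R : ℝ, 0 ≤ R → (∀ κ, ‖c κ‖ ≤ R) → ∀ τ, ‖d τ‖ ≤ R) ∧
      ∀ τ, c τ - (d (σ⁻¹ * τ) - d τ) = if τ = 1 then ∑ κ, c κ else 0 := by
  have hex : ∀ τ : G, ∃ j : ℕ, σ ^ j = τ := fun τ =>
    (Submonoid.mem_powers_iff _ _).mp (mem_powers_iff_mem_zpowers.mpr (hσ τ))
  let k : G → ℕ := fun τ => Nat.find (hex τ)
  have hk : ∀ τ, σ ^ k τ = τ := fun τ => Nat.find_spec (hex τ)
  have hkmin : ∀ τ j, σ ^ j = τ → k τ ≤ j := fun τ j h => Nat.find_min' (hex τ) h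
  have hk1 : k 1 = 0 := Nat.le_zero.mp (hkmin 1 0 (pow_zero σ))
  have hkpred : ∀ τ, τ ≠ 1 → k τ = k (σ⁻¹ * τ) + 1 := by
    intro τ hτ
    have hpos : k τ ≠ 0 := by
      intro h0
      apply hτ
      rw [← hk τ, h0, pow_zero]
    obtain ⟨m, hm⟩ := Nat.exists_eq_succ_of_ne_zero hpos
    have h1 : σ ^ m = σ⁻¹ * τ := by
      rw [eq_inv_mul_iff_mul_eq, ← pow_succ', ← Nat.succ_eq_add_one, ← hm, hk]
    have h2 : k (σ⁻¹ * τ) ≤ m := hkmin _ _ h1
    have h3 : k τ ≤ k (σ⁻¹ * τ) + 1 := by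
      apply hkmin
      rw [pow_succ', hk, mul_inv_cancel_left]
    omega
  have hn : 0 < orderOf σ := orderOf_pos σ
  have hkinv : k σ⁻¹ + 1 = orderOf σ := by
    have h1 : σ ^ (orderOf σ - 1) = σ⁻¹ := by
      rw [eq_inv_iff_mul_eq_one, ← pow_succ, Nat.sub_add_cancel hn, pow_orderOf_eq_one]
    have h2 : k σ⁻¹ ≤ orderOf σ - 1 := hkmin _ _ h1
    have h3 : σ ^ (k σ⁻¹ + 1) = 1 := by
      rw [pow_succ, hk, inv_mul_cancel]
    have h4 := Nat.le_of_dvd (Nat.succ_pos _) (orderOf_dvd_of_pow_eq_one h3)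
    omega
  have hsum : ∑ κ, c κ = ∑ j ∈ Finset.range (orderOf σ), c (σ ^ j) := by
    rw [← IsCyclic.image_range_orderOf hσ, Finset.sum_image]
    intro i hi j hj hij
    exact pow_injOn_Iio_orderOf (by simpa using hi) (by simpa using hj) hij
  refine ⟨fun τ => -∑ j ∈ Finset.range (k τ), c (σ ^ (j + 1)), ?_, ?_⟩
  · intro R hR hc τ
    rw [norm_neg]
    exact IsUltrametricDist.norm_sum_le_of_forall_le_of_nonneg hR (fun j _ => hc _)
  · intro τ
    by_cases hτ : τ = 1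
    · subst hτ
      rw [if_pos rfl, mul_one]
      show c 1 - (-∑ j ∈ Finset.range (k σ⁻¹), c (σ ^ (j + 1)) -
        -∑ j ∈ Finset.range (k 1), c (σ ^ (j + 1))) = _
      rw [hk1, Finset.range_zero, Finset.sum_empty, hsum, ← hkinv, Finset.sum_range_succ',
        pow_zero]
      ring
    · rw [if_neg hτ]
      show c τ - (-∑ j ∈ Finset.range (k (σ⁻¹ * τ)), c (σ ^ (j + 1)) -
        -∑ j ∈ Finset.range (k τ), c (σ ^ (j + 1))) = 0
      rw [hkpred τ hτ, Finset.sum_range_succ, ← hkpred τ hτ, hk]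
      ring

end Fermat.Agent.S55
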