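import Mathlib
import Fermat.Agent.S55.LocApprox

/-!
# The normal-basis norm on a cyclic extension of complete ultrametric fields (block LOC of S55)

For a finite cyclic Galois extension `L/K` (with `K` complete ultrametric) and a generator `σ`,
`loc_exists_nu` produces an auxiliary function `ν : L → ℝ` (a rescaled sup-norm of coordinates in a
normal basis) which is ultrametric, submultiplicative, Galois invariant, equivalent to the norm of
`L`, and whose balls are cohomologically trivial (`trace_surj`, `h90`).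
-/

set_option autoImplicit false

namespace Fermat.Agent.S55

/-- Properties of the auxiliary norm `ν` (see the file header). -/
structure loc_IsNu {K L : Type*} [NormedField K] [NormedField L] [NormedAlgebra K L]
    [FiniteDimensional K L] (σ : L ≃ₐ[K] L) (ν : L → ℝ) (C : ℝ) : Prop where
  one_le : 1 ≤ C
  nonneg : ∀ x, 0 ≤ ν x
  add_le : ∀ x y, ν (x + y) ≤ max (ν x) (ν y)
  neg : ∀ x, ν (-x) = ν x
  mul_le : ∀ x y, ν (x * y) ≤ ν x * ν y
  galois : ∀ (τ : L ≃ₐ[K] L) x, ν (τ x) = ν x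
  norm_le : ∀ x, ‖x‖ ≤ C * ν x
  le_norm : ∀ x, ν x ≤ C * ‖x‖
  trace_surj : ∀ a : K, ∃ b : L, (∑ τ : L ≃ₐ[K] L, τ b) = algebraMap K L a ∧
    ν b ≤ ν (algebraMap K L a)
  h90 : ∀ a : L, ∃ b : L, ν b ≤ ν a ∧ ν (a - (σ b - b)) ≤ ν (∑ τ : L ≃ₐ[K] L, τ a)

section

variable {K L : Type*} [NontriviallyNormedField K] [IsUltrametricDist K] [CompleteSpace K]
  [NormedField L] [NormedAlgebra K L] [FiniteDimensional K L] [IsGalois K L]

open Module

omit [IsUltrametricDist K] [CompleteSpace K] in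
theorem loc_normalBasis_shift (τ : L ≃ₐ[K] L) (x : L) (κ : L ≃ₐ[K] L) :
    (IsGalois.normalBasis K L).equivFun (τ x) κ =
      (IsGalois.normalBasis K L).equivFun x (τ⁻¹ * κ) := by
  classical
  have hb : ∀ κ : L ≃ₐ[K] L, τ (IsGalois.normalBasis K L κ) = IsGalois.normalBasis K L (τ * κ) := by
    intro κ
    rw [IsGalois.normalBasis_apply κ, IsGalois.normalBasis_apply (τ * κ),
      AlgEquiv.mul_apply]
  have key : (IsGalois.normalBasis K L).equivFun.toLinearMap ∘ₗ τ.toLinearMap =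
      (LinearMap.funLeft K K (fun κ : L ≃ₐ[K] L => τ⁻¹ * κ)) ∘ₗ
        (IsGalois.normalBasis K L).equivFun.toLinearMap := by
    apply (IsGalois.normalBasis K L).ext
    intro i
    funext j
    simp only [LinearMap.comp_apply, LinearEquiv.coe_coe, AlgEquiv.toLinearMap_apply, hb,
      Basis.equivFun_apply, Basis.repr_self, LinearMap.funLeft_apply, Finsupp.single_apply]
    congr 1
    rw [eq_iff_iff, eq_inv_mul_iff_mul_eq]
  have := congrFun (congrArg (fun f => f x) key) κ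
  simpa using this

omit [IsUltrametricDist K] [CompleteSpace K] in
theorem loc_normalBasis_norm_shift (τ : L ≃ₐ[K] L) (x : L) :
    ‖(IsGalois.normalBasis K L).equivFun (τ x)‖ = ‖(IsGalois.normalBasis K L).equivFun x‖ := by
  have h : ∀ (τ : L ≃ₐ[K] L) (x : L),
      ‖(IsGalois.normalBasis K L).equivFun (τ x)‖ ≤ ‖(IsGalois.normalBasis K L).equivFun x‖ := by
    intro τ x
    rw [pi_norm_le_iff_of_nonneg (norm_nonneg _)]
    intro κ
    rw [loc_normalBasis_shift]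
    exact norm_le_pi_norm _ _
  refine le_antisymm (h τ x) ?_
  have h2 := h τ⁻¹ (τ x)
  rwa [AlgEquiv.aut_inv, AlgEquiv.symm_apply_apply] at h2

omit [IsUltrametricDist K] [CompleteSpace K] in
theorem loc_normalBasis_trace (x : L) (κ : L ≃ₐ[K] L) :
    (IsGalois.normalBasis K L).equivFun (∑ τ : L ≃ₐ[K] L, τ x) κ =
      ∑ j, (IsGalois.normalBasis K L).equivFun x j := by
  rw [map_sum, Finset.sum_apply]
  simp only [loc_normalBasis_shift]
  exact Fintype.sum_equiv ((Equiv.inv (L ≃ₐ[K] L)).trans (Equiv.mulRight κ)) _ _ (fun τ => rfl)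

theorem loc_exists_nu (σ : L ≃ₐ[K] L) (hσ : ∀ τ, τ ∈ Subgroup.zpowers σ) :
    ∃ (ν : L → ℝ) (C : ℝ), loc_IsNu σ ν C := by
  classical
  set b := IsGalois.normalBasis K L with hbdef
  set φ : L ≃L[K] ((L ≃ₐ[K] L) → K) := b.equivFun.toContinuousLinearEquiv with hφdef
  have hφ : ∀ x, φ x = b.equivFun x := fun x => rfl
  set C₂ : ℝ := ‖(φ : L →L[K] ((L ≃ₐ[K] L) → K))‖ with hC₂
  set C₃ : ℝ := ‖(φ.symm : ((L ≃ₐ[K] L) → K) →L[K] L)‖ with hC₃
  have hC₂0 : 0 ≤ C₂ := norm_nonneg _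
  have hC₃0 : 0 ≤ C₃ := norm_nonneg _
  have h2 : ∀ x, ‖φ x‖ ≤ C₂ * ‖x‖ := fun x =>
    (φ : L →L[K] ((L ≃ₐ[K] L) → K)).le_opNorm x
  have h3 : ∀ x, ‖x‖ ≤ C₃ * ‖φ x‖ := fun x => by
    have := (φ.symm : ((L ≃ₐ[K] L) → K) →L[K] L).le_opNorm (φ x)
    simpa using this
  set D : ℝ := max 1 (C₂ * C₃ ^ 2) with hD
  have hD1 : 1 ≤ D := le_max_left _ _
  have hD0 : 0 ≤ D := zero_le_one.trans hD1
  -- the value of `φ 1`
  set c₀ : K := φ 1 1 with hc₀
  have hφ1 : ∀ κ, φ 1 κ = c₀ := by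
    intro κ
    have := loc_normalBasis_shift (K := K) κ (1 : L) κ
    rw [map_one, inv_mul_cancel] at this
    exact this
  -- the sum of the basis
  have hsum : c₀ • ∑ τ : L ≃ₐ[K] L, b τ = 1 := by
    apply φ.injective
    funext j
    rw [map_smul, map_sum, hφ1, Pi.smul_apply, Finset.sum_apply]
    simp only [hφ, Basis.equivFun_apply, Basis.repr_self, Finsupp.single_apply,
      Finset.sum_ite_eq', Finset.mem_univ, if_true, smul_eq_mul, mul_one]
  have hb1 : ∀ τ : L ≃ₐ[K] L, τ (b 1) = b τ := by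
    intro τ
    rw [hbdef, IsGalois.normalBasis_apply τ]
  have hφb1 : ‖φ (b 1)‖ ≤ 1 := by
    rw [pi_norm_le_iff_of_nonneg zero_le_one]
    intro j
    simp only [hφ, Basis.equivFun_apply, Basis.repr_self, Finsupp.single_apply]
    split_ifs <;> simp
  refine ⟨fun x => D * ‖φ x‖, max 1 (max C₃ (D * C₂)), ?_⟩
  refine
    { one_le := le_max_left _ _
      nonneg := fun x => mul_nonneg hD0 (norm_nonneg _)
      add_le := ?_
      neg := fun x => by simp
      mul_le := ?_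
      galois := fun τ x => by
        show D * ‖φ (τ x)‖ = D * ‖φ x‖
        rw [hφ, hφ, loc_normalBasis_norm_shift]
      norm_le := ?_
      le_norm := ?_
      trace_surj := ?_
      h90 := ?_ }
  · intro x y
    show D * ‖φ (x + y)‖ ≤ max (D * ‖φ x‖) (D * ‖φ y‖)
    rw [map_add, ← mul_max_of_nonneg _ _ hD0]
    exact mul_le_mul_of_nonneg_left (IsUltrametricDist.norm_add_le_max _ _) hD0
  · intro x y
    show D * ‖φ (x * y)‖ ≤ D * ‖φ x‖ * (D * ‖φ y‖)
    have e1 : ‖φ (x * y)‖ ≤ C₂ * C₃ ^ 2 * (‖φ x‖ * ‖φ y‖) := by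
      calc ‖φ (x * y)‖ ≤ C₂ * ‖x * y‖ := h2 _
        _ = C₂ * (‖x‖ * ‖y‖) := by rw [norm_mul]
        _ ≤ C₂ * ((C₃ * ‖φ x‖) * (C₃ * ‖φ y‖)) := by
          gcongr
          · exact h3 x
          · exact h3 y
        _ = C₂ * C₃ ^ 2 * (‖φ x‖ * ‖φ y‖) := by ring
    have e2 : ‖φ (x * y)‖ ≤ D * (‖φ x‖ * ‖φ y‖) :=
      e1.trans (mul_le_mul_of_nonneg_right (le_max_right _ _)
        (mul_nonneg (norm_nonneg _) (norm_nonneg _)))
    calc D * ‖φ (x * y)‖ ≤ D * (D * (‖φ x‖ * ‖φ y‖)) := mul_le_mul_of_nonneg_left e2 hD0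
      _ = D * ‖φ x‖ * (D * ‖φ y‖) := by ring
  · intro x
    show ‖x‖ ≤ max 1 (max C₃ (D * C₂)) * (D * ‖φ x‖)
    calc ‖x‖ ≤ C₃ * ‖φ x‖ := h3 x
      _ ≤ max 1 (max C₃ (D * C₂)) * (D * ‖φ x‖) := by
        apply mul_le_mul ((le_max_left _ _).trans (le_max_right _ _)) _ (norm_nonneg _)
          (zero_le_one.trans (le_max_left _ _))
        exact le_mul_of_one_le_left (norm_nonneg _) hD1
  · intro x
    show D * ‖φ x‖ ≤ max 1 (max C₃ (D * C₂)) * ‖x‖
    calc D * ‖φ x‖ ≤ D * (C₂ * ‖x‖) := mul_le_mul_of_nonneg_left (h2 x) hD0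
      _ = D * C₂ * ‖x‖ := by ring
      _ ≤ max 1 (max C₃ (D * C₂)) * ‖x‖ :=
        mul_le_mul_of_nonneg_right ((le_max_right _ _).trans (le_max_right _ _)) (norm_nonneg _)
  · intro a
    refine ⟨(a * c₀) • b 1, ?_, ?_⟩
    · simp only [map_smul, hb1]
      rw [← Finset.smul_sum, mul_smul, hsum, Algebra.algebraMap_eq_smul_one]
    · show D * ‖φ ((a * c₀) • b 1)‖ ≤ D * ‖φ (algebraMap K L a)‖
      apply mul_le_mul_of_nonneg_left _ hD0
      rw [Algebra.algebraMap_eq_smul_one, map_smul, map_smul, norm_smul, norm_smul, norm_mul]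
      calc ‖a‖ * ‖c₀‖ * ‖φ (b 1)‖ ≤ ‖a‖ * ‖c₀‖ * 1 := by gcongr
        _ = ‖a‖ * ‖φ 1 1‖ := by rw [mul_one]
        _ ≤ ‖a‖ * ‖φ 1‖ := by gcongr; exact norm_le_pi_norm _ _
  · intro a
    obtain ⟨d, hd1, hd2⟩ := loc_cyclic_telescope σ hσ (φ a)
    refine ⟨φ.symm d, ?_, ?_⟩
    · show D * ‖φ (φ.symm d)‖ ≤ D * ‖φ a‖
      apply mul_le_mul_of_nonneg_left _ hD0
      rw [ContinuousLinearEquiv.apply_symm_apply, pi_norm_le_iff_of_nonneg (norm_nonneg _)]
      exact hd1 _ (norm_nonneg _) (fun κ => norm_le_pi_norm _ _)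
    · show D * ‖φ (a - (σ (φ.symm d) - φ.symm d))‖ ≤ D * ‖φ (∑ τ : L ≃ₐ[K] L, τ a)‖
      apply mul_le_mul_of_nonneg_left _ hD0
      have e1 : ‖∑ j, φ a j‖ ≤ ‖φ (∑ τ : L ≃ₐ[K] L, τ a)‖ := by
        have := norm_le_pi_norm (φ (∑ τ : L ≃ₐ[K] L, τ a)) 1
        rwa [hφ, loc_normalBasis_trace] at this
      refine le_trans ?_ e1
      rw [pi_norm_le_iff_of_nonneg (norm_nonneg _)]
      intro κ
      have e2 : φ (a - (σ (φ.symm d) - φ.symm d)) κ = φ a κ - (d (σ⁻¹ * κ) - d κ) := by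
        rw [map_sub, map_sub, Pi.sub_apply, Pi.sub_apply, hφ (σ (φ.symm d)),
          loc_normalBasis_shift, ← hφ, ContinuousLinearEquiv.apply_symm_apply]
      rw [e2, hd2]
      split_ifs
      · exact le_rfl
      · rw [norm_zero]; exact norm_nonneg _

end

end Fermat.Agent.S55
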