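import Mathlib
import Fermat.Agent.S55.LocNu

/-!
# A cohomologically trivial open subgroup of the units of a cyclic extension (block LOC of S55)

For a finite cyclic Galois extension `L/K` of complete ultrametric fields with generator `σ`,
`loc_exists_trivial_subgroup` produces a Galois-stable subgroup `V ≤ Lˣ`, containing a ball around
`1` and consisting of elements of norm `1`, such that
* every `σ`-fixed element of `V` is the norm of an element of `V`;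
* every element of `V` of norm `1` (in the sense of `N_{L/K}`) is `σ y / y` with `y ∈ V`.
-/

set_option autoImplicit false

namespace Fermat.Agent.S55

section NuBasics

variable {K L : Type*} [NormedField K] [NormedField L] [NormedAlgebra K L]
  [FiniteDimensional K L] {σ : L ≃ₐ[K] L} {ν : L → ℝ} {C : ℝ}

theorem loc_IsNu.zero (h : loc_IsNu σ ν C) : ν 0 = 0 :=
  le_antisymm (by simpa using h.le_norm 0) (h.nonneg 0)

theorem loc_IsNu.sub_le (h : loc_IsNu σ ν C) (x y : L) : ν (x - y) ≤ max (ν x) (ν y) := by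
  rw [sub_eq_add_neg, ← h.neg y]
  exact h.add_le _ _

theorem loc_IsNu.C_pos (h : loc_IsNu σ ν C) : 0 < C := zero_lt_one.trans_le h.one_le

theorem loc_IsNu.eq_zero (h : loc_IsNu σ ν C) {x : L} (hx : ν x ≤ 0) : x = 0 := by
  have h1 := h.norm_le x
  have h2 : C * ν x ≤ 0 := mul_nonpos_of_nonneg_of_nonpos h.C_pos.le hx
  exact norm_le_zero_iff.mp (h1.trans h2)

theorem loc_IsNu.one_le_C (h : loc_IsNu σ ν C) : ν 1 ≤ C := by simpa using h.le_norm 1

theorem loc_IsNu.sum_le (h : loc_IsNu σ ν C) {ι : Type*} (s : Finset ι) (f : ι → L) {R : ℝ}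
    (hR : 0 ≤ R) (hf : ∀ i ∈ s, ν (f i) ≤ R) : ν (∑ i ∈ s, f i) ≤ R := by
  classical
  induction s using Finset.induction_on with
  | empty => simpa [h.zero] using hR
  | insert j s hj ih =>
    rw [Finset.sum_insert hj]
    exact (h.add_le _ _).trans (max_le (hf j (Finset.mem_insert_self j s))
      (ih fun i hi => hf i (Finset.mem_insert_of_mem hi)))

theorem loc_IsNu.prod_one_add (h : loc_IsNu σ ν C) {ι : Type*} (s : Finset ι) (b : ι → L) {r : ℝ}
    (hr0 : 0 ≤ r) (hr1 : r ≤ 1) (hb : ∀ i ∈ s, ν (b i) ≤ r) :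
    ν (∏ i ∈ s, (1 + b i) - 1 - ∑ i ∈ s, b i) ≤ r * r := by
  classical
  have hrr : r * r ≤ r := by nlinarith
  induction s using Finset.induction_on with
  | empty => simp [h.zero, mul_nonneg hr0 hr0]
  | insert j s hj ih =>
    have ih' := ih (fun i hi => hb i (Finset.mem_insert_of_mem hi))
    have hS : ν (∑ i ∈ s, b i) ≤ r :=
      h.sum_le s b hr0 (fun i hi => hb i (Finset.mem_insert_of_mem hi))
    have hP : ν (∏ i ∈ s, (1 + b i) - 1) ≤ r := by
      have e : ∏ i ∈ s, (1 + b i) - 1 =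
          (∏ i ∈ s, (1 + b i) - 1 - ∑ i ∈ s, b i) + ∑ i ∈ s, b i := by ring
      rw [e]
      exact (h.add_le _ _).trans (max_le (ih'.trans hrr) hS)
    rw [Finset.prod_insert hj, Finset.sum_insert hj]
    have e : (1 + b j) * ∏ i ∈ s, (1 + b i) - 1 - (b j + ∑ i ∈ s, b i) =
        (∏ i ∈ s, (1 + b i) - 1 - ∑ i ∈ s, b i) + b j * (∏ i ∈ s, (1 + b i) - 1) := by ring
    rw [e]
    refine (h.add_le _ _).trans (max_le ih' ((h.mul_le _ _).trans ?_))
    exact mul_le_mul (hb j (Finset.mem_insert_self j s)) hP (h.nonneg _) hr0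

theorem loc_IsNu.norm_sub_one_le (h : loc_IsNu σ ν C) {r : ℝ} (hr : r * (2 * C) ≤ 1) {x : L}
    (hx : ν (x - 1) ≤ r) : ‖x - 1‖ ≤ 1 / 2 := by
  have h1 := h.norm_le (x - 1)
  have h2 : C * ν (x - 1) ≤ C * r := mul_le_mul_of_nonneg_left hx h.C_pos.le
  linarith

theorem loc_IsNu.half_le_norm (h : loc_IsNu σ ν C) {r : ℝ} (hr : r * (2 * C) ≤ 1) {x : L}
    (hx : ν (x - 1) ≤ r) : 1 / 2 ≤ ‖x‖ := by
  have h1 := h.norm_sub_one_le hr hx
  have h2 : ‖(1 : L)‖ - ‖x‖ ≤ ‖x - 1‖ := by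
    rw [← norm_neg (x - 1), neg_sub]
    exact norm_sub_norm_le _ _
  rw [norm_one] at h2
  linarith

theorem loc_IsNu.r_le_half (h : loc_IsNu σ ν C) {r : ℝ} (hr0 : 0 ≤ r) (hr : r * (2 * C) ≤ 1) :
    r ≤ 1 / 2 := by
  have := h.one_le
  nlinarith

theorem loc_IsNu.le_C_of_mem (h : loc_IsNu σ ν C) {r : ℝ} (hr0 : 0 ≤ r) (hr : r * (2 * C) ≤ 1)
    {x : L} (hx : ν (x - 1) ≤ r) : ν x ≤ C := by
  have e : x = (x - 1) + 1 := by ring
  rw [e]
  have h1 := h.r_le_half hr0 hr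
  have h2 := h.one_le
  exact (h.add_le _ _).trans (max_le (hx.trans (by linarith)) h.one_le_C)

/-- The subgroup `{x : ν (x - 1) ≤ r}` of `Lˣ`, for `0 ≤ r ≤ 1 / (2 C)`. -/
def loc_V (h : loc_IsNu σ ν C) (r : ℝ) (hr0 : 0 ≤ r) (hr : r * (2 * C) ≤ 1) : Subgroup Lˣ where
  carrier := {x | ν ((x : L) - 1) ≤ r}
  one_mem' := by simpa [h.zero] using hr0
  mul_mem' := by
    intro x y hx hy
    have hx' : ν ((x : L) - 1) ≤ r := hx
    have hy' : ν ((y : L) - 1) ≤ r := hy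
    show ν (((x * y : Lˣ) : L) - 1) ≤ r
    have e : ((x * y : Lˣ) : L) - 1 =
        ((x : L) - 1) + ((y : L) - 1) + ((x : L) - 1) * ((y : L) - 1) := by
      rw [Units.val_mul]; ring
    rw [e]
    have hr1 := h.r_le_half hr0 hr
    refine (h.add_le _ _).trans (max_le ((h.add_le _ _).trans (max_le hx' hy'))
      ((h.mul_le _ _).trans ?_))
    calc ν ((x : L) - 1) * ν ((y : L) - 1) ≤ r * r := mul_le_mul hx' hy' (h.nonneg _) hr0
      _ ≤ r := by nlinarith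
  inv_mem' := by
    intro x hx
    have hx' : ν ((x : L) - 1) ≤ r := hx
    show ν (((x⁻¹ : Lˣ) : L) - 1) ≤ r
    have hxne : (x : L) ≠ 0 := x.ne_zero
    have e : ((x⁻¹ : Lˣ) : L) - 1 =
        -((x : L) - 1) + ((x : L) - 1) * ((x : L) - 1) * (x : L)⁻¹ := by
      rw [Units.val_inv_eq_inv_val]; field_simp; ring
    rw [e]
    have hinv : ν ((x : L)⁻¹) ≤ 2 * C := by
      refine (h.le_norm _).trans ?_
      rw [norm_inv]
      have h1 := h.half_le_norm hr hx'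
      have h2 : ‖(x : L)‖⁻¹ ≤ 2 := by
        rw [inv_le_comm₀ (by linarith) (by norm_num)]
        linarith
      have h3 := h.C_pos
      nlinarith
    refine (h.add_le _ _).trans (max_le (by rw [h.neg]; exact hx') ((h.mul_le _ _).trans ?_))
    calc ν (((x : L) - 1) * ((x : L) - 1)) * ν ((x : L)⁻¹) ≤ (r * r) * (2 * C) :=
          mul_le_mul ((h.mul_le _ _).trans (mul_le_mul hx' hx' (h.nonneg _) hr0)) hinv
            (h.nonneg _) (mul_nonneg hr0 hr0)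
      _ = r * (r * (2 * C)) := by ring
      _ ≤ r * 1 := by gcongr
      _ = r := mul_one r

theorem loc_mem_V (h : loc_IsNu σ ν C) {r : ℝ} (hr0 : 0 ≤ r) (hr : r * (2 * C) ≤ 1) (x : Lˣ) :
    x ∈ loc_V h r hr0 hr ↔ ν ((x : L) - 1) ≤ r := Iff.rfl

theorem loc_IsNu.one_add_ne_zero (h : loc_IsNu σ ν C) {r : ℝ} (hr : r * (2 * C) ≤ 1) {b : L}
    (hb : ν b ≤ r) : 1 + b ≠ 0 := by
  have h1 : ν ((1 + b) - 1) ≤ r := by rwa [add_sub_cancel_left]
  have h2 := h.half_le_norm hr h1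
  intro h0
  rw [h0, norm_zero] at h2
  linarith

end NuBasics

section Homs

variable {K L : Type*} [Field K] [Field L] [Algebra K L] [FiniteDimensional K L]

/-- `x ↦ σ x / x` on units. -/
noncomputable def loc_fσ (σ : L ≃ₐ[K] L) : Lˣ →* Lˣ :=
  MulDistribMulAction.toMonoidHom Lˣ σ / MonoidHom.id Lˣ

omit [FiniteDimensional K L] in
theorem loc_fσ_apply (σ : L ≃ₐ[K] L) (x : Lˣ) : loc_fσ σ x = σ • x / x := rfl

variable (K L) in
/-- `x ↦ ∏ τ, τ x` on units. -/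
noncomputable def loc_gN : Lˣ →* Lˣ :=
  ∏ τ : L ≃ₐ[K] L, MulDistribMulAction.toMonoidHom Lˣ τ

theorem loc_gN_apply (x : Lˣ) : loc_gN K L x = ∏ τ : L ≃ₐ[K] L, τ • x := by
  simp [loc_gN]

theorem loc_gN_coe (x : Lˣ) : ((loc_gN K L x : Lˣ) : L) = ∏ τ : L ≃ₐ[K] L, τ (x : L) := by
  rw [loc_gN_apply, Units.coe_prod]
  rfl

theorem loc_gN_fσ (σ : L ≃ₐ[K] L) (x : Lˣ) : loc_gN K L (loc_fσ σ x) = 1 := by
  rw [loc_fσ_apply, map_div, div_eq_one, loc_gN_apply, loc_gN_apply]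
  exact Fintype.prod_equiv (Equiv.mulRight σ) _ _ (fun τ => by simp [mul_smul])

theorem loc_fσ_gN (σ : L ≃ₐ[K] L) (x : Lˣ) : loc_fσ σ (loc_gN K L x) = 1 := by
  rw [loc_fσ_apply, div_eq_one, loc_gN_apply]
  rw [← MulDistribMulAction.toMonoidHom_apply (M := L ≃ₐ[K] L) (A := Lˣ) σ, map_prod]
  exact Fintype.prod_equiv (Equiv.mulLeft σ) _ _ (fun τ => by simp [mul_smul])

end Homs

section Main

variable {K L : Type*} [NontriviallyNormedField K] [IsUltrametricDist K] [CompleteSpace K]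
  [NormedField L] [NormedAlgebra K L] [FiniteDimensional K L] [IsGalois K L]

theorem loc_exists_trivial_subgroup (σ : L ≃ₐ[K] L) (hσ : ∀ τ, τ ∈ Subgroup.zpowers σ) :
    ∃ (V : Subgroup Lˣ) (r : ℝ), 0 < r ∧ (∀ x : Lˣ, ‖(x : L) - 1‖ < r → x ∈ V) ∧
      (∀ x ∈ V, ‖(x : L)‖ = 1) ∧ (∀ x ∈ V, ∀ τ : L ≃ₐ[K] L, τ • x ∈ V) ∧
      (∀ x ∈ V, loc_fσ σ x = 1 → ∃ y ∈ V, loc_gN K L y = x) ∧
      (∀ x ∈ V, loc_gN K L x = 1 → ∃ y ∈ V, loc_fσ σ y = x) := by
  obtain ⟨ν, C, h⟩ := loc_exists_nu σ hσ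
  have hC := h.C_pos
  set r₀ : ℝ := 1 / (2 * C) with hr₀
  have hr₀pos : 0 < r₀ := by positivity
  have hr₀C : r₀ * (2 * C) = 1 := by rw [hr₀]; field_simp
  have hrk0 : ∀ k : ℕ, 0 ≤ r₀ / 2 ^ k := fun k => by positivity
  have hrkpos : ∀ k : ℕ, 0 < r₀ / 2 ^ k := fun k => by positivity
  have hrk : ∀ k : ℕ, r₀ / 2 ^ k * (2 * C) ≤ 1 := fun k => by
    rw [div_mul_eq_mul_div, hr₀C]
    exact div_le_one_of_le₀ (one_le_pow₀ (by norm_num)) (by positivity)
  have hrkC : ∀ k : ℕ, r₀ / 2 ^ k * C ≤ 1 / 2 := fun k => by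
    have := hrk k
    linarith
  have hrk1 : ∀ k : ℕ, r₀ / 2 ^ k ≤ 1 := fun k => (h.r_le_half (hrk0 k) (hrk k)).trans (by norm_num)
  let F : ℕ → Subgroup Lˣ := fun k => loc_V h (r₀ / 2 ^ k) (hrk0 k) (hrk k)
  have hFmem : ∀ k (x : Lˣ), x ∈ F k ↔ ν ((x : L) - 1) ≤ r₀ / 2 ^ k := fun k x => Iff.rfl
  have hFanti : ∀ k l, k ≤ l → F l ≤ F k := by
    intro k l hkl x hx
    rw [hFmem] at hx ⊢
    refine hx.trans ?_
    exact div_le_div_of_nonneg_left hr₀pos.le (by positivity) (pow_le_pow_right₀ (by norm_num) hkl)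
  have hFgal : ∀ k (x : Lˣ), x ∈ F k → ∀ τ : L ≃ₐ[K] L, τ • x ∈ F k := by
    intro k x hx τ
    rw [hFmem] at hx ⊢
    have e : ((τ • x : Lˣ) : L) - 1 = τ ((x : L) - 1) := by
      rw [map_sub, map_one]
      rfl
    rw [e, h.galois]
    exact hx
  have hFf : ∀ k x, x ∈ F k → loc_fσ σ x ∈ F k := fun k x hx =>
    (F k).div_mem (hFgal k x hx σ) hx
  have hFg : ∀ k x, x ∈ F k → loc_gN K L x ∈ F k := fun k x hx => by
    rw [loc_gN_apply]
    exact (F k).prod_mem (fun τ _ => hFgal k x hx τ)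
  have hFC : ∀ k (x : Lˣ), x ∈ F k → ν (x : L) ≤ C := fun k x hx =>
    h.le_C_of_mem (hrk0 k) (hrk k) ((hFmem k x).mp hx)
  have hsep : ∀ x : Lˣ, (∀ k, x ∈ F k) → x = 1 := by
    intro x hx
    have h0 : ν ((x : L) - 1) ≤ 0 := by
      by_contra hpos
      rw [not_le] at hpos
      obtain ⟨k, hk⟩ := exists_pow_lt_of_lt_one (div_pos hpos hr₀pos)
        (by norm_num : (1 / 2 : ℝ) < 1)
      have h1 := (hFmem k x).mp (hx k)
      have e : r₀ / 2 ^ k = r₀ * (1 / 2) ^ k := by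
        rw [one_div, inv_pow, div_eq_mul_inv]
      rw [e] at h1
      have h2 : r₀ * (1 / 2) ^ k < ν ((x : L) - 1) := by
        calc r₀ * (1 / 2) ^ k < r₀ * (ν ((x : L) - 1) / r₀) := by gcongr
          _ = ν ((x : L) - 1) := by field_simp
      linarith
    have h1 := h.eq_zero h0
    exact Units.ext (by simpa [sub_eq_zero] using h1)
  have hcompl : ∀ y : ℕ → Lˣ, (∀ k, y k ∈ F k) →
      ∃ z, ∀ k, z / ∏ i ∈ Finset.range k, y i ∈ F k := by
    intro y hy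
    let P : ℕ → Lˣ := fun k => ∏ i ∈ Finset.range k, y i
    have hPjk : ∀ k j, k ≤ j → P j / P k ∈ F k := by
      intro k j hkj
      induction j, hkj using Nat.le_induction with
      | base => rw [div_self']; exact (F k).one_mem
      | succ j hkj ih =>
        have e : P (j + 1) / P k = (P j / P k) * y j := by
          show (∏ i ∈ Finset.range (j + 1), y i) / P k = _
          rw [Finset.prod_range_succ, mul_div_right_comm]
        rw [e]
        exact (F k).mul_mem ih (hFanti k j hkj (hy j))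
    have hP0 : ∀ k, P k ∈ F 0 := by
      intro k
      have h1 := hPjk 0 k (Nat.zero_le k)
      simpa [P] using h1
    have hu1 : ∀ k, ‖((P k : Lˣ) : L) - 1‖ ≤ 1 / 2 := fun k =>
      h.norm_sub_one_le (hrk 0) ((hFmem 0 _).mp (hP0 k))
    have hu2 : ∀ k, 1 / 2 ≤ ‖((P k : Lˣ) : L)‖ := fun k =>
      h.half_le_norm (hrk 0) ((hFmem 0 _).mp (hP0 k))
    have hu3 : ∀ k, ‖((P k : Lˣ) : L)‖ ≤ 3 / 2 := fun k => by
      have h1 := norm_add_le (((P k : Lˣ) : L) - 1) 1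
      rw [sub_add_cancel, norm_one] at h1
      linarith [hu1 k]
    have hcau : CauchySeq (fun k => ((P k : Lˣ) : L)) := by
      apply cauchySeq_of_le_geometric (1 / 2) (3 / 2 * (C * r₀)) (by norm_num)
      intro k
      rw [dist_eq_norm]
      have e : ((P k : Lˣ) : L) - ((P (k + 1) : Lˣ) : L) =
          ((P k : Lˣ) : L) * (-(((y k : Lˣ) : L) - 1)) := by
        show _ - ((∏ i ∈ Finset.range (k + 1), y i : Lˣ) : L) = _
        rw [Finset.prod_range_succ, Units.val_mul]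
        ring
      rw [e, norm_mul, norm_neg]
      have h1 : ‖((y k : Lˣ) : L) - 1‖ ≤ C * (r₀ / 2 ^ k) :=
        (h.norm_le _).trans (mul_le_mul_of_nonneg_left ((hFmem k _).mp (hy k)) hC.le)
      calc ‖((P k : Lˣ) : L)‖ * ‖((y k : Lˣ) : L) - 1‖ ≤ 3 / 2 * (C * (r₀ / 2 ^ k)) :=
            mul_le_mul (hu3 k) h1 (norm_nonneg _) (by norm_num)
        _ = 3 / 2 * (C * r₀) * (1 / 2) ^ k := by rw [one_div, inv_pow]; ring
    have : CompleteSpace L := FiniteDimensional.complete K L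
    obtain ⟨z₀, hz₀⟩ := cauchySeq_tendsto_of_complete hcau
    rw [Metric.tendsto_atTop] at hz₀
    have hz₀ne : z₀ ≠ 0 := by
      obtain ⟨N, hN⟩ := hz₀ (1 / 2) (by norm_num)
      have h1 := hN N le_rfl
      rw [dist_eq_norm] at h1
      intro h0
      rw [h0, sub_zero] at h1
      linarith [hu2 N]
    refine ⟨Units.mk0 z₀ hz₀ne, fun k => ?_⟩
    rw [hFmem]
    have hukpos : 0 < ‖(((P k)⁻¹ : Lˣ) : L)‖ := norm_pos_iff.mpr (Units.ne_zero _)
    obtain ⟨N, hN⟩ := hz₀ (r₀ / 2 ^ k / (C * ‖(((P k)⁻¹ : Lˣ) : L)‖)) (by positivity)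
    have h1 := hN (max N k) (le_max_left _ _)
    rw [dist_eq_norm] at h1
    have e : ((Units.mk0 z₀ hz₀ne / P k : Lˣ) : L) - 1 =
        (z₀ - ((P (max N k) : Lˣ) : L)) * (((P k)⁻¹ : Lˣ) : L) +
          (((P (max N k) / P k : Lˣ) : L) - 1) := by
      rw [div_eq_mul_inv, div_eq_mul_inv, Units.val_mul, Units.val_mul, Units.val_mk0]
      ring
    rw [e]
    refine (h.add_le _ _).trans (max_le ?_ ((hFmem k _).mp (hPjk k _ (le_max_right _ _))))
    refine (h.le_norm _).trans ?_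
    rw [norm_mul, ← norm_neg, neg_sub]
    calc C * (‖((P (max N k) : Lˣ) : L) - z₀‖ * ‖(((P k)⁻¹ : Lˣ) : L)‖)
        ≤ C * (r₀ / 2 ^ k / (C * ‖(((P k)⁻¹ : Lˣ) : L)‖) * ‖(((P k)⁻¹ : Lˣ) : L)‖) := by
          gcongr
      _ = r₀ / 2 ^ k := by field_simp
  have hgr1 : ∀ k, ∀ x ∈ F k, loc_fσ σ x = 1 → ∃ y ∈ F k, x / loc_gN K L y ∈ F (k + 1) := by
    intro k x hx hfx
    have hσx : σ • x = x := by rwa [loc_fσ_apply, div_eq_one] at hfx
    have hτx : ∀ τ : L ≃ₐ[K] L, τ (x : L) = x := by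
      intro τ
      have h1 : Subgroup.zpowers σ ≤ MulAction.stabilizer (L ≃ₐ[K] L) x :=
        (Subgroup.zpowers_le).mpr hσx
      have h2 : τ • x = x := h1 (hσ τ)
      exact congrArg Units.val h2
    obtain ⟨x₀, hx₀⟩ := (IsGalois.mem_range_algebraMap_iff_fixed (x : L)).mpr hτx
    obtain ⟨b, hb1, hb2⟩ := h.trace_surj (x₀ - 1)
    have hxa : algebraMap K L (x₀ - 1) = (x : L) - 1 := by rw [map_sub, map_one, hx₀]
    rw [hxa] at hb1 hb2
    have hb : ν b ≤ r₀ / 2 ^ k := hb2.trans ((hFmem k x).mp hx)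
    let y : Lˣ := Units.mk0 (1 + b) (h.one_add_ne_zero (hrk k) hb)
    have hy : y ∈ F k := by
      rw [hFmem]
      show ν ((1 + b) - 1) ≤ _
      rwa [add_sub_cancel_left]
    refine ⟨y, hy, ?_⟩
    have hN : ν (((loc_gN K L y : Lˣ) : L) - (x : L)) ≤ r₀ / 2 ^ k * (r₀ / 2 ^ k) := by
      have h1 := h.prod_one_add Finset.univ (fun τ : L ≃ₐ[K] L => τ b) (hrk0 k) (hrk1 k)
        (fun τ _ => by rw [h.galois]; exact hb)
      have e : ((loc_gN K L y : Lˣ) : L) - (x : L) =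
          ∏ τ : L ≃ₐ[K] L, (1 + τ b) - 1 - ∑ τ : L ≃ₐ[K] L, τ b := by
        rw [loc_gN_coe, hb1]
        simp only [y, Units.val_mk0, map_add, map_one]
        ring
      rw [e]
      exact h1
    rw [hFmem]
    have e : ((x / loc_gN K L y : Lˣ) : L) - 1 =
        -(((loc_gN K L y : Lˣ) : L) - (x : L)) * (((loc_gN K L y)⁻¹ : Lˣ) : L) := by
      have hne : ((loc_gN K L y : Lˣ) : L) ≠ 0 := Units.ne_zero _
      rw [div_eq_mul_inv, Units.val_mul, Units.val_inv_eq_inv_val]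
      field_simp
      ring
    rw [e]
    refine (h.mul_le _ _).trans ?_
    rw [h.neg]
    have hinv : ν ((((loc_gN K L y)⁻¹ : Lˣ) : L)) ≤ C :=
      hFC k _ ((F k).inv_mem (hFg k y hy))
    calc ν (((loc_gN K L y : Lˣ) : L) - (x : L)) * ν ((((loc_gN K L y)⁻¹ : Lˣ) : L))
        ≤ (r₀ / 2 ^ k * (r₀ / 2 ^ k)) * C :=
          mul_le_mul hN hinv (h.nonneg _) (mul_nonneg (hrk0 k) (hrk0 k))
      _ = r₀ / 2 ^ k * (r₀ / 2 ^ k * C) := by ring
      _ ≤ r₀ / 2 ^ k * (1 / 2) := mul_le_mul_of_nonneg_left (hrkC k) (hrk0 k)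
      _ = r₀ / 2 ^ (k + 1) := by rw [pow_succ]; field_simp
  have hgr2 : ∀ k, ∀ x ∈ F k, loc_gN K L x = 1 → ∃ y ∈ F k, x / loc_fσ σ y ∈ F (k + 1) := by
    intro k x hx hgx
    have hx' := (hFmem k x).mp hx
    have hprod : ∏ τ : L ≃ₐ[K] L, τ (x : L) = 1 := by
      rw [← loc_gN_coe, hgx, Units.val_one]
    have hTr : ν (∑ τ : L ≃ₐ[K] L, τ ((x : L) - 1)) ≤ r₀ / 2 ^ k * (r₀ / 2 ^ k) := by
      have h1 := h.prod_one_add Finset.univ (fun τ : L ≃ₐ[K] L => τ ((x : L) - 1)) (hrk0 k)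
        (hrk1 k) (fun τ _ => by rw [h.galois]; exact hx')
      have e : ∏ τ : L ≃ₐ[K] L, (1 + τ ((x : L) - 1)) = ∏ τ : L ≃ₐ[K] L, τ (x : L) := by
        refine Finset.prod_congr rfl (fun τ _ => ?_)
        rw [map_sub, map_one]
        ring
      rw [e, hprod, sub_self, zero_sub, h.neg] at h1
      exact h1
    obtain ⟨b, hb1, hb2⟩ := h.h90 ((x : L) - 1)
    have hb : ν b ≤ r₀ / 2 ^ k := hb1.trans hx'
    let y : Lˣ := Units.mk0 (1 + b) (h.one_add_ne_zero (hrk k) hb)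
    have hy : y ∈ F k := by
      rw [hFmem]
      show ν ((1 + b) - 1) ≤ _
      rwa [add_sub_cancel_left]
    refine ⟨y, hy, ?_⟩
    rw [hFmem]
    have e : ((x / loc_fσ σ y : Lˣ) : L) - 1 =
        ((((x : L) - 1) - (σ b - b)) + ((x : L) - 1) * b) * (((σ • y)⁻¹ : Lˣ) : L) := by
      have hy0 : (1 + b : L) ≠ 0 := h.one_add_ne_zero (hrk k) hb
      have hσy0 : (1 + σ b : L) ≠ 0 := by
        have h1 : σ (1 + b) ≠ 0 := (EmbeddingLike.map_ne_zero_iff (f := σ)).mpr hy0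
        rwa [map_add, map_one] at h1
      have e1 : ((x / loc_fσ σ y : Lˣ) : L) = (x : L) * (1 + b) / (1 + σ b) := by
        rw [loc_fσ_apply, div_eq_mul_inv, Units.val_mul, Units.val_inv_eq_inv_val,
          Units.val_div_eq_div_val]
        show (x : L) * (σ (1 + b) / (1 + b))⁻¹ = _
        rw [map_add, map_one]
        field_simp
      have e2 : (((σ • y)⁻¹ : Lˣ) : L) = (1 + σ b)⁻¹ := by
        rw [Units.val_inv_eq_inv_val]
        show (σ (1 + b))⁻¹ = _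
        rw [map_add, map_one]
      rw [e1, e2]
      field_simp
      ring
    rw [e]
    refine (h.mul_le _ _).trans ?_
    have hinv : ν ((((σ • y)⁻¹ : Lˣ) : L)) ≤ C :=
      hFC k _ ((F k).inv_mem (hFgal k y hy σ))
    have hnum : ν ((((x : L) - 1) - (σ b - b)) + ((x : L) - 1) * b) ≤
        r₀ / 2 ^ k * (r₀ / 2 ^ k) := by
      refine (h.add_le _ _).trans (max_le (hb2.trans hTr) ((h.mul_le _ _).trans ?_))
      exact mul_le_mul hx' hb (h.nonneg _) (hrk0 k)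
    calc ν ((((x : L) - 1) - (σ b - b)) + ((x : L) - 1) * b) * ν ((((σ • y)⁻¹ : Lˣ) : L))
        ≤ (r₀ / 2 ^ k * (r₀ / 2 ^ k)) * C :=
          mul_le_mul hnum hinv (h.nonneg _) (mul_nonneg (hrk0 k) (hrk0 k))
      _ = r₀ / 2 ^ k * (r₀ / 2 ^ k * C) := by ring
      _ ≤ r₀ / 2 ^ k * (1 / 2) := mul_le_mul_of_nonneg_left (hrkC k) (hrk0 k)
      _ = r₀ / 2 ^ (k + 1) := by rw [pow_succ]; field_simp
  refine ⟨F 0, r₀ / C, by positivity, ?_, ?_, hFgal 0, ?_, ?_⟩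
  · intro x hx
    rw [hFmem, pow_zero, div_one]
    refine (h.le_norm _).trans ?_
    have h1 := mul_le_mul_of_nonneg_left hx.le hC.le
    rwa [mul_div_cancel₀ _ hC.ne'] at h1
  · intro x hx
    have := IsUltrametricDist.of_normedAlgebra (L := L) K
    have h1 := h.norm_sub_one_le (hrk 0) ((hFmem 0 x).mp hx)
    apply le_antisymm
    · have h2 := IsUltrametricDist.norm_add_le_max ((x : L) - 1) 1
      rw [sub_add_cancel, norm_one] at h2
      exact h2.trans (max_le (h1.trans (by norm_num)) le_rfl)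
    · by_contra hlt
      rw [not_le] at hlt
      have h2 := IsUltrametricDist.norm_add_le_max (1 - (x : L)) (x : L)
      rw [sub_add_cancel, norm_one, ← norm_neg, neg_sub] at h2
      have h3 : max ‖(x : L) - 1‖ ‖(x : L)‖ < 1 := max_lt (by linarith) hlt
      linarith
  · exact loc_approx F hsep hcompl (loc_gN K L) (loc_fσ σ) hFg (loc_fσ_gN σ) hgr1
  · exact loc_approx F hsep hcompl (loc_fσ σ) (loc_gN K L) hFf (loc_gN_fσ σ) hgr2

end Main

end Fermat.Agent.S55
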