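import Mathlib
import Fermat.Agent.S55.LocBasic
import Fermat.Agent.S55.LocTriv
import Fermat.Agent.S55.LocHerbrand
import Fermat.Agent.S55.HerbrandCyclic

/-!
# Cyclic extensions of local fields: the norm index (block LOC of S55)

For a finite cyclic Galois extension `L/K` of local fields:
* `loc_hq_cyclic`: the Herbrand quotient of `Lˣ` is `[L:K]`;
* `loc_card_H2_of_isCyclic`: `|H²(Gal(L/K), Lˣ)| = [L:K]`.
-/

set_option autoImplicit false

namespace Fermat.Agent.S55

section

variable {K L : Type*} [NontriviallyNormedField K] [IsUltrametricDist K] [ProperSpace K]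
  [NontriviallyNormedField L] [NormedAlgebra K L] [FiniteDimensional K L] [IsGalois K L]

theorem loc_hq_cyclic (σ : L ≃ₐ[K] L) (hσ : ∀ τ, τ ∈ Subgroup.zpowers σ) :
    hq (MonoidHom.toAdditive (loc_fσ σ)) (MonoidHom.toAdditive (loc_gN K L)) =
      Module.finrank K L *
        hq (MonoidHom.toAdditive (loc_gN K L)) (MonoidHom.toAdditive (loc_fσ σ)) := by
  have hLu : IsUltrametricDist L := IsUltrametricDist.of_normedAlgebra K
  have hLp : ProperSpace L := FiniteDimensional.proper K L
  obtain ⟨ϖ, hϖ⟩ := loc_exists_unif L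
  obtain ⟨V, r, hr, hball, hnorm, hgal, ha, hb⟩ := loc_exists_trivial_subgroup σ hσ
  refine loc_hq_of_ord _ _ ?_ ?_ (loc_ord hϖ) (loc_ord_surjective hϖ) (Module.finrank K L)
    Module.finrank_pos.ne' ?_ ?_ (Subgroup.toAddSubgroup V) ?_ ?_ ?_ ?_ ?_ ?_
  · exact AddMonoidHom.ext fun x => congrArg Additive.ofMul (loc_fσ_gN σ (Additive.toMul x))
  · exact AddMonoidHom.ext fun x => congrArg Additive.ofMul (loc_gN_fσ σ (Additive.toMul x))
  · intro x
    rw [loc_ord_eq_zero_iff]
    show ‖((loc_fσ σ (Additive.toMul x) : Lˣ) : L)‖ = 1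
    rw [loc_fσ_apply, Units.val_div_eq_div_val, norm_div]
    show ‖σ ((Additive.toMul x : Lˣ) : L)‖ / _ = 1
    rw [loc_norm_algEquiv, div_self (norm_ne_zero_iff.mpr (Units.ne_zero _))]
  · intro x
    rw [loc_ord_eq_iff]
    show ‖((loc_gN K L (Additive.toMul x) : Lˣ) : L)‖ = _
    rw [loc_gN_coe, norm_prod]
    simp only [loc_norm_algEquiv, Finset.prod_const, Finset.card_univ]
    rw [← Nat.card_eq_fintype_card, IsGalois.card_aut_eq_finrank, loc_ord_spec hϖ x,
      ← zpow_natCast, ← zpow_mul, mul_comm]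
  · intro x hx
    rw [AddMonoidHom.mem_ker, loc_ord_eq_zero_iff]
    exact hnorm _ hx
  · exact loc_relIndex_ne_zero _ _
      (fun x hx => (loc_ord_eq_zero_iff hϖ x).mp (AddMonoidHom.mem_ker.mp hx)) hr
      (fun x hx => hball x hx)
  · intro x hx
    exact Subgroup.div_mem V (hgal _ hx σ) hx
  · intro x hx
    show loc_gN K L (Additive.toMul x) ∈ V
    rw [loc_gN_apply]
    exact V.prod_mem (fun τ _ => hgal _ hx τ)
  · intro x hx hfx
    obtain ⟨y, hy, hyx⟩ := ha (Additive.toMul x) hx (congrArg Additive.toMul hfx)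
    exact ⟨Additive.ofMul y, hy, congrArg Additive.ofMul hyx⟩
  · intro x hx hgx
    obtain ⟨y, hy, hyx⟩ := hb (Additive.toMul x) hx (congrArg Additive.toMul hgx)
    exact ⟨Additive.ofMul y, hy, congrArg Additive.ofMul hyx⟩

end

section Coh

variable {K L : Type} [NontriviallyNormedField K] [IsUltrametricDist K] [ProperSpace K]
  [NontriviallyNormedField L] [NormedAlgebra K L] [FiniteDimensional K L] [IsGalois K L]

attribute [local instance] IsCyclic.commGroup in
/-- For a cyclic extension of local fields, `|H²(Gal(L/K), Lˣ)| = [L:K]`. -/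
theorem loc_card_H2_of_isCyclic [IsCyclic (L ≃ₐ[K] L)] :
    Nat.card (groupCohomology.H2 (Rep.ofAlgebraAutOnUnits K L)) = Module.finrank K L := by
  obtain ⟨σ, hσ⟩ := IsCyclic.exists_generator (α := L ≃ₐ[K] L)
  have h2 := hq_card_groupCohomology_even (Rep.ofAlgebraAutOnUnits K L) σ hσ 2 (by decide)
  have h1 := hq_card_groupCohomology_odd (Rep.ofAlgebraAutOnUnits K L) σ hσ 1 (by decide)
  have e1 : hqD (Rep.ofAlgebraAutOnUnits K L) σ = MonoidHom.toAdditive (loc_fσ σ) := by
    ext x
    rw [hqD_apply]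
    rfl
  have e2 : hqN (Rep.ofAlgebraAutOnUnits K L) = MonoidHom.toAdditive (loc_gN K L) := by
    ext x
    rw [hqN_apply]
    show _ = Additive.ofMul (loc_gN K L (Additive.toMul x))
    rw [loc_gN_apply, ofMul_prod]
    rfl
  have h3 : Nat.card (groupCohomology (Rep.ofAlgebraAutOnUnits K L) 1) = 1 := by
    have : Unique (groupCohomology.H1 (Rep.ofAlgebraAutOnUnits K L)) :=
      groupCohomology.H1ofAutOnUnitsUnique K L
    exact Nat.card_unique
  rw [e1, e2] at h1 h2
  rw [h3] at h1
  have key := loc_hq_cyclic σ hσ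
  have h1' : 1 = hq (MonoidHom.toAdditive (loc_gN K L)) (MonoidHom.toAdditive (loc_fσ σ)) := h1
  have h2' : Nat.card (groupCohomology (Rep.ofAlgebraAutOnUnits K L) 2) =
      hq (MonoidHom.toAdditive (loc_fσ σ)) (MonoidHom.toAdditive (loc_gN K L)) := h2
  rw [← h1', mul_one] at key
  exact h2'.trans key

end Coh

end Fermat.Agent.S55
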