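import Mathlib
import Fermat.Agent.S55.LocCyclic

/-!
# The norm index of a cyclic extension of local fields (block LOC of S55)

* `loc_hq_h90`: Hilbert 90 in Herbrand form (`[ker N : (σ-1) Lˣ] = 1`), any cyclic Galois `L/K`;
* `loc_norm_index_cyclic`: `[Kˣ : N_{L/K} Lˣ] = [L:K]` for a cyclic extension of local fields;
* `loc_exists_not_norm`: if moreover `[L:K] ≠ 1`, some `b ∈ Kˣ` is not a norm.
-/

set_option autoImplicit false

namespace Fermat.Agent.S55

section Alg

variable {K L : Type} [Field K] [Field L] [Algebra K L] [FiniteDimensional K L] [IsGalois K L]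

omit [IsGalois K L] in
attribute [local instance] IsCyclic.commGroup in
theorem loc_hq_h90 (σ : L ≃ₐ[K] L) (hσ : ∀ τ, τ ∈ Subgroup.zpowers σ) :
    hq (MonoidHom.toAdditive (loc_gN K L)) (MonoidHom.toAdditive (loc_fσ σ)) = 1 := by
  have : IsCyclic (L ≃ₐ[K] L) := ⟨σ, hσ⟩
  have h1 := hq_card_groupCohomology_odd (Rep.ofAlgebraAutOnUnits K L) σ hσ 1 (by decide)
  have e1 : hqD (Rep.ofAlgebraAutOnUnits K L) σ = MonoidHom.toAdditive (loc_fσ σ) := by
    ext x
    rw [hqD_apply]
    rfl
  have e2 : hqN (Rep.ofAlgebraAutOnUnits K L) = MonoidHom.toAdditive (loc_gN K L) := by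
    ext x
    rw [hqN_apply]
    show _ = Additive.ofMul (loc_gN K L (Additive.toMul x))
    rw [loc_gN_apply, ofMul_prod]
    rfl
  have h3 : Nat.card (groupCohomology (Rep.ofAlgebraAutOnUnits K L) 1) = 1 := by
    have : Unique (groupCohomology.H1 (Rep.ofAlgebraAutOnUnits K L)) :=
      groupCohomology.H1ofAutOnUnitsUnique K L
    exact Nat.card_unique
  rw [e1, e2, h3] at h1
  exact h1.symm

theorem loc_fσ_eq_one_iff (σ : L ≃ₐ[K] L) (hσ : ∀ τ, τ ∈ Subgroup.zpowers σ) (x : Lˣ) :
    loc_fσ σ x = 1 ↔ ∃ y : Kˣ, Units.map (algebraMap K L : K →* L) y = x := by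
  constructor
  · intro hfx
    have hσx : σ • x = x := by rwa [loc_fσ_apply, div_eq_one] at hfx
    have hτx : ∀ τ : L ≃ₐ[K] L, τ (x : L) = x := by
      intro τ
      have h1 : Subgroup.zpowers σ ≤ MulAction.stabilizer (L ≃ₐ[K] L) x :=
        (Subgroup.zpowers_le).mpr hσx
      have h2 : τ • x = x := h1 (hσ τ)
      exact congrArg Units.val h2
    obtain ⟨y, hy⟩ := (IsGalois.mem_range_algebraMap_iff_fixed (x : L)).mpr hτx
    have hy0 : y ≠ 0 := by
      rintro rfl
      rw [map_zero] at hy
      exact x.ne_zero hy.symm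
    exact ⟨Units.mk0 y hy0, Units.ext hy⟩
  · rintro ⟨y, rfl⟩
    rw [loc_fσ_apply, div_eq_one]
    apply Units.ext
    show σ (algebraMap K L (y : K)) = algebraMap K L (y : K)
    exact σ.commutes _

theorem loc_gN_eq (x : Lˣ) :
    loc_gN K L x =
      Units.map (algebraMap K L : K →* L) (Units.map (Algebra.norm K : L →* K) x) := by
  apply Units.ext
  rw [loc_gN_coe]
  exact (Algebra.norm_eq_prod_automorphisms K (x : L)).symm

end Alg

section Local

variable {K L : Type} [NontriviallyNormedField K] [IsUltrametricDist K] [ProperSpace K]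
  [NontriviallyNormedField L] [NormedAlgebra K L] [FiniteDimensional K L] [IsGalois K L]

/-- **Norm index theorem** for cyclic extensions of local fields: `[Kˣ : N Lˣ] = [L:K]`. -/
theorem loc_norm_index_cyclic (σ : L ≃ₐ[K] L) (hσ : ∀ τ, τ ∈ Subgroup.zpowers σ) :
    (Units.map (Algebra.norm K : L →* K)).range.index = Module.finrank K L := by
  have key := loc_hq_cyclic σ hσ
  rw [loc_hq_h90 σ hσ, mul_one] at key
  set ιm : Kˣ →* Lˣ := Units.map (algebraMap K L : K →* L) with hιm
  set Nm : Lˣ →* Kˣ := Units.map (Algebra.norm K : L →* K) with hNm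
  have hinj : Function.Injective (MonoidHom.toAdditive ιm) := by
    intro a b hab
    have h1 : ιm (Additive.toMul a) = ιm (Additive.toMul b) := congrArg Additive.toMul hab
    have h2 : algebraMap K L ((Additive.toMul a : Kˣ) : K) =
        algebraMap K L ((Additive.toMul b : Kˣ) : K) := congrArg Units.val h1
    exact congrArg Additive.ofMul (Units.ext ((algebraMap K L).injective h2))
  have hker : (MonoidHom.toAdditive (loc_fσ σ)).ker =
      (⊤ : AddSubgroup (Additive Kˣ)).map (MonoidHom.toAdditive ιm) := by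
    ext x
    rw [AddMonoidHom.mem_ker, AddSubgroup.mem_map]
    constructor
    · intro hx
      obtain ⟨y, hy⟩ := (loc_fσ_eq_one_iff σ hσ (Additive.toMul x)).mp (congrArg Additive.toMul hx)
      exact ⟨Additive.ofMul y, AddSubgroup.mem_top _, congrArg Additive.ofMul hy⟩
    · rintro ⟨y, -, rfl⟩
      exact congrArg Additive.ofMul
        ((loc_fσ_eq_one_iff σ hσ (ιm (Additive.toMul y))).mpr ⟨Additive.toMul y, rfl⟩)
  have hrange : (MonoidHom.toAdditive (loc_gN K L)).range =
      (Subgroup.toAddSubgroup Nm.range).map (MonoidHom.toAdditive ιm) := by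
    ext x
    rw [AddMonoidHom.mem_range, AddSubgroup.mem_map]
    constructor
    · rintro ⟨y, rfl⟩
      refine ⟨Additive.ofMul (Nm (Additive.toMul y)), ⟨Additive.toMul y, rfl⟩, ?_⟩
      exact congrArg Additive.ofMul (loc_gN_eq (Additive.toMul y)).symm
    · rintro ⟨z, ⟨y, hy⟩, rfl⟩
      refine ⟨Additive.ofMul y, ?_⟩
      have h1 : Nm y = Additive.toMul z := hy
      exact congrArg Additive.ofMul ((loc_gN_eq y).trans (congrArg ιm h1))
  rw [hq, hker, hrange, AddSubgroup.relIndex_map_map_of_injective _ _ hinj,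
    AddSubgroup.relIndex_top_right, Subgroup.index_toAddSubgroup] at key
  exact key

/-- In a cyclic extension of local fields of degree `≠ 1` some element of `Kˣ` is not a norm. -/
theorem loc_exists_not_norm (σ : L ≃ₐ[K] L) (hσ : ∀ τ, τ ∈ Subgroup.zpowers σ)
    (hn : Module.finrank K L ≠ 1) : ∃ b : Kˣ, ∀ y : Lˣ, Algebra.norm K (y : L) ≠ b := by
  have h1 := loc_norm_index_cyclic σ hσ
  have h2 : (Units.map (Algebra.norm K : L →* K)).range ≠ ⊤ := by
    intro h
    rw [h, Subgroup.index_top] at h1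
    exact hn h1.symm
  obtain ⟨b, hb⟩ : ∃ b : Kˣ, b ∉ (Units.map (Algebra.norm K : L →* K)).range := by
    by_contra hcon
    apply h2
    rw [eq_top_iff]
    intro b _
    by_contra hb
    exact hcon ⟨b, hb⟩
  refine ⟨b, fun y hy => hb ⟨y, Units.ext hy⟩⟩

end Local

end Fermat.Agent.S55
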