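import Mathlib
import Fermat.Agent.S55.Herbrand
import Fermat.Agent.S55.LocBasic

/-!
# The index of `p`-th powers in a local field (block LOC of S55, input [L3])

For a local field `K` (`[NontriviallyNormedField K] [IsUltrametricDist K] [ProperSpace K]`) which
is a finite extension of `ℚ_q`, and a prime `p`:

* `lp_index_pow`: `[Kˣ : Kˣᵖ] = p ^ (1 + δ) * #μ_p(K)`, where `δ = [K : ℚ_q]` if `p = q` and
  `δ = 0` otherwise;
* `lp_card_quot_pow_le`: `#(Kˣ / Kˣᵖ) ≤ p ^ (2 + δ)`;  `lp_finite_quot_pow`: finiteness;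
* `lp_index_pow_intermediate`: the same for finite intermediate fields of `PadicAlgCl q / ℚ_q`.

Method (no exponential or logarithm): the Herbrand quotient of the pair (`p`-th power, trivial
map) is multiplicative (`lp_hq_of_ord`, on top of `hq_mul_exact`), equals `p` on `ℤ`, is `1` on
finite groups, and on the subgroup `U_r = {‖x - 1‖ ≤ r}` (`r < ‖p‖`) the `p`-th power map is a
bijection onto `U_{‖p‖ r}` (`lp_pow_eq_one`, `lp_pow_surj`: successive approximation), so that it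
equals `[U_r : U_{‖p‖ r}] = [B_r : p B_r]` (`lp_relIndex_U_eq`), which is `p ^ [K : ℚ_p]` by
comparison with a `ℤ_p`-lattice (`lp_relIndex_B_padic`).
-/

set_option autoImplicit false

namespace Fermat.Agent.S55

open Finset Filter Topology


/-- Herbrand quotient computation for a group of the shape `ℤ × (compact)`, in terms of the
Herbrand indices of a finite-index subgroup `V` of `ker π`. -/
theorem lp_hq_of_ord {A : Type*} [AddCommGroup A] (f g : A →+ A) (hfg : f.comp g = 0)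
    (hgf : g.comp f = 0) (π : A →+ ℤ) (hπ : Function.Surjective π) (n : ℕ) (hn : n ≠ 0)
    (hπf : ∀ x, π (f x) = 0) (hπg : ∀ x, π (g x) = n * π x) (V : AddSubgroup A)
    (hVB : V ≤ π.ker) (hVfin : V.relIndex π.ker ≠ 0) (fV gV : ↥V →+ ↥V)
    (hfV : ∀ x : ↥V, (fV x : A) = f x) (hgV : ∀ x : ↥V, (gV x : A) = g x)
    (hne : hq gV fV ≠ 0) :
    hq f g * hq gV fV = n * hq g f * hq fV gV := by
  set B : AddSubgroup A := π.ker with hB
  have hfB : ∀ x : ↥B, f x ∈ B := fun x => AddMonoidHom.mem_ker.mpr (hπf x)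
  have hgB : ∀ x : ↥B, g x ∈ B := fun x => by
    apply AddMonoidHom.mem_ker.mpr
    rw [hπg, AddMonoidHom.mem_ker.mp x.2, mul_zero]
  let f' : ↥B →+ ↥B := (f.comp B.subtype).codRestrict B hfB
  let g' : ↥B →+ ↥B := (g.comp B.subtype).codRestrict B hgB
  have hf'g' : f'.comp g' = 0 := by
    ext x
    exact DFunLike.congr_fun hfg (x : A)
  have hg'f' : g'.comp f' = 0 := by
    ext x
    exact DFunLike.congr_fun hgf (x : A)
  let f'' : ℤ →+ ℤ := 0
  let g'' : ℤ →+ ℤ := AddMonoidHom.mulLeft (n : ℤ)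
  have key := hq_mul_exact B.subtype π B.subtype_injective hπ (AddSubgroup.range_subtype B)
    f g f' g' f'' g'' hfg hgf (fun b => rfl) (fun b => rfl) (fun a => by simp [f'', hπf])
    (fun a => by simp [g'', hπg])
  have hZ1 : hq g'' f'' = 1 := by
    have hker : g''.ker = ⊥ := by
      rw [eq_bot_iff]
      intro x hx
      rw [AddMonoidHom.mem_ker] at hx
      have hx' : (n : ℤ) * x = 0 := hx
      rcases mul_eq_zero.mp hx' with h | h
      · exact absurd (by exact_mod_cast h) hn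
      · exact h
    have hrange : f''.range = ⊥ := by simp [f'']
    rw [hq, hrange, AddSubgroup.relIndex_bot_left, hker]
    simp
  have hZ2 : hq f'' g'' = n := by
    have hker : f''.ker = ⊤ := by simp [f'']
    have hrange : g''.range = AddSubgroup.zmultiples (n : ℤ) := by
      ext x
      simp [g'', AddSubgroup.mem_zmultiples_iff, AddMonoidHom.mem_range, mul_comm]
    rw [hq, hker, hrange, AddSubgroup.relIndex_top_right, Int.index_zmultiples]
    simp
  rw [hZ1, hZ2, mul_one] at key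
  -- second exact sequence: `V → B → B / V`
  let V' : AddSubgroup ↥B := V.addSubgroupOf B
  let ι : ↥V →+ ↥B := AddSubgroup.inclusion hVB
  have hι : Function.Injective ι := AddSubgroup.inclusion_injective hVB
  have hιrange : ι.range = V' := by
    ext x
    rw [AddSubgroup.mem_addSubgroupOf]
    constructor
    · rintro ⟨v, rfl⟩
      exact v.2
    · intro hx
      exact ⟨⟨x, hx⟩, rfl⟩
  have hV'f : V' ≤ V'.comap f' := by
    intro x hx
    rw [AddSubgroup.mem_comap, AddSubgroup.mem_addSubgroupOf]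
    have := (fV ⟨x, hx⟩).2
    rwa [hfV] at this
  have hV'g : V' ≤ V'.comap g' := by
    intro x hx
    rw [AddSubgroup.mem_comap, AddSubgroup.mem_addSubgroupOf]
    have := (gV ⟨x, hx⟩).2
    rwa [hgV] at this
  have hfin : Finite (↥B ⧸ V') := by
    have hi : V'.index ≠ 0 := hVfin
    have : V'.FiniteIndex := ⟨hi⟩
    exact AddSubgroup.finite_quotient_of_finiteIndex
  let fq : ↥B ⧸ V' →+ ↥B ⧸ V' := QuotientAddGroup.map V' V' f' hV'f
  let gq : ↥B ⧸ V' →+ ↥B ⧸ V' := QuotientAddGroup.map V' V' g' hV'g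
  have hfq : fq.comp gq = 0 := by
    ext z
    show (QuotientAddGroup.mk (f' (g' z)) : ↥B ⧸ V') = 0
    rw [show f' (g' z) = 0 from DFunLike.congr_fun hf'g' z]
    rfl
  have hgq : gq.comp fq = 0 := by
    ext z
    show (QuotientAddGroup.mk (g' (f' z)) : ↥B ⧸ V') = 0
    rw [show g' (f' z) = 0 from DFunLike.congr_fun hg'f' z]
    rfl
  have hQeq : hq fq gq = hq gq fq := hq_eq_of_finite fq gq hfq hgq
  have hQne : hq gq fq ≠ 0 := hq_ne_zero_of_finite gq fq
  have hex : ι.range = (QuotientAddGroup.mk' V').ker := by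
    rw [QuotientAddGroup.ker_mk', hιrange]
  have key2 := hq_mul_exact ι (QuotientAddGroup.mk' V') hι (QuotientAddGroup.mk'_surjective V')
    hex f' g' fV gV fq gq hf'g' hg'f' (fun b => Subtype.ext (hfV b)) (fun b => Subtype.ext (hgV b))
    (fun a => rfl) (fun a => rfl)
  rw [hQeq] at key2
  have key2' : hq f' g' * hq gV fV = hq g' f' * hq fV gV := by
    have : hq f' g' * hq gV fV * hq gq fq = hq g' f' * hq fV gV * hq gq fq := by
      rw [mul_assoc, key2, mul_assoc]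
    exact Nat.eq_of_mul_eq_mul_right (Nat.pos_of_ne_zero hQne) this
  have hB2 : hq g' f' ≠ 0 :=
    hq_ne_zero_of_exact ι (QuotientAddGroup.mk' V') hι (QuotientAddGroup.mk'_surjective V')
      hex g' f' gV fV gq fq hg'f' (fun b => Subtype.ext (hgV b)) (fun b => Subtype.ext (hfV b))
      (fun a => rfl) (fun a => rfl) hne hQne
  have key3 : hq f g * hq gV fV * hq g' f' = n * hq g f * hq fV gV * hq g' f' := by
    calc hq f g * hq gV fV * hq g' f' = (hq f g * hq g' f') * hq gV fV := by ring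
      _ = hq g f * (hq f' g' * n) * hq gV fV := by rw [key]
      _ = hq g f * n * (hq f' g' * hq gV fV) := by ring
      _ = hq g f * n * (hq g' f' * hq fV gV) := by rw [key2']
      _ = n * hq g f * hq fV gV * hq g' f' := by ring
  exact Nat.eq_of_mul_eq_mul_right (Nat.pos_of_ne_zero hB2) key3





section Approx

/-- Successive approximation with two filtrations: surjectivity of `P : F 0 → G 0`. -/
theorem lp_approx {V : Type*} [CommGroup V] (F G : ℕ → Subgroup V) (P : V →* V)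
    (hsep : ∀ x, (∀ k, x ∈ G k) → x = 1)
    (hcompl : ∀ y : ℕ → V, (∀ k, y k ∈ F k) → ∃ z, ∀ k, z / ∏ i ∈ Finset.range k, y i ∈ F k)
    (hP : ∀ k x, x ∈ F k → P x ∈ G k)
    (hgr : ∀ k, ∀ x ∈ G k, ∃ y ∈ F k, x / P y ∈ G (k + 1)) :
    ∀ x ∈ G 0, ∃ y ∈ F 0, P y = x := by
  intro x hx
  have step : ∀ k (x : V), ∃ y, x ∈ G k → (y ∈ F k ∧ x / P y ∈ G (k + 1)) := by
    intro k x
    by_cases h : x ∈ G k
    · obtain ⟨y, hy, hy'⟩ := hgr k x h
      exact ⟨y, fun _ => ⟨hy, hy'⟩⟩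
    · exact ⟨1, fun h' => absurd h' h⟩
  choose Y hY using step
  let X : ℕ → V := fun k => Nat.rec x (fun k xk => xk / P (Y k xk)) k
  have hX0 : X 0 = x := rfl
  have hXs : ∀ k, X (k + 1) = X k / P (Y k (X k)) := fun k => rfl
  have hXm : ∀ k, X k ∈ G k := by
    intro k
    induction k with
    | zero => exact hx
    | succ k ih => exact (hY k (X k) ih).2
  let y : ℕ → V := fun k => Y k (X k)
  have hy : ∀ k, y k ∈ F k := fun k => (hY k (X k) (hXm k)).1
  obtain ⟨z, hz⟩ := hcompl y hy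
  have hXP : ∀ k, X k = x / P (∏ i ∈ Finset.range k, y i) := by
    intro k
    induction k with
    | zero => simp [hX0]
    | succ k ih => rw [hXs, Finset.prod_range_succ, map_mul, ← div_div, ← ih]
  refine ⟨z, by simpa using hz 0, ?_⟩
  have h1 : x / P z = 1 := by
    apply hsep
    intro k
    have h2 : x / P z = X k / P (z / ∏ i ∈ Finset.range k, y i) := by
      rw [hXP k, map_div, div_div_div_cancel_right]
    rw [h2]
    exact (G k).div_mem (hXm k) (hP k _ (hz k))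
  exact (div_eq_one.mp h1).symm

end Approx

section Norm

variable {K : Type*} [NormedField K] [IsUltrametricDist K]

theorem lp_norm_sub_le (x y : K) : ‖x - y‖ ≤ max ‖x‖ ‖y‖ := by
  rw [sub_eq_add_neg, ← norm_neg y]
  exact IsUltrametricDist.norm_add_le_max _ _

theorem lp_norm_eq_one {s : ℝ} (hs : s < 1) {x : K} (hx : ‖x - 1‖ ≤ s) : ‖x‖ = 1 := by
  have h1 : ‖x - 1‖ ≠ ‖(1 : K)‖ := by
    rw [norm_one]
    exact ne_of_lt (hx.trans_lt hs)
  have h2 := IsUltrametricDist.norm_add_eq_max_of_norm_ne_norm h1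
  rw [sub_add_cancel, norm_one, max_eq_right ((hx.trans hs.le))] at h2
  exact h2

/-- `(1 + t)^n = 1 + n t + O(t²)` for `‖t‖ ≤ 1`. -/
theorem lp_pow_expand {t : K} (ht : ‖t‖ ≤ 1) (n : ℕ) :
    ‖(1 + t) ^ n - 1 - n * t‖ ≤ ‖t‖ ^ 2 := by
  have h1t : ‖1 + t‖ ≤ 1 := by
    refine (IsUltrametricDist.norm_add_le_max _ _).trans ?_
    rw [norm_one]
    exact max_le le_rfl ht
  induction n with
  | zero => simp
  | succ n ih =>
    have e : (1 + t) ^ (n + 1) - 1 - ((n + 1 : ℕ) : K) * t =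
        ((1 + t) ^ n - 1 - n * t) * (1 + t) + n * t ^ 2 := by
      push_cast
      ring
    rw [e]
    refine (IsUltrametricDist.norm_add_le_max _ _).trans (max_le ?_ ?_)
    · rw [norm_mul]
      calc ‖(1 + t) ^ n - 1 - n * t‖ * ‖1 + t‖ ≤ ‖t‖ ^ 2 * 1 :=
            mul_le_mul ih h1t (norm_nonneg _) (by positivity)
        _ = ‖t‖ ^ 2 := mul_one _
    · rw [norm_mul, norm_pow]
      calc ‖(n : K)‖ * ‖t‖ ^ 2 ≤ 1 * ‖t‖ ^ 2 :=
            mul_le_mul_of_nonneg_right (IsUltrametricDist.norm_natCast_le_one K n) (by positivity)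
        _ = ‖t‖ ^ 2 := one_mul _

/-- `‖(1 + t)^p - 1‖ = ‖p‖ ‖t‖` for `‖t‖ < ‖p‖`. -/
theorem lp_norm_pow_sub_one (p : ℕ) {t : K} (ht : ‖t‖ < ‖(p : K)‖) :
    ‖(1 + t) ^ p - 1‖ = ‖(p : K)‖ * ‖t‖ := by
  have hp1 : ‖(p : K)‖ ≤ 1 := IsUltrametricDist.norm_natCast_le_one K p
  have ht1 : ‖t‖ ≤ 1 := ht.le.trans hp1
  by_cases h0 : t = 0
  · simp [h0]
  have htpos : 0 < ‖t‖ := norm_pos_iff.mpr h0
  have hE := lp_pow_expand ht1 p
  have hlt : ‖(1 + t) ^ p - 1 - p * t‖ < ‖(p : K) * t‖ := by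
    rw [norm_mul]
    calc ‖(1 + t) ^ p - 1 - p * t‖ ≤ ‖t‖ ^ 2 := hE
      _ = ‖t‖ * ‖t‖ := sq _
      _ < ‖(p : K)‖ * ‖t‖ := mul_lt_mul_of_pos_right ht htpos
  have e : (1 + t) ^ p - 1 = ((1 + t) ^ p - 1 - p * t) + p * t := by ring
  rw [e, IsUltrametricDist.norm_add_eq_max_of_norm_ne_norm (ne_of_lt hlt), max_eq_right hlt.le,
    norm_mul]

variable (K) in
/-- The subgroup `U_s = {x : ‖x - 1‖ ≤ s}` of `Kˣ`, for `0 ≤ s < 1`. -/
def lp_U (s : ℝ) (hs0 : 0 ≤ s) (hs1 : s < 1) : Subgroup Kˣ where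
  carrier := {x | ‖(x : K) - 1‖ ≤ s}
  one_mem' := by simpa using hs0
  mul_mem' := by
    intro x y hx hy
    have hx' : ‖(x : K) - 1‖ ≤ s := hx
    have hy' : ‖(y : K) - 1‖ ≤ s := hy
    show ‖((x * y : Kˣ) : K) - 1‖ ≤ s
    have e : ((x * y : Kˣ) : K) - 1 = ((x : K) - 1) * (y : K) + ((y : K) - 1) := by
      rw [Units.val_mul]; ring
    rw [e]
    refine (IsUltrametricDist.norm_add_le_max _ _).trans (max_le ?_ hy')
    rw [norm_mul, lp_norm_eq_one hs1 hy', mul_one]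
    exact hx'
  inv_mem' := by
    intro x hx
    have hx' : ‖(x : K) - 1‖ ≤ s := hx
    show ‖((x⁻¹ : Kˣ) : K) - 1‖ ≤ s
    have hxne : (x : K) ≠ 0 := x.ne_zero
    have e : ((x⁻¹ : Kˣ) : K) - 1 = -((x : K) - 1) * (x : K)⁻¹ := by
      rw [Units.val_inv_eq_inv_val]; field_simp; ring
    rw [e, norm_mul, norm_neg, norm_inv, lp_norm_eq_one hs1 hx', inv_one, mul_one]
    exact hx'

theorem lp_mem_U {s : ℝ} (hs0 : 0 ≤ s) (hs1 : s < 1) (x : Kˣ) :
    x ∈ lp_U K s hs0 hs1 ↔ ‖(x : K) - 1‖ ≤ s := Iff.rfl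

theorem lp_norm_of_mem_U {s : ℝ} {hs0 : 0 ≤ s} {hs1 : s < 1} {x : Kˣ}
    (hx : x ∈ lp_U K s hs0 hs1) : ‖(x : K)‖ = 1 := lp_norm_eq_one hs1 hx

theorem lp_U_mono {s s' : ℝ} (hs0 : 0 ≤ s) (hs1 : s < 1) (hs0' : 0 ≤ s') (hs1' : s' < 1)
    (h : s ≤ s') : lp_U K s hs0 hs1 ≤ lp_U K s' hs0' hs1' := fun _ hx => le_trans hx h

theorem lp_div_mem_U_iff {s : ℝ} (hs0 : 0 ≤ s) (hs1 : s < 1) (x y : Kˣ) (hy : ‖(y : K)‖ = 1) :
    x / y ∈ lp_U K s hs0 hs1 ↔ ‖(x : K) - y‖ ≤ s := by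
  rw [lp_mem_U]
  have hyne : (y : K) ≠ 0 := y.ne_zero
  have e : ((x / y : Kˣ) : K) - 1 = ((x : K) - y) * (y : K)⁻¹ := by
    rw [Units.val_div_eq_div_val]; field_simp
  rw [e, norm_mul, norm_inv, hy, inv_one, mul_one]

end Norm
section Complete

variable {K : Type*} [NormedField K] [IsUltrametricDist K] [CompleteSpace K]

/-- Completeness of the filtration `U_{s k}` for radii decreasing to `0`. -/
theorem lp_U_complete (s : ℕ → ℝ) (hs0 : ∀ k, 0 ≤ s k) (hs1 : ∀ k, s k < 1) (hanti : Antitone s)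
    (hlim : Tendsto s atTop (𝓝 0)) (y : ℕ → Kˣ) (hy : ∀ k, y k ∈ lp_U K (s k) (hs0 k) (hs1 k)) :
    ∃ z : Kˣ, ∀ k, z / ∏ i ∈ Finset.range k, y i ∈ lp_U K (s k) (hs0 k) (hs1 k) := by
  let Q : ℕ → Kˣ := fun k => ∏ i ∈ Finset.range k, y i
  have hQs : ∀ k, Q (k + 1) = Q k * y k := fun k => Finset.prod_range_succ _ _
  have hQ1 : ∀ k, ‖(Q k : K)‖ = 1 := by
    intro k
    induction k with
    | zero => simp [Q]
    | succ k ih => rw [hQs, Units.val_mul, norm_mul, ih, lp_norm_of_mem_U (hy k), mul_one]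
  have hdiff : ∀ k m, k ≤ m → ‖(Q m : K) - Q k‖ ≤ s k := by
    intro k m hkm
    induction m, hkm using Nat.le_induction with
    | base => simpa using hs0 k
    | succ m hkm ih =>
      have e : (Q (m + 1) : K) - Q k = ((Q m : K) - Q k) + (Q m : K) * ((y m : K) - 1) := by
        rw [hQs, Units.val_mul]; ring
      rw [e]
      refine (IsUltrametricDist.norm_add_le_max _ _).trans (max_le ih ?_)
      rw [norm_mul, hQ1, one_mul]
      exact le_trans (hy m) (hanti hkm)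
  have hcau : CauchySeq (fun k => (Q k : K)) := by
    rw [Metric.cauchySeq_iff']
    intro ε hε
    obtain ⟨N, hN⟩ := (hlim.eventually (gt_mem_nhds hε)).exists
    refine ⟨N, fun n hn => ?_⟩
    rw [dist_eq_norm]
    exact (hdiff N n hn).trans_lt hN
  obtain ⟨z₀, hz₀⟩ := cauchySeq_tendsto_of_complete hcau
  have hz₀k : ∀ k, ‖z₀ - Q k‖ ≤ s k := by
    intro k
    have hT : Tendsto (fun m => ‖(Q m : K) - Q k‖) atTop (𝓝 ‖z₀ - Q k‖) :=
      ((hz₀.sub tendsto_const_nhds).norm)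
    exact le_of_tendsto hT (eventually_atTop.mpr ⟨k, fun m hm => hdiff k m hm⟩)
  have hz₀1 : ‖z₀‖ = 1 := by
    have h := hz₀k 0
    simp only [Q, Finset.range_zero, Finset.prod_empty, Units.val_one] at h
    exact lp_norm_eq_one (hs1 0) h
  have hz₀ne : z₀ ≠ 0 := by
    intro h
    rw [h, norm_zero] at hz₀1
    exact zero_ne_one hz₀1
  refine ⟨Units.mk0 z₀ hz₀ne, fun k => ?_⟩
  rw [lp_div_mem_U_iff (hs0 k) (hs1 k) _ _ (hQ1 k)]
  exact hz₀k k

end Complete

section PowMap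

variable {K : Type*} [NormedField K] [IsUltrametricDist K]

/-- The `p`-th power map sends `U_s` into `U_{‖p‖ s}` (exactly scaling distances to `1`). -/
theorem lp_norm_pow_sub_one_of_mem (p : ℕ) {s : ℝ} {hs0 : 0 ≤ s} {hs1 : s < 1}
    (hsp : s < ‖(p : K)‖) {x : Kˣ} (hx : x ∈ lp_U K s hs0 hs1) :
    ‖((x ^ p : Kˣ) : K) - 1‖ = ‖(p : K)‖ * ‖(x : K) - 1‖ := by
  have hx' : ‖(x : K) - 1‖ ≤ s := hx
  have h := lp_norm_pow_sub_one p (t := (x : K) - 1) (hx'.trans_lt hsp)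
  rw [add_sub_cancel] at h
  rw [Units.val_pow_eq_pow_val]
  exact h

theorem lp_pow_eq_one (p : ℕ) {s : ℝ} {hs0 : 0 ≤ s} {hs1 : s < 1}
    (hsp : s < ‖(p : K)‖) {x : Kˣ} (hx : x ∈ lp_U K s hs0 hs1) (hxp : x ^ p = 1) : x = 1 := by
  have h := lp_norm_pow_sub_one_of_mem p hsp hx
  rw [hxp, Units.val_one, sub_self, norm_zero] at h
  have hp : 0 < ‖(p : K)‖ := hs0.trans_lt hsp
  have h0 : ‖(x : K) - 1‖ = 0 := by
    rcases mul_eq_zero.mp h.symm with h' | h'
    · exact absurd h' hp.ne'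
    · exact h'
  exact Units.ext (sub_eq_zero.mp (norm_eq_zero.mp h0))

variable [CompleteSpace K]

/-- The `p`-th power map `U_r → U_{‖p‖ r}` is surjective for `r < ‖p‖`. -/
theorem lp_pow_surj (p : ℕ) {r : ℝ} (hr0 : 0 ≤ r) (hr1 : r < 1) (hrp : r < ‖(p : K)‖)
    (hcr0 : 0 ≤ ‖(p : K)‖ * r) (hcr1 : ‖(p : K)‖ * r < 1) (x : Kˣ)
    (hx : x ∈ lp_U K (‖(p : K)‖ * r) hcr0 hcr1) : ∃ y ∈ lp_U K r hr0 hr1, y ^ p = x := by
  set c : ℝ := ‖(p : K)‖ with hc
  have hc0 : 0 < c := hr0.trans_lt hrp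
  have hc1 : c ≤ 1 := IsUltrametricDist.norm_natCast_le_one K p
  have hpne : (p : K) ≠ 0 := norm_pos_iff.mp hc0
  set ρ : ℝ := r / c with hρ
  have hρ0 : 0 ≤ ρ := div_nonneg hr0 hc0.le
  have hρ1 : ρ < 1 := (div_lt_one hc0).mpr hrp
  have hρk : ∀ k : ℕ, ρ ^ k ≤ 1 := fun k => pow_le_one₀ hρ0 hρ1.le
  have hρk0 : ∀ k : ℕ, 0 ≤ ρ ^ k := fun k => pow_nonneg hρ0 k
  have hF0 : ∀ k : ℕ, 0 ≤ r * ρ ^ k := fun k => mul_nonneg hr0 (hρk0 k)
  have hFr : ∀ k : ℕ, r * ρ ^ k ≤ r := fun k => mul_le_of_le_one_right hr0 (hρk k)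
  have hF1 : ∀ k : ℕ, r * ρ ^ k < 1 := fun k => (hFr k).trans_lt hr1
  have hG0 : ∀ k : ℕ, 0 ≤ c * (r * ρ ^ k) := fun k => mul_nonneg hc0.le (hF0 k)
  have hG1 : ∀ k : ℕ, c * (r * ρ ^ k) < 1 := fun k =>
    (mul_le_of_le_one_left (hF0 k) hc1).trans_lt (hF1 k)
  let F : ℕ → Subgroup Kˣ := fun k => lp_U K (r * ρ ^ k) (hF0 k) (hF1 k)
  let G : ℕ → Subgroup Kˣ := fun k => lp_U K (c * (r * ρ ^ k)) (hG0 k) (hG1 k)
  have hlimF : Tendsto (fun k : ℕ => r * ρ ^ k) atTop (𝓝 0) := by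
    have := (tendsto_pow_atTop_nhds_zero_of_lt_one hρ0 hρ1).const_mul r
    simpa using this
  have hlimG : Tendsto (fun k : ℕ => c * (r * ρ ^ k)) atTop (𝓝 0) := by
    have := hlimF.const_mul c
    simpa using this
  have key := lp_approx F G (powMonoidHom p) ?_ ?_ ?_ ?_ x ?_
  · obtain ⟨y, hy, hyx⟩ := key
    refine ⟨y, ?_, hyx⟩
    have : y ∈ lp_U K (r * ρ ^ 0) (hF0 0) (hF1 0) := hy
    rw [lp_mem_U] at this ⊢
    simpa using this
  · -- separation
    intro z hz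
    have h0 : ‖(z : K) - 1‖ ≤ 0 :=
      ge_of_tendsto' hlimG (fun k => hz k)
    exact Units.ext (sub_eq_zero.mp (norm_le_zero_iff.mp h0))
  · -- completeness
    intro y hy
    refine lp_U_complete (fun k => r * ρ ^ k) hF0 hF1 ?_ hlimF y hy
    intro a b hab
    exact mul_le_mul_of_nonneg_left (pow_le_pow_of_le_one hρ0 hρ1.le hab) hr0
  · -- `P (F k) ⊆ G k`
    intro k z hz
    have hz' : ‖(z : K) - 1‖ ≤ r * ρ ^ k := hz
    show ‖((z ^ p : Kˣ) : K) - 1‖ ≤ c * (r * ρ ^ k)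
    rw [lp_norm_pow_sub_one_of_mem p ((hFr k).trans_lt hrp) hz]
    exact mul_le_mul_of_nonneg_left hz' hc0.le
  · -- graded surjectivity
    intro k z hz
    have hz' : ‖(z : K) - 1‖ ≤ c * (r * ρ ^ k) := hz
    set u : K := (z : K) - 1 with hu
    set t : K := u / p with ht
    have htn : ‖t‖ ≤ r * ρ ^ k := by
      rw [ht, norm_div, div_le_iff₀ hc0, mul_comm]
      exact hz'
    have ht1 : ‖t‖ ≤ 1 := htn.trans (hF1 k).le
    have hy1 : ‖(1 + t) - 1‖ ≤ r * ρ ^ k := by rwa [add_sub_cancel_left]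
    have hyn : ‖1 + t‖ = 1 := lp_norm_eq_one (hF1 k) hy1
    have hyne : 1 + t ≠ 0 := by
      intro h
      rw [h, norm_zero] at hyn
      exact zero_ne_one hyn
    refine ⟨Units.mk0 (1 + t) hyne, hy1, ?_⟩
    have hYn : ‖(((powMonoidHom p) (Units.mk0 (1 + t) hyne) : Kˣ) : K)‖ = 1 := by
      rw [powMonoidHom_apply, Units.val_pow_eq_pow_val, Units.val_mk0, norm_pow, hyn, one_pow]
    show z / (powMonoidHom p) (Units.mk0 (1 + t) hyne) ∈
      lp_U K (c * (r * ρ ^ (k + 1))) (hG0 (k + 1)) (hG1 (k + 1))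
    rw [lp_div_mem_U_iff _ _ _ _ hYn, powMonoidHom_apply, Units.val_pow_eq_pow_val, Units.val_mk0]
    have hE := lp_pow_expand ht1 p
    have e : (z : K) - (1 + t) ^ p = -((1 + t) ^ p - 1 - p * t) := by
      have : (p : K) * t = u := by rw [ht]; field_simp
      rw [this, hu]; ring
    rw [e, norm_neg]
    refine hE.trans ?_
    have h2 : ‖t‖ ^ 2 ≤ (r * ρ ^ k) ^ 2 := pow_le_pow_left₀ (norm_nonneg _) htn 2
    refine h2.trans ?_
    have h3 : c * (r * ρ ^ (k + 1)) = r * r * ρ ^ k := by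
      rw [pow_succ, hρ]; field_simp
    rw [h3]
    have h4 : (r * ρ ^ k) ^ 2 = r * r * ρ ^ k * ρ ^ k := by ring
    rw [h4]
    exact mul_le_of_le_one_right (mul_nonneg (mul_nonneg hr0 hr0) (hρk0 k)) (hρk k)
  · -- `x ∈ G 0`
    show ‖(x : K) - 1‖ ≤ c * (r * ρ ^ 0)
    have : ‖(x : K) - 1‖ ≤ c * r := hx
    simpa using this

end PowMap

section Balls

variable {K : Type*} [NormedField K] [IsUltrametricDist K]

variable (K) in
/-- The closed ball of radius `s` as an additive subgroup. -/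
def lp_B (s : ℝ) (hs0 : 0 ≤ s) : AddSubgroup K where
  carrier := {x | ‖x‖ ≤ s}
  zero_mem' := by simpa using hs0
  add_mem' := fun {x y} hx hy => (IsUltrametricDist.norm_add_le_max x y).trans (max_le hx hy)
  neg_mem' := fun {x} hx => by
    show ‖-x‖ ≤ s
    rw [norm_neg]; exact hx

theorem lp_mem_B {s : ℝ} (hs0 : 0 ≤ s) (x : K) : x ∈ lp_B K s hs0 ↔ ‖x‖ ≤ s := Iff.rfl

/-- The coset spaces `U_r / U_s` and `B_r / B_s` have the same cardinality. -/
theorem lp_relIndex_U_eq {s r : ℝ} (hs0 : 0 ≤ s) (hr0 : 0 ≤ r) (hr1 : r < 1) (hs1 : s < 1) :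
    (lp_U K s hs0 hs1).relIndex (lp_U K r hr0 hr1) = (lp_B K s hs0).relIndex (lp_B K r hr0) := by
  have hne : ∀ t : ↥(lp_B K r hr0), (1 + (t : K)) ≠ 0 := by
    intro t h
    have h1 : ‖(1 + (t : K)) - 1‖ ≤ r := by rw [add_sub_cancel_left]; exact t.2
    have h2 := lp_norm_eq_one hr1 h1
    rw [h, norm_zero] at h2
    exact zero_ne_one h2
  let e : ↥(lp_U K r hr0 hr1) ≃ ↥(lp_B K r hr0) :=
    { toFun := fun x => ⟨((x : Kˣ) : K) - 1, x.2⟩
      invFun := fun t => ⟨Units.mk0 (1 + (t : K)) (hne t), by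
        rw [lp_mem_U, Units.val_mk0, add_sub_cancel_left]; exact t.2⟩
      left_inv := fun x => by
        apply Subtype.ext
        apply Units.ext
        simp
      right_inv := fun t => by
        apply Subtype.ext
        simp }
  unfold Subgroup.relIndex AddSubgroup.relIndex Subgroup.index AddSubgroup.index
  refine Nat.card_congr (Quotient.congr e ?_)
  intro x y
  rw [QuotientGroup.leftRel_apply, QuotientAddGroup.leftRel_apply, Subgroup.mem_subgroupOf,
    AddSubgroup.mem_addSubgroupOf]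
  have h1 : (((x⁻¹ * y : ↥(lp_U K r hr0 hr1)) : Kˣ)) = (y : Kˣ) / (x : Kˣ) := by
    rw [Subgroup.coe_mul, Subgroup.coe_inv, inv_mul_eq_div]
  rw [h1, lp_div_mem_U_iff hs0 hs1 _ _ (lp_norm_of_mem_U x.2), lp_mem_B]
  have h2 : ((-(e x) + e y : ↥(lp_B K r hr0)) : K) = ((y : Kˣ) : K) - ((x : Kˣ) : K) := by
    show -((((x : Kˣ) : K)) - 1) + ((((y : Kˣ) : K)) - 1) = _
    ring
  rw [h2]

/-- `B_{‖a‖ s} = a · B_s`. -/
theorem lp_B_map (a : K) (ha : a ≠ 0) {s : ℝ} (hs0 : 0 ≤ s) (h0 : 0 ≤ ‖a‖ * s) :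
    (lp_B K s hs0).map (AddMonoidHom.mulLeft a) = lp_B K (‖a‖ * s) h0 := by
  ext x
  rw [AddSubgroup.mem_map, lp_mem_B]
  have han : 0 < ‖a‖ := norm_pos_iff.mpr ha
  constructor
  · rintro ⟨t, ht, rfl⟩
    rw [AddMonoidHom.coe_mulLeft, norm_mul]
    exact mul_le_mul_of_nonneg_left ht han.le
  · intro hx
    refine ⟨a⁻¹ * x, ?_, ?_⟩
    · rw [lp_mem_B, norm_mul, norm_inv, inv_mul_le_iff₀ han]
      exact hx
    · rw [AddMonoidHom.coe_mulLeft, mul_inv_cancel_left₀ ha]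

end Balls

section Commensurable

/-- For an injective endomorphism `φ` and commensurable `M ≤ N`, `[M : φ M] = [N : φ N]`. -/
theorem lp_relIndex_map_eq {L : Type*} [AddCommGroup L] (φ : L →+ L) (hφ : Function.Injective φ)
    (M N : AddSubgroup L) (hMN : M ≤ N) (hfin : M.relIndex N ≠ 0) (hφM : M.map φ ≤ M)
    (hφN : N.map φ ≤ N) : (M.map φ).relIndex M = (N.map φ).relIndex N := by
  have h1 := AddSubgroup.relIndex_mul_relIndex (M.map φ) M N hφM hMN
  have h2 := AddSubgroup.relIndex_mul_relIndex (M.map φ) (N.map φ) N (AddSubgroup.map_mono hMN) hφN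
  have h3 : (M.map φ).relIndex (N.map φ) = M.relIndex N :=
    AddSubgroup.relIndex_map_map_of_injective M N hφ
  rw [h3] at h2
  have : (M.map φ).relIndex M * M.relIndex N = (N.map φ).relIndex N * M.relIndex N := by
    rw [h1, ← h2, mul_comm]
  exact Nat.eq_of_mul_eq_mul_right (Nat.pos_of_ne_zero hfin) this

end Commensurable

section Proper

variable {K : Type*} [NormedField K] [IsUltrametricDist K] [ProperSpace K]

/-- In a locally compact ultrametric field, balls are commensurable. -/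
theorem lp_relIndex_B_ne_zero {r R : ℝ} (hr : 0 < r) (hR : 0 ≤ R) :
    (lp_B K r hr.le).relIndex (lp_B K R hR) ≠ 0 := by
  have hcomp : IsCompact ((lp_B K R hR : AddSubgroup K) : Set K) := by
    have : ((lp_B K R hR : AddSubgroup K) : Set K) = Metric.closedBall 0 R := by
      ext x
      simp [lp_mem_B]
    rw [this]
    exact isCompact_closedBall 0 R
  have : CompactSpace ↥(lp_B K R hR) := isCompact_iff_compactSpace.mp hcomp
  have hopen : IsOpen (((lp_B K r hr.le).addSubgroupOf (lp_B K R hR) :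
      AddSubgroup ↥(lp_B K R hR)) : Set ↥(lp_B K R hR)) := by
    have h1 : IsOpen (Metric.closedBall (0 : K) r) :=
      IsUltrametricDist.isOpen_closedBall 0 hr.ne'
    have h2 : (((lp_B K r hr.le).addSubgroupOf (lp_B K R hR) :
        AddSubgroup ↥(lp_B K R hR)) : Set ↥(lp_B K R hR)) =
        Subtype.val ⁻¹' (Metric.closedBall (0 : K) r) := by
      ext x
      simp [AddSubgroup.mem_addSubgroupOf, lp_mem_B]
    rw [h2]
    exact h1.preimage continuous_subtype_val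
  have hfin : Finite (↥(lp_B K R hR) ⧸ (lp_B K r hr.le).addSubgroupOf (lp_B K R hR)) :=
    AddSubgroup.quotient_finite_of_isOpen _ hopen
  exact AddSubgroup.index_ne_zero_of_finite

end Proper
section Lattice

variable (p : ℕ) [Fact p.Prime]

/-- `[ℤ_p^n : p ℤ_p^n] = p^n`. -/
theorem lp_index_padic (n : ℕ) :
    (nsmulAddMonoidHom (α := Fin n → ℤ_[p]) p).range.index = p ^ n := by
  let red : (Fin n → ℤ_[p]) →+ (Fin n → ZMod p) :=
    (PadicInt.toZMod (p := p)).toAddMonoidHom.compLeft (Fin n)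
  have hred : Function.Surjective red := by
    intro w
    choose v hv using fun i => ZMod.ringHom_surjective (PadicInt.toZMod (p := p)) (w i)
    exact ⟨v, funext hv⟩
  have hker : red.ker = (nsmulAddMonoidHom (α := Fin n → ℤ_[p]) p).range := by
    ext v
    rw [AddMonoidHom.mem_ker, AddMonoidHom.mem_range]
    constructor
    · intro h
      have h' : ∀ i, ∃ w : ℤ_[p], v i = p * w := by
        intro i
        have hi : PadicInt.toZMod (v i) = 0 := congrFun h i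
        have hmem : v i ∈ RingHom.ker (PadicInt.toZMod (p := p)) := hi
        rw [PadicInt.ker_toZMod, PadicInt.maximalIdeal_eq_span_p, Ideal.mem_span_singleton] at hmem
        obtain ⟨w, hw⟩ := hmem
        exact ⟨w, hw⟩
      choose w hw using h'
      refine ⟨w, funext fun i => ?_⟩
      rw [nsmulAddMonoidHom_apply, Pi.smul_apply, nsmul_eq_mul, hw i]
    · rintro ⟨w, rfl⟩
      funext i
      show PadicInt.toZMod ((p • w) i) = 0
      rw [Pi.smul_apply, nsmul_eq_mul, map_mul, map_natCast, ZMod.natCast_self, zero_mul]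
  rw [← hker, AddSubgroup.index_ker, AddMonoidHom.range_eq_top.mpr hred]
  have : Nat.card ↥(⊤ : AddSubgroup (Fin n → ZMod p)) = Nat.card (Fin n → ZMod p) :=
    Nat.card_congr (Equiv.Set.univ _)
  rw [this, Nat.card_fun, Nat.card_zmod, Nat.card_fin]

variable {K : Type*} [NormedField K] [IsUltrametricDist K] [ProperSpace K]
  [NormedAlgebra ℚ_[p] K] [FiniteDimensional ℚ_[p] K]

omit [IsUltrametricDist K] [ProperSpace K] [FiniteDimensional ℚ_[p] K] in
theorem lp_norm_natCast_self : ‖(p : K)‖ = (p : ℝ)⁻¹ := by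
  have h : (p : K) = algebraMap ℚ_[p] K (p : ℚ_[p]) := by simp
  rw [h, norm_algebraMap', Padic.norm_p]

/-- `[B_r : p B_r] = p^[K:ℚ_p]` for a finite extension `K` of `ℚ_p`. -/
theorem lp_relIndex_B_padic {r : ℝ} (hr : 0 < r) (h0 : 0 ≤ ‖(p : K)‖ * r) :
    (lp_B K (‖(p : K)‖ * r) h0).relIndex (lp_B K r hr.le) = p ^ Module.finrank ℚ_[p] K := by
  have hp1 : (1 : ℝ) < p := by exact_mod_cast (Fact.out : p.Prime).one_lt
  have hpK : ‖(p : K)‖ = (p : ℝ)⁻¹ := lp_norm_natCast_self p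
  have hpne : (p : K) ≠ 0 := by
    rw [← norm_pos_iff, hpK]
    positivity
  have hpK1 : ‖(p : K)‖ ≤ 1 := IsUltrametricDist.norm_natCast_le_one K p
  let b := Module.finBasis ℚ_[p] K
  obtain ⟨C, hC0, hC⟩ : ∃ C : ℝ, 0 ≤ C ∧ ∀ x : K, ∀ i, ‖b.equivFun x i‖ ≤ C * ‖x‖ := by
    let L := LinearMap.toContinuousLinearMap
      (b.equivFun : K →ₗ[ℚ_[p]] (Fin (Module.finrank ℚ_[p] K) → ℚ_[p]))
    exact ⟨‖L‖, norm_nonneg _, fun x i => (norm_le_pi_norm _ i).trans (L.le_opNorm x)⟩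
  obtain ⟨m, hm⟩ := pow_unbounded_of_one_lt (C * r) hp1
  set a : ℚ_[p] := ((p : ℚ_[p])⁻¹) ^ m with ha
  have han : ‖a‖ = (p : ℝ) ^ m := by rw [ha, norm_pow, norm_inv, Padic.norm_p, inv_inv]
  have han0 : 0 < ‖a‖ := by rw [han]; positivity
  have ha0 : a ≠ 0 := norm_pos_iff.mp han0
  let ψ : (Fin (Module.finrank ℚ_[p] K) → ℤ_[p]) →+ K :=
    { toFun := fun v => b.equivFun.symm (fun i => a * (v i : ℚ_[p]))
      map_zero' := by
        have : (fun i : Fin (Module.finrank ℚ_[p] K) =>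
            a * (((0 : Fin (Module.finrank ℚ_[p] K) → ℤ_[p]) i : ℤ_[p]) : ℚ_[p])) = 0 := by
          funext i; simp
        rw [this, map_zero]
      map_add' := by
        intro v w
        rw [← map_add]
        congr 1
        funext i
        simp [mul_add] }
  have hψ_apply : ∀ v, ψ v = b.equivFun.symm (fun i => a * (v i : ℚ_[p])) := fun v => rfl
  have hψinj : Function.Injective ψ := by
    intro v w h
    rw [hψ_apply, hψ_apply] at h
    have h2 := b.equivFun.symm.injective h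
    funext i
    have h3 := congrFun h2 i
    exact Subtype.ext (mul_left_cancel₀ ha0 h3)
  set Λ : AddSubgroup K := ψ.range with hΛ
  -- `B_r ≤ Λ`
  have hBΛ : lp_B K r hr.le ≤ Λ := by
    intro x hx
    have hx' : ‖x‖ ≤ r := hx
    have hc : ∀ i, ‖a⁻¹ * b.equivFun x i‖ ≤ 1 := by
      intro i
      rw [norm_mul, norm_inv, inv_mul_le_iff₀ han0, mul_one, han]
      calc ‖b.equivFun x i‖ ≤ C * ‖x‖ := hC x i
        _ ≤ C * r := mul_le_mul_of_nonneg_left hx' hC0
        _ ≤ (p : ℝ) ^ m := hm.le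
    let v : Fin (Module.finrank ℚ_[p] K) → ℤ_[p] := fun i => ⟨a⁻¹ * b.equivFun x i, hc i⟩
    refine ⟨v, ?_⟩
    rw [hψ_apply]
    have : (fun i => a * ((v i : ℤ_[p]) : ℚ_[p])) = b.equivFun x := by
      funext i
      show a * (a⁻¹ * b.equivFun x i) = _
      rw [mul_inv_cancel_left₀ ha0]
    rw [this, LinearEquiv.symm_apply_apply]
  -- `Λ ≤ B_R`
  set R : ℝ := ‖a‖ * ∑ i, ‖b i‖ with hR
  have hR0 : 0 ≤ R := mul_nonneg han0.le (Finset.sum_nonneg fun i _ => norm_nonneg _)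
  have hΛB : Λ ≤ lp_B K R hR0 := by
    rintro _ ⟨v, rfl⟩
    rw [lp_mem_B, hψ_apply, Module.Basis.equivFun_symm_apply, hR, Finset.mul_sum]
    refine (norm_sum_le _ _).trans (Finset.sum_le_sum fun i _ => ?_)
    rw [norm_smul, norm_mul]
    have h1 : ‖((v i : ℤ_[p]) : ℚ_[p])‖ ≤ 1 := (v i).2
    calc ‖a‖ * ‖((v i : ℤ_[p]) : ℚ_[p])‖ * ‖b i‖ ≤ ‖a‖ * 1 * ‖b i‖ := by gcongr
      _ = ‖a‖ * ‖b i‖ := by rw [mul_one]
  have hfin : (lp_B K r hr.le).relIndex Λ ≠ 0 := by
    have h1 := AddSubgroup.relIndex_mul_relIndex (lp_B K r hr.le) Λ (lp_B K R hR0) hBΛ hΛB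
    have h2 := lp_relIndex_B_ne_zero (K := K) hr hR0
    rw [← h1] at h2
    exact left_ne_zero_of_mul h2
  set φ : K →+ K := AddMonoidHom.mulLeft (p : K) with hφ
  have hφinj : Function.Injective φ := fun x y h => mul_left_cancel₀ hpne h
  have hφψ : ∀ v, φ (ψ v) = ψ (p • v) := by
    intro v
    rw [map_nsmul, hφ, AddMonoidHom.coe_mulLeft, nsmul_eq_mul]
  have hBmap : (lp_B K r hr.le).map φ = lp_B K (‖(p : K)‖ * r) h0 := lp_B_map (p : K) hpne hr.le h0
  have hφM : (lp_B K r hr.le).map φ ≤ lp_B K r hr.le := by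
    rw [hBmap]
    intro x hx
    have hx' : ‖x‖ ≤ ‖(p : K)‖ * r := hx
    exact hx'.trans (mul_le_of_le_one_left hr.le hpK1)
  have hφN : Λ.map φ ≤ Λ := by
    rintro _ ⟨_, ⟨v, rfl⟩, rfl⟩
    exact ⟨p • v, (hφψ v).symm⟩
  have key := lp_relIndex_map_eq φ hφinj (lp_B K r hr.le) Λ hBΛ hfin hφM hφN
  rw [hBmap] at key
  rw [key]
  have hΛmap : Λ.map φ =
      (nsmulAddMonoidHom (α := Fin (Module.finrank ℚ_[p] K) → ℤ_[p]) p).range.map ψ := by
    ext x
    constructor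
    · rintro ⟨_, ⟨v, rfl⟩, rfl⟩
      exact ⟨p • v, ⟨v, rfl⟩, (hφψ v).symm⟩
    · rintro ⟨_, ⟨v, rfl⟩, rfl⟩
      exact ⟨ψ v, ⟨v, rfl⟩, hφψ v⟩
  rw [hΛmap, hΛ, AddMonoidHom.range_eq_map ψ, AddSubgroup.relIndex_map_map_of_injective _ _ hψinj,
    AddSubgroup.relIndex_top_right, lp_index_padic]

end Lattice





section Main

variable {K : Type*} [NontriviallyNormedField K] [IsUltrametricDist K] [ProperSpace K]

/-- **The index of `p`-th powers** in the multiplicative group of a local field, in terms of the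
index `[B_r : p B_r]` of additive balls. -/
theorem lp_index_pow_general (p : ℕ) {r : ℝ} (hr0 : 0 < r) (hr1 : r < 1) (hrp : r < ‖(p : K)‖)
    (h0 : 0 ≤ ‖(p : K)‖ * r) :
    (powMonoidHom p : Kˣ →* Kˣ).range.index =
      p * Nat.card (rootsOfUnity p K) *
        (lp_B K (‖(p : K)‖ * r) h0).relIndex (lp_B K r hr0.le) := by
  have hc0 : 0 < ‖(p : K)‖ := hr0.trans hrp
  have hc1 : ‖(p : K)‖ ≤ 1 := IsUltrametricDist.norm_natCast_le_one K p
  have hpK : (p : K) ≠ 0 := norm_pos_iff.mp hc0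
  have hp : p ≠ 0 := by
    rintro rfl
    exact hpK Nat.cast_zero
  have hcr1 : ‖(p : K)‖ * r < 1 := (mul_le_of_le_one_left hr0.le hc1).trans_lt hr1
  obtain ⟨ϖ, hϖ⟩ := loc_exists_unif K
  let P : Additive Kˣ →+ Additive Kˣ := MonoidHom.toAdditive (powMonoidHom p : Kˣ →* Kˣ)
  have hP : ∀ x : Additive Kˣ, P x = p • x := fun x => rfl
  have hPmul : ∀ x : Additive Kˣ, Additive.toMul (P x) = (Additive.toMul x) ^ p := fun x => rfl
  let U : Subgroup Kˣ := lp_U K r hr0.le hr1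
  let V : AddSubgroup (Additive Kˣ) := Subgroup.toAddSubgroup U
  have hmemV : ∀ x : Additive Kˣ, x ∈ V ↔ Additive.toMul x ∈ U := fun x => Iff.rfl
  let gV : ↥V →+ ↥V := (P.comp V.subtype).codRestrict V (fun x => by
    rw [hmemV]
    exact U.pow_mem ((hmemV _).mp x.2) p)
  have hgV : ∀ x : ↥V, ((gV x : ↥V) : Additive Kˣ) = P x := fun x => rfl
  have hVB : V ≤ (loc_ord hϖ).ker := by
    intro x hx
    rw [AddMonoidHom.mem_ker, loc_ord_eq_zero_iff]
    exact lp_norm_of_mem_U ((hmemV x).mp hx)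
  have hVfin : V.relIndex (loc_ord hϖ).ker ≠ 0 := by
    refine loc_relIndex_ne_zero _ _ (fun x hx => ?_) hr0 (fun x hx => ?_)
    · exact (loc_ord_eq_zero_iff hϖ x).mp (AddMonoidHom.mem_ker.mp hx)
    · rw [hmemV]
      exact hx.le
  have hkerV : gV.ker = ⊥ := by
    rw [eq_bot_iff]
    intro x hx
    rw [AddMonoidHom.mem_ker] at hx
    have h1 : (Additive.toMul (x : Additive Kˣ)) ^ p = 1 := by
      have := congrArg (fun y : ↥V => Additive.toMul (y : Additive Kˣ)) hx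
      exact this
    have h2 := lp_pow_eq_one p hrp ((hmemV _).mp x.2) h1
    rw [AddSubgroup.mem_bot]
    exact Subtype.ext (congrArg Additive.ofMul h2)
  have hne : hq gV (0 : ↥V →+ ↥V) ≠ 0 := by
    rw [hq, hkerV, AddMonoidHom.range_zero, AddSubgroup.relIndex_self]
    exact one_ne_zero
  have key := lp_hq_of_ord (0 : Additive Kˣ →+ Additive Kˣ) P (AddMonoidHom.zero_comp _)
    (AddMonoidHom.comp_zero _) (loc_ord hϖ) (loc_ord_surjective hϖ) p hp (fun x => by simp)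
    (fun x => by rw [hP, map_nsmul, nsmul_eq_mul]) V hVB hVfin 0 gV (fun x => rfl) hgV hne
  -- evaluate the four indices
  have e1 : hq (0 : Additive Kˣ →+ Additive Kˣ) P = (powMonoidHom p : Kˣ →* Kˣ).range.index := by
    rw [hq, AddMonoidHom.ker_zero, AddSubgroup.relIndex_top_right]
    have : P.range = Subgroup.toAddSubgroup (powMonoidHom p : Kˣ →* Kˣ).range := by
      ext x
      constructor
      · rintro ⟨y, rfl⟩
        exact ⟨Additive.toMul y, rfl⟩
      · rintro ⟨y, hy⟩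
        exact ⟨Additive.ofMul y, congrArg Additive.ofMul hy⟩
    rw [this, Subgroup.index_toAddSubgroup]
  have e2 : hq P (0 : Additive Kˣ →+ Additive Kˣ) = Nat.card (rootsOfUnity p K) := by
    rw [hq, AddMonoidHom.range_zero, AddSubgroup.relIndex_bot_left]
    refine Nat.card_congr (Equiv.subtypeEquiv Additive.toMul (fun x => ?_))
    rw [AddMonoidHom.mem_ker, mem_rootsOfUnity]
    exact ⟨fun h => congrArg Additive.toMul h, fun h => congrArg Additive.ofMul h⟩
  have e3 : hq gV (0 : ↥V →+ ↥V) = 1 := by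
    rw [hq, hkerV, AddMonoidHom.range_zero, AddSubgroup.relIndex_self]
  have e4 : hq (0 : ↥V →+ ↥V) gV =
      (lp_B K (‖(p : K)‖ * r) h0).relIndex (lp_B K r hr0.le) := by
    rw [hq, AddMonoidHom.ker_zero, AddSubgroup.relIndex_top_right,
      ← lp_relIndex_U_eq h0 hr0.le hr1 hcr1, ← Subgroup.relIndex_toAddSubgroup]
    have : gV.range = (Subgroup.toAddSubgroup (lp_U K (‖(p : K)‖ * r) h0 hcr1)).addSubgroupOf V := by
      ext x
      rw [AddSubgroup.mem_addSubgroupOf]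
      constructor
      · rintro ⟨y, rfl⟩
        show (Additive.toMul (y : Additive Kˣ)) ^ p ∈ lp_U K (‖(p : K)‖ * r) h0 hcr1
        rw [lp_mem_U, lp_norm_pow_sub_one_of_mem p hrp ((hmemV _).mp y.2)]
        exact mul_le_mul_of_nonneg_left ((hmemV _).mp y.2) hc0.le
      · intro hx
        obtain ⟨y, hy, hyx⟩ := lp_pow_surj p hr0.le hr1 hrp h0 hcr1 (Additive.toMul (x : Additive Kˣ)) hx
        exact ⟨⟨Additive.ofMul y, hy⟩, Subtype.ext (congrArg Additive.ofMul hyx)⟩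
    rw [this]
    rfl
  rw [e1, e2, e3, e4, mul_one] at key
  exact key

end Main
section Padic

variable (q : ℕ) [Fact q.Prime] (K : Type*) [NontriviallyNormedField K] [IsUltrametricDist K]
  [ProperSpace K] [NormedAlgebra ℚ_[q] K] [FiniteDimensional ℚ_[q] K]

/-- **[L3]**: for a finite extension `K` of `ℚ_q` and a prime `p`,
`[Kˣ : Kˣᵖ] = p^(1 + δ) · #μ_p(K)` with `δ = [K : ℚ_q]` if `p = q` and `δ = 0` otherwise. -/
theorem lp_index_pow (p : ℕ) (hp : p.Prime) :
    (powMonoidHom p : Kˣ →* Kˣ).range.index =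
      p ^ (1 + if p = q then Module.finrank ℚ_[q] K else 0) * Nat.card (rootsOfUnity p K) := by
  have hq : q.Prime := Fact.out
  by_cases hpq : p = q
  · subst hpq
    have hp1 : (1 : ℝ) < p := by exact_mod_cast hp.one_lt
    have hp0 : (0 : ℝ) < p := by positivity
    have hc : ‖(p : K)‖ = (p : ℝ)⁻¹ := lp_norm_natCast_self p
    have hc0 : 0 < ‖(p : K)‖ := by rw [hc]; positivity
    have hc1 : ‖(p : K)‖ < 1 := by rw [hc]; exact inv_lt_one_of_one_lt₀ hp1
    set r : ℝ := ‖(p : K)‖ / 2 with hr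
    have hr0 : 0 < r := by positivity
    have hrp : r < ‖(p : K)‖ := by rw [hr]; linarith
    have hr1 : r < 1 := hrp.trans hc1
    have h0 : 0 ≤ ‖(p : K)‖ * r := by positivity
    rw [lp_index_pow_general p hr0 hr1 hrp h0, lp_relIndex_B_padic p hr0 h0, if_pos rfl, pow_add,
      pow_one]
    ring
  · have hcop : q.Coprime p := (Nat.coprime_primes hq hp).mpr (fun h => hpq h.symm)
    have hc : ‖(p : K)‖ = 1 := by
      have h : (p : K) = algebraMap ℚ_[q] K (p : ℚ_[q]) := by simp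
      rw [h, norm_algebraMap', Padic.norm_natCast_eq_one_iff]
      exact hcop
    have hr0 : (0 : ℝ) < 1 / 2 := by norm_num
    have hr1 : (1 / 2 : ℝ) < 1 := by norm_num
    have hrp : (1 / 2 : ℝ) < ‖(p : K)‖ := by rw [hc]; norm_num
    have h0 : 0 ≤ ‖(p : K)‖ * (1 / 2) := by rw [hc]; norm_num
    have hB : (lp_B K (‖(p : K)‖ * (1 / 2)) h0).relIndex (lp_B K (1 / 2) hr0.le) = 1 := by
      rw [AddSubgroup.relIndex_eq_one]
      intro x hx
      rw [lp_mem_B] at hx ⊢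
      rw [hc, one_mul]
      exact hx
    rw [lp_index_pow_general p hr0 hr1 hrp h0, hB, if_neg hpq, add_zero, pow_one, mul_one]

include q in
/-- The group `Kˣ / Kˣᵖ` is finite. -/
theorem lp_finite_quot_pow (p : ℕ) (hp : p.Prime) :
    Finite (Kˣ ⧸ (powMonoidHom p : Kˣ →* Kˣ).range) := by
  have h := lp_index_pow q K p hp
  have hne : (powMonoidHom p : Kˣ →* Kˣ).range.index ≠ 0 := by
    rw [h]
    have : NeZero p := ⟨hp.ne_zero⟩
    have h1 : Nat.card (rootsOfUnity p K) ≠ 0 := Nat.card_pos.ne'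
    exact mul_ne_zero (pow_ne_zero _ hp.ne_zero) h1
  have : (powMonoidHom p : Kˣ →* Kˣ).range.FiniteIndex := ⟨hne⟩
  exact Subgroup.finite_quotient_of_finiteIndex

/-- **[L3]**, bound form: `#(Kˣ / Kˣᵖ) ≤ p^(2 + δ)`. -/
theorem lp_card_quot_pow_le (p : ℕ) (hp : p.Prime) :
    Nat.card (Kˣ ⧸ (powMonoidHom p : Kˣ →* Kˣ).range) ≤
      p ^ (2 + if p = q then Module.finrank ℚ_[q] K else 0) := by
  have h := lp_index_pow q K p hp
  have : NeZero p := ⟨hp.ne_zero⟩
  have h1 : Nat.card (rootsOfUnity p K) ≤ p := card_rootsOfUnity K p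
  show (powMonoidHom p : Kˣ →* Kˣ).range.index ≤ _
  rw [h]
  calc p ^ (1 + if p = q then Module.finrank ℚ_[q] K else 0) * Nat.card (rootsOfUnity p K)
      ≤ p ^ (1 + if p = q then Module.finrank ℚ_[q] K else 0) * p := Nat.mul_le_mul_left _ h1
    _ = p ^ (2 + if p = q then Module.finrank ℚ_[q] K else 0) := by ring

end Padic


section Intermediate

/-- **[L3]** for the finite intermediate fields of `PadicAlgCl q / ℚ_q`. -/
theorem lp_index_pow_intermediate (q : ℕ) [Fact q.Prime]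
    (F : IntermediateField ℚ_[q] (PadicAlgCl q)) [FiniteDimensional ℚ_[q] F] (p : ℕ)
    (hp : p.Prime) :
    (powMonoidHom p : (↥F)ˣ →* (↥F)ˣ).range.index =
      p ^ (1 + if p = q then Module.finrank ℚ_[q] F else 0) * Nat.card (rootsOfUnity p F) := by
  have : ProperSpace F := FiniteDimensional.proper ℚ_[q] F
  exact lp_index_pow q F p hp

/-- **[L3]**, bound form, for the finite intermediate fields of `PadicAlgCl q / ℚ_q`. -/
theorem lp_card_quot_pow_le_intermediate (q : ℕ) [Fact q.Prime]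
    (F : IntermediateField ℚ_[q] (PadicAlgCl q)) [FiniteDimensional ℚ_[q] F] (p : ℕ)
    (hp : p.Prime) :
    Finite ((↥F)ˣ ⧸ (powMonoidHom p : (↥F)ˣ →* (↥F)ˣ).range) ∧
    Nat.card ((↥F)ˣ ⧸ (powMonoidHom p : (↥F)ˣ →* (↥F)ˣ).range) ≤
      p ^ (2 + if p = q then Module.finrank ℚ_[q] F else 0) := by
  have : ProperSpace F := FiniteDimensional.proper ℚ_[q] F
  exact ⟨lp_finite_quot_pow q F p hp, lp_card_quot_pow_le q F p hp⟩

end Intermediate

end Fermat.Agent.S55
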