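import Mathlib

/-!
# Transport of the cohomology of `Lˣ` along the Galois correspondence (block LOC of S55)

For a finite Galois extension `L/K` with group `G = Gal(L/K)`:
* `loc_resIso H n : Hⁿ(H, Lˣ) ≅ Hⁿ(Gal(L/L^H), Lˣ)` for a subgroup `H ≤ G`;
* `loc_infIso N n : Hⁿ(G/N, (Lˣ)^N) ≅ Hⁿ(Gal(L^N/K), (L^N)ˣ)` for a normal subgroup `N`.
-/

set_option autoImplicit false

namespace Fermat.Agent.S55

open CategoryTheory

section Tr1

variable {K L : Type} [Field K] [Field L] [Algebra K L] [FiniteDimensional K L]

/-- `H ≃* Gal(L / L^H)`. -/
noncomputable def loc_subgroupEquiv (H : Subgroup (L ≃ₐ[K] L)) :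
    ↥H ≃* (L ≃ₐ[IntermediateField.fixedField H] L) :=
  (MulEquiv.subgroupCongr (IntermediateField.fixingSubgroup_fixedField H).symm).trans
    (IntermediateField.fixingSubgroupEquiv (IntermediateField.fixedField H))

theorem loc_subgroupEquiv_apply (H : Subgroup (L ≃ₐ[K] L)) (h : ↥H) (x : L) :
    loc_subgroupEquiv H h x = (h : L ≃ₐ[K] L) x := rfl

/-- `Hⁿ(H, Lˣ) ≅ Hⁿ(Gal(L/L^H), Lˣ)`. -/
noncomputable def loc_resIso (H : Subgroup (L ≃ₐ[K] L)) (n : ℕ) :
    groupCohomology (Rep.res H.subtype (Rep.ofAlgebraAutOnUnits K L)) n ≅
      groupCohomology (Rep.ofAlgebraAutOnUnits (IntermediateField.fixedField H) L) n :=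
  groupCohomology.mapIso (loc_subgroupEquiv H) (LinearEquiv.refl ℤ (Additive Lˣ)) (fun g => by
    ext x
    rfl) n

end Tr1

section Tr2

variable {K L : Type} [Field K] [Field L] [Algebra K L] [FiniteDimensional K L] [IsGalois K L]
  (N : Subgroup (L ≃ₐ[K] L)) [N.Normal]

/-- The `N`-invariants of `Lˣ` are the units of the fixed field. -/
noncomputable def loc_invEquiv :
    ↥(Representation.invariants ((Rep.ofAlgebraAutOnUnits K L).ρ.comp N.subtype)) ≃ₗ[ℤ]
      Additive (↥(IntermediateField.fixedField N))ˣ :=
  AddEquiv.toIntLinearEquiv
    { toFun := fun x => Additive.ofMul (Units.mk0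
        (⟨((Additive.toMul (show Additive Lˣ from x.1) : Lˣ) : L), by
          rw [IntermediateField.mem_fixedField_iff]
          intro f hf
          have h1 := x.2 ⟨f, hf⟩
          exact congrArg (fun y : Additive Lˣ => ((Additive.toMul y : Lˣ) : L)) h1⟩ :
          IntermediateField.fixedField N)
        (fun h => (Additive.toMul (show Additive Lˣ from x.1) : Lˣ).ne_zero (congrArg Subtype.val h)))
      invFun := fun y => ⟨Additive.ofMul (Units.map
          (algebraMap (IntermediateField.fixedField N) L : IntermediateField.fixedField N →* L)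
          (Additive.toMul y)), by
        intro s
        apply congrArg Additive.ofMul
        apply Units.ext
        show (s : L ≃ₐ[K] L) (((Additive.toMul y : (IntermediateField.fixedField N)ˣ) :
          IntermediateField.fixedField N) : L) = _
        exact (IntermediateField.mem_fixedField_iff _ _).mp
          ((Additive.toMul y : (IntermediateField.fixedField N)ˣ) :
            IntermediateField.fixedField N).2 s s.2⟩
      left_inv := fun x => by
        apply Subtype.ext
        apply congrArg Additive.ofMul
        apply Units.ext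
        rfl
      right_inv := fun y => by
        apply congrArg Additive.ofMul
        apply Units.ext
        apply Subtype.ext
        rfl
      map_add' := fun x y => by
        apply congrArg Additive.ofMul
        apply Units.ext
        apply Subtype.ext
        rfl }

/-- `Hⁿ(G/N, (Lˣ)^N) ≅ Hⁿ(Gal(L^N/K), (L^N)ˣ)`. -/
noncomputable def loc_infIso (n : ℕ) :
    haveI := IsGalois.of_fixedField_normal_subgroup N
    groupCohomology ((Rep.ofAlgebraAutOnUnits K L).quotientToInvariants N) n ≅
      groupCohomology (Rep.ofAlgebraAutOnUnits K (IntermediateField.fixedField N)) n :=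
  haveI := IsGalois.of_fixedField_normal_subgroup N
  groupCohomology.mapIso (IsGalois.normalAutEquivQuotient N) (loc_invEquiv N) (fun g => by
    induction g using QuotientGroup.induction_on with
    | H σ =>
      ext x
      apply congrArg Additive.ofMul
      apply Units.ext
      apply Subtype.ext
      show σ ((Additive.toMul (show Additive Lˣ from x.1) : Lˣ) : L) = _
      exact (AlgEquiv.restrictNormal_commutes σ (IntermediateField.fixedField N)
        ((Additive.toMul (loc_invEquiv N x) : (IntermediateField.fixedField N)ˣ) :
          IntermediateField.fixedField N)).symm) n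

end Tr2

end Fermat.Agent.S55
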