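import Fermat.Agent.S55.TcInf

/-!
# S55, block TC, part 3: inflation-restriction in degree 2

For a normal subgroup `N` of `G` and a representation `A` of `G` with `H¹(N, A) = 0`, the sequence
`0 → H²(G/N, A^N) → H²(G, A) → H²(N, A)` is exact (`tc_H2_inf_injective`,
`tc_H2_inf_res_exact`, and the packaged `tcH2InfRes`, `tcH2InfRes_exact`, `tcH2InfRes_mono`).
The proof is by dimension shifting from Mathlib's `H1InfRes`, using the naturality of the
connecting homomorphism with respect to a change of groups (`tc_δ_naturality`).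
-/

set_option autoImplicit false

namespace Fermat.Agent.S55

open CategoryTheory CategoryTheory.Limits groupCohomology

universe u

section Naturality

variable {k G H : Type u} [CommRing k] [Group G] [Group H]

/-- Naturality of the connecting homomorphism with respect to a change of groups. -/
theorem tc_δ_naturality (f : G →* H)
    {X : ShortComplex (Rep.{u} k H)} {Y : ShortComplex (Rep.{u} k G)}
    (hX : X.ShortExact) (hY : Y.ShortExact)
    (φ₁ : Rep.res f X.X₁ ⟶ Y.X₁) (φ₂ : Rep.res f X.X₂ ⟶ Y.X₂) (φ₃ : Rep.res f X.X₃ ⟶ Y.X₃)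
    (h₁₂ : (Rep.resFunctor f).map X.f ≫ φ₂ = φ₁ ≫ Y.f)
    (h₂₃ : (Rep.resFunctor f).map X.g ≫ φ₃ = φ₂ ≫ Y.g)
    (i j : ℕ) (hij : i + 1 = j) :
    δ hX i j hij ≫ map f φ₁ j = map f φ₃ i ≫ δ hY i j hij :=
  HomologicalComplex.HomologySequence.δ_naturality
    (S₁ := X.map (cochainsFunctor k H)) (S₂ := Y.map (cochainsFunctor k G))
    { τ₁ := cochainsMap f φ₁
      τ₂ := cochainsMap f φ₂
      τ₃ := cochainsMap f φ₃
      comm₁₂ := by
        change cochainsMap f φ₁ ≫ cochainsMap (MonoidHom.id G) Y.f =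
          cochainsMap (MonoidHom.id H) X.f ≫ cochainsMap f φ₂
        rw [← cochainsMap_comp, ← cochainsMap_comp]
        exact cochainsMap_congr rfl (by rw [h₁₂]; rfl)
      comm₂₃ := by
        change cochainsMap f φ₂ ≫ cochainsMap (MonoidHom.id G) Y.g =
          cochainsMap (MonoidHom.id H) X.g ≫ cochainsMap f φ₃
        rw [← cochainsMap_comp, ← cochainsMap_comp]
        exact cochainsMap_congr rfl (by rw [h₂₃]; rfl) }
    (map_cochainsFunctor_shortExact hX) (map_cochainsFunctor_shortExact hY) i j hij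

/-- Elementwise form of `tc_δ_naturality`. -/
theorem tc_δ_naturality_apply (f : G →* H)
    {X : ShortComplex (Rep.{u} k H)} {Y : ShortComplex (Rep.{u} k G)}
    (hX : X.ShortExact) (hY : Y.ShortExact)
    (φ₁ : Rep.res f X.X₁ ⟶ Y.X₁) (φ₂ : Rep.res f X.X₂ ⟶ Y.X₂) (φ₃ : Rep.res f X.X₃ ⟶ Y.X₃)
    (h₁₂ : (Rep.resFunctor f).map X.f ≫ φ₂ = φ₁ ≫ Y.f)
    (h₂₃ : (Rep.resFunctor f).map X.g ≫ φ₃ = φ₂ ≫ Y.g)
    (i j : ℕ) (hij : i + 1 = j) (x : groupCohomology X.X₃ i) :
    (map f φ₁ j).hom ((δ hX i j hij).hom x) = (δ hY i j hij).hom ((map f φ₃ i).hom x) := by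
  have h := tc_δ_naturality f hX hY φ₁ φ₂ φ₃ h₁₂ h₂₃ i j hij
  have h' := congrArg (fun t => t.hom x) h
  simpa using h'

end Naturality

set_option backward.isDefEq.respectTransparency false in
/-- A map along the trivial homomorphism is zero on `H²`. -/
theorem tc_map₂_one {k G H : Type u} [CommRing k] [Group G] [Group H] {A : Rep.{u} k H}
    {B : Rep.{u} k G} (φ : Rep.res (1 : G →* H) A ⟶ B) : map 1 φ 2 = 0 := by
  rw [← cancel_epi (H2π A), H2π_comp_map, comp_zero]
  ext x
  change H2π B (mapCocycles₂ 1 φ x) = 0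
  rw [H2π_eq_zero_iff]
  refine ⟨fun _ => φ.hom (x.1 (1, 1)), ?_⟩
  funext ⟨g, h⟩
  have hinv : B.ρ g (φ.hom (x.1 (1, 1))) = φ.hom (x.1 (1, 1)) := by
    have := Rep.hom_comm_apply φ g (x.1 (1, 1))
    rw [← this]
    simp
  simp only [d₁₂_hom_apply, sub_add_cancel]
  rw [hinv]
  rfl

section InfRes

variable {k G : Type u} [CommRing k] [Group G] (N : Subgroup G) [N.Normal] (A : Rep.{u} k G)

/-- The inflation map `Hⁿ(G/N, A^N) ⟶ Hⁿ(G, A)`. -/
noncomputable abbrev tcInf (n : ℕ) :
    groupCohomology (A.quotientToInvariants N) n ⟶ groupCohomology A n :=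
  map (QuotientGroup.mk' N) (Rep.ofHom <| A.ρ.quotientToInvariants_lift N) n

/-- The restriction map `Hⁿ(G, A) ⟶ Hⁿ(N, A)`. -/
noncomputable abbrev tcRes (S : Subgroup G) (n : ℕ) :
    groupCohomology A n ⟶ groupCohomology (Rep.res S.subtype A) n :=
  map S.subtype (𝟙 (Rep.res S.subtype A)) n

theorem tc_δ_inf (hN : IsZero (groupCohomology (Rep.res N.subtype A) 1))
    (i j : ℕ) (hij : i + 1 = j) (x : groupCohomology ((tcShift A).quotientToInvariants N) i) :
    (tcInf N A j).hom ((δ (tc_inv_shortExact N (tcSeq_shortExact A) hN) i j hij).hom x) =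
      (δ (tcSeq_shortExact A) i j hij).hom ((tcInf N (tcShift A) i).hom x) :=
  tc_δ_naturality_apply (QuotientGroup.mk' N) (tc_inv_shortExact N (tcSeq_shortExact A) hN)
    (tcSeq_shortExact A) _ (Rep.ofHom <| (tcFun k G A.V).ρ.quotientToInvariants_lift N) _
    rfl rfl i j hij x

theorem tc_δ_res (S : Subgroup G)
    (i j : ℕ) (hij : i + 1 = j) (x : groupCohomology (tcShift A) i) :
    (tcRes A S j).hom ((δ (tcSeq_shortExact A) i j hij).hom x) =
      (δ ((Rep.shortExact_res S.subtype).2 (tcSeq_shortExact A)) i j hij).hom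
        ((tcRes (tcShift A) S i).hom x) :=
  tc_δ_naturality_apply S.subtype (tcSeq_shortExact A)
    ((Rep.shortExact_res S.subtype).2 (tcSeq_shortExact A)) (𝟙 _) (𝟙 _) (𝟙 _)
    ((Category.comp_id _).trans (Category.id_comp _).symm)
    ((Category.comp_id _).trans (Category.id_comp _).symm) i j hij x

/-- Inflation `H²(G/N, A^N) → H²(G, A)` is injective when `H¹(N, A) = 0`. -/
theorem tc_H2_inf_injective (hN : IsZero (groupCohomology (Rep.res N.subtype A) 1)) :
    Function.Injective (tcInf N A 2).hom := by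
  have hSG := tcSeq_shortExact A
  have hSQ := tc_inv_shortExact N hSG hN
  have hepi : Epi (δ hSQ 1 2 rfl) := epi_δ_of_isZero hSQ 1 (tc_isZero_fun_inv k G N A.V 1)
  have hmono : Mono (δ hSG 1 2 rfl) := mono_δ_of_isZero hSG 1 (tc_isZero_fun k G A.V 0)
  have hmono' := tc_H1_inf_mono N (tcShift A)
  rw [injective_iff_map_eq_zero]
  intro x hx
  obtain ⟨y, rfl⟩ := (ModuleCat.epi_iff_surjective _).1 hepi x
  have e := tc_δ_inf N A hN 1 2 rfl y
  have h0 : (δ hSG 1 2 rfl).hom ((tcInf N (tcShift A) 1).hom y) = 0 := e.symm.trans hx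
  have h1 : (tcInf N (tcShift A) 1).hom y = 0 :=
    (ModuleCat.mono_iff_injective _).1 hmono (h0.trans (map_zero _).symm)
  have h2 : y = 0 :=
    (ModuleCat.mono_iff_injective _).1 hmono' (h1.trans (map_zero _).symm)
  subst h2
  exact map_zero _

/-- Exactness of `H²(G/N, A^N) → H²(G, A) → H²(N, A)` at the middle when `H¹(N, A) = 0`. -/
theorem tc_H2_inf_res_exact (hN : IsZero (groupCohomology (Rep.res N.subtype A) 1))
    (x : groupCohomology A 2) (hx : (tcRes A N 2).hom x = 0) :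
    ∃ y : groupCohomology (A.quotientToInvariants N) 2, (tcInf N A 2).hom y = x := by
  have hSG := tcSeq_shortExact A
  have hSQ := tc_inv_shortExact N hSG hN
  have hSN := (Rep.shortExact_res N.subtype).2 hSG
  have hepi : Epi (δ hSG 1 2 rfl) := epi_δ_of_isZero hSG 1 (tc_isZero_fun k G A.V 1)
  have hmono : Mono (δ hSN 1 2 rfl) := mono_δ_of_isZero hSN 1 (tc_isZero_fun_res k G N A.V 0)
  obtain ⟨y, rfl⟩ := (ModuleCat.epi_iff_surjective _).1 hepi x
  have e := tc_δ_res A N 1 2 rfl y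
  have h0 : (δ hSN 1 2 rfl).hom ((tcRes (tcShift A) N 1).hom y) = 0 := e.symm.trans hx
  have h1 : (tcRes (tcShift A) N 1).hom y = 0 :=
    (ModuleCat.mono_iff_injective _).1 hmono (h0.trans (map_zero _).symm)
  obtain ⟨z, rfl⟩ := (ShortComplex.moduleCat_exact_iff (H1InfRes (tcShift A) N)).1
    (H1InfRes_exact _ N) y h1
  exact ⟨(δ hSQ 1 2 rfl).hom z, tc_δ_inf N A hN 1 2 rfl z⟩

theorem tc_H2_inf_comp_res : tcInf N A 2 ≫ tcRes A N 2 = 0 := by
  rw [← map_comp, Category.comp_id, groupCohomology.congr (QuotientGroup.mk'_comp_subtype N)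
    (fun f φ => map f φ 2), tc_map₂_one]

/-- The composite `H²(G/N, A^N) → H²(G, A) → H²(N, A)` is zero. -/
theorem tc_H2_inf_res_zero (y : groupCohomology (A.quotientToInvariants N) 2) :
    (tcRes A N 2).hom ((tcInf N A 2).hom y) = 0 := by
  have h := congrArg (fun t => t.hom y) (tc_H2_inf_comp_res N A)
  simpa using h

/-- The short complex `H²(G ⧸ N, A^N) ⟶ H²(G, A) ⟶ H²(N, A)`. -/
noncomputable def tcH2InfRes : ShortComplex (ModuleCat k) where
  X₁ := groupCohomology (A.quotientToInvariants N) 2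
  X₂ := groupCohomology A 2
  X₃ := groupCohomology (Rep.res N.subtype A) 2
  f := tcInf N A 2
  g := tcRes A N 2
  zero := tc_H2_inf_comp_res N A

theorem tcH2InfRes_mono (hN : IsZero (groupCohomology (Rep.res N.subtype A) 1)) :
    Mono (tcH2InfRes N A).f :=
  (ModuleCat.mono_iff_injective _).2 (tc_H2_inf_injective N A hN)

theorem tcH2InfRes_exact (hN : IsZero (groupCohomology (Rep.res N.subtype A) 1)) :
    (tcH2InfRes N A).Exact :=
  (ShortComplex.moduleCat_exact_iff _).2 (fun x hx => tc_H2_inf_res_exact N A hN x hx)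

end InfRes

end Fermat.Agent.S55
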