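import Mathlib
import Fermat.Agent.S55.LocCyclic
import Fermat.Agent.S55.LocTransport
import Fermat.Agent.S55.TcInfRes

/-!
# The upper bound `|H²(Gal(L/K), Lˣ)| ∣ [L:K]` for `p`-extensions of local fields (block LOC of S55)

By induction on the degree, using a normal subgroup of index `p`, the inflation–restriction
sequence in degree `2` (Hilbert 90 kills `H¹`), and the cyclic case `loc_card_H2_of_isCyclic`.
-/

set_option autoImplicit false

namespace Fermat.Agent.S55

open CategoryTheory CategoryTheory.Limits

/-- Counting in a left-exact sequence `0 → Z → X → Y` of modules. -/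
theorem loc_card_dvd_of_exact {R : Type*} [Ring R] {X Y Z : Type*} [AddCommGroup X] [Module R X]
    [AddCommGroup Y] [Module R Y] [AddCommGroup Z] [Module R Z]
    (i : Z →ₗ[R] X) (r : X →ₗ[R] Y) (hi : Function.Injective i) (hzero : ∀ z, r (i z) = 0)
    (hex : ∀ x, r x = 0 → ∃ z, i z = x) {m : ℕ} (hY : Nat.card Y ∣ m) :
    Nat.card X ∣ Nat.card Z * m := by
  have h1 := Submodule.card_eq_card_quotient_mul_card (LinearMap.ker r)
  have h2 : Nat.card (LinearMap.ker r) = Nat.card Z := by
    refine (Nat.card_congr (Equiv.ofBijective
      (fun z => (⟨i z, hzero z⟩ : LinearMap.ker r)) ⟨?_, ?_⟩)).symm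
    · intro a b hab
      exact hi (congrArg Subtype.val hab)
    · rintro ⟨x, hx⟩
      obtain ⟨z, rfl⟩ := hex x hx
      exact ⟨z, rfl⟩
  have h3 : Nat.card (X ⧸ LinearMap.ker r) ∣ Nat.card Y := by
    rw [Nat.card_congr r.quotKerEquivRange.toEquiv]
    exact AddSubgroup.card_addSubgroup_dvd_card (LinearMap.range r).toAddSubgroup
  rw [h1, h2]
  exact Nat.mul_dvd_mul_left _ (h3.trans hY)

section IF

variable {K L : Type*} [NontriviallyNormedField K] [NormedField L] [NormedAlgebra K L]

/-- `L` as a normed algebra over an intermediate field. -/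
@[reducible] noncomputable def loc_normedAlgebraIF (F : IntermediateField K L) : NormedAlgebra F L :=
  { (inferInstance : Algebra F L) with
    norm_smul_le := fun x y => by
      rw [Algebra.smul_def, norm_mul]
      exact le_of_eq rfl }

theorem loc_properSpaceIF [ProperSpace K] [FiniteDimensional K L] (F : IntermediateField K L) :
    ProperSpace F := FiniteDimensional.proper K F

theorem loc_isUltrametricDistIF [IsUltrametricDist K] (F : IntermediateField K L) :
    IsUltrametricDist F := IsUltrametricDist.of_normedAlgebra K

end IF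

theorem loc_card_H2_dvd_pgroup (p : ℕ) [Fact p.Prime] (n : ℕ) :
    ∀ (K L : Type) [NontriviallyNormedField K] [IsUltrametricDist K] [ProperSpace K]
      [NontriviallyNormedField L] [NormedAlgebra K L] [FiniteDimensional K L] [IsGalois K L],
      Module.finrank K L = n → IsPGroup p (L ≃ₐ[K] L) →
      Nat.card (groupCohomology (Rep.ofAlgebraAutOnUnits K L) 2) ∣ n := by
  induction n using Nat.strong_induction_on with
  | _ n ih =>
    intro K L _ _ _ _ _ _ _ hn hp
    classical
    have hcard : Nat.card (L ≃ₐ[K] L) = n := by rw [IsGalois.card_aut_eq_finrank, hn]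
    by_cases hsub : Subsingleton (L ≃ₐ[K] L)
    · have hz := isZero_groupCohomology_succ_of_subsingleton
        (Rep.ofAlgebraAutOnUnits K L) 1
      have : Subsingleton (groupCohomology (Rep.ofAlgebraAutOnUnits K L) 2) :=
        ModuleCat.subsingleton_of_isZero hz
      rw [Nat.card_of_subsingleton (0 : groupCohomology (Rep.ofAlgebraAutOnUnits K L) 2)]
      exact one_dvd n
    obtain ⟨a, ha⟩ := IsPGroup.iff_card.1 hp
    have ha0 : a ≠ 0 := by
      rintro rfl
      rw [pow_zero] at ha
      exact hsub ((Nat.card_eq_one_iff_unique.1 ha).1)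
    obtain ⟨H, hH⟩ := Sylow.exists_subgroup_card_pow_prime (G := L ≃ₐ[K] L) p (n := a - 1)
      (by rw [ha]; exact pow_dvd_pow p (Nat.sub_le a 1))
    have h4 : p ^ a = p * p ^ (a - 1) := by
      rw [← pow_succ']
      congr 1
      omega
    have hidx : H.index = p := by
      have h3 := H.index_mul_card
      rw [hH, ha, h4] at h3
      exact Nat.eq_of_mul_eq_mul_right (pow_pos (Fact.out : p.Prime).pos _) h3
    have hnorm : H.Normal := by
      apply Subgroup.normal_of_index_eq_minFac_card
      rw [hidx, ha, (Fact.out : p.Prime).pow_minFac ha0]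
    have hH1 : IsZero (groupCohomology (Rep.res H.subtype (Rep.ofAlgebraAutOnUnits K L)) 1) := by
      refine IsZero.of_iso ?_ (loc_resIso H 1)
      have : Unique (groupCohomology.H1
          (Rep.ofAlgebraAutOnUnits (IntermediateField.fixedField H) L)) :=
        groupCohomology.H1ofAutOnUnitsUnique _ _
      exact ModuleCat.isZero_of_subsingleton _
    have hZ : Nat.card (groupCohomology
        ((Rep.ofAlgebraAutOnUnits K L).quotientToInvariants H) 2) = p := by
      have := IsGalois.of_fixedField_normal_subgroup H
      rw [Nat.card_congr (loc_infIso H 2).toLinearEquiv.toEquiv]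
      have hFcard : Nat.card (↥(IntermediateField.fixedField H) ≃ₐ[K]
          ↥(IntermediateField.fixedField H)) = p := by
        rw [← Nat.card_congr (IsGalois.normalAutEquivQuotient H).toEquiv,
          ← Subgroup.index_eq_card, hidx]
      have : IsCyclic (↥(IntermediateField.fixedField H) ≃ₐ[K]
          ↥(IntermediateField.fixedField H)) := isCyclic_of_prime_card hFcard
      have := loc_isUltrametricDistIF (IntermediateField.fixedField H)
      have h5 := loc_card_H2_of_isCyclic (K := K) (L := ↥(IntermediateField.fixedField H))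
      rw [← IsGalois.card_aut_eq_finrank, hFcard] at h5
      exact h5
    have hY : Nat.card (groupCohomology
        (Rep.res H.subtype (Rep.ofAlgebraAutOnUnits K L)) 2) ∣ p ^ (a - 1) := by
      rw [Nat.card_congr (loc_resIso H 2).toLinearEquiv.toEquiv]
      let _ := loc_normedAlgebraIF (IntermediateField.fixedField H)
      have := loc_properSpaceIF (IntermediateField.fixedField H)
      have := loc_isUltrametricDistIF (IntermediateField.fixedField H)
      have hfr : Module.finrank (IntermediateField.fixedField H) L = p ^ (a - 1) := by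
        rw [IntermediateField.finrank_fixedField_eq_card, hH]
      have hlt : p ^ (a - 1) < n := by
        rw [← hcard, ha]
        exact Nat.pow_lt_pow_right (Fact.out : p.Prime).one_lt (by omega)
      exact ih (p ^ (a - 1)) hlt (IntermediateField.fixedField H) L hfr
        ((hp.to_subgroup H).of_equiv (loc_subgroupEquiv H))
    have key := loc_card_dvd_of_exact
      (tcInf H (Rep.ofAlgebraAutOnUnits K L) 2).hom
      (tcRes (Rep.ofAlgebraAutOnUnits K L) H 2).hom
      (tc_H2_inf_injective H _ hH1) (tc_H2_inf_res_zero H _)
      (tc_H2_inf_res_exact H _ hH1) hY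
    rw [hZ, ← h4, ← ha, hcard] at key
    exact key

end Fermat.Agent.S55
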