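import Mathlib
import Fermat.Agent.S55.HpbDefs
import Fermat.Agent.S55.LocNormIndex
import Fermat.Agent.S55.LocPow
import Fermat.Agent.S55.LocInfNorm
import Fermat.Agent.S55.LocUB

/-!
# S55, block WILD (local part): the local norm group at a nonsplit prime is proper

`K ⊂ L` number fields, `L/K` Galois of prime degree `p`, `τ : L →+* PadicAlgCl q` an embedding
with `τ L ⊄ K_τ = ℚ_q(τ K)` (helper20's model `hpbKloc`, `hpbLloc`).  Then `L_τ/K_τ` is a cyclic
extension of local fields of degree `p`, hence (helper11's `loc_exists_not_norm`) its norm group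
is a proper subgroup of `K_τˣ`; it is open (it contains the `p`-th powers, helper16's
`lp_pow_surj`), and `τ K` is dense in `K_τ` (helper6's `linf_dense`).  Conclusion
(`wild_local`): some `b ∈ Kˣ` is not of the form `N_{L/K}(y) · u` with `‖τ u - 1‖ ≤ s`.
-/

set_option autoImplicit false
set_option linter.style.haveILetI false

namespace Fermat.Agent.S55

section Generic

/-- The field generated over `k` by the image of a finite-dimensional `ℚ`-algebra is
finite-dimensional over `k`. -/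
theorem wild_finiteDimensional_adjoin_range {k Ω : Type*} [Field k] [Field Ω] [Algebra k Ω]
    [Algebra.IsAlgebraic k Ω] {F : Type*} [Field F] [CharZero F] [FiniteDimensional ℚ F]
    (f : F →+* Ω) : FiniteDimensional k (IntermediateField.adjoin k (Set.range f)) := by
  classical
  haveI : CharZero Ω := (RingHom.charZero_iff f.injective).1 inferInstance
  haveI : CharZero k := (RingHom.charZero_iff (algebraMap k Ω).injective).2 inferInstance
  let b := Module.finBasis ℚ F
  have hfin : Finite (Set.range (fun i => f (b i))) := Set.finite_range _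
  have hfd : FiniteDimensional k (IntermediateField.adjoin k (Set.range (fun i => f (b i)))) :=
    IntermediateField.finiteDimensional_adjoin fun x _ => Algebra.IsIntegral.isIntegral x
  have hle : IntermediateField.adjoin k (Set.range f)
      ≤ IntermediateField.adjoin k (Set.range (fun i => f (b i))) := by
    rw [IntermediateField.adjoin_le_iff]
    rintro _ ⟨x, rfl⟩
    rw [← b.sum_repr x, map_sum]
    refine sum_mem fun i _ => ?_
    rw [Algebra.smul_def, map_mul]
    refine mul_mem ?_ (IntermediateField.subset_adjoin _ _ ⟨i, rfl⟩)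
    rw [eq_ratCast, map_ratCast]
    have : ((b.repr x i : ℚ) : Ω) = algebraMap k Ω ((b.repr x i : ℚ) : k) := by
      rw [map_ratCast]
    rw [this]
    exact IntermediateField.algebraMap_mem _ _
  exact Module.Finite.of_injective (IntermediateField.inclusion hle).toLinearMap
    (IntermediateField.inclusion hle).injective

end Generic

section Model

variable (K : Type) {L : Type} [Field K] [Field L] [Algebra K L] {q : ℕ} [Fact q.Prime]
  (τ : L →+* PadicAlgCl q)

theorem wild_finiteDimensional_kloc [CharZero K] [FiniteDimensional ℚ K] :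
    FiniteDimensional ℚ_[q] (hpbKloc K τ) :=
  wild_finiteDimensional_adjoin_range (τ.comp (algebraMap K L))

theorem wild_finiteDimensional_lloc [CharZero L] [FiniteDimensional ℚ L] :
    FiniteDimensional (hpbKloc K τ) (hpbLloc K τ) :=
  wild_finiteDimensional_adjoin_range τ

/-- `σ ∈ Aut(Ω/K_τ)` maps `τ L` into itself when `L/K` is normal. -/
theorem wild_algHom_tau_mem [Normal K L] (σ : PadicAlgCl q →ₐ[hpbKloc K τ] PadicAlgCl q) (x : L) :
    ∃ x' : L, σ (τ x) = τ x' := by
  letI : Algebra K (PadicAlgCl q) := (τ.comp (algebraMap K L)).toAlgebra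
  letI : Algebra L (PadicAlgCl q) := τ.toAlgebra
  haveI : IsScalarTower K L (PadicAlgCl q) := IsScalarTower.of_algebraMap_eq fun _ => rfl
  let φ : PadicAlgCl q →ₐ[K] PadicAlgCl q :=
    { σ.toRingHom with
      commutes' := fun k => σ.commutes (hpbTauBase K τ k) }
  exact ⟨φ.restrictNormal L x, (AlgHom.restrictNormal_commutes φ L x).symm⟩

theorem wild_normal_lloc [Normal K L] : Normal (hpbKloc K τ) (hpbLloc K τ) := by
  haveI : Normal (hpbKloc K τ) (PadicAlgCl q) :=
    Normal.tower_top_of_normal ℚ_[q] (hpbKloc K τ) (PadicAlgCl q)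
  rw [IntermediateField.normal_iff_forall_map_le]
  intro σ
  rw [hpbLloc, IntermediateField.adjoin_map, IntermediateField.adjoin_le_iff]
  rintro _ ⟨_, ⟨x, rfl⟩, rfl⟩
  obtain ⟨x', hx'⟩ := wild_algHom_tau_mem K τ σ x
  rw [hx']
  exact IntermediateField.subset_adjoin _ _ ⟨x', rfl⟩

theorem wild_isGalois_lloc [Normal K L] : IsGalois (hpbKloc K τ) (hpbLloc K τ) := by
  haveI := wild_normal_lloc K τ
  haveI : Algebra.IsAlgebraic (hpbKloc K τ) (hpbLloc K τ) := inferInstance
  haveI : Algebra.IsSeparable (hpbKloc K τ) (hpbLloc K τ) :=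
    Algebra.IsAlgebraic.isSeparable_of_perfectField
  exact IsGalois.mk

end Model

section Main

variable (p : ℕ) [Fact p.Prime] (K : Type) {L : Type} [Field K] [NumberField K] [Field L]
  [NumberField L] [Algebra K L] [IsGalois K L] {q : ℕ} [Fact q.Prime] (τ : L →+* PadicAlgCl q)

omit [NumberField K] [NumberField L] [IsGalois K L] in
/-- If `τ L ⊄ K_τ` the degree of `L_τ/K_τ` is not one. -/
theorem wild_finrank_ne_one (hx : ∃ x : L, τ x ∉ hpbKloc K τ) :
    Module.finrank (hpbKloc K τ) (hpbLloc K τ) ≠ 1 := by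
  intro h
  obtain ⟨x, hx⟩ := hx
  have h1 : (⊥ : Subalgebra (hpbKloc K τ) (hpbLloc K τ)) = ⊤ :=
    Subalgebra.bot_eq_top_of_finrank_eq_one h
  have h2 : hpbTau K τ x ∈ (⊥ : Subalgebra (hpbKloc K τ) (hpbLloc K τ)) := h1 ▸ Algebra.mem_top
  obtain ⟨k, hk⟩ := Algebra.mem_bot.1 h2
  apply hx
  have h3 : (k : PadicAlgCl q) = τ x := congrArg (fun z : hpbLloc K τ => (z : PadicAlgCl q)) hk
  rw [← h3]
  exact k.2

/-- In prime degree, `ψ_τ : Gal(L_τ/K_τ) → Gal(L/K)` is bijective as soon as `τ L ⊄ K_τ`. -/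
theorem wild_psi_bijective (hL : Module.finrank K L = p) (hx : ∃ x : L, τ x ∉ hpbKloc K τ) :
    Function.Bijective (hpbPsi K τ) := by
  haveI := wild_finiteDimensional_lloc K τ
  haveI := wild_isGalois_lloc K τ
  refine ⟨hpbPsi_injective K τ, ?_⟩
  have hcard : Nat.card (L ≃ₐ[K] L) = p := by rw [IsGalois.card_aut_eq_finrank, hL]
  haveI : Fact (Nat.card (L ≃ₐ[K] L)).Prime := ⟨hcard ▸ (Fact.out : p.Prime)⟩
  rcases Subgroup.eq_bot_or_eq_top_of_prime_card (hpbPsi K τ).range with h | h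
  · exfalso
    apply wild_finrank_ne_one K τ hx
    rw [← IsGalois.card_aut_eq_finrank]
    have hsub : Subsingleton (hpbLloc K τ ≃ₐ[hpbKloc K τ] hpbLloc K τ) := by
      refine ⟨fun a b => hpbPsi_injective K τ ?_⟩
      have ha : hpbPsi K τ a ∈ (hpbPsi K τ).range := ⟨a, rfl⟩
      have hb : hpbPsi K τ b ∈ (hpbPsi K τ).range := ⟨b, rfl⟩
      rw [h, Subgroup.mem_bot] at ha hb
      rw [ha, hb]
    exact Nat.card_of_subsingleton 1
  · exact MonoidHom.range_eq_top.1 h

/-- The local norm of `τ y` is `τ` of the global norm (prime degree, `τ L ⊄ K_τ`). -/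
theorem wild_norm_tau (hbij : Function.Bijective (hpbPsi K τ)) (y : L) :
    Algebra.norm (hpbKloc K τ) (hpbTau K τ y) = hpbTauBase K τ (Algebra.norm K y) := by
  classical
  haveI := wild_finiteDimensional_lloc K τ
  haveI := wild_isGalois_lloc K τ
  apply (algebraMap (hpbKloc K τ) (hpbLloc K τ)).injective
  rw [Algebra.norm_eq_prod_automorphisms, ← hpbTau_algebraMap, Algebra.norm_eq_prod_automorphisms,
    map_prod]
  exact Fintype.prod_bijective (hpbPsi K τ) hbij (fun t => t (hpbTau K τ y))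
    (fun σ => hpbTau K τ (σ y)) (fun t => (hpbPsi_spec K τ t y).symm)

/-- The local norm group of `L_τ/K_τ` is proper (helper11's local norm index theorem in the
`hpb` model). -/
theorem wild_exists_not_norm
    (hcyc : IsCyclic (hpbLloc K τ ≃ₐ[hpbKloc K τ] hpbLloc K τ))
    (hne : Module.finrank (hpbKloc K τ) (hpbLloc K τ) ≠ 1) :
    ∃ b : (hpbKloc K τ)ˣ, ∀ y : (hpbLloc K τ)ˣ,
      Algebra.norm (hpbKloc K τ) (y : hpbLloc K τ) ≠ b := by
  haveI hfdK : FiniteDimensional ℚ_[q] (hpbKloc K τ) := wild_finiteDimensional_kloc K τ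
  haveI hfdL := wild_finiteDimensional_lloc K τ
  haveI hgal := wild_isGalois_lloc K τ
  haveI : ProperSpace (hpbKloc K τ) := FiniteDimensional.proper ℚ_[q] _
  letI : NormedAlgebra (hpbKloc K τ) (PadicAlgCl q) := loc_normedAlgebraIF (hpbKloc K τ)
  letI i3 : NormedAlgebra (hpbKloc K τ) (hpbLloc K τ) :=
    { (inferInstance : Algebra (hpbKloc K τ) (hpbLloc K τ)) with
      norm_smul_le := fun x y => by
        rw [Algebra.smul_def, norm_mul]
        exact le_of_eq rfl }
  obtain ⟨σ₀, hσ₀⟩ := IsCyclic.exists_generator (α := hpbLloc K τ ≃ₐ[hpbKloc K τ] hpbLloc K τ)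
  have h1 : @FiniteDimensional (hpbKloc K τ) (hpbLloc K τ) _ _ i3.toModule := hfdL
  have h2 : @IsGalois (hpbKloc K τ) _ (hpbLloc K τ) _ i3.toAlgebra := hgal
  have key := @loc_exists_not_norm (hpbKloc K τ) (hpbLloc K τ) _ _ _ _ i3 h1 h2 σ₀ hσ₀
  exact key hne

/-- **Local part of WILD.**  `L/K` Galois of prime degree `p`, `τ : L → PadicAlgCl q` with
`τ L ⊄ K_τ`.  Then some nonzero `b ∈ K` is not of the form `N_{L/K}(y) · u` with `y ≠ 0` and
`u` `τ`-close to `1`. -/
theorem wild_local (hL : Module.finrank K L = p) (hx : ∃ x : L, τ x ∉ hpbKloc K τ) :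
    ∃ b : K, b ≠ 0 ∧ ∃ s : ℝ, 0 < s ∧ ∀ (y : L) (u : K), y ≠ 0 →
      ‖τ (algebraMap K L u) - 1‖ ≤ s → b ≠ Algebra.norm K y * u := by
  classical
  haveI hfdK : FiniteDimensional ℚ_[q] (hpbKloc K τ) := wild_finiteDimensional_kloc K τ
  haveI hfdL := wild_finiteDimensional_lloc K τ
  haveI hgal := wild_isGalois_lloc K τ
  haveI : ProperSpace (hpbKloc K τ) := FiniteDimensional.proper ℚ_[q] _
  have hbij := wild_psi_bijective p K τ hL hx
  haveI : IsCyclic (L ≃ₐ[K] L) :=
    isCyclic_of_prime_card (p := p) (by rw [IsGalois.card_aut_eq_finrank, hL])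
  have hcyc : IsCyclic (hpbLloc K τ ≃ₐ[hpbKloc K τ] hpbLloc K τ) :=
    isCyclic_of_injective (hpbPsi K τ) (hpbPsi_injective K τ)
  obtain ⟨b₀, hb₀⟩ := wild_exists_not_norm K τ hcyc (wild_finrank_ne_one K τ hx)
  -- the ball of `d`-th powers
  set d : ℕ := Module.finrank (hpbKloc K τ) (hpbLloc K τ) with hd
  have hd0 : d ≠ 0 := Module.finrank_pos.ne'
  set c : ℝ := ‖(d : hpbKloc K τ)‖ with hc
  have hc0 : 0 < c := norm_pos_iff.2 (Nat.cast_ne_zero.2 hd0)
  have hc1 : c ≤ 1 := IsUltrametricDist.norm_natCast_le_one _ d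
  set s : ℝ := c * (c / 2) with hs
  have hs0 : 0 < s := by positivity
  have hs1 : s < 1 := by rw [hs]; nlinarith
  have hball : ∀ u : hpbKloc K τ, ‖u - 1‖ ≤ s →
      ∃ y : (hpbKloc K τ)ˣ, (y : hpbKloc K τ) ^ d = u := by
    intro u hu
    have hr0 : (0 : ℝ) ≤ c / 2 := by positivity
    have hr1 : c / 2 < 1 := by linarith
    have hrp : c / 2 < ‖(d : hpbKloc K τ)‖ := by rw [← hc]; linarith
    have hcr0 : 0 ≤ ‖(d : hpbKloc K τ)‖ * (c / 2) := by positivity
    have hcr1 : ‖(d : hpbKloc K τ)‖ * (c / 2) < 1 := hs1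
    have hu0 : u ≠ 0 := by
      rintro rfl
      rw [zero_sub, norm_neg, norm_one] at hu
      linarith
    obtain ⟨y, -, hy⟩ := lp_pow_surj d hr0 hr1 hrp hcr0 hcr1 (Units.mk0 u hu0) hu
    refine ⟨y, ?_⟩
    have h := congrArg Units.val hy
    rwa [Units.val_pow_eq_pow_val, Units.val_mk0] at h
  -- approximate `b₀` by an element of `K`
  have hb₀0 : (0 : ℝ) < ‖(b₀ : hpbKloc K τ)‖ := norm_pos_iff.2 b₀.ne_zero
  obtain ⟨b, hb⟩ := linf_dense q (τ.comp (algebraMap K L))
    (z := ((b₀ : hpbKloc K τ) : PadicAlgCl q)) (b₀ : hpbKloc K τ).2 (mul_pos hs0 hb₀0)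
  set β : hpbKloc K τ := hpbTauBase K τ b with hβ
  have hβ1 : ‖β / (b₀ : hpbKloc K τ) - 1‖ ≤ s := by
    have h1 : β / (b₀ : hpbKloc K τ) - 1 = (β - b₀) / b₀ := by
      field_simp
    rw [h1, norm_div, div_le_iff₀ hb₀0]
    exact hb.le
  obtain ⟨y₀, hy₀⟩ := hball _ hβ1
  have hβ0 : β ≠ 0 := by
    intro h0
    rw [h0, zero_div, zero_sub, norm_neg, norm_one] at hβ1
    linarith
  refine ⟨b, ?_, s, hs0, ?_⟩
  · rintro rfl
    exact hβ0 (map_zero _)
  · intro y u hy hu hbu
    obtain ⟨y₁, hy₁⟩ := hball (hpbTauBase K τ u) hu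
    have h1 : β = Algebra.norm (hpbKloc K τ) (hpbTau K τ y) * (y₁ : hpbKloc K τ) ^ d := by
      rw [wild_norm_tau K τ hbij, hy₁, hβ, hbu, map_mul]
    have h2 : β = b₀ * (y₀ : hpbKloc K τ) ^ d := by
      rw [hy₀]
      field_simp
    have hw0 : hpbTau K τ y *
        algebraMap (hpbKloc K τ) (hpbLloc K τ) ((y₁ : hpbKloc K τ) / y₀) ≠ 0 := by
      refine mul_ne_zero ((map_ne_zero _).2 hy) ((map_ne_zero _).2 ?_)
      exact div_ne_zero y₁.ne_zero y₀.ne_zero
    apply hb₀ (Units.mk0 _ hw0)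
    rw [Units.val_mk0, map_mul, Algebra.norm_algebraMap, ← hd, div_pow]
    have hy₀d : (y₀ : hpbKloc K τ) ^ d ≠ 0 := pow_ne_zero _ y₀.ne_zero
    rw [← mul_div_assoc, div_eq_iff hy₀d, ← h1, h2]

end Main

end Fermat.Agent.S55
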