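import Mathlib
import Fermat.Agent.S55.WildLocal
import Fermat.Agent.S55.HpbNonsplit
import Fermat.Agent.S55.KsiDefs

/-!
# S55, block WILD: the local norm index at a nonsplit prime is `> 1`

`wild_norm_index`: for a Galois extension `L/K` of number fields of prime degree `p` and a prime
`v` of `K` with exactly one prime of `L` above it, `N_{L/K}(Lˣ) · U_v^{(n)} ≠ Kˣ` for some `n`
(all primes `v`: tame, inert, wild alike).  This is the local input `hwild` of the Hasse norm
theorem.  Proof: embed `K` in `PadicAlgCl q` inducing `v` (`linf_exists_embedding`), extend to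
`L`; nonsplit means `τ L ⊄ K_τ` (`hpb_nonsplit_not_mem`), then `wild_local`.
-/

set_option autoImplicit false

namespace Fermat.Agent.S55

open IsDedekindDomain NumberField WithZero

/-- Small valuation at the prime induced by `σ` forces small `σ`-norm. -/
theorem wild_norm_le_pow (q : ℕ) [Fact q.Prime] {K : Type*} [Field K] [NumberField K]
    (σ : K →+* PadicAlgCl q) :
    ∃ c : ℝ, 0 < c ∧ c < 1 ∧ ∀ (z : K) (n : ℕ),
      (linf_prime q σ).valuation K z ≤ exp (-(n : ℤ)) → ‖σ z‖ ≤ c ^ n := by
  obtain ⟨π, hπ⟩ := (linf_prime q σ).valuation_exists_uniformizer K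
  have hπ0 : π ≠ 0 := by
    rintro rfl
    rw [map_zero] at hπ
    exact exp_ne_zero hπ.symm
  have hc0 : 0 < ‖σ π‖ := norm_pos_iff.2 ((map_ne_zero σ).2 hπ0)
  refine ⟨‖σ π‖, hc0, linf_norm_lt_one_of_valuation_lt_one q σ π ?_, ?_⟩
  · rw [hπ, ← exp_zero, exp_lt_exp]
    norm_num
  · intro z n hz
    have h1 : (linf_prime q σ).valuation K (z / π ^ n) ≤ 1 := by
      rw [map_div₀, map_pow, hπ, ← exp_nsmul, div_le_one₀ exp_pos]
      have : (n • (-1 : ℤ)) = -(n : ℤ) := by simp
      rw [this]
      exact hz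
    have h2 := hpb_norm_le_one_of_valuation_le_one q σ _ h1
    rw [map_div₀, map_pow, norm_div, norm_pow, div_le_one (pow_pos hc0 n)] at h2
    exact h2

/-- **WILD.**  At a nonsplit prime of a Galois extension of prime degree, the group of local
norms (to some finite precision) is a proper subgroup of `Kˣ`. -/
theorem wild_norm_index (p : ℕ) [Fact p.Prime] (K : Type) [Field K] [NumberField K] (L : Type)
    [Field L] [NumberField L] [Algebra K L] [IsGalois K L] (hL : Module.finrank K L = p)
    (v : HeightOneSpectrum (𝓞 K)) (hns : suNonsplit K L v) : ∃ n, ksiNorm K L v n ≠ ⊤ := by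
  obtain ⟨q, hq, σ, rfl⟩ := linf_exists_embedding v
  obtain ⟨τ, rfl⟩ := linf_exists_extension q σ (F := L)
  have hx := hpb_nonsplit_not_mem q (hpb_exists_ne_one (Fact.out : p.Prime) hL) τ hns
  obtain ⟨b, hb0, s, hs0, hb⟩ := wild_local p K τ hL hx
  obtain ⟨c, hc0, hc1, hc⟩ := wild_norm_le_pow q (τ.comp (algebraMap K L))
  obtain ⟨n, hn⟩ := exists_pow_lt_of_lt_one hs0 hc1
  refine ⟨n, fun htop => ?_⟩
  have hmem : Units.mk0 b hb0 ∈ ksiNorm K L (linf_prime q (τ.comp (algebraMap K L))) n :=
    htop ▸ Subgroup.mem_top _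
  obtain ⟨y, u, hu, hyu⟩ := mem_ksiNorm_iff.1 hmem
  refine hb (y : L) (u : K) y.ne_zero ?_ ?_
  · have h1 := hc ((u : K) - 1) n hu.2
    rw [RingHom.comp_apply, map_sub, map_sub, map_one, map_one] at h1
    exact h1.trans hn.le
  · have h2 := congrArg Units.val hyu
    rw [Units.val_mul, Units.val_mk0] at h2
    exact h2.symm

end Fermat.Agent.S55
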