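import Mathlib
import Fermat.Agent.S55.HpbMain
import Fermat.Agent.S55.FiHasseMain
import Fermat.Agent.S55.WildNorm

/-!
# S55, block HPB: the cohomological Hasse principle, hypothesis-free form

`hpb_main'` is `hpb_main` with the Hasse norm theorem discharged by helper1's `fi_hasse_norm`
and helper21's `wild_norm_index` (this costs the hypothesis `p ≠ 2`).
-/

set_option autoImplicit false

namespace Fermat.Agent.S55

open groupCohomology IsDedekindDomain NumberField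

/-- The Hasse norm theorem for cyclic extensions of prime degree `p ≠ 2` containing `ζ_p`, in
the shape consumed by `hpb_main`. -/
theorem hpb_hnt_full (p : ℕ) [Fact p.Prime] (hp2 : p ≠ 2)
    (K₀ F₀ : Type) [Field K₀] [NumberField K₀] [Field F₀] [NumberField F₀]
    [Algebra K₀ F₀] [IsGalois K₀ F₀] (hdeg : Module.finrank K₀ F₀ = p)
    (hζ : ∃ ζ : K₀, IsPrimitiveRoot ζ p) (x : K₀ˣ)
    (hx : ∀ v, suNonsplit K₀ F₀ v → ∀ n, x ∈ ksiNorm K₀ F₀ v n) :
    ∃ y : F₀ˣ, Units.map (Algebra.norm K₀ : F₀ →* K₀) y = x := by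
  obtain ⟨ζ, hζ⟩ := hζ
  exact fi_hasse_norm p hp2 K₀ hζ F₀ hdeg
    (fun v _ hns => wild_norm_index p K₀ F₀ hdeg v hns) x hx

variable {K L : Type} [Field K] [NumberField K] [Field L] [NumberField L] [Algebra K L]
  [IsGalois K L]

/-- **Cohomological Hasse principle for `p`-primary classes of `H²(Gal(L/K), Lˣ)`**, `p ≠ 2`,
`ζ_p ∈ K`: no hypotheses left. -/
theorem hpb_main' (p : ℕ) [Fact p.Prime] (hp2 : p ≠ 2)
    (hζ : ∃ ζ : K, IsPrimitiveRoot ζ p)
    (x : (L ≃ₐ[K] L) × (L ≃ₐ[K] L) → Lˣ) (hx : IsMulCocycle₂ x)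
    (hp : ∃ m : ℕ, IsMulCoboundary₂ (fun g => x g ^ p ^ m))
    (hloc : ∀ (q : ℕ) [Fact q.Prime] (τ : L →+* PadicAlgCl q), hpbLocTriv K τ x) :
    IsMulCoboundary₂ x :=
  hpb_main p (fun K₀ F₀ _ _ _ _ _ _ hdeg hζ' x' hx' => hpb_hnt_full p hp2 K₀ F₀ hdeg hζ' x' hx')
    hζ x hx hp hloc

end Fermat.Agent.S55
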