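/-
S55 block HPB, piece P5 (local input), part 4: reverse bridges and the nonsplit case.

For a number field `K` and `σ : K →+* PadicAlgCl q`, `v = linf_prime q σ`:
* `linf_norm_le_one_of_valuation_le_one`, `linf_norm_eq_one_of_valuation_eq_one`,
  `linf_valuation_eq_one_of_norm_eq_one`;
* `linf_exists_norm_le_pow` : `∃ c ∈ (0,1), ∀ z n, v z ≤ exp (-n) → ‖σ z‖ ≤ c ^ n`;
* `linf_norm_eq_of_prime_eq` : embeddings inducing the same prime induce the same norm;
* `linf_prime_under` : compatibility with `HeightOneSpectrum.under`;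
* `linf_norm_algEquiv_of_nonsplit` : at a nonsplit prime every `s ∈ Gal(L/K)` is a `τ`-isometry;
* `linf_nonsplit` (P-b) : at a nonsplit prime `τ L ⊄ K_τ`;
* `linf_nonsplit_exists_hpbPsi_ne_one` : hence `∃ t ∈ Gal(L_τ/K_τ)`, `hpbPsi K τ t ≠ 1`.
-/
import Mathlib
import Fermat.Agent.S55.LocInfVal
import Fermat.Agent.S55.HpbDefs
import Fermat.Agent.S55.SUnitHq

namespace Fermat.Agent.S55

open NumberField IsDedekindDomain

section Bridges

variable (q : ℕ) [Fact q.Prime] {K : Type*} [Field K] [NumberField K] (σ : K →+* PadicAlgCl q)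

theorem linf_norm_le_one_of_valuation_le_one (z : K)
    (h : (linf_prime q σ).valuation K z ≤ 1) : ‖σ z‖ ≤ 1 := by
  obtain ⟨n, d, hnd⟩ := (linf_prime q σ).exists_primeCompl_mul_eq_of_integer z h
  have hd : ‖σ (algebraMap (𝓞 K) K (d : 𝓞 K))‖ = 1 := by
    refine le_antisymm (linf_norm_integer_le_one q σ d) (not_lt.1 ?_)
    exact fun hlt => d.2 ((linf_mem_prime_iff q σ d).2 hlt)
  have h1 := congrArg (fun t => ‖σ t‖) hnd
  simp only [map_mul, norm_mul] at h1
  rw [hd, mul_one] at h1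
  rw [h1]
  exact linf_norm_integer_le_one q σ n

theorem linf_norm_eq_one_of_valuation_eq_one (z : K)
    (h : (linf_prime q σ).valuation K z = 1) : ‖σ z‖ = 1 := by
  have hz : z ≠ 0 := by
    rintro rfl
    simp at h
  apply le_antisymm (linf_norm_le_one_of_valuation_le_one q σ z h.le)
  have h2 : (linf_prime q σ).valuation K z⁻¹ ≤ 1 := by rw [map_inv₀, h, inv_one]
  have h3 := linf_norm_le_one_of_valuation_le_one q σ z⁻¹ h2
  rw [map_inv₀, norm_inv] at h3
  have h4 : 0 < ‖σ z‖ := norm_pos_iff.2 ((map_ne_zero σ).2 hz)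
  exact (inv_le_one₀ h4).1 h3

theorem linf_valuation_eq_one_of_norm_eq_one (z : K) (h : ‖σ z‖ = 1) :
    (linf_prime q σ).valuation K z = 1 := by
  apply le_antisymm (linf_valuation_le_one_of_norm_le_one q σ z h.le)
  by_contra hcon
  push Not at hcon
  have := linf_norm_lt_one_of_valuation_lt_one q σ z hcon
  rw [h] at this
  exact lt_irrefl _ this

/-- Reverse bridge with an explicit rate: `v z ≤ exp (-n) → ‖σ z‖ ≤ c ^ n`. -/
theorem linf_exists_norm_le_pow : ∃ c : ℝ, 0 < c ∧ c < 1 ∧ ∀ (z : K) (n : ℕ),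
    (linf_prime q σ).valuation K z ≤ WithZero.exp (-(n : ℤ)) → ‖σ z‖ ≤ c ^ n := by
  obtain ⟨π, hπ⟩ := (linf_prime q σ).valuation_exists_uniformizer K
  have hπ0 : π ≠ 0 := by
    rintro rfl
    rw [map_zero] at hπ
    exact WithZero.exp_ne_zero hπ.symm
  have hσπ : 0 < ‖σ π‖ := norm_pos_iff.2 ((map_ne_zero σ).2 hπ0)
  refine ⟨‖σ π‖, hσπ, ?_, ?_⟩
  · apply linf_norm_lt_one_of_valuation_lt_one
    rw [hπ, ← WithZero.exp_zero, WithZero.exp_lt_exp]
    norm_num
  · intro z n hz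
    have hpow : (linf_prime q σ).valuation K (π ^ n) = WithZero.exp (-(n : ℤ)) := by
      rw [map_pow, hπ, ← WithZero.exp_nsmul]
      simp
    have h1 : (linf_prime q σ).valuation K (z / π ^ n) ≤ 1 := by
      rw [map_div₀, hpow]
      exact div_le_one_of_le₀ hz zero_le
    have h2 := linf_norm_le_one_of_valuation_le_one q σ _ h1
    rw [map_div₀, map_pow, norm_div, norm_pow, div_le_one (by positivity)] at h2
    exact h2

/-- Embeddings inducing the same prime induce the same absolute value. -/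
theorem linf_norm_eq_of_prime_eq (σ' : K →+* PadicAlgCl q)
    (h : linf_prime q σ = linf_prime q σ') (x : K) : ‖σ x‖ = ‖σ' x‖ := by
  by_cases hx : x = 0
  · simp [hx]
  have hq1 : (1 : ℝ) < q := by exact_mod_cast (Fact.out : q.Prime).one_lt
  have hqK : ((q : ℕ) : K) ≠ 0 := by exact_mod_cast (Fact.out : q.Prime).ne_zero
  have hx0 : (linf_prime q σ).valuation K x ≠ 0 := (map_ne_zero _).2 hx
  have hq0 : (linf_prime q σ).valuation K ((q : ℕ) : K) ≠ 0 := (map_ne_zero _).2 hqK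
  set a : ℤ := WithZero.log ((linf_prime q σ).valuation K x) with ha_def
  set e : ℤ := -WithZero.log ((linf_prime q σ).valuation K ((q : ℕ) : K)) with he_def
  have ha : (linf_prime q σ).valuation K x = WithZero.exp a := (WithZero.exp_log hx0).symm
  have he : (linf_prime q σ).valuation K ((q : ℕ) : K) = WithZero.exp (-e) := by
    rw [he_def, neg_neg]
    exact (WithZero.exp_log hq0).symm
  have hepos : 0 < e := by
    have h1 : (linf_prime q σ).valuation K (algebraMap (𝓞 K) K ((q : ℕ) : 𝓞 K)) < 1 :=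
      (HeightOneSpectrum.valuation_lt_one_iff_mem _ _).2 (linf_natCast_mem q σ)
    rw [map_natCast, he, ← WithZero.exp_zero, WithZero.exp_lt_exp] at h1
    omega
  obtain ⟨E, hE⟩ : ∃ E : ℕ, (E : ℤ) = e := ⟨e.toNat, Int.toNat_of_nonneg hepos.le⟩
  have hE0 : E ≠ 0 := by
    rintro rfl
    simp at hE
    omega
  set z : K := x ^ E * ((q : ℕ) : K) ^ a with hz_def
  have hz : (linf_prime q σ).valuation K z = 1 := by
    rw [hz_def, map_mul, map_pow, map_zpow₀, ha, he, ← WithZero.exp_nsmul, ← WithZero.exp_zsmul,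
      ← WithZero.exp_add, ← WithZero.exp_zero, WithZero.exp_inj]
    rw [← hE]
    simp only [nsmul_eq_mul, smul_eq_mul]
    ring
  have h1 := linf_norm_eq_one_of_valuation_eq_one q σ z hz
  have h2 := linf_norm_eq_one_of_valuation_eq_one q σ' z (by rw [← h]; exact hz)
  have key : ∀ ρ : K →+* PadicAlgCl q, ‖ρ z‖ = ‖ρ x‖ ^ E * ((q : ℝ)⁻¹) ^ a := by
    intro ρ
    rw [hz_def, map_mul, map_pow, map_zpow₀, map_natCast, norm_mul, norm_pow, norm_zpow,
      linf_norm_natCast_self]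
  rw [key] at h1 h2
  have hne : ((q : ℝ)⁻¹) ^ a ≠ 0 := zpow_ne_zero _ (inv_ne_zero (by positivity))
  have h3 : ‖σ x‖ ^ E = ‖σ' x‖ ^ E := mul_right_cancel₀ hne (h1.trans h2.symm)
  exact (pow_left_inj₀ (norm_nonneg _) (norm_nonneg _) hE0).1 h3

end Bridges

section Under

variable (q : ℕ) [Fact q.Prime] {K L : Type*} [Field K] [NumberField K] [Field L] [NumberField L]
  [Algebra K L] (τ : L →+* PadicAlgCl q)

theorem linf_prime_under :
    (linf_prime q τ).under (𝓞 K) = linf_prime q (τ.comp (algebraMap K L)) := by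
  apply HeightOneSpectrum.ext
  ext a
  change ‖τ (algebraMap (𝓞 L) L (algebraMap (𝓞 K) (𝓞 L) a))‖ < 1 ↔
    ‖τ (algebraMap K L (algebraMap (𝓞 K) K a))‖ < 1
  rw [← IsScalarTower.algebraMap_apply (𝓞 K) (𝓞 L) L, ← IsScalarTower.algebraMap_apply (𝓞 K) K L]

/-- At a nonsplit prime, every `K`-automorphism of `L` is an isometry for `‖τ ·‖`. -/
theorem linf_norm_algEquiv_of_nonsplit
    (hns : suNonsplit K L (linf_prime q (τ.comp (algebraMap K L)))) (s : L ≃ₐ[K] L) (x : L) :
    ‖τ (s x)‖ = ‖τ x‖ := by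
  have h := hns (linf_prime q (τ.comp (s : L →+* L))) (linf_prime q τ) ?_ (linf_prime_under q τ)
  · exact linf_norm_eq_of_prime_eq q _ _ h x
  · rw [linf_prime_under]
    congr 1
    ext k
    simp

end Under

section Nonsplit

variable (q : ℕ) [Fact q.Prime] {K L : Type} [Field K] [NumberField K] [Field L] [NumberField L]
  [Algebra K L] (τ : L →+* PadicAlgCl q)

/-- **(P-b)**: at a nonsplit prime of a nontrivial Galois extension, `τ L ⊄ K_τ`. -/
theorem linf_nonsplit [IsGalois K L] (hdeg : 1 < Module.finrank K L)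
    (hns : suNonsplit K L (linf_prime q (τ.comp (algebraMap K L)))) :
    ∃ x : L, τ x ∉ hpbKloc K τ := by
  by_contra hcon
  push Not at hcon
  have hs : ∀ s : L ≃ₐ[K] L, s = 1 := by
    intro s
    ext x
    apply τ.injective
    by_contra hne
    have hpos : 0 < ‖τ (s x) - τ x‖ := norm_pos_iff.2 (sub_ne_zero.2 hne)
    obtain ⟨c, hc⟩ := linf_dense q (τ.comp (algebraMap K L)) (hcon x) (half_pos hpos)
    rw [RingHom.comp_apply] at hc
    have h1 : ‖τ (s x) - τ (algebraMap K L c)‖ = ‖τ x - τ (algebraMap K L c)‖ := by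
      rw [← map_sub, ← map_sub]
      conv_lhs => rw [← s.commutes c, ← map_sub]
      exact linf_norm_algEquiv_of_nonsplit q τ hns s _
    have h2 : ‖τ (s x) - τ x‖ ≤
        ‖τ (s x) - τ (algebraMap K L c)‖ + ‖τ (algebraMap K L c) - τ x‖ :=
      norm_sub_le_norm_sub_add_norm_sub _ _ _
    rw [h1, norm_sub_rev (τ x)] at h2
    linarith
  have hcard := IsGalois.card_aut_eq_finrank K L
  have h1 : Nat.card (L ≃ₐ[K] L) = 1 := by
    have : Subsingleton (L ≃ₐ[K] L) := ⟨fun a b => by rw [hs a, hs b]⟩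
    exact Nat.card_unique
  omega

end Nonsplit

section HpbNormal

variable {q : ℕ} [Fact q.Prime] (K : Type) {L : Type} [Field K] [Field L] [Algebra K L]
  (τ : L →+* PadicAlgCl q)

/-- For `L/K` normal, an automorphism of `PadicAlgCl q` fixing `τ K` maps `τ L` into itself. -/
theorem linf_map_tau_mem [Normal K L] (g : PadicAlgCl q ≃ₐ[ℚ_[q]] PadicAlgCl q)
    (hg : ∀ k : K, g (τ (algebraMap K L k)) = τ (algebraMap K L k)) (x : L) :
    ∃ x' : L, τ x' = g (τ x) := by
  letI : Algebra K (PadicAlgCl q) := (τ.comp (algebraMap K L)).toAlgebra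
  letI : Algebra L (PadicAlgCl q) := τ.toAlgebra
  haveI : IsScalarTower K L (PadicAlgCl q) := IsScalarTower.of_algebraMap_eq fun _ => rfl
  let φ : PadicAlgCl q →ₐ[K] PadicAlgCl q :=
    { (g : PadicAlgCl q →+* PadicAlgCl q) with commutes' := hg }
  exact ⟨φ.restrictNormal L x, AlgHom.restrictNormal_commutes φ L x⟩

theorem linf_tau_mem_hpbLloc (x : L) : τ x ∈ hpbLloc K τ :=
  IntermediateField.subset_adjoin _ _ ⟨x, rfl⟩

/-- `L_τ / K_τ` is normal when `L / K` is. -/
theorem linf_hpb_normal [Normal K L] : Normal (hpbKloc K τ) (hpbLloc K τ) := by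
  rw [IntermediateField.normal_iff_forall_map_le']
  intro σ
  rw [hpbLloc, IntermediateField.adjoin_map, IntermediateField.adjoin_le_iff]
  rintro _ ⟨_, ⟨x, rfl⟩, rfl⟩
  obtain ⟨x', hx'⟩ := linf_map_tau_mem K τ (σ.restrictScalars ℚ_[q]) (fun k =>
    σ.commutes ⟨τ (algebraMap K L k), IntermediateField.subset_adjoin _ _ ⟨k, rfl⟩⟩) x
  have h1 : σ (τ x) = τ x' := hx'.symm
  change σ (τ x) ∈ _
  rw [h1]
  exact IntermediateField.subset_adjoin _ _ ⟨x', rfl⟩

/-- If `τ x ∉ K_τ` then some `t ∈ Gal(L_τ/K_τ)` moves `x` (through `hpbPsi`). -/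
theorem linf_exists_hpbPsi_apply_ne [Normal K L] (x : L) (hx : τ x ∉ hpbKloc K τ) :
    ∃ t : hpbLloc K τ ≃ₐ[hpbKloc K τ] hpbLloc K τ, hpbPsi K τ t x ≠ x := by
  haveI := linf_hpb_normal K τ
  have h1 : τ x ∉ IntermediateField.fixedField (hpbKloc K τ).fixingSubgroup := by
    rw [InfiniteGalois.fixedField_fixingSubgroup]
    exact hx
  rw [IntermediateField.mem_fixedField_iff] at h1
  push Not at h1
  obtain ⟨g, hg, hgx⟩ := h1
  let g' : PadicAlgCl q ≃ₐ[hpbKloc K τ] PadicAlgCl q :=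
    IntermediateField.fixingSubgroupEquiv (hpbKloc K τ) ⟨g, hg⟩
  refine ⟨g'.restrictNormal (hpbLloc K τ), fun h => hgx ?_⟩
  have h2 := hpbPsi_spec K τ (g'.restrictNormal (hpbLloc K τ)) x
  rw [h] at h2
  have h3 := AlgEquiv.restrictNormal_commutes g' (hpbLloc K τ) (hpbTau K τ x)
  rw [← h2] at h3
  exact h3.symm

end HpbNormal

section NonsplitHpb

variable (q : ℕ) [Fact q.Prime] {K L : Type} [Field K] [NumberField K] [Field L] [NumberField L]
  [Algebra K L] (τ : L →+* PadicAlgCl q)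

/-- **(P-b)**, `hpbPsi` form: at a nonsplit prime of a nontrivial Galois extension there is
`t ∈ Gal(L_τ/K_τ)` with `hpbPsi K τ t ≠ 1`. -/
theorem linf_nonsplit_exists_hpbPsi_ne_one [IsGalois K L] (hdeg : 1 < Module.finrank K L)
    (hns : suNonsplit K L (linf_prime q (τ.comp (algebraMap K L)))) :
    ∃ t : hpbLloc K τ ≃ₐ[hpbKloc K τ] hpbLloc K τ, hpbPsi K τ t ≠ 1 := by
  obtain ⟨x, hx⟩ := linf_nonsplit q τ hdeg hns
  obtain ⟨t, ht⟩ := linf_exists_hpbPsi_apply_ne K τ x hx
  exact ⟨t, fun h => ht (by rw [h]; rfl)⟩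

end NonsplitHpb

end Fermat.Agent.S55
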