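/-
S55 block HPB, piece P5 (local input), part 5: density in `ksiNorm` form (helper20's (C)).

* `linf_mem_ksiNorm`      : flexible form — `g` a `ℚ_q`-automorphism of `PadicAlgCl q` inducing a
                            generator `s` of `Gal(F/K)` on `τ F`, `y ∈ ℚ_q(τ F)` with
                            `τ b = ∏_{k<[F:K]} g^k y`  ⟹  `∀ n, b ∈ ksiNorm K F v_τ n`.
* `linf_mem_ksiNorm_hpb`  : the same in the `HpbDefs` model (`t ∈ Gal(F_τ/K_τ)`, `y ∈ F_τ`).
* `linf_mem_ksiNorm_hpb_prime` : prime degree, `hpbPsi K τ t ≠ 1`.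
-/
import Mathlib
import Fermat.Agent.S55.LocInfVal2
import Fermat.Agent.S55.KsiDefs

namespace Fermat.Agent.S55

open NumberField IsDedekindDomain

/-- **(C), flexible form.** -/
theorem linf_mem_ksiNorm (q : ℕ) [Fact q.Prime] {K F : Type*} [Field K] [NumberField K]
    [Field F] [Algebra K F] [FiniteDimensional K F] [IsGalois K F]
    (τ : F →+* PadicAlgCl q) (s : F ≃ₐ[K] F) (hs : ∀ σ : F ≃ₐ[K] F, σ ∈ Subgroup.zpowers s)
    (g : PadicAlgCl q ≃ₐ[ℚ_[q]] PadicAlgCl q) (hg : ∀ x, g (τ x) = τ (s x))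
    (b : Kˣ) (y : PadicAlgCl q) (hy : y ∈ IntermediateField.adjoin ℚ_[q] (Set.range τ))
    (hby : τ (algebraMap K F b) = ∏ k ∈ Finset.range (Module.finrank K F), (g ^ k) y) (n : ℕ) :
    b ∈ ksiNorm K F (linf_prime q (τ.comp (algebraMap K F))) n := by
  classical
  set N := Module.finrank K F with hN
  have hcard : Fintype.card (F ≃ₐ[K] F) = N := by
    rw [← Nat.card_eq_fintype_card, IsGalois.card_aut_eq_finrank]
  have hb0 : (b : K) ≠ 0 := b.ne_zero
  have hτb : τ (algebraMap K F b) ≠ 0 := (map_ne_zero _).2 ((map_ne_zero _).2 hb0)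
  have hy0 : y ≠ 0 := by
    rintro rfl
    apply hτb
    rw [hby]
    have hN0 : 0 < N := Module.finrank_pos
    exact Finset.prod_eq_zero (Finset.mem_range.2 hN0) (by simp)
  have hgpow : ∀ (k : ℕ) (x : F), (g ^ k) (τ x) = τ ((s ^ k) x) := by
    intro k
    induction k with
    | zero => intro x; rfl
    | succ k ih =>
      intro x
      rw [pow_succ, pow_succ, AlgEquiv.mul_apply, AlgEquiv.mul_apply, hg, ih]
  set P : PadicAlgCl q → PadicAlgCl q := fun z => ∏ k ∈ Finset.range N, (g ^ k) z with hP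
  have hPcont : Continuous P :=
    continuous_finsetProd _ (fun k _ => linf_continuous_algEquiv q (g ^ k))
  have hPτ : ∀ y' : F, P (τ y') = τ (algebraMap K F (Algebra.norm K y')) := by
    intro y'
    rw [Algebra.norm_eq_prod_automorphisms, linf_prod_pow s hs, hcard, map_prod]
    exact Finset.prod_congr rfl (fun k _ => hgpow k y')
  -- approximate
  have hq1 : (1 : ℝ) < q := by exact_mod_cast (Fact.out : q.Prime).one_lt
  have hq0 : (0 : ℝ) < q := by linarith
  set ε : ℝ := (q : ℝ) ^ (-((n + 1 : ℕ) : ℤ)) with hε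
  have hεpos : 0 < ε := zpow_pos hq0 _
  have hεlt : ε < 1 := by
    rw [hε, zpow_neg, zpow_natCast]
    exact inv_lt_one_of_one_lt₀ (one_lt_pow₀ hq1 (Nat.succ_ne_zero n))
  set B : ℝ := ‖τ (algebraMap K F b)‖ with hB
  have hBpos : 0 < B := norm_pos_iff.2 hτb
  set ε' : ℝ := ε * B / 2 with hε'
  have hε'pos : 0 < ε' := by positivity
  obtain ⟨δ, hδ, hcont⟩ := (Metric.continuous_iff.1 hPcont) y ε' hε'pos
  obtain ⟨y', hy'⟩ := linf_dense q τ hy (lt_min hδ (norm_pos_iff.2 hy0))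
  have hy'0 : y' ≠ 0 := by
    rintro rfl
    rw [map_zero, zero_sub, norm_neg] at hy'
    exact absurd (lt_of_lt_of_le hy' (min_le_right _ _)) (lt_irrefl _)
  have h1 : ‖P (τ y') - P y‖ < ε' := by
    have := hcont (τ y') (by rw [dist_eq_norm]; exact lt_of_lt_of_le hy' (min_le_left _ _))
    rwa [dist_eq_norm] at this
  rw [hPτ] at h1
  have hPy : P y = τ (algebraMap K F b) := hby.symm
  rw [hPy] at h1
  set Nv := τ (algebraMap K F (Algebra.norm K y')) with hNv
  have hNvB : B / 2 ≤ ‖Nv‖ := by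
    have h2 : B ≤ ‖Nv‖ + ‖Nv - τ (algebraMap K F b)‖ := by
      have := norm_sub_le Nv (Nv - τ (algebraMap K F b))
      rwa [sub_sub_cancel] at this
    have h3 : ε' ≤ B / 2 := by
      rw [hε']
      nlinarith
    linarith
  have hNv0 : Nv ≠ 0 := norm_pos_iff.1 (lt_of_lt_of_le (by positivity) hNvB)
  have hnorm0 : Algebra.norm K y' ≠ 0 := by
    intro h0
    apply hNv0
    rw [hNv, h0, map_zero, map_zero]
  set u : K := (b : K) / Algebra.norm K y' with hu
  have hu0 : u ≠ 0 := div_ne_zero hb0 hnorm0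
  set σ : K →+* PadicAlgCl q := τ.comp (algebraMap K F) with hσ
  have h4 : σ u - 1 = (τ (algebraMap K F b) - Nv) / Nv := by
    rw [hσ, RingHom.comp_apply, hu, map_div₀, map_div₀, sub_div, div_self hNv0]
  have h5 : ‖σ u - 1‖ < ε := by
    rw [h4, norm_div, norm_sub_rev, div_lt_iff₀ (norm_pos_iff.2 hNv0)]
    calc ‖Nv - τ (algebraMap K F b)‖ < ε' := h1
      _ = ε * (B / 2) := by rw [hε']; ring
      _ ≤ ε * ‖Nv‖ := mul_le_mul_of_nonneg_left hNvB hεpos.le
  -- ‖σ u‖ = 1
  have h6 : ‖σ u‖ = 1 := by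
    have h7 : ‖σ u - 1‖ < 1 := h5.trans hεlt
    apply le_antisymm
    · have := IsUltrametricDist.norm_add_le_max (σ u - 1) 1
      rw [sub_add_cancel, norm_one] at this
      exact this.trans (max_le h7.le le_rfl)
    · by_contra hlt
      push Not at hlt
      have := IsUltrametricDist.norm_add_le_max (σ u) (-(σ u - 1))
      have h9 : σ u + -(σ u - 1) = 1 := by ring
      rw [norm_neg, h9, norm_one] at this
      exact absurd this (not_le.2 (max_lt hlt h7))
  rw [mem_ksiNorm_iff]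
  refine ⟨Units.mk0 y' hy'0, Units.mk0 u hu0, ?_, ?_⟩
  · rw [mem_ksiU_iff]
    refine ⟨linf_valuation_eq_one_of_norm_eq_one q σ u h6, ?_⟩
    have h8 := linf_valuation_le q σ (u - 1) (n + 1) (by rw [map_sub, map_one]; exact h5.le)
    refine h8.trans ?_
    rw [WithZero.exp_le_exp]
    push_cast
    omega
  · apply Units.ext
    simp only [Units.val_mul, Units.coe_map, Units.val_mk0]
    rw [hu, mul_div_cancel₀ _ hnorm0]

section Hpb

variable (q : ℕ) [Fact q.Prime] {K F : Type} [Field K] [NumberField K] [Field F] [Algebra K F]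
  [FiniteDimensional K F] [IsGalois K F] (τ : F →+* PadicAlgCl q)

/-- The underlying set of `hpbLloc K τ` is `ℚ_q(τ F)`. -/
theorem linf_mem_hpbLloc_iff {K F : Type} [Field K] [Field F] [Algebra K F]
    (τ : F →+* PadicAlgCl q) (z : PadicAlgCl q) :
    z ∈ hpbLloc K τ ↔ z ∈ IntermediateField.adjoin ℚ_[q] (Set.range τ) := by
  have h1 := IntermediateField.adjoin_adjoin_left ℚ_[q]
    (Set.range (τ.comp (algebraMap K F))) (Set.range τ)
  have h2 : Set.range (τ.comp (algebraMap K F)) ∪ Set.range τ = Set.range τ := by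
    apply Set.union_eq_self_of_subset_left
    rintro _ ⟨k, rfl⟩
    exact ⟨algebraMap K F k, rfl⟩
  rw [h2] at h1
  rw [← h1]
  rfl

/-- **(C), `HpbDefs` form.** -/
theorem linf_mem_ksiNorm_hpb (t : hpbLloc K τ ≃ₐ[hpbKloc K τ] hpbLloc K τ)
    (ht : ∀ σ : F ≃ₐ[K] F, σ ∈ Subgroup.zpowers (hpbPsi K τ t))
    (b : Kˣ) (y : hpbLloc K τ)
    (hby : hpbTau K τ (algebraMap K F b) =
      ∏ k ∈ Finset.range (Module.finrank K F), (t ^ k) y) (n : ℕ) :
    b ∈ ksiNorm K F (linf_prime q (τ.comp (algebraMap K F))) n := by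
  let g' : PadicAlgCl q ≃ₐ[hpbKloc K τ] PadicAlgCl q := t.liftNormal (PadicAlgCl q)
  have hg' : ∀ z : hpbLloc K τ, g' (z : PadicAlgCl q) = ((t z : hpbLloc K τ) : PadicAlgCl q) :=
    fun z => AlgEquiv.liftNormal_commutes t (PadicAlgCl q) z
  let g : PadicAlgCl q ≃ₐ[ℚ_[q]] PadicAlgCl q := g'.restrictScalars ℚ_[q]
  have hg : ∀ x, g (τ x) = τ (hpbPsi K τ t x) := by
    intro x
    have h1 := hg' (hpbTau K τ x)
    rw [← hpbPsi_spec] at h1
    exact h1
  have hgpow : ∀ (k : ℕ) (z : hpbLloc K τ),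
      (g ^ k) (z : PadicAlgCl q) = (((t ^ k) z : hpbLloc K τ) : PadicAlgCl q) := by
    intro k
    induction k with
    | zero => intro z; rfl
    | succ k ih =>
      intro z
      rw [pow_succ, pow_succ, AlgEquiv.mul_apply, AlgEquiv.mul_apply, ← ih]
      exact congrArg _ (hg' z)
  refine linf_mem_ksiNorm q τ (hpbPsi K τ t) ht g hg b (y : PadicAlgCl q)
    ((linf_mem_hpbLloc_iff q τ _).1 y.2) ?_ n
  have h1 := congrArg (fun z : hpbLloc K τ => (z : PadicAlgCl q)) hby
  simp only [hpbTau_coe] at h1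
  rw [h1]
  have h2 : (((∏ k ∈ Finset.range (Module.finrank K F), (t ^ k) y : hpbLloc K τ)) :
      PadicAlgCl q) = ∏ k ∈ Finset.range (Module.finrank K F),
        (((t ^ k) y : hpbLloc K τ) : PadicAlgCl q) :=
    map_prod (algebraMap (hpbLloc K τ) (PadicAlgCl q)) _ _
  rw [h2]
  exact Finset.prod_congr rfl (fun k _ => (hgpow k y).symm)

/-- **(C), `HpbDefs` form, prime degree**: any `t` with `hpbPsi K τ t ≠ 1` works. -/
theorem linf_mem_ksiNorm_hpb_prime (hp : (Module.finrank K F).Prime)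
    (t : hpbLloc K τ ≃ₐ[hpbKloc K τ] hpbLloc K τ) (ht : hpbPsi K τ t ≠ 1)
    (b : Kˣ) (y : hpbLloc K τ)
    (hby : hpbTau K τ (algebraMap K F b) =
      ∏ k ∈ Finset.range (Module.finrank K F), (t ^ k) y) (n : ℕ) :
    b ∈ ksiNorm K F (linf_prime q (τ.comp (algebraMap K F))) n := by
  have : Fact (Module.finrank K F).Prime := ⟨hp⟩
  exact linf_mem_ksiNorm_hpb q τ t
    (fun σ => mem_zpowers_of_prime_card (IsGalois.card_aut_eq_finrank K F) ht) b y hby n

end Hpb

end Fermat.Agent.S55
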