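/-
S55 block HPB, piece P5 (local input), part 6: absolute local triviality ⟹ `hpbLocTriv`.

* `linf_descent_cocycle` : unnormalised descent (Hilbert 90 in the limit + twisting): the
  pull-back of a 2-cocycle which is the coboundary of a finite-level cochain on the absolute
  local group is the coboundary of a cochain inflated from `Gal(k(τF)/…)` with values in `k(τF)`.
* `linf_hpbLocTriv` : helper20's (A): for `IsMulCocycle₂ x`, a finite-level `θ : G → Ωˣ` with
  `τ (x (ρ g, ρ h)) = θ g * g (θ h) / θ (g h)` on a group `G` surjecting onto `Gal(Ω/K_τ)` gives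
  `hpbLocTriv K τ x`.
* `linf_rho`, `linf_rho_spec`, `linf_hpbLocTriv_fixingSubgroup` : the same with
  `G = (hpbKloc K τ).fixingSubgroup` and its canonical action on `L`.
-/
import Mathlib
import Fermat.Agent.S55.LocInfKsi

namespace Fermat.Agent.S55

open groupCohomology



section DescentCocycle

variable {k Ω : Type*} [Field k] [Field Ω] [Algebra k Ω]
variable {G : Type*} [Group G] (ι : G →* (Ω ≃ₐ[k] Ω))
variable {K F : Type*} [Field K] [Field F] [Algebra K F] (τ : F →+* Ω)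
variable (ρ : G → (F ≃ₐ[K] F))

/-- **Descent, unnormalised form.**  If the pull-back of `x` (with `x 1 σ = x 1 1`,
`x σ 1 = σ (x 1 1)`, as for any 2-cocycle) is the coboundary of a finite-level cochain `θ` on `G`,
then it is the coboundary of a cochain `t` with values in `k(τ F)` which is right-invariant under
the elements acting trivially on `F`. -/
theorem linf_descent_cocycle [IsGalois k Ω] (hρ : ∀ g y, τ (ρ g y) = ι g (τ y))
    (hι : (IntermediateField.adjoin k (Set.range τ)).fixingSubgroup ≤ ι.range)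
    (x : (F ≃ₐ[K] F) → (F ≃ₐ[K] F) → F) (hx0 : x 1 1 ≠ 0)
    (hx1 : ∀ σ, x 1 σ = x 1 1) (hx2 : ∀ σ, x σ 1 = σ (x 1 1))
    (θ : G → Ωˣ)
    (hlev : ∃ M : IntermediateField k Ω, FiniteDimensional k M ∧
      ∀ g s, ι s ∈ M.fixingSubgroup → θ (g * s) = θ g)
    (hθ : ∀ g h, τ (x (ρ g) (ρ h)) = θ g * ι g (θ h) / θ (g * h)) :
    ∃ t : G → Ω, (∀ g, t g ≠ 0) ∧ (∀ g, t g ∈ IntermediateField.adjoin k (Set.range τ)) ∧
      (∀ g h, ρ h = 1 → t (g * h) = t g) ∧
      (∀ g h, τ (x (ρ g) (ρ h)) = t g * ι g (t h) / t (g * h)) := by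
  set E := IntermediateField.adjoin k (Set.range τ) with hE
  have hH : ∀ g, ι g ∈ E.fixingSubgroup ↔ ρ g = 1 := linf_mem_fixingSubgroup_iff ι τ ρ hρ
  have hmul := linf_rho_mul ι τ ρ hρ
  have hone := linf_rho_one ι τ ρ hρ
  have hu0 : τ (x 1 1) ≠ 0 := (map_ne_zero τ).2 hx0
  set U : Ωˣ := Units.mk0 (τ (x 1 1)) hu0 with hU
  have hUval : (U : Ω) = τ (x 1 1) := rfl
  have hfixU : ∀ g, ρ g = 1 → ι g (τ (x 1 1)) = τ (x 1 1) := by
    intro g hg
    rw [← hρ, hg]
    rfl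
  have hθ0 : ∀ g, (θ g : Ω) ≠ 0 := fun g => Units.ne_zero _
  -- step 1: θ / U is a 1-cocycle on H
  have hlev₁ : ∃ M : IntermediateField k Ω, FiniteDimensional k M ∧
      ∀ g s, ι s ∈ M.fixingSubgroup → θ (g * s) * U⁻¹ = θ g * U⁻¹ := by
    obtain ⟨M, hM, h⟩ := hlev
    exact ⟨M, hM, fun g s hs => by rw [h g s hs]⟩
  have hcoc : ∀ g h, ι g ∈ E.fixingSubgroup → ι h ∈ E.fixingSubgroup →
      θ (g * h) * U⁻¹ = θ g * U⁻¹ * Units.map ((ι g : Ω ≃ₐ[k] Ω) : Ω →* Ω) (θ h * U⁻¹) := by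
    intro g h hg hh
    have h1 := hθ g h
    rw [(hH g).1 hg, (hH h).1 hh] at h1
    apply Units.ext
    simp only [Units.val_mul, Units.coe_map, MonoidHom.coe_coe, Units.val_inv_eq_inv_val, map_mul,
      map_inv₀, hUval, hfixU g ((hH g).1 hg)]
    have h2 : (θ (g * h) : Ω) ≠ 0 := hθ0 _
    field_simp
    field_simp at h1
    linear_combination h1
  obtain ⟨α, hα⟩ := linf_descent ι E (fun g => θ g * U⁻¹) hlev₁ hcoc
  have hA : (α : Ω) ≠ 0 := Units.ne_zero _
  have hιA : ∀ g, ι g (α : Ω) ≠ 0 := fun g => (map_ne_zero _).2 hA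
  set t : G → Ω := fun g => θ g * α / ι g α with ht
  have ht0 : ∀ g, t g ≠ 0 := fun g => div_ne_zero (mul_ne_zero (hθ0 g) hA) (hιA g)
  have htH : ∀ h, ρ h = 1 → t h = τ (x 1 1) := by
    intro h hh
    have h1 := congrArg Units.val (hα h ((hH h).2 hh))
    simp only [Units.val_mul, Units.val_inv_eq_inv_val, Units.val_div_eq_div_val, Units.coe_map,
      MonoidHom.coe_coe, hUval] at h1
    simp only [ht]
    have := hιA h
    field_simp at h1 ⊢
    linear_combination h1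
  have htid : ∀ g h, τ (x (ρ g) (ρ h)) = t g * ι g (t h) / t (g * h) := by
    intro g h
    rw [hθ g h]
    simp only [ht, map_div₀, map_mul]
    have h3 : (ι g * ι h) (α : Ω) = ι g (ι h α) := rfl
    rw [h3]
    have h4 : ι g (ι h (α : Ω)) ≠ 0 := (map_ne_zero _).2 (hιA h)
    have h5 : ι g (θ h : Ω) ≠ 0 := (map_ne_zero _).2 (hθ0 h)
    field_simp
  have htr : ∀ g h, ρ h = 1 → t (g * h) = t g := by
    intro g h hh
    have h1 := htid g h
    rw [hh, hx2, hρ, htH h hh] at h1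
    have := ht0 (g * h)
    have h6 : ι g (τ (x 1 1)) ≠ 0 := (map_ne_zero _).2 hu0
    field_simp at h1
    exact h1
  have htfix : ∀ g h, ρ h = 1 → ι h (t g) = t g := by
    intro g h hh
    have h1 := htid h g
    rw [hh, hx1, htH h hh] at h1
    have h2 : t (h * g) = t g := by
      have h3 : h * g = g * (g⁻¹ * h * g) := by group
      rw [h3]
      apply htr
      rw [hmul, hmul, hh, mul_one, ← hmul, inv_mul_cancel, hone]
    rw [h2] at h1
    have := ht0 g
    field_simp at h1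
    exact h1.symm
  have htE : ∀ g, t g ∈ E := by
    intro g
    rw [← InfiniteGalois.fixedField_fixingSubgroup E, IntermediateField.mem_fixedField_iff]
    intro σ hσ
    obtain ⟨h, rfl⟩ := hι hσ
    exact htfix g h ((hH h).1 hσ)
  exact ⟨t, ht0, htE, htr, htid⟩

end DescentCocycle

section Hpb

variable {q : ℕ} [Fact q.Prime] (K : Type) {L : Type} [Field K] [Field L] [Algebra K L]
  [Normal K L] (τ : L →+* PadicAlgCl q)

/-- **(A): absolute local triviality ⟹ finite-level local triviality** (`hpbLocTriv`). -/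
theorem linf_hpbLocTriv (x : (L ≃ₐ[K] L) × (L ≃ₐ[K] L) → Lˣ) (hx : IsMulCocycle₂ x)
    {G : Type*} [Group G] (ι : G →* (PadicAlgCl q ≃ₐ[ℚ_[q]] PadicAlgCl q))
    (hι : (hpbKloc K τ).fixingSubgroup ≤ ι.range)
    (ρ : G → (L ≃ₐ[K] L)) (hρ : ∀ g y, τ (ρ g y) = ι g (τ y))
    (θ : G → (PadicAlgCl q)ˣ)
    (hlev : ∃ M : IntermediateField ℚ_[q] (PadicAlgCl q), FiniteDimensional ℚ_[q] M ∧
      ∀ g s, ι s ∈ M.fixingSubgroup → θ (g * s) = θ g)
    (hθ : ∀ g h, τ (x (ρ g, ρ h)) = θ g * ι g (θ h) / θ (g * h)) :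
    hpbLocTriv K τ x := by
  classical
  have hx1 : ∀ σ, x (1, σ) = x (1, 1) := map_one_fst_of_isMulCocycle₂ hx
  have hx2 : ∀ σ : L ≃ₐ[K] L, ((x (σ, 1) : Lˣ) : L) = σ (x (1, 1) : L) := fun σ => by
    rw [map_one_snd_of_isMulCocycle₂ hx σ]
    rfl
  have hKE : hpbKloc K τ ≤ IntermediateField.adjoin ℚ_[q] (Set.range τ) := by
    apply IntermediateField.adjoin.mono
    rintro _ ⟨k, rfl⟩
    exact ⟨algebraMap K L k, rfl⟩
  have hι' : (IntermediateField.adjoin ℚ_[q] (Set.range τ)).fixingSubgroup ≤ ι.range := by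
    refine le_trans ?_ hι
    intro g hg
    rw [IntermediateField.mem_fixingSubgroup_iff] at hg ⊢
    exact fun z hz => hg z (hKE hz)
  obtain ⟨t, ht0, htE, htr, htid⟩ := linf_descent_cocycle ι τ ρ hρ hι'
    (fun σ σ' => (x (σ, σ') : L)) (Units.ne_zero _) (fun σ => by rw [hx1]) hx2 θ hlev hθ
  have hmul := linf_rho_mul ι τ ρ hρ
  have hone := linf_rho_one ι τ ρ hρ
  -- lifts of elements of `Gal(L_τ/K_τ)` to `G`
  have hlift : ∀ σ : hpbLloc K τ ≃ₐ[hpbKloc K τ] hpbLloc K τ, ∃ g : G,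
      ∀ z : hpbLloc K τ, ι g (z : PadicAlgCl q) = ((σ z : hpbLloc K τ) : PadicAlgCl q) := by
    intro σ
    let g' : PadicAlgCl q ≃ₐ[hpbKloc K τ] PadicAlgCl q := σ.liftNormal (PadicAlgCl q)
    have hmem : g'.restrictScalars ℚ_[q] ∈ (hpbKloc K τ).fixingSubgroup := by
      rw [IntermediateField.mem_fixingSubgroup_iff]
      intro z hz
      exact g'.commutes ⟨z, hz⟩
    obtain ⟨g, hg⟩ := hι hmem
    refine ⟨g, fun z => ?_⟩
    rw [hg]
    exact AlgEquiv.liftNormal_commutes σ (PadicAlgCl q) z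
  choose lift hliftspec using hlift
  have hρlift : ∀ σ, ρ (lift σ) = hpbPsi K τ σ := by
    intro σ
    ext y
    apply τ.injective
    rw [hρ]
    have h1 := hliftspec σ (hpbTau K τ y)
    rw [hpbTau_coe] at h1
    rw [h1, ← hpbPsi_spec]
    rfl
  have htL : ∀ g, t g ∈ hpbLloc K τ := fun g => (linf_mem_hpbLloc_iff q τ _).2 (htE g)
  let z : (hpbLloc K τ ≃ₐ[hpbKloc K τ] hpbLloc K τ) → (hpbLloc K τ)ˣ := fun σ =>
    Units.mk0 ⟨t (lift σ), htL _⟩ (fun h => ht0 _ (congrArg Subtype.val h))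
  have hzval : ∀ σ, (((z σ : (hpbLloc K τ)ˣ) : hpbLloc K τ) : PadicAlgCl q) = t (lift σ) :=
    fun σ => rfl
  refine ⟨z, fun σ σ' => ?_⟩
  rw [AlgEquiv.smul_units_def]
  apply Units.ext
  apply Subtype.ext
  change ((σ (z σ' : hpbLloc K τ) : hpbLloc K τ) : PadicAlgCl q) /
      (((z (σ * σ') : (hpbLloc K τ)ˣ) : hpbLloc K τ) : PadicAlgCl q) *
      (((z σ : (hpbLloc K τ)ˣ) : hpbLloc K τ) : PadicAlgCl q) =
    τ (x (hpbPsi K τ σ, hpbPsi K τ σ'))
  rw [hzval, hzval, ← hliftspec σ, hzval]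
  have e2 : t (lift (σ * σ')) = t (lift σ * lift σ') := by
    have h3 : lift (σ * σ') = lift σ * lift σ' * ((lift σ * lift σ')⁻¹ * lift (σ * σ')) := by
      group
    rw [h3]
    apply htr
    rw [hmul, hρlift (σ * σ'), map_mul, ← hρlift σ, ← hρlift σ', ← hmul (lift σ) (lift σ'),
      ← hmul, inv_mul_cancel, hone]
  rw [e2]
  have e3 := htid (lift σ) (lift σ')
  rw [hρlift, hρlift] at e3
  rw [e3]
  have := ht0 (lift σ * lift σ')
  field_simp

end Hpb

section Rho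

variable {q : ℕ} [Fact q.Prime] (K : Type) {L : Type} [Field K] [Field L] [Algebra K L]
  [Normal K L] (τ : L →+* PadicAlgCl q)

/-- The canonical action on `L` of the absolute local group `Gal(PadicAlgCl q / K_τ)`
(as the fixing subgroup of `K_τ`). -/
noncomputable def linf_rho (g : (hpbKloc K τ).fixingSubgroup) : L ≃ₐ[K] L :=
  letI : Algebra K (PadicAlgCl q) := (τ.comp (algebraMap K L)).toAlgebra
  letI : Algebra L (PadicAlgCl q) := τ.toAlgebra
  haveI : IsScalarTower K L (PadicAlgCl q) := IsScalarTower.of_algebraMap_eq fun _ => rfl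
  AlgEquiv.restrictNormal (AlgEquiv.ofRingEquiv
    (f := (g : PadicAlgCl q ≃ₐ[ℚ_[q]] PadicAlgCl q).toRingEquiv) (fun k =>
      (IntermediateField.mem_fixingSubgroup_iff _ _).1 g.2 _
        (IntermediateField.subset_adjoin _ _ ⟨k, rfl⟩))) L

theorem linf_rho_spec (g : (hpbKloc K τ).fixingSubgroup) (y : L) :
    τ (linf_rho K τ g y) = (g : PadicAlgCl q ≃ₐ[ℚ_[q]] PadicAlgCl q) (τ y) := by
  letI : Algebra K (PadicAlgCl q) := (τ.comp (algebraMap K L)).toAlgebra
  letI : Algebra L (PadicAlgCl q) := τ.toAlgebra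
  haveI : IsScalarTower K L (PadicAlgCl q) := IsScalarTower.of_algebraMap_eq fun _ => rfl
  exact AlgEquiv.restrictNormal_commutes (AlgEquiv.ofRingEquiv
    (f := (g : PadicAlgCl q ≃ₐ[ℚ_[q]] PadicAlgCl q).toRingEquiv) (fun k =>
      (IntermediateField.mem_fixingSubgroup_iff _ _).1 g.2 _
        (IntermediateField.subset_adjoin _ _ ⟨k, rfl⟩))) L y

/-- **(A)** for the absolute local group `G_{K_τ} = (hpbKloc K τ).fixingSubgroup` itself. -/
theorem linf_hpbLocTriv_fixingSubgroup (x : (L ≃ₐ[K] L) × (L ≃ₐ[K] L) → Lˣ)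
    (hx : IsMulCocycle₂ x) (θ : (hpbKloc K τ).fixingSubgroup → (PadicAlgCl q)ˣ)
    (hlev : ∃ M : IntermediateField ℚ_[q] (PadicAlgCl q), FiniteDimensional ℚ_[q] M ∧
      ∀ g s : (hpbKloc K τ).fixingSubgroup,
        (s : PadicAlgCl q ≃ₐ[ℚ_[q]] PadicAlgCl q) ∈ M.fixingSubgroup → θ (g * s) = θ g)
    (hθ : ∀ g h : (hpbKloc K τ).fixingSubgroup,
      τ (x (linf_rho K τ g, linf_rho K τ h)) =
        θ g * (g : PadicAlgCl q ≃ₐ[ℚ_[q]] PadicAlgCl q) (θ h) / θ (g * h)) :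
    hpbLocTriv K τ x :=
  linf_hpbLocTriv K τ x hx (hpbKloc K τ).fixingSubgroup.subtype
    (by rw [Subgroup.range_subtype]) (linf_rho K τ) (linf_rho_spec K τ) θ hlev hθ

end Rho

end Fermat.Agent.S55
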