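import Mathlib
import Fermat.Agent.S55.HpbFinal
import Fermat.Agent.S55.LocInfHpb
import Fermat.Agent.S55.LocBridge
import Fermat.Agent.S55.IfaceFields

/-!
# S55, block HPB: the Hasse principle in the `ℚ̄`-model (consumer form P6(a))

`k ≤ F` intermediate fields of `ℚ̄/ℚ`, `F/ℚ` finite Galois, `U = Gal(ℚ̄/k)`.

* `hpbQHg k q g`, `hpbQth k q g`: the local subgroup `H_g = ι_q⁻¹(g⁻¹ U g)` of the local Galois
  group at `q` and the map `y ↦ g ι(y) g⁻¹ : H_g →* U` (same shapes as `ShlDec.Ha`, `ShlDec.th`).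
* `hpbQTriv k q a g`: the cochain `a : U × U → ℚ̄ˣ` is locally trivial at `(q, g)`.
* `hpbQTriv_mul_left`, `hpbQTriv_mul_right`: invariance under `g ↦ u * g * ι y₀`.
* `hpb_qbar`: a 2-cocycle `a` of `U` of level `F` with values in `Fˣ`, killed by a power of the
  odd prime `p` (`ζ_p ∈ k`), which is locally trivial at one point of every double coset
  `U g ι(G_q)`, is the coboundary of a level-`F` 1-cochain with values in `Fˣ`.
-/

set_option autoImplicit false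
set_option linter.style.haveILetI false
set_option linter.unusedSectionVars false

namespace Fermat.Agent.S55

open groupCohomology IsDedekindDomain NumberField

local notation "Qb" => AlgebraicClosure ℚ
local notation "Γ" => (AlgebraicClosure ℚ ≃ₐ[ℚ] AlgebraicClosure ℚ)

attribute [local instance] pt_qbar_isAlgebraic pt_qbar_isAlgClosure pt_qbar_isGalois

section Setup

variable (k F : IntermediateField ℚ Qb) [FiniteDimensional ℚ F] [IsGalois ℚ F]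

/-- The image of `Gal(ℚ̄/k)` in `Gal(F/ℚ)`. -/
noncomputable def hpbQH : Subgroup (F ≃ₐ[ℚ] F) :=
  k.fixingSubgroup.map (AlgEquiv.restrictNormalHom F)

/-- `k` as an intermediate field of `F/ℚ` (the fixed field of `hpbQH`; equal to `k` when
`k ≤ F`). -/
noncomputable def hpbQK : IntermediateField ℚ F := IntermediateField.fixedField (hpbQH k F)

theorem hpbQ_res_apply (u : Γ) (x : F) :
    ((AlgEquiv.restrictNormalHom F u x : F) : Qb) = u (x : Qb) :=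
  AlgEquiv.restrictNormal_commutes u F x

theorem hpbQ_mem_K_of_mem (x : F) (hx : (x : Qb) ∈ k) : x ∈ hpbQK k F := by
  rw [hpbQK, IntermediateField.mem_fixedField_iff]
  rintro _ ⟨u, hu, rfl⟩
  apply Subtype.ext
  rw [hpbQ_res_apply]
  exact (IntermediateField.mem_fixingSubgroup_iff k u).1 hu _ hx

theorem hpbQ_mem_of_mem_K (x : F) (hx : x ∈ hpbQK k F) : (x : Qb) ∈ k := by
  rw [← InfiniteGalois.fixedField_fixingSubgroup k, IntermediateField.mem_fixedField_iff]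
  intro u hu
  rw [hpbQK, IntermediateField.mem_fixedField_iff] at hx
  have := hx (AlgEquiv.restrictNormalHom F u) ⟨u, hu, rfl⟩
  rw [← hpbQ_res_apply, this]

theorem hpbQ_fixingSubgroup : (hpbQK k F).fixingSubgroup = hpbQH k F :=
  IntermediateField.fixingSubgroup_fixedField _

/-- `h ∈ Gal(F/K')` is the restriction of `u ∈ Γ`. -/
def hpbQRel (h : F ≃ₐ[hpbQK k F] F) (u : Γ) : Prop := ∀ x : F, ((h x : F) : Qb) = u (x : Qb)

variable {k F}

theorem hpbQRel.mul {h h' : F ≃ₐ[hpbQK k F] F} {u u' : Γ} (hu : hpbQRel k F h u)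
    (hu' : hpbQRel k F h' u') : hpbQRel k F (h * h') (u * u') := fun x => by
  rw [AlgEquiv.mul_apply, hu, hu', AlgEquiv.mul_apply]

theorem hpbQRel.unique {h h' : F ≃ₐ[hpbQK k F] F} {u : Γ} (hu : hpbQRel k F h u)
    (hu' : hpbQRel k F h' u) : h = h' := by
  ext x
  rw [hu, hu']

theorem hpbQRel.mem_fixing {h : F ≃ₐ[hpbQK k F] F} {u u' : Γ} (hu : hpbQRel k F h u)
    (hu' : hpbQRel k F h u') : u⁻¹ * u' ∈ F.fixingSubgroup := by
  rw [IntermediateField.mem_fixingSubgroup_iff]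
  intro x hx
  have h1 := hu ⟨x, hx⟩
  have h2 := hu' ⟨x, hx⟩
  rw [AlgEquiv.mul_apply, ← h2, h1]
  exact u.symm_apply_apply x

variable (k F)

theorem hpbQ_exists_rel_of_mem (u : Γ) (hu : u ∈ k.fixingSubgroup) :
    ∃ h : F ≃ₐ[hpbQK k F] F, hpbQRel k F h u := by
  have h1 : AlgEquiv.restrictNormalHom F u ∈ (hpbQK k F).fixingSubgroup := by
    rw [hpbQ_fixingSubgroup]
    exact ⟨u, hu, rfl⟩
  refine ⟨IntermediateField.fixingSubgroupEquiv (hpbQK k F) ⟨_, h1⟩, fun x => ?_⟩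
  exact hpbQ_res_apply F u x

theorem hpbQ_exists_mem_rel (h : F ≃ₐ[hpbQK k F] F) :
    ∃ u : Γ, u ∈ k.fixingSubgroup ∧ hpbQRel k F h u := by
  have h1 : ((IntermediateField.fixingSubgroupEquiv (hpbQK k F)).symm h : F ≃ₐ[ℚ] F) ∈
      hpbQH k F := by
    rw [← hpbQ_fixingSubgroup]
    exact ((IntermediateField.fixingSubgroupEquiv (hpbQK k F)).symm h).2
  obtain ⟨u, hu, hures⟩ := h1
  refine ⟨u, hu, fun x => ?_⟩
  rw [← hpbQ_res_apply, hures]
  rfl

end Setup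

section Abstract

/-- Conjugation acts trivially on `H²` up to an explicit homotopy. -/
theorem hpb_conj_homotopy {G M : Type*} [Group G] [CommGroup M] [MulDistribMulAction G M]
    (a : G × G → M) (ha : IsMulCocycle₂ a) (t g h : G) :
    t⁻¹ • a (t * g * t⁻¹, t * h * t⁻¹) =
      a (g, h) * (g • (t⁻¹ • (a (t * h * t⁻¹, t) / a (t, h))) *
        (t⁻¹ • (a (t * g * t⁻¹, t) / a (t, g))) /
        (t⁻¹ • (a (t * (g * h) * t⁻¹, t) / a (t, g * h)))) := by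
  have h1 := ha t g h
  have h2 := ha (t * g * t⁻¹) t h
  have h3 := ha (t * g * t⁻¹) (t * h * t⁻¹) t
  have e1 : t * g * t⁻¹ * t = t * g := by group
  have e2 : t * h * t⁻¹ * t = t * h := by group
  have e3 : t * g * t⁻¹ * (t * h * t⁻¹) = t * (g * h) * t⁻¹ := by group
  rw [e1] at h2
  rw [e2, e3] at h3
  apply MulAction.injective t
  simp only [smul_mul', smul_div', smul_inv_smul]
  have k1 : ∀ X : M, t • g • t⁻¹ • X = (t * g * t⁻¹) • X := fun X => by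
    simp only [smul_smul, mul_assoc]
  rw [k1, k1]
  have h1' := congrArg Additive.ofMul h1
  have h2' := congrArg Additive.ofMul h2
  have h3' := congrArg Additive.ofMul h3
  simp only [ofMul_mul] at h1' h2' h3'
  apply Additive.ofMul.injective
  simp only [ofMul_mul, ofMul_div]
  linear_combination (norm := abel) h3' - h2' + h1'

end Abstract

section Local

variable (k : IntermediateField ℚ Qb) (q : ℕ) [Fact q.Prime]

local notation "Ω" => PadicAlgCl q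
local notation "Gq" => (PadicAlgCl q ≃ₐ[ℚ_[q]] PadicAlgCl q)

/-- The embedding `x ↦ padicEmbedding q (g⁻¹ x)` of `ℚ̄` in `PadicAlgCl q`. -/
noncomputable def hpbQemb (g : Γ) : Qb →ₐ[ℚ] Ω :=
  (padicEmbedding q).comp ((g⁻¹ : Γ) : Qb →ₐ[ℚ] Qb)

theorem hpbQemb_apply (g : Γ) (x : Qb) : hpbQemb q g x = padicEmbedding q (g⁻¹ x) := rfl

theorem hpbQemb_conj (g : Γ) (y : Gq) (x : Qb) :
    hpbQemb q g ((g * localGaloisToGlobal q y * g⁻¹) x) = y (hpbQemb q g x) := by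
  rw [hpbQemb_apply, hpbQemb_apply, ← padicEmbedding_localGaloisToGlobal]
  simp only [AlgEquiv.mul_apply, AlgEquiv.aut_inv, AlgEquiv.symm_apply_apply]

theorem hpbQemb_mul_left (u g : Γ) (x : Qb) :
    hpbQemb q (u * g) x = hpbQemb q g (u⁻¹ x) := by
  rw [hpbQemb_apply, hpbQemb_apply, mul_inv_rev, AlgEquiv.mul_apply]

theorem hpbQemb_mul_right (g : Γ) (y₀ : Gq) (x : Qb) :
    hpbQemb q (g * localGaloisToGlobal q y₀) x = y₀⁻¹ (hpbQemb q g x) := by
  rw [hpbQemb_apply, hpbQemb_apply, mul_inv_rev, AlgEquiv.mul_apply, ← map_inv,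
    padicEmbedding_localGaloisToGlobal]

/-- The local subgroup `H_g = ι_q⁻¹(g⁻¹ U g)`, `U = Gal(ℚ̄/k)` (same shape as `ShlDec.Ha`). -/
noncomputable def hpbQHg (g : Γ) : Subgroup Gq :=
  k.fixingSubgroup.comap ((MulAut.conj g).toMonoidHom.comp (localGaloisToGlobal q))

theorem hpbQ_mem_Hg {g : Γ} {y : Gq} :
    y ∈ hpbQHg k q g ↔ g * localGaloisToGlobal q y * g⁻¹ ∈ k.fixingSubgroup := Iff.rfl

/-- `y ↦ g ι(y) g⁻¹ : H_g →* U` (same shape as `ShlDec.th`). -/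
noncomputable def hpbQth (g : Γ) : hpbQHg k q g →* k.fixingSubgroup :=
  ((MulAut.conj g).toMonoidHom.comp (localGaloisToGlobal q)).subgroupComap k.fixingSubgroup

theorem hpbQth_coe (g : Γ) (y : hpbQHg k q g) :
    (hpbQth k q g y : Γ) = g * localGaloisToGlobal q (y : Gq) * g⁻¹ := rfl

/-- **Local triviality at `(q, g)`**: the restriction of the 2-cochain `a` of `U = Gal(ℚ̄/k)` along
`y ↦ g ι(y) g⁻¹ : H_g → U`, transported to `PadicAlgCl q` by `x ↦ padicEmbedding q (g⁻¹ x)`, is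
the coboundary of a finite-level 1-cochain `θ : H_g → (PadicAlgCl q)ˣ`. -/
def hpbQTriv (a : k.fixingSubgroup × k.fixingSubgroup → Qbˣ) (g : Γ) : Prop :=
  ∃ θ : hpbQHg k q g → Ωˣ,
    (∃ M : IntermediateField ℚ_[q] Ω, FiniteDimensional ℚ_[q] M ∧
      ∀ y s : hpbQHg k q g, (s : Gq) ∈ M.fixingSubgroup → θ (y * s) = θ y) ∧
    ∀ y y' : hpbQHg k q g,
      padicEmbedding q (g⁻¹ ((a (hpbQth k q g y, hpbQth k q g y') : Qbˣ) : Qb)) =
        (θ y : Ω) * (y : Gq) (θ y' : Ω) / (θ (y * y') : Ω)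

end Local


section Local2

variable (k : IntermediateField ℚ Qb) (q : ℕ) [Fact q.Prime]

local notation "Ω" => PadicAlgCl q
local notation "Gq" => (PadicAlgCl q ≃ₐ[ℚ_[q]] PadicAlgCl q)

/-- (Q2) Local triviality is invariant under `g ↦ g * ι y₀`. -/
theorem hpbQTriv_mul_right (a : k.fixingSubgroup × k.fixingSubgroup → Qbˣ) (g : Γ) (y₀ : Gq)
    (h : hpbQTriv k q a g) : hpbQTriv k q a (g * localGaloisToGlobal q y₀) := by
  obtain ⟨θ, ⟨M, hM, hlev⟩, hθ⟩ := h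
  have hmem : ∀ y : hpbQHg k q (g * localGaloisToGlobal q y₀),
      y₀ * (y : Gq) * y₀⁻¹ ∈ hpbQHg k q g := by
    intro y
    have h1 := y.2
    rw [hpbQ_mem_Hg] at h1 ⊢
    convert h1 using 1
    simp only [map_mul, map_inv, mul_inv_rev, mul_assoc]
  let c : hpbQHg k q (g * localGaloisToGlobal q y₀) → hpbQHg k q g :=
    fun y => ⟨y₀ * (y : Gq) * y₀⁻¹, hmem y⟩
  have hc_mul : ∀ y y', c (y * y') = c y * c y' := by
    intro y y'
    apply Subtype.ext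
    simp [c, mul_assoc]
  have hth : ∀ y, hpbQth k q (g * localGaloisToGlobal q y₀) y = hpbQth k q g (c y) := by
    intro y
    apply Subtype.ext
    rw [hpbQth_coe, hpbQth_coe]
    simp [c, mul_assoc]
  refine ⟨fun y => Units.map ((y₀⁻¹ : Gq) : Ω →* Ω) (θ (c y)),
    ⟨M.map ((y₀⁻¹ : Gq) : Ω →ₐ[ℚ_[q]] Ω), ?_, ?_⟩, ?_⟩
  · exact (M.equivMap ((y₀⁻¹ : Gq) : Ω →ₐ[ℚ_[q]] Ω)).toLinearEquiv.finiteDimensional
  · intro y s hs
    have hcs : (c s : Gq) ∈ M.fixingSubgroup := by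
      rw [IntermediateField.mem_fixingSubgroup_iff] at hs ⊢
      intro m hm
      have h2 := hs (y₀⁻¹ m) ⟨m, hm, rfl⟩
      show y₀ ((s : Gq) (y₀⁻¹ m)) = m
      rw [h2]
      exact y₀.apply_symm_apply m
    show Units.map _ (θ (c (y * s))) = Units.map _ (θ (c y))
    rw [hc_mul, hlev _ _ hcs]
  · intro y y'
    rw [← hpbQemb_apply, hpbQemb_mul_right, hth, hth, hpbQemb_apply, hθ]
    show _ = (y₀⁻¹ (θ (c y) : Ω)) * (y : Gq) (y₀⁻¹ (θ (c y') : Ω)) / (y₀⁻¹ (θ (c (y * y')) : Ω))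
    rw [hc_mul]
    simp only [map_div₀, map_mul]
    congr 2
    show y₀⁻¹ (y₀ ((y : Gq) (y₀⁻¹ (θ (c y') : Ω)))) = _
    simp [AlgEquiv.aut_inv]


/-- (Q1) Local triviality is invariant under `g ↦ u * g`, `u ∈ U`. -/
theorem hpbQTriv_mul_left (F : IntermediateField ℚ Qb) [FiniteDimensional ℚ F] [IsGalois ℚ F]
    (a : k.fixingSubgroup × k.fixingSubgroup → Qbˣ)
    (hcoc : ∀ u₁ u₂ u₃ : k.fixingSubgroup,
      a (u₁ * u₂, u₃) * a (u₁, u₂) = (u₁ : Γ) • a (u₂, u₃) * a (u₁, u₂ * u₃))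
    (hlevF : ∀ u₁ u₂ n₁ n₂ : k.fixingSubgroup, (n₁ : Γ) ∈ F.fixingSubgroup →
      (n₂ : Γ) ∈ F.fixingSubgroup → a (u₁ * n₁, u₂ * n₂) = a (u₁, u₂))
    (u : k.fixingSubgroup) (g : Γ) (h : hpbQTriv k q a g) : hpbQTriv k q a ((u : Γ) * g) := by
  obtain ⟨θ, ⟨M, hM, hlev⟩, hθ⟩ := h
  have hcoc' : IsMulCocycle₂ a := fun u₁ u₂ u₃ => hcoc u₁ u₂ u₃
  have hmem : ∀ y : hpbQHg k q ((u : Γ) * g), (y : Gq) ∈ hpbQHg k q g := by
    intro y
    have h1 := y.2
    rw [hpbQ_mem_Hg] at h1 ⊢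
    have h2 := mul_mem (mul_mem (inv_mem u.2) h1) u.2
    convert h2 using 1
    simp only [mul_inv_rev, mul_assoc, inv_mul_cancel_left, inv_mul_cancel, mul_one]
  let c : hpbQHg k q ((u : Γ) * g) → hpbQHg k q g := fun y => ⟨(y : Gq), hmem y⟩
  have hc_mul : ∀ y y', c (y * y') = c y * c y' := fun y y' => rfl
  have hth : ∀ y, hpbQth k q ((u : Γ) * g) y = u * hpbQth k q g (c y) * u⁻¹ := by
    intro y
    apply Subtype.ext
    simp [hpbQth_coe, c, mul_assoc]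
  let ν : k.fixingSubgroup → Qbˣ := fun v => u⁻¹ • (a (u * v * u⁻¹, u) / a (u, v))
  have hhom : ∀ v v' : k.fixingSubgroup, u⁻¹ • a (u * v * u⁻¹, u * v' * u⁻¹) =
      a (v, v') * (v • ν v' * ν v / ν (v * v')) := fun v v' => hpb_conj_homotopy a hcoc' u v v'
  have := brl_finiteDimensional_locField q F
  have hnorm : F.fixingSubgroup.Normal := (InfiniteGalois.normal_iff_isGalois F).mpr ‹IsGalois ℚ F›
  refine ⟨fun y => θ (c y) * Units.map (hpbQemb q g : Qb →* Ω) (ν (hpbQth k q g (c y))),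
    ⟨M ⊔ brl_locField q F, ?_, ?_⟩, ?_⟩
  · exact IntermediateField.finiteDimensional_sup M (brl_locField q F)
  · intro y s hs
    have hs1 : (s : Gq) ∈ M.fixingSubgroup :=
      IntermediateField.fixingSubgroup_antitone (le_sup_left : M ≤ M ⊔ brl_locField q F) hs
    have hs2 : (s : Gq) ∈ (brl_locField q F).fixingSubgroup :=
      IntermediateField.fixingSubgroup_antitone (le_sup_right : _ ≤ M ⊔ brl_locField q F) hs
    have hs3 : localGaloisToGlobal q (s : Gq) ∈ F.fixingSubgroup :=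
      (brl_mem_fixingSubgroup_iff q F _).2 hs2
    have hn : ((hpbQth k q g (c s) : k.fixingSubgroup) : Γ) ∈ F.fixingSubgroup := by
      rw [hpbQth_coe]
      exact hnorm.conj_mem _ hs3 g
    have hn' : ((u * hpbQth k q g (c s) * u⁻¹ : k.fixingSubgroup) : Γ) ∈ F.fixingSubgroup :=
      hnorm.conj_mem _ hn u
    have hν : ν (hpbQth k q g (c y) * hpbQth k q g (c s)) = ν (hpbQth k q g (c y)) := by
      have e1 : u * (hpbQth k q g (c y) * hpbQth k q g (c s)) * u⁻¹ =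
          (u * hpbQth k q g (c y) * u⁻¹) * (u * hpbQth k q g (c s) * u⁻¹) := by group
      have e2 := hlevF (u * hpbQth k q g (c y) * u⁻¹) u (u * hpbQth k q g (c s) * u⁻¹) 1 hn'
        (one_mem _)
      have e3 := hlevF u (hpbQth k q g (c y)) 1 (hpbQth k q g (c s)) (one_mem _) hn
      rw [mul_one] at e2 e3
      show u⁻¹ • (a (_, u) / a (u, _)) = u⁻¹ • (a (_, u) / a (u, _))
      rw [e1, e2, e3]
    show θ (c (y * s)) * _ = θ (c y) * _
    rw [hc_mul, hlev _ _ hs1, map_mul, hν]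
  · intro y y'
    rw [← hpbQemb_apply, hpbQemb_mul_left, hth, hth]
    have h1 := congrArg (fun m : Qbˣ => hpbQemb q g (m : Qb))
      (hhom (hpbQth k q g (c y)) (hpbQth k q g (c y')))
    have h2 : ∀ (v : k.fixingSubgroup) (m : Qbˣ), ((v • m : Qbˣ) : Qb) = (v : Γ) (m : Qb) :=
      fun v m => rfl
    have h3 := hθ (c y) (c y')
    rw [← hpbQemb_apply] at h3
    simp only [h2, Units.val_mul, Units.val_div_eq_div_val, map_mul, map_div₀] at h1
    have h4 : ∀ x : Qb, hpbQemb q g ((hpbQth k q g (c y) : Γ) x) = (y : Gq) (hpbQemb q g x) :=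
      fun x => hpbQemb_conj q g (y : Gq) x
    rw [h4, h3] at h1
    have h5 : ((u⁻¹ : k.fixingSubgroup) : Γ) = (u : Γ)⁻¹ := rfl
    rw [h5] at h1
    rw [h1]
    show _ = ((θ (c y) : Ω) * hpbQemb q g (ν (hpbQth k q g (c y)))) *
      (y : Gq) ((θ (c y') : Ω) * hpbQemb q g (ν (hpbQth k q g (c y')))) /
      ((θ (c (y * y')) : Ω) * hpbQemb q g (ν (hpbQth k q g (c (y * y')))))
    rw [hc_mul, map_mul (hpbQth k q g), map_mul (y : Gq)]
    have n1 : (θ (c y * c y') : Ω) ≠ 0 := Units.ne_zero _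
    have n2 : hpbQemb q g (ν (hpbQth k q g (c y) * hpbQth k q g (c y'))) ≠ 0 := by
      rw [Ne, map_eq_zero]
      exact Units.ne_zero _
    field_simp
    rfl

end Local2

section Descent

variable (k F : IntermediateField ℚ Qb) [FiniteDimensional ℚ F] [IsGalois ℚ F]

/-- Shortcut instance (the generic search for `SMul` on units of `↥F` is very slow). -/
noncomputable local instance (priority := 5000) hpbQ_instSMul :
    SMul (F ≃ₐ[hpbQK k F] F) (↥F)ˣ := AlgEquiv.instMulDistribMulActionUnits.toMulAction.toSMul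

/-- A section of the restriction `U = Gal(ℚ̄/k) → Gal(F/K')`. -/
noncomputable def hpbQsec (h : F ≃ₐ[hpbQK k F] F) : k.fixingSubgroup :=
  ⟨(hpbQ_exists_mem_rel k F h).choose, (hpbQ_exists_mem_rel k F h).choose_spec.1⟩

theorem hpbQsec_rel (h : F ≃ₐ[hpbQK k F] F) : hpbQRel k F h (hpbQsec k F h : Γ) :=
  (hpbQ_exists_mem_rel k F h).choose_spec.2

/-- The restriction `U = Gal(ℚ̄/k) → Gal(F/K')`. -/
noncomputable def hpbQres (u : k.fixingSubgroup) : F ≃ₐ[hpbQK k F] F :=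
  (hpbQ_exists_rel_of_mem k F u u.2).choose

theorem hpbQres_rel (u : k.fixingSubgroup) : hpbQRel k F (hpbQres k F u) (u : Γ) :=
  (hpbQ_exists_rel_of_mem k F u u.2).choose_spec

theorem hpbQres_mul (u u' : k.fixingSubgroup) :
    hpbQres k F (u * u') = hpbQres k F u * hpbQres k F u' :=
  hpbQRel.unique (hpbQres_rel k F (u * u')) ((hpbQres_rel k F u).mul (hpbQres_rel k F u'))

variable (a : k.fixingSubgroup × k.fixingSubgroup → Qbˣ)

/-- The 2-cochain of `Gal(F/K')` with values in `Fˣ` induced by a level-`F` cochain `a` of `U`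
with values in `F`. -/
noncomputable def hpbQx (hval : ∀ u₁ u₂ : k.fixingSubgroup, ((a (u₁, u₂) : Qbˣ) : Qb) ∈ F)
    (g : (F ≃ₐ[hpbQK k F] F) × (F ≃ₐ[hpbQK k F] F)) : (↥F)ˣ :=
  Units.mk0 ⟨_, hval (hpbQsec k F g.1) (hpbQsec k F g.2)⟩
    (fun h => (a (hpbQsec k F g.1, hpbQsec k F g.2)).ne_zero (congrArg Subtype.val h))

theorem hpbQx_coe (hval : ∀ u₁ u₂ : k.fixingSubgroup, ((a (u₁, u₂) : Qbˣ) : Qb) ∈ F)
    (g : (F ≃ₐ[hpbQK k F] F) × (F ≃ₐ[hpbQK k F] F)) :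
    (((hpbQx k F a hval g : (↥F)ˣ) : ↥F) : Qb) = a (hpbQsec k F g.1, hpbQsec k F g.2) := rfl

variable (hval : ∀ u₁ u₂ : k.fixingSubgroup, ((a (u₁, u₂) : Qbˣ) : Qb) ∈ F)
  (hlevF : ∀ u₁ u₂ n₁ n₂ : k.fixingSubgroup, (n₁ : Γ) ∈ F.fixingSubgroup →
      (n₂ : Γ) ∈ F.fixingSubgroup → a (u₁ * n₁, u₂ * n₂) = a (u₁, u₂))

include hlevF in
theorem hpbQx_rel {h₁ h₂ : F ≃ₐ[hpbQK k F] F} (u₁ u₂ : k.fixingSubgroup)
    (r₁ : hpbQRel k F h₁ (u₁ : Γ)) (r₂ : hpbQRel k F h₂ (u₂ : Γ)) :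
    (((hpbQx k F a hval (h₁, h₂) : (↥F)ˣ) : ↥F) : Qb) = a (u₁, u₂) := by
  rw [hpbQx_coe]
  have e := hlevF (hpbQsec k F h₁) (hpbQsec k F h₂) ((hpbQsec k F h₁)⁻¹ * u₁)
    ((hpbQsec k F h₂)⁻¹ * u₂) ((hpbQsec_rel k F h₁).mem_fixing r₁)
    ((hpbQsec_rel k F h₂).mem_fixing r₂)
  rw [mul_inv_cancel_left, mul_inv_cancel_left] at e
  rw [e]

include hlevF in
theorem hpbQx_cocycle
    (hcoc : ∀ u₁ u₂ u₃ : k.fixingSubgroup,
      a (u₁ * u₂, u₃) * a (u₁, u₂) = (u₁ : Γ) • a (u₂, u₃) * a (u₁, u₂ * u₃)) :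
    IsMulCocycle₂ (hpbQx k F a hval) := by
  intro h₁ h₂ h₃
  have r₁ := hpbQsec_rel k F h₁
  have r₂ := hpbQsec_rel k F h₂
  have r₃ := hpbQsec_rel k F h₃
  apply Units.ext
  apply Subtype.ext
  have e1 := hpbQx_rel k F a hval hlevF (h₁ := h₁ * h₂) (h₂ := h₃)
    (hpbQsec k F h₁ * hpbQsec k F h₂) (hpbQsec k F h₃) (r₁.mul r₂) r₃
  have e2 := hpbQx_rel k F a hval hlevF (h₁ := h₁) (h₂ := h₂) _ _ r₁ r₂
  have e3 := hpbQx_rel k F a hval hlevF (h₁ := h₂) (h₂ := h₃) _ _ r₂ r₃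
  have e4 := hpbQx_rel k F a hval hlevF (h₁ := h₁) (h₂ := h₂ * h₃)
    (hpbQsec k F h₁) (hpbQsec k F h₂ * hpbQsec k F h₃) r₁ (r₂.mul r₃)
  have e5 : (((h₁ • hpbQx k F a hval (h₂, h₃) : (↥F)ˣ) : ↥F) : Qb) =
      (hpbQsec k F h₁ : Γ) (((hpbQx k F a hval (h₂, h₃) : (↥F)ˣ) : ↥F) : Qb) := r₁ _
  have e6 := congrArg (fun m : Qbˣ => (m : Qb)) (hcoc (hpbQsec k F h₁) (hpbQsec k F h₂)
    (hpbQsec k F h₃))
  simp only [Units.val_mul] at e6
  show (((hpbQx k F a hval (h₁ * h₂, h₃) : (↥F)ˣ) : ↥F) : Qb) *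
      (((hpbQx k F a hval (h₁, h₂) : (↥F)ˣ) : ↥F) : Qb) =
    (((h₁ • hpbQx k F a hval (h₂, h₃) : (↥F)ˣ) : ↥F) : Qb) *
      (((hpbQx k F a hval (h₁, h₂ * h₃) : (↥F)ˣ) : ↥F) : Qb)
  rw [e1, e2, e4, e5, e3, e6]
  rfl

end Descent


section Final

variable (k F : IntermediateField ℚ Qb) [FiniteDimensional ℚ F] [IsGalois ℚ F]

attribute [local instance 5000] hpbQ_instSMul

/-- `τ_g : F → PadicAlgCl q`, `z ↦ padicEmbedding q (g⁻¹ z)`. -/
noncomputable def hpbQtau (q : ℕ) [Fact q.Prime] (F : IntermediateField ℚ Qb) (g : Γ) :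
    ↥F →+* PadicAlgCl q :=
  ((hpbQemb q g : Qb →ₐ[ℚ] PadicAlgCl q) : Qb →+* PadicAlgCl q).comp (algebraMap ↥F Qb)

theorem hpbQtau_apply (q : ℕ) [Fact q.Prime] (F : IntermediateField ℚ Qb) (g : Γ) (z : F) :
    hpbQtau q F g z = hpbQemb q g (z : Qb) := rfl

/-- Every embedding `F → PadicAlgCl q` is of the form `z ↦ padicEmbedding q (g⁻¹ z)`. -/
theorem hpbQ_exists_tau (q : ℕ) [Fact q.Prime] (F : IntermediateField ℚ Qb)
    (τ : ↥F →+* PadicAlgCl q) : ∃ g : Γ, τ = hpbQtau q F g := by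
  letI : Algebra F (PadicAlgCl q) := τ.toAlgebra
  haveI : Algebra.IsAlgebraic F Qb := Algebra.IsAlgebraic.tower_top (K := ℚ) (L := F)
  let τ' : Qb →ₐ[F] PadicAlgCl q := IsAlgClosed.lift
  let τ₂ : Qb →ₐ[ℚ] PadicAlgCl q := (τ' : Qb →+* PadicAlgCl q).toRatAlgHom
  have hτ₂ : ∀ z, τ₂ z = τ' z := fun z => rfl
  have hr : ∀ z, τ₂ z ∈ (padicEmbedding q).range := fun z =>
    brl_mem_range_of_isIntegral q ((Algebra.IsIntegral.isIntegral z).map τ₂)
  let e := AlgEquiv.ofInjective (padicEmbedding q) (padicEmbedding q).injective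
  let φ : Qb →ₐ[ℚ] Qb := (e.symm : _ →ₐ[ℚ] Qb).comp (τ₂.codRestrict (padicEmbedding q).range hr)
  have hφ : ∀ z, padicEmbedding q (φ z) = τ₂ z := by
    intro z
    have h1 : (e (φ z) : PadicAlgCl q) = padicEmbedding q (φ z) := rfl
    rw [← h1]
    show (e (e.symm _) : PadicAlgCl q) = _
    rw [AlgEquiv.apply_symm_apply]
    rfl
  have hbij : Function.Bijective φ := Algebra.IsAlgebraic.algHom_bijective φ
  refine ⟨(AlgEquiv.ofBijective φ hbij)⁻¹, ?_⟩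
  ext z
  rw [hpbQtau_apply, hpbQemb_apply, inv_inv]
  show τ z = padicEmbedding q (φ z)
  rw [hφ, hτ₂]
  exact (τ'.commutes z).symm

variable (a : k.fixingSubgroup × k.fixingSubgroup → Qbˣ)
  (hval : ∀ u₁ u₂ : k.fixingSubgroup, ((a (u₁, u₂) : Qbˣ) : Qb) ∈ F)
  (hlevF : ∀ u₁ u₂ n₁ n₂ : k.fixingSubgroup, (n₁ : Γ) ∈ F.fixingSubgroup →
      (n₂ : Γ) ∈ F.fixingSubgroup → a (u₁ * n₁, u₂ * n₂) = a (u₁, u₂))
  (hcoc : ∀ u₁ u₂ u₃ : k.fixingSubgroup,
      a (u₁ * u₂, u₃) * a (u₁, u₂) = (u₁ : Γ) • a (u₂, u₃) * a (u₁, u₂ * u₃))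

include hlevF hcoc in
/-- (Q3) Local triviality in the `ℚ̄`-model gives finite-level local triviality. -/
theorem hpbQ_locTriv (hkF : k ≤ F) (q : ℕ) [Fact q.Prime] (g : Γ) (h : hpbQTriv k q a g) :
    hpbLocTriv (hpbQK k F) (hpbQtau q F g) (hpbQx k F a hval) := by
  obtain ⟨θ, hlev, hθ⟩ := h
  have hx := hpbQx_cocycle k F a hval hlevF hcoc
  refine linf_hpbLocTriv (hpbQK k F) (hpbQtau q F g) (hpbQx k F a hval) hx
    (hpbQHg k q g).subtype ?_ (fun y => hpbQres k F (hpbQth k q g y)) ?_ θ hlev ?_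
  · intro y hy
    rw [Subgroup.range_subtype, hpbQ_mem_Hg, IntermediateField.mem_fixingSubgroup_iff]
    intro z hz
    have hzK : (⟨z, hkF hz⟩ : F) ∈ hpbQK k F := hpbQ_mem_K_of_mem k F _ hz
    rw [IntermediateField.mem_fixingSubgroup_iff] at hy
    have h1 := hy (hpbQtau q F g ⟨z, hkF hz⟩)
      (IntermediateField.subset_adjoin _ _ ⟨⟨⟨z, hkF hz⟩, hzK⟩, rfl⟩)
    have h2 := hpbQemb_conj q g y z
    apply (hpbQemb q g).injective
    exact h2.trans h1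
  · intro y z
    have r := hpbQres_rel k F (hpbQth k q g y)
    show hpbQemb q g ((hpbQres k F (hpbQth k q g y) z : F) : Qb) =
      (y : PadicAlgCl q ≃ₐ[ℚ_[q]] PadicAlgCl q) (hpbQemb q g (z : Qb))
    rw [r z, hpbQth_coe, hpbQemb_conj]
  · intro y y'
    show hpbQemb q g (((hpbQx k F a hval (_, _) : (↥F)ˣ) : ↥F) : Qb) = _
    rw [hpbQx_rel k F a hval hlevF _ _ (hpbQres_rel k F _) (hpbQres_rel k F _)]
    exact hθ y y'


end Final

section Main

attribute [local instance 5000] hpbQ_instSMul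

/-- **The cohomological Hasse principle in the `ℚ̄`-model** (consumer form P6(a)).

`k ≤ F` finite extensions of `ℚ` inside `ℚ̄`, `F/ℚ` Galois, `ζ_p ∈ k`, `p` odd, `U = Gal(ℚ̄/k)`.
Let `a : U × U → ℚ̄ˣ` be a 2-cocycle of level `F` with values in `F`, killed by a power of `p`.
If for every prime `q` and every `g ∈ Γ` the cocycle is locally trivial at some element
`u * g * ι y₀` of the double coset `U g ι(G_q)` (`hpbQTriv`), then `a` is the coboundary of a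
level-`F` cochain `c : U → Fˣ`. -/
theorem hpb_qbar (p : ℕ) [Fact p.Prime] (hp2 : p ≠ 2) (k F : IntermediateField ℚ Qb)
    [FiniteDimensional ℚ F] [IsGalois ℚ F] (hkF : k ≤ F)
    (ζ : Qb) (hζ : IsPrimitiveRoot ζ p) (hζk : ζ ∈ k)
    (a : k.fixingSubgroup × k.fixingSubgroup → Qbˣ)
    (hcoc : ∀ u₁ u₂ u₃ : k.fixingSubgroup,
      a (u₁ * u₂, u₃) * a (u₁, u₂) = (u₁ : Γ) • a (u₂, u₃) * a (u₁, u₂ * u₃))
    (hlevF : ∀ u₁ u₂ n₁ n₂ : k.fixingSubgroup, (n₁ : Γ) ∈ F.fixingSubgroup →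
      (n₂ : Γ) ∈ F.fixingSubgroup → a (u₁ * n₁, u₂ * n₂) = a (u₁, u₂))
    (hval : ∀ u₁ u₂ : k.fixingSubgroup, ((a (u₁, u₂) : Qbˣ) : Qb) ∈ F)
    (htors : ∃ m : ℕ, ∀ u₁ u₂ : k.fixingSubgroup, a (u₁, u₂) ^ p ^ m = 1)
    (hloc : ∀ (q : ℕ) [Fact q.Prime] (g : Γ), ∃ (u : k.fixingSubgroup)
      (y₀ : PadicAlgCl q ≃ₐ[ℚ_[q]] PadicAlgCl q),
      hpbQTriv k q a ((u : Γ) * g * localGaloisToGlobal q y₀)) :
    ∃ c : k.fixingSubgroup → Qbˣ, (∀ u, ((c u : Qbˣ) : Qb) ∈ F) ∧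
      (∀ u n : k.fixingSubgroup, (n : Γ) ∈ F.fixingSubgroup → c (u * n) = c u) ∧
      ∀ u₁ u₂ : k.fixingSubgroup, a (u₁, u₂) = (u₁ : Γ) • c u₂ / c (u₁ * u₂) * c u₁ := by
  haveI : NumberField F := { to_charZero := inferInstance, to_finiteDimensional := inferInstance }
  obtain ⟨m, hm⟩ := htors
  have hx := hpbQx_cocycle k F a hval hlevF hcoc
  have hζ' : ∃ ζ' : ↥(hpbQK k F), IsPrimitiveRoot ζ' p := by
    have hζF : ζ ∈ F := hkF hζk
    refine ⟨⟨⟨ζ, hζF⟩, hpbQ_mem_K_of_mem k F _ hζk⟩, ?_⟩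
    have h1 : IsPrimitiveRoot (((algebraMap F Qb).comp (algebraMap (hpbQK k F) F))
        ⟨⟨ζ, hζF⟩, hpbQ_mem_K_of_mem k F _ hζk⟩) p := hζ
    exact IsPrimitiveRoot.of_map_of_injective h1 (RingHom.injective _)
  have hp : ∃ m : ℕ, IsMulCoboundary₂ (fun g => hpbQx k F a hval g ^ p ^ m) := by
    refine ⟨m, fun _ => 1, fun h₁ h₂ => ?_⟩
    rw [smul_one, div_one, mul_one]
    symm
    apply Units.ext
    apply Subtype.ext
    show (((hpbQx k F a hval (h₁, h₂) : (↥F)ˣ) : ↥F) : Qb) ^ p ^ m = 1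
    rw [hpbQx_coe, ← Units.val_pow_eq_pow_val, hm]
    rfl
  have hlocx : ∀ (q : ℕ) [Fact q.Prime] (τ : ↥F →+* PadicAlgCl q),
      hpbLocTriv (hpbQK k F) τ (hpbQx k F a hval) := by
    intro q _ τ
    obtain ⟨g, rfl⟩ := hpbQ_exists_tau q F τ
    obtain ⟨u, y₀, ht⟩ := hloc q g
    have h1 := hpbQTriv_mul_right k q a _ y₀⁻¹ ht
    rw [map_inv, mul_inv_cancel_right] at h1
    have h2 := hpbQTriv_mul_left k q F a hcoc hlevF u⁻¹ _ h1
    rw [show ((u⁻¹ : k.fixingSubgroup) : Γ) * ((u : Γ) * g) = g by simp] at h2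
    exact hpbQ_locTriv k F a hval hlevF hcoc hkF q g h2
  obtain ⟨c', hc'⟩ := hpb_main' (K := ↥(hpbQK k F)) (L := ↥F) p hp2 hζ' (hpbQx k F a hval) hx hp
    hlocx
  refine ⟨fun u => Units.map (algebraMap F Qb : F →* Qb) (c' (hpbQres k F u)),
    fun u => (c' (hpbQres k F u) : F).2, ?_, ?_⟩
  · intro u n hn
    have h1 : hpbQres k F (u * n) = hpbQres k F u :=
      hpbQRel.unique (hpbQres_rel k F (u * n)) (fun x => by
        rw [hpbQres_rel k F u x]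
        show (u : Γ) x = (u : Γ) ((n : Γ) x)
        rw [(IntermediateField.mem_fixingSubgroup_iff F _).1 hn x x.2])
    show Units.map _ (c' (hpbQres k F (u * n))) = _
    rw [h1]
  · intro u₁ u₂
    apply Units.ext
    have h1 := hc' (hpbQres k F u₁) (hpbQres k F u₂)
    have h2 := congrArg (fun m : (↥F)ˣ => ((m : ↥F) : Qb)) h1
    beta_reduce at h2
    rw [hpbQx_rel k F a hval hlevF _ _ (hpbQres_rel k F u₁) (hpbQres_rel k F u₂)] at h2
    rw [← h2]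
    have key : ∀ (X Y Z : (↥F)ˣ), (((hpbQres k F u₁ • X / Y * Z : (↥F)ˣ) : ↥F) : Qb) =
        (((u₁ : Γ) • Units.map (algebraMap F Qb : F →* Qb) X /
          Units.map (algebraMap F Qb : F →* Qb) Y *
          Units.map (algebraMap F Qb : F →* Qb) Z : Qbˣ) : Qb) := by
      intro X Y Z
      have e1 : ((hpbQres k F u₁ • X : (↥F)ˣ) : ↥F) = hpbQres k F u₁ (X : ↥F) := rfl
      have e2 : (((u₁ : Γ) • Units.map (algebraMap F Qb : F →* Qb) X : Qbˣ) : Qb) =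
          (u₁ : Γ) ((X : F) : Qb) := rfl
      have e3 : ∀ W : (↥F)ˣ, ((Units.map (algebraMap F Qb : F →* Qb) W : Qbˣ) : Qb) =
          ((W : F) : Qb) := fun W => rfl
      rw [Units.val_mul, Units.val_div_eq_div_val, Units.val_mul, Units.val_div_eq_div_val, e1,
        e2, e3, e3, IntermediateField.coe_mul, IntermediateField.coe_div,
        hpbQres_rel k F u₁]
    rw [key]
    beta_reduce
    rw [hpbQres_mul]

end Main

end Fermat.Agent.S55
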