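import Mathlib

/-!
# S55, block HPB (part 1): 2-cocycles of a finite cyclic group, explicitly

For a group `G`, an element `s : G`, a commutative group `M` with a `MulDistribMulAction G M` and
a multiplicative 2-cocycle `x : G × G → M` (Mathlib's `groupCohomology.IsMulCocycle₂`), put
`hpbY x s i = ∏ k < i, x (s ^ k, s)`.

* `hpb_cyclic_formula`: `x (s^i, s^j) * Y i * s^i • Y j = Y (i+j) * s^i • x (1,1)`;
* `hpb_Y_smul`: if `s ^ n = 1` then `b = Y n` is fixed by `s`;
* `hpb_prod_coboundary`: the telescoping identity for coboundaries along powers of `s`;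
* `hpb_norm_of_isMulCoboundary₂`: `x` a coboundary, `s ^ n = 1` ⟹ `Y n` is a norm `∏ k<n, s^k • a`;
* `hpb_isMulCoboundary₂_of_norm`: conversely, if `G = ⟨s⟩` has order `n` and `Y n` is such a norm,
  then `x` is a coboundary.
-/

set_option autoImplicit false
set_option linter.unusedSimpArgs false

namespace Fermat.Agent.S55

open groupCohomology

section

variable {G M : Type*} [Group G] [CommGroup M] [MulDistribMulAction G M]

/-- Partial products `Y i = ∏ k < i, x (s ^ k, s)` of a 2-cochain along the powers of `s`. -/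
def hpbY (x : G × G → M) (s : G) (i : ℕ) : M := ∏ k ∈ Finset.range i, x (s ^ k, s)

/-- Partial norms `P i = ∏ k < i, s ^ k • a`. -/
def hpbP (s : G) (a : M) (i : ℕ) : M := ∏ k ∈ Finset.range i, s ^ k • a

omit [MulDistribMulAction G M] in
@[simp] theorem hpbY_zero (x : G × G → M) (s : G) : hpbY x s 0 = 1 := by simp [hpbY]

omit [MulDistribMulAction G M] in
theorem hpbY_succ (x : G × G → M) (s : G) (i : ℕ) :
    hpbY x s (i + 1) = hpbY x s i * x (s ^ i, s) := by
  simp [hpbY, Finset.prod_range_succ]

@[simp] theorem hpbP_zero (s : G) (a : M) : hpbP s a 0 = 1 := by simp [hpbP]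

theorem hpbP_succ (s : G) (a : M) (i : ℕ) : hpbP s a (i + 1) = hpbP s a i * s ^ i • a := by
  simp [hpbP, Finset.prod_range_succ]

theorem hpbP_add (s : G) (a : M) (i j : ℕ) :
    hpbP s a (i + j) = hpbP s a i * s ^ i • hpbP s a j := by
  induction j with
  | zero => simp
  | succ j ih =>
    rw [← add_assoc, hpbP_succ, ih, hpbP_succ, smul_mul', smul_smul, ← pow_add, mul_assoc]

omit [MulDistribMulAction G M] in
theorem hpbY_add_of_pow_eq_one (x : G × G → M) (s : G) {n : ℕ} (hs : s ^ n = 1) (i : ℕ) :
    hpbY x s (i + n) = hpbY x s i * hpbY x s n := by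
  induction i with
  | zero => simp
  | succ i ih =>
    rw [add_right_comm, hpbY_succ, ih, hpbY_succ, pow_add, hs, mul_one, mul_right_comm]

theorem hpbP_add_of_pow_eq_one (s : G) (a : M) {n : ℕ} (hs : s ^ n = 1) (i : ℕ) :
    hpbP s a (i + n) = hpbP s a i * hpbP s a n := by
  induction i with
  | zero => simp
  | succ i ih =>
    rw [add_right_comm, hpbP_succ, ih, hpbP_succ, pow_add, hs, mul_one, mul_right_comm]

/-- The basic identity: a 2-cocycle on the powers of `s` is determined by the partial products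
`Y`. -/
theorem hpb_cyclic_formula {x : G × G → M} (hx : IsMulCocycle₂ x) (s : G) (i j : ℕ) :
    x (s ^ i, s ^ j) * hpbY x s i * s ^ i • hpbY x s j
      = hpbY x s (i + j) * s ^ i • x (1, 1) := by
  induction j with
  | zero =>
    rw [pow_zero, map_one_snd_of_isMulCocycle₂ hx, hpbY_zero, smul_one, mul_one, add_zero,
      mul_comm]
  | succ j ih =>
    have h := hx (s ^ i) (s ^ j) s
    rw [← pow_add, ← pow_succ] at h
    rw [← add_assoc, hpbY_succ, hpbY_succ, smul_mul']
    have h' := congrArg Additive.ofMul h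
    have ih' := congrArg Additive.ofMul ih
    apply Additive.ofMul.injective
    simp only [ofMul_mul] at h' ih' ⊢
    linear_combination (norm := abel) ih' - h'

/-- If `s ^ n = 1`, then `b = ∏ k < n, x (s ^ k, s)` is fixed by `s`. -/
theorem hpb_Y_smul {x : G × G → M} (hx : IsMulCocycle₂ x) (s : G) {n : ℕ} (hs : s ^ n = 1) :
    s • hpbY x s n = hpbY x s n := by
  have h := hpb_cyclic_formula hx s 1 n
  rw [hs, pow_one, map_one_snd_of_isMulCocycle₂ hx, hpbY_add_of_pow_eq_one x s hs] at h
  have h1 : hpbY x s 1 = x (1, 1) := by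
    rw [hpbY_succ, hpbY_zero, one_mul, pow_zero, map_one_fst_of_isMulCocycle₂ hx]
  rw [h1] at h
  have h' := congrArg Additive.ofMul h
  apply Additive.ofMul.injective
  simp only [ofMul_mul] at h' ⊢
  linear_combination (norm := abel) h'

/-- Telescoping for a coboundary along powers of `s`. -/
theorem hpb_prod_coboundary (z : G → M) (s : G) (n : ℕ) :
    ∏ k ∈ Finset.range n, (s ^ k • z s / z (s ^ k * s) * z (s ^ k))
      = hpbP s (z s) n * (z 1 / z (s ^ n)) := by
  induction n with
  | zero => simp
  | succ n ih =>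
    rw [Finset.prod_range_succ, ih, hpbP_succ, ← pow_succ]
    apply Additive.ofMul.injective
    simp only [ofMul_mul, ofMul_div]
    abel

/-- If `x` is a coboundary and `s ^ n = 1`, then `∏ k < n, x (s ^ k, s)` is a norm. -/
theorem hpb_norm_of_isMulCoboundary₂ {x : G × G → M} (hx : IsMulCoboundary₂ x) (s : G) {n : ℕ}
    (hs : s ^ n = 1) : ∃ a : M, hpbY x s n = hpbP s a n := by
  obtain ⟨z, hz⟩ := hx
  refine ⟨z s, ?_⟩
  have h := hpb_prod_coboundary z s n
  rw [hs, div_self', mul_one] at h
  rw [← h, hpbY]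
  exact Finset.prod_congr rfl fun k _ => (hz (s ^ k) s).symm

/-- A function on `ℕ` which is periodic of period `orderOf s` descends to the powers of `s`. -/
theorem hpb_exists_of_periodic {X : Type*} (s : G) (hs : ∀ g : G, g ∈ Submonoid.powers s)
    (f : ℕ → X) (hf : ∀ i, f (i + orderOf s) = f i) : ∃ z : G → X, ∀ i, z (s ^ i) = f i := by
  classical
  have hmod : ∀ i, f i = f (i % orderOf s) := by
    intro i
    induction i using Nat.strong_induction_on with
    | _ i ih =>
      rcases lt_or_ge i (orderOf s) with h | h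
      · rw [Nat.mod_eq_of_lt h]
      · have h1 : i = (i - orderOf s) + orderOf s := (Nat.sub_add_cancel h).symm
        by_cases h0 : orderOf s = 0
        · rw [h0, Nat.mod_zero]
        · have h2 : i - orderOf s < i := Nat.sub_lt (lt_of_lt_of_le (Nat.pos_of_ne_zero h0) h)
            (Nat.pos_of_ne_zero h0)
          conv_lhs => rw [h1, hf, ih _ h2]
          conv_rhs => rw [h1, Nat.add_mod_right]
  choose e he using hs
  refine ⟨fun g => f (e g), fun i => ?_⟩
  show f (e (s ^ i)) = f i
  have h1 : s ^ (e (s ^ i)) = s ^ i := he (s ^ i)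
  rw [pow_eq_pow_iff_modEq] at h1
  rw [hmod (e (s ^ i)), hmod i, h1]

/-- If `G` consists of the powers of `s`, and `∏ k < n, x (s ^ k, s)` is a norm (`n = orderOf s`),
then the 2-cocycle `x` is a coboundary. -/
theorem hpb_isMulCoboundary₂_of_norm {x : G × G → M} (hx : IsMulCocycle₂ x) (s : G)
    (hs : ∀ g : G, g ∈ Submonoid.powers s) (a : M)
    (ha : hpbY x s (orderOf s) = hpbP s a (orderOf s)) : IsMulCoboundary₂ x := by
  have hn : s ^ orderOf s = 1 := pow_orderOf_eq_one s
  obtain ⟨z, hz⟩ := hpb_exists_of_periodic s hs (fun i => x (1, 1) * hpbP s a i / hpbY x s i)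
    (fun i => by
      show x (1, 1) * hpbP s a (i + orderOf s) / hpbY x s (i + orderOf s) = _
      rw [hpbY_add_of_pow_eq_one x s hn, hpbP_add_of_pow_eq_one s a hn, ha, ← mul_assoc,
        mul_div_mul_right_eq_div])
  refine ⟨z, fun g h => ?_⟩
  obtain ⟨i, rfl⟩ := hs g
  obtain ⟨j, rfl⟩ := hs h
  rw [← pow_add, hz, hz, hz]
  have key := hpb_cyclic_formula hx s i j
  rw [hpbP_add, smul_div', smul_mul']
  have key' := congrArg Additive.ofMul key
  apply Additive.ofMul.injective
  simp only [ofMul_mul, ofMul_div] at key' ⊢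
  linear_combination (norm := abel) key'.symm

end

end Fermat.Agent.S55
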