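import Mathlib
import Fermat.Agent.S55.LocBasic
import Fermat.Agent.S55.LocPow

/-!
# Residue fields of local fields and the counting identity `q_L ^ e = q_K ^ [L:K]`
(block UNR of S55, parts UNR-0 and UNR-1)

For an ultrametric normed field `K`:
* `unr_O K : Subring K` (`‖x‖ ≤ 1`), `unr_m K : Ideal (unr_O K)` (`‖x‖ < 1`, maximal),
  `unr_k K := unr_O K ⧸ unr_m K` (a field), `unr_red K : unr_O K →+* unr_k K`;
* for a local field (`ProperSpace K`): `unr_k K` is finite, `unr_q K := Nat.card (unr_k K)`,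
  `unr_two_le`, `unr_norm_q_lt_one`, `unr_norm_pow_q_sub_lt` (`‖c ^ q - c‖ < 1` for `‖c‖ ≤ 1`),
  `unr_exists_char` (`q = ℓ ^ a`, `ℓ` prime, `‖ℓ‖ < 1`);
* `unr_relIndex_unif_pow`: `[O : ϖ^e O] = q^e`;  `unr_relIndex_B_ext`: `[B_r(L) : ϖ_K B_r(L)] =
  q_K ^ [L:K]` (lattice comparison);
* `unr_q_pow_eq` (**UNR-1**): `q_L ^ e = q_K ^ [L:K]` if `‖ϖ_K‖ = ‖ϖ_L‖ ^ e`.
-/

set_option autoImplicit false

namespace Fermat.Agent.S55

open Finset Filter Topology

section Residue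

variable (K : Type*) [NormedField K] [IsUltrametricDist K]

/-- The ring of integers `{‖x‖ ≤ 1}` of an ultrametric normed field. -/
def unr_O : Subring K where
  carrier := {x | ‖x‖ ≤ 1}
  zero_mem' := by simp
  one_mem' := by simp
  add_mem' := fun {x y} hx hy => (IsUltrametricDist.norm_add_le_max x y).trans (max_le hx hy)
  mul_mem' := fun {x y} hx hy => by
    show ‖x * y‖ ≤ 1
    rw [norm_mul]
    exact mul_le_one₀ hx (norm_nonneg _) hy
  neg_mem' := fun {x} hx => by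
    show ‖-x‖ ≤ 1
    rw [norm_neg]; exact hx

variable {K} in
theorem unr_mem_O (x : K) : x ∈ unr_O K ↔ ‖x‖ ≤ 1 := Iff.rfl

/-- The maximal ideal `{‖x‖ < 1}` of the ring of integers. -/
def unr_m : Ideal (unr_O K) where
  carrier := {x | ‖(x : K)‖ < 1}
  zero_mem' := by simp
  add_mem' := fun {x y} hx hy =>
    (IsUltrametricDist.norm_add_le_max (x : K) (y : K)).trans_lt (max_lt hx hy)
  smul_mem' := fun c {x} hx => by
    show ‖((c * x : unr_O K) : K)‖ < 1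
    rw [Subring.coe_mul, norm_mul]
    calc ‖(c : K)‖ * ‖(x : K)‖ ≤ 1 * ‖(x : K)‖ := mul_le_mul_of_nonneg_right c.2 (norm_nonneg _)
      _ = ‖(x : K)‖ := one_mul _
      _ < 1 := hx

variable {K} in
theorem unr_mem_m (x : unr_O K) : x ∈ unr_m K ↔ ‖(x : K)‖ < 1 := Iff.rfl

instance unr_m_isMaximal : (unr_m K).IsMaximal := by
  rw [Ideal.isMaximal_iff]
  refine ⟨fun h => ?_, fun J x hJ hx hxJ => ?_⟩
  · have : ‖((1 : unr_O K) : K)‖ < 1 := h
    simp at this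
  · have hx1 : ‖(x : K)‖ = 1 := le_antisymm x.2 (not_lt.mp hx)
    have hx0 : (x : K) ≠ 0 := by
      intro h0
      rw [h0, norm_zero] at hx1
      exact zero_ne_one hx1
    have hinv : ‖(x : K)⁻¹‖ ≤ 1 := by rw [norm_inv, hx1, inv_one]
    have : (1 : unr_O K) = (⟨(x : K)⁻¹, hinv⟩ : unr_O K) * x := by
      apply Subtype.ext
      show (1 : K) = (x : K)⁻¹ * (x : K)
      rw [inv_mul_cancel₀ hx0]
    rw [this]
    exact J.mul_mem_left _ hxJ

/-- The residue field. -/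
abbrev unr_k : Type _ := unr_O K ⧸ unr_m K

noncomputable instance unr_k_field : Field (unr_k K) := Ideal.Quotient.field (unr_m K)

/-- The reduction map `O → k`. -/
abbrev unr_red : unr_O K →+* unr_k K := Ideal.Quotient.mk (unr_m K)

variable {K} in
theorem unr_red_eq_zero_iff (x : unr_O K) : unr_red K x = 0 ↔ ‖(x : K)‖ < 1 :=
  Ideal.Quotient.eq_zero_iff_mem

variable {K} in
theorem unr_red_eq_iff (x y : unr_O K) : unr_red K x = unr_red K y ↔ ‖(x : K) - y‖ < 1 :=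
  Ideal.Quotient.eq

theorem unr_red_surjective : Function.Surjective (unr_red K) := Ideal.Quotient.mk_surjective

end Residue

section Proper

variable (K : Type*) [NormedField K] [IsUltrametricDist K] [ProperSpace K]

instance unr_k_finite : Finite (unr_k K) := by
  have hcomp : IsCompact ((unr_O K : Subring K) : Set K) := by
    have : ((unr_O K : Subring K) : Set K) = Metric.closedBall 0 1 := by
      ext x
      simp [unr_mem_O]
    rw [this]
    exact isCompact_closedBall 0 1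
  have : CompactSpace ↥(unr_O K) := isCompact_iff_compactSpace.mp hcomp
  have hopen : IsOpen (((unr_m K).toAddSubgroup : AddSubgroup ↥(unr_O K)) : Set ↥(unr_O K)) := by
    have h1 : IsOpen (Metric.ball (0 : K) 1) := Metric.isOpen_ball
    have h2 : (((unr_m K).toAddSubgroup : AddSubgroup ↥(unr_O K)) : Set ↥(unr_O K)) =
        Subtype.val ⁻¹' (Metric.ball (0 : K) 1) := by
      ext x
      simp [unr_mem_m]
    rw [h2]
    exact h1.preimage continuous_subtype_val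
  exact AddSubgroup.quotient_finite_of_isOpen _ hopen

/-- The cardinality of the residue field. -/
noncomputable def unr_q : ℕ := Nat.card (unr_k K)

theorem unr_two_le : 2 ≤ unr_q K := by
  have : Nontrivial (unr_k K) := inferInstance
  exact Finite.one_lt_card_iff_nontrivial.mpr this

theorem unr_q_pos : 0 < unr_q K := lt_of_lt_of_le (by norm_num) (unr_two_le K)

variable {K} in
/-- `c ^ q ≡ c` modulo the maximal ideal. -/
theorem unr_norm_pow_q_sub_lt {c : K} (hc : ‖c‖ ≤ 1) : ‖c ^ unr_q K - c‖ < 1 := by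
  have : Fintype (unr_k K) := Fintype.ofFinite _
  have h := FiniteField.pow_card (unr_red K ⟨c, hc⟩)
  rw [← Nat.card_eq_fintype_card, ← map_pow] at h
  have h2 := (unr_red_eq_iff _ _).mp h
  exact h2

/-- The residue characteristic: `q` is a power of a prime `ℓ` with `‖ℓ‖ < 1`. -/
theorem unr_exists_char : ∃ (ℓ a : ℕ), ℓ.Prime ∧ 0 < a ∧ unr_q K = ℓ ^ a ∧ ‖(ℓ : K)‖ < 1 := by
  have : Fintype (unr_k K) := Fintype.ofFinite _
  obtain ⟨ℓ, hℓ⟩ := CharP.exists (unr_k K)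
  obtain ⟨a, hprime, hcard⟩ := FiniteField.card (unr_k K) ℓ
  refine ⟨ℓ, a, hprime, a.pos, ?_, ?_⟩
  · rw [unr_q, Nat.card_eq_fintype_card, hcard]
  · have h0 : ((ℓ : unr_O K) : K) = (ℓ : K) := by simp
    have h1 : unr_red K (ℓ : unr_O K) = 0 := by
      rw [map_natCast]
      exact CharP.cast_eq_zero (unr_k K) ℓ
    have h2 := (unr_red_eq_zero_iff _).mp h1
    rwa [h0] at h2

theorem unr_norm_q_lt_one : ‖(unr_q K : K)‖ < 1 := by
  obtain ⟨ℓ, a, hprime, ha, hq, hℓ⟩ := unr_exists_char K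
  rw [hq, Nat.cast_pow, norm_pow]
  exact pow_lt_one₀ (norm_nonneg _) hℓ ha.ne'

end Proper
section Index

variable {K : Type*} [NontriviallyNormedField K] [IsUltrametricDist K] [ProperSpace K]

omit [ProperSpace K] in
theorem unr_B_congr {s s' : ℝ} (h : s = s') (hs0 : 0 ≤ s) (hs0' : 0 ≤ s') :
    lp_B K s hs0 = lp_B K s' hs0' := by
  subst h
  rfl

omit [IsUltrametricDist K] [ProperSpace K] in
theorem unr_norm_le_unif_iff {ϖ : K} (hϖ : loc_IsUnif ϖ) (x : K) : ‖x‖ ≤ ‖ϖ‖ ↔ ‖x‖ < 1 :=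
  ⟨fun h => h.trans_lt hϖ.2.1, fun h => hϖ.2.2 x h⟩

omit [ProperSpace K] in
/-- `[O : ϖ O] = q` for a uniformizer `ϖ`. -/
theorem unr_relIndex_unif {ϖ : K} (hϖ : loc_IsUnif ϖ) :
    (lp_B K ‖ϖ‖ (norm_nonneg _)).relIndex (lp_B K 1 zero_le_one) = unr_q K := by
  let e : ↥(lp_B K 1 zero_le_one) ≃ ↥(unr_O K) := Equiv.subtypeEquivRight (fun x => Iff.rfl)
  unfold AddSubgroup.relIndex AddSubgroup.index unr_q
  refine Nat.card_congr (Quotient.congr e ?_)
  intro x y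
  rw [QuotientAddGroup.leftRel_apply, AddSubgroup.mem_addSubgroupOf, lp_mem_B]
  have h1 : ((-x + y : ↥(lp_B K 1 zero_le_one)) : K) = (y : K) - (x : K) := by
    show -(x : K) + (y : K) = _
    ring
  rw [h1, unr_norm_le_unif_iff hϖ]
  rw [Submodule.quotientRel_def, unr_mem_m]
  have h2 : (((e x) - (e y) : unr_O K) : K) = (x : K) - (y : K) := rfl
  rw [h2, norm_sub_rev]

omit [ProperSpace K] in
/-- `[O : ϖ^e O] = q^e` for a uniformizer `ϖ`. -/
theorem unr_relIndex_unif_pow {ϖ : K} (hϖ : loc_IsUnif ϖ) (e : ℕ) :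
    (lp_B K (‖ϖ‖ ^ e) (pow_nonneg (norm_nonneg _) e)).relIndex (lp_B K 1 zero_le_one) =
      unr_q K ^ e := by
  have hρ0 : 0 ≤ ‖ϖ‖ := norm_nonneg _
  have hρ1 : ‖ϖ‖ ≤ 1 := hϖ.2.1.le
  induction e with
  | zero =>
    rw [AddSubgroup.relIndex_eq_one.mpr (unr_B_congr (pow_zero _).symm _ _).le, pow_zero]
  | succ e ih =>
    have hle1 : lp_B K (‖ϖ‖ ^ (e + 1)) (pow_nonneg hρ0 _) ≤ lp_B K (‖ϖ‖ ^ e) (pow_nonneg hρ0 _) :=
      fun x hx => le_trans hx (pow_le_pow_of_le_one hρ0 hρ1 (Nat.le_succ e))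
    have hle2 : lp_B K (‖ϖ‖ ^ e) (pow_nonneg hρ0 _) ≤ lp_B K 1 zero_le_one :=
      fun x hx => le_trans hx (pow_le_one₀ hρ0 hρ1)
    have h1 := AddSubgroup.relIndex_mul_relIndex _ _ _ hle1 hle2
    rw [← h1, ih, pow_succ (unr_q K) e, mul_comm]
    congr 1
    -- `[B_{ρ^e} : B_{ρ^(e+1)}] = [B_1 : B_ρ]` by multiplication with `ϖ^e`
    have hne : ϖ ^ e ≠ 0 := pow_ne_zero e hϖ.ne_zero
    have hinj : Function.Injective (AddMonoidHom.mulLeft (ϖ ^ e)) :=
      fun x y h => mul_left_cancel₀ hne h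
    have hm1 := lp_B_map (ϖ ^ e) hne (zero_le_one : (0 : ℝ) ≤ 1)
      (mul_nonneg (norm_nonneg _) zero_le_one)
    have hm2 := lp_B_map (ϖ ^ e) hne hρ0 (mul_nonneg (norm_nonneg _) hρ0)
    have e1 : lp_B K (‖ϖ ^ e‖ * 1) (mul_nonneg (norm_nonneg _) zero_le_one) =
        lp_B K (‖ϖ‖ ^ e) (pow_nonneg hρ0 _) := unr_B_congr (by rw [norm_pow, mul_one]) _ _
    have e2 : lp_B K (‖ϖ ^ e‖ * ‖ϖ‖) (mul_nonneg (norm_nonneg _) hρ0) =
        lp_B K (‖ϖ‖ ^ (e + 1)) (pow_nonneg hρ0 _) := unr_B_congr (by rw [norm_pow, pow_succ]) _ _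
    rw [← e1, ← e2, ← hm1, ← hm2, AddSubgroup.relIndex_map_map_of_injective _ _ hinj]
    exact unr_relIndex_unif hϖ

omit [ProperSpace K] in
/-- `[O_K^n : ϖ O_K^n] = q^n`. -/
theorem unr_index_lattice {ϖ : K} (hϖ : loc_IsUnif ϖ) (n : ℕ) :
    (AddMonoidHom.mulLeft (fun _ : Fin n => (⟨ϖ, hϖ.2.1.le⟩ : unr_O K))).range.index =
      unr_q K ^ n := by
  let red : (Fin n → unr_O K) →+ (Fin n → unr_k K) :=
    (unr_red K).toAddMonoidHom.compLeft (Fin n)
  have hred : Function.Surjective red := by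
    intro w
    choose v hv using fun i => unr_red_surjective K (w i)
    exact ⟨v, funext hv⟩
  have hker : red.ker =
      (AddMonoidHom.mulLeft (fun _ : Fin n => (⟨ϖ, hϖ.2.1.le⟩ : unr_O K))).range := by
    ext v
    rw [AddMonoidHom.mem_ker, AddMonoidHom.mem_range]
    constructor
    · intro h
      have h' : ∀ i, ∃ w : unr_O K, v i = (⟨ϖ, hϖ.2.1.le⟩ : unr_O K) * w := by
        intro i
        have hi : unr_red K (v i) = 0 := congrFun h i
        have hlt := (unr_red_eq_zero_iff _).mp hi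
        have hle := (unr_norm_le_unif_iff hϖ _).mpr hlt
        have hw : ‖ϖ⁻¹ * (v i : K)‖ ≤ 1 := by
          rw [norm_mul, norm_inv, inv_mul_le_iff₀ hϖ.1, mul_one]
          exact hle
        refine ⟨⟨ϖ⁻¹ * (v i : K), hw⟩, Subtype.ext ?_⟩
        show (v i : K) = ϖ * (ϖ⁻¹ * (v i : K))
        rw [mul_inv_cancel_left₀ hϖ.ne_zero]
      choose w hw using h'
      refine ⟨w, funext fun i => ?_⟩
      rw [AddMonoidHom.coe_mulLeft, Pi.mul_apply, hw i]
    · rintro ⟨w, rfl⟩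
      funext i
      show unr_red K ((⟨ϖ, hϖ.2.1.le⟩ : unr_O K) * w i) = 0
      rw [unr_red_eq_zero_iff, Subring.coe_mul, norm_mul]
      calc ‖ϖ‖ * ‖(w i : K)‖ ≤ ‖ϖ‖ * 1 := mul_le_mul_of_nonneg_left (w i).2 (norm_nonneg _)
        _ = ‖ϖ‖ := mul_one _
        _ < 1 := hϖ.2.1
  rw [← hker, AddSubgroup.index_ker, AddMonoidHom.range_eq_top.mpr hred]
  have : Nat.card ↥(⊤ : AddSubgroup (Fin n → unr_k K)) = Nat.card (Fin n → unr_k K) :=
    Nat.card_congr (Equiv.Set.univ _)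
  rw [this, Nat.card_fun, Nat.card_fin, unr_q]

end Index

section Ext

variable {K : Type*} [NontriviallyNormedField K] [IsUltrametricDist K] [ProperSpace K]
  {L : Type*} [NontriviallyNormedField L] [IsUltrametricDist L] [ProperSpace L]
  [NormedAlgebra K L] [FiniteDimensional K L]

/-- `[B_r(L) : ϖ_K B_r(L)] = q_K ^ [L:K]` for a finite extension `L/K` of local fields. -/
theorem unr_relIndex_B_ext {ϖ : K} (hϖ : loc_IsUnif ϖ) {r : ℝ} (hr : 0 < r)
    (h0 : 0 ≤ ‖ϖ‖ * r) :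
    (lp_B L (‖ϖ‖ * r) h0).relIndex (lp_B L r hr.le) = unr_q K ^ Module.finrank K L := by
  have hϖ0 : 0 < ‖ϖ‖ := hϖ.1
  have hϖ1 : ‖ϖ‖ < 1 := hϖ.2.1
  have hϖL : ‖algebraMap K L ϖ‖ = ‖ϖ‖ := norm_algebraMap' L ϖ
  have hϖLne : algebraMap K L ϖ ≠ 0 := by
    rw [← norm_pos_iff, hϖL]
    exact hϖ0
  let b := Module.finBasis K L
  obtain ⟨C, hC0, hC⟩ : ∃ C : ℝ, 0 ≤ C ∧ ∀ x : L, ∀ i, ‖b.equivFun x i‖ ≤ C * ‖x‖ := by
    let T := LinearMap.toContinuousLinearMap
      (b.equivFun : L →ₗ[K] (Fin (Module.finrank K L) → K))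
    exact ⟨‖T‖, norm_nonneg _, fun x i => (norm_le_pi_norm _ i).trans (T.le_opNorm x)⟩
  obtain ⟨m, hm⟩ := pow_unbounded_of_one_lt (C * r) ((one_lt_inv₀ hϖ0).mpr hϖ1)
  set a : K := (ϖ⁻¹) ^ m with ha
  have han : ‖a‖ = (‖ϖ‖⁻¹) ^ m := by rw [ha, norm_pow, norm_inv]
  have han0 : 0 < ‖a‖ := by rw [han]; positivity
  have ha0 : a ≠ 0 := norm_pos_iff.mp han0
  let ψ : (Fin (Module.finrank K L) → unr_O K) →+ L :=
    { toFun := fun v => b.equivFun.symm (fun i => a * (v i : K))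
      map_zero' := by
        have : (fun i : Fin (Module.finrank K L) =>
            a * (((0 : Fin (Module.finrank K L) → unr_O K) i : unr_O K) : K)) = 0 := by
          funext i; simp
        rw [this, map_zero]
      map_add' := by
        intro v w
        rw [← map_add]
        congr 1
        funext i
        simp [mul_add] }
  have hψ_apply : ∀ v, ψ v = b.equivFun.symm (fun i => a * (v i : K)) := fun v => rfl
  have hψinj : Function.Injective ψ := by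
    intro v w h
    rw [hψ_apply, hψ_apply] at h
    have h2 := b.equivFun.symm.injective h
    funext i
    have h3 := congrFun h2 i
    exact Subtype.ext (mul_left_cancel₀ ha0 h3)
  set Λ : AddSubgroup L := ψ.range with hΛ
  have hBΛ : lp_B L r hr.le ≤ Λ := by
    intro x hx
    have hx' : ‖x‖ ≤ r := hx
    have hc : ∀ i, ‖a⁻¹ * b.equivFun x i‖ ≤ 1 := by
      intro i
      rw [norm_mul, norm_inv, inv_mul_le_iff₀ han0, mul_one, han]
      calc ‖b.equivFun x i‖ ≤ C * ‖x‖ := hC x i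
        _ ≤ C * r := mul_le_mul_of_nonneg_left hx' hC0
        _ ≤ (‖ϖ‖⁻¹) ^ m := hm.le
    let v : Fin (Module.finrank K L) → unr_O K := fun i => ⟨a⁻¹ * b.equivFun x i, hc i⟩
    refine ⟨v, ?_⟩
    rw [hψ_apply]
    have : (fun i => a * ((v i : unr_O K) : K)) = b.equivFun x := by
      funext i
      show a * (a⁻¹ * b.equivFun x i) = _
      rw [mul_inv_cancel_left₀ ha0]
    rw [this, LinearEquiv.symm_apply_apply]
  set R : ℝ := ‖a‖ * ∑ i, ‖b i‖ with hR
  have hR0 : 0 ≤ R := mul_nonneg han0.le (Finset.sum_nonneg fun i _ => norm_nonneg _)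
  have hΛB : Λ ≤ lp_B L R hR0 := by
    rintro _ ⟨v, rfl⟩
    rw [lp_mem_B, hψ_apply, Module.Basis.equivFun_symm_apply, hR, Finset.mul_sum]
    refine (norm_sum_le _ _).trans (Finset.sum_le_sum fun i _ => ?_)
    rw [norm_smul, norm_mul]
    have h1 : ‖((v i : unr_O K) : K)‖ ≤ 1 := (v i).2
    calc ‖a‖ * ‖((v i : unr_O K) : K)‖ * ‖b i‖ ≤ ‖a‖ * 1 * ‖b i‖ := by gcongr
      _ = ‖a‖ * ‖b i‖ := by rw [mul_one]
  have hfin : (lp_B L r hr.le).relIndex Λ ≠ 0 := by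
    have h1 := AddSubgroup.relIndex_mul_relIndex (lp_B L r hr.le) Λ (lp_B L R hR0) hBΛ hΛB
    have h2 := lp_relIndex_B_ne_zero (K := L) hr hR0
    rw [← h1] at h2
    exact left_ne_zero_of_mul h2
  set φ : L →+ L := AddMonoidHom.mulLeft (algebraMap K L ϖ) with hφ
  have hφinj : Function.Injective φ := fun x y h => mul_left_cancel₀ hϖLne h
  let D : (Fin (Module.finrank K L) → unr_O K) →+ (Fin (Module.finrank K L) → unr_O K) :=
    AddMonoidHom.mulLeft (fun _ : Fin (Module.finrank K L) => (⟨ϖ, hϖ1.le⟩ : unr_O K))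
  have hφψ : ∀ v, φ (ψ v) = ψ (D v) := by
    intro v
    rw [hφ, AddMonoidHom.coe_mulLeft, hψ_apply, hψ_apply, ← Algebra.smul_def, ← map_smul]
    congr 1
    funext i
    show ϖ * (a * (v i : K)) = a * (ϖ * (v i : K))
    ring
  have hB0 : 0 ≤ ‖algebraMap K L ϖ‖ * r := by rw [hϖL]; exact h0
  have hBmap : (lp_B L r hr.le).map φ = lp_B L (‖ϖ‖ * r) h0 := by
    rw [hφ, lp_B_map (algebraMap K L ϖ) hϖLne hr.le hB0]
    exact unr_B_congr (by rw [hϖL]) _ _
  have hφM : (lp_B L r hr.le).map φ ≤ lp_B L r hr.le := by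
    rw [hBmap]
    intro x hx
    have hx' : ‖x‖ ≤ ‖ϖ‖ * r := hx
    exact hx'.trans (mul_le_of_le_one_left hr.le hϖ1.le)
  have hφN : Λ.map φ ≤ Λ := by
    rintro _ ⟨_, ⟨v, rfl⟩, rfl⟩
    exact ⟨D v, (hφψ v).symm⟩
  have key := lp_relIndex_map_eq φ hφinj (lp_B L r hr.le) Λ hBΛ hfin hφM hφN
  rw [hBmap] at key
  rw [key]
  have hΛmap : Λ.map φ = D.range.map ψ := by
    ext x
    constructor
    · rintro ⟨_, ⟨v, rfl⟩, rfl⟩
      exact ⟨D v, ⟨v, rfl⟩, (hφψ v).symm⟩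
    · rintro ⟨_, ⟨v, rfl⟩, rfl⟩
      exact ⟨ψ v, ⟨v, rfl⟩, hφψ v⟩
  rw [hΛmap, hΛ, AddMonoidHom.range_eq_map ψ, AddSubgroup.relIndex_map_map_of_injective _ _ hψinj,
    AddSubgroup.relIndex_top_right]
  exact unr_index_lattice hϖ _

/-- **UNR-1**: `q_L ^ e = q_K ^ [L:K]` where `e` is the ramification index. -/
theorem unr_q_pow_eq {ϖK : K} {ϖL : L} (hK : loc_IsUnif ϖK) (hL : loc_IsUnif ϖL) (e : ℕ)
    (he : ‖algebraMap K L ϖK‖ = ‖ϖL‖ ^ e) :
    unr_q L ^ e = unr_q K ^ Module.finrank K L := by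
  have hϖL : ‖algebraMap K L ϖK‖ = ‖ϖK‖ := norm_algebraMap' L ϖK
  rw [hϖL] at he
  have h1 := unr_relIndex_B_ext (L := L) hK (zero_lt_one : (0 : ℝ) < 1)
    (mul_nonneg (norm_nonneg _) zero_le_one)
  have h2 := unr_relIndex_unif_pow hL e
  have h3 : lp_B L (‖ϖK‖ * 1) (mul_nonneg (norm_nonneg _) zero_le_one) =
      lp_B L (‖ϖL‖ ^ e) (pow_nonneg (norm_nonneg _) e) := unr_B_congr (by rw [mul_one, he]) _ _
  rw [h3, h2] at h1
  exact h1

end Ext

end Fermat.Agent.S55
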