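import Mathlib
import Fermat.Agent.S55.LocBasic
import Fermat.Agent.S55.UnrBasic

/-!
# Unramified cyclotomic extensions of local fields (block UNR of S55, part UNR-2 (a), (b), (d))

`F` a local field with residue cardinality `q = unr_q F`, `M = F(ζ)` a finite normed extension
generated by a primitive `r`-th root of unity `ζ` with `‖(r : F)‖ = 1`. Then:
* `unr_cyc_isGalois`: `M/F` is Galois;
* `unr_cyc_frobenius`: there is `σ ∈ Gal(M/F)` with `σ ζ = ζ ^ q`, and `σ` generates `Gal(M/F)`;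
* `unr_cyc_degree`: `[M : F] ∣ j ↔ r ∣ q ^ j - 1`.

Method: distinct `r`-th roots of unity are incongruent modulo the maximal ideal
(`unr_norm_sub_eq_one`); the orbit polynomial `∏_τ (X - τ ζ)` has coefficients in `O_F`, whose
reductions are fixed by the `q`-power Frobenius, hence `ζ ^ q` is a conjugate of `ζ`
(`unr_exists_frobenius`); the polynomial `∏_{η ∈ ⟨σ⟩} (X - η ζ)` reduces to a polynomial with
Frobenius-fixed coefficients, i.e. coefficients in the residue field of `F`, which are fixed by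
every `τ ∈ Gal(M/F)`; hence `τ ζ ∈ ⟨σ⟩ ζ` (`unr_frobenius_generates`).
-/

set_option autoImplicit false
set_option linter.unusedSectionVars false

namespace Fermat.Agent.S55

open Polynomial

section Algebra

/-- Evaluation commutes with the `ℓ^a`-power Frobenius for polynomials with Frobenius-fixed
coefficients. -/
theorem unr_eval_pow_of_coeff_fixed {R : Type*} [CommRing R] (ℓ a : ℕ) [ExpChar R ℓ] (P : R[X])
    (hP : ∀ n, P.coeff n ^ (ℓ ^ a) = P.coeff n) (z : R) :
    P.eval (z ^ (ℓ ^ a)) = P.eval z ^ (ℓ ^ a) := by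
  have hmap : P.map (iterateFrobenius R ℓ a) = P := by
    ext n
    rw [coeff_map, iterateFrobenius_def, hP]
  have h := eval_map_apply (p := P) (iterateFrobenius R ℓ a) z
  rw [hmap, iterateFrobenius_def, iterateFrobenius_def] at h
  exact h

/-- The fixed points of the `#k`-power map in an extension of a finite field `k` are the
elements of `k`. -/
theorem unr_mem_range_of_pow_card {k k' : Type*} [Field k] [Fintype k] [Field k'] (ι : k →+* k')
    (x : k') (hx : x ^ Fintype.card k = x) : ∃ y, ι y = x := by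
  classical
  have hq : 1 < Fintype.card k := Fintype.one_lt_card
  set P : k'[X] := X ^ Fintype.card k - X with hP
  have hdeg : P.natDegree = Fintype.card k := FiniteField.X_pow_card_sub_X_natDegree_eq k' hq
  have hP0 : P ≠ 0 := by
    intro h
    rw [h, natDegree_zero] at hdeg
    omega
  have hroot : ∀ t : k', t ^ Fintype.card k = t → t ∈ P.roots.toFinset := by
    intro t ht
    rw [Multiset.mem_toFinset, mem_roots hP0, IsRoot.def, hP, eval_sub, eval_pow, eval_X, ht,
      sub_self]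
  set T : Finset k' := Finset.univ.image ι with hT
  have hTcard : T.card = Fintype.card k := by
    rw [hT, Finset.card_image_of_injective _ ι.injective, Finset.card_univ]
  have hsub : T ⊆ P.roots.toFinset := by
    intro t ht
    obtain ⟨y, -, rfl⟩ := Finset.mem_image.mp ht
    apply hroot
    rw [← map_pow, FiniteField.pow_card]
  have hle : P.roots.toFinset.card ≤ T.card := by
    rw [hTcard, ← hdeg]
    exact (Multiset.toFinset_card_le _).trans (card_roots' P)
  have hTeq := Finset.eq_of_subset_of_card_le hsub hle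
  have hxT : x ∈ T := by
    rw [hTeq]
    exact hroot x hx
  obtain ⟨y, -, hy⟩ := Finset.mem_image.mp hxT
  exact ⟨y, hy⟩

end Algebra

section Maps

variable {K K' : Type*} [NormedField K] [IsUltrametricDist K] [NormedField K']
  [IsUltrametricDist K']

/-- A norm-preserving ring homomorphism induces a map on rings of integers. -/
def unr_Omap (f : K →+* K') (hf : ∀ x, ‖f x‖ = ‖x‖) : unr_O K →+* unr_O K' :=
  f.restrict (unr_O K) (unr_O K') (fun x hx => by
    show ‖f x‖ ≤ 1
    rw [hf]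
    exact hx)

theorem unr_Omap_coe (f : K →+* K') (hf : ∀ x, ‖f x‖ = ‖x‖) (x : unr_O K) :
    ((unr_Omap f hf x : unr_O K') : K') = f (x : K) := rfl

/-- A norm-preserving ring homomorphism induces a map on residue fields. -/
def unr_kmap (f : K →+* K') (hf : ∀ x, ‖f x‖ = ‖x‖) : unr_k K →+* unr_k K' :=
  Ideal.quotientMap (unr_m K') (unr_Omap f hf) (fun x hx => by
    show ‖((unr_Omap f hf x : unr_O K') : K')‖ < 1
    rw [unr_Omap_coe, hf]
    exact hx)

theorem unr_kmap_red (f : K →+* K') (hf : ∀ x, ‖f x‖ = ‖x‖) (x : unr_O K) :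
    unr_kmap f hf (unr_red K x) = unr_red K' (unr_Omap f hf x) :=
  Ideal.quotientMap_mk

end Maps

section Roots

variable {M : Type*} [NormedField M] [IsUltrametricDist M]

omit [IsUltrametricDist M] in
theorem unr_norm_eq_one_of_pow_eq_one {x : M} {r : ℕ} (hr : r ≠ 0) (hx : x ^ r = 1) : ‖x‖ = 1 := by
  have h := congrArg norm hx
  rw [norm_pow, norm_one] at h
  exact (pow_eq_one_iff_of_nonneg (norm_nonneg _) hr).mp h

/-- Distinct `r`-th roots of unity are incongruent modulo the maximal ideal if `‖r‖ = 1`. -/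
theorem unr_norm_sub_eq_one {r : ℕ} (hr : ‖(r : M)‖ = 1) {x y : M} (hx : x ^ r = 1)
    (hy : y ^ r = 1) (hxy : x ≠ y) : ‖x - y‖ = 1 := by
  have hr0 : r ≠ 0 := by
    rintro rfl
    simp at hr
  have hxn := unr_norm_eq_one_of_pow_eq_one hr0 hx
  have hyn := unr_norm_eq_one_of_pow_eq_one hr0 hy
  have hle : ‖x - y‖ ≤ 1 := by
    refine (lp_norm_sub_le x y).trans ?_
    rw [hxn, hyn, max_self]
  by_contra hne
  have hlt : ‖x - y‖ < 1 := lt_of_le_of_ne hle hne
  -- reduce to the residue field: `x̄ = ȳ`, so `u = x / y` reduces to `1`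
  have hy0 : y ≠ 0 := by
    intro h
    rw [h, norm_zero] at hyn
    exact zero_ne_one hyn
  set u : M := x / y with hu
  have hur : u ^ r = 1 := by rw [hu, div_pow, hx, hy, div_one]
  have hu1 : u ≠ 1 := by
    intro h
    rw [hu, div_eq_one_iff_eq hy0] at h
    exact hxy h
  have hun : ‖u‖ ≤ 1 := by rw [hu, norm_div, hxn, hyn, div_one]
  have hu1n : ‖u - 1‖ < 1 := by
    have : u - 1 = (x - y) / y := by rw [hu]; field_simp
    rw [this, norm_div, hyn, div_one]
    exact hlt
  have hred : unr_red M ⟨u, hun⟩ = 1 := by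
    have h1 : (1 : unr_k M) = unr_red M (1 : unr_O M) := (map_one _).symm
    rw [h1, unr_red_eq_iff]
    exact hu1n
  have hgeom : (∑ i ∈ Finset.range r, u ^ i) = 0 := by
    have h := mul_geom_sum u r
    rw [hur, sub_self] at h
    rcases mul_eq_zero.mp h with h | h
    · exact absurd (sub_eq_zero.mp h) hu1
    · exact h
  have hsum : unr_red M (∑ i ∈ Finset.range r, (⟨u, hun⟩ : unr_O M) ^ i) = (r : unr_k M) := by
    rw [map_sum]
    simp only [map_pow, hred, one_pow, Finset.sum_const, Finset.card_range, nsmul_eq_mul, mul_one]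
  have hzero : (∑ i ∈ Finset.range r, (⟨u, hun⟩ : unr_O M) ^ i) = 0 := by
    apply Subtype.ext
    have h := map_sum (unr_O M).subtype (fun i => (⟨u, hun⟩ : unr_O M) ^ i) (Finset.range r)
    simp only [map_pow] at h
    exact h.trans hgeom
  rw [hzero, map_zero] at hsum
  have hr' : unr_red M (r : unr_O M) = 0 := by rw [map_natCast]; exact hsum.symm
  have := (unr_red_eq_zero_iff _).mp hr'
  have h0 : (((r : unr_O M)) : M) = (r : M) := by simp
  rw [h0, hr] at this
  exact lt_irrefl _ this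

end Roots
section Cyc

variable {F : Type*} [NontriviallyNormedField F] [IsUltrametricDist F] [ProperSpace F]
  {M : Type*} [NontriviallyNormedField M] [IsUltrametricDist M] [ProperSpace M]
  [NormedAlgebra F M] [FiniteDimensional F M]

omit [IsUltrametricDist F] [ProperSpace F] [IsUltrametricDist M] [ProperSpace M] in
theorem unr_adjoin_eq_top {ζ : M} (hgen : IntermediateField.adjoin F {ζ} = ⊤) :
    Algebra.adjoin F {ζ} = ⊤ := by
  rw [← IntermediateField.adjoin_simple_toSubalgebra_of_isAlgebraic (IsAlgebraic.of_finite F ζ),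
    hgen, IntermediateField.top_toSubalgebra]

omit [IsUltrametricDist F] [ProperSpace F] [IsUltrametricDist M] [ProperSpace M] in
/-- **UNR-2 (a)**: `F(ζ_r)/F` is Galois. -/
theorem unr_cyc_isGalois {ζ : M} {r : ℕ} (hζ : IsPrimitiveRoot ζ r) (hr : ‖(r : F)‖ = 1)
    (hgen : IntermediateField.adjoin F {ζ} = ⊤) : IsGalois F M := by
  have hr0 : r ≠ 0 := by
    rintro rfl
    simp at hr
  have : NeZero r := ⟨hr0⟩
  have hadj := unr_adjoin_eq_top hgen
  have : IsCyclotomicExtension {r} F M := by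
    rw [IsCyclotomicExtension.iff_singleton]
    refine ⟨⟨ζ, hζ⟩, fun x => ?_⟩
    have hx : x ∈ (⊤ : Subalgebra F M) := Algebra.mem_top
    rw [← hadj] at hx
    exact Algebra.adjoin_mono (by
      intro y hy
      rw [Set.mem_singleton_iff] at hy
      rw [hy]
      exact hζ.pow_eq_one) hx
  exact IsCyclotomicExtension.isGalois {r} F M

omit [IsUltrametricDist F] [ProperSpace F] [IsUltrametricDist M] [ProperSpace M] in
theorem unr_algEquiv_ext {ζ : M} (hadj : Algebra.adjoin F {ζ} = ⊤) {τ τ' : M ≃ₐ[F] M}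
    (h : τ ζ = τ' ζ) : τ = τ' := by
  have h1 : (τ : M →ₐ[F] M) = (τ' : M →ₐ[F] M) := by
    apply AlgHom.ext_of_adjoin_eq_top hadj
    intro x hx
    rw [Set.mem_singleton_iff] at hx
    rw [hx]
    exact h
  exact AlgEquiv.coe_toAlgHom_injective h1

/-- The ring homomorphism underlying an automorphism, as a norm-preserving map. -/
noncomputable def unr_autO (τ : M ≃ₐ[F] M) : unr_O M →+* unr_O M :=
  unr_Omap (τ : M →+* M) (fun x => loc_norm_algEquiv τ x)

omit [ProperSpace M] in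
theorem unr_autO_coe (τ : M ≃ₐ[F] M) (x : unr_O M) : ((unr_autO τ x : unr_O M) : M) = τ (x : M) :=
  rfl

/-- The automorphism of the residue field induced by `τ`. -/
noncomputable def unr_autk (τ : M ≃ₐ[F] M) : unr_k M →+* unr_k M :=
  unr_kmap (τ : M →+* M) (fun x => loc_norm_algEquiv τ x)

omit [ProperSpace M] in
theorem unr_autk_red (τ : M ≃ₐ[F] M) (x : unr_O M) :
    unr_autk τ (unr_red M x) = unr_red M (unr_autO τ x) :=
  unr_kmap_red _ _ x

/-- Frobenius-fixed elements of the residue field of `M` are fixed by the Galois group. -/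
theorem unr_autk_eq_of_pow (τ : M ≃ₐ[F] M) (x : unr_k M) (hx : x ^ unr_q F = x) :
    unr_autk τ x = x := by
  have : Fintype (unr_k F) := Fintype.ofFinite _
  have hcard : Fintype.card (unr_k F) = unr_q F := by rw [unr_q, Nat.card_eq_fintype_card]
  rw [← hcard] at hx
  obtain ⟨y, rfl⟩ := unr_mem_range_of_pow_card
    (unr_kmap (algebraMap F M) (fun x => norm_algebraMap' M x)) x hx
  obtain ⟨c, rfl⟩ := unr_red_surjective F y
  rw [unr_kmap_red, unr_autk_red]
  congr 1
  apply Subtype.ext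
  rw [unr_autO_coe, unr_Omap_coe]
  exact τ.commutes _

/-- Galois-fixed integers reduce to Frobenius-fixed elements. -/
theorem unr_red_pow_of_fixed [IsGalois F M] (c : unr_O M) (hc : ∀ τ : M ≃ₐ[F] M, τ (c : M) = c) :
    unr_red M c ^ unr_q F = unr_red M c := by
  obtain ⟨c₀, hc₀⟩ := (IsGalois.mem_range_algebraMap_iff_fixed (F := F) (c : M)).mpr hc
  have hn : ‖c₀‖ ≤ 1 := by
    have := c.2
    rw [unr_mem_O, ← hc₀, norm_algebraMap'] at this
    exact this
  have h1 := unr_norm_pow_q_sub_lt hn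
  rw [← map_pow, unr_red_eq_iff]
  have h2 : (((c ^ unr_q F : unr_O M)) : M) - (c : M) = algebraMap F M (c₀ ^ unr_q F - c₀) := by
    rw [map_sub, map_pow, hc₀]
    rfl
  rw [h2, norm_algebraMap']
  exact h1

/-- The conjugates of `ζ` as integers. -/
noncomputable def unr_conj {ζ : M} {r : ℕ} (hζ : IsPrimitiveRoot ζ r) (hr0 : r ≠ 0)
    (τ : M ≃ₐ[F] M) : unr_O M :=
  ⟨τ ζ, by
    rw [unr_mem_O, loc_norm_algEquiv τ ζ, unr_norm_eq_one_of_pow_eq_one hr0 hζ.pow_eq_one]⟩

theorem unr_conj_coe {ζ : M} {r : ℕ} (hζ : IsPrimitiveRoot ζ r) (hr0 : r ≠ 0)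
    (τ : M ≃ₐ[F] M) : ((unr_conj hζ hr0 τ : unr_O M) : M) = τ ζ := rfl

theorem unr_autO_conj {ζ : M} {r : ℕ} (hζ : IsPrimitiveRoot ζ r) (hr0 : r ≠ 0)
    (σ τ : M ≃ₐ[F] M) : unr_autO σ (unr_conj hζ hr0 τ) = unr_conj hζ hr0 (σ * τ) := rfl

/-- Congruent conjugates of `ζ` are equal. -/
theorem unr_conj_eq_of_red {ζ : M} {r : ℕ} (hζ : IsPrimitiveRoot ζ r) (hr : ‖(r : F)‖ = 1)
    (hr0 : r ≠ 0) {x : unr_O M} (hx : (x : M) ^ r = 1) (τ : M ≃ₐ[F] M)
    (h : unr_red M x = unr_red M (unr_conj hζ hr0 τ)) : (x : M) = τ ζ := by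
  by_contra hne
  have hrM : ‖(r : M)‖ = 1 := by
    have h' : (r : M) = algebraMap F M (r : F) := by simp
    rw [h', norm_algebraMap', hr]
  have hτ : (τ ζ) ^ r = 1 := by rw [← map_pow, hζ.pow_eq_one, map_one]
  have h1 := unr_norm_sub_eq_one hrM hx hτ hne
  have h2 := (unr_red_eq_iff _ _).mp h
  rw [unr_conj_coe, h1] at h2
  exact lt_irrefl _ h2

/-- Existence of the Frobenius automorphism of `F(ζ_r)/F`. -/
theorem unr_exists_frobenius [IsGalois F M] {ζ : M} {r : ℕ} (hζ : IsPrimitiveRoot ζ r)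
    (hr : ‖(r : F)‖ = 1) : ∃ σ : M ≃ₐ[F] M, σ ζ = ζ ^ unr_q F := by
  classical
  have hr0 : r ≠ 0 := by
    rintro rfl
    simp at hr
  obtain ⟨ℓ, a, hprime, ha, hq, hℓ⟩ := unr_exists_char F
  have hℓM : ‖(ℓ : M)‖ < 1 := by
    have h' : (ℓ : M) = algebraMap F M (ℓ : F) := by simp
    rw [h', norm_algebraMap']
    exact hℓ
  have hchar : CharP (unr_k M) ℓ := by
    rw [CharP.charP_iff_prime_eq_zero hprime]
    have h1 : unr_red M (ℓ : unr_O M) = 0 := by
      rw [unr_red_eq_zero_iff]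
      have h0 : ((ℓ : unr_O M) : M) = (ℓ : M) := by simp
      rw [h0]
      exact hℓM
    rw [map_natCast] at h1
    exact h1
  have hexp : ExpChar (unr_k M) ℓ := ExpChar.prime hprime
  set z : unr_k M := unr_red M (unr_conj hζ hr0 (1 : M ≃ₐ[F] M)) with hz
  set hO : (unr_O M)[X] := ∏ τ : M ≃ₐ[F] M, (X - C (unr_conj hζ hr0 τ)) with hhO
  have hmap : ∀ σ : M ≃ₐ[F] M, hO.map (unr_autO σ) = hO := by
    intro σ
    rw [hhO, Polynomial.map_prod]
    simp only [Polynomial.map_sub, map_X, map_C, unr_autO_conj]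
    exact Fintype.prod_equiv (Equiv.mulLeft σ) _ _ (fun τ => rfl)
  have hfix : ∀ n, ∀ σ : M ≃ₐ[F] M, σ ((hO.coeff n : unr_O M) : M) = (hO.coeff n : unr_O M) := by
    intro n σ
    have h1 := congrArg (fun P : (unr_O M)[X] => P.coeff n) (hmap σ)
    simp only [coeff_map] at h1
    have h2 := congrArg (Subtype.val) h1
    exact h2
  set hbar : (unr_k M)[X] := hO.map (unr_red M) with hhbar
  have hcoeff : ∀ n, hbar.coeff n ^ (ℓ ^ a) = hbar.coeff n := by
    intro n
    rw [hhbar, coeff_map, ← hq]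
    exact unr_red_pow_of_fixed _ (hfix n)
  have hbar_prod : hbar = ∏ τ : M ≃ₐ[F] M, (X - C (unr_red M (unr_conj hζ hr0 τ))) := by
    rw [hhbar, hhO, Polynomial.map_prod]
    simp only [Polynomial.map_sub, map_X, map_C]
  have hev := unr_eval_pow_of_coeff_fixed ℓ a hbar hcoeff z
  have hz0 : hbar.eval z = 0 := by
    rw [hbar_prod, eval_prod]
    apply Finset.prod_eq_zero (Finset.mem_univ (1 : M ≃ₐ[F] M))
    rw [eval_sub, eval_X, eval_C, hz, sub_self]
  rw [hz0, zero_pow (pow_ne_zero a hprime.ne_zero), hbar_prod, eval_prod,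
    Finset.prod_eq_zero_iff] at hev
  obtain ⟨τ, -, hτ⟩ := hev
  rw [eval_sub, eval_X, eval_C, sub_eq_zero, ← hq, hz, ← map_pow] at hτ
  refine ⟨τ, ?_⟩
  have hx : (((unr_conj hζ hr0 (1 : M ≃ₐ[F] M) ^ unr_q F : unr_O M)) : M) ^ r = 1 := by
    show ((1 : M ≃ₐ[F] M) ζ ^ unr_q F) ^ r = 1
    rw [AlgEquiv.one_apply, ← pow_mul, mul_comm, pow_mul, hζ.pow_eq_one, one_pow]
  have := unr_conj_eq_of_red hζ hr hr0 hx τ hτ
  exact this.symm

/-- The Frobenius automorphism generates the Galois group of `F(ζ_r)/F`. -/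
theorem unr_frobenius_generates {ζ : M} {r : ℕ} (hζ : IsPrimitiveRoot ζ r)
    (hr : ‖(r : F)‖ = 1) (hadj : Algebra.adjoin F {ζ} = ⊤) (σ : M ≃ₐ[F] M)
    (hσ : σ ζ = ζ ^ unr_q F) (τ : M ≃ₐ[F] M) : τ ∈ Subgroup.zpowers σ := by
  classical
  have hr0 : r ≠ 0 := by
    rintro rfl
    simp at hr
  obtain ⟨ℓ, a, hprime, ha, hq, hℓ⟩ := unr_exists_char F
  have hℓM : ‖(ℓ : M)‖ < 1 := by
    have h' : (ℓ : M) = algebraMap F M (ℓ : F) := by simp
    rw [h', norm_algebraMap']
    exact hℓ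
  have hchar : CharP (unr_k M) ℓ := by
    rw [CharP.charP_iff_prime_eq_zero hprime]
    have h1 : unr_red M (ℓ : unr_O M) = 0 := by
      rw [unr_red_eq_zero_iff]
      have h0 : ((ℓ : unr_O M) : M) = (ℓ : M) := by simp
      rw [h0]
      exact hℓM
    rw [map_natCast] at h1
    exact h1
  have hexp : ExpChar (unr_k M) ℓ := ExpChar.prime hprime
  have : Fintype ↥(Subgroup.zpowers σ) := Fintype.ofFinite _
  set z : unr_k M := unr_red M (unr_conj hζ hr0 (1 : M ≃ₐ[F] M)) with hz
  set g : (unr_k M)[X] :=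
    ∏ η : ↥(Subgroup.zpowers σ), (X - C (unr_red M (unr_conj hζ hr0 (η : M ≃ₐ[F] M)))) with hg
  -- the conjugates are permuted by the Frobenius of the residue field
  have hpow : ∀ η : M ≃ₐ[F] M, unr_red M (unr_conj hζ hr0 η) ^ (ℓ ^ a) =
      unr_red M (unr_conj hζ hr0 (η * σ)) := by
    intro η
    rw [← map_pow]
    congr 1
    apply Subtype.ext
    show (η ζ) ^ (ℓ ^ a) = η (σ ζ)
    rw [hσ, map_pow, hq]
  have hgmap : g.map (iterateFrobenius (unr_k M) ℓ a) = g := by
    rw [hg, Polynomial.map_prod]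
    simp only [Polynomial.map_sub, map_X, map_C, iterateFrobenius_def, hpow]
    exact Fintype.prod_equiv
      (Equiv.mulRight (⟨σ, Subgroup.mem_zpowers σ⟩ : ↥(Subgroup.zpowers σ))) _ _ (fun η => rfl)
  have hcoeff : ∀ n, g.coeff n ^ unr_q F = g.coeff n := by
    intro n
    have h1 := congrArg (fun P : (unr_k M)[X] => P.coeff n) hgmap
    simp only [coeff_map, iterateFrobenius_def] at h1
    rw [hq]
    exact h1
  have hgτ : g.map (unr_autk τ) = g := by
    ext n
    rw [coeff_map]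
    exact unr_autk_eq_of_pow τ _ (hcoeff n)
  have hz0 : g.eval z = 0 := by
    rw [hg, eval_prod]
    apply Finset.prod_eq_zero (Finset.mem_univ (1 : ↥(Subgroup.zpowers σ)))
    rw [eval_sub, eval_X, eval_C, hz]
    exact sub_self _
  have hev := eval_map_apply (p := g) (unr_autk τ) z
  rw [hgτ, hz0, map_zero, hg, eval_prod, Finset.prod_eq_zero_iff] at hev
  obtain ⟨η, -, hη⟩ := hev
  rw [eval_sub, eval_X, eval_C, sub_eq_zero, hz, unr_autk_red, unr_autO_conj, mul_one] at hη
  have hx : (((unr_conj hζ hr0 τ : unr_O M)) : M) ^ r = 1 := by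
    show (τ ζ) ^ r = 1
    rw [← map_pow, hζ.pow_eq_one, map_one]
  have h1 := unr_conj_eq_of_red hζ hr hr0 hx (η : M ≃ₐ[F] M) hη
  have h2 : τ = (η : M ≃ₐ[F] M) := unr_algEquiv_ext hadj h1
  rw [h2]
  exact η.2

/-- **UNR-2 (b)**: the Frobenius `σ ζ = ζ ^ q` exists and generates `Gal(F(ζ_r)/F)`. -/
theorem unr_cyc_frobenius {ζ : M} {r : ℕ} (hζ : IsPrimitiveRoot ζ r) (hr : ‖(r : F)‖ = 1)
    (hgen : IntermediateField.adjoin F {ζ} = ⊤) :
    ∃ σ : M ≃ₐ[F] M, σ ζ = ζ ^ unr_q F ∧ ∀ τ, τ ∈ Subgroup.zpowers σ := by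
  have := unr_cyc_isGalois hζ hr hgen
  obtain ⟨σ, hσ⟩ := unr_exists_frobenius (F := F) hζ hr
  exact ⟨σ, hσ, unr_frobenius_generates hζ hr (unr_adjoin_eq_top hgen) σ hσ⟩

/-- **UNR-2 (d)**: `[F(ζ_r) : F]` is the order of `q` modulo `r`. -/
theorem unr_cyc_degree {ζ : M} {r : ℕ} (hζ : IsPrimitiveRoot ζ r) (hr : ‖(r : F)‖ = 1)
    (hgen : IntermediateField.adjoin F {ζ} = ⊤) (j : ℕ) :
    Module.finrank F M ∣ j ↔ r ∣ unr_q F ^ j - 1 := by
  have := unr_cyc_isGalois hζ hr hgen
  obtain ⟨σ, hσ, hgenσ⟩ := unr_cyc_frobenius hζ hr hgen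
  have hord : orderOf σ = Module.finrank F M := by
    rw [orderOf_eq_card_of_forall_mem_zpowers hgenσ, IsGalois.card_aut_eq_finrank]
  have hpow : ∀ i : ℕ, (σ ^ i) ζ = ζ ^ (unr_q F ^ i) := by
    intro i
    induction i with
    | zero => simp
    | succ i ih =>
      rw [pow_succ, AlgEquiv.mul_apply, hσ, map_pow, ih, ← pow_mul, ← pow_succ]
  have hq1 : 1 ≤ unr_q F ^ j := Nat.one_le_pow _ _ (unr_q_pos F)
  rw [← hord, orderOf_dvd_iff_pow_eq_one, ← hζ.pow_eq_one_iff_dvd]
  have hζ0 : ζ ≠ 0 := by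
    intro h
    have hr0 : r ≠ 0 := by
      rintro rfl
      simp at hr
    have := hζ.pow_eq_one
    rw [h, zero_pow hr0] at this
    exact zero_ne_one this
  constructor
  · intro h
    have h1 := hpow j
    rw [h, AlgEquiv.one_apply] at h1
    have h2 : ζ ^ (unr_q F ^ j - 1) * ζ = 1 * ζ := by
      rw [← pow_succ, Nat.sub_add_cancel hq1, one_mul]
      exact h1.symm
    exact mul_right_cancel₀ hζ0 h2
  · intro h
    apply unr_algEquiv_ext (unr_adjoin_eq_top hgen)
    rw [hpow j, AlgEquiv.one_apply]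
    have h2 : ζ ^ (unr_q F ^ j) = ζ ^ (unr_q F ^ j - 1) * ζ := by
      rw [← pow_succ, Nat.sub_add_cancel hq1]
    rw [h2, h, one_mul]

end Cyc

end Fermat.Agent.S55
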