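import Mathlib
import Fermat.Agent.S55.LocBasic
import Fermat.Agent.S55.UnrBasic
import Fermat.Agent.S55.UnrCyc

/-!
# Cyclotomic extensions `F(ζ_r)/F` with `‖r‖ = 1` are unramified (block UNR of S55, UNR-2 (c))

* `unr_q_eq_pow`: `q_M = q_F ^ f`;
* `unr_dvd_q_sub_one`: `r ∣ q_M - 1` if `M ∋ ζ_r` and `‖r‖ = 1`;
* `unr_cyc_unram`: a uniformizer of `F` remains a uniformizer of `F(ζ_r)`.

Proof of the last: `q_M ^ e = q_F ^ n` (UNR-1), `q_M = q_F ^ f`, so `e f = n`; `r ∣ q_F ^ f - 1`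
gives `n ∣ f` by `unr_cyc_degree`; hence `e = 1`.
-/

set_option autoImplicit false
set_option linter.unusedSectionVars false

namespace Fermat.Agent.S55

open Polynomial

section CycUnram

variable {F : Type*} [NontriviallyNormedField F] [IsUltrametricDist F] [ProperSpace F]
  {M : Type*} [NontriviallyNormedField M] [IsUltrametricDist M] [ProperSpace M]
  [NormedAlgebra F M] [FiniteDimensional F M]

/-- The residue field of a finite extension has `q ^ f` elements. -/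
theorem unr_q_eq_pow : ∃ f : ℕ, unr_q M = unr_q F ^ f := by
  have : Fintype (unr_k F) := Fintype.ofFinite _
  have : Fintype (unr_k M) := Fintype.ofFinite _
  let _ : Algebra (unr_k F) (unr_k M) :=
    (unr_kmap (algebraMap F M) (fun x => norm_algebraMap' M x)).toAlgebra
  refine ⟨Module.finrank (unr_k F) (unr_k M), ?_⟩
  rw [unr_q, unr_q, Nat.card_eq_fintype_card, Nat.card_eq_fintype_card]
  exact Module.card_eq_pow_finrank

/-- `r ∣ q_M - 1` if `M` contains a primitive `r`-th root of unity and `‖r‖ = 1`. -/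
theorem unr_dvd_q_sub_one {ζ : M} {r : ℕ} (hζ : IsPrimitiveRoot ζ r) (hr : ‖(r : M)‖ = 1) :
    r ∣ unr_q M - 1 := by
  have hr0 : r ≠ 0 := by
    rintro rfl
    simp at hr
  have : Fintype (unr_k M) := Fintype.ofFinite _
  have hζn : ‖ζ‖ = 1 := unr_norm_eq_one_of_pow_eq_one hr0 hζ.pow_eq_one
  set ζO : unr_O M := ⟨ζ, hζn.le⟩ with hζO
  have hz0 : unr_red M ζO ≠ 0 := by
    intro h
    have := (unr_red_eq_zero_iff _).mp h
    rw [hζO] at this
    exact absurd hζn (ne_of_lt this)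
  have h1 := FiniteField.pow_card_sub_one_eq_one (unr_red M ζO) hz0
  rw [← Nat.card_eq_fintype_card, ← map_pow] at h1
  have h2 : unr_red M (ζO ^ (Nat.card (unr_k M) - 1)) = unr_red M 1 := by rw [h1, map_one]
  have h3 := (unr_red_eq_iff _ _).mp h2
  rw [← hζ.pow_eq_one_iff_dvd]
  by_contra hne
  have h4 : (ζ ^ (unr_q M - 1)) ^ r = 1 := by
    rw [← pow_mul, mul_comm, pow_mul, hζ.pow_eq_one, one_pow]
  have h5 := unr_norm_sub_eq_one hr h4 (one_pow r) hne
  have h6 : ‖ζ ^ (unr_q M - 1) - 1‖ < 1 := h3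
  rw [h5] at h6
  exact lt_irrefl _ h6

/-- **UNR-2 (c)**: `F(ζ_r)/F` is unramified: uniformizers of `F` stay uniformizers. -/
theorem unr_cyc_unram {ζ : M} {r : ℕ} (hζ : IsPrimitiveRoot ζ r) (hr : ‖(r : F)‖ = 1)
    (hgen : IntermediateField.adjoin F {ζ} = ⊤) (ϖ : F) (hϖ : loc_IsUnif ϖ) :
    loc_IsUnif (algebraMap F M ϖ) := by
  have hrM : ‖(r : M)‖ = 1 := by
    have h' : (r : M) = algebraMap F M (r : F) := by simp
    rw [h', norm_algebraMap', hr]
  obtain ⟨ϖM, hM⟩ := loc_exists_unif M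
  have hx : ‖algebraMap F M ϖ‖ = ‖ϖ‖ := norm_algebraMap' M ϖ
  have hx0 : algebraMap F M ϖ ≠ 0 := by
    rw [← norm_pos_iff, hx]
    exact hϖ.1
  obtain ⟨k, hk⟩ := hM.exists_zpow hx0
  have hkpos : 0 < k := by
    have h1 : ‖ϖM‖ ^ k < 1 := by rw [← hk, hx]; exact hϖ.2.1
    exact (zpow_lt_one_iff_right_of_lt_one₀ hM.1 hM.2.1).mp h1
  obtain ⟨e, rfl⟩ := Int.eq_ofNat_of_zero_le hkpos.le
  have he0 : e ≠ 0 := by
    rintro rfl
    simp at hkpos
  rw [zpow_natCast] at hk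
  have h1 := unr_q_pow_eq hϖ hM e hk
  obtain ⟨f, hf⟩ := unr_q_eq_pow (F := F) (M := M)
  have hf0 : f ≠ 0 := by
    rintro rfl
    have := unr_two_le M
    rw [hf, pow_zero] at this
    omega
  rw [hf, ← pow_mul] at h1
  have h2 : f * e = Module.finrank F M := Nat.pow_right_injective (unr_two_le F) h1
  have h3 := unr_dvd_q_sub_one hζ hrM
  rw [hf] at h3
  have h4 : Module.finrank F M ∣ f := (unr_cyc_degree hζ hr hgen f).mpr h3
  have h5 : Module.finrank F M ≤ f := Nat.le_of_dvd (Nat.pos_of_ne_zero hf0) h4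
  have he1 : e = 1 := by
    have h6 : f * e ≤ f * 1 := by rw [h2, mul_one]; exact h5
    have h7 : e ≤ 1 := Nat.le_of_mul_le_mul_left h6 (Nat.pos_of_ne_zero hf0)
    omega
  rw [he1, pow_one] at hk
  refine ⟨by rw [hx]; exact hϖ.1, by rw [hx]; exact hϖ.2.1, fun y hy => ?_⟩
  rw [hk]
  exact hM.2.2 y hy

end CycUnram

end Fermat.Agent.S55
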