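import Mathlib
import Fermat.Agent.S55.LocBasic
import Fermat.Agent.S55.UnrBasic
import Fermat.Agent.S55.UnrCyc
import Fermat.Agent.S55.UnrUnram

/-!
# Block UNR of S55: packaged statements

* `unr_cyc`: the conjunction of UNR-2 (a), (b), (c), (d) with minimal instance hypotheses on `M`;
* `unr_q_eq_pow_pos`: `q_L = q_K ^ f`, `f > 0`;
* `unr_norm_q_pow_sub_one`: `‖q ^ N - 1‖ = 1`;  `unr_pow_sub_one_dvd_iff`;
* `unr_cyc_finrank`: `[F(ζ_{q^N - 1}) : F] = N`.
-/

set_option autoImplicit false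
set_option linter.unusedSectionVars false

namespace Fermat.Agent.S55

section Pack

/-- **UNR-2**, packaged: for a local field `F` and `M = F(ζ)`, `ζ` a primitive `r`-th root of
unity with `‖r‖ = 1`: `M/F` is Galois, the Frobenius `σ ζ = ζ ^ q` exists and generates the
Galois group, `M/F` is unramified, and `[M:F]` is the order of `q` modulo `r`. -/
theorem unr_cyc {F M : Type*} [NontriviallyNormedField F] [IsUltrametricDist F] [ProperSpace F]
    [NontriviallyNormedField M] [NormedAlgebra F M] [FiniteDimensional F M] (r : ℕ)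
    (hr : ‖(r : F)‖ = 1) (ζ : M) (hζ : IsPrimitiveRoot ζ r)
    (htop : IntermediateField.adjoin F {ζ} = ⊤) :
    IsGalois F M ∧ (∃ σ : M ≃ₐ[F] M, σ ζ = ζ ^ unr_q F ∧ ∀ τ, τ ∈ Subgroup.zpowers σ) ∧
      (∀ ϖ : F, loc_IsUnif ϖ → loc_IsUnif (algebraMap F M ϖ)) ∧
      (∀ j : ℕ, Module.finrank F M ∣ j ↔ r ∣ unr_q F ^ j - 1) := by
  have hMu : IsUltrametricDist M := IsUltrametricDist.of_normedAlgebra F
  have hMp : ProperSpace M := FiniteDimensional.proper F M
  exact ⟨unr_cyc_isGalois hζ hr htop, unr_cyc_frobenius hζ hr htop,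
    fun ϖ hϖ => unr_cyc_unram hζ hr htop ϖ hϖ, fun j => unr_cyc_degree hζ hr htop j⟩

variable {K : Type*} [NontriviallyNormedField K] [IsUltrametricDist K] [ProperSpace K]

/-- `‖q ^ N - 1‖ = 1` for `N ≥ 1`. -/
theorem unr_norm_q_pow_sub_one {N : ℕ} (hN : N ≠ 0) : ‖((unr_q K ^ N - 1 : ℕ) : K)‖ = 1 := by
  have h1 : 1 ≤ unr_q K ^ N := Nat.one_le_pow _ _ (unr_q_pos K)
  rw [Nat.cast_sub h1, Nat.cast_pow, Nat.cast_one]
  have h2 : ‖(unr_q K : K) ^ N‖ < 1 := by
    rw [norm_pow]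
    exact pow_lt_one₀ (norm_nonneg _) (unr_norm_q_lt_one K) hN
  have h3 : ‖(unr_q K : K) ^ N‖ ≠ ‖(-1 : K)‖ := by
    rw [norm_neg, norm_one]
    exact ne_of_lt h2
  rw [sub_eq_add_neg, IsUltrametricDist.norm_add_eq_max_of_norm_ne_norm h3, norm_neg, norm_one]
  exact max_eq_right h2.le

/-- `q ^ N - 1 ∣ q ^ j - 1 ↔ N ∣ j`. -/
theorem unr_pow_sub_one_dvd_iff {q : ℕ} (hq : 2 ≤ q) (N j : ℕ) :
    q ^ N - 1 ∣ q ^ j - 1 ↔ N ∣ j := by
  constructor
  · intro h
    have h1 := Nat.pow_sub_one_gcd_pow_sub_one q N j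
    rw [Nat.gcd_eq_left h] at h1
    have h2 : q ^ N = q ^ Nat.gcd N j := by
      have hpos1 : 1 ≤ q ^ N := Nat.one_le_pow _ _ (by omega)
      have hpos2 : 1 ≤ q ^ Nat.gcd N j := Nat.one_le_pow _ _ (by omega)
      omega
    have h3 : N = Nat.gcd N j := Nat.pow_right_injective hq h2
    rw [h3]
    exact Nat.gcd_dvd_right N j
  · rintro ⟨t, rfl⟩
    rw [pow_mul]
    exact Nat.sub_one_dvd_pow_sub_one (q ^ N) t

variable {L : Type*} [NontriviallyNormedField L] [IsUltrametricDist L] [ProperSpace L]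
  [NormedAlgebra K L] [FiniteDimensional K L]

/-- The residue degree: `q_L = q_K ^ f` with `f > 0`. -/
theorem unr_q_eq_pow_pos : ∃ f : ℕ, 0 < f ∧ unr_q L = unr_q K ^ f := by
  obtain ⟨f, hf⟩ := unr_q_eq_pow (F := K) (M := L)
  refine ⟨f, Nat.pos_of_ne_zero ?_, hf⟩
  rintro rfl
  have := unr_two_le L
  rw [hf, pow_zero] at this
  omega

end Pack

section Degree

/-- For `r = q ^ N - 1`, the extension `F(ζ_r)/F` has degree `N`. -/
theorem unr_cyc_finrank {F M : Type*} [NontriviallyNormedField F] [IsUltrametricDist F]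
    [ProperSpace F] [NontriviallyNormedField M] [NormedAlgebra F M] [FiniteDimensional F M]
    {N : ℕ} (hN : N ≠ 0) (ζ : M) (hζ : IsPrimitiveRoot ζ (unr_q F ^ N - 1))
    (htop : IntermediateField.adjoin F {ζ} = ⊤) : Module.finrank F M = N := by
  obtain ⟨-, -, -, hd⟩ := unr_cyc (unr_q F ^ N - 1) (unr_norm_q_pow_sub_one hN) ζ hζ htop
  have h1 : Module.finrank F M ∣ N := (hd N).mpr dvd_rfl
  have h2 : N ∣ Module.finrank F M :=
    (unr_pow_sub_one_dvd_iff (unr_two_le F) N _).mp ((hd _).mp dvd_rfl)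
  exact Nat.dvd_antisymm h1 h2

end Degree

end Fermat.Agent.S55
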