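import Mathlib
import Fermat.Agent.S55.LocBasic
import Fermat.Agent.S55.UnrBasic
import Fermat.Agent.S55.UnrPack

/-!
# S55 block LOC, part 3c: the unramified characters of a local Galois group

`K` a local field, `Ω` an algebraic closure with a compatible norm, `Γ = Ω ≃ₐ[K] Ω`.
For `N ≥ 1` let `r = q^N − 1` (`q = unr_q K`) and `ζ` a primitive `r`-th root of unity in `Ω`.
`loc_chi K Ω N : Γ → ZMod N` is the character with `g ζ = ζ ^ (q ^ (χ g).val)`.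
-/

set_option autoImplicit false

namespace Fermat.Agent.S55

open IntermediateField

section base

variable (K : Type) [NontriviallyNormedField K] [IsUltrametricDist K] [ProperSpace K]

/-- `r_N = q^N − 1`. -/
noncomputable def loc_r (N : ℕ) : ℕ := unr_q K ^ N - 1

lemma loc_r_add_one (N : ℕ) : loc_r K N + 1 = unr_q K ^ N := by
  unfold loc_r
  have := Nat.one_le_pow N (unr_q K) (unr_q_pos K)
  omega

lemma loc_r_pos (N : ℕ) [NeZero N] : 0 < loc_r K N := by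
  have h1 := loc_r_add_one K N
  have h2 : unr_q K ^ 1 ≤ unr_q K ^ N :=
    Nat.pow_le_pow_right (unr_q_pos K) (Nat.pos_of_ne_zero (NeZero.ne N))
  have h3 := unr_two_le K
  rw [pow_one] at h2
  omega

lemma loc_norm_r (N : ℕ) [NeZero N] : ‖(loc_r K N : K)‖ = 1 := by
  have h1 : (loc_r K N : K) = (unr_q K : K) ^ N - 1 := by
    have := congrArg (Nat.cast : ℕ → K) (loc_r_add_one K N)
    push_cast at this
    rw [← this]; ring
  rw [h1]
  have h2 : ‖(unr_q K : K) ^ N‖ < 1 := by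
    rw [norm_pow]
    exact pow_lt_one₀ (norm_nonneg _) (unr_norm_q_lt_one K) (NeZero.ne N)
  have h3 : ‖(unr_q K : K) ^ N - 1‖ = ‖(1 : K)‖ := by
    rw [← norm_neg, neg_sub]
    have := IsUltrametricDist.norm_add_eq_max_of_norm_ne_norm
      (x := (1 : K)) (y := -((unr_q K : K) ^ N)) (by rw [norm_neg, norm_one]; exact h2.ne')
    rw [sub_eq_add_neg, this, norm_neg, norm_one]
    exact max_eq_left h2.le
  rw [h3, norm_one]

/-- `q^i mod r_N` depends only on `i mod N`. -/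
lemma loc_q_pow_modEq (N : ℕ) (i j : ℕ) (hij : i ≡ j [MOD N]) :
    unr_q K ^ i ≡ unr_q K ^ j [MOD loc_r K N] := by
  have h1 : unr_q K ^ N ≡ 1 [MOD loc_r K N] := by
    rw [← loc_r_add_one K N]
    simp [Nat.ModEq]
  have key : ∀ i : ℕ, unr_q K ^ i ≡ unr_q K ^ (i % N) [MOD loc_r K N] := by
    intro i
    conv_lhs => rw [← Nat.div_add_mod i N, pow_add, pow_mul]
    have := (h1.pow (i / N)).mul_right (unr_q K ^ (i % N))
    rwa [one_pow, one_mul] at this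
  exact (key i).trans (by rw [hij]; exact (key j).symm)

/-- `q^i` for `i < N` are pairwise incongruent mod `r_N`. -/
lemma loc_q_pow_inj (N : ℕ) (i j : ℕ) (hi : i < N) (hj : j < N)
    (h : unr_q K ^ i ≡ unr_q K ^ j [MOD loc_r K N]) : i = j := by
  have hq := unr_two_le K
  -- both `q^i, q^j ≤ q^(N-1) < r + 1`; if both `< r` they are equal; `q^i = r` impossible...
  have hlt : ∀ i, i < N → unr_q K ^ i < loc_r K N ∨ (N = 1) := by
    intro i hi
    by_cases hN : N = 1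
    · exact Or.inr hN
    left
    have h1 := loc_r_add_one K N
    have h2 : unr_q K ^ i ≤ unr_q K ^ (N - 1) := Nat.pow_le_pow_right (unr_q_pos K) (by omega)
    have h3 : unr_q K ^ N = unr_q K ^ (N - 1) * unr_q K := by
      rw [← pow_succ]; congr 1; omega
    have h4 : 2 ≤ unr_q K ^ (N - 1) := by
      calc 2 ≤ unr_q K ^ 1 := by rwa [pow_one]
        _ ≤ unr_q K ^ (N - 1) := Nat.pow_le_pow_right (unr_q_pos K) (by omega)
    nlinarith
  rcases hlt i hi with h1 | h1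
  · rcases hlt j hj with h2 | h2
    · have := Nat.ModEq.eq_of_lt_of_lt h h1 h2
      exact Nat.pow_right_injective hq this
    · omega
  · omega

end base

section omega

variable (K Ω : Type) [NontriviallyNormedField K] [IsUltrametricDist K] [ProperSpace K]
  [NormedField Ω] [NormedAlgebra K Ω] [IsAlgClosed Ω] [Algebra.IsAlgebraic K Ω] [IsGalois K Ω]

omit [ProperSpace K] [IsAlgClosed Ω] [Algebra.IsAlgebraic K Ω] [IsGalois K Ω] in
lemma loc_r_ne_zero [ProperSpace K] (N : ℕ) [NeZero N] : (loc_r K N : Ω) ≠ 0 := by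
  have h := loc_norm_r K N
  intro h0
  have h1 : (algebraMap K Ω) (loc_r K N : K) = 0 := by rw [map_natCast]; exact h0
  have h2 : (loc_r K N : K) = 0 := (algebraMap K Ω).injective (by rw [h1, map_zero])
  rw [h2, norm_zero] at h
  exact zero_ne_one h

omit [Algebra.IsAlgebraic K Ω] [IsGalois K Ω] in
theorem loc_exists_zeta (N : ℕ) [NeZero N] : ∃ ζ : Ω, IsPrimitiveRoot ζ (loc_r K N) := by
  have : NeZero (loc_r K N : Ω) := ⟨loc_r_ne_zero K Ω N⟩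
  exact HasEnoughRootsOfUnity.exists_primitiveRoot Ω (loc_r K N)

/-- a chosen primitive `(q^N − 1)`-th root of unity. -/
noncomputable def loc_zeta (N : ℕ) [NeZero N] : Ω := (loc_exists_zeta K Ω N).choose

omit [Algebra.IsAlgebraic K Ω] [IsGalois K Ω] in
theorem loc_zeta_spec (N : ℕ) [NeZero N] : IsPrimitiveRoot (loc_zeta K Ω N) (loc_r K N) :=
  (loc_exists_zeta K Ω N).choose_spec

variable {Ω}

omit [IsAlgClosed Ω] [IsGalois K Ω] in
/-- consequences of UNR-2 for the cyclotomic subfield `K⟮ζ⟯ ⊆ Ω`. -/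
theorem loc_cyc_facts (N : ℕ) [NeZero N] (ζ : Ω) (hζ : IsPrimitiveRoot ζ (loc_r K N)) :
    FiniteDimensional K K⟮ζ⟯ ∧ IsGalois K K⟮ζ⟯ ∧ Module.finrank K K⟮ζ⟯ = N ∧
    (∃ σ : K⟮ζ⟯ ≃ₐ[K] K⟮ζ⟯, σ (AdjoinSimple.gen K ζ) = (AdjoinSimple.gen K ζ) ^ unr_q K ∧
      ∀ τ, τ ∈ Subgroup.zpowers σ) ∧
    (∀ y ∈ K⟮ζ⟯, ∃ c : K, ‖y‖ = ‖c‖) := by
  have hint : IsIntegral K ζ := Algebra.IsIntegral.isIntegral ζ
  have hfd : FiniteDimensional K K⟮ζ⟯ := adjoin.finiteDimensional hint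
  have hgen : IsPrimitiveRoot (AdjoinSimple.gen K ζ) (loc_r K N) := by
    have : (algebraMap K⟮ζ⟯ Ω) (AdjoinSimple.gen K ζ) = ζ := AdjoinSimple.algebraMap_gen K ζ
    exact IsPrimitiveRoot.of_map_of_injective (f := algebraMap K⟮ζ⟯ Ω)
      (by rw [this]; exact hζ) (algebraMap K⟮ζ⟯ Ω).injective
  have htop : IntermediateField.adjoin K {AdjoinSimple.gen K ζ} = ⊤ := by
    apply IntermediateField.lift_injective
    rw [lift_adjoin_simple, lift_top]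
    rfl
  obtain ⟨h1, h2, h3, h4⟩ := unr_cyc (F := K) (M := K⟮ζ⟯) (loc_r K N) (loc_norm_r K N)
    (AdjoinSimple.gen K ζ) hgen htop
  refine ⟨hfd, h1, ?_, h2, ?_⟩
  · -- degree
    have hd1 : Module.finrank K K⟮ζ⟯ ∣ N := (h4 N).mpr dvd_rfl
    have hd2 := (h4 (Module.finrank K K⟮ζ⟯)).mp dvd_rfl
    have hNpos : 0 < N := Nat.pos_of_ne_zero (NeZero.ne N)
    have hdpos : 0 < Module.finrank K K⟮ζ⟯ := Module.finrank_pos
    have hle1 := Nat.le_of_dvd hNpos hd1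
    have hq := unr_two_le K
    have hlt : 0 < unr_q K ^ Module.finrank K K⟮ζ⟯ - 1 := by
      have : unr_q K ^ 1 ≤ unr_q K ^ Module.finrank K K⟮ζ⟯ :=
        Nat.pow_le_pow_right (unr_q_pos K) hdpos
      rw [pow_one] at this
      omega
    have hle2 := Nat.le_of_dvd hlt hd2
    have h5 := loc_r_add_one K N
    have h6 : unr_q K ^ N ≤ unr_q K ^ Module.finrank K K⟮ζ⟯ := by omega
    have h7 := (Nat.pow_le_pow_iff_right (by omega : 1 < unr_q K)).mp h6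
    omega
  · intro y hy
    obtain ⟨ϖ, hϖ⟩ := loc_exists_unif K
    have hu := h3 ϖ hϖ
    by_cases hy0 : y = 0
    · exact ⟨0, by rw [hy0, norm_zero, norm_zero]⟩
    have hy0' : (⟨y, hy⟩ : K⟮ζ⟯) ≠ 0 := fun h => hy0 (congrArg Subtype.val h)
    obtain ⟨k, hk⟩ := hu.exists_zpow hy0'
    refine ⟨ϖ ^ k, ?_⟩
    rw [norm_zpow]
    have e1 : ‖(⟨y, hy⟩ : K⟮ζ⟯)‖ = ‖y‖ := rfl
    have e2 : ‖algebraMap K K⟮ζ⟯ ϖ‖ = ‖ϖ‖ := norm_algebraMap' _ ϖ
    rw [← e1, hk, e2]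

end omega

section chi

variable (K : Type) {Ω : Type} [NontriviallyNormedField K] [IsUltrametricDist K] [ProperSpace K]
  [NormedField Ω] [NormedAlgebra K Ω] [IsAlgClosed Ω] [Algebra.IsAlgebraic K Ω]

omit [IsAlgClosed Ω] in
theorem loc_frob_pow (N : ℕ) [NeZero N] (ζ : Ω) (hζ : IsPrimitiveRoot ζ (loc_r K N))
    (g : Ω ≃ₐ[K] Ω) : ∃ i : ℕ, g ζ = ζ ^ (unr_q K ^ i) := by
  obtain ⟨hfd, hgal, -, ⟨σ, hσ, hgen⟩, -⟩ := loc_cyc_facts K N ζ hζ
  have hmem := hgen (AlgEquiv.restrictNormalHom K⟮ζ⟯ g)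
  have : Finite (K⟮ζ⟯ ≃ₐ[K] K⟮ζ⟯) := inferInstance
  rw [← mem_powers_iff_mem_zpowers] at hmem
  obtain ⟨i, hi⟩ := hmem
  refine ⟨i, ?_⟩
  have h1 : ∀ i : ℕ, (σ ^ i) (AdjoinSimple.gen K ζ) =
      (AdjoinSimple.gen K ζ) ^ (unr_q K ^ i) := by
    intro i
    induction i with
    | zero => simp
    | succ i ih => rw [pow_succ', AlgEquiv.mul_apply, ih, map_pow, hσ, ← pow_mul, ← pow_succ']
  have h2 := AlgEquiv.restrictNormalHom_apply K⟮ζ⟯ g (AdjoinSimple.gen K ζ)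
  rw [← hi, h1 i] at h2
  simpa using h2.symm

omit [IsAlgClosed Ω] in
theorem loc_exists_frob [IsGalois K Ω] (N : ℕ) [NeZero N] (ζ : Ω) (hζ : IsPrimitiveRoot ζ (loc_r K N)) :
    ∃ σ : Ω ≃ₐ[K] Ω, σ ζ = ζ ^ unr_q K := by
  obtain ⟨hfd, hgal, -, ⟨σ, hσ, hgen⟩, -⟩ := loc_cyc_facts K N ζ hζ
  obtain ⟨σ', hσ'⟩ := AlgEquiv.restrictNormalHom_surjective (F := K) (K₁ := K⟮ζ⟯) Ω σ
  refine ⟨σ', ?_⟩
  have h2 := AlgEquiv.restrictNormalHom_apply K⟮ζ⟯ σ' (AdjoinSimple.gen K ζ)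
  rw [hσ', hσ] at h2
  simpa using h2.symm

omit [IsUltrametricDist K] [ProperSpace K] [IsAlgClosed Ω] [Algebra.IsAlgebraic K Ω] in
lemma loc_pow_eq_pow_iff {r : ℕ} {ζ : Ω} (hζ : IsPrimitiveRoot ζ r) (hr : 0 < r) (a b : ℕ) :
    ζ ^ a = ζ ^ b ↔ a ≡ b [MOD r] := by
  have hu : IsUnit ζ := hζ.isUnit hr.ne'
  obtain ⟨u, rfl⟩ := hu
  have hζ' : IsPrimitiveRoot u r := IsPrimitiveRoot.coe_units_iff.mp hζ
  rw [← Units.val_pow_eq_pow_val, ← Units.val_pow_eq_pow_val, Units.val_inj,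
    pow_eq_pow_iff_modEq, ← hζ'.eq_orderOf]

variable (Ω)

theorem loc_exists_chi (N : ℕ) [NeZero N] (g : Ω ≃ₐ[K] Ω) :
    ∃ i : ZMod N, g (loc_zeta K Ω N) = loc_zeta K Ω N ^ (unr_q K ^ i.val) := by
  obtain ⟨i, hi⟩ := loc_frob_pow K N _ (loc_zeta_spec K Ω N) g
  refine ⟨(i : ZMod N), ?_⟩
  rw [hi, loc_pow_eq_pow_iff (loc_zeta_spec K Ω N) (loc_r_pos K N)]
  apply loc_q_pow_modEq
  rw [ZMod.val_natCast]
  exact (Nat.mod_modEq i N).symm

/-- the unramified character of degree `N`: `g ζ = ζ ^ (q ^ χ(g))` on `μ_{q^N − 1}`. -/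
noncomputable def loc_chi (N : ℕ) [NeZero N] (g : Ω ≃ₐ[K] Ω) : ZMod N :=
  (loc_exists_chi K Ω N g).choose

theorem loc_chi_spec (N : ℕ) [NeZero N] (g : Ω ≃ₐ[K] Ω) :
    g (loc_zeta K Ω N) = loc_zeta K Ω N ^ (unr_q K ^ (loc_chi K Ω N g).val) :=
  (loc_exists_chi K Ω N g).choose_spec

theorem loc_chi_eq_of (N : ℕ) [NeZero N] (g : Ω ≃ₐ[K] Ω) (i : ℕ)
    (h : g (loc_zeta K Ω N) = loc_zeta K Ω N ^ (unr_q K ^ i)) :
    loc_chi K Ω N g = (i : ZMod N) := by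
  rw [loc_chi_spec, loc_pow_eq_pow_iff (loc_zeta_spec K Ω N) (loc_r_pos K N)] at h
  have h2 : unr_q K ^ (loc_chi K Ω N g).val ≡ unr_q K ^ (i % N) [MOD loc_r K N] :=
    h.trans (loc_q_pow_modEq K N _ _ (Nat.mod_modEq i N).symm)
  have hN : 0 < N := Nat.pos_of_ne_zero (NeZero.ne N)
  have h3 := loc_q_pow_inj K N _ _ (ZMod.val_lt _) (Nat.mod_lt i hN) h2
  rw [← ZMod.natCast_zmod_val (loc_chi K Ω N g), h3]
  exact (ZMod.natCast_mod i N)

/-- the action on all `(q^N − 1)`-th roots of unity. -/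
theorem loc_chi_all (N : ℕ) [NeZero N] (g : Ω ≃ₐ[K] Ω) (ξ : Ω) (hξ : ξ ^ loc_r K N = 1) :
    g ξ = ξ ^ (unr_q K ^ (loc_chi K Ω N g).val) := by
  have : NeZero (loc_r K N) := ⟨(loc_r_pos K N).ne'⟩
  obtain ⟨k, -, rfl⟩ := (loc_zeta_spec K Ω N).eq_pow_of_pow_eq_one hξ
  rw [map_pow, loc_chi_spec, ← pow_mul, ← pow_mul, mul_comm]

theorem loc_chi_mul (N : ℕ) [NeZero N] (g h : Ω ≃ₐ[K] Ω) :
    loc_chi K Ω N (g * h) = loc_chi K Ω N g + loc_chi K Ω N h := by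
  have h1 : (g * h) (loc_zeta K Ω N) = loc_zeta K Ω N ^
      (unr_q K ^ ((loc_chi K Ω N g).val + (loc_chi K Ω N h).val)) := by
    rw [AlgEquiv.mul_apply, loc_chi_spec K Ω N h, map_pow, loc_chi_spec K Ω N g, ← pow_mul,
      ← pow_add]
  rw [loc_chi_eq_of K Ω N _ _ h1]
  push_cast
  rw [ZMod.natCast_zmod_val, ZMod.natCast_zmod_val]

theorem loc_exists_chi_eq_one [IsGalois K Ω] (N : ℕ) [NeZero N] : ∃ σ : Ω ≃ₐ[K] Ω, loc_chi K Ω N σ = 1 := by
  obtain ⟨σ, hσ⟩ := loc_exists_frob K N _ (loc_zeta_spec K Ω N)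
  refine ⟨σ, ?_⟩
  have := loc_chi_eq_of K Ω N σ 1 (by rw [pow_one]; exact hσ)
  rw [this]
  simp

theorem loc_chi_eq_zero_iff (N : ℕ) [NeZero N] (g : Ω ≃ₐ[K] Ω) :
    loc_chi K Ω N g = 0 ↔ g (loc_zeta K Ω N) = loc_zeta K Ω N := by
  constructor
  · intro h
    rw [loc_chi_spec, h]
    simp
  · intro h
    have := loc_chi_eq_of K Ω N g 0 (by rw [pow_zero, pow_one]; exact h)
    rw [this]
    simp

/-- compatibility of the characters: `χ_{N t} mod N = χ_N`. -/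
theorem loc_chi_compat (N t : ℕ) [NeZero N] [NeZero t] (g : Ω ≃ₐ[K] Ω) :
    (loc_chi K Ω N g).val = (loc_chi K Ω (N * t) g).val % N := by
  have hdvd : loc_r K N ∣ loc_r K (N * t) := by
    unfold loc_r
    rw [pow_mul]
    simpa only [one_pow] using Nat.sub_dvd_pow_sub_pow (unr_q K ^ N) 1 t
  have h1 : (loc_zeta K Ω N) ^ loc_r K (N * t) = 1 := by
    obtain ⟨c, hc⟩ := hdvd
    rw [hc, pow_mul, (loc_zeta_spec K Ω N).pow_eq_one, one_pow]
  have h2 := loc_chi_all K Ω (N * t) g _ h1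
  rw [loc_chi_eq_of K Ω N g _ h2, ZMod.val_natCast]

end chi

/-- base change of the unramified characters: for `L/K` with `q_L = q_K^f`,
`χ^K_{N f}` restricted to `Γ_L` is `f · χ^L_N`. -/
theorem loc_chi_base_change (K L Ω : Type) [NontriviallyNormedField K] [IsUltrametricDist K]
    [ProperSpace K] [NontriviallyNormedField L] [IsUltrametricDist L] [ProperSpace L]
    [NormedField Ω] [NormedAlgebra K Ω] [NormedAlgebra L Ω] [IsAlgClosed Ω]
    [Algebra.IsAlgebraic K Ω] [Algebra.IsAlgebraic L Ω] [Algebra K L] [IsScalarTower K L Ω]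
    (f : ℕ) [NeZero f] (hf : unr_q L = unr_q K ^ f) (N : ℕ) [NeZero N] (g : Ω ≃ₐ[L] Ω) :
    (loc_chi K Ω (N * f) (g.restrictScalars K)).val = f * (loc_chi L Ω N g).val := by
  have hr : loc_r K (N * f) = loc_r L N := by
    unfold loc_r
    rw [hf, ← pow_mul, mul_comm]
  have h1 : (loc_zeta K Ω (N * f)) ^ loc_r L N = 1 := by
    rw [← hr]
    exact (loc_zeta_spec K Ω (N * f)).pow_eq_one
  have h2 := loc_chi_all L Ω N g _ h1
  rw [hf, ← pow_mul] at h2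
  have h3 := loc_chi_eq_of K Ω (N * f) (g.restrictScalars K) _ h2
  rw [h3, ZMod.val_natCast]
  apply Nat.mod_eq_of_lt
  have := ZMod.val_lt (loc_chi L Ω N g)
  have hf0 : 0 < f := Nat.pos_of_ne_zero (NeZero.ne f)
  calc f * (loc_chi L Ω N g).val < f * N := Nat.mul_lt_mul_of_pos_left this hf0
    _ = N * f := mul_comm _ _

end Fermat.Agent.S55
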