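import Mathlib

/-!
# S55 block LOC, part 3a: the carry cocycle

Pure algebra.  For `χ : G → ZMod n` additive and a `G`-fixed element `a` of a `G`-module `A`
(written multiplicatively), the *carry cocycle* is
`loc_ucoc n χ a (g, h) = a ^ carry (χ g) (χ h)` where `carry x y = 1` iff `x.val + y.val ≥ n`.

* `loc_ucoc_isMulCocycle₂` : it is a 2-cocycle.
* `loc_ucoc_of_norm` : if `a = ∏_{k<n} τ^k • b` with `χ τ = 1` and `b` fixed by `ker χ`, it is the
  coboundary of an explicit 1-cochain.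
* `loc_ucoc_coboundary_norm` : conversely (given Hilbert 90 for `ker χ`), if it is a coboundary
  then `a` is such a norm.
* `loc_carry_mul`, `loc_carry_scale` : numerics for change of modulus.
-/

set_option autoImplicit false

namespace Fermat.Agent.S55

/-- the carry of the addition of two residues mod `n`. -/
def loc_carry (n : ℕ) (x y : ZMod n) : ℕ := if n ≤ x.val + y.val then 1 else 0

lemma loc_carry_spec (n : ℕ) [NeZero n] (x y : ZMod n) :
    x.val + y.val = (x + y).val + n * loc_carry n x y := by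
  unfold loc_carry
  split_ifs with h
  · rw [ZMod.val_add_val_of_le h]; ring
  · rw [ZMod.val_add_of_lt (not_le.mp h)]; ring

lemma loc_carry_le_one (n : ℕ) (x y : ZMod n) : loc_carry n x y ≤ 1 := by
  unfold loc_carry; split_ifs <;> simp

lemma loc_carry_zero_right (n : ℕ) [NeZero n] (x : ZMod n) : loc_carry n x 0 = 0 := by
  unfold loc_carry
  rw [if_neg]
  simp only [ZMod.val_zero, add_zero, not_le]
  exact ZMod.val_lt x

lemma loc_carry_zero_left (n : ℕ) [NeZero n] (x : ZMod n) : loc_carry n 0 x = 0 := by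
  unfold loc_carry
  rw [if_neg]
  simp only [ZMod.val_zero, zero_add, not_le]
  exact ZMod.val_lt x

lemma loc_carry_assoc (n : ℕ) [NeZero n] (x y z : ZMod n) :
    loc_carry n (x + y) z + loc_carry n x y = loc_carry n y z + loc_carry n x (y + z) := by
  have h1 := loc_carry_spec n (x + y) z
  have h2 := loc_carry_spec n x y
  have h3 := loc_carry_spec n y z
  have h4 := loc_carry_spec n x (y + z)
  rw [add_assoc] at h1
  have hn : 0 < n := Nat.pos_of_ne_zero (NeZero.ne n)
  apply Nat.eq_of_mul_eq_mul_left hn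
  rw [mul_add, mul_add]
  omega

/-- change of modulus `N * t → N`. -/
lemma loc_carry_mul (N t : ℕ) [NeZero N] [NeZero t] (x y : ZMod (N * t))
    (x₀ y₀ : ZMod N) (hx : x₀.val = x.val % N) (hy : y₀.val = y.val % N) :
    t * loc_carry (N * t) x y + (x + y).val / N =
      loc_carry N x₀ y₀ + x.val / N + y.val / N := by
  have h1 := loc_carry_spec (N * t) x y
  have h2 := loc_carry_spec N x₀ y₀
  have hN : 0 < N := Nat.pos_of_ne_zero (NeZero.ne N)
  have hz : (x₀ + y₀).val = (x + y).val % N := by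
    rw [ZMod.val_add, hx, hy, ZMod.val_add, Nat.mod_mod_of_dvd _ (dvd_mul_right N t),
      ← Nat.add_mod]
  have e1 := Nat.div_add_mod x.val N
  have e2 := Nat.div_add_mod y.val N
  have e3 := Nat.div_add_mod (x + y).val N
  apply Nat.eq_of_mul_eq_mul_left hN
  have h5 : N * (t * loc_carry (N * t) x y) = N * t * loc_carry (N * t) x y := by ring
  rw [mul_add, mul_add, mul_add, h5]
  rw [hz] at h2
  rw [hx, hy] at h2
  omega

/-- change of modulus `N → N * f` along multiplication by `f`. -/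
lemma loc_carry_scale (N f : ℕ) [NeZero N] [NeZero f] (x y : ZMod N) (x' y' : ZMod (N * f))
    (hx : x'.val = f * x.val) (hy : y'.val = f * y.val) :
    loc_carry (N * f) x' y' = loc_carry N x y := by
  unfold loc_carry
  have hf : 0 < f := Nat.pos_of_ne_zero (NeZero.ne f)
  rw [hx, hy, ← mul_add, mul_comm N f]
  have : f * N ≤ f * (x.val + y.val) ↔ N ≤ x.val + y.val := Nat.mul_le_mul_left_iff hf
  simp only [this]

section basic

variable {G A : Type*} [CommGroup A]

/-- the carry cocycle attached to `χ : G → ZMod n` and `a`. -/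
def loc_ucoc (n : ℕ) (χ : G → ZMod n) (a : A) : G × G → A :=
  fun p => a ^ loc_carry n (χ p.1) (χ p.2)

lemma loc_ucoc_apply (n : ℕ) (χ : G → ZMod n) (a : A) (g h : G) :
    loc_ucoc n χ a (g, h) = a ^ loc_carry n (χ g) (χ h) := rfl

lemma loc_ucoc_mul (n : ℕ) (χ : G → ZMod n) (a b : A) (p : G × G) :
    loc_ucoc n χ (a * b) p = loc_ucoc n χ a p * loc_ucoc n χ b p := mul_pow _ _ _

lemma loc_ucoc_pow (n : ℕ) (χ : G → ZMod n) (a : A) (j : ℕ) (p : G × G) :
    loc_ucoc n χ (a ^ j) p = loc_ucoc n χ a p ^ j := by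
  unfold loc_ucoc; rw [← pow_mul, ← pow_mul, mul_comm]

lemma loc_ucoc_inv (n : ℕ) (χ : G → ZMod n) (a : A) (p : G × G) :
    loc_ucoc n χ a⁻¹ p = (loc_ucoc n χ a p)⁻¹ := inv_pow _ _

lemma loc_ucoc_one (n : ℕ) (χ : G → ZMod n) (p : G × G) :
    loc_ucoc n χ (1 : A) p = 1 := one_pow _

end basic

section cocycle

variable {G A : Type*} [Group G] [CommGroup A] [MulDistribMulAction G A]

theorem loc_ucoc_isMulCocycle₂ {n : ℕ} [NeZero n] (χ : G → ZMod n)
    (hχ : ∀ g h, χ (g * h) = χ g + χ h) (a : A) (ha : ∀ g : G, g • a = a) :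
    groupCohomology.IsMulCocycle₂ (loc_ucoc n χ a) := by
  intro g h j
  simp only [loc_ucoc_apply, smul_pow', ha, hχ]
  rw [← pow_add, ← pow_add, loc_carry_assoc]

lemma loc_chi_one {n : ℕ} (χ : G → ZMod n) (hχ : ∀ g h, χ (g * h) = χ g + χ h) : χ 1 = 0 := by
  have := hχ 1 1
  rw [mul_one] at this
  exact left_eq_add.mp this

lemma loc_chi_pow {n : ℕ} (χ : G → ZMod n) (hχ : ∀ g h, χ (g * h) = χ g + χ h) (g : G) (k : ℕ) :
    χ (g ^ k) = k * χ g := by
  induction k with
  | zero => simp [loc_chi_one χ hχ]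
  | succ k ih => rw [pow_succ, hχ, ih]; push_cast; ring

lemma loc_chi_inv {n : ℕ} (χ : G → ZMod n) (hχ : ∀ g h, χ (g * h) = χ g + χ h) (g : G) :
    χ g⁻¹ = - χ g := by
  have := hχ g g⁻¹
  rw [mul_inv_cancel, loc_chi_one χ hχ] at this
  exact eq_neg_of_add_eq_zero_right this.symm

/-- the partial norms `∏_{k<j} τ^k • b`. -/
def loc_pnorm (τ : G) (b : A) (j : ℕ) : A := ∏ k ∈ Finset.range j, τ ^ k • b

lemma loc_pnorm_add (τ : G) (b : A) (i j : ℕ) :
    loc_pnorm τ b (i + j) = loc_pnorm τ b i * ∏ k ∈ Finset.range j, τ ^ (i + k) • b :=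
  Finset.prod_range_add _ _ _

/-- If `a` is the norm of a `ker χ`-fixed element `b` (w.r.t. a generator `τ`, `χ τ = 1`), the
carry cocycle of `a` is the coboundary of `g ↦ ∏_{k < (χ g).val} τ^k • b`. -/
theorem loc_ucoc_of_norm {n : ℕ} [NeZero n] (χ : G → ZMod n)
    (hχ : ∀ g h, χ (g * h) = χ g + χ h) (τ : G) (hτ : χ τ = 1) (b : A)
    (hb : ∀ s, χ s = 0 → s • b = b) (g h : G) :
    g • loc_pnorm τ b (χ h).val / loc_pnorm τ b (χ (g * h)).val * loc_pnorm τ b (χ g).val =
      loc_ucoc n χ (loc_pnorm τ b n) (g, h) := by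
  -- `g • τ^k • b = τ^(v_g + k) • b`
  have hg : ∀ (g : G) (k : ℕ), g • τ ^ k • b = τ ^ ((χ g).val + k) • b := by
    intro g k
    have h1 : χ ((τ ^ ((χ g).val + k))⁻¹ * (g * τ ^ k)) = 0 := by
      rw [hχ, hχ, loc_chi_inv χ hχ, loc_chi_pow χ hχ, loc_chi_pow χ hχ, hτ]
      push_cast
      rw [ZMod.natCast_zmod_val]
      ring
    have h2 := hb _ h1
    rw [mul_smul, mul_smul, inv_smul_eq_iff] at h2
    exact h2
  have hn : τ ^ n • b = b := hb _ (by rw [loc_chi_pow χ hχ, hτ]; simp)
  have hP : ∀ w : ℕ, loc_pnorm τ b (n + w) = loc_pnorm τ b n * loc_pnorm τ b w := by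
    intro w
    rw [loc_pnorm_add]
    congr 1
    refine Finset.prod_congr rfl fun k _ => ?_
    rw [pow_add, mul_smul]
    have : τ ^ n * τ ^ k = τ ^ k * τ ^ n := by rw [← pow_add, ← pow_add, add_comm]
    rw [← mul_smul, this, mul_smul, hn]
  have hgP : ∀ (g : G) (j : ℕ),
      g • loc_pnorm τ b j * loc_pnorm τ b (χ g).val = loc_pnorm τ b ((χ g).val + j) := by
    intro g j
    rw [loc_pnorm_add, mul_comm]
    congr 1
    unfold loc_pnorm
    rw [Finset.smul_prod']
    exact Finset.prod_congr rfl fun k _ => hg g k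
  rw [div_mul_eq_mul_div, hgP, hχ, loc_ucoc_apply, loc_carry_spec n (χ g) (χ h)]
  have hc := loc_carry_le_one n (χ g) (χ h)
  interval_cases hcc : loc_carry n (χ g) (χ h)
  · simp
  · rw [mul_one, add_comm, hP, pow_one, mul_div_assoc, div_self', mul_one]

/-- Conversely: if the carry cocycle of a `G`-fixed `a` is a coboundary and Hilbert 90 holds for
`ker χ`, then `a` is the norm (w.r.t. any `σ` with `χ σ = 1`) of a `ker χ`-fixed element. -/
theorem loc_ucoc_coboundary_norm {n : ℕ} [NeZero n] (χ : G → ZMod n)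
    (hχ : ∀ g h, χ (g * h) = χ g + χ h) (σ : G) (hσ : χ σ = 1)
    (h90 : ∀ f : G → A, (∀ s t, χ s = 0 → χ t = 0 → f (s * t) = s • f t * f s) →
      ∃ c : A, ∀ s, χ s = 0 → f s = s • c / c)
    (a : A) (ha : ∀ g : G, g • a = a)
    (β : G → A) (hβ : ∀ g h, g • β h / β (g * h) * β g = loc_ucoc n χ a (g, h)) :
    ∃ b : A, (∀ s, χ s = 0 → s • b = b) ∧ a = loc_pnorm σ b n := by
  have hχ1 := loc_chi_one χ hχ
  by_cases hn1 : n = 1
  · subst hn1
    refine ⟨a, fun s _ => ha s, ?_⟩
    simp [loc_pnorm]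
  have hn2 : 2 ≤ n := by
    have := NeZero.ne n
    omega
  have : Fact (1 < n) := ⟨by omega⟩
  -- Hilbert 90 on the kernel
  obtain ⟨c, hc⟩ := h90 β (fun s t hs ht => by
    have := hβ s t
    rw [loc_ucoc_apply, hs, ht, loc_carry_zero_left, pow_zero] at this
    rw [div_mul_eq_mul_div, div_eq_one] at this
    exact this.symm)
  -- the corrected cochain
  set β' : G → A := fun g => β g * (c / g • c) with hβ'
  have hβ'd : ∀ g h, g • β' h / β' (g * h) * β' g = loc_ucoc n χ a (g, h) := by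
    intro g h
    rw [← hβ g h]
    simp only [hβ', smul_mul', smul_div', mul_smul]
    rw [div_mul_eq_mul_div, div_mul_eq_mul_div, div_eq_div_iff_mul_eq_mul]
    have e1 : c / (g • h • c) = c * (g • h • c)⁻¹ := div_eq_mul_inv _ _
    have e2 : c / (g • c) = c * (g • c)⁻¹ := div_eq_mul_inv _ _
    have e3 : g • c / (g • h • c) = g • c * (g • h • c)⁻¹ := div_eq_mul_inv _ _
    rw [e1, e2, e3]
    have : g • β h * (g • c * (g • h • c)⁻¹) * (β g * (c * (g • c)⁻¹)) * β (g * h) =
        g • β h * β g * (β (g * h) * (c * (g • h • c)⁻¹)) * (g • c * (g • c)⁻¹) := by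
      simp only [mul_assoc, mul_comm, mul_left_comm]
    rw [this, mul_inv_cancel, mul_one]
  have hβ'1 : ∀ s, χ s = 0 → β' s = 1 := by
    intro s hs
    show β s * (c / s • c) = 1
    rw [hc s hs]
    simp
  have hr : ∀ g s, χ s = 0 → β' (g * s) = β' g := by
    intro g s hs
    have := hβ'd g s
    rw [loc_ucoc_apply, hs, loc_carry_zero_right, pow_zero, hβ'1 s hs, smul_one, one_div,
      inv_mul_eq_one] at this
    exact this
  have hl : ∀ g s, χ s = 0 → β' (s * g) = s • β' g := by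
    intro g s hs
    have := hβ'd s g
    rw [loc_ucoc_apply, hs, loc_carry_zero_left, pow_zero, hβ'1 s hs, mul_one, div_eq_one] at this
    exact this.symm
  have hfix : ∀ g s, χ s = 0 → s • β' g = β' g := by
    intro g s hs
    rw [← hl g s hs]
    have h1 : s * g = g * (g⁻¹ * s * g) := by group
    rw [h1]
    apply hr
    rw [hχ, hχ, loc_chi_inv χ hχ, hs]
    ring
  refine ⟨β' σ, fun s hs => hfix σ s hs, ?_⟩
  -- induction along powers of σ
  have hind : ∀ k : ℕ, k < n → β' (σ ^ k) = loc_pnorm σ (β' σ) k := by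
    intro k
    induction k with
    | zero =>
      intro _
      rw [pow_zero, hβ'1 1 hχ1]
      simp [loc_pnorm]
    | succ k ih =>
      intro hk
      have hk' : k < n := by omega
      have := hβ'd (σ ^ k) σ
      rw [loc_ucoc_apply, loc_chi_pow χ hχ, hσ, mul_one] at this
      have hcz : loc_carry n (k : ZMod n) 1 = 0 := by
        unfold loc_carry
        rw [if_neg]
        rw [ZMod.val_natCast, Nat.mod_eq_of_lt hk', ZMod.val_one]
        omega
      rw [hcz, pow_zero, div_mul_eq_mul_div, div_eq_one, ih hk', ← pow_succ] at this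
      rw [← this, loc_pnorm, loc_pnorm, Finset.prod_range_succ, mul_comm]
  obtain ⟨m, rfl⟩ : ∃ m, n = m + 1 := ⟨n - 1, by omega⟩
  have := hβ'd (σ ^ m) σ
  rw [loc_ucoc_apply, loc_chi_pow χ hχ, hσ, mul_one] at this
  have hcz : loc_carry (m + 1) (m : ZMod (m + 1)) 1 = 1 := by
    unfold loc_carry
    rw [if_pos]
    rw [ZMod.val_natCast, Nat.mod_eq_of_lt (by omega), ZMod.val_one]
  rw [hcz, pow_one, ← pow_succ, hind m (by omega)] at this
  have h0 : β' (σ ^ (m + 1)) = 1 := hβ'1 _ (by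
    rw [loc_chi_pow χ hχ, hσ, mul_one]
    exact ZMod.natCast_self (m + 1))
  rw [h0, div_one] at this
  rw [← this, loc_pnorm, loc_pnorm, Finset.prod_range_succ, mul_comm]

end cocycle

end Fermat.Agent.S55
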