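import Mathlib
import Fermat.Agent.S55.LocCarry

/-!
# S55 block LOC, part 3d: level cochains of an absolute Galois group and descent

`Γ = Ω ≃ₐ[K] Ω`.  Cochains are plain functions `Γ → Ωˣ`, `Γ × Γ → Ωˣ`.  A cochain has level
`M` (`M : IntermediateField K Ω`) if it is right-invariant under `M.fixingSubgroup` in each
argument and takes values in `M`.  For `M/K` normal, level-`M` cochains are exactly the inflations
of cochains of `Gal(M/K)` with values in `Mˣ` (`loc_infl₁`, `loc_infl₂`, `loc_exists_infl₁`, ...).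
-/

set_option autoImplicit false

namespace Fermat.Agent.S55

open IntermediateField

section lvl

variable {K Ω : Type} [Field K] [Field Ω] [Algebra K Ω]

/-- `β : Γ → Ωˣ` is a 1-cochain of level `M`. -/
def loc_IsLvl₁ (M : IntermediateField K Ω) (β : (Ω ≃ₐ[K] Ω) → Ωˣ) : Prop :=
  (∀ g, ∀ s ∈ M.fixingSubgroup, β (g * s) = β g) ∧ ∀ g, (β g : Ω) ∈ M

/-- `x : Γ × Γ → Ωˣ` is a 2-cochain of level `M`. -/
def loc_IsLvl₂ (M : IntermediateField K Ω) (x : (Ω ≃ₐ[K] Ω) × (Ω ≃ₐ[K] Ω) → Ωˣ) : Prop :=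
  (∀ g h, ∀ s ∈ M.fixingSubgroup, ∀ t ∈ M.fixingSubgroup, x (g * s, h * t) = x (g, h)) ∧
    ∀ p, (x p : Ω) ∈ M

/-- `χ : Γ → X` is constant on cosets of `M.fixingSubgroup`. -/
def loc_IsLvlχ {X : Type*} (M : IntermediateField K Ω) (χ : (Ω ≃ₐ[K] Ω) → X) : Prop :=
  ∀ g, ∀ s ∈ M.fixingSubgroup, χ (g * s) = χ g

lemma loc_IsLvl₁.mono {M M' : IntermediateField K Ω} (h : M ≤ M') {β : (Ω ≃ₐ[K] Ω) → Ωˣ}
    (hβ : loc_IsLvl₁ M β) : loc_IsLvl₁ M' β :=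
  ⟨fun g s hs => hβ.1 g s (fixingSubgroup_antitone h hs), fun g => h (hβ.2 g)⟩

lemma loc_IsLvl₂.mono {M M' : IntermediateField K Ω} (h : M ≤ M')
    {x : (Ω ≃ₐ[K] Ω) × (Ω ≃ₐ[K] Ω) → Ωˣ} (hx : loc_IsLvl₂ M x) : loc_IsLvl₂ M' x :=
  ⟨fun g g' s hs t ht => hx.1 g g' s (fixingSubgroup_antitone h hs) t
    (fixingSubgroup_antitone h ht), fun p => h (hx.2 p)⟩

lemma loc_IsLvlχ.mono {X : Type*} {M M' : IntermediateField K Ω} (h : M ≤ M')
    {χ : (Ω ≃ₐ[K] Ω) → X} (hχ : loc_IsLvlχ M χ) : loc_IsLvlχ M' χ :=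
  fun g s hs => hχ g s (fixingSubgroup_antitone h hs)

/-- a level 1-cochain: of level `M` for some finite `M`. -/
def loc_Lev₁ (β : (Ω ≃ₐ[K] Ω) → Ωˣ) : Prop :=
  ∃ M : IntermediateField K Ω, FiniteDimensional K M ∧ loc_IsLvl₁ M β

/-- a level 2-cochain: of level `M` for some finite `M`. -/
def loc_Lev₂ (x : (Ω ≃ₐ[K] Ω) × (Ω ≃ₐ[K] Ω) → Ωˣ) : Prop :=
  ∃ M : IntermediateField K Ω, FiniteDimensional K M ∧ loc_IsLvl₂ M x

/-- the coboundary of a 1-cochain. -/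
def loc_d₁ (β : (Ω ≃ₐ[K] Ω) → Ωˣ) : (Ω ≃ₐ[K] Ω) × (Ω ≃ₐ[K] Ω) → Ωˣ :=
  fun p => p.1 • β p.2 / β (p.1 * p.2) * β p.1

lemma loc_d₁_apply (β : (Ω ≃ₐ[K] Ω) → Ωˣ) (g h : Ω ≃ₐ[K] Ω) :
    loc_d₁ β (g, h) = g • β h / β (g * h) * β g := rfl

lemma loc_d₁_mul (β β' : (Ω ≃ₐ[K] Ω) → Ωˣ) : loc_d₁ (β * β') = loc_d₁ β * loc_d₁ β' := by
  funext p
  simp only [loc_d₁, Pi.mul_apply, smul_mul', div_eq_mul_inv, mul_inv]
  simp only [mul_assoc, mul_comm, mul_left_comm]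

lemma loc_d₁_inv (β : (Ω ≃ₐ[K] Ω) → Ωˣ) : loc_d₁ β⁻¹ = (loc_d₁ β)⁻¹ := by
  funext p
  simp only [loc_d₁, Pi.inv_apply, smul_inv', div_eq_mul_inv, mul_inv, inv_inv]

lemma loc_d₁_one : loc_d₁ (1 : (Ω ≃ₐ[K] Ω) → Ωˣ) = 1 := by
  funext p
  simp [loc_d₁]

/-- a level coboundary. -/
def loc_IsLevCob (x : (Ω ≃ₐ[K] Ω) × (Ω ≃ₐ[K] Ω) → Ωˣ) : Prop :=
  ∃ β, loc_Lev₁ β ∧ x = loc_d₁ β

lemma loc_Lev₁.mul {β β' : (Ω ≃ₐ[K] Ω) → Ωˣ} (h : loc_Lev₁ β) (h' : loc_Lev₁ β') :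
    loc_Lev₁ (β * β') := by
  obtain ⟨M, hM, hβ⟩ := h
  obtain ⟨M', hM', hβ'⟩ := h'
  refine ⟨M ⊔ M', inferInstance, ?_⟩
  have h1 := hβ.mono (le_sup_left : M ≤ M ⊔ M')
  have h2 := hβ'.mono (le_sup_right : M' ≤ M ⊔ M')
  exact ⟨fun g s hs => by simp only [Pi.mul_apply, h1.1 g s hs, h2.1 g s hs],
    fun g => by
      simp only [Pi.mul_apply, Units.val_mul]
      exact mul_mem (h1.2 g) (h2.2 g)⟩

lemma loc_Lev₁.inv {β : (Ω ≃ₐ[K] Ω) → Ωˣ} (h : loc_Lev₁ β) : loc_Lev₁ β⁻¹ := by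
  obtain ⟨M, hM, hβ⟩ := h
  refine ⟨M, hM, fun g s hs => by simp only [Pi.inv_apply, hβ.1 g s hs], fun g => ?_⟩
  simp only [Pi.inv_apply, Units.val_inv_eq_inv_val]
  exact inv_mem (hβ.2 g)

lemma loc_Lev₁_one : loc_Lev₁ (1 : (Ω ≃ₐ[K] Ω) → Ωˣ) :=
  ⟨⊥, inferInstance, fun _ _ _ => rfl, fun _ => by simp⟩

lemma loc_IsLevCob.mul {x y : (Ω ≃ₐ[K] Ω) × (Ω ≃ₐ[K] Ω) → Ωˣ} (hx : loc_IsLevCob x)
    (hy : loc_IsLevCob y) : loc_IsLevCob (x * y) := by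
  obtain ⟨β, hβ, rfl⟩ := hx
  obtain ⟨β', hβ', rfl⟩ := hy
  exact ⟨β * β', hβ.mul hβ', (loc_d₁_mul β β').symm⟩

lemma loc_IsLevCob.inv {x : (Ω ≃ₐ[K] Ω) × (Ω ≃ₐ[K] Ω) → Ωˣ} (hx : loc_IsLevCob x) :
    loc_IsLevCob x⁻¹ := by
  obtain ⟨β, hβ, rfl⟩ := hx
  exact ⟨β⁻¹, hβ.inv, (loc_d₁_inv β).symm⟩

lemma loc_isLevCob_one : loc_IsLevCob (1 : (Ω ≃ₐ[K] Ω) × (Ω ≃ₐ[K] Ω) → Ωˣ) :=
  ⟨1, loc_Lev₁_one, loc_d₁_one.symm⟩

end lvl

section descent

variable {K Ω : Type} [Field K] [Field Ω] [Algebra K Ω] [Normal K Ω]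
  (M : IntermediateField K Ω) [Normal K M]

/-- restriction `Γ → Gal(M/K)`. -/
noncomputable abbrev loc_res : (Ω ≃ₐ[K] Ω) →* (M ≃ₐ[K] M) := AlgEquiv.restrictNormalHom M

omit [Normal K Ω] in
lemma loc_res_apply (g : Ω ≃ₐ[K] Ω) (y : M) : ((loc_res M g) y : Ω) = g y :=
  AlgEquiv.restrictNormalHom_apply M g y

lemma loc_res_surjective : Function.Surjective (loc_res M) :=
  AlgEquiv.restrictNormalHom_surjective Ω

omit [Normal K Ω] in
lemma loc_res_eq_one_iff (s : Ω ≃ₐ[K] Ω) : loc_res M s = 1 ↔ s ∈ M.fixingSubgroup := by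
  rw [IntermediateField.mem_fixingSubgroup_iff]
  constructor
  · intro h y hy
    have := loc_res_apply M s ⟨y, hy⟩
    rw [h] at this
    exact this.symm
  · intro h
    ext y
    rw [loc_res_apply]
    exact h y y.2

omit [Normal K Ω] in
lemma loc_res_eq_iff (g g' : Ω ≃ₐ[K] Ω) :
    loc_res M g = loc_res M g' ↔ g⁻¹ * g' ∈ M.fixingSubgroup := by
  rw [← loc_res_eq_one_iff, map_mul, map_inv, inv_mul_eq_one]

/-- inclusion `Mˣ → Ωˣ`. -/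
abbrev loc_incl : Mˣ →* Ωˣ := Units.map (algebraMap M Ω : M →* Ω)

omit [Normal K Ω] [Normal K M] in
lemma loc_incl_injective : Function.Injective (loc_incl M) :=
  Units.map_injective (algebraMap M Ω).injective

omit [Normal K Ω] in
lemma loc_incl_smul (g : Ω ≃ₐ[K] Ω) (y : Mˣ) :
    loc_incl M (loc_res M g • y) = g • loc_incl M y := by
  apply Units.ext
  exact loc_res_apply M g (y : M)

/-- a unit of `Ω` lying in `M` as a unit of `M`. -/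
def loc_unitOfMem (y : Ωˣ) (hy : (y : Ω) ∈ M) : Mˣ :=
  ⟨⟨y, hy⟩, ⟨((y⁻¹ : Ωˣ) : Ω), by rw [Units.val_inv_eq_inv_val]; exact M.inv_mem hy⟩,
    by ext; simp, by ext; simp⟩

omit [Normal K Ω] [Normal K M] in
lemma loc_incl_unitOfMem (y : Ωˣ) (hy : (y : Ω) ∈ M) : loc_incl M (loc_unitOfMem M y hy) = y :=
  Units.ext rfl

/-- inflation of 1-cochains from `Gal(M/K)` to `Γ`. -/
noncomputable def loc_infl₁ (β : (M ≃ₐ[K] M) → Mˣ) : (Ω ≃ₐ[K] Ω) → Ωˣ :=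
  fun g => loc_incl M (β (loc_res M g))

/-- inflation of 2-cochains from `Gal(M/K)` to `Γ`. -/
noncomputable def loc_infl₂ (x : (M ≃ₐ[K] M) × (M ≃ₐ[K] M) → Mˣ) :
    (Ω ≃ₐ[K] Ω) × (Ω ≃ₐ[K] Ω) → Ωˣ :=
  fun p => loc_incl M (x (loc_res M p.1, loc_res M p.2))

omit [Normal K Ω] in
lemma loc_res_mul_fix (g s : Ω ≃ₐ[K] Ω) (hs : s ∈ M.fixingSubgroup) :
    loc_res M (g * s) = loc_res M g := by
  rw [map_mul, (loc_res_eq_one_iff M s).mpr hs, mul_one]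

omit [Normal K Ω] in
lemma loc_infl₁_isLvl (β : (M ≃ₐ[K] M) → Mˣ) : loc_IsLvl₁ M (loc_infl₁ M β) :=
  ⟨fun g s hs => by simp only [loc_infl₁, loc_res_mul_fix M g s hs],
    fun g => (β (loc_res M g) : M).2⟩

omit [Normal K Ω] in
lemma loc_infl₂_isLvl (x : (M ≃ₐ[K] M) × (M ≃ₐ[K] M) → Mˣ) : loc_IsLvl₂ M (loc_infl₂ M x) :=
  ⟨fun g h s hs t ht => by
      simp only [loc_infl₂, loc_res_mul_fix M g s hs, loc_res_mul_fix M h t ht],
    fun p => (x (loc_res M p.1, loc_res M p.2) : M).2⟩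

theorem loc_exists_infl₁ (β : (Ω ≃ₐ[K] Ω) → Ωˣ) (hβ : loc_IsLvl₁ M β) :
    ∃ β' : (M ≃ₐ[K] M) → Mˣ, loc_infl₁ M β' = β := by
  refine ⟨fun g => loc_unitOfMem M (β (Function.surjInv (loc_res_surjective M) g)) (hβ.2 _), ?_⟩
  funext g
  simp only [loc_infl₁, loc_incl_unitOfMem]
  set g' := Function.surjInv (loc_res_surjective M) (loc_res M g) with hg'
  have h1 : loc_res M g' = loc_res M g := Function.surjInv_eq (loc_res_surjective M) _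
  have h2 := (loc_res_eq_iff M g' g).mp h1
  have h3 := hβ.1 g' _ h2
  rw [mul_inv_cancel_left] at h3
  exact h3.symm

theorem loc_exists_infl₂ (x : (Ω ≃ₐ[K] Ω) × (Ω ≃ₐ[K] Ω) → Ωˣ) (hx : loc_IsLvl₂ M x) :
    ∃ x' : (M ≃ₐ[K] M) × (M ≃ₐ[K] M) → Mˣ, loc_infl₂ M x' = x := by
  refine ⟨fun p => loc_unitOfMem M (x (Function.surjInv (loc_res_surjective M) p.1,
    Function.surjInv (loc_res_surjective M) p.2)) (hx.2 _), ?_⟩
  funext ⟨g, h⟩
  simp only [loc_infl₂, loc_incl_unitOfMem]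
  set g' := Function.surjInv (loc_res_surjective M) (loc_res M g) with hg'
  set h' := Function.surjInv (loc_res_surjective M) (loc_res M h) with hh'
  have h1 : loc_res M g' = loc_res M g := Function.surjInv_eq (loc_res_surjective M) _
  have h2 := (loc_res_eq_iff M g' g).mp h1
  have h1' : loc_res M h' = loc_res M h := Function.surjInv_eq (loc_res_surjective M) _
  have h2' := (loc_res_eq_iff M h' h).mp h1'
  have h3 := hx.1 g' h' _ h2 _ h2'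
  rw [mul_inv_cancel_left, mul_inv_cancel_left] at h3
  exact h3.symm

theorem loc_exists_inflχ {X : Type*} (χ : (Ω ≃ₐ[K] Ω) → X) (hχ : loc_IsLvlχ M χ) :
    ∃ χ' : (M ≃ₐ[K] M) → X, ∀ g, χ' (loc_res M g) = χ g := by
  refine ⟨fun g => χ (Function.surjInv (loc_res_surjective M) g), fun g => ?_⟩
  set g' := Function.surjInv (loc_res_surjective M) (loc_res M g) with hg'
  have h1 : loc_res M g' = loc_res M g := Function.surjInv_eq (loc_res_surjective M) _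
  have h2 := (loc_res_eq_iff M g' g).mp h1
  have h3 := hχ g' _ h2
  rw [mul_inv_cancel_left] at h3
  exact h3.symm

omit [Normal K Ω] in
/-- inflation commutes with coboundaries. -/
lemma loc_infl₂_d (β : (M ≃ₐ[K] M) → Mˣ) :
    loc_infl₂ M (fun p => p.1 • β p.2 / β (p.1 * p.2) * β p.1) = loc_d₁ (loc_infl₁ M β) := by
  funext ⟨g, h⟩
  simp only [loc_infl₂, loc_d₁, loc_infl₁, map_mul, map_div, loc_incl_smul]

lemma loc_infl₂_injective : Function.Injective (loc_infl₂ (K := K) (Ω := Ω) M) := by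
  intro x y hxy
  funext ⟨g, h⟩
  obtain ⟨g', rfl⟩ := loc_res_surjective M g
  obtain ⟨h', rfl⟩ := loc_res_surjective M h
  exact loc_incl_injective M (congrFun hxy (g', h'))

/-- a 2-cochain of `Gal(M/K)` is a cocycle iff its inflation is. -/
lemma loc_infl₂_isMulCocycle₂_iff (x : (M ≃ₐ[K] M) × (M ≃ₐ[K] M) → Mˣ) :
    groupCohomology.IsMulCocycle₂ (loc_infl₂ M x) ↔ groupCohomology.IsMulCocycle₂ x := by
  constructor
  · intro h g h' j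
    obtain ⟨g, rfl⟩ := loc_res_surjective M g
    obtain ⟨h', rfl⟩ := loc_res_surjective M h'
    obtain ⟨j, rfl⟩ := loc_res_surjective M j
    apply loc_incl_injective M
    have := h g h' j
    simp only [loc_infl₂, map_mul] at this
    rw [map_mul, map_mul, loc_incl_smul]
    exact this
  · intro h g h' j
    have := congrArg (loc_incl M) (h (loc_res M g) (loc_res M h') (loc_res M j))
    rw [map_mul, map_mul, loc_incl_smul] at this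
    simp only [loc_infl₂, map_mul]
    exact this

omit [Normal K Ω] in
lemma loc_infl₂_ucoc {n : ℕ} (χ : (M ≃ₐ[K] M) → ZMod n) (a : Mˣ) :
    loc_infl₂ M (loc_ucoc n χ a) = loc_ucoc n (χ ∘ loc_res M) (loc_incl M a) := by
  funext ⟨g, h⟩
  simp only [loc_infl₂, loc_ucoc_apply, map_pow, Function.comp_apply]

end descent

end Fermat.Agent.S55
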