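import Mathlib
import Fermat.Agent.S55.LocCarry
import Fermat.Agent.S55.LocLimCoc
import Fermat.Agent.S55.LocInf

/-!
# S55 block LOC, part 3e: the cyclic criterion in the limit

For an additive level character `χ : Γ → ZMod n` with `χ σ = 1` and `a ∈ Kˣ`:
the carry cocycle `loc_ucoc n χ a` is a level coboundary iff `a = ∏_{k<n} σ^k b` for some
`b ∈ Ωˣ` fixed by `ker χ` (`loc_gcb_norm`, `loc_gcb_of_norm`).
-/

set_option autoImplicit false

namespace Fermat.Agent.S55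

open IntermediateField

section gcb

variable {K Ω : Type} [Field K] [Field Ω] [Algebra K Ω] [IsGalois K Ω]

omit [IsGalois K Ω] in
lemma loc_exists_normal_ge [Normal K Ω] (M₁ : IntermediateField K Ω) [FiniteDimensional K M₁] :
    ∃ M : IntermediateField K Ω, M₁ ≤ M ∧ FiniteDimensional K M ∧ Normal K M :=
  ⟨normalClosure K M₁ Ω, IntermediateField.le_normalClosure M₁, inferInstance, inferInstance⟩

omit [IsGalois K Ω] in
/-- a normal intermediate field is stable under automorphisms. -/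
lemma loc_mem_of_normal (M : IntermediateField K Ω) [Normal K M] (g : Ω ≃ₐ[K] Ω) {y : Ω}
    (hy : y ∈ M) : g y ∈ M := by
  rw [← loc_res_apply M g ⟨y, hy⟩]
  exact (loc_res M g ⟨y, hy⟩).2

omit [IsGalois K Ω] in
/-- Hilbert 90 for a subset of `Gal(M/K)` cut out by an additive character. -/
lemma loc_h90_ker (M : IntermediateField K Ω) [FiniteDimensional K M] {n : ℕ}
    (χ : (M ≃ₐ[K] M) → ZMod n) (hχ : ∀ g h, χ (g * h) = χ g + χ h)
    (f : (M ≃ₐ[K] M) → Mˣ)
    (hf : ∀ s t, χ s = 0 → χ t = 0 → f (s * t) = s • f t * f s) :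
    ∃ c : Mˣ, ∀ s, χ s = 0 → f s = s • c / c := by
  let H : Subgroup (M ≃ₐ[K] M) :=
    { carrier := {s | χ s = 0}
      mul_mem' := fun {s t} hs ht => by
        show χ (s * t) = 0
        rw [hχ, hs, ht, add_zero]
      one_mem' := loc_chi_one χ hχ
      inv_mem' := fun {s} hs => by
        show χ s⁻¹ = 0
        rw [loc_chi_inv χ hχ, hs, neg_zero] }
  let a : ↥H →* (M ≃+* M) := MonoidHom.mk' (fun s => ((s : M ≃ₐ[K] M) : M ≃+* M)) (fun _ _ => rfl)
  have ha : Function.Injective a := by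
    intro s t hst
    apply Subtype.ext
    apply AlgEquiv.ext
    intro y
    exact DFunLike.congr_fun hst y
  obtain ⟨c, hc⟩ := linf_hilbert90 a ha (fun s => f s) (fun s t => by
    have := hf s t s.2 t.2
    rw [mul_comm] at this
    exact this)
  refine ⟨c, fun s hs => ?_⟩
  exact hc ⟨s, hs⟩

/-- **Cyclic criterion, direction ⟹**: if the carry cocycle of `a ∈ Kˣ` w.r.t. an additive level
character `χ` is a level coboundary, then `a` is a norm from the fixed field of `ker χ`. -/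
theorem loc_gcb_norm {n : ℕ} [NeZero n] (χ : (Ω ≃ₐ[K] Ω) → ZMod n)
    (hχ : ∀ g h, χ (g * h) = χ g + χ h)
    (M₀ : IntermediateField K Ω) [FiniteDimensional K M₀] (hχl : loc_IsLvlχ M₀ χ)
    (σ : Ω ≃ₐ[K] Ω) (hσ : χ σ = 1) (a : Kˣ)
    (h : loc_IsLevCob (loc_ucoc n χ (Units.map (algebraMap K Ω : K →* Ω) a))) :
    ∃ b : Ωˣ, (∀ s, χ s = 0 → s • b = b) ∧
      Units.map (algebraMap K Ω : K →* Ω) a = loc_pnorm σ b n := by
  obtain ⟨β, ⟨M₁, hM₁, hβ⟩, hd⟩ := h
  obtain ⟨M, hle, hfd, hnor⟩ := loc_exists_normal_ge (M₀ ⊔ M₁)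
  have hle₀ : M₀ ≤ M := le_sup_left.trans hle
  have hle₁ : M₁ ≤ M := le_sup_right.trans hle
  obtain ⟨χ', hχ'⟩ := loc_exists_inflχ M χ (hχl.mono hle₀)
  obtain ⟨β', hβ'⟩ := loc_exists_infl₁ M β (hβ.mono hle₁)
  have hχ'add : ∀ g h, χ' (g * h) = χ' g + χ' h := by
    intro g h
    obtain ⟨g, rfl⟩ := loc_res_surjective M g
    obtain ⟨h, rfl⟩ := loc_res_surjective M h
    rw [← map_mul, hχ', hχ', hχ', hχ]
  set a' : Mˣ := Units.map (algebraMap K M : K →* M) a with ha'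
  have hincl : loc_incl M a' = Units.map (algebraMap K Ω : K →* Ω) a := by
    apply Units.ext
    rfl
  have hcomp : χ' ∘ loc_res M = χ := funext hχ'
  have key : (fun p : (M ≃ₐ[K] M) × (M ≃ₐ[K] M) => p.1 • β' p.2 / β' (p.1 * p.2) * β' p.1) =
      loc_ucoc n χ' a' := by
    apply loc_infl₂_injective M
    rw [loc_infl₂_d, hβ', loc_infl₂_ucoc, hcomp, hincl, hd]
  obtain ⟨b', hb'fix, hb'⟩ := loc_ucoc_coboundary_norm χ' hχ'add (loc_res M σ)
    (by rw [hχ', hσ]) (loc_h90_ker M χ' hχ'add) a' (fun g => by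
      apply Units.ext
      exact g.commutes (a : K)) β' (fun g h => congrFun key (g, h))
  refine ⟨loc_incl M b', fun s hs => ?_, ?_⟩
  · rw [← loc_incl_smul, hb'fix _ (by rw [hχ', hs])]
  · rw [← hincl, hb', loc_pnorm, loc_pnorm, map_prod]
    refine Finset.prod_congr rfl fun k _ => ?_
    rw [← map_pow, loc_incl_smul]

variable [Algebra.IsAlgebraic K Ω]

/-- **Cyclic criterion, direction ⟸**: the carry cocycle of a norm is a level coboundary. -/
theorem loc_gcb_of_norm {n : ℕ} [NeZero n] (χ : (Ω ≃ₐ[K] Ω) → ZMod n)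
    (hχ : ∀ g h, χ (g * h) = χ g + χ h)
    (M₀ : IntermediateField K Ω) [FiniteDimensional K M₀] (hχl : loc_IsLvlχ M₀ χ)
    (τ : Ω ≃ₐ[K] Ω) (hτ : χ τ = 1) (b : Ωˣ) (hb : ∀ s, χ s = 0 → s • b = b) :
    loc_IsLevCob (loc_ucoc n χ (loc_pnorm τ b n)) := by
  have hint : IsIntegral K (b : Ω) := Algebra.IsIntegral.isIntegral _
  have hfd : FiniteDimensional K K⟮(b : Ω)⟯ := adjoin.finiteDimensional hint
  obtain ⟨M, hle, hfdM, hnor⟩ := loc_exists_normal_ge (M₀ ⊔ K⟮(b : Ω)⟯)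
  have hle₀ : M₀ ≤ M := le_sup_left.trans hle
  have hbM : (b : Ω) ∈ M := hle (le_sup_right (a := M₀) (mem_adjoin_simple_self K (b : Ω)))
  refine ⟨fun g => loc_pnorm τ b (χ g).val, ⟨M, hfdM, fun g s hs => ?_, fun g => ?_⟩, ?_⟩
  · show loc_pnorm τ b (χ (g * s)).val = loc_pnorm τ b (χ g).val
    rw [hχl.mono hle₀ g s hs]
  · unfold loc_pnorm
    rw [Units.coe_prod]
    refine prod_mem fun k _ => ?_
    exact loc_mem_of_normal M (τ ^ k) hbM
  · funext ⟨g, h⟩
    exact (loc_ucoc_of_norm χ hχ τ hτ b hb g h).symm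

end gcb

end Fermat.Agent.S55
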