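import Mathlib
import Fermat.Agent.S55.LocBasic
import Fermat.Agent.S55.LocNormIndex

/-!
# S55 block LOC, part 3b: norms in unramified cyclic extensions

For a cyclic extension `L/K` of local fields whose value group does not grow (`hunr`), an element
`a ∈ Kˣ` is a norm from `L` as soon as `‖a‖ = ‖c‖ ^ [L:K]` for some `c ∈ K`.
-/

set_option autoImplicit false

namespace Fermat.Agent.S55

variable {K L : Type} [NontriviallyNormedField K] [IsUltrametricDist K] [ProperSpace K]
  [NontriviallyNormedField L] [NormedAlgebra K L] [FiniteDimensional K L] [IsGalois K L]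

/-- the subgroup of `Kˣ` of elements whose valuation is divisible by `n`. -/
theorem loc_unr_norm_surj (σ : L ≃ₐ[K] L) (hσ : ∀ τ, τ ∈ Subgroup.zpowers σ)
    (hunr : ∀ y : L, ∃ c : K, ‖y‖ = ‖c‖)
    (a : Kˣ) (c : K) (hac : ‖(a : K)‖ = ‖c‖ ^ Module.finrank K L) :
    ∃ y : Lˣ, Algebra.norm K (y : L) = a := by
  classical
  set n := Module.finrank K L with hn
  have hnpos : 0 < n := Module.finrank_pos
  have : NeZero n := ⟨hnpos.ne'⟩
  obtain ⟨ϖ, hϖ⟩ := loc_exists_unif K
  -- the hom `ord mod n`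
  let φ : Additive Kˣ →+ ZMod n := (Int.castAddHom (ZMod n)).comp (loc_ord hϖ)
  have hφsurj : Function.Surjective φ := by
    intro z
    obtain ⟨x, hx⟩ := loc_ord_surjective hϖ (z.val : ℤ)
    refine ⟨x, ?_⟩
    show ((loc_ord hϖ x : ℤ) : ZMod n) = z
    rw [hx]
    simp
  have hker : φ.ker.index = n := by
    rw [AddSubgroup.index_ker, AddMonoidHom.range_eq_top.mpr hφsurj]
    simp
  -- membership criterion
  have hmem : ∀ (x : Kˣ) (d : K), ‖(x : K)‖ = ‖d‖ ^ n → Additive.ofMul x ∈ φ.ker := by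
    intro x d hxd
    have hd : d ≠ 0 := by
      rintro rfl
      rw [norm_zero, zero_pow hnpos.ne'] at hxd
      exact x.ne_zero (norm_eq_zero.mp hxd)
    obtain ⟨k, hk⟩ := hϖ.exists_zpow hd
    rw [AddMonoidHom.mem_ker]
    show ((loc_ord hϖ (Additive.ofMul x) : ℤ) : ZMod n) = 0
    have : loc_ord hϖ (Additive.ofMul x) = k * n := by
      rw [loc_ord_eq_iff]
      show ‖(x : K)‖ = _
      rw [hxd, hk, zpow_mul, zpow_natCast]
    rw [this]
    simp
  set H₁ : Subgroup Kˣ := (Units.map (Algebra.norm K : L →* K)).range with hH₁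
  have hidx : H₁.index = n := loc_norm_index_cyclic σ hσ
  have hle : H₁.toAddSubgroup ≤ φ.ker := by
    intro x hx
    obtain ⟨y, hy⟩ := hx
    obtain ⟨d, hd⟩ := hunr (y : L)
    have := hmem (Additive.toMul x) d (by
      rw [← hy]
      show ‖Algebra.norm K (y : L)‖ = _
      rw [loc_norm_algebraNorm, hd])
    exact this
  have hidx' : H₁.toAddSubgroup.index = n := by rw [Subgroup.index_toAddSubgroup]; exact hidx
  have hrel : H₁.toAddSubgroup.relIndex φ.ker = 1 := by
    have h1 := AddSubgroup.relIndex_mul_index hle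
    rw [hidx', hker] at h1
    exact Nat.eq_of_mul_eq_mul_right hnpos (by rw [h1, one_mul])
  have hge : φ.ker ≤ H₁.toAddSubgroup := AddSubgroup.relIndex_eq_one.mp hrel
  obtain ⟨y, hy⟩ := hge (hmem a c hac)
  exact ⟨y, congrArg Units.val hy⟩

end Fermat.Agent.S55
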