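import Mathlib
import Fermat.Agent.S55.LocLimBase
import Fermat.Agent.S55.LocLimCyc
import Fermat.Agent.S55.LocUnrNorm
import Fermat.Agent.S55.LocInfNorm
import Fermat.Agent.S55.HpbCyclic

/-!
# S55 block LOC, part 3f: the unramified carry cocycles `u_{N,a}`

`loc_u K Ω N a = loc_ucoc N (loc_chi K Ω N) a` for `a ∈ Kˣ`.

* `loc_u_cob_iff` (CB): `u_{N,a}` is a level coboundary iff `‖a‖ = ‖c‖ ^ N` for some `c ∈ K`.
* `loc_u_compat` (CM): `u_{N t, a^t} / u_{N,a}` is a level coboundary.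
* `loc_u_res` (RES): for `L/K` with `q_L = q_K^f`: `u^K_{N f, a}` restricted to `Γ_L` is `u^L_{N,a}`.
* `loc_unr_unit_cob` (LP-b): a 2-cocycle of level `K(ζ_{q^N-1})` with values of norm one is a
  level coboundary.
-/

set_option autoImplicit false

namespace Fermat.Agent.S55

open IntermediateField

lemma loc_fixes_adjoin {K L : Type*} [Field K] [Field L] [Algebra K L] (τ : L ≃ₐ[K] L)
    (ζ : L) (h : τ ζ = ζ) : ∀ x ∈ K⟮ζ⟯, τ x = x := by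
  intro x hx
  induction hx using IntermediateField.adjoin_induction with
  | mem x hx => rw [Set.mem_singleton_iff.mp hx]; exact h
  | algebraMap x => exact τ.commutes x
  | add x y _ _ hx hy => rw [map_add, hx, hy]
  | inv x _ hx => rw [map_inv₀, hx]
  | mul x y _ _ hx hy => rw [map_mul, hx, hy]

section unr

variable (K Ω : Type) [NontriviallyNormedField K] [IsUltrametricDist K] [ProperSpace K]
  [NormedField Ω] [NormedAlgebra K Ω] [IsAlgClosed Ω] [Algebra.IsAlgebraic K Ω]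

/-- the unramified carry cocycle `u_{N,a}`. -/
noncomputable def loc_u (N : ℕ) [NeZero N] (a : Kˣ) : (Ω ≃ₐ[K] Ω) × (Ω ≃ₐ[K] Ω) → Ωˣ :=
  loc_ucoc N (loc_chi K Ω N) (Units.map (algebraMap K Ω : K →* Ω) a)

lemma loc_chi_isLvl (N : ℕ) [NeZero N] :
    loc_IsLvlχ K⟮loc_zeta K Ω N⟯ (loc_chi K Ω N) := by
  intro g s hs
  rw [loc_chi_mul, (loc_chi_eq_zero_iff K Ω N s).mpr ?_, add_zero]
  exact (IntermediateField.mem_fixingSubgroup_iff _ s).mp hs _ (mem_adjoin_simple_self K _)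

lemma loc_u_isMulCocycle₂ (N : ℕ) [NeZero N] (a : Kˣ) :
    groupCohomology.IsMulCocycle₂ (loc_u K Ω N a) :=
  loc_ucoc_isMulCocycle₂ _ (loc_chi_mul K Ω N) _ (fun g => by
    apply Units.ext
    exact g.commutes (a : K))

lemma loc_u_isLvl (N : ℕ) [NeZero N] (a : Kˣ) :
    loc_IsLvl₂ K⟮loc_zeta K Ω N⟯ (loc_u K Ω N a) := by
  refine ⟨fun g h s hs t ht => ?_, fun p => ?_⟩
  · simp only [loc_u, loc_ucoc_apply, loc_chi_isLvl K Ω N g s hs, loc_chi_isLvl K Ω N h t ht]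
  · simp only [loc_u, loc_ucoc, Units.val_pow_eq_pow_val, Units.coe_map, MonoidHom.coe_coe]
    exact pow_mem (IntermediateField.algebraMap_mem _ _) _

lemma loc_u_mul (N : ℕ) [NeZero N] (a b : Kˣ) :
    loc_u K Ω N (a * b) = loc_u K Ω N a * loc_u K Ω N b := by
  funext p
  simp only [loc_u, map_mul, Pi.mul_apply]
  exact loc_ucoc_mul _ _ _ _ _

/-- (CM): `u_{N t, a^t} = u_{N,a} · d β` with `β g = a ^ ⌊χ_{N t}(g) / N⌋`. -/
theorem loc_u_compat (N t : ℕ) [NeZero N] [NeZero t] (a : Kˣ) :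
    loc_IsLevCob (loc_u K Ω (N * t) (a ^ t) / loc_u K Ω N a) := by
  set A : Ωˣ := Units.map (algebraMap K Ω : K →* Ω) a with hA
  have hAfix : ∀ g : Ω ≃ₐ[K] Ω, g • A = A := fun g => Units.ext (g.commutes (a : K))
  refine ⟨fun g => A ^ ((loc_chi K Ω (N * t) g).val / N),
    ⟨K⟮loc_zeta K Ω (N * t)⟯, (loc_cyc_facts K (N * t) _ (loc_zeta_spec K Ω (N * t))).1,
      fun g s hs => ?_, fun g => ?_⟩, ?_⟩
  · show A ^ _ = A ^ _
    rw [loc_chi_isLvl K Ω (N * t) g s hs]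
  · simp only [hA, Units.val_pow_eq_pow_val, Units.coe_map, MonoidHom.coe_coe]
    exact pow_mem (IntermediateField.algebraMap_mem _ _) _
  · funext ⟨g, h⟩
    simp only [Pi.div_apply, loc_d₁_apply, loc_u, loc_ucoc_apply, map_pow, smul_pow', hAfix]
    have key := loc_carry_mul N t (loc_chi K Ω (N * t) g) (loc_chi K Ω (N * t) h)
      (loc_chi K Ω N g) (loc_chi K Ω N h) (loc_chi_compat K Ω N t g) (loc_chi_compat K Ω N t h)
    rw [← loc_chi_mul] at key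
    rw [← pow_mul, div_mul_eq_mul_div, div_eq_div_iff_mul_eq_mul, ← pow_add, ← pow_add, ← pow_add]
    congr 1
    omega

variable [IsGalois K Ω]

/-- (CB ⟸) -/
theorem loc_u_cob_of_norm_eq (N : ℕ) [NeZero N] (a : Kˣ) (c : K) (hac : ‖(a : K)‖ = ‖c‖ ^ N) :
    loc_IsLevCob (loc_u K Ω N a) := by
  classical
  have hζ := loc_zeta_spec K Ω N
  set ζ := loc_zeta K Ω N with hζdef
  obtain ⟨hfd, hgal, hfin, ⟨σ₀, hσ₀, hgen⟩, hunr⟩ := loc_cyc_facts K N ζ hζ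
  obtain ⟨y, hy⟩ := loc_unr_norm_surj (K := K) (L := K⟮ζ⟯) σ₀ hgen (fun y => hunr y y.2) a c
    (by rw [hfin]; exact hac)
  obtain ⟨σ, hσ⟩ := loc_res_surjective K⟮ζ⟯ σ₀
  have hσζ : σ ζ = ζ ^ unr_q K := by
    have h2 := loc_res_apply K⟮ζ⟯ σ (AdjoinSimple.gen K ζ)
    rw [hσ, hσ₀] at h2
    simpa using h2.symm
  have hχσ : loc_chi K Ω N σ = 1 := by
    have := loc_chi_eq_of K Ω N σ 1 (by rw [pow_one]; exact hσζ)
    rw [this]
    simp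
  set b : Ωˣ := loc_incl K⟮ζ⟯ y with hbdef
  have hb : ∀ s, loc_chi K Ω N s = 0 → s • b = b := by
    intro s hs
    apply Units.ext
    exact loc_fixes_adjoin s ζ ((loc_chi_eq_zero_iff K Ω N s).mp hs) _ (y : K⟮ζ⟯).2
  have hnorm : Units.map (algebraMap K Ω : K →* Ω) a = loc_pnorm σ b N := by
    apply Units.ext
    have h1 := Algebra.norm_eq_prod_automorphisms K (y : K⟮ζ⟯)
    rw [hy] at h1
    have hcard : Fintype.card (K⟮ζ⟯ ≃ₐ[K] K⟮ζ⟯) = N := by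
      rw [← Nat.card_eq_fintype_card, IsGalois.card_aut_eq_finrank, hfin]
    rw [linf_prod_pow σ₀ hgen (fun g => g (y : K⟮ζ⟯)), hcard] at h1
    have h2 := congrArg (algebraMap K⟮ζ⟯ Ω) h1
    rw [map_prod] at h2
    show algebraMap K Ω (a : K) = ((loc_pnorm σ b N : Ωˣ) : Ω)
    rw [loc_pnorm, Units.coe_prod]
    rw [IsScalarTower.algebraMap_apply K K⟮ζ⟯ Ω, h2]
    refine Finset.prod_congr rfl fun k _ => ?_
    rw [← hσ, ← map_pow]
    exact loc_res_apply K⟮ζ⟯ (σ ^ k) (y : K⟮ζ⟯)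
  have := loc_gcb_of_norm (loc_chi K Ω N) (loc_chi_mul K Ω N) K⟮ζ⟯ (loc_chi_isLvl K Ω N) σ hχσ b hb
  rw [← hnorm] at this
  exact this

/-- (CB ⟹) -/
theorem loc_u_norm_eq_of_cob (N : ℕ) [NeZero N] (a : Kˣ) (h : loc_IsLevCob (loc_u K Ω N a)) :
    ∃ c : K, ‖(a : K)‖ = ‖c‖ ^ N := by
  have hζ := loc_zeta_spec K Ω N
  set ζ := loc_zeta K Ω N with hζdef
  obtain ⟨σ, hσ⟩ := loc_exists_chi_eq_one K (Ω := Ω) N
  obtain ⟨hfd, hgal, hfin, -, hunr⟩ := loc_cyc_facts K N ζ hζ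
  obtain ⟨b, hbfix, hb⟩ := loc_gcb_norm (loc_chi K Ω N) (loc_chi_mul K Ω N) K⟮ζ⟯
    (loc_chi_isLvl K Ω N) σ hσ a h
  have hbmem : (b : Ω) ∈ K⟮ζ⟯ := by
    rw [← InfiniteGalois.fixedField_fixingSubgroup K⟮ζ⟯, IntermediateField.mem_fixedField_iff]
    intro s hs
    have hs0 : loc_chi K Ω N s = 0 := by
      rw [loc_chi_eq_zero_iff]
      exact (IntermediateField.mem_fixingSubgroup_iff _ s).mp hs _ (mem_adjoin_simple_self K _)
    exact congrArg Units.val (hbfix s hs0)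
  obtain ⟨c, hc⟩ := hunr _ hbmem
  refine ⟨c, ?_⟩
  have h1 := congrArg (fun u : Ωˣ => ‖(u : Ω)‖) hb
  simp only [Units.coe_map, MonoidHom.coe_coe, norm_algebraMap', loc_pnorm, Units.coe_prod,
    norm_prod] at h1
  rw [h1, ← hc]
  have : ∀ k ∈ Finset.range N, ‖((σ ^ k • b : Ωˣ) : Ω)‖ = ‖(b : Ω)‖ := fun k _ =>
    loc_norm_algEquiv (σ ^ k) (b : Ω)
  rw [Finset.prod_congr rfl this, Finset.prod_const, Finset.card_range]

/-- (CB) -/
theorem loc_u_cob_iff (N : ℕ) [NeZero N] (a : Kˣ) :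
    loc_IsLevCob (loc_u K Ω N a) ↔ ∃ c : K, ‖(a : K)‖ = ‖c‖ ^ N :=
  ⟨loc_u_norm_eq_of_cob K Ω N a, fun ⟨c, hc⟩ => loc_u_cob_of_norm_eq K Ω N a c hc⟩

/-- (LP-b): a 2-cocycle of level `K(ζ_{q^N-1})` whose values have norm one is a level
coboundary. -/
theorem loc_unr_unit_cob (N : ℕ) [NeZero N] (x : (Ω ≃ₐ[K] Ω) × (Ω ≃ₐ[K] Ω) → Ωˣ)
    (hx : groupCohomology.IsMulCocycle₂ x) (hlvl : loc_IsLvl₂ K⟮loc_zeta K Ω N⟯ x)
    (hunit : ∀ p, ‖(x p : Ω)‖ = 1) : loc_IsLevCob x := by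
  classical
  have hζ := loc_zeta_spec K Ω N
  set ζ := loc_zeta K Ω N with hζdef
  obtain ⟨hfd, hgal, hfin, ⟨σ₀, hσ₀, hgen⟩, hunr⟩ := loc_cyc_facts K N ζ hζ
  obtain ⟨x', rfl⟩ := loc_exists_infl₂ K⟮ζ⟯ x hlvl
  have hx' := (loc_infl₂_isMulCocycle₂_iff K⟮ζ⟯ x').mp hx
  have hunit' : ∀ p, ‖((x' p : K⟮ζ⟯ˣ) : K⟮ζ⟯)‖ = 1 := by
    rintro ⟨g, h⟩
    obtain ⟨g, rfl⟩ := loc_res_surjective K⟮ζ⟯ g
    obtain ⟨h, rfl⟩ := loc_res_surjective K⟮ζ⟯ h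
    exact hunit (g, h)
  have hord : orderOf σ₀ = N := by
    rw [orderOf_eq_card_of_forall_mem_zpowers hgen, IsGalois.card_aut_eq_finrank, hfin]
  have hpow : σ₀ ^ N = 1 := by rw [← hord]; exact pow_orderOf_eq_one σ₀
  set Y := hpbY x' σ₀ N with hY
  have hYfix : σ₀ • Y = Y := hpb_Y_smul hx' σ₀ hpow
  have hYall : ∀ g : K⟮ζ⟯ ≃ₐ[K] K⟮ζ⟯, g (Y : K⟮ζ⟯) = Y := by
    intro g
    have h1 : Subgroup.zpowers σ₀ ≤ MulAction.stabilizer (K⟮ζ⟯ ≃ₐ[K] K⟮ζ⟯) Y :=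
      Subgroup.zpowers_le.mpr (MulAction.mem_stabilizer_iff.mpr hYfix)
    exact congrArg Units.val (MulAction.mem_stabilizer_iff.mp (h1 (hgen g)))
  obtain ⟨a0, ha0⟩ : ∃ a0 : K, algebraMap K K⟮ζ⟯ a0 = Y := by
    have := (IsGalois.mem_bot_iff_fixed (F := K) (E := K⟮ζ⟯) (Y : K⟮ζ⟯)).mpr hYall
    exact IntermediateField.mem_bot.mp this
  have hnorm1 : ‖a0‖ = 1 := by
    rw [← norm_algebraMap' K⟮ζ⟯ a0, ha0, hY, hpbY, Units.coe_prod, norm_prod]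
    exact Finset.prod_eq_one fun k _ => hunit' _
  have ha0ne : a0 ≠ 0 := by
    rintro rfl
    rw [norm_zero] at hnorm1
    exact zero_ne_one hnorm1
  obtain ⟨y, hy⟩ := loc_unr_norm_surj (K := K) (L := K⟮ζ⟯) σ₀ hgen (fun y => hunr y y.2)
    (Units.mk0 a0 ha0ne) 1 (by rw [Units.val_mk0, hnorm1, norm_one, one_pow])
  have hYP : hpbY x' σ₀ (orderOf σ₀) = hpbP σ₀ y (orderOf σ₀) := by
    rw [hord]
    apply Units.ext
    have h1 := Algebra.norm_eq_prod_automorphisms K (y : K⟮ζ⟯)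
    rw [hy, Units.val_mk0, ha0] at h1
    have hcard : Fintype.card (K⟮ζ⟯ ≃ₐ[K] K⟮ζ⟯) = N := by
      rw [← Nat.card_eq_fintype_card, IsGalois.card_aut_eq_finrank, hfin]
    rw [linf_prod_pow σ₀ hgen (fun g => g (y : K⟮ζ⟯)), hcard] at h1
    rw [← hY, h1, hpbP, Units.coe_prod]
    rfl
  have hs : ∀ g, g ∈ Submonoid.powers σ₀ := fun g => (mem_powers_iff_mem_zpowers).mpr (hgen g)
  obtain ⟨z, hz⟩ := hpb_isMulCoboundary₂_of_norm hx' σ₀ hs y hYP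
  refine ⟨loc_infl₁ K⟮ζ⟯ z, ⟨K⟮ζ⟯, hfd, loc_infl₁_isLvl K⟮ζ⟯ z⟩, ?_⟩
  rw [← loc_infl₂_d]
  congr 1
  funext ⟨g, h⟩
  exact (hz g h).symm

end unr

/-- (RES), pointwise: for `L/K` with `q_L = q_K ^ f`, the cocycle `u^K_{N f, a}` restricted to
`Γ_L` is `u^L_{N, a}`. -/
theorem loc_u_res (K L Ω : Type) [NontriviallyNormedField K] [IsUltrametricDist K]
    [ProperSpace K] [NontriviallyNormedField L] [IsUltrametricDist L] [ProperSpace L]
    [NormedField Ω] [NormedAlgebra K Ω] [NormedAlgebra L Ω] [IsAlgClosed Ω]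
    [Algebra.IsAlgebraic K Ω] [Algebra.IsAlgebraic L Ω] [Algebra K L] [IsScalarTower K L Ω]
    (f : ℕ) [NeZero f] (hf : unr_q L = unr_q K ^ f) (N : ℕ) [NeZero N] (a : Kˣ)
    (g h : Ω ≃ₐ[L] Ω) :
    loc_u K Ω (N * f) a (g.restrictScalars K, h.restrictScalars K) =
      loc_u L Ω N (Units.map (algebraMap K L : K →* L) a) (g, h) := by
  simp only [loc_u, loc_ucoc_apply]
  rw [loc_carry_scale N f (loc_chi L Ω N g) (loc_chi L Ω N h) _ _
    (loc_chi_base_change K L Ω f hf N g) (loc_chi_base_change K L Ω f hf N h)]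
  congr 1
  apply Units.ext
  exact IsScalarTower.algebraMap_apply K L Ω (a : K)

end Fermat.Agent.S55
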