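import Fermat.Agent.S55.TcInfRes

/-!
# S55, block LOC-3 (B): the explicit key lemma for multiplicative 2-cocycles

Dictionary between Mathlib's multiplicative cocycles (`groupCohomology.IsMulCocycle₂`,
`groupCohomology.IsMulCoboundary₂`) and classes in `H²(G, M)` (`loc_H2mk` and its lemmas), and
the key lemma `loc_explicit_key`: if `N ⊴ G` with `H¹(N, M) = 0`, `|H²(G/N, M^N)| ≤ n`, and `u`
is a 2-cocycle of `G` split on `N` whose powers `u^j`, `0 < j < n`, are not coboundaries, then
every 2-cocycle of `G` split on `N` is a power of `u` times a coboundary.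
-/

set_option autoImplicit false

namespace Fermat.Agent.S55

open CategoryTheory CategoryTheory.Limits groupCohomology

section Dict

variable {G M : Type} [Group G] [CommGroup M] [MulDistribMulAction G M]

theorem lk_isMulCocycle₂_one : IsMulCocycle₂ (1 : G × G → M) := by
  intro g h j
  simp

theorem lk_isMulCocycle₂_mul {f f' : G × G → M} (hf : IsMulCocycle₂ f) (hf' : IsMulCocycle₂ f') :
    IsMulCocycle₂ (f * f') := by
  intro g h j
  have h1 := hf g h j
  have h2 := hf' g h j
  simp only [Pi.mul_apply, smul_mul']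
  calc f (g * h, j) * f' (g * h, j) * (f (g, h) * f' (g, h))
      = (f (g * h, j) * f (g, h)) * (f' (g * h, j) * f' (g, h)) := by
        rw [mul_mul_mul_comm]
    _ = (g • f (h, j) * f (g, h * j)) * (g • f' (h, j) * f' (g, h * j)) := by rw [h1, h2]
    _ = g • f (h, j) * g • f' (h, j) * (f (g, h * j) * f' (g, h * j)) := by
        rw [mul_mul_mul_comm]

theorem lk_isMulCocycle₂_inv {f : G × G → M} (hf : IsMulCocycle₂ f) : IsMulCocycle₂ f⁻¹ := by
  intro g h j
  have h1 := hf g h j
  simp only [Pi.inv_apply, smul_inv']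
  rw [← mul_inv, ← mul_inv, h1]

theorem lk_isMulCocycle₂_pow {f : G × G → M} (hf : IsMulCocycle₂ f) (j : ℕ) :
    IsMulCocycle₂ (f ^ j) := by
  induction j with
  | zero => rw [pow_zero]; exact lk_isMulCocycle₂_one
  | succ j ih => rw [pow_succ]; exact lk_isMulCocycle₂_mul ih hf

theorem lk_isMulCocycle₂_div {f f' : G × G → M} (hf : IsMulCocycle₂ f) (hf' : IsMulCocycle₂ f') :
    IsMulCocycle₂ (f / f') := by
  rw [div_eq_mul_inv]
  exact lk_isMulCocycle₂_mul hf (lk_isMulCocycle₂_inv hf')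

/-- The class in `H²(G, M)` of a multiplicative 2-cocycle. -/
noncomputable def loc_H2mk (f : G × G → M) (hf : IsMulCocycle₂ f) :
    groupCohomology (Rep.ofMulDistribMulAction G M) 2 :=
  H2π (Rep.ofMulDistribMulAction G M) (cocyclesOfIsMulCocycle₂ hf)

theorem loc_H2mk_congr {f f' : G × G → M} (h : f = f') (hf : IsMulCocycle₂ f)
    (hf' : IsMulCocycle₂ f') : loc_H2mk f hf = loc_H2mk f' hf' := by
  subst h
  rfl

theorem loc_H2mk_eq_zero_iff (f : G × G → M) (hf : IsMulCocycle₂ f) :
    loc_H2mk f hf = 0 ↔ IsMulCoboundary₂ f := by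
  unfold loc_H2mk
  rw [H2π_eq_zero_iff]
  constructor
  · intro h
    exact isMulCoboundary₂_of_mem_coboundaries₂ _ h
  · intro h
    exact (coboundariesOfIsMulCoboundary₂ h).2

theorem loc_H2mk_mul (f f' : G × G → M) (hf : IsMulCocycle₂ f) (hf' : IsMulCocycle₂ f') :
    loc_H2mk (f * f') (lk_isMulCocycle₂_mul hf hf') = loc_H2mk f hf + loc_H2mk f' hf' := by
  unfold loc_H2mk
  rw [← map_add]
  rfl

theorem loc_H2mk_one : loc_H2mk (1 : G × G → M) lk_isMulCocycle₂_one = 0 := by
  rw [loc_H2mk_eq_zero_iff]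
  exact ⟨fun _ => 1, fun g h => by simp⟩

theorem loc_H2mk_pow (f : G × G → M) (hf : IsMulCocycle₂ f) (j : ℕ) :
    loc_H2mk (f ^ j) (lk_isMulCocycle₂_pow hf j) = j • loc_H2mk f hf := by
  induction j with
  | zero =>
    rw [zero_smul, ← loc_H2mk_one (G := G) (M := M)]
    exact loc_H2mk_congr (pow_zero f) _ _
  | succ j ih =>
    rw [succ_nsmul, ← ih, ← loc_H2mk_mul]
    exact loc_H2mk_congr (pow_succ f j) _ _

theorem loc_H2mk_inv (f : G × G → M) (hf : IsMulCocycle₂ f) :
    loc_H2mk f⁻¹ (lk_isMulCocycle₂_inv hf) = - loc_H2mk f hf := by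
  rw [eq_neg_iff_add_eq_zero, ← loc_H2mk_mul, ← loc_H2mk_one (G := G) (M := M)]
  exact loc_H2mk_congr (inv_mul_cancel f) _ _

theorem loc_H2mk_div (f f' : G × G → M) (hf : IsMulCocycle₂ f) (hf' : IsMulCocycle₂ f') :
    loc_H2mk (f / f') (lk_isMulCocycle₂_div hf hf') = loc_H2mk f hf - loc_H2mk f' hf' := by
  rw [sub_eq_add_neg, ← loc_H2mk_inv f' hf', ← loc_H2mk_mul]
  exact loc_H2mk_congr (div_eq_mul_inv f f') _ _

theorem loc_H2mk_surjective (x : groupCohomology (Rep.ofMulDistribMulAction G M) 2) :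
    ∃ (f : G × G → M) (hf : IsMulCocycle₂ f), loc_H2mk f hf = x := by
  induction x using H2_induction_on with | h c =>
  exact ⟨Additive.toMul ∘ ⇑c, isMulCocycle₂_of_mem_cocycles₂ _ c.2, rfl⟩

/-- The restriction to a subgroup `S` of the class of a multiplicative 2-cocycle vanishes iff
the cocycle is a coboundary on `S`. -/
theorem loc_H2mk_res_eq_zero_iff (S : Subgroup G) (f : G × G → M) (hf : IsMulCocycle₂ f) :
    (tcRes (Rep.ofMulDistribMulAction G M) S 2).hom (loc_H2mk f hf) = 0 ↔
      ∃ β : S → M, ∀ s t : S, (s : G) • β t / β (s * t) * β s = f (s, t) := by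
  unfold loc_H2mk
  have h1 : (tcRes (Rep.ofMulDistribMulAction G M) S 2).hom
      (H2π (Rep.ofMulDistribMulAction G M) (cocyclesOfIsMulCocycle₂ hf)) =
      H2π (Rep.res S.subtype (Rep.ofMulDistribMulAction G M))
        (mapCocycles₂ S.subtype (𝟙 _) (cocyclesOfIsMulCocycle₂ hf)) :=
    H2π_comp_map_apply S.subtype (𝟙 _) (cocyclesOfIsMulCocycle₂ hf)
  rw [h1, H2π_eq_zero_iff]
  constructor
  · rintro ⟨β, hβ⟩
    refine ⟨fun s => Additive.toMul (β s), fun s t => ?_⟩
    have h2 := congrFun hβ (s, t)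
    exact congrArg Additive.toMul h2
  · rintro ⟨β, hβ⟩
    refine ⟨fun s => Additive.ofMul (β s), funext fun ⟨s, t⟩ => ?_⟩
    exact congrArg Additive.ofMul (hβ s t)

end Dict

section Key

/-- The kernel of restriction to `N` in `H²(G, M)`, when `H¹(N, M) = 0` and
`|H²(G/N, M^N)| ≤ n`, is exhausted by the multiples `j • c`, `j < n`, of any class `c` in it
whose multiples `j • c`, `0 < j < n`, are nonzero. -/
theorem lk_key_class {G : Type} [Group G] (A : Rep.{0} ℤ G) (N : Subgroup G) [N.Normal]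
    (hN : IsZero (groupCohomology (Rep.res N.subtype A) 1))
    (n : ℕ) [Finite (groupCohomology (A.quotientToInvariants N) 2)]
    (hcard : Nat.card (groupCohomology (A.quotientToInvariants N) 2) ≤ n)
    (c : groupCohomology A 2) (hcres : (tcRes A N 2).hom c = 0)
    (hord : ∀ j : ℕ, 0 < j → j < n → j • c ≠ 0)
    (d : groupCohomology A 2) (hdres : (tcRes A N 2).hom d = 0) :
    ∃ j : ℕ, j < n ∧ d = j • c := by
  obtain ⟨yc, hyc⟩ := tc_H2_inf_res_exact N A hN c hcres
  obtain ⟨yd, hyd⟩ := tc_H2_inf_res_exact N A hN d hdres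
  have hinj := tc_H2_inf_injective N A hN
  let φ : Fin n → groupCohomology (A.quotientToInvariants N) 2 := fun j => (j : ℕ) • yc
  have key : ∀ i j : ℕ, i ≤ j → j < n → i • yc = j • yc → i = j := by
    intro i j hij hjn h
    by_contra hne
    have hlt : i < j := lt_of_le_of_ne hij hne
    have h1 : (j - i) • yc = 0 := by
      have h2 : j • yc = (j - i) • yc + i • yc := by
        rw [← add_nsmul, Nat.sub_add_cancel hij]
      rw [h2] at h
      exact (right_eq_add.mp h)
    have h3 : (j - i) • c = 0 := by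
      rw [← hyc, ← map_nsmul, h1, map_zero]
    exact hord (j - i) (by omega) (by omega) h3
  have hφ : Function.Injective φ := by
    intro i j h
    rcases le_total (i : ℕ) (j : ℕ) with hij | hij
    · exact Fin.ext (key i j hij j.2 h)
    · exact Fin.ext (key j i hij i.2 h.symm).symm
  have hbij : Function.Bijective φ :=
    hφ.bijective_of_nat_card_le (by rw [Nat.card_fin]; exact hcard)
  obtain ⟨j, hj⟩ := hbij.2 yd
  refine ⟨j, j.2, ?_⟩
  rw [← hyd, ← hj, ← hyc]
  exact map_nsmul _ _ _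

/-- **Explicit key lemma**, with the bound `j < n` on the exponent. -/
theorem loc_explicit_key_lt {G : Type} [Group G] {M : Type} [CommGroup M]
    [MulDistribMulAction G M] (N : Subgroup G) [N.Normal]
    (hN : IsZero (groupCohomology (Rep.res N.subtype (Rep.ofMulDistribMulAction G M)) 1))
    (n : ℕ) [Finite (groupCohomology ((Rep.ofMulDistribMulAction G M).quotientToInvariants N) 2)]
    (hcard : Nat.card
      (groupCohomology ((Rep.ofMulDistribMulAction G M).quotientToInvariants N) 2) ≤ n)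
    (u : G × G → M) (hu : groupCohomology.IsMulCocycle₂ u)
    (hures : ∃ β : N → M, ∀ s t : N, (s : G) • β t / β (s * t) * β s = u (s, t))
    (hord : ∀ j : ℕ, 0 < j → j < n → ¬ groupCohomology.IsMulCoboundary₂ (u ^ j))
    (x : G × G → M) (hx : groupCohomology.IsMulCocycle₂ x)
    (hxres : ∃ β : N → M, ∀ s t : N, (s : G) • β t / β (s * t) * β s = x (s, t)) :
    ∃ j : ℕ, j < n ∧ ∃ β : G → M,
      ∀ g h, x (g, h) = u (g, h) ^ j * (g • β h / β (g * h) * β g) := by
  obtain ⟨j, hjn, hj⟩ := lk_key_class (Rep.ofMulDistribMulAction G M) N hN n hcard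
    (loc_H2mk u hu) ((loc_H2mk_res_eq_zero_iff N u hu).2 hures)
    (fun j hj0 hjn h => hord j hj0 hjn (by
      rw [← loc_H2mk_pow u hu j] at h
      exact (loc_H2mk_eq_zero_iff _ _).1 h))
    (loc_H2mk x hx) ((loc_H2mk_res_eq_zero_iff N x hx).2 hxres)
  have h0 : loc_H2mk (x / u ^ j) (lk_isMulCocycle₂_div hx (lk_isMulCocycle₂_pow hu j)) = 0 := by
    rw [loc_H2mk_div x (u ^ j) hx (lk_isMulCocycle₂_pow hu j), loc_H2mk_pow u hu j, hj, sub_self]
  obtain ⟨β, hβ⟩ := (loc_H2mk_eq_zero_iff _ _).1 h0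
  refine ⟨j, hjn, β, fun g h => ?_⟩
  rw [hβ g h]
  simp

/-- **Explicit key lemma.**  Let `N ⊴ G` with `H¹(N, M) = 0` and `|H²(G/N, M^N)| ≤ n`, and let
`u` be a multiplicative 2-cocycle of `G` which is a coboundary on `N` and whose powers `u ^ j`,
`0 < j < n`, are not coboundaries.  Then every multiplicative 2-cocycle `x` of `G` which is a
coboundary on `N` is of the form `u ^ j` times a coboundary. -/
theorem loc_explicit_key {G : Type} [Group G] [Finite G] {M : Type} [CommGroup M]
    [MulDistribMulAction G M] (N : Subgroup G) [N.Normal]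
    (hN : IsZero (groupCohomology (Rep.res N.subtype (Rep.ofMulDistribMulAction G M)) 1))
    (n : ℕ) [Finite (groupCohomology ((Rep.ofMulDistribMulAction G M).quotientToInvariants N) 2)]
    (hcard : Nat.card
      (groupCohomology ((Rep.ofMulDistribMulAction G M).quotientToInvariants N) 2) ≤ n)
    (u : G × G → M) (hu : groupCohomology.IsMulCocycle₂ u)
    (hures : ∃ β : N → M, ∀ s t : N, (s : G) • β t / β (s * t) * β s = u (s, t))
    (hord : ∀ j : ℕ, 0 < j → j < n → ¬ groupCohomology.IsMulCoboundary₂ (u ^ j))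
    (x : G × G → M) (hx : groupCohomology.IsMulCocycle₂ x)
    (hxres : ∃ β : N → M, ∀ s t : N, (s : G) • β t / β (s * t) * β s = x (s, t)) :
    ∃ (j : ℕ) (β : G → M), ∀ g h, x (g, h) = u (g, h) ^ j * (g • β h / β (g * h) * β g) := by
  obtain ⟨j, -, β, hβ⟩ := loc_explicit_key_lt N hN n hcard u hu hures hord x hx hxres
  exact ⟨j, β, hβ⟩

end Key

end Fermat.Agent.S55
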