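import Fermat.Agent.S55.TcInfRes

/-!
# S55, block TC, part 7: the kernel of restriction is killed by the index

For a subgroup `S ≤ G` of finite index and `x ∈ Hⁿ⁺¹(G, A)` with `res_S x = 0` we have
`[G : S] • x = 0` (`tc_index_nsmul_eq_zero_of_res`).  Degree one is an explicit cocycle
computation; higher degrees follow by dimension shifting.
-/

set_option autoImplicit false

namespace Fermat.Agent.S55

open CategoryTheory CategoryTheory.Limits groupCohomology

universe u

section DegreeOne

variable {k G : Type u} [CommRing k] [Group G] (S : Subgroup G) [S.FiniteIndex]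
  {V : Type u} [AddCommGroup V] [Module k V] (ρ : Representation k G V)

/-- A 1-cocycle vanishing on `S` becomes a coboundary after multiplication by the index. -/
theorem tc_index_cocycle_aux (c : G → V) (hc : ∀ g h : G, c (g * h) = ρ g (c h) + c g)
    (hS : ∀ s : G, s ∈ S → c s = 0) :
    ∃ b : V, ∀ x : G, S.index • c x = ρ x b - b := by
  classical
  have : Fintype (G ⧸ S) := Subgroup.fintypeQuotientOfFiniteIndex
  have hconst : ∀ g : G, c ((QuotientGroup.mk g : G ⧸ S).out) = c g := by
    intro g
    obtain ⟨s, hs⟩ := QuotientGroup.mk_out_eq_mul S g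
    rw [hs, hc, hS _ s.2, map_zero, zero_add]
  refine ⟨-∑ q : G ⧸ S, c q.out, fun x => ?_⟩
  have h1 : ∀ q : G ⧸ S, ρ x (c q.out) = c ((x • q).out) - c x := by
    intro q
    have h2 : x • q = (QuotientGroup.mk (x * q.out) : G ⧸ S) := by
      conv_lhs => rw [← QuotientGroup.out_eq' q]
      rfl
    rw [h2, hconst, hc]
    abel
  have h3 : ∑ q : G ⧸ S, c ((x • q).out) = ∑ q : G ⧸ S, c q.out :=
    Fintype.sum_equiv (MulAction.toPerm x) _ _ (fun q => rfl)
  rw [map_neg, map_sum]
  simp only [h1]
  rw [Finset.sum_sub_distrib, h3, Finset.sum_const, Finset.card_univ,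
    ← Nat.card_eq_fintype_card, ← Subgroup.index_eq_card]
  abel

/-- A 1-cocycle which is a coboundary on `S` becomes a coboundary after multiplication by the
index. -/
theorem tc_index_cocycle (c : G → V) (hc : ∀ g h : G, c (g * h) = ρ g (c h) + c g)
    (a : V) (hS : ∀ s : G, s ∈ S → c s = ρ s a - a) :
    ∃ b : V, ∀ x : G, S.index • c x = ρ x b - b := by
  obtain ⟨b, hb⟩ := tc_index_cocycle_aux S ρ (fun g => c g - (ρ g a - a))
    (fun g h => by
      rw [hc, map_mul, Module.End.mul_apply, map_sub, map_sub]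
      abel)
    (fun s hs => by rw [hS s hs, sub_self])
  refine ⟨b + S.index • a, fun x => ?_⟩
  have := hb x
  rw [smul_sub, sub_eq_iff_eq_add] at this
  rw [this, map_add, map_nsmul, smul_sub]
  abel

end DegreeOne

section Main

variable {k G : Type u} [CommRing k] [Group G] (S : Subgroup G) [S.FiniteIndex]

/-- The kernel of `res : H¹(G, A) → H¹(S, A)` is killed by the index. -/
theorem tc_index_nsmul_H1 (A : Rep.{u} k G) (x : groupCohomology A 1)
    (hx : (tcRes A S 1).hom x = 0) : S.index • x = 0 := by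
  induction x using H1_induction_on with | h c =>
  have hx' : H1π (Rep.res S.subtype A) (mapCocycles₁ S.subtype (𝟙 _) c) = 0 :=
    (H1π_comp_map_apply S.subtype (𝟙 _) c).symm.trans hx
  obtain ⟨a, ha⟩ := (H1π_eq_zero_iff _).1 hx'
  obtain ⟨b, hb⟩ := tc_index_cocycle S A.ρ c ((mem_cocycles₁_iff c).1 c.2) a
    (fun s hs => (congrFun ha ⟨s, hs⟩).symm)
  rw [← map_nsmul, H1π_eq_zero_iff]
  exact ⟨b, funext fun g => (hb g).symm⟩

/-- The kernel of `res : Hⁿ⁺¹(G, A) → Hⁿ⁺¹(S, A)` is killed by the index `[G : S]`. -/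
theorem tc_index_nsmul_eq_zero_of_res (n : ℕ) :
    ∀ (A : Rep.{u} k G) (x : groupCohomology A (n + 1)),
      (tcRes A S (n + 1)).hom x = 0 → S.index • x = 0 := by
  induction n with
  | zero => exact fun A x hx => tc_index_nsmul_H1 S A x hx
  | succ n ih =>
    intro A x hx
    have hSG := tcSeq_shortExact A
    have hSN := (Rep.shortExact_res S.subtype).2 hSG
    have hepi : Epi (δ hSG (n + 1) (n + 2) rfl) :=
      epi_δ_of_isZero hSG (n + 1) (tc_isZero_fun k G A.V (n + 1))
    have hmono : Mono (δ hSN (n + 1) (n + 2) rfl) :=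
      mono_δ_of_isZero hSN (n + 1) (tc_isZero_fun_res k G S A.V n)
    obtain ⟨y, rfl⟩ := (ModuleCat.epi_iff_surjective _).1 hepi x
    have e := tc_δ_res A S (n + 1) (n + 2) rfl y
    have h0 : (δ hSN (n + 1) (n + 2) rfl).hom ((tcRes (tcShift A) S (n + 1)).hom y) = 0 :=
      e.symm.trans hx
    have h1 : (tcRes (tcShift A) S (n + 1)).hom y = 0 :=
      (ModuleCat.mono_iff_injective _).1 hmono (h0.trans (map_zero _).symm)
    have h2 := ih (tcShift A) y h1
    have h3 := map_nsmul (δ hSG (n + 1) (n + 2) rfl).hom S.index y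
    rw [h2, map_zero] at h3
    exact h3.symm

/-- Positive-degree cohomology of a finite group is killed by the group order. -/
theorem tc_card_nsmul_eq_zero {k G : Type u} [CommRing k] [Group G] [Finite G] (n : ℕ)
    (A : Rep.{u} k G) (x : groupCohomology A (n + 1)) : Nat.card G • x = 0 := by
  have hz := isZero_groupCohomology_succ_of_subsingleton
    (Rep.res (⊥ : Subgroup G).subtype A) n
  have hsub : Subsingleton (groupCohomology (Rep.res (⊥ : Subgroup G).subtype A) (n + 1)) :=
    ModuleCat.subsingleton_of_isZero hz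
  have h := tc_index_nsmul_eq_zero_of_res (⊥ : Subgroup G) n A x (Subsingleton.elim _ _)
  rwa [Subgroup.index_bot] at h

end Main

end Fermat.Agent.S55
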