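import Fermat.Agent.S55.LocUB
import Fermat.Agent.S55.TcIndex

/-!
# S55, block LOC-3 (A): the Sylow upper bound `|H²(Gal(L/K), Lˣ)| ≤ [L:K]` for local fields

* `lsy_eq_zero_of_res`: a class of positive degree of a finite group which restricts to zero on
  one Sylow `p`-subgroup for every prime `p` dividing the group order is zero.
* `lsy_card_le`: if `|Hⁿ⁺¹(P, B)|` divides `|P|` for every Sylow subgroup `P` of `G`, then
  `Hⁿ⁺¹(G, B)` is finite of cardinality at most `|G|`.
* `loc_card_H2_le`: for a finite Galois extension `L/K` of local fields, `H²(Gal(L/K), Lˣ)` is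
  finite of cardinality at most `[L:K]` (from the `p`-group case `loc_card_H2_dvd_pgroup`).
-/

set_option autoImplicit false

namespace Fermat.Agent.S55

open CategoryTheory CategoryTheory.Limits groupCohomology

section Generic

variable {G : Type} [Group G] [Finite G] (B : Rep.{0} ℤ G)

/-- A class of positive degree which restricts to zero on a Sylow `p`-subgroup for each prime
`p` dividing `|G|` is zero. -/
theorem lsy_eq_zero_of_res (n : ℕ) (x : groupCohomology B (n + 1))
    (h : ∀ (p : ℕ) [Fact p.Prime], p ∣ Nat.card G →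
      ∃ P : Sylow p G, (tcRes B (P : Subgroup G) (n + 1)).hom x = 0) : x = 0 := by
  have h1 : addOrderOf x = 1 := by
    by_contra hne
    obtain ⟨p, hp, hpd⟩ := Nat.exists_prime_and_dvd hne
    have : Fact p.Prime := ⟨hp⟩
    have hcard : addOrderOf x ∣ Nat.card G :=
      addOrderOf_dvd_of_nsmul_eq_zero (tc_card_nsmul_eq_zero n B x)
    obtain ⟨P, hP⟩ := h p (hpd.trans hcard)
    have h2 : addOrderOf x ∣ (P : Subgroup G).index :=
      addOrderOf_dvd_of_nsmul_eq_zero (tc_index_nsmul_eq_zero_of_res (P : Subgroup G) n B x hP)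
    exact (Sylow.not_dvd_index P) (hpd.trans h2)
  exact AddMonoid.addOrderOf_eq_one_iff.mp h1

/-- If `|Hⁿ⁺¹(P, B)|` divides `|P|` for every Sylow subgroup `P` of the finite group `G`, then
`Hⁿ⁺¹(G, B)` is finite of cardinality at most `|G|`. -/
theorem lsy_card_le (n : ℕ)
    (h : ∀ (p : ℕ) [Fact p.Prime] (P : Sylow p G),
      Nat.card (groupCohomology (Rep.res (P : Subgroup G).subtype B) (n + 1)) ∣
        Nat.card (P : Subgroup G)) :
    Finite (groupCohomology B (n + 1)) ∧ Nat.card (groupCohomology B (n + 1)) ≤ Nat.card G := by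
  classical
  let ps := (Nat.card G).primeFactors
  have hprime : ∀ p : ps, Fact (p : ℕ).Prime := fun p => ⟨Nat.prime_of_mem_primeFactors p.2⟩
  let P : ∀ p : ps, Sylow (p : ℕ) G := fun p => haveI := hprime p; default
  let Y : ps → Type := fun p =>
    groupCohomology (Rep.res ((P p : Sylow (p : ℕ) G) : Subgroup G).subtype B) (n + 1)
  have hdvd : ∀ p : ps, Nat.card (Y p) ∣ Nat.card ((P p : Sylow (p : ℕ) G) : Subgroup G) :=
    fun p => haveI := hprime p; h (p : ℕ) (P p)
  have hpos : ∀ p : ps, 0 < Nat.card ((P p : Sylow (p : ℕ) G) : Subgroup G) :=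
    fun p => Nat.card_pos
  have hfin : ∀ p : ps, Finite (Y p) := fun p =>
    Nat.finite_of_card_ne_zero (fun h0 => by
      have := hdvd p
      rw [h0, zero_dvd_iff] at this
      exact (hpos p).ne' this)
  let Φ : groupCohomology B (n + 1) → (∀ p : ps, Y p) := fun x p =>
    (tcRes B ((P p : Sylow (p : ℕ) G) : Subgroup G) (n + 1)).hom x
  have hΦ : Function.Injective Φ := by
    intro x y hxy
    have h0 : x - y = 0 := by
      apply lsy_eq_zero_of_res B n
      intro p hp hpd
      have hmem : p ∈ ps :=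
        Nat.mem_primeFactors.2 ⟨hp.out, hpd, Nat.card_pos.ne'⟩
      have h1 := congrFun hxy ⟨p, hmem⟩
      refine ⟨P ⟨p, hmem⟩, ?_⟩
      rw [map_sub]
      exact sub_eq_zero.2 h1
    exact sub_eq_zero.1 h0
  have hfinX : Finite (groupCohomology B (n + 1)) := Finite.of_injective Φ hΦ
  refine ⟨hfinX, ?_⟩
  calc Nat.card (groupCohomology B (n + 1)) ≤ Nat.card (∀ p : ps, Y p) :=
        Nat.card_le_card_of_injective Φ hΦ
    _ = ∏ p : ps, Nat.card (Y p) := Nat.card_pi
    _ ≤ ∏ p : ps, Nat.card ((P p : Sylow (p : ℕ) G) : Subgroup G) :=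
        Finset.prod_le_prod' (fun p _ => Nat.le_of_dvd (hpos p) (hdvd p))
    _ = ∏ p : ps, (p : ℕ) ^ (Nat.card G).factorization (p : ℕ) := by
        congr 1 with p
        have := hprime p
        exact Sylow.card_eq_multiplicity (P p)
    _ = Nat.card G := (Nat.prod_primeFactors_coe_pow_factorization Nat.card_pos.ne').symm

end Generic

/-- **Sylow upper bound**: for a finite Galois extension `L/K` of local fields,
`H²(Gal(L/K), Lˣ)` is finite of cardinality at most `[L:K]`. -/
theorem loc_card_H2_le (K L : Type) [NontriviallyNormedField K] [IsUltrametricDist K]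
    [ProperSpace K] [NontriviallyNormedField L] [NormedAlgebra K L] [FiniteDimensional K L]
    [IsGalois K L] :
    Finite (groupCohomology (Rep.ofAlgebraAutOnUnits K L) 2) ∧
      Nat.card (groupCohomology (Rep.ofAlgebraAutOnUnits K L) 2) ≤ Module.finrank K L := by
  rw [← IsGalois.card_aut_eq_finrank]
  refine lsy_card_le (Rep.ofAlgebraAutOnUnits K L) 1 ?_
  intro p _ P
  rw [Nat.card_congr (loc_resIso (P : Subgroup (L ≃ₐ[K] L)) 2).toLinearEquiv.toEquiv]
  let _ := loc_normedAlgebraIF (IntermediateField.fixedField (P : Subgroup (L ≃ₐ[K] L)))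
  have := loc_properSpaceIF (IntermediateField.fixedField (P : Subgroup (L ≃ₐ[K] L)))
  have := loc_isUltrametricDistIF (IntermediateField.fixedField (P : Subgroup (L ≃ₐ[K] L)))
  have hfr : Module.finrank (IntermediateField.fixedField (P : Subgroup (L ≃ₐ[K] L))) L =
      Nat.card (P : Subgroup (L ≃ₐ[K] L)) :=
    IntermediateField.finrank_fixedField_eq_card _
  exact loc_card_H2_dvd_pgroup p _ (IntermediateField.fixedField (P : Subgroup (L ≃ₐ[K] L))) L
    hfr (P.isPGroup'.of_equiv (loc_subgroupEquiv (P : Subgroup (L ≃ₐ[K] L))))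

end Fermat.Agent.S55
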