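import Mathlib
import Fermat.Agent.S55.LocKey
import Fermat.Agent.S55.LocSylow
import Fermat.Agent.S55.LocTransport
import Fermat.Agent.S55.LocUB

/-!
# S55, block LOC-3: "Theorem F" (finite-level normal form)

`M/K` a finite Galois extension of local fields, `N₁ ◁ Gal(M/K)`.  If `u` is a multiplicative
2-cocycle of `Gal(M/K)` in `Mˣ` which is a coboundary on `N₁` and whose powers `u ^ j`,
`0 < j < [G : N₁]`, are not coboundaries, then every 2-cocycle `x` which is a coboundary on `N₁`
is `u ^ j` times a coboundary.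

Proof: helper12's `loc_explicit_key` with
* `H¹(N₁, Mˣ) = 0` (Hilbert 90 through helper11's `loc_resIso`), and
* `|H²(G/N₁, (Mˣ)^{N₁})| ≤ [G : N₁]` (helper12's Sylow upper bound `loc_card_H2_le` for
  `M^{N₁}/K` through helper11's `loc_infIso`).
-/

set_option autoImplicit false

namespace Fermat.Agent.S55

open CategoryTheory CategoryTheory.Limits

theorem loc_thmF {K M : Type} [NontriviallyNormedField K] [IsUltrametricDist K] [ProperSpace K]
    [NontriviallyNormedField M] [NormedAlgebra K M] [FiniteDimensional K M] [IsGalois K M]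
    (N₁ : Subgroup (M ≃ₐ[K] M)) [N₁.Normal]
    (u : (M ≃ₐ[K] M) × (M ≃ₐ[K] M) → Mˣ) (hu : groupCohomology.IsMulCocycle₂ u)
    (hures : ∃ β : N₁ → Mˣ, ∀ s t : N₁, (s : M ≃ₐ[K] M) • β t / β (s * t) * β s = u (s, t))
    (hord : ∀ j : ℕ, 0 < j → j < N₁.index → ¬ groupCohomology.IsMulCoboundary₂ (u ^ j))
    (x : (M ≃ₐ[K] M) × (M ≃ₐ[K] M) → Mˣ) (hx : groupCohomology.IsMulCocycle₂ x)
    (hxres : ∃ β : N₁ → Mˣ, ∀ s t : N₁, (s : M ≃ₐ[K] M) • β t / β (s * t) * β s = x (s, t)) :
    ∃ (j : ℕ) (β : (M ≃ₐ[K] M) → Mˣ),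
      ∀ g h, x (g, h) = u (g, h) ^ j * (g • β h / β (g * h) * β g) := by
  classical
  have hN : IsZero (groupCohomology
      (Rep.res N₁.subtype (Rep.ofMulDistribMulAction (M ≃ₐ[K] M) Mˣ)) 1) := by
    refine IsZero.of_iso ?_ (loc_resIso N₁ 1)
    have : Unique (groupCohomology.H1
        (Rep.ofAlgebraAutOnUnits (IntermediateField.fixedField N₁) M)) :=
      groupCohomology.H1ofAutOnUnitsUnique _ _
    exact ModuleCat.isZero_of_subsingleton _
  have hgal := IsGalois.of_fixedField_normal_subgroup N₁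
  have hult := loc_isUltrametricDistIF (IntermediateField.fixedField N₁)
  have hcard0 := loc_card_H2_le K ↥(IntermediateField.fixedField N₁)
  have hfin : Finite (groupCohomology
      ((Rep.ofMulDistribMulAction (M ≃ₐ[K] M) Mˣ).quotientToInvariants N₁) 2) := by
    have := hcard0.1
    exact Finite.of_equiv _ (loc_infIso N₁ 2).toLinearEquiv.toEquiv.symm
  have hcard : Nat.card (groupCohomology
      ((Rep.ofMulDistribMulAction (M ≃ₐ[K] M) Mˣ).quotientToInvariants N₁) 2) ≤ N₁.index := by
    have h1 : Nat.card (groupCohomology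
        ((Rep.ofMulDistribMulAction (M ≃ₐ[K] M) Mˣ).quotientToInvariants N₁) 2) =
        Nat.card (groupCohomology
          (Rep.ofAlgebraAutOnUnits K ↥(IntermediateField.fixedField N₁)) 2) :=
      Nat.card_congr (loc_infIso N₁ 2).toLinearEquiv.toEquiv
    rw [h1]
    refine hcard0.2.trans (le_of_eq ?_)
    rw [← IsGalois.card_aut_eq_finrank,
      ← Nat.card_congr (IsGalois.normalAutEquivQuotient N₁).toEquiv, ← Subgroup.index_eq_card]
  exact loc_explicit_key N₁ hN N₁.index hcard u hu hures hord x hx hxres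

end Fermat.Agent.S55
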