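import Mathlib
import Fermat.Agent.S55.LocLimUnr
import Fermat.Agent.S55.LocUB
import Fermat.Agent.S55.LocThmF

/-!
# S55 block LOC, part 3g: the normal form theorem (NF)

Every level 2-cocycle of `Γ = Ω ≃ₐ[K] Ω` with values in `Ωˣ` is an unramified carry cocycle
`loc_u K Ω N a` times a level coboundary.
-/

set_option autoImplicit false

namespace Fermat.Agent.S55

open IntermediateField

section lvl

variable {K Ω : Type} [Field K] [Field Ω] [Algebra K Ω]

/-- the cyclic criterion (⟸) with an explicit level. -/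
theorem loc_gcb_of_norm_lvl {n : ℕ} [NeZero n] (χ : (Ω ≃ₐ[K] Ω) → ZMod n)
    (hχ : ∀ g h, χ (g * h) = χ g + χ h) (M : IntermediateField K Ω) [Normal K M]
    (hχl : loc_IsLvlχ M χ) (τ : Ω ≃ₐ[K] Ω) (hτ : χ τ = 1) (b : Ωˣ) (hbM : (b : Ω) ∈ M)
    (hb : ∀ s, χ s = 0 → s • b = b) :
    loc_IsLvl₁ M (fun g => loc_pnorm τ b (χ g).val) ∧
      loc_ucoc n χ (loc_pnorm τ b n) = loc_d₁ (fun g => loc_pnorm τ b (χ g).val) := by
  refine ⟨⟨fun g s hs => ?_, fun g => ?_⟩, ?_⟩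
  · show loc_pnorm τ b (χ (g * s)).val = loc_pnorm τ b (χ g).val
    rw [hχl g s hs]
  · unfold loc_pnorm
    rw [Units.coe_prod]
    refine prod_mem fun k _ => ?_
    exact loc_mem_of_normal M (τ ^ k) hbM
  · funext ⟨g, h⟩
    exact (loc_ucoc_of_norm χ hχ τ hτ b hb g h).symm

end lvl

section unr

variable (K Ω : Type) [NontriviallyNormedField K] [IsUltrametricDist K] [ProperSpace K]
  [NormedField Ω] [NormedAlgebra K Ω] [IsAlgClosed Ω] [Algebra.IsAlgebraic K Ω] [IsGalois K Ω]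

/-- (CB ⟸) with explicit level: the primitive has the level of the cyclotomic field. -/
theorem loc_u_cob_of_norm_eq_lvl (N : ℕ) [NeZero N] (a : Kˣ) (c : K)
    (hac : ‖(a : K)‖ = ‖c‖ ^ N) :
    ∃ β : (Ω ≃ₐ[K] Ω) → Ωˣ, loc_IsLvl₁ K⟮loc_zeta K Ω N⟯ β ∧ loc_u K Ω N a = loc_d₁ β := by
  classical
  have hζ := loc_zeta_spec K Ω N
  set ζ := loc_zeta K Ω N with hζdef
  obtain ⟨hfd, hgal, hfin, ⟨σ₀, hσ₀, hgen⟩, hunr⟩ := loc_cyc_facts K N ζ hζ
  obtain ⟨y, hy⟩ := loc_unr_norm_surj (K := K) (L := K⟮ζ⟯) σ₀ hgen (fun y => hunr y y.2) a c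
    (by rw [hfin]; exact hac)
  obtain ⟨σ, hσ⟩ := loc_res_surjective K⟮ζ⟯ σ₀
  have hσζ : σ ζ = ζ ^ unr_q K := by
    have h2 := loc_res_apply K⟮ζ⟯ σ (AdjoinSimple.gen K ζ)
    rw [hσ, hσ₀] at h2
    simpa using h2.symm
  have hχσ : loc_chi K Ω N σ = 1 := by
    have := loc_chi_eq_of K Ω N σ 1 (by rw [pow_one]; exact hσζ)
    rw [this]
    simp
  set b : Ωˣ := loc_incl K⟮ζ⟯ y with hbdef
  have hb : ∀ s, loc_chi K Ω N s = 0 → s • b = b := by
    intro s hs
    apply Units.ext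
    exact loc_fixes_adjoin s ζ ((loc_chi_eq_zero_iff K Ω N s).mp hs) _ (y : K⟮ζ⟯).2
  have hnorm : Units.map (algebraMap K Ω : K →* Ω) a = loc_pnorm σ b N := by
    apply Units.ext
    have h1 := Algebra.norm_eq_prod_automorphisms K (y : K⟮ζ⟯)
    rw [hy] at h1
    have hcard : Fintype.card (K⟮ζ⟯ ≃ₐ[K] K⟮ζ⟯) = N := by
      rw [← Nat.card_eq_fintype_card, IsGalois.card_aut_eq_finrank, hfin]
    rw [linf_prod_pow σ₀ hgen (fun g => g (y : K⟮ζ⟯)), hcard] at h1
    have h2 := congrArg (algebraMap K⟮ζ⟯ Ω) h1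
    rw [map_prod] at h2
    show algebraMap K Ω (a : K) = ((loc_pnorm σ b N : Ωˣ) : Ω)
    rw [loc_pnorm, Units.coe_prod]
    rw [IsScalarTower.algebraMap_apply K K⟮ζ⟯ Ω, h2]
    refine Finset.prod_congr rfl fun k _ => ?_
    rw [← hσ, ← map_pow]
    exact loc_res_apply K⟮ζ⟯ (σ ^ k) (y : K⟮ζ⟯)
  obtain ⟨h1, h2⟩ := loc_gcb_of_norm_lvl (loc_chi K Ω N) (loc_chi_mul K Ω N) K⟮ζ⟯
    (loc_chi_isLvl K Ω N) σ hχσ b (y : K⟮ζ⟯).2 hb
  refine ⟨_, h1, ?_⟩
  rw [← h2, ← hnorm]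
  rfl

end unr

section nf

theorem loc_properSpaceIF' {K Ω : Type} [NontriviallyNormedField K] [ProperSpace K]
    [NormedField Ω] [NormedAlgebra K Ω] (F : IntermediateField K Ω) [FiniteDimensional K F] :
    ProperSpace F := FiniteDimensional.proper K F

attribute [local instance] loc_normedAlgebraIF loc_isUltrametricDistIF loc_properSpaceIF'

variable (K Ω : Type) [NontriviallyNormedField K] [IsUltrametricDist K] [ProperSpace K]
  [NormedField Ω] [NormedAlgebra K Ω] [IsAlgClosed Ω] [Algebra.IsAlgebraic K Ω] [IsGalois K Ω]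

omit [IsAlgClosed Ω] [Algebra.IsAlgebraic K Ω] [IsGalois K Ω] in
/-- ramification index and residue degree of a finite subextension. -/
theorem loc_exists_ef (L : IntermediateField K Ω) [FiniteDimensional K L] (ϖ : K)
    (hϖ : loc_IsUnif ϖ) :
    ∃ (e f : ℕ) (ϖL : L), 0 < e ∧ 0 < f ∧ unr_q L = unr_q K ^ f ∧
      e * f = Module.finrank K L ∧ ‖ϖ‖ = ‖ϖL‖ ^ e := by
  obtain ⟨ϖL, hϖL⟩ := loc_exists_unif L
  have h1 : ‖algebraMap K L ϖ‖ = ‖ϖ‖ := norm_algebraMap' L ϖ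
  have hne : algebraMap K L ϖ ≠ 0 := by
    rw [← norm_pos_iff, h1]
    exact hϖ.1
  obtain ⟨k, hk⟩ := hϖL.exists_zpow hne
  have hkpos : 0 < k := by
    by_contra hcon
    have hk0 : k ≤ 0 := not_lt.mp hcon
    have : 1 ≤ ‖ϖL‖ ^ k := one_le_zpow_of_nonpos₀ hϖL.1 hϖL.2.1.le hk0
    rw [← hk, h1] at this
    exact absurd hϖ.2.1 (not_lt.mpr this)
  obtain ⟨e, rfl⟩ : ∃ e : ℕ, k = e := ⟨k.toNat, (Int.toNat_of_nonneg hkpos.le).symm⟩
  rw [zpow_natCast] at hk
  have he : 0 < e := by exact_mod_cast hkpos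
  obtain ⟨f, hf, hq⟩ := unr_q_eq_pow_pos (K := K) (L := L)
  have h2 := unr_q_pow_eq hϖ hϖL e hk
  rw [hq, ← pow_mul] at h2
  have h3 := Nat.pow_right_injective (unr_two_le K) h2
  refine ⟨e, f, ϖL, he, hf, hq, ?_, ?_⟩
  · rw [mul_comm]; exact h3
  · rw [← h1, hk]

omit [IsGalois K Ω] [Algebra.IsAlgebraic K Ω] in
/-- roots of unity of order `q^N − 1` lie in the cyclotomic field. -/
theorem loc_mem_cyc_of_pow (N : ℕ) [NeZero N] (ξ : Ω) (hξ : ξ ^ loc_r K N = 1) :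
    ξ ∈ K⟮loc_zeta K Ω N⟯ := by
  have : NeZero (loc_r K N) := ⟨(loc_r_pos K N).ne'⟩
  obtain ⟨k, -, rfl⟩ := (loc_zeta_spec K Ω N).eq_pow_of_pow_eq_one hξ
  exact pow_mem (mem_adjoin_simple_self K _) k

omit [IsGalois K Ω] [Algebra.IsAlgebraic K Ω] in
/-- the cyclotomic field of `L` of degree `e` lies in any `M ⊇ L, K(ζ_{e f})`. -/
theorem loc_cyc_le (L : IntermediateField K Ω) [FiniteDimensional K L] (e f : ℕ) [NeZero e]
    [NeZero f] (hq : unr_q L = unr_q K ^ f) (M : IntermediateField K Ω) (hLM : L ≤ M)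
    (hcM : K⟮loc_zeta K Ω (e * f)⟯ ≤ M) :
    ∀ y ∈ (L⟮loc_zeta L Ω e⟯ : IntermediateField L Ω), y ∈ M := by
  have hr : loc_r L e = loc_r K (e * f) := by
    unfold loc_r
    rw [hq, ← pow_mul, mul_comm]
  have hζL : loc_zeta L Ω e ∈ M :=
    hcM (loc_mem_cyc_of_pow K Ω (e * f) _ (by rw [← hr]; exact (loc_zeta_spec L Ω e).pow_eq_one))
  intro y hy
  induction hy using IntermediateField.adjoin_induction with
  | mem x hx => rw [Set.mem_singleton_iff.mp hx]; exact hζL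
  | algebraMap x => exact hLM x.2
  | add x y _ _ hx hy => exact add_mem hx hy
  | inv x _ hx => exact inv_mem hx
  | mul x y _ _ hx hy => exact mul_mem hx hy

/-- the unramified cocycle of `K` of degree `e f` splits on the subgroup fixing `L`. -/
theorem loc_nf_hures (L : IntermediateField K Ω) [FiniteDimensional K L] (e f : ℕ) [NeZero e]
    [NeZero f] (hq : unr_q L = unr_q K ^ f) (ϖ : Kˣ) (ϖL : L) (hnorm : ‖(ϖ : K)‖ = ‖ϖL‖ ^ e)
    (M : IntermediateField K Ω) [Normal K M] (hLM : L ≤ M)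
    (hcM : K⟮loc_zeta K Ω (e * f)⟯ ≤ M)
    (χ' : (M ≃ₐ[K] M) → ZMod (e * f)) (hχ' : ∀ g, χ' (loc_res M g) = loc_chi K Ω (e * f) g) :
    ∃ β : ↥(IntermediateField.restrict hLM).fixingSubgroup → Mˣ,
      ∀ s t : ↥(IntermediateField.restrict hLM).fixingSubgroup,
        (s : M ≃ₐ[K] M) • β t / β (s * t) * β s =
          loc_ucoc (e * f) χ' (Units.map (algebraMap K M : K →* M) ϖ) (s, t) := by
  classical
  set ϖ' : Lˣ := Units.map (algebraMap K L : K →* L) ϖ with hϖ'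
  obtain ⟨βL, hβLlvl, hβL⟩ := loc_u_cob_of_norm_eq_lvl L Ω e ϖ' ϖL (by
    show ‖algebraMap K L (ϖ : K)‖ = _
    rw [norm_algebraMap', hnorm])
  have hlift : ∀ s : ↥(IntermediateField.restrict hLM).fixingSubgroup,
      ∃ g : Ω ≃ₐ[L] Ω, ∀ y : M, g (y : Ω) = ((s : M ≃ₐ[K] M) y : Ω) := by
    intro s
    obtain ⟨g, hg⟩ := loc_res_surjective M (s : M ≃ₐ[K] M)
    have hgL : g ∈ L.fixingSubgroup := by
      rw [IntermediateField.mem_fixingSubgroup_iff]
      intro y hy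
      have h1 := loc_res_apply M g ⟨y, hLM hy⟩
      rw [hg] at h1
      have h2 : (s : M ≃ₐ[K] M) ⟨y, hLM hy⟩ = ⟨y, hLM hy⟩ :=
        (IntermediateField.mem_fixingSubgroup_iff _ _).mp s.2 _
          ((IntermediateField.mem_restrict hLM _).mpr hy)
      rw [h2] at h1
      exact h1.symm
    refine ⟨IntermediateField.fixingSubgroupEquiv L ⟨g, hgL⟩, fun y => ?_⟩
    have h1 := loc_res_apply M g y
    rw [hg] at h1
    exact h1.symm
  choose lft hlft using hlift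
  have hmem : ∀ g : Ω ≃ₐ[L] Ω, ((βL g : Ωˣ) : Ω) ∈ M := fun g =>
    loc_cyc_le K Ω L e f hq M hLM hcM _ (hβLlvl.2 g)
  refine ⟨fun s => loc_unitOfMem M (βL (lft s)) (hmem _), fun s t => ?_⟩
  apply loc_incl_injective M
  have hres : ∀ s, loc_res M ((lft s).restrictScalars K) = (s : M ≃ₐ[K] M) := by
    intro s
    ext y
    rw [loc_res_apply]
    exact hlft s y
  have h1 : βL (lft (s * t)) = βL (lft s * lft t) := by
    have hfix : (lft s * lft t)⁻¹ * lft (s * t) ∈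
        (L⟮loc_zeta L Ω e⟯ : IntermediateField L Ω).fixingSubgroup := by
      rw [IntermediateField.mem_fixingSubgroup_iff]
      intro y hy
      have hyM : y ∈ M := loc_cyc_le K Ω L e f hq M hLM hcM y hy
      have e1 : lft (s * t) y = lft s (lft t y) := by
        have a1 := hlft (s * t) ⟨y, hyM⟩
        have a2 := hlft t ⟨y, hyM⟩
        have a3 := hlft s ((t : M ≃ₐ[K] M) ⟨y, hyM⟩)
        rw [a2, a3]
        exact a1
      show (lft s * lft t)⁻¹ (lft (s * t) y) = y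
      rw [e1]
      exact (lft s * lft t).symm_apply_apply y
    have := hβLlvl.1 (lft s * lft t) _ hfix
    rw [mul_inv_cancel_left] at this
    exact this
  have h2 : loc_u L Ω e ϖ' (lft s, lft t) =
      (lft s) • βL (lft t) / βL (lft s * lft t) * βL (lft s) := congrFun hβL (lft s, lft t)
  have h3 := loc_u_res K L Ω f hq e ϖ (lft s) (lft t)
  have hR : loc_incl M (loc_ucoc (e * f) χ' (Units.map (algebraMap K M : K →* M) ϖ) (s, t)) =
      loc_u K Ω (e * f) ϖ ((lft s).restrictScalars K, (lft t).restrictScalars K) := by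
    simp only [loc_ucoc_apply, map_pow, loc_u]
    rw [← hres s, ← hres t, hχ', hχ']
    congr 1
  have hL : loc_incl M (((s : M ≃ₐ[K] M) • loc_unitOfMem M (βL (lft t)) (hmem _)) /
      loc_unitOfMem M (βL (lft (s * t))) (hmem _) * loc_unitOfMem M (βL (lft s)) (hmem _)) =
      (lft s) • βL (lft t) / βL (lft s * lft t) * βL (lft s) := by
    rw [map_mul, map_div, loc_incl_unitOfMem, loc_incl_unitOfMem, ← hres s, loc_incl_smul,
      loc_incl_unitOfMem, h1]
    rfl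
  rw [hL, hR, h3, h2]

/-- **Normal form theorem (NF)**: every level 2-cocycle of `Γ_K` with values in `Ωˣ` is an
unramified carry cocycle times a level coboundary. -/
theorem loc_nf (x : (Ω ≃ₐ[K] Ω) × (Ω ≃ₐ[K] Ω) → Ωˣ)
    (hx : groupCohomology.IsMulCocycle₂ x) (hlev : loc_Lev₂ x) :
    ∃ (N : ℕ) (_ : NeZero N) (a : Kˣ), loc_IsLevCob (x / loc_u K Ω N a) := by
  classical
  obtain ⟨L₀, hL₀fd, hxL₀⟩ := hlev
  obtain ⟨L, hle, hLfd, hLnor⟩ := loc_exists_normal_ge L₀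
  have hxL := hxL₀.mono hle
  obtain ⟨ϖ, hϖ⟩ := loc_exists_unif K
  obtain ⟨e, f, ϖL, he, hf, hq, hef, hnorm⟩ := loc_exists_ef K Ω L ϖ hϖ
  have : NeZero e := ⟨he.ne'⟩
  have : NeZero f := ⟨hf.ne'⟩
  have hζ := loc_zeta_spec K Ω (e * f)
  set ζ := loc_zeta K Ω (e * f) with hζdef
  obtain ⟨hcfd, hcgal, hcfin, -, hcunr⟩ := loc_cyc_facts K (e * f) ζ hζ
  set M : IntermediateField K Ω := L ⊔ K⟮ζ⟯ with hMdef
  have hLM : L ≤ M := le_sup_left
  have hcM : K⟮ζ⟯ ≤ M := le_sup_right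
  have hMnor : Normal K M := inferInstance
  have hMgal : IsGalois K M := IsGalois.mk
  have hLgal : IsGalois K L := IsGalois.mk
  -- descend `x`, `χ`
  obtain ⟨x', rfl⟩ := loc_exists_infl₂ M x (hxL.mono hLM)
  have hx' := (loc_infl₂_isMulCocycle₂_iff M x').mp hx
  obtain ⟨χ', hχ'⟩ := loc_exists_inflχ M (loc_chi K Ω (e * f))
    ((loc_chi_isLvl K Ω (e * f)).mono hcM)
  have hχ'add : ∀ g h, χ' (g * h) = χ' g + χ' h := by
    intro g h
    obtain ⟨g, rfl⟩ := loc_res_surjective M g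
    obtain ⟨h, rfl⟩ := loc_res_surjective M h
    rw [← map_mul, hχ', hχ', hχ', loc_chi_mul]
  set ϖu : Kˣ := Units.mk0 ϖ hϖ.ne_zero with hϖu
  set ϖM : Mˣ := Units.map (algebraMap K M : K →* M) ϖu with hϖM
  set u' := loc_ucoc (e * f) χ' ϖM with hu'
  have hinfl_u : ∀ j : ℕ, loc_infl₂ M (u' ^ j) = loc_u K Ω (e * f) (ϖu ^ j) := by
    intro j
    funext ⟨g, h⟩
    simp only [loc_infl₂, Pi.pow_apply, hu', loc_ucoc_apply, map_pow, loc_u, hχ']
    rw [← pow_mul, ← pow_mul, mul_comm]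
    rfl
  have hu'coc : groupCohomology.IsMulCocycle₂ u' :=
    loc_ucoc_isMulCocycle₂ χ' hχ'add ϖM (fun g => by
      apply Units.ext
      exact g.commutes (ϖu : K))
  -- the subgroup fixing `L`
  set L' : IntermediateField K M := IntermediateField.restrict hLM with hL'
  have hL'gal : IsGalois K L' := IsGalois.of_algEquiv (IntermediateField.restrictAlgEquiv hLM)
  set N₁ : Subgroup (M ≃ₐ[K] M) := L'.fixingSubgroup with hN₁
  have hN₁nor : N₁.Normal := IsGalois.fixingSubgroup_normal_of_isGalois L'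
  have hindex : N₁.index = e * f := by
    have h1 := Subgroup.card_mul_index N₁
    rw [IsGalois.card_fixingSubgroup_eq_finrank, IsGalois.card_aut_eq_finrank] at h1
    have h2 := Module.finrank_mul_finrank K L' M
    have h3 : Module.finrank K L' = Module.finrank K L :=
      (IntermediateField.restrictAlgEquiv hLM).toLinearEquiv.finrank_eq.symm
    have h4 : 0 < Module.finrank L' M := Module.finrank_pos
    rw [h3, ← hef] at h2
    have h5 : Module.finrank L' M * N₁.index = Module.finrank L' M * (e * f) := by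
      rw [h1, ← h2, mul_comm]
    exact Nat.eq_of_mul_eq_mul_left h4 h5
  -- hures
  have hures := loc_nf_hures K Ω L e f hq ϖu ϖL hnorm M hLM hcM χ' hχ'
  -- hord
  have hord : ∀ j : ℕ, 0 < j → j < N₁.index → ¬ groupCohomology.IsMulCoboundary₂ (u' ^ j) := by
    rintro j hj0 hjlt ⟨z, hz⟩
    have hcob : loc_IsLevCob (loc_u K Ω (e * f) (ϖu ^ j)) := by
      refine ⟨loc_infl₁ M z, ⟨M, inferInstance, loc_infl₁_isLvl M z⟩, ?_⟩
      rw [← hinfl_u j, ← loc_infl₂_d]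
      congr 1
      funext ⟨g, h⟩
      exact (hz g h).symm
    obtain ⟨c, hc⟩ := loc_u_norm_eq_of_cob K Ω (e * f) (ϖu ^ j) hcob
    have hc0 : c ≠ 0 := by
      rintro rfl
      rw [norm_zero, zero_pow (NeZero.ne (e * f))] at hc
      exact (ϖu ^ j).ne_zero (norm_eq_zero.mp hc)
    obtain ⟨k, hk⟩ := hϖ.exists_zpow hc0
    rw [hk, Units.val_pow_eq_pow_val, norm_pow, ← zpow_natCast, ← zpow_natCast, ← zpow_mul] at hc
    have hjk := hϖ.zpow_inj hc
    rw [hindex] at hjlt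
    have hdvd : ((e * f : ℕ) : ℤ) ∣ (j : ℤ) := ⟨k, by rw [hjk]; ring⟩
    have := Nat.le_of_dvd hj0 (Int.natCast_dvd_natCast.mp hdvd)
    omega
  -- hxres
  have hxres : ∃ β : N₁ → Mˣ, ∀ s t : N₁,
      (s : M ≃ₐ[K] M) • β t / β (s * t) * β s = x' (s, t) := by
    have hfixL : ∀ s : N₁, ∃ g : Ω ≃ₐ[K] Ω, loc_res M g = s ∧ g ∈ L.fixingSubgroup := by
      intro s
      obtain ⟨g, hg⟩ := loc_res_surjective M (s : M ≃ₐ[K] M)
      refine ⟨g, hg, ?_⟩
      rw [IntermediateField.mem_fixingSubgroup_iff]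
      intro y hy
      have h1 := loc_res_apply M g ⟨y, hLM hy⟩
      rw [hg] at h1
      have h2 : (s : M ≃ₐ[K] M) ⟨y, hLM hy⟩ = ⟨y, hLM hy⟩ :=
        (IntermediateField.mem_fixingSubgroup_iff _ _).mp s.2 _
          ((IntermediateField.mem_restrict hLM _).mpr hy)
      rw [h2] at h1
      exact h1.symm
    have hconst : ∀ s t : N₁, x' (s, t) = x' (1, 1) := by
      intro s t
      obtain ⟨g, hg, hgL⟩ := hfixL s
      obtain ⟨h, hh, hhL⟩ := hfixL t
      apply loc_incl_injective M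
      have h1 := hxL.1 1 1 g hgL h hhL
      rw [one_mul, one_mul] at h1
      have h2 : loc_infl₂ M x' (g, h) = loc_incl M (x' (s, t)) := by
        simp only [loc_infl₂, hg, hh]
      have h3 : loc_infl₂ M x' (1, 1) = loc_incl M (x' (1, 1)) := by
        simp only [loc_infl₂, map_one]
      rw [← h2, ← h3, h1]
    have hfix : ∀ s : N₁, (s : M ≃ₐ[K] M) • x' (1, 1) = x' (1, 1) := by
      intro s
      obtain ⟨g, hg, hgL⟩ := hfixL s
      apply loc_incl_injective M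
      rw [← hg, loc_incl_smul]
      apply Units.ext
      have h3 : loc_infl₂ M x' (1, 1) = loc_incl M (x' (1, 1)) := by
        simp only [loc_infl₂, map_one]
      have hmemL : ((loc_incl M (x' (1, 1)) : Ωˣ) : Ω) ∈ L := by
        rw [← h3]
        exact hxL.2 (1, 1)
      exact (IntermediateField.mem_fixingSubgroup_iff _ _).mp hgL _ hmemL
    refine ⟨fun _ => x' (1, 1), fun s t => ?_⟩
    rw [hconst s t, hfix s, div_mul_cancel]
  obtain ⟨j, β, hβ⟩ := loc_thmF (K := K) (M := M) N₁ u' hu'coc hures hord x' hx' hxres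
  refine ⟨e * f, inferInstance, ϖu ^ j, loc_infl₁ M β, ⟨M, inferInstance, loc_infl₁_isLvl M β⟩, ?_⟩
  rw [← loc_infl₂_d, ← hinfl_u j]
  funext ⟨g, h⟩
  simp only [Pi.div_apply, loc_infl₂]
  rw [hβ, map_mul, Pi.pow_apply, mul_div_cancel_left]

end nf

end Fermat.Agent.S55
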