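import Mathlib
import Fermat.Agent.S55.LocBasic
import Fermat.Agent.S55.LocPow
import Fermat.Agent.S55.UnrBasic
import Fermat.Agent.S55.UnrCyc
import Fermat.Agent.S55.UnrPack
import Fermat.Agent.S55.LocLimBase

/-!
# S55 block LOC: the tame Kummer piece (T2)

`K` a local field, `Ω` an algebraic closure with a compatible norm, `p` a natural number with
`‖(p : K)‖ = 1`.  A `p`-th root `θ` of a unit `u` of `K` lies in the unramified tower
`K(ζ_{q^N - 1})` (`loc_root_unit_unram`), hence is fixed by every `g` with `loc_chi K Ω N g = 0`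
(`loc_root_unit_fixed`).

Method: `θ` is congruent to a root of unity `ξ` of order dividing `q^f - 1` (the residue field
of `K(θ)` has `q^f` elements, and `X^(q^f-1) - 1` splits in `Ω`: `ltr_exists_near_root`);
`θ / ξ` is a one-unit whose `p`-th power lies in `M = K(ξ)`, and `p`-th roots of one-units exist
(`lp_pow_surj`) and are unique among one-units (`lp_pow_eq_one`), so `θ / ξ ∈ M`.
-/

set_option autoImplicit false
set_option linter.unusedSectionVars false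

namespace Fermat.Agent.S55

open IntermediateField

section ltr

variable (K Ω : Type) [NontriviallyNormedField K] [IsUltrametricDist K] [ProperSpace K]
  [NormedField Ω] [NormedAlgebra K Ω] [IsAlgClosed Ω] [Algebra.IsAlgebraic K Ω]

/-- Every element of norm one of `Ω` is congruent (modulo the maximal ideal) to a root of
unity of order dividing `q^f - 1` for some `f ≥ 1` (Teichmüller representative). -/
theorem ltr_exists_near_root (θ : Ω) (hθ : ‖θ‖ = 1) :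
    ∃ f : ℕ, ∃ _ : NeZero f, ∃ ξ : Ω, ξ ^ loc_r K f = 1 ∧ ‖θ - ξ‖ < 1 := by
  have hint : IsIntegral K θ := Algebra.IsIntegral.isIntegral θ
  have hfd : FiniteDimensional K K⟮θ⟯ := adjoin.finiteDimensional hint
  have hLu : IsUltrametricDist K⟮θ⟯ := IsUltrametricDist.of_normedAlgebra K
  have hLp : ProperSpace K⟮θ⟯ := FiniteDimensional.proper K K⟮θ⟯
  obtain ⟨f, hf, hq⟩ := unr_q_eq_pow_pos (K := K) (L := K⟮θ⟯)
  have hfN : NeZero f := ⟨hf.ne'⟩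
  refine ⟨f, hfN, ?_⟩
  have h1 : ‖(AdjoinSimple.gen K θ) ^ unr_q K⟮θ⟯ - AdjoinSimple.gen K θ‖ < 1 :=
    unr_norm_pow_q_sub_lt (K := K⟮θ⟯) (c := AdjoinSimple.gen K θ) (le_of_eq hθ)
  have h2 : ‖θ ^ (loc_r K f + 1) - θ‖ < 1 := by
    rw [loc_r_add_one, ← hq]
    exact h1
  have h3 : ‖θ ^ loc_r K f - 1‖ < 1 := by
    have e : θ ^ (loc_r K f + 1) - θ = θ * (θ ^ loc_r K f - 1) := by ring
    rw [e, norm_mul, hθ, one_mul] at h2
    exact h2
  have hζ := loc_zeta_spec K Ω f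
  have hr := loc_r_pos K f
  have hfac := Polynomial.X_pow_sub_one_eq_prod hr hζ
  have hev : θ ^ loc_r K f - 1 =
      ∏ ξ ∈ Polynomial.nthRootsFinset (loc_r K f) (1 : Ω), (θ - ξ) := by
    have := congrArg (Polynomial.eval θ) hfac
    simpa [Polynomial.eval_prod] using this
  by_contra hcon
  push Not at hcon
  have h4 : 1 ≤ ‖θ ^ loc_r K f - 1‖ := by
    rw [hev, norm_prod]
    apply Finset.one_le_prod
    intro ξ hξ
    exact hcon ξ ((Polynomial.mem_nthRootsFinset hr 1).mp hξ)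
  linarith

/-- **Tame Kummer piece** (T2): a `p`-th root of a unit `u` of `K`, for `‖p‖ = 1`, lies in an
unramified cyclotomic extension `K(ζ_{q^N - 1})`. -/
theorem loc_root_unit_unram (p : ℕ) (hp : ‖(p : K)‖ = 1) (hp0 : p ≠ 0) (u : K) (hu : ‖u‖ = 1)
    (θ : Ω) (hθ : θ ^ p = algebraMap K Ω u) :
    ∃ N : ℕ, ∃ _ : NeZero N, θ ∈ IntermediateField.adjoin K {loc_zeta K Ω N} := by
  have hΩu : IsUltrametricDist Ω := IsUltrametricDist.of_normedAlgebra K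
  have hθn : ‖θ‖ = 1 := by
    have h := congrArg norm hθ
    rw [norm_pow, norm_algebraMap', hu] at h
    exact (pow_eq_one_iff_of_nonneg (norm_nonneg _) hp0).mp h
  obtain ⟨f, hfN, ξ, hξ, hnear⟩ := ltr_exists_near_root K Ω θ hθn
  refine ⟨f, hfN, ?_⟩
  have hζ : IsPrimitiveRoot (loc_zeta K Ω f) (loc_r K f) := loc_zeta_spec K Ω f
  generalize loc_zeta K Ω f = ζ at hζ ⊢
  have hr := loc_r_pos K f
  have hξmem : ξ ∈ K⟮ζ⟯ := by
    have : NeZero (loc_r K f) := ⟨hr.ne'⟩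
    obtain ⟨k, -, rfl⟩ := hζ.eq_pow_of_pow_eq_one hξ
    exact pow_mem (mem_adjoin_simple_self K ζ) k
  have hξn : ‖ξ‖ = 1 := unr_norm_eq_one_of_pow_eq_one hr.ne' hξ
  have hξ0 : ξ ≠ 0 := by
    intro h
    rw [h, norm_zero] at hξn
    exact zero_ne_one hξn
  have hθ0 : θ ≠ 0 := by
    intro h
    rw [h, norm_zero] at hθn
    exact zero_ne_one hθn
  -- `t = θ / ξ` is a one-unit
  have hs0 : 0 ≤ ‖θ - ξ‖ := norm_nonneg _
  have hts : ‖θ / ξ - 1‖ = ‖θ - ξ‖ := by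
    have : θ / ξ - 1 = (θ - ξ) / ξ := by field_simp
    rw [this, norm_div, hξn, div_one]
  have ht0 : θ / ξ ≠ 0 := div_ne_zero hθ0 hξ0
  have htU : Units.mk0 (θ / ξ) ht0 ∈ lp_U Ω ‖θ - ξ‖ hs0 hnear := by
    rw [lp_mem_U, Units.val_mk0, hts]
  have htpU := (lp_U Ω ‖θ - ξ‖ hs0 hnear).pow_mem htU p
  have htp : ‖(θ / ξ) ^ p - 1‖ ≤ ‖θ - ξ‖ := by
    rw [lp_mem_U, Units.val_pow_eq_pow_val, Units.val_mk0] at htpU
    exact htpU
  -- the field `M = K(ζ)`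
  have hMfd : FiniteDimensional K K⟮ζ⟯ := adjoin.finiteDimensional (Algebra.IsIntegral.isIntegral ζ)
  have hMu : IsUltrametricDist K⟮ζ⟯ := IsUltrametricDist.of_normedAlgebra K
  have hMp : ProperSpace K⟮ζ⟯ := FiniteDimensional.proper K K⟮ζ⟯
  have hpM : ‖((p : ℕ) : K⟮ζ⟯)‖ = 1 := by
    have h := norm_algebraMap' K⟮ζ⟯ (p : K)
    rw [map_natCast, hp] at h
    exact h
  have hpΩ : ‖((p : ℕ) : Ω)‖ = 1 := by
    have h := norm_algebraMap' Ω (p : K)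
    rw [map_natCast, hp] at h
    exact h
  have hxmem : (θ / ξ) ^ p ∈ K⟮ζ⟯ := by
    rw [div_pow, hθ]
    exact div_mem (IntermediateField.algebraMap_mem _ u) (pow_mem hξmem p)
  have hx0 : (⟨(θ / ξ) ^ p, hxmem⟩ : K⟮ζ⟯) ≠ 0 := by
    intro h
    exact pow_ne_zero p ht0 (congrArg Subtype.val h)
  have hcr0 : 0 ≤ ‖((p : ℕ) : K⟮ζ⟯)‖ * ‖θ - ξ‖ := by rw [hpM, one_mul]; exact hs0
  have hcr1 : ‖((p : ℕ) : K⟮ζ⟯)‖ * ‖θ - ξ‖ < 1 := by rw [hpM, one_mul]; exact hnear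
  have hxU : Units.mk0 (⟨(θ / ξ) ^ p, hxmem⟩ : K⟮ζ⟯) hx0 ∈
      lp_U K⟮ζ⟯ (‖((p : ℕ) : K⟮ζ⟯)‖ * ‖θ - ξ‖) hcr0 hcr1 := by
    rw [lp_mem_U, Units.val_mk0, hpM, one_mul]
    exact htp
  obtain ⟨y, hy, hyp⟩ := lp_pow_surj (K := K⟮ζ⟯) p hs0 hnear (by rw [hpM]; exact hnear)
    hcr0 hcr1 _ hxU
  -- `w = y` in `Ω`
  have hwp : ((y : K⟮ζ⟯) : Ω) ^ p = (θ / ξ) ^ p := by
    have h := congrArg (fun z : (K⟮ζ⟯)ˣ => ((z : K⟮ζ⟯) : Ω)) hyp
    simpa using h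
  have hw0 : ((y : K⟮ζ⟯) : Ω) ≠ 0 := by
    intro h
    rw [h, zero_pow hp0] at hwp
    exact pow_ne_zero p ht0 hwp.symm
  have hwU : Units.mk0 ((y : K⟮ζ⟯) : Ω) hw0 ∈ lp_U Ω ‖θ - ξ‖ hs0 hnear := by
    rw [lp_mem_U, Units.val_mk0]
    exact hy
  have hdiv := (lp_U Ω ‖θ - ξ‖ hs0 hnear).div_mem htU hwU
  have hone : Units.mk0 (θ / ξ) ht0 / Units.mk0 ((y : K⟮ζ⟯) : Ω) hw0 = 1 := by
    apply lp_pow_eq_one (K := Ω) p (by rw [hpΩ]; exact hnear) hdiv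
    rw [div_pow, div_eq_one]
    apply Units.ext
    rw [Units.val_pow_eq_pow_val, Units.val_pow_eq_pow_val, Units.val_mk0, Units.val_mk0, hwp]
  have hteq : θ / ξ = ((y : K⟮ζ⟯) : Ω) := by
    have h := congrArg Units.val (div_eq_one.mp hone)
    simpa using h
  have hθeq : θ = ((y : K⟮ζ⟯) : Ω) * ξ := by
    rw [← hteq]
    field_simp
  rw [hθeq]
  exact mul_mem (y : K⟮ζ⟯).2 hξmem

/-- The unramified tower is increasing along divisibility: `K(ζ_{q^N-1}) ⊆ K(ζ_{q^{N t}-1})`. -/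
theorem ltr_adjoin_zeta_mono (N t : ℕ) [NeZero N] [NeZero t] :
    K⟮loc_zeta K Ω N⟯ ≤ K⟮loc_zeta K Ω (N * t)⟯ := by
  have hdvd : loc_r K N ∣ loc_r K (N * t) := by
    unfold loc_r
    rw [pow_mul]
    simpa only [one_pow] using Nat.sub_dvd_pow_sub_pow (unr_q K ^ N) 1 t
  have h1 : (loc_zeta K Ω N) ^ loc_r K (N * t) = 1 := by
    obtain ⟨c, hc⟩ := hdvd
    rw [hc, pow_mul, (loc_zeta_spec K Ω N).pow_eq_one, one_pow]
  have : NeZero (loc_r K (N * t)) := ⟨(loc_r_pos K (N * t)).ne'⟩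
  obtain ⟨k, -, hk⟩ := (loc_zeta_spec K Ω (N * t)).eq_pow_of_pow_eq_one h1
  rw [adjoin_simple_le_iff, ← hk]
  exact pow_mem (mem_adjoin_simple_self K _) k

theorem ltr_adjoin_zeta_mono' (N t : ℕ) [NeZero N] [NeZero t] :
    K⟮loc_zeta K Ω N⟯ ≤ K⟮loc_zeta K Ω (t * N)⟯ := by
  have hdvd : loc_r K N ∣ loc_r K (t * N) := by
    unfold loc_r
    rw [mul_comm, pow_mul]
    simpa only [one_pow] using Nat.sub_dvd_pow_sub_pow (unr_q K ^ N) 1 t
  have h1 : (loc_zeta K Ω N) ^ loc_r K (t * N) = 1 := by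
    obtain ⟨c, hc⟩ := hdvd
    rw [hc, pow_mul, (loc_zeta_spec K Ω N).pow_eq_one, one_pow]
  have : NeZero (loc_r K (t * N)) := ⟨(loc_r_pos K (t * N)).ne'⟩
  obtain ⟨k, -, hk⟩ := (loc_zeta_spec K Ω (t * N)).eq_pow_of_pow_eq_one h1
  rw [adjoin_simple_le_iff, ← hk]
  exact pow_mem (mem_adjoin_simple_self K _) k

/-- An automorphism with `χ_N(g) = 0` fixes `K(ζ_{q^N-1})` pointwise. -/
theorem ltr_fixed_of_chi_eq_zero (N : ℕ) [NeZero N] (g : Ω ≃ₐ[K] Ω)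
    (hg : loc_chi K Ω N g = 0) (x : Ω) (hx : x ∈ K⟮loc_zeta K Ω N⟯) : g x = x := by
  have hζ : g (loc_zeta K Ω N) = loc_zeta K Ω N := (loc_chi_eq_zero_iff K Ω N g).mp hg
  induction hx using IntermediateField.adjoin_induction with
  | mem x hx =>
    rw [Set.mem_singleton_iff] at hx
    rw [hx]
    exact hζ
  | algebraMap x => exact g.commutes x
  | add x y _ _ hx hy => rw [map_add, hx, hy]
  | inv x _ hx => rw [map_inv₀, hx]
  | mul x y _ _ hx hy => rw [map_mul, hx, hy]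

/-- Uniform version of `loc_root_unit_unram`: one `N` for all `p`-th roots of `u`. -/
theorem loc_root_unit_unram_all (p : ℕ) (hp : ‖(p : K)‖ = 1) (hp0 : p ≠ 0) (u : K)
    (hu : ‖u‖ = 1) :
    ∃ N : ℕ, ∃ _ : NeZero N, ∀ θ : Ω, θ ^ p = algebraMap K Ω u →
      θ ∈ IntermediateField.adjoin K {loc_zeta K Ω N} := by
  -- one root of `u`
  obtain ⟨θ₀, hθ₀⟩ := IsAlgClosed.exists_pow_nat_eq (algebraMap K Ω u) (Nat.pos_of_ne_zero hp0)
  obtain ⟨N₁, hN₁, h1⟩ := loc_root_unit_unram K Ω p hp hp0 u hu θ₀ hθ₀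
  -- a primitive `p`-th root of unity
  have hpΩ : ((p : ℕ) : Ω) ≠ 0 := by
    intro h0
    have h := norm_algebraMap' Ω (p : K)
    rw [map_natCast, hp, h0, norm_zero] at h
    exact zero_ne_one h
  have : NeZero ((p : ℕ) : Ω) := ⟨hpΩ⟩
  have : NeZero p := ⟨hp0⟩
  obtain ⟨η₀, hη₀⟩ := HasEnoughRootsOfUnity.exists_primitiveRoot Ω p
  obtain ⟨N₂, hN₂, h2⟩ := loc_root_unit_unram K Ω p hp hp0 1 norm_one η₀
    (by rw [hη₀.pow_eq_one, map_one])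
  have hN : NeZero (N₁ * N₂) := ⟨Nat.mul_ne_zero hN₁.ne hN₂.ne⟩
  refine ⟨N₁ * N₂, hN, ?_⟩
  intro θ hθ
  have hθ₀0 : θ₀ ≠ 0 := by
    intro h0
    rw [h0, zero_pow hp0] at hθ₀
    have h := congrArg norm hθ₀
    rw [norm_zero, norm_algebraMap', hu] at h
    exact zero_ne_one h
  have hη : (θ / θ₀) ^ p = 1 := by
    rw [div_pow, hθ, hθ₀, div_self]
    rw [← hθ₀]
    exact pow_ne_zero p hθ₀0
  obtain ⟨k, -, hk⟩ := hη₀.eq_pow_of_pow_eq_one hη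
  have hθeq : θ = η₀ ^ k * θ₀ := by
    rw [hk]
    field_simp
  rw [hθeq]
  exact mul_mem (pow_mem (ltr_adjoin_zeta_mono' K Ω N₂ N₁ h2) k) (ltr_adjoin_zeta_mono K Ω N₁ N₂ h1)

/-- Galois form: some unramified character `χ_N` detects all `p`-th roots of the unit `u`: every
`g` with `χ_N(g) = 0` fixes every `p`-th root of `u`. -/
theorem loc_root_unit_fixed (p : ℕ) (hp : ‖(p : K)‖ = 1) (hp0 : p ≠ 0) (u : K) (hu : ‖u‖ = 1) :
    ∃ N : ℕ, ∃ _ : NeZero N, ∀ g : Ω ≃ₐ[K] Ω, loc_chi K Ω N g = 0 →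
      ∀ θ : Ω, θ ^ p = algebraMap K Ω u → g θ = θ := by
  obtain ⟨N, hN, h⟩ := loc_root_unit_unram_all K Ω p hp hp0 u hu
  exact ⟨N, hN, fun g hg θ hθ => ltr_fixed_of_chi_eq_zero K Ω N g hg θ (h θ hθ)⟩

/-- Variant for elements whose norm is a `p`-th power of a norm from `K` (i.e. `p ∣ ord a`):
the `p`-th roots of `a` lie in the unramified tower. -/
theorem loc_root_unram_of_norm_pow (p : ℕ) (hp : ‖(p : K)‖ = 1) (hp0 : p ≠ 0) (a c : K)
    (ha : a ≠ 0) (hc : ‖a‖ = ‖c‖ ^ p) :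
    ∃ N : ℕ, ∃ _ : NeZero N, ∀ θ : Ω, θ ^ p = algebraMap K Ω a →
      θ ∈ IntermediateField.adjoin K {loc_zeta K Ω N} := by
  have hc0 : c ≠ 0 := by
    intro h0
    rw [h0, norm_zero, zero_pow hp0] at hc
    exact ha (norm_eq_zero.mp hc)
  have hu : ‖a / c ^ p‖ = 1 := by
    rw [norm_div, norm_pow, hc, div_self]
    exact pow_ne_zero p (norm_ne_zero_iff.mpr hc0)
  obtain ⟨N, hN, h⟩ := loc_root_unit_unram_all K Ω p hp hp0 (a / c ^ p) hu
  refine ⟨N, hN, fun θ hθ => ?_⟩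
  have hcΩ : algebraMap K Ω c ≠ 0 := by
    intro h0
    exact hc0 ((algebraMap K Ω).injective (by rw [h0, map_zero]))
  have h1 := h (θ / algebraMap K Ω c) (by rw [div_pow, hθ, map_div₀, map_pow])
  have hθeq : θ = θ / algebraMap K Ω c * algebraMap K Ω c := by field_simp
  rw [hθeq]
  exact mul_mem h1 (IntermediateField.algebraMap_mem _ c)

/-- Galois form of `loc_root_unram_of_norm_pow`. -/
theorem loc_root_fixed_of_norm_pow (p : ℕ) (hp : ‖(p : K)‖ = 1) (hp0 : p ≠ 0) (a c : K)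
    (ha : a ≠ 0) (hc : ‖a‖ = ‖c‖ ^ p) :
    ∃ N : ℕ, ∃ _ : NeZero N, ∀ g : Ω ≃ₐ[K] Ω, loc_chi K Ω N g = 0 →
      ∀ θ : Ω, θ ^ p = algebraMap K Ω a → g θ = θ := by
  obtain ⟨N, hN, h⟩ := loc_root_unram_of_norm_pow K Ω p hp hp0 a c ha hc
  exact ⟨N, hN, fun g hg θ hθ => ltr_fixed_of_chi_eq_zero K Ω N g hg θ (h θ hθ)⟩

end ltr

end Fermat.Agent.S55
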