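import Mathlib
import Fermat.Agent.S55.LocLimNF
import Fermat.Agent.S55.LocTameRoot
import Fermat.Agent.S55.Places2
import Fermat.Agent.S55.HpbQbar

/-!
# S55, block HPB: the unramified places (LP-b) and the `S`-form of the Hasse principle

* `hpbU_norm_sub_lt`, `hpbU_le_cyc` (local model `(K, Ω)` of LOC): an automorphism fixing the
  roots of unity of order `q^f - 1` acts trivially on the residue field; a finite extension on
  which all such automorphisms are trivial lies in an unramified layer `K(ζ_{q^N-1})`.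
* `hpbU_cob`: a unit-valued 2-cocycle of `Gal(Ω/E)` (`E/ℚ_q` finite) of unramified level is the
  coboundary of a finite-level cochain (via helper11's `loc_unr_unit_cob`).
* `hpbU_triv`, `hpbU_triv_of_tors`: in the `ℚ̄`-model, a cocycle of level `F` with unit values
  is locally trivial (`hpbQTriv`) at every `(q, g)` with `F` unramified at `q`.
* `hpb_qbar_S`: `hpb_qbar` with the local hypothesis only at the primes of `S`, for a level
  field `F` unramified outside `S`.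
-/

set_option autoImplicit false
set_option linter.style.haveILetI false
set_option linter.unusedSectionVars false

namespace Fermat.Agent.S55

open groupCohomology IntermediateField
open scoped Pointwise

section Generic

variable (K Ω : Type) [NontriviallyNormedField K] [IsUltrametricDist K] [ProperSpace K]
  [NormedField Ω] [NormedAlgebra K Ω] [IsAlgClosed Ω] [Algebra.IsAlgebraic K Ω]

/-- An automorphism fixing all roots of unity of order `q^f - 1` acts trivially on the residue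
field. -/
theorem hpbU_norm_sub_lt (σ : Ω ≃ₐ[K] Ω)
    (hσ : ∀ (f : ℕ) [NeZero f] (ξ : Ω), ξ ^ loc_r K f = 1 → σ ξ = ξ) (θ : Ω) (hθ : ‖θ‖ ≤ 1) :
    ‖σ θ - θ‖ < 1 := by
  haveI : IsUltrametricDist Ω := IsUltrametricDist.of_normedAlgebra K
  rcases lt_or_eq_of_le hθ with h | h
  · have h1 := IsUltrametricDist.norm_add_le_max (σ θ) (-θ)
    rw [norm_neg, loc_norm_algEquiv, max_self, ← sub_eq_add_neg] at h1
    exact lt_of_le_of_lt h1 h
  · obtain ⟨f, hf, ξ, hξ, hlt⟩ := ltr_exists_near_root K Ω θ h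
    have e : σ θ - θ = σ (θ - ξ) - (θ - ξ) := by
      rw [map_sub, hσ f ξ hξ]
      ring
    rw [e]
    have h1 := IsUltrametricDist.norm_add_le_max (σ (θ - ξ)) (-(θ - ξ))
    rw [norm_neg, loc_norm_algEquiv, max_self, ← sub_eq_add_neg] at h1
    exact lt_of_le_of_lt h1 hlt

/-- Elements of the maximal unramified extension lie in a finite cyclotomic layer. -/
theorem hpbU_mem_cyc (x : Ω)
    (hx : x ∈ IntermediateField.adjoin K {ξ : Ω | ∃ f : ℕ, f ≠ 0 ∧ ξ ^ loc_r K f = 1}) :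
    ∃ N : ℕ, ∃ _ : NeZero N, x ∈ K⟮loc_zeta K Ω N⟯ := by
  induction hx using IntermediateField.adjoin_induction with
  | mem x hx =>
    obtain ⟨f, hf, hξ⟩ := hx
    haveI : NeZero f := ⟨hf⟩
    exact ⟨f, inferInstance, loc_mem_cyc_of_pow K Ω f x hξ⟩
  | algebraMap x => exact ⟨1, inferInstance, IntermediateField.algebraMap_mem _ x⟩
  | add x y _ _ hx hy =>
    obtain ⟨N, hN, hx⟩ := hx
    obtain ⟨N', hN', hy⟩ := hy
    exact ⟨N * N', inferInstance, add_mem (ltr_adjoin_zeta_mono K Ω N N' hx)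
      (ltr_adjoin_zeta_mono' K Ω N' N hy)⟩
  | inv x _ hx =>
    obtain ⟨N, hN, hx⟩ := hx
    exact ⟨N, hN, inv_mem hx⟩
  | mul x y _ _ hx hy =>
    obtain ⟨N, hN, hx⟩ := hx
    obtain ⟨N', hN', hy⟩ := hy
    exact ⟨N * N', inferInstance, mul_mem (ltr_adjoin_zeta_mono K Ω N N' hx)
      (ltr_adjoin_zeta_mono' K Ω N' N hy)⟩

/-- A finite extension on which all automorphisms acting trivially on the residue field act
trivially lies in an unramified cyclotomic layer `K(ζ_{q^N-1})`. -/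
theorem hpbU_le_cyc [IsGalois K Ω] (M : IntermediateField K Ω) [FiniteDimensional K M]
    (h : ∀ σ : Ω ≃ₐ[K] Ω, (∀ (f : ℕ) [NeZero f] (ξ : Ω), ξ ^ loc_r K f = 1 → σ ξ = ξ) →
      σ ∈ M.fixingSubgroup) :
    ∃ N : ℕ, ∃ _ : NeZero N, M ≤ K⟮loc_zeta K Ω N⟯ := by
  classical
  set T : IntermediateField K Ω :=
    IntermediateField.adjoin K {ξ : Ω | ∃ f : ℕ, f ≠ 0 ∧ ξ ^ loc_r K f = 1} with hT
  have hTM : T.fixingSubgroup ≤ M.fixingSubgroup := by
    intro σ hσ
    refine h σ (fun f hf ξ hξ => ?_)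
    exact (IntermediateField.mem_fixingSubgroup_iff T σ).1 hσ ξ
      (IntermediateField.subset_adjoin _ _ ⟨f, NeZero.ne f, hξ⟩)
  have hMT : M ≤ T := by
    rw [← InfiniteGalois.fixedField_fixingSubgroup T, IntermediateField.le_iff_le]
    exact hTM
  obtain ⟨t, ht⟩ := brl_fg M
  have key : ∀ s : Finset Ω, (∀ x ∈ s, x ∈ T) →
      ∃ N : ℕ, ∃ _ : NeZero N, ∀ x ∈ s, x ∈ K⟮loc_zeta K Ω N⟯ := by
    intro s
    induction s using Finset.induction_on with
    | empty => exact fun _ => ⟨1, inferInstance, fun x hx => absurd hx (Finset.notMem_empty x)⟩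
    | insert a s _ ih =>
      intro hs
      obtain ⟨N, hN, hNs⟩ := ih (fun x hx => hs x (Finset.mem_insert_of_mem hx))
      obtain ⟨N', hN', ha⟩ := hpbU_mem_cyc K Ω a (hs a (Finset.mem_insert_self a s))
      refine ⟨N * N', inferInstance, fun x hx => ?_⟩
      rcases Finset.mem_insert.1 hx with rfl | hx
      · exact ltr_adjoin_zeta_mono' K Ω N' N ha
      · exact ltr_adjoin_zeta_mono K Ω N N' (hNs x hx)
  obtain ⟨N, hN, hNt⟩ := key t (fun x hx => hMT (by
    rw [← ht]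
    exact IntermediateField.subset_adjoin K _ hx))
  refine ⟨N, hN, ?_⟩
  rw [← ht, IntermediateField.adjoin_le_iff]
  exact fun x hx => hNt x hx

end Generic


section Cob

variable (q : ℕ) [Fact q.Prime]

local notation "Ω" => PadicAlgCl q
local notation "Gq" => (PadicAlgCl q ≃ₐ[ℚ_[q]] PadicAlgCl q)

attribute [local instance] loc_normedAlgebraIF loc_isUltrametricDistIF loc_properSpaceIF'

/-- **(LP-b) on an open subgroup of the local Galois group**: a 2-cocycle of `H = Gal(Ω/E)` with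
values of norm one, of a level `M₀` on which every automorphism acting trivially on the residue
field acts trivially (i.e. `M₀` unramified), is the coboundary of a finite-level cochain. -/
theorem hpbU_cob (E : IntermediateField ℚ_[q] Ω) [FiniteDimensional ℚ_[q] E]
    (H : Subgroup Gq) (hH : H = E.fixingSubgroup) (x : H × H → Ωˣ)
    (hx : ∀ y₁ y₂ y₃ : H,
      x (y₁ * y₂, y₃) * x (y₁, y₂) = (y₁ : Gq) • x (y₂, y₃) * x (y₁, y₂ * y₃))
    (hunit : ∀ p, ‖(x p : Ω)‖ = 1)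
    (M₀ : IntermediateField ℚ_[q] Ω) [FiniteDimensional ℚ_[q] M₀]
    (hlev : ∀ y y' s s' : H, (s : Gq) ∈ M₀.fixingSubgroup → (s' : Gq) ∈ M₀.fixingSubgroup →
      x (y * s, y' * s') = x (y, y'))
    (hval : ∀ p, (x p : Ω) ∈ M₀)
    (hunr : ∀ y : H, (∀ θ : Ω, ‖θ‖ ≤ 1 → ‖(y : Gq) θ - θ‖ < 1) → (y : Gq) ∈ M₀.fixingSubgroup) :
    ∃ θ : H → Ωˣ, (∃ M : IntermediateField ℚ_[q] Ω, FiniteDimensional ℚ_[q] M ∧
        ∀ y s : H, (s : Gq) ∈ M.fixingSubgroup → θ (y * s) = θ y) ∧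
      ∀ y y' : H, x (y, y') = (y : Gq) • θ y' / θ (y * y') * θ y := by
  classical
  subst hH
  haveI : IsGalois ℚ_[q] Ω := IsAlgClosure.isGalois ℚ_[q] Ω
  haveI : Algebra.IsAlgebraic E Ω := Algebra.IsAlgebraic.tower_top (K := ℚ_[q]) (L := E)
  haveI : IsGalois E Ω := inferInstance
  let l : E.fixingSubgroup ≃* (Ω ≃ₐ[E] Ω) := E.fixingSubgroupEquiv
  have hl : ∀ (y : E.fixingSubgroup) (z : Ω), l y z = (y : Gq) z := fun _ _ => rfl
  have hl' : ∀ (σ : Ω ≃ₐ[E] Ω) (z : Ω), ((l.symm σ : E.fixingSubgroup) : Gq) z = σ z :=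
    fun _ _ => rfl
  let X : (Ω ≃ₐ[E] Ω) × (Ω ≃ₐ[E] Ω) → Ωˣ := fun p => x (l.symm p.1, l.symm p.2)
  have hX : IsMulCocycle₂ X := by
    intro g h j
    have h1 := hx (l.symm g) (l.symm h) (l.symm j)
    simp only [X, map_mul]
    exact h1
  obtain ⟨t, ht⟩ := brl_fg M₀
  let M' : IntermediateField E Ω := IntermediateField.adjoin E (t : Set Ω)
  haveI : FiniteDimensional E M' :=
    IntermediateField.finiteDimensional_adjoin (fun z _ => Algebra.IsIntegral.isIntegral z)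
  have hM₀M' : ∀ z ∈ M₀, z ∈ M' := by
    intro z hz
    rw [← ht] at hz
    have h1 : IntermediateField.adjoin ℚ_[q] (t : Set Ω) ≤ M'.restrictScalars ℚ_[q] :=
      IntermediateField.adjoin_le_iff.2 (fun z hz => IntermediateField.subset_adjoin E _ hz)
    exact h1 hz
  obtain ⟨N, hN, hNM⟩ := hpbU_le_cyc E Ω M' (fun σ hσ => by
    have h1 := hunr (l.symm σ) (fun θ hθ => hpbU_norm_sub_lt E Ω σ hσ θ hθ)
    rw [IntermediateField.mem_fixingSubgroup_iff]
    refine brl_fixes_adjoin σ (t : Set Ω) (fun z hz => ?_)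
    have hz' : z ∈ M₀ := by
      rw [← ht]
      exact IntermediateField.subset_adjoin _ _ hz
    exact (IntermediateField.mem_fixingSubgroup_iff M₀ _).1 h1 z hz')
  have hfix : ∀ s : Ω ≃ₐ[E] Ω, s ∈ (E⟮loc_zeta E Ω N⟯).fixingSubgroup →
      ((l.symm s : E.fixingSubgroup) : Gq) ∈ M₀.fixingSubgroup := by
    intro s hs
    rw [IntermediateField.mem_fixingSubgroup_iff]
    intro z hz
    exact (IntermediateField.mem_fixingSubgroup_iff _ s).1 hs z (hNM (hM₀M' z hz))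
  have hlvl : loc_IsLvl₂ E⟮loc_zeta E Ω N⟯ X := by
    refine ⟨fun g h s hs s' hs' => ?_, fun p => hNM (hM₀M' _ (hval _))⟩
    simp only [X, map_mul]
    exact hlev _ _ _ _ (hfix s hs) (hfix s' hs')
  obtain ⟨β, ⟨M₁, hM₁fd, hβ1, hβ2⟩, hXβ⟩ := loc_unr_unit_cob E Ω N X hX hlvl (fun p => hunit _)
  refine ⟨fun y => β (l y), ⟨M₁.restrictScalars ℚ_[q], ?_, ?_⟩, ?_⟩
  · have h1 : FiniteDimensional ℚ_[q] ↥M₁ := Module.Finite.trans E ↥M₁
    exact h1
  · intro y s hs
    show β (l (y * s)) = β (l y)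
    rw [map_mul]
    refine hβ1 (l y) (l s) ?_
    rw [IntermediateField.mem_fixingSubgroup_iff]
    intro z hz
    exact (IntermediateField.mem_fixingSubgroup_iff _ _).1 hs z hz
  · intro y y'
    have h1 := congrFun hXβ (l y, l y')
    simp only [X, loc_d₁, MulEquiv.symm_apply_apply] at h1
    rw [h1]
    show _ = (y : Gq) • β (l y') / β (l (y * y')) * β (l y)
    rw [map_mul]
    rfl

end Cob


section Triv

local notation "Qb" => AlgebraicClosure ℚ
local notation "Γ" => (AlgebraicClosure ℚ ≃ₐ[ℚ] AlgebraicClosure ℚ)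

attribute [local instance] pt_qbar_isAlgebraic pt_qbar_isAlgClosure pt_qbar_isGalois

variable (q : ℕ) [Fact q.Prime]

local notation "Ω" => PadicAlgCl q
local notation "Gq" => (PadicAlgCl q ≃ₐ[ℚ_[q]] PadicAlgCl q)

/-- A local automorphism acting trivially on the residue field maps to the inertia subgroup of
the `q`-adic place of `ℚ̄`. -/
theorem hpbU_mem_inertia (y : Gq) (hy : ∀ θ : Ω, ‖θ‖ ≤ 1 → ‖y θ - θ‖ < 1) :
    localGaloisToGlobal q y ∈ (padicPlace q).inertiaSubgroupIn ℚ := by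
  rw [pt_mem_inertia_iff]
  refine ⟨MulAction.mem_stabilizer_iff.1 (localGaloisToGlobal_mem_decompositionSubgroup q y),
    fun a ha => ?_⟩
  rw [pl_mem_nonunits_padicPlace_iff, map_sub, padicEmbedding_localGaloisToGlobal]
  refine hy _ ?_
  rw [mem_padicPlace_iff] at ha
  exact_mod_cast ha

/-- **(LP-b) in the `ℚ̄`-model**: if the level field `F` is unramified at `q` and the values of
the cocycle `a` are units at `q`, then `a` is locally trivial at `(q, g)` for every `g`. -/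
theorem hpbU_triv (k F : IntermediateField ℚ Qb) [FiniteDimensional ℚ F] [IsGalois ℚ F]
    (hkF : k ≤ F) (hunr : (padicPlace q).inertiaSubgroupIn ℚ ≤ F.fixingSubgroup)
    (a : k.fixingSubgroup × k.fixingSubgroup → Qbˣ)
    (hcoc : ∀ u₁ u₂ u₃ : k.fixingSubgroup,
      a (u₁ * u₂, u₃) * a (u₁, u₂) = (u₁ : Γ) • a (u₂, u₃) * a (u₁, u₂ * u₃))
    (hlevF : ∀ u₁ u₂ n₁ n₂ : k.fixingSubgroup, (n₁ : Γ) ∈ F.fixingSubgroup →
      (n₂ : Γ) ∈ F.fixingSubgroup → a (u₁ * n₁, u₂ * n₂) = a (u₁, u₂))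
    (hval : ∀ u₁ u₂ : k.fixingSubgroup, ((a (u₁, u₂) : Qbˣ) : Qb) ∈ F)
    (g : Γ)
    (hunit : ∀ u₁ u₂ : k.fixingSubgroup,
      ‖padicEmbedding q (g⁻¹ ((a (u₁, u₂) : Qbˣ) : Qb))‖ = 1) :
    hpbQTriv k q a g := by
  haveI : FiniteDimensional ℚ k :=
    FiniteDimensional.of_injective (IntermediateField.inclusion hkF).toLinearMap
      (IntermediateField.inclusion_injective hkF)
  haveI : FiniteDimensional ℚ_[q] (brl_locField q (k.map (g⁻¹ : Γ).toAlgHom)) :=
    brl_finiteDimensional_locField q _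
  have hH : hpbQHg k q g = (brl_locField q (k.map (g⁻¹ : Γ).toAlgHom)).fixingSubgroup := by
    ext τ
    rw [hpbQ_mem_Hg]
    exact pl_conj_mem_fixingSubgroup_iff q k g τ
  haveI := brl_finiteDimensional_locField q F
  have hnorm : F.fixingSubgroup.Normal :=
    (InfiniteGalois.normal_iff_isGalois F).mpr ‹IsGalois ℚ F›
  have hnormal : ∀ (σ : Γ) (x : Qb), x ∈ F → σ x ∈ F := fun σ x hx => by
    have h := AlgEquiv.restrictNormal_commutes σ F ⟨x, hx⟩
    rw [← show ((σ.restrictNormal F ⟨x, hx⟩ : F) : Qb) = σ x from h]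
    exact (σ.restrictNormal F ⟨x, hx⟩).2
  have hmemF : ∀ s : hpbQHg k q g, (s : Gq) ∈ (brl_locField q F).fixingSubgroup →
      ((hpbQth k q g s : k.fixingSubgroup) : Γ) ∈ F.fixingSubgroup := by
    intro s hs
    rw [hpbQth_coe]
    exact hnorm.conj_mem _ ((brl_mem_fixingSubgroup_iff q F _).2 hs) g
  have hx : ∀ y₁ y₂ y₃ : hpbQHg k q g,
      Units.map (hpbQemb q g : Qb →* Ω) (a (hpbQth k q g (y₁ * y₂), hpbQth k q g y₃)) *
        Units.map (hpbQemb q g : Qb →* Ω) (a (hpbQth k q g y₁, hpbQth k q g y₂)) =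
      (y₁ : Gq) • Units.map (hpbQemb q g : Qb →* Ω) (a (hpbQth k q g y₂, hpbQth k q g y₃)) *
        Units.map (hpbQemb q g : Qb →* Ω) (a (hpbQth k q g y₁, hpbQth k q g (y₂ * y₃))) := by
    intro y₁ y₂ y₃
    have h1 := congrArg (Units.map (hpbQemb q g : Qb →* Ω))
      (hcoc (hpbQth k q g y₁) (hpbQth k q g y₂) (hpbQth k q g y₃))
    rw [map_mul, map_mul] at h1
    have h2 : Units.map (hpbQemb q g : Qb →* Ω)
        (((hpbQth k q g y₁ : k.fixingSubgroup) : Γ) •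
          a (hpbQth k q g y₂, hpbQth k q g y₃)) =
        (y₁ : Gq) • Units.map (hpbQemb q g : Qb →* Ω) (a (hpbQth k q g y₂, hpbQth k q g y₃)) := by
      apply Units.ext
      exact hpbQemb_conj q g (y₁ : Gq) _
    rw [h2] at h1
    simp only [map_mul]
    exact h1
  have hlev : ∀ y y' s s' : hpbQHg k q g, (s : Gq) ∈ (brl_locField q F).fixingSubgroup →
      (s' : Gq) ∈ (brl_locField q F).fixingSubgroup →
      Units.map (hpbQemb q g : Qb →* Ω) (a (hpbQth k q g (y * s), hpbQth k q g (y' * s'))) =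
        Units.map (hpbQemb q g : Qb →* Ω) (a (hpbQth k q g y, hpbQth k q g y')) := by
    intro y y' s s' hs hs'
    simp only [map_mul]
    rw [hlevF _ _ _ _ (hmemF s hs) (hmemF s' hs')]
  obtain ⟨θ, hθlev, hθ⟩ := hpbU_cob q (brl_locField q (k.map (g⁻¹ : Γ).toAlgHom))
    (hpbQHg k q g) hH
    (fun p => Units.map (hpbQemb q g : Qb →* Ω) (a (hpbQth k q g p.1, hpbQth k q g p.2)))
    hx (fun p => hunit _ _) (brl_locField q F) hlev
    (fun p => brl_mem_locField q (hnormal g⁻¹ _ (hval (hpbQth k q g p.1) (hpbQth k q g p.2))))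
    (fun y hy => (brl_mem_fixingSubgroup_iff q F _).1 (hunr (hpbU_mem_inertia q y hy)))
  refine ⟨θ, hθlev, fun y y' => ?_⟩
  have h1 := congrArg (fun m : Ωˣ => (m : Ω)) (hθ y y')
  have h2 : (((y : Gq) • θ y' / θ (y * y') * θ y : Ωˣ) : Ω) =
      (θ y : Ω) * (y : Gq) (θ y' : Ω) / (θ (y * y') : Ω) := by
    rw [Units.val_mul, Units.val_div_eq_div_val]
    have h3 : (((y : Gq) • θ y' : Ωˣ) : Ω) = (y : Gq) (θ y' : Ω) := rfl
    rw [h3]
    ring
  rw [← h2]
  exact h1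

/-- `hpbU_triv` for torsion-valued cocycles (e.g. `μ_p`-valued ones). -/
theorem hpbU_triv_of_tors (k F : IntermediateField ℚ Qb) [FiniteDimensional ℚ F] [IsGalois ℚ F]
    (hkF : k ≤ F) (hunr : (padicPlace q).inertiaSubgroupIn ℚ ≤ F.fixingSubgroup)
    (a : k.fixingSubgroup × k.fixingSubgroup → Qbˣ)
    (hcoc : ∀ u₁ u₂ u₃ : k.fixingSubgroup,
      a (u₁ * u₂, u₃) * a (u₁, u₂) = (u₁ : Γ) • a (u₂, u₃) * a (u₁, u₂ * u₃))
    (hlevF : ∀ u₁ u₂ n₁ n₂ : k.fixingSubgroup, (n₁ : Γ) ∈ F.fixingSubgroup →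
      (n₂ : Γ) ∈ F.fixingSubgroup → a (u₁ * n₁, u₂ * n₂) = a (u₁, u₂))
    (hval : ∀ u₁ u₂ : k.fixingSubgroup, ((a (u₁, u₂) : Qbˣ) : Qb) ∈ F)
    (n : ℕ) (hn : n ≠ 0) (htors : ∀ u₁ u₂ : k.fixingSubgroup, a (u₁, u₂) ^ n = 1) (g : Γ) :
    hpbQTriv k q a g :=
  hpbU_triv q k F hkF hunr a hcoc hlevF hval g (fun u₁ u₂ =>
    unr_norm_eq_one_of_pow_eq_one hn (by
      rw [← map_pow, ← map_pow, ← Units.val_pow_eq_pow_val, htors, Units.val_one, map_one,
        map_one]))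

end Triv


section Main

local notation "Qb" => AlgebraicClosure ℚ
local notation "Γ" => (AlgebraicClosure ℚ ≃ₐ[ℚ] AlgebraicClosure ℚ)

attribute [local instance] pt_qbar_isAlgebraic pt_qbar_isAlgClosure pt_qbar_isGalois

/-- **The cohomological Hasse principle in the `ℚ̄`-model, `S`-form** (consumer form of P6(a) +
LP-b): `k ≤ F`, `F/ℚ` finite Galois and unramified outside `S`, `ζ_p ∈ k`, `p` odd,
`U = Gal(ℚ̄/k)`.  A 2-cocycle `a : U × U → ℚ̄ˣ` of level `F` with values in `F`, killed by a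
power of `p`, which is locally trivial at one point of every double coset `U g ι(G_q)` for the
primes `q ∈ S` only, is the coboundary of a level-`F` cochain `c : U → Fˣ`. -/
theorem hpb_qbar_S (p : ℕ) [Fact p.Prime] (hp2 : p ≠ 2) (S : Finset Nat.Primes)
    (k F : IntermediateField ℚ Qb) [IsGalois ℚ F] (hF : F.IsUnramifiedOutside S) (hkF : k ≤ F)
    (ζ : Qb) (hζ : IsPrimitiveRoot ζ p) (hζk : ζ ∈ k)
    (a : k.fixingSubgroup × k.fixingSubgroup → Qbˣ)
    (hcoc : ∀ u₁ u₂ u₃ : k.fixingSubgroup,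
      a (u₁ * u₂, u₃) * a (u₁, u₂) = (u₁ : Γ) • a (u₂, u₃) * a (u₁, u₂ * u₃))
    (hlevF : ∀ u₁ u₂ n₁ n₂ : k.fixingSubgroup, (n₁ : Γ) ∈ F.fixingSubgroup →
      (n₂ : Γ) ∈ F.fixingSubgroup → a (u₁ * n₁, u₂ * n₂) = a (u₁, u₂))
    (hval : ∀ u₁ u₂ : k.fixingSubgroup, ((a (u₁, u₂) : Qbˣ) : Qb) ∈ F)
    (htors : ∃ m : ℕ, ∀ u₁ u₂ : k.fixingSubgroup, a (u₁, u₂) ^ p ^ m = 1)
    (hloc : ∀ (q : ℕ) [Fact q.Prime] (g : Γ), (⟨q, Fact.out⟩ : Nat.Primes) ∈ S →
      ∃ (u : k.fixingSubgroup) (y₀ : PadicAlgCl q ≃ₐ[ℚ_[q]] PadicAlgCl q),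
        hpbQTriv k q a ((u : Γ) * g * localGaloisToGlobal q y₀)) :
    ∃ c : k.fixingSubgroup → Qbˣ, (∀ u, ((c u : Qbˣ) : Qb) ∈ F) ∧
      (∀ u n : k.fixingSubgroup, (n : Γ) ∈ F.fixingSubgroup → c (u * n) = c u) ∧
      ∀ u₁ u₂ : k.fixingSubgroup, a (u₁, u₂) = (u₁ : Γ) • c u₂ / c (u₁ * u₂) * c u₁ := by
  haveI := hF.1
  obtain ⟨m, hm⟩ := htors
  refine hpb_qbar p hp2 k F hkF ζ hζ hζk a hcoc hlevF hval ⟨m, hm⟩ (fun q _ g => ?_)
  by_cases hq : (⟨q, Fact.out⟩ : Nat.Primes) ∈ S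
  · exact hloc q g hq
  · refine ⟨1, 1, ?_⟩
    rw [map_one, mul_one, OneMemClass.coe_one, one_mul]
    exact hpbU_triv_of_tors q k F hkF
      (hF.2 ⟨q, Fact.out⟩ hq (padicPlace q) (pl_natCast_mem_nonunits_padicPlace q)) a hcoc hlevF
      hval (p ^ m) (pow_ne_zero _ (Fact.out : p.Prime).ne_zero) hm g

end Main

end Fermat.Agent.S55
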