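import Mathlib

/-!
# S55, block SHA2 (part 6): a dimension bound from dependence

If any `r + 1` elements of a subspace `𝔇` are linearly dependent modulo a subspace `B ≤ 𝔇`, then
`𝔇 ≤ R ⊔ B` for a subspace `R ≤ 𝔇` of dimension at most `r`.
-/

set_option autoImplicit false

namespace Fermat.Agent.S55

theorem sha2_span_bound {K V : Type*} [Field K] [AddCommGroup V] [Module K V]
    (𝔇 B : Submodule K V) (r : ℕ)
    (hdep : ∀ x : Fin (r + 1) → V, (∀ i, x i ∈ 𝔇) →
      ∃ n : Fin (r + 1) → K, n ≠ 0 ∧ ∑ i, n i • x i ∈ B) :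
    ∃ R : Submodule K V, R ≤ 𝔇 ∧ Module.Finite K R ∧ Module.finrank K R ≤ r ∧ 𝔇 ≤ R ⊔ B := by
  classical
  set B' : Submodule K ↥𝔇 := B.comap 𝔇.subtype with hB'
  have hrank : Module.rank K (↥𝔇 ⧸ B') ≤ (r : Cardinal) := by
    by_contra hlt
    rw [not_le] at hlt
    have h1 : ((r + 1 : ℕ) : Cardinal) ≤ Module.rank K (↥𝔇 ⧸ B') := by
      rw [Nat.cast_succ]
      exact Cardinal.add_one_le_of_lt hlt
    obtain ⟨f, hf⟩ := exists_linearIndependent_of_le_rank h1
    choose y hy using fun i => Submodule.Quotient.mk_surjective B' (f i)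
    obtain ⟨n, hn0, hn⟩ := hdep (fun i => (y i : V)) (fun i => (y i).2)
    rw [Fintype.linearIndependent_iff] at hf
    apply hn0
    funext i
    apply hf n
    have h2 : ∑ i, n i • f i = B'.mkQ (∑ i, n i • y i) := by
      rw [map_sum]
      apply Finset.sum_congr rfl
      intro i _
      rw [map_smul, Submodule.mkQ_apply, hy]
    rw [h2, Submodule.mkQ_apply, Submodule.Quotient.mk_eq_zero, hB', Submodule.mem_comap]
    simpa using hn
  obtain ⟨R', hR'⟩ := Submodule.exists_isCompl B'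
  have hrank' : Module.rank K ↥R' ≤ (r : Cardinal) := by
    rw [← (Submodule.quotientEquivOfIsCompl B' R' hR').rank_eq]
    exact hrank
  have hfin' : Module.Finite K ↥R' :=
    Module.rank_lt_aleph0_iff.mp (lt_of_le_of_lt hrank' (Cardinal.natCast_lt_aleph0))
  refine ⟨R'.map 𝔇.subtype, ?_, ?_, ?_, ?_⟩
  · rintro _ ⟨x, -, rfl⟩
    exact x.2
  · exact Module.Finite.map R' 𝔇.subtype
  · rw [← (Submodule.equivMapOfInjective 𝔇.subtype 𝔇.injective_subtype R').finrank_eq]
    exact Module.finrank_le_of_rank_le hrank'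
  · intro x hx
    have h1 : (⟨x, hx⟩ : ↥𝔇) ∈ B' ⊔ R' := by
      rw [hR'.sup_eq_top]
      trivial
    obtain ⟨b, hb, c, hc, hbc⟩ := Submodule.mem_sup.mp h1
    rw [Submodule.mem_sup]
    refine ⟨c, ⟨c, hc, rfl⟩, b, hb, ?_⟩
    have h3 := congrArg Subtype.val hbc
    simp only [Submodule.coe_add] at h3
    rw [← h3]
    exact add_comm _ _

end Fermat.Agent.S55
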