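import Mathlib
import Fermat.Agent.S55.LocInf
import Fermat.Agent.S55.LocPow

/-!
# S55, block LOC, piece LP4: local Kummer theory and the dimension of `H¹(G_E, 𝔽_p)`

* `lkmHom ι p` : the set of finite-level homomorphisms `χ : G → ZMod p`, for a group `G` mapping
  to `Gal(Ω/k)` by `ι` (level = right-invariant under `ι⁻¹(Gal(Ω/M))` for some finite `M/k`).
* `lkm_exists_kummer` : Kummer theory.  If `ι(G) = Gal(Ω/E)` and `E` contains a primitive `p`-th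
  root of unity `ζ`, every `χ ∈ lkmHom ι p` is a Kummer character: there is `α ∈ Ωˣ` with
  `α ^ p ∈ E` and `ι g α = ζ ^ χ(g) * α`.
* `lkm_card_le_of_finite` : hence `#lkmHom ι p ≤ #(Eˣ / Eˣᵖ)`.
* `lkm_card_le` : for a finite extension `E` of `ℚ_q` inside `PadicAlgCl q` containing a
  primitive `p`-th root of unity: `#lkmHom ι p ≤ p ^ (2 + δ)`, `δ = [E : ℚ_q]` if `p = q` and
  `0` otherwise.
-/

set_option autoImplicit false

namespace Fermat.Agent.S55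

section Abstract

variable {k Ω : Type*} [Field k] [Field Ω] [Algebra k Ω]
variable {G : Type*} [Group G] (ι : G →* (Ω ≃ₐ[k] Ω))

/-- Finite-level homomorphisms `G → ZMod p`. -/
def lkmHom (p : ℕ) : Set (G → ZMod p) :=
  {χ | (∀ g h, χ (g * h) = χ g + χ h) ∧
    ∃ M : IntermediateField k Ω, FiniteDimensional k M ∧
      ∀ g s, ι s ∈ M.fixingSubgroup → χ (g * s) = χ g}

theorem lkm_mem_hom {p : ℕ} {χ : G → ZMod p} :
    χ ∈ lkmHom ι p ↔ (∀ g h, χ (g * h) = χ g + χ h) ∧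
      ∃ M : IntermediateField k Ω, FiniteDimensional k M ∧
        ∀ g s, ι s ∈ M.fixingSubgroup → χ (g * s) = χ g := Iff.rfl

/-- `ζ ^ a` for `a : ZMod p` is additive in `a` when `ζ ^ p = 1`. -/
theorem lkm_pow_val_add {M : Type*} [Monoid M] {p : ℕ} [NeZero p] {z : M} (hz : z ^ p = 1)
    (a b : ZMod p) : z ^ (a + b).val = z ^ a.val * z ^ b.val := by
  rw [ZMod.val_add, ← pow_add]
  exact (pow_eq_pow_mod _ hz).symm

variable [IsGalois k Ω]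

/-- **Kummer theory** for finite-level characters of `Gal(Ω/E)`. -/
theorem lkm_exists_kummer (E : IntermediateField k Ω) (p : ℕ) [NeZero p] (ζ : Ωˣ)
    (hζE : (ζ : Ω) ∈ E) (hζ : ζ ^ p = 1)
    (hι : ∀ g, ι g ∈ E.fixingSubgroup) (hsurj : ∀ σ ∈ E.fixingSubgroup, ∃ g, ι g = σ)
    (χ : G → ZMod p) (hχ : χ ∈ lkmHom ι p) :
    ∃ α : Ωˣ, ((α : Ω) ^ p ∈ E) ∧
      ∀ g, Units.map ((ι g : Ω ≃ₐ[k] Ω) : Ω →* Ω) α = ζ ^ (χ g).val * α := by
  obtain ⟨hadd, M, hMfin, hM⟩ := hχ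
  have hfix : ∀ g, Units.map ((ι g : Ω ≃ₐ[k] Ω) : Ω →* Ω) ζ = ζ := by
    intro g
    apply Units.ext
    exact (IntermediateField.mem_fixingSubgroup_iff E (ι g)).1 (hι g) _ hζE
  obtain ⟨α, hα⟩ := linf_descent ι E (fun g => ζ ^ (χ g).val)
    ⟨M, hMfin, fun g s hs => by simp only [hM g s hs]⟩
    (fun g h _ _ => by
      simp only [hadd, map_pow, hfix]
      exact lkm_pow_val_add hζ _ _)
  have hα' : ∀ g, Units.map ((ι g : Ω ≃ₐ[k] Ω) : Ω →* Ω) α = ζ ^ (χ g).val * α := by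
    intro g
    rw [hα g (hι g), div_mul_cancel]
  refine ⟨α, ?_, hα'⟩
  rw [← InfiniteGalois.fixedField_fixingSubgroup E, IntermediateField.mem_fixedField_iff]
  intro σ hσ
  obtain ⟨g, rfl⟩ := hsurj σ hσ
  have h2 : (ζ ^ (χ g).val * α) ^ p = α ^ p := by
    rw [mul_pow, ← pow_mul, mul_comm _ p, pow_mul, hζ, one_pow, one_mul]
  have h1 : (Units.map ((ι g : Ω ≃ₐ[k] Ω) : Ω →* Ω) α) ^ p = α ^ p := by rw [hα' g, h2]
  have h3 := congrArg Units.val h1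
  simp only [Units.val_pow_eq_pow_val, Units.coe_map, MonoidHom.coe_coe] at h3
  rw [map_pow]
  exact h3

omit [IsGalois k Ω] in
/-- Two characters whose Kummer generators differ by an element of `E` up to `p`-th powers
coincide (injectivity of the Kummer map `χ ↦ α ^ p mod Eˣᵖ`). -/
theorem lkm_eq_of_kummer (E : IntermediateField k Ω) (p : ℕ) [NeZero p] (ζ : Ωˣ)
    (hζE : (ζ : Ω) ∈ E) (hprim : IsPrimitiveRoot ζ p)
    (hι : ∀ g, ι g ∈ E.fixingSubgroup)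
    (χ₁ χ₂ : G → ZMod p) (α₁ α₂ : Ωˣ)
    (h₁ : ∀ g, Units.map ((ι g : Ω ≃ₐ[k] Ω) : Ω →* Ω) α₁ = ζ ^ (χ₁ g).val * α₁)
    (h₂ : ∀ g, Units.map ((ι g : Ω ≃ₐ[k] Ω) : Ω →* Ω) α₂ = ζ ^ (χ₂ g).val * α₂)
    (c : Ωˣ) (hc : (c : Ω) ∈ E) (h : α₁ ^ p = α₂ ^ p * c ^ p) : χ₁ = χ₂ := by
  have hfixζ : ∀ g, Units.map ((ι g : Ω ≃ₐ[k] Ω) : Ω →* Ω) ζ = ζ := by
    intro g
    apply Units.ext
    exact (IntermediateField.mem_fixingSubgroup_iff E (ι g)).1 (hι g) _ hζE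
  have hfixc : ∀ g, Units.map ((ι g : Ω ≃ₐ[k] Ω) : Ω →* Ω) c = c := by
    intro g
    apply Units.ext
    exact (IntermediateField.mem_fixingSubgroup_iff E (ι g)).1 (hι g) _ hc
  -- `α₁ = ζ ^ i * α₂ * c`
  have hω : (α₁ * (α₂ * c)⁻¹) ^ p = 1 := by
    rw [mul_pow, inv_pow, mul_pow, h, mul_inv_cancel]
  have hprim' : IsPrimitiveRoot (ζ : Ω) p := IsPrimitiveRoot.coe_units_iff.2 hprim
  obtain ⟨i, -, hi⟩ := hprim'.eq_pow_of_pow_eq_one
    (ξ := ((α₁ * (α₂ * c)⁻¹ : Ωˣ) : Ω)) (by rw [← Units.val_pow_eq_pow_val, hω, Units.val_one])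
  have hi' : ζ ^ i = α₁ * (α₂ * c)⁻¹ := by
    apply Units.ext
    rw [Units.val_pow_eq_pow_val, hi]
  have hα₁ : α₁ = ζ ^ i * (α₂ * c) := by
    rw [hi', inv_mul_cancel_right]
  funext g
  have e1 : Units.map ((ι g : Ω ≃ₐ[k] Ω) : Ω →* Ω) α₁ = ζ ^ (χ₂ g).val * α₁ := by
    conv_lhs => rw [hα₁]
    rw [map_mul, map_mul, map_pow, hfixζ, hfixc, h₂]
    conv_rhs => rw [hα₁]
    simp only [mul_assoc, mul_left_comm]
  have e2 : ζ ^ (χ₁ g).val = ζ ^ (χ₂ g).val := by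
    have := (h₁ g).symm.trans e1
    exact mul_right_cancel this
  exact ZMod.val_injective p (hprim.pow_inj (ZMod.val_lt _) (ZMod.val_lt _) e2)

/-- `#{finite-level characters G → ZMod p} ≤ #(Eˣ / Eˣᵖ)` when `ι(G) = Gal(Ω/E)` and
`μ_p ⊆ E`. -/
theorem lkm_card_le_of_finite (E : IntermediateField k Ω) (p : ℕ) [NeZero p] (ζ : Ωˣ)
    (hζE : (ζ : Ω) ∈ E) (hprim : IsPrimitiveRoot ζ p)
    (hι : ∀ g, ι g ∈ E.fixingSubgroup) (hsurj : ∀ σ ∈ E.fixingSubgroup, ∃ g, ι g = σ)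
    [Finite ((↥E)ˣ ⧸ (powMonoidHom p : (↥E)ˣ →* (↥E)ˣ).range)] :
    (lkmHom ι p).Finite ∧
      (lkmHom ι p).ncard ≤ Nat.card ((↥E)ˣ ⧸ (powMonoidHom p : (↥E)ˣ →* (↥E)ˣ).range) := by
  classical
  have hex : ∀ χ : ↥(lkmHom ι p), ∃ α : Ωˣ, ((α : Ω) ^ p ∈ E) ∧
      ∀ g, Units.map ((ι g : Ω ≃ₐ[k] Ω) : Ω →* Ω) α = ζ ^ (χ.1 g).val * α :=
    fun χ => lkm_exists_kummer ι E p ζ hζE hprim.pow_eq_one hι hsurj χ.1 χ.2
  choose α hαE hα using hex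
  let b : ↥(lkmHom ι p) → (↥E)ˣ := fun χ =>
    Units.mk0 ⟨(α χ : Ω) ^ p, hαE χ⟩ (fun h0 => (pow_ne_zero p (Units.ne_zero (α χ)))
      (congrArg Subtype.val h0))
  have hb : ∀ χ, (((b χ : (↥E)ˣ) : ↥E) : Ω) = (α χ : Ω) ^ p := fun χ => rfl
  let F : ↥(lkmHom ι p) → (↥E)ˣ ⧸ (powMonoidHom p : (↥E)ˣ →* (↥E)ˣ).range :=
    fun χ => QuotientGroup.mk (b χ)
  have hF : Function.Injective F := by
    intro χ₁ χ₂ h12
    have h3 : (b χ₁)⁻¹ * b χ₂ ∈ (powMonoidHom p : (↥E)ˣ →* (↥E)ˣ).range :=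
      QuotientGroup.eq.1 h12
    obtain ⟨c, hc⟩ := h3
    have hc' : b χ₂ = b χ₁ * c ^ p := by
      have : c ^ p = (b χ₁)⁻¹ * b χ₂ := hc
      rw [this, mul_inv_cancel_left]
    apply Subtype.ext
    symm
    let c' : Ωˣ := Units.map (algebraMap (↥E) Ω : ↥E →* Ω) c
    refine lkm_eq_of_kummer ι E p ζ hζE hprim hι χ₂.1 χ₁.1 (α χ₂) (α χ₁) (hα χ₂) (hα χ₁) c'
      (c : ↥E).2 ?_
    apply Units.ext
    have h4 := congrArg (fun u : (↥E)ˣ => ((u : ↥E) : Ω)) hc'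
    simp only [hb, Units.val_mul, Units.val_pow_eq_pow_val, MulMemClass.coe_mul,
      SubmonoidClass.coe_pow] at h4
    simp only [Units.val_mul, Units.val_pow_eq_pow_val]
    exact h4
  have hfin : Finite ↥(lkmHom ι p) := Finite.of_injective F hF
  refine ⟨Set.toFinite _, ?_⟩
  rw [← Nat.card_coe_set_eq]
  exact Nat.card_le_card_of_injective F hF

end Abstract

section Padic

/-- **Local Kummer bound.**  For a finite extension `E` of `ℚ_q` inside `PadicAlgCl q` containing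
a primitive `p`-th root of unity, the number of finite-level characters `G_E → ZMod p` is at most
`p ^ (2 + δ)`, `δ = [E : ℚ_q]` if `p = q`, `δ = 0` otherwise. -/
theorem lkm_card_le (q : ℕ) [Fact q.Prime] (p : ℕ) (hp : p.Prime)
    (E : IntermediateField ℚ_[q] (PadicAlgCl q)) [FiniteDimensional ℚ_[q] E]
    (ζ : PadicAlgCl q) (hζE : ζ ∈ E) (hprim : IsPrimitiveRoot ζ p)
    {G : Type*} [Group G] (ι : G →* (PadicAlgCl q ≃ₐ[ℚ_[q]] PadicAlgCl q))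
    (hι : ∀ g, ι g ∈ E.fixingSubgroup) (hsurj : ∀ σ ∈ E.fixingSubgroup, ∃ g, ι g = σ) :
    (lkmHom ι p).Finite ∧
      (lkmHom ι p).ncard ≤ p ^ (2 + if p = q then Module.finrank ℚ_[q] E else 0) := by
  have : NeZero p := ⟨hp.ne_zero⟩
  obtain ⟨hfin, hle⟩ := lp_card_quot_pow_le_intermediate q E p hp
  have hu : IsUnit ζ := hprim.isUnit hp.ne_zero
  obtain ⟨ζ', rfl⟩ := hu
  have h := lkm_card_le_of_finite ι E p ζ' hζE (IsPrimitiveRoot.coe_units_iff.1 hprim) hι hsurj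
  exact ⟨h.1, h.2.trans hle⟩

end Padic

end Fermat.Agent.S55
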