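import Mathlib

/-!
# S55, block SHA2 (part 1): cochains with level coboundary

Pure group theory.  Let `b : G → X` be a 1-cochain with trivial coefficients whose coboundary
`(g, h) ↦ b h - b (g * h) + b g` is constant modulo a subgroup `N` in both arguments.  Then the
normalised cochain `b₀ = b - b 1` is additive over `N` on both sides, restricts to a homomorphism
on `N`, and is conjugation invariant on `N` (for `N` normal).
-/

set_option autoImplicit false

namespace Fermat.Agent.S55

section core

variable {G X : Type*} [Group G] [AddCommGroup X]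

/-- The coboundary of `b` is `N`-level. -/
def sha2_dLev (N : Subgroup G) (b : G → X) : Prop :=
  ∀ g h, ∀ s ∈ N, ∀ t ∈ N,
    b (h * t) - b (g * s * (h * t)) + b (g * s) = b h - b (g * h) + b g

theorem sha2_dLev_mono {N N' : Subgroup G} (h : N ≤ N') {b : G → X} (hb : sha2_dLev N' b) :
    sha2_dLev N b := fun g g' s hs t ht => hb g g' s (h hs) t (h ht)

theorem sha2_add_right {N : Subgroup G} {b : G → X} (hb : sha2_dLev N b) (g : G) {s : G}
    (hs : s ∈ N) : b (g * s) - b 1 = (b g - b 1) + (b s - b 1) := by
  have h := hb g 1 1 N.one_mem s hs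
  simp only [mul_one, one_mul] at h
  have h2 : b (g * s) = b s + b g - b 1 := by
    have : b s - b (g * s) + b g = b 1 := by rw [h]; abel
    rw [← this]; abel
  rw [h2]; abel

theorem sha2_add_left {N : Subgroup G} {b : G → X} (hb : sha2_dLev N b) (g : G) {s : G}
    (hs : s ∈ N) : b (s * g) - b 1 = (b s - b 1) + (b g - b 1) := by
  have h := hb 1 g s hs 1 N.one_mem
  simp only [mul_one, one_mul] at h
  have h2 : b (s * g) = b s + b g - b 1 := by
    have : b g - b (s * g) + b s = b 1 := by rw [h]; abel
    rw [← this]; abel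
  rw [h2]; abel

theorem sha2_conj {N : Subgroup G} [hN : N.Normal] {b : G → X} (hb : sha2_dLev N b) (g : G)
    {s : G} (hs : s ∈ N) : b (g * s * g⁻¹) - b 1 = b s - b 1 := by
  have h1 := sha2_add_right hb g hs
  have h2 := sha2_add_left hb g (hN.conj_mem s hs g)
  have h3 : g * s * g⁻¹ * g = g * s := by group
  rw [h3] at h2
  have h4 : (b g - b 1) + (b s - b 1) = (b (g * s * g⁻¹) - b 1) + (b g - b 1) := by
    rw [← h1, ← h2]
  have h5 : b s - b 1 = b (g * s * g⁻¹) - b 1 := by
    have := add_left_cancel (a := b g - b 1) (b := b s - b 1) (c := b (g * s * g⁻¹) - b 1)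
      (by rw [h4]; abel)
    exact this
  exact h5.symm

/-- If the normalised cochain vanishes on `N₁ ≤ N`, it is right-`N₁`-invariant. -/
theorem sha2_level_of_vanish {N N₁ : Subgroup G} (hle : N₁ ≤ N) {b : G → X}
    (hb : sha2_dLev N b) (hv : ∀ s ∈ N₁, b s - b 1 = 0) (g : G) {s : G} (hs : s ∈ N₁) :
    b (g * s) = b g := by
  have h1 := sha2_add_right hb g (hle hs)
  rw [hv s hs, add_zero] at h1
  exact sub_left_injective h1

end core

end Fermat.Agent.S55
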