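import Mathlib
import Fermat.Agent.S55.LocKum
import Fermat.Agent.S55.IfaceFields
import Fermat.Agent.S55.Sha2Core

/-!
# S55, block SHA2 (part 4): Kummer generators attached to cochains with level coboundary

`U = Gal(ℚ̄/k)`, `ζ ∈ k` a `p`-th root of unity.

* `sha2_exists_kummer` : a finite-level cochain `b : U → ZMod p` whose coboundary is constant
  modulo `N₀ = Gal(ℚ̄/L₀)` (`L₀ ⊇ k` Galois over `ℚ`) has a Kummer generator `ϑ`:
  `n ϑ = ζ ^ (b n - b 1) ϑ` for `n ∈ N₀`, `ϑ ^ p ∈ L₀`, and `g ϑ / ϑ ∈ L₀` for all `g ∈ U`.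
* `sha2_exists_char` : the Kummer character of a `p`-th root of an element of `k`.
-/

set_option autoImplicit false

namespace Fermat.Agent.S55

local notation "Qb" => AlgebraicClosure ℚ
local notation "Γ" => (AlgebraicClosure ℚ ≃ₐ[ℚ] AlgebraicClosure ℚ)

attribute [local instance] pt_qbar_isAlgebraic pt_qbar_isAlgClosure pt_qbar_isGalois

section E

variable {p : ℕ} [NeZero p] {z : Qb}

theorem sha2_E_add (hz : z ^ p = 1) (x y : ZMod p) :
    z ^ (x + y).val = z ^ x.val * z ^ y.val := lkm_pow_val_add hz x y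

omit [NeZero p] in
theorem sha2_E_zero : z ^ (0 : ZMod p).val = 1 := by
  rw [ZMod.val_zero, pow_zero]

theorem sha2_E_neg (hz : z ^ p = 1) (x : ZMod p) : z ^ (-x).val = (z ^ x.val)⁻¹ := by
  have h := sha2_E_add hz x (-x)
  rw [add_neg_cancel, sha2_E_zero] at h
  exact eq_inv_of_mul_eq_one_right h.symm

theorem sha2_E_sum (hz : z ^ p = 1) {ι : Type*} (s : Finset ι) (x : ι → ZMod p) :
    z ^ (∑ i ∈ s, x i).val = ∏ i ∈ s, z ^ (x i).val := by
  classical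
  induction s using Finset.induction_on with
  | empty => simp
  | insert a s ha ih => rw [Finset.sum_insert ha, Finset.prod_insert ha, sha2_E_add hz, ih]

theorem sha2_E_mul (hz : z ^ p = 1) (n x : ZMod p) :
    z ^ (n * x).val = (z ^ x.val) ^ n.val := by
  have h := sha2_E_sum hz (Finset.range n.val) (fun _ => x)
  rw [Finset.sum_const, Finset.prod_const, Finset.card_range, nsmul_eq_mul,
    ZMod.natCast_zmod_val] at h
  exact h

theorem sha2_E_eq_one (hz : IsPrimitiveRoot z p) (x : ZMod p) (h : z ^ x.val = 1) : x = 0 := by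
  have h1 := (hz.pow_eq_one_iff_dvd _).mp h
  have h2 : x.val = 0 := Nat.eq_zero_of_dvd_of_lt h1 (ZMod.val_lt x)
  exact (ZMod.val_eq_zero x).mp h2

theorem sha2_E_inj (hz : IsPrimitiveRoot z p) (x y : ZMod p) (h : z ^ x.val = z ^ y.val) :
    x = y :=
  ZMod.val_injective p (hz.pow_inj (ZMod.val_lt x) (ZMod.val_lt y) h)

end E

theorem sha2_mem_of_fixed (L : IntermediateField ℚ Qb) (x : Qb)
    (hx : ∀ g ∈ L.fixingSubgroup, g x = x) : x ∈ L := by
  have h := InfiniteGalois.fixedField_fixingSubgroup (k := ℚ) (K := Qb) L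
  rw [← h, IntermediateField.mem_fixedField_iff]
  exact hx

/-- The Kummer generator of a finite-level cochain with `N₀`-level coboundary. -/
theorem sha2_exists_kummer (p : ℕ) [Fact p.Prime] (k : IntermediateField ℚ Qb) (ζ : Qbˣ)
    (hζk : (ζ : Qb) ∈ k) (hζ : ζ ^ p = 1)
    (L₀ : IntermediateField ℚ Qb) (hkL : k ≤ L₀) (hgal : IsGalois ℚ L₀)
    (b : ↥k.fixingSubgroup → ZMod p)
    (hfin : ∃ M : IntermediateField ℚ Qb, FiniteDimensional ℚ M ∧
      ∀ g s : ↥k.fixingSubgroup, (s : Γ) ∈ M.fixingSubgroup → b (g * s) = b g)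
    (hb : sha2_dLev (L₀.fixingSubgroup.subgroupOf k.fixingSubgroup) b) :
    ∃ ϑ : Qbˣ, (ϑ : Qb) ^ p ∈ L₀ ∧
      (∀ n : ↥k.fixingSubgroup, (n : Γ) ∈ L₀.fixingSubgroup →
        (n : Γ) (ϑ : Qb) = ((ζ : Qb) ^ (b n - b 1).val) * ϑ) ∧
      ∀ g : ↥k.fixingSubgroup, (g : Γ) (ϑ : Qb) / ϑ ∈ L₀ := by
  have hle : L₀.fixingSubgroup ≤ k.fixingSubgroup :=
    IntermediateField.fixingSubgroup_antitone hkL
  have hnor : L₀.fixingSubgroup.Normal := (InfiniteGalois.normal_iff_isGalois L₀).mpr hgal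
  have hnor' : (L₀.fixingSubgroup.subgroupOf k.fixingSubgroup).Normal := inferInstance
  obtain ⟨M, hMfin, hM⟩ := hfin
  let ι : ↥L₀.fixingSubgroup →* Γ := L₀.fixingSubgroup.subtype
  let χ : ↥L₀.fixingSubgroup → ZMod p := fun n => b ⟨n.1, hle n.2⟩ - b 1
  have hχ : χ ∈ lkmHom ι p := by
    refine ⟨fun n₁ n₂ => ?_, M, hMfin, fun g s hs => ?_⟩
    · exact sha2_add_right hb ⟨n₁.1, hle n₁.2⟩ (s := ⟨n₂.1, hle n₂.2⟩)
        (Subgroup.mem_subgroupOf.mpr n₂.2)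
    · show b ⟨(g * s).1, _⟩ - b 1 = b ⟨g.1, _⟩ - b 1
      congr 1
      exact hM ⟨g.1, hle g.2⟩ ⟨s.1, hle s.2⟩ hs
  obtain ⟨ϑ, hϑL, hϑ⟩ := lkm_exists_kummer ι L₀ p ζ (hkL hζk) hζ (fun g => g.2)
    (fun σ hσ => ⟨⟨σ, hσ⟩, rfl⟩) χ hχ
  have hact : ∀ n : ↥k.fixingSubgroup, (n : Γ) ∈ L₀.fixingSubgroup →
      (n : Γ) (ϑ : Qb) = ((ζ : Qb) ^ (b n - b 1).val) * ϑ := by
    intro n hn
    have h1 := congrArg Units.val (hϑ ⟨n.1, hn⟩)
    simpa [χ, ι] using h1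
  refine ⟨ϑ, hϑL, hact, fun g => ?_⟩
  apply sha2_mem_of_fixed
  intro n hn
  have hζfix : (g : Γ) (ζ : Qb) = ζ :=
    (IntermediateField.mem_fixingSubgroup_iff k g).mp g.2 _ hζk
  -- the conjugate `n' = g⁻¹ n g`
  let nU : ↥k.fixingSubgroup := ⟨n, hle hn⟩
  have hnU : nU ∈ L₀.fixingSubgroup.subgroupOf k.fixingSubgroup := Subgroup.mem_subgroupOf.mpr hn
  have hn' : ((g⁻¹ * nU * g : ↥k.fixingSubgroup) : Γ) ∈ L₀.fixingSubgroup := by
    have h1 := hnor'.conj_mem nU hnU g⁻¹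
    rw [inv_inv] at h1
    exact Subgroup.mem_subgroupOf.mp h1
  have hconj : b (g⁻¹ * nU * g) - b 1 = b nU - b 1 := by
    have h1 := sha2_conj hb g⁻¹ hnU
    rw [inv_inv] at h1
    exact h1
  have h1 := hact (g⁻¹ * nU * g) hn'
  rw [hconj] at h1
  have h2 := hact nU hn
  have h3 : n ((g : Γ) (ϑ : Qb)) = (g : Γ) (((g⁻¹ * nU * g : ↥k.fixingSubgroup) : Γ) (ϑ : Qb)) := by
    have e : (g : Γ) * ((g⁻¹ * nU * g : ↥k.fixingSubgroup) : Γ) = n * (g : Γ) := by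
      show (g : Γ) * ((g : Γ)⁻¹ * n * (g : Γ)) = n * (g : Γ)
      group
    have e2 := congrArg (fun σ : Γ => σ (ϑ : Qb)) e
    exact e2.symm
  have hϑ0 : (ϑ : Qb) ≠ 0 := Units.ne_zero ϑ
  have hζ0 : (ζ : Qb) ^ (b nU - b 1).val ≠ 0 := pow_ne_zero _ (Units.ne_zero ζ)
  have h2' : n (ϑ : Qb) = (ζ : Qb) ^ (b nU - b 1).val * ϑ := h2
  rw [map_div₀, h3, h1, map_mul, map_pow, hζfix, h2']
  field_simp

/-- The Kummer character of a `p`-th root of an element of `k`. -/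
theorem sha2_exists_char (p : ℕ) [Fact p.Prime] (k : IntermediateField ℚ Qb) (z : Qb)
    (hzk : z ∈ k) (hz : IsPrimitiveRoot z p) (a : Qb) (ha0 : a ≠ 0) (ha : a ^ p ∈ k) :
    ∃ χ : ↥k.fixingSubgroup → ZMod p, (∀ g h, χ (g * h) = χ g + χ h) ∧
      (∃ M : IntermediateField ℚ Qb, FiniteDimensional ℚ M ∧
        ∀ g s : ↥k.fixingSubgroup, (s : Γ) ∈ M.fixingSubgroup → χ (g * s) = χ g) ∧
      ∀ g : ↥k.fixingSubgroup, (g : Γ) a = z ^ (χ g).val * a := by
  have hp : p ≠ 0 := (Fact.out : p.Prime).ne_zero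
  have hzp : z ^ p = 1 := hz.pow_eq_one
  have hex : ∀ g : ↥k.fixingSubgroup, ∃ i < p, z ^ i = (g : Γ) a / a := by
    intro g
    apply hz.eq_pow_of_pow_eq_one
    have h1 : (g : Γ) (a ^ p) = a ^ p := (IntermediateField.mem_fixingSubgroup_iff k g).mp g.2 _ ha
    rw [div_pow, ← map_pow, h1, div_self (pow_ne_zero _ ha0)]
  choose i hi hi' using hex
  have hχ : ∀ g : ↥k.fixingSubgroup, (g : Γ) a = z ^ ((i g : ZMod p)).val * a := by
    intro g
    rw [ZMod.val_cast_of_lt (hi g), hi' g, div_mul_cancel₀ _ ha0]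
  have hzfix : ∀ g : ↥k.fixingSubgroup, (g : Γ) z = z := fun g =>
    (IntermediateField.mem_fixingSubgroup_iff k g).mp g.2 _ hzk
  refine ⟨fun g => (i g : ZMod p), fun g h => ?_, ?_, hχ⟩
  · apply sha2_E_inj hz
    have h1 : ((g * h : ↥k.fixingSubgroup) : Γ) a = (g : Γ) ((h : Γ) a) := rfl
    rw [hχ (g * h), hχ h, map_mul, map_pow, hzfix, hχ g] at h1
    rw [sha2_E_add hzp]
    have h2 : z ^ ((i (g * h) : ZMod p)).val * a =
        (z ^ ((i g : ZMod p)).val * z ^ ((i h : ZMod p)).val) * a := by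
      rw [h1]; ring
    exact mul_right_cancel₀ ha0 h2
  · have hint : IsIntegral ℚ a := (AlgebraicClosure.isAlgebraic ℚ).isIntegral.1 a
    refine ⟨IntermediateField.adjoin ℚ {a}, IntermediateField.adjoin.finiteDimensional hint,
      fun g s hs => ?_⟩
    have hsa : (s : Γ) a = a :=
      (IntermediateField.mem_fixingSubgroup_iff _ _).mp hs a
        (IntermediateField.mem_adjoin_simple_self ℚ a)
    apply sha2_E_inj hz
    have h1 : ((g * s : ↥k.fixingSubgroup) : Γ) a = (g : Γ) ((s : Γ) a) := rfl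
    rw [hsa, hχ (g * s), hχ g] at h1
    exact mul_right_cancel₀ ha0 h1

end Fermat.Agent.S55
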