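import Mathlib
import Fermat.Agent.S13.InertiaFixed
import Fermat.Agent.S55.KumUnram

/-!
# S55, block SHA2 (part 2): orders at valuation subrings of `ℚ̄`

For a valuation subring `A` of `ℚ̄` lying over a rational prime `q`, an element `x` *has order
`m`* at `A` if `A.valuation x = A.valuation q ^ m`.  Elements of a field unramified at `A` have an
order (S13: `inertia_fixed_valuation`).  Orders are unique, multiplicative, and compatible with
conjugation.
-/

set_option autoImplicit false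

open IsDedekindDomain NumberField
open scoped Pointwise

namespace Fermat.Agent.S55

local notation "Qb" => AlgebraicClosure ℚ
local notation "Γ" => (AlgebraicClosure ℚ ≃ₐ[ℚ] AlgebraicClosure ℚ)

/-- `x` has order `m` at `A` (relative to the rational prime `q`). -/
def sha2_IsOrd (A : ValuationSubring Qb) (q : ℕ) (x : Qb) (m : ℤ) : Prop :=
  A.valuation x = A.valuation (q : Qb) ^ m

theorem sha2_val_eq_one_iff (A : ValuationSubring Qb) (x : Qb) :
    A.valuation x = 1 ↔ x ∈ A ∧ x ∉ A.nonunits := by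
  rw [← ValuationSubring.valuation_le_one_iff, ValuationSubring.mem_nonunits_iff, not_lt]
  exact ⟨fun h => ⟨h.le, h.ge⟩, fun h => le_antisymm h.1 h.2⟩

theorem sha2_val_eq_one_smul_iff (A : ValuationSubring Qb) (g : Γ) (x : Qb) :
    (g • A).valuation x = 1 ↔ A.valuation (g⁻¹ x) = 1 := by
  rw [sha2_val_eq_one_iff, sha2_val_eq_one_iff, pt_mem_smul_iff, pt_mem_nonunits_smul_iff]

theorem sha2_val_q_ne_zero (A : ValuationSubring Qb) {q : ℕ} (hq : q.Prime) :
    A.valuation (q : Qb) ≠ 0 := by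
  rw [Ne, Valuation.zero_iff]
  exact_mod_cast hq.ne_zero

theorem sha2_val_q_lt_one (A : ValuationSubring Qb) {q : ℕ} (hA : A.LiesOverPrime q) :
    A.valuation (q : Qb) < 1 := (ValuationSubring.mem_nonunits_iff A).mp hA

theorem sha2_isOrd_iff (A : ValuationSubring Qb) {q : ℕ} (hq : q.Prime) (x : Qb) (m : ℤ) :
    sha2_IsOrd A q x m ↔ A.valuation (x * (q : Qb) ^ (-m)) = 1 := by
  unfold sha2_IsOrd
  have h0 := sha2_val_q_ne_zero A hq
  rw [map_mul, map_zpow₀, zpow_neg, mul_inv_eq_one₀ (zpow_ne_zero _ h0)]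

theorem sha2_isOrd_smul_iff (A : ValuationSubring Qb) {q : ℕ} (hq : q.Prime) (g : Γ) (x : Qb)
    (m : ℤ) : sha2_IsOrd (g • A) q x m ↔ sha2_IsOrd A q (g⁻¹ x) m := by
  rw [sha2_isOrd_iff _ hq, sha2_isOrd_iff _ hq, sha2_val_eq_one_smul_iff, map_mul, map_zpow₀,
    map_natCast]

theorem sha2_isOrd_unique (A : ValuationSubring Qb) {q : ℕ} (hq : q.Prime)
    (hA : A.LiesOverPrime q) {x : Qb} {m m' : ℤ} (h : sha2_IsOrd A q x m)
    (h' : sha2_IsOrd A q x m') : m = m' := by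
  unfold sha2_IsOrd at h h'
  have h0 : 0 < A.valuation (q : Qb) := zero_lt_iff.mpr (sha2_val_q_ne_zero A hq)
  have h1 : A.valuation (q : Qb) ≠ 1 := (sha2_val_q_lt_one A hA).ne
  exact zpow_right_injective₀ h0 h1 (h.symm.trans h')

theorem sha2_isOrd_mul (A : ValuationSubring Qb) {q : ℕ} (hq : q.Prime) {x y : Qb} {m n : ℤ}
    (hx : sha2_IsOrd A q x m) (hy : sha2_IsOrd A q y n) : sha2_IsOrd A q (x * y) (m + n) := by
  unfold sha2_IsOrd at hx hy ⊢
  rw [map_mul, hx, hy, zpow_add₀ (sha2_val_q_ne_zero A hq)]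

theorem sha2_isOrd_inv (A : ValuationSubring Qb) {q : ℕ} {x : Qb} {m : ℤ}
    (hx : sha2_IsOrd A q x m) : sha2_IsOrd A q x⁻¹ (-m) := by
  unfold sha2_IsOrd at hx ⊢
  rw [map_inv₀, hx, zpow_neg]

theorem sha2_isOrd_pow (A : ValuationSubring Qb) {q : ℕ} {x : Qb} {m : ℤ}
    (hx : sha2_IsOrd A q x m) (j : ℕ) : sha2_IsOrd A q (x ^ j) (j * m) := by
  unfold sha2_IsOrd at hx ⊢
  rw [map_pow, hx, ← zpow_natCast, ← zpow_mul, mul_comm]

theorem sha2_isOrd_one (A : ValuationSubring Qb) (q : ℕ) : sha2_IsOrd A q 1 0 := by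
  unfold sha2_IsOrd
  rw [map_one, zpow_zero]

theorem sha2_isOrd_of_unit (A : ValuationSubring Qb) (q : ℕ) {x : Qb} (h : A.valuation x = 1) :
    sha2_IsOrd A q x 0 := by
  unfold sha2_IsOrd
  rw [h, zpow_zero]

theorem sha2_isOrd_zero_iff (A : ValuationSubring Qb) (q : ℕ) (x : Qb) :
    sha2_IsOrd A q x 0 ↔ A.valuation x = 1 := by
  unfold sha2_IsOrd
  rw [zpow_zero]

theorem sha2_isOrd_q (A : ValuationSubring Qb) (q : ℕ) : sha2_IsOrd A q (q : Qb) 1 := by
  unfold sha2_IsOrd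
  rw [zpow_one]

theorem sha2_isOrd_prod (A : ValuationSubring Qb) {q : ℕ} (hq : q.Prime) {ι : Type*}
    (s : Finset ι) (x : ι → Qb) (m : ι → ℤ) (h : ∀ i ∈ s, sha2_IsOrd A q (x i) (m i)) :
    sha2_IsOrd A q (∏ i ∈ s, x i) (∑ i ∈ s, m i) := by
  classical
  induction s using Finset.induction_on with
  | empty => simpa using sha2_isOrd_one A q
  | insert a s ha ih =>
    rw [Finset.prod_insert ha, Finset.sum_insert ha]
    exact sha2_isOrd_mul A hq (h a (Finset.mem_insert_self a s))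
      (ih fun i hi => h i (Finset.mem_insert_of_mem hi))

/-- Elements of a field unramified at `A` have an order at `A`. -/
theorem sha2_exists_isOrd (S : Finset Nat.Primes) (F : IntermediateField ℚ Qb)
    (hF : F.IsUnramifiedOutside S) (q : Nat.Primes) (hqS : q ∉ S) (A : ValuationSubring Qb)
    (hA : A.LiesOverPrime (q : ℕ)) (x : Qb) (hxF : x ∈ F) (hx : x ≠ 0) :
    ∃ m : ℤ, sha2_IsOrd A (q : ℕ) x m := by
  refine Fermat.Agent.S13.inertia_fixed_valuation A q.2 hA x hx ?_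
  intro σ hσ
  exact (IntermediateField.mem_fixingSubgroup_iff F σ).mp (hF.2 q hqS A hA hσ) x hxF

/-- An integer prime to `q` is a unit at every valuation subring over `q`. -/
theorem sha2_val_int_eq_one (A : ValuationSubring Qb) {q : ℕ} (hA : A.LiesOverPrime q) (n : ℤ)
    (hn : IsCoprime n (q : ℤ)) : A.valuation (n : Qb) = 1 := by
  rw [sha2_val_eq_one_iff]
  refine ⟨intCast_mem A n, fun hmem => ?_⟩
  obtain ⟨x, y, hxy⟩ := hn
  have hqm : ((q : ℕ) : Qb) ∈ A.nonunits := hA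
  have h4 : (1 : Qb) ∈ A.nonunits := by
    have h5 : (1 : Qb) = x • (n : Qb) + y • ((q : ℕ) : Qb) := by
      have := congrArg (Int.cast : ℤ → Qb) hxy
      push_cast at this
      rw [zsmul_eq_mul, zsmul_eq_mul]
      exact this.symm
    rw [h5]
    exact add_mem (zsmul_mem hmem x) (zsmul_mem hqm y)
  rw [ValuationSubring.mem_nonunits_iff, map_one] at h4
  exact lt_irrefl _ h4

/-- A nonzero algebraic number is a unit at all valuation subrings over all but finitely many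
rational primes. -/
theorem sha2_unit_away (x : Qb) (hx : x ≠ 0) :
    ∃ d : ℤ, d ≠ 0 ∧ ∀ q : ℕ, q.Prime → ¬ ((q : ℤ) ∣ d) → ∀ A : ValuationSubring Qb,
      A.LiesOverPrime q → A.valuation x = 1 := by
  have halg : ∀ z : Qb, IsAlgebraic ℤ z := fun z =>
    (IsFractionRing.isAlgebraic_iff ℤ ℚ Qb).2 ((AlgebraicClosure.isAlgebraic ℚ).isAlgebraic z)
  obtain ⟨d₁, hd₁, h₁⟩ := (halg x).exists_integral_multiple
  obtain ⟨d₂, hd₂, h₂⟩ := (halg x⁻¹).exists_integral_multiple
  refine ⟨d₁ * d₂, mul_ne_zero hd₁ hd₂, fun q hq hqd A hA => ?_⟩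
  have hqp : Prime (q : ℤ) := Nat.prime_iff_prime_int.mp hq
  have hc₁ : IsCoprime d₁ (q : ℤ) :=
    ((Prime.coprime_iff_not_dvd hqp).mpr fun h => hqd (Dvd.dvd.mul_right h d₂)).symm
  have hc₂ : IsCoprime d₂ (q : ℤ) :=
    ((Prime.coprime_iff_not_dvd hqp).mpr fun h => hqd (Dvd.dvd.mul_left h d₁)).symm
  have hv₁ := sha2_val_int_eq_one A hA d₁ hc₁
  have hv₂ := sha2_val_int_eq_one A hA d₂ hc₂
  have hi₁ : A.valuation (d₁ • x) ≤ 1 :=
    (ValuationSubring.valuation_le_one_iff A _).mpr (kum_integral_mem A _ h₁)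
  have hi₂ : A.valuation (d₂ • x⁻¹) ≤ 1 :=
    (ValuationSubring.valuation_le_one_iff A _).mpr (kum_integral_mem A _ h₂)
  rw [zsmul_eq_mul, map_mul, hv₁, one_mul] at hi₁
  rw [zsmul_eq_mul, map_mul, hv₂, one_mul, map_inv₀] at hi₂
  have hx0 : A.valuation x ≠ 0 := (Valuation.ne_zero_iff _).mpr hx
  exact le_antisymm hi₁ ((inv_le_one₀ (zero_lt_iff.mpr hx0)).mp hi₂)

end Fermat.Agent.S55
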