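import Mathlib
import Fermat.Agent.S13.MinkNP
import Fermat.Agent.S55.Sha2Val

/-!
# S55, block SHA2 (part 3): valuation subrings of `ℚ̄` and primes of a number field `k ⊆ ℚ̄`

* `sha2_exists_conj` : two valuation subrings of `ℚ̄` cutting out the same prime of `𝓞 k` are
  conjugate under `Gal(ℚ̄/k)`;
* `sha2_exists_val` : every prime of `𝓞 k` is cut out by a valuation subring;
* `sha2_val_of_isOrd` : if `k` is unramified outside `S`, the order of `α ∈ k` at a valuation
  subring outside `S` is the adic valuation at the prime of `𝓞 k` it cuts out.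
-/

set_option autoImplicit false

open IsDedekindDomain NumberField
open scoped Pointwise

namespace Fermat.Agent.S55

local notation "Qb" => AlgebraicClosure ℚ
local notation "Γ" => (AlgebraicClosure ℚ ≃ₐ[ℚ] AlgebraicClosure ℚ)

open Fermat.Agent.S13.Mink in
attribute [local instance] instTopOQb instDiscOQb isAlgClosure_Qb isAlgebraic_tower normal_tower
  isGalois_tower

theorem sha2_isAlgebraic_int (x : Qb) : IsAlgebraic ℤ x :=
  (IsFractionRing.isAlgebraic_iff ℤ ℚ Qb).2 ((AlgebraicClosure.isAlgebraic ℚ).isAlgebraic x)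

/-- A valuation subring over `q` is determined by the algebraic integers in its maximal
ideal. -/
theorem sha2_le_of_nonunits (A B : ValuationSubring Qb) {q : ℕ} (hq : q.Prime)
    (hA : A.LiesOverPrime q)
    (h : ∀ b : Qb, IsIntegral ℤ b → b ∈ B.nonunits → b ∈ A.nonunits) : A ≤ B := by
  intro x hx
  obtain ⟨b, s, hb, hs, hsv, hxs⟩ :=
    Fermat.Agent.S13.Mink.exists_integral_frac A hq hA (sha2_isAlgebraic_int x) hx
  have hsB : s ∈ B := kum_integral_mem B s hs
  have hsnB : s ∉ B.nonunits := fun h' => by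
    have h1 := h s hs h'
    rw [ValuationSubring.mem_nonunits_iff, hsv] at h1
    exact lt_irrefl _ h1
  have hsvB : B.valuation s = 1 := (sha2_val_eq_one_iff B s).mpr ⟨hsB, hsnB⟩
  have hs0 : s ≠ 0 := by
    rintro rfl
    rw [map_zero] at hsvB
    exact zero_ne_one hsvB
  have hx' : x = b * s⁻¹ := by
    rw [← hxs, mul_assoc, mul_inv_cancel₀ hs0, mul_one]
  rw [hx', ← ValuationSubring.valuation_le_one_iff, map_mul, map_inv₀, hsvB, inv_one, mul_one,
    ValuationSubring.valuation_le_one_iff]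
  exact kum_integral_mem B b hb

section field

variable (k : IntermediateField ℚ Qb)

/-- Two valuation subrings of `ℚ̄` over `q` with the same centre on `𝓞 k` are conjugate under
`Gal(ℚ̄/k)`. -/
theorem sha2_exists_conj (A A' : ValuationSubring Qb) {q : ℕ} (hq : q.Prime)
    (hA : A.LiesOverPrime q) (hA' : A'.LiesOverPrime q)
    (h : ∀ x : 𝓞 k, ((x : k) : Qb) ∈ A.nonunits ↔ ((x : k) : Qb) ∈ A'.nonunits) :
    ∃ g : Γ, g ∈ k.fixingSubgroup ∧ A' = g • A := by
  have hunder : (Fermat.Agent.S13.Mink.primeOf A).under (𝓞 k) =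
      (Fermat.Agent.S13.Mink.primeOf A').under (𝓞 k) := by
    ext a
    rw [Ideal.under_def, Ideal.under_def, Ideal.mem_comap, Ideal.mem_comap,
      Fermat.Agent.S13.Mink.mem_primeOf, Fermat.Agent.S13.Mink.mem_primeOf]
    exact h a
  obtain ⟨g, hg⟩ := Fermat.Agent.S13.Mink.exists_smul_of_under_eq k
    (Fermat.Agent.S13.Mink.primeOf A) (Fermat.Agent.S13.Mink.primeOf A') hunder
  let g' : Γ := g.restrictScalars ℚ
  have hg' : g' ∈ k.fixingSubgroup := by
    rw [IntermediateField.mem_fixingSubgroup_iff]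
    intro x hx
    exact g.commutes ⟨x, hx⟩
  have key : ∀ b : Qb, IsIntegral ℤ b → (b ∈ A'.nonunits ↔ b ∈ (g' • A).nonunits) := by
    intro b hb
    let b' : 𝓞 Qb := ⟨b, hb⟩
    have h1 : b ∈ A'.nonunits ↔ b' ∈ Fermat.Agent.S13.Mink.primeOf A' :=
      (Fermat.Agent.S13.Mink.mem_primeOf A' b').symm
    rw [h1, hg, Ideal.mem_pointwise_smul_iff_inv_smul_mem, Fermat.Agent.S13.Mink.mem_primeOf,
      pt_mem_nonunits_smul_iff]
    rfl
  refine ⟨g', hg', le_antisymm ?_ ?_⟩
  · exact sha2_le_of_nonunits A' (g' • A) hq hA' (fun b hb hb' => (key b hb).mpr hb')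
  · exact sha2_le_of_nonunits (g' • A) A' hq (pt_liesOver_smul A g' q hA)
      (fun b hb hb' => (key b hb).mp hb')

variable [NumberField k]

omit [NumberField k] in
theorem sha2_exists_prime_mem (P : Ideal (𝓞 k)) [P.IsPrime] (n : ℕ) (hn : 0 < n)
    (h : (n : 𝓞 k) ∈ P) : ∃ q : ℕ, q.Prime ∧ (q : 𝓞 k) ∈ P := by
  induction n using Nat.strong_induction_on with
  | _ n ih =>
    have hn1 : n ≠ 1 := by
      rintro rfl
      rw [Nat.cast_one] at h
      exact (Ideal.ne_top_iff_one P).mp (Ideal.IsPrime.ne_top inferInstance) h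
    have hq : n.minFac.Prime := Nat.minFac_prime hn1
    obtain ⟨m, hm⟩ := Nat.minFac_dvd n
    have hm0 : 0 < m := by
      rcases Nat.eq_zero_or_pos m with h0 | h0
      · rw [h0, mul_zero] at hm; omega
      · exact h0
    have hmn : m < n := by
      have h2 : 2 ≤ n.minFac := hq.two_le
      nlinarith
    have h3 : ((n.minFac : ℕ) : 𝓞 k) * (m : 𝓞 k) ∈ P := by
      rw [← Nat.cast_mul, ← hm]
      exact h
    rcases Ideal.IsPrime.mem_or_mem inferInstance h3 with h4 | h4
    · exact ⟨n.minFac, hq, h4⟩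
    · exact ih m hmn hm0 h4

/-- Every prime of `𝓞 k` is cut out by a valuation subring of `ℚ̄`. -/
theorem sha2_exists_val (w : HeightOneSpectrum (𝓞 k)) :
    ∃ (q : ℕ) (hq : q.Prime) (A : ValuationSubring Qb) (hA : A.LiesOverPrime q),
      kum_prime k A q hq.ne_zero hA = w := by
  have := w.isPrime
  have hnorm : (Ideal.absNorm w.asIdeal : 𝓞 k) ∈ w.asIdeal := Ideal.absNorm_mem w.asIdeal
  have hnorm0 : 0 < Ideal.absNorm w.asIdeal :=
    Nat.pos_of_ne_zero (fun h0 => w.ne_bot (Ideal.absNorm_eq_zero_iff.mp h0))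
  obtain ⟨q, hq, hqw⟩ := sha2_exists_prime_mem k w.asIdeal _ hnorm0 hnorm
  let f : 𝓞 k →+* Qb := (algebraMap k Qb).comp (algebraMap (𝓞 k) k)
  have hf : Function.Injective f :=
    (algebraMap k Qb).injective.comp NumberField.RingOfIntegers.coe_injective
  obtain ⟨A, hAp⟩ := Fermat.Agent.S13.Mink.exists_valuationSubring_of_prime f hf w.asIdeal
  have hA : A.LiesOverPrime q := by
    have h1 := hAp _ hqw
    have h2 : f (q : 𝓞 k) = (q : Qb) := by simp
    rw [h2] at h1
    exact h1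
  refine ⟨q, hq, A, hA, ?_⟩
  apply HeightOneSpectrum.ext
  have hle : w.asIdeal ≤ (kum_prime k A q hq.ne_zero hA).asIdeal := by
    intro x hx
    rw [kum_mem_prime_iff]
    exact hAp x hx
  have hmax : w.asIdeal.IsMaximal := w.isMaximal
  exact (hmax.eq_of_le (kum_prime k A q hq.ne_zero hA).isPrime.ne_top hle).symm

variable (A : ValuationSubring Qb) (q : ℕ) (hq0 : q ≠ 0) (hA : A.LiesOverPrime q)

omit [NumberField k] in
theorem sha2_coe_natCast (n : ℕ) : (((n : 𝓞 k) : k) : Qb) = (n : Qb) := by simp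

/-- Elements of `k` in the maximal ideal of the prime cut out by `A` are nonunits of `A`. -/
theorem sha2_val_lt_one (y : k) (h : (kum_prime k A q hq0 hA).valuation k y < 1) :
    (y : Qb) ∈ A.nonunits := by
  obtain ⟨n, d, hnd⟩ := (kum_prime k A q hq0 hA).exists_primeCompl_mul_eq_of_integer y h.le
  have hdv : (kum_prime k A q hq0 hA).valuation k (algebraMap (𝓞 k) k (d : 𝓞 k)) = 1 := by
    refine le_antisymm ((kum_prime k A q hq0 hA).valuation_le_one _) (not_lt.mp fun hlt => ?_)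
    exact d.2 (((kum_prime k A q hq0 hA).valuation_lt_one_iff_mem _).mp hlt)
  have hnv : (kum_prime k A q hq0 hA).valuation k (algebraMap (𝓞 k) k n) < 1 := by
    rw [← hnd, map_mul, hdv, mul_one]
    exact h
  have hn : n ∈ (kum_prime k A q hq0 hA).asIdeal :=
    ((kum_prime k A q hq0 hA).valuation_lt_one_iff_mem _).mp hnv
  have hnA : (((n : 𝓞 k) : k) : Qb) ∈ A.nonunits := (kum_mem_prime_iff k A q hq0 hA n).mp hn
  have hdA : A.valuation ((((d : 𝓞 k) : 𝓞 k) : k) : Qb) = 1 := by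
    rw [sha2_val_eq_one_iff]
    exact ⟨kum_coe_integer_mem k A d, fun h2 => d.2 ((kum_mem_prime_iff k A q hq0 hA d).mpr h2)⟩
  have hnd' : (y : Qb) * ((((d : 𝓞 k) : 𝓞 k) : k) : Qb) = (((n : 𝓞 k) : k) : Qb) := by
    have := congrArg (fun t : k => (t : Qb)) hnd
    simpa using this
  rw [ValuationSubring.mem_nonunits_iff] at hnA ⊢
  rw [← hnd', map_mul, hdA, mul_one] at hnA
  exact hnA

/-- Units of `A` lying in `k` have adic valuation one at the prime cut out by `A`. -/
theorem sha2_val_eq_one_of_unit (y : k) (h : A.valuation (y : Qb) = 1) :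
    (kum_prime k A q hq0 hA).valuation k y = 1 := by
  rcases lt_trichotomy ((kum_prime k A q hq0 hA).valuation k y) 1 with h1 | h1 | h1
  · have h2 := sha2_val_lt_one k A q hq0 hA y h1
    rw [ValuationSubring.mem_nonunits_iff, h] at h2
    exact absurd h2 (lt_irrefl _)
  · exact h1
  · have hy0 : (kum_prime k A q hq0 hA).valuation k y ≠ 0 := (zero_lt_one.trans h1).ne'
    have h3 : (kum_prime k A q hq0 hA).valuation k y⁻¹ < 1 := by
      rw [map_inv₀]
      exact inv_lt_one_of_one_lt₀ h1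
    have h2 := sha2_val_lt_one k A q hq0 hA y⁻¹ h3
    have h4 : ((y⁻¹ : k) : Qb) = (y : Qb)⁻¹ := by simp
    rw [ValuationSubring.mem_nonunits_iff, h4, map_inv₀, h, inv_one] at h2
    exact absurd h2 (lt_irrefl _)

omit [NumberField k] in
/-- The prime cut out by a valuation subring over `q ∉ S` contains no prime of `S`. -/
theorem sha2_prime_outside (S : Finset Nat.Primes) (q' : Nat.Primes) (hq'S : q' ∉ S)
    (A' : ValuationSubring Qb) (hA' : A'.LiesOverPrime (q' : ℕ)) (l : Nat.Primes) (hl : l ∈ S) :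
    (((l : ℕ) : ℕ) : 𝓞 k) ∉ (kum_prime k A' (q' : ℕ) q'.2.ne_zero hA').asIdeal := by
  intro hmem
  have hne : l ≠ q' := fun h => hq'S (h ▸ hl)
  have h2 := (kum_mem_prime_iff k A' (q' : ℕ) q'.2.ne_zero hA' _).mp hmem
  rw [sha2_coe_natCast] at h2
  have hcop : IsCoprime ((l : ℕ) : ℤ) ((q' : ℕ) : ℤ) := by
    apply Nat.isCoprime_iff_coprime.mpr
    rw [Nat.coprime_primes l.2 q'.2]
    exact fun h => hne (Subtype.ext h)
  have h3 := sha2_val_int_eq_one A' hA' ((l : ℕ) : ℤ) hcop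
  rw [ValuationSubring.mem_nonunits_iff] at h2
  have h4 : (((l : ℕ) : ℤ) : Qb) = ((l : ℕ) : Qb) := by push_cast; rfl
  rw [h4] at h3
  rw [h3] at h2
  exact lt_irrefl _ h2

omit [NumberField k] in
/-- The rational prime below the prime cut out by `A` is determined by that prime. -/
theorem sha2_prime_eq {q₁ q₂ : ℕ} (hq₁ : q₁.Prime) (hq₂ : q₂.Prime) (A₁ A₂ : ValuationSubring Qb)
    (hA₁ : A₁.LiesOverPrime q₁) (hA₂ : A₂.LiesOverPrime q₂)
    (h : kum_prime k A₁ q₁ hq₁.ne_zero hA₁ = kum_prime k A₂ q₂ hq₂.ne_zero hA₂) : q₁ = q₂ := by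
  by_contra hne
  have hmem : ((q₂ : ℕ) : 𝓞 k) ∈ (kum_prime k A₂ q₂ hq₂.ne_zero hA₂).asIdeal := by
    rw [kum_mem_prime_iff, sha2_coe_natCast]
    exact hA₂
  rw [← h, kum_mem_prime_iff, sha2_coe_natCast] at hmem
  have hcop : IsCoprime ((q₂ : ℕ) : ℤ) ((q₁ : ℕ) : ℤ) := by
    apply Nat.isCoprime_iff_coprime.mpr
    rw [Nat.coprime_primes hq₂ hq₁]
    exact fun h => hne h.symm
  have h3 := sha2_val_int_eq_one A₁ hA₁ ((q₂ : ℕ) : ℤ) hcop
  rw [ValuationSubring.mem_nonunits_iff] at hmem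
  have h4 : (((q₂ : ℕ) : ℤ) : Qb) = ((q₂ : ℕ) : Qb) := by push_cast; rfl
  rw [h4] at h3
  rw [h3] at hmem
  exact lt_irrefl _ hmem

/-- If `k` is unramified outside `S`, then `q ∉ S` is a uniformiser at every prime of `k`
above `q`. -/
theorem sha2_val_q (S : Finset Nat.Primes) (hk : k.IsUnramifiedOutside S) (q' : Nat.Primes)
    (hq'S : q' ∉ S) (A' : ValuationSubring Qb) (hA' : A'.LiesOverPrime (q' : ℕ)) :
    (kum_prime k A' (q' : ℕ) q'.2.ne_zero hA').valuation k (((q' : ℕ) : ℕ) : k) =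
      WithZero.exp (-1 : ℤ) := by
  set v := kum_prime k A' (q' : ℕ) q'.2.ne_zero hA' with hv
  obtain ⟨π, hπ⟩ := v.valuation_exists_uniformizer k
  have hπ0 : π ≠ 0 := by
    rintro rfl
    rw [map_zero] at hπ
    exact WithZero.exp_ne_zero hπ.symm
  have hπ0' : (π : Qb) ≠ 0 := by exact_mod_cast hπ0
  obtain ⟨j, hj⟩ := sha2_exists_isOrd S k hk q' hq'S A' hA' (π : Qb) π.2 hπ0'
  rw [sha2_isOrd_iff A' q'.2] at hj
  have hcast : ((π * (((q' : ℕ) : ℕ) : k) ^ (-j) : k) : Qb) = (π : Qb) * ((q' : ℕ) : Qb) ^ (-j) := by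
    push_cast
    rfl
  have h1 : v.valuation k (π * (((q' : ℕ) : ℕ) : k) ^ (-j)) = 1 := by
    apply sha2_val_eq_one_of_unit
    rw [hcast]
    exact hj
  have hq0 : v.valuation k (((q' : ℕ) : ℕ) : k) ≠ 0 := by
    rw [Ne, Valuation.zero_iff]
    exact_mod_cast q'.2.ne_zero
  rw [map_mul, map_zpow₀, zpow_neg, mul_inv_eq_one₀ (zpow_ne_zero _ hq0), hπ] at h1
  have hlt : v.valuation k (((q' : ℕ) : ℕ) : k) < 1 := by
    have hmem : ((q' : ℕ) : 𝓞 k) ∈ v.asIdeal := by
      rw [hv, kum_mem_prime_iff, sha2_coe_natCast]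
      exact hA'
    have h2 := (v.valuation_lt_one_iff_mem (K := k) _).mpr hmem
    simpa using h2
  rw [← WithZero.exp_log hq0] at h1 hlt ⊢
  rw [← WithZero.exp_zsmul, WithZero.exp_inj] at h1
  rw [← WithZero.exp_zero, WithZero.exp_lt_exp] at hlt
  rw [smul_eq_mul] at h1
  have hdvd : (WithZero.log (v.valuation k (((q' : ℕ) : ℕ) : k))) ∣ 1 := ⟨-j, by linarith⟩
  rcases Int.isUnit_iff.mp (isUnit_of_dvd_one hdvd) with h5 | h5
  · rw [h5] at hlt
    exact absurd hlt (by norm_num)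
  · rw [h5]

/-- If `k` is unramified outside `S`, orders at valuation subrings outside `S` of elements of
`k` are the adic valuations at the primes of `𝓞 k` they cut out. -/
theorem sha2_val_of_isOrd (S : Finset Nat.Primes) (hk : k.IsUnramifiedOutside S)
    (q' : Nat.Primes) (hq'S : q' ∉ S) (A' : ValuationSubring Qb)
    (hA' : A'.LiesOverPrime (q' : ℕ)) (α : k) (m : ℤ) (h : sha2_IsOrd A' (q' : ℕ) (α : Qb) m) :
    (kum_prime k A' (q' : ℕ) q'.2.ne_zero hA').valuation k α = WithZero.exp (-m) := by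
  rw [sha2_isOrd_iff A' q'.2] at h
  have hcast : ((α * (((q' : ℕ) : ℕ) : k) ^ (-m) : k) : Qb) = (α : Qb) * ((q' : ℕ) : Qb) ^ (-m) := by
    push_cast
    rfl
  have h1 : (kum_prime k A' (q' : ℕ) q'.2.ne_zero hA').valuation k
      (α * (((q' : ℕ) : ℕ) : k) ^ (-m)) = 1 := by
    apply sha2_val_eq_one_of_unit
    rw [hcast]
    exact h
  have hq0 : (kum_prime k A' (q' : ℕ) q'.2.ne_zero hA').valuation k (((q' : ℕ) : ℕ) : k) ≠ 0 := by
    rw [Ne, Valuation.zero_iff]
    exact_mod_cast q'.2.ne_zero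
  rw [map_mul, map_zpow₀, zpow_neg, mul_inv_eq_one₀ (zpow_ne_zero _ hq0),
    sha2_val_q k S hk q' hq'S A' hA', ← WithZero.exp_zsmul, smul_eq_mul, mul_neg, mul_one] at h1
  exact h1

end field

end Fermat.Agent.S55
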