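import Mathlib
import Fermat.Agent.S55.Sha2Place
import Fermat.Agent.S55.Sha2Kum

/-!
# S55, block SHA2 (part 5): the dependence theorem

`U = Gal(ℚ̄/k)`, `k` unramified outside `S ∋ p`, `ζ ∈ k` a primitive `p`-th root of unity.

`sha2_dep` : given the class-group bound `sha2_ClBound p S k r` ("any `r + 1` divisors mod `p`
are dependent modulo principal divisors and `S`"), any `r + 1` finite-level cochains
`b i : U → ZMod p` with `S`-level coboundary satisfy a nontrivial relation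
`∑ n i • b i = χ + t` with `χ` a finite-level homomorphism and `t` an `S`-level cochain.
-/

set_option autoImplicit false

open ExtCitation IsDedekindDomain NumberField
open scoped Pointwise

namespace Fermat.Agent.S55

local notation "Qb" => AlgebraicClosure ℚ
local notation "Γ" => (AlgebraicClosure ℚ ≃ₐ[ℚ] AlgebraicClosure ℚ)

attribute [local instance] pt_qbar_isAlgebraic pt_qbar_isAlgClosure pt_qbar_isGalois

/-- (Hρ): any `r + 1` divisors mod `p` of `k` are dependent modulo principal divisors, outside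
`S`. -/
def sha2_ClBound (p : ℕ) (S : Finset Nat.Primes) (k : IntermediateField ℚ Qb) [NumberField k]
    (r : ℕ) : Prop :=
  ∀ D : Fin (r + 1) → HeightOneSpectrum (𝓞 k) → ZMod p, (∀ i, {w | D i w ≠ 0}.Finite) →
    ∃ n : Fin (r + 1) → ZMod p, n ≠ 0 ∧ ∃ α : kˣ, ∀ w : HeightOneSpectrum (𝓞 k),
      (∀ l : Nat.Primes, l ∈ S → (((l : ℕ) : ℕ) : 𝓞 k) ∉ w.asIdeal) →
      ∃ m : ℤ, w.valuation k (α : k) = WithZero.exp (-m) ∧ ∑ i, n i * D i w = (m : ZMod p)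

theorem sha2_iSup (S : Finset Nat.Primes) {ι : Type*} [Finite ι]
    (F : ι → IntermediateField ℚ Qb) (hF : ∀ i, (F i).IsUnramifiedOutside S) :
    (⨆ i, F i).IsUnramifiedOutside S := by
  have : ∀ i, FiniteDimensional ℚ (F i) := fun i => (hF i).1
  refine ⟨IntermediateField.finiteDimensional_iSup_of_finite, fun q hq A hA => ?_⟩
  rw [← IntermediateField.le_iff_le]
  exact iSup_le fun i => (IntermediateField.le_iff_le _ _).mpr ((hF i).2 q hq A hA)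

/-- Orders mod `p` of an element of `L₀` that is `Gal(ℚ̄/k)`-invariant modulo `p`-th powers are
constant on `Gal(ℚ̄/k)`-orbits of valuation subrings. -/
theorem sha2_ord_conj_mod (p : ℕ) (S : Finset Nat.Primes) (k L₀ : IntermediateField ℚ Qb)
    (hL₀ : L₀.IsUnramifiedOutside S) (x : Qb)
    (hinv : ∀ g : Γ, g ∈ k.fixingSubgroup → ∃ c : Qb, c ∈ L₀ ∧ c ≠ 0 ∧ g x = x * c ^ p)
    (q : Nat.Primes) (hqS : q ∉ S) (A : ValuationSubring Qb) (hA : A.LiesOverPrime (q : ℕ))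
    (g : Γ) (hg : g ∈ k.fixingSubgroup) (m m' : ℤ) (h : sha2_IsOrd A (q : ℕ) x m)
    (h' : sha2_IsOrd (g • A) (q : ℕ) x m') : (m : ZMod p) = (m' : ZMod p) := by
  rw [sha2_isOrd_smul_iff A q.2] at h'
  obtain ⟨c, hcL, hc0, hgc⟩ := hinv g⁻¹ (inv_mem hg)
  rw [hgc] at h'
  obtain ⟨j, hj⟩ := sha2_exists_isOrd S L₀ hL₀ q hqS A hA c hcL hc0
  have h2 := sha2_isOrd_mul A q.2 h (sha2_isOrd_pow A hj p)
  have h3 := sha2_isOrd_unique A q.2 hA h' h2
  rw [h3]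
  push_cast
  simp

/-- The divisor mod `p` on `k` of an element of `L₀` invariant modulo `p`-th powers. -/
theorem sha2_exists_div (p : ℕ) (S : Finset Nat.Primes) (k : IntermediateField ℚ Qb)
    [NumberField k] (L₀ : IntermediateField ℚ Qb) (hL₀ : L₀.IsUnramifiedOutside S) (x : Qb)
    (hxL : x ∈ L₀) (hx0 : x ≠ 0)
    (hinv : ∀ g : Γ, g ∈ k.fixingSubgroup → ∃ c : Qb, c ∈ L₀ ∧ c ≠ 0 ∧ g x = x * c ^ p) :
    ∃ D : HeightOneSpectrum (𝓞 k) → ZMod p, {w | D w ≠ 0}.Finite ∧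
      ∀ (q : Nat.Primes) (_ : q ∉ S) (A : ValuationSubring Qb) (hA : A.LiesOverPrime (q : ℕ))
        (m : ℤ), sha2_IsOrd A (q : ℕ) x m →
          (m : ZMod p) = D (kum_prime k A (q : ℕ) q.2.ne_zero hA) := by
  classical
  have hex : ∀ w : HeightOneSpectrum (𝓞 k), ∃ d : ZMod p,
      ∀ (q : Nat.Primes) (_ : q ∉ S) (A : ValuationSubring Qb) (hA : A.LiesOverPrime (q : ℕ)),
        kum_prime k A (q : ℕ) q.2.ne_zero hA = w → ∀ m : ℤ, sha2_IsOrd A (q : ℕ) x m →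
          (m : ZMod p) = d := by
    intro w
    obtain ⟨q₀, hq₀, A₀, hA₀, hw⟩ := sha2_exists_val k w
    by_cases hq₀S : (⟨q₀, hq₀⟩ : Nat.Primes) ∈ S
    · refine ⟨0, fun q hqS A hA hwA m _ => ?_⟩
      exfalso
      have hqq : (q : ℕ) = q₀ := sha2_prime_eq k q.2 hq₀ A A₀ hA hA₀ (hwA.trans hw.symm)
      have : q = ⟨q₀, hq₀⟩ := Subtype.ext hqq
      exact hqS (this ▸ hq₀S)
    · obtain ⟨m₀, hm₀⟩ := sha2_exists_isOrd S L₀ hL₀ ⟨q₀, hq₀⟩ hq₀S A₀ hA₀ x hxL hx0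
      refine ⟨m₀, fun q hqS A hA hwA m hm => ?_⟩
      have hqq : (q : ℕ) = q₀ := sha2_prime_eq k q.2 hq₀ A A₀ hA hA₀ (hwA.trans hw.symm)
      have hq : q = ⟨q₀, hq₀⟩ := Subtype.ext hqq
      subst hq
      have hnon : ∀ y : 𝓞 k, ((y : k) : Qb) ∈ A₀.nonunits ↔ ((y : k) : Qb) ∈ A.nonunits := by
        intro y
        rw [← kum_mem_prime_iff k A₀ q₀ hq₀.ne_zero hA₀, ← kum_mem_prime_iff k A q₀ hq₀.ne_zero hA,
          hw, hwA]
      obtain ⟨g, hg, rfl⟩ := sha2_exists_conj k A₀ A hq₀ hA₀ hA hnon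
      exact (sha2_ord_conj_mod p S k L₀ hL₀ x hinv ⟨q₀, hq₀⟩ hq₀S A₀ hA₀ g hg m₀ m hm₀ hm).symm
  choose D₀ hD₀ using hex
  refine ⟨fun w => if (∀ l : Nat.Primes, l ∈ S → (((l : ℕ) : ℕ) : 𝓞 k) ∉ w.asIdeal) then D₀ w
    else 0, ?_, ?_⟩
  · obtain ⟨d, hd0, hd⟩ := sha2_unit_away x hx0
    have hdk : ((d : ℤ) : 𝓞 k) ≠ 0 := by exact_mod_cast hd0
    have hfin := Ideal.finite_factors (R := 𝓞 k) (I := Ideal.span {((d : ℤ) : 𝓞 k)})
      (by rw [Ne, Ideal.zero_eq_bot, Ideal.span_singleton_eq_bot]; exact hdk)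
    refine hfin.subset ?_
    intro w hwne
    change (if (∀ l : Nat.Primes, l ∈ S → (((l : ℕ) : ℕ) : 𝓞 k) ∉ w.asIdeal) then D₀ w
      else 0) ≠ 0 at hwne
    change w.asIdeal ∣ Ideal.span {((d : ℤ) : 𝓞 k)}
    rw [Ideal.dvd_span_singleton]
    by_cases hout : ∀ l : Nat.Primes, l ∈ S → (((l : ℕ) : ℕ) : 𝓞 k) ∉ w.asIdeal
    · rw [if_pos hout] at hwne
      obtain ⟨q₀, hq₀, A₀, hA₀, hw⟩ := sha2_exists_val k w
      have hq₀w : ((q₀ : ℕ) : 𝓞 k) ∈ w.asIdeal := by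
        rw [← hw, kum_mem_prime_iff, sha2_coe_natCast]
        exact hA₀
      have hq₀S : (⟨q₀, hq₀⟩ : Nat.Primes) ∉ S := fun h => hout ⟨q₀, hq₀⟩ h hq₀w
      by_contra hdw
      have hndvd : ¬ ((q₀ : ℤ) ∣ d) := by
        rintro ⟨c, rfl⟩
        apply hdw
        push_cast
        exact Ideal.mul_mem_right _ _ hq₀w
      have h1 := hd q₀ hq₀ hndvd A₀ hA₀
      have h2 := hD₀ w ⟨q₀, hq₀⟩ hq₀S A₀ hA₀ hw 0 (sha2_isOrd_of_unit A₀ q₀ h1)
      apply hwne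
      rw [← h2]
      simp
    · rw [if_neg hout] at hwne
      exact absurd rfl hwne
  · intro q hqS A hA m hm
    change (m : ZMod p) = if (∀ l : Nat.Primes, l ∈ S →
      (((l : ℕ) : ℕ) : 𝓞 k) ∉ (kum_prime k A (q : ℕ) q.2.ne_zero hA).asIdeal) then
        D₀ (kum_prime k A (q : ℕ) q.2.ne_zero hA) else 0
    rw [if_pos (sha2_prime_outside k S q hqS A hA)]
    exact hD₀ _ q hqS A hA rfl m hm

/-- **SHA2, dependence theorem.** -/
theorem sha2_dep (p : ℕ) [Fact p.Prime] (S : Finset Nat.Primes) (hpS : pPrime p ∈ S)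
    (k : IntermediateField ℚ Qb) [NumberField k] (hk : k.IsUnramifiedOutside S)
    (ζ : Qbˣ) (hζk : (ζ : Qb) ∈ k) (hζ : IsPrimitiveRoot ζ p)
    (r : ℕ) (hr : sha2_ClBound p S k r)
    (b : Fin (r + 1) → ↥k.fixingSubgroup → ZMod p)
    (hfin : ∀ i, ∃ M : IntermediateField ℚ Qb, FiniteDimensional ℚ M ∧
      ∀ g s : ↥k.fixingSubgroup, (s : Γ) ∈ M.fixingSubgroup → b i (g * s) = b i g)
    (hlev : ∀ i, ∃ F : IntermediateField ℚ Qb, F.IsUnramifiedOutside S ∧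
      sha2_dLev (F.fixingSubgroup.subgroupOf k.fixingSubgroup) (b i)) :
    ∃ n : Fin (r + 1) → ZMod p, n ≠ 0 ∧ ∃ χ t : ↥k.fixingSubgroup → ZMod p,
      (∀ g h, χ (g * h) = χ g + χ h) ∧
      (∃ M : IntermediateField ℚ Qb, FiniteDimensional ℚ M ∧
        ∀ g s : ↥k.fixingSubgroup, (s : Γ) ∈ M.fixingSubgroup → χ (g * s) = χ g) ∧
      (∃ F : IntermediateField ℚ Qb, F.IsUnramifiedOutside S ∧
        ∀ g s : ↥k.fixingSubgroup, (s : Γ) ∈ F.fixingSubgroup → t (g * s) = t g) ∧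
      ∀ g, ∑ i, n i * b i g = χ g + t g := by
  classical
  have hp : p ≠ 0 := (Fact.out : p.Prime).ne_zero
  have hζp : ζ ^ p = 1 := hζ.pow_eq_one
  have hz : IsPrimitiveRoot (ζ : Qb) p := IsPrimitiveRoot.coe_units_iff.mpr hζ
  have hzp : (ζ : Qb) ^ p = 1 := hz.pow_eq_one
  choose F hF hFb using hlev
  have hsup : (k ⊔ ⨆ i, F i).IsUnramifiedOutside S := hk.sup (sha2_iSup S F hF)
  obtain ⟨L₀, hL₀, hgal, hle⟩ := pt_exists_galois_level S _ hsup
  have hkL : k ≤ L₀ := le_sup_left.trans hle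
  have hFL : ∀ i, F i ≤ L₀ := fun i => (le_iSup F i).trans (le_sup_right.trans hle)
  have hb : ∀ i, sha2_dLev (L₀.fixingSubgroup.subgroupOf k.fixingSubgroup) (b i) := fun i =>
    sha2_dLev_mono (fun s hs => by
      rw [Subgroup.mem_subgroupOf] at hs ⊢
      exact IntermediateField.fixingSubgroup_antitone (hFL i) hs) (hFb i)
  choose ϑ hϑL hϑact hϑinv using fun i =>
    sha2_exists_kummer p k ζ hζk hζp L₀ hkL hgal (b i) (hfin i) (hb i)
  have hϑ0 : ∀ i, (ϑ i : Qb) ≠ 0 := fun i => Units.ne_zero _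
  have hθinv : ∀ i, ∀ g : Γ, g ∈ k.fixingSubgroup → ∃ c : Qb, c ∈ L₀ ∧ c ≠ 0 ∧
      g ((ϑ i : Qb) ^ p) = (ϑ i : Qb) ^ p * c ^ p := by
    intro i g hg
    refine ⟨g (ϑ i : Qb) / ϑ i, hϑinv i ⟨g, hg⟩,
      div_ne_zero ((map_ne_zero _).mpr (hϑ0 i)) (hϑ0 i), ?_⟩
    rw [map_pow, div_pow, mul_div_cancel₀ _ (pow_ne_zero _ (hϑ0 i))]
  choose D hDfin hD using fun i =>
    sha2_exists_div p S k L₀ hL₀ ((ϑ i : Qb) ^ p) (hϑL i) (pow_ne_zero _ (hϑ0 i)) (hθinv i)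
  obtain ⟨n, hn0, α, hα⟩ := hr D hDfin
  have hα0 : ((α : k) : Qb) ≠ 0 := by
    have : (α : k) ≠ 0 := Units.ne_zero α
    exact_mod_cast this
  obtain ⟨a, ha⟩ := IsAlgClosed.exists_pow_nat_eq ((α : k) : Qb) (Nat.pos_of_ne_zero hp)
  have ha0 : a ≠ 0 := by
    rintro rfl
    rw [zero_pow hp] at ha
    exact hα0 ha.symm
  have hak : a ^ p ∈ k := by rw [ha]; exact (α : k).2
  obtain ⟨χ, hχadd, hχfin, hχ⟩ := sha2_exists_char p k (ζ : Qb) hζk hz a ha0 hak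
  set T : Qb := (∏ i, (ϑ i : Qb) ^ (n i).val) / a with hT
  have hT0 : T ≠ 0 :=
    div_ne_zero (Finset.prod_ne_zero_iff.mpr fun i _ => pow_ne_zero _ (hϑ0 i)) ha0
  have hTp : T ^ p = (∏ i, ((ϑ i : Qb) ^ p) ^ (n i).val) / ((α : k) : Qb) := by
    rw [hT, div_pow, ha, ← Finset.prod_pow]
    congr 1
    apply Finset.prod_congr rfl
    intro i _
    rw [← pow_mul, ← pow_mul, mul_comm]
  have hTL : T ^ p ^ 1 ∈ L₀ := by
    rw [pow_one, hTp]
    exact div_mem (prod_mem fun i _ => pow_mem (hϑL i) _) (hkL (α : k).2)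
  have hunr : (L₀ ⊔ IntermediateField.adjoin ℚ {T}).IsUnramifiedOutside S := by
    refine kum_isUnramifiedOutside p S hpS L₀ hL₀ 1 T hTL ?_
    intro q hqS A hA
    have hex : ∀ i, ∃ m : ℤ, sha2_IsOrd A (q : ℕ) ((ϑ i : Qb) ^ p) m := fun i =>
      sha2_exists_isOrd S L₀ hL₀ q hqS A hA _ (hϑL i) (pow_ne_zero _ (hϑ0 i))
    choose m hm using hex
    obtain ⟨mα, hmα⟩ := sha2_exists_isOrd S k hk q hqS A hA ((α : k) : Qb) (α : k).2 hα0
    have hvα := sha2_val_of_isOrd k S hk q hqS A hA (α : k) mα hmα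
    obtain ⟨m', hm'1, hm'2⟩ := hα (kum_prime k A (q : ℕ) q.2.ne_zero hA)
      (sha2_prime_outside k S q hqS A hA)
    have hmm : m' = mα := by
      rw [hvα] at hm'1
      have h1 := WithZero.exp_injective hm'1
      omega
    have hord : sha2_IsOrd A (q : ℕ) (T ^ p) (∑ i, ((n i).val : ℤ) * m i + -mα) := by
      rw [hTp, div_eq_mul_inv]
      exact sha2_isOrd_mul A q.2
        (sha2_isOrd_prod A q.2 _ _ _ (fun i _ => sha2_isOrd_pow A (hm i) _))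
        (sha2_isOrd_inv A hmα)
    have hdvd : (p : ℤ) ∣ ∑ i, ((n i).val : ℤ) * m i + -mα := by
      rw [← ZMod.intCast_zmod_eq_zero_iff_dvd]
      push_cast
      rw [← hmm, ← hm'2, ← sub_eq_add_neg, sub_eq_zero]
      apply Finset.sum_congr rfl
      intro i _
      rw [ZMod.natCast_zmod_val, hD i q hqS A hA (m i) (hm i)]
    obtain ⟨j, hj⟩ := hdvd
    have hq0 : ((q : ℕ) : Qb) ≠ 0 := Nat.cast_ne_zero.mpr q.2.ne_zero
    refine ⟨((q : ℕ) : Qb) ^ (-j), zpow_mem (natCast_mem L₀ (q : ℕ)) _, zpow_ne_zero _ hq0, ?_⟩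
    have h1 : A.valuation ((T * ((q : ℕ) : Qb) ^ (-j)) ^ p) = 1 := by
      rw [hj, sha2_isOrd_iff A q.2] at hord
      rw [mul_pow, ← zpow_natCast (((q : ℕ) : Qb) ^ (-j)) p, ← zpow_mul]
      have e : -j * (p : ℤ) = -((p : ℤ) * j) := by ring
      rw [e]
      exact hord
    have h2 := (sha2_val_eq_one_iff A _).mp h1
    have h3 : ((T * ((q : ℕ) : Qb) ^ (-j)) ^ p)⁻¹ ∈ A := by
      rw [← ValuationSubring.valuation_le_one_iff, map_inv₀, h1, inv_one]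
    exact kum_unit_of_pow A p hp _ h2.1 h3
  refine ⟨n, hn0, χ, fun g => ∑ i, n i * b i g - χ g, hχadd, hχfin,
    ⟨L₀ ⊔ IntermediateField.adjoin ℚ {T}, hunr, ?_⟩, fun g => by ring⟩
  intro g s hs
  rw [IntermediateField.fixingSubgroup_sup] at hs
  obtain ⟨hsL, hsT⟩ := hs
  have hsT' : (s : Γ) T = T :=
    (IntermediateField.mem_fixingSubgroup_iff _ _).mp hsT T
      (IntermediateField.mem_adjoin_simple_self ℚ T)
  have hsϑ : ∀ i, (s : Γ) (ϑ i : Qb) = (ζ : Qb) ^ (b i s - b i 1).val * ϑ i := fun i =>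
    hϑact i s hsL
  have hsa := hχ s
  have key : (ζ : Qb) ^ (∑ i, n i * (b i s - b i 1) + -χ s).val = 1 := by
    have h1 : (s : Γ) T = ((ζ : Qb) ^ (∑ i, n i * (b i s - b i 1) + -χ s).val) * T := by
      rw [hT, map_div₀, map_prod, hsa]
      simp only [map_pow, hsϑ]
      rw [sha2_E_add hzp, sha2_E_neg hzp, sha2_E_sum hzp]
      simp only [sha2_E_mul hzp, mul_pow]
      rw [Finset.prod_mul_distrib]
      have hζ0 : (ζ : Qb) ^ (χ s).val ≠ 0 := pow_ne_zero _ (Units.ne_zero ζ)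
      field_simp
    rw [hsT'] at h1
    have h2 : (1 : Qb) * T = (ζ : Qb) ^ (∑ i, n i * (b i s - b i 1) + -χ s).val * T := by
      rw [one_mul]; exact h1
    exact (mul_right_cancel₀ hT0 h2).symm
  have h0 := sha2_E_eq_one hz _ key
  show ∑ i, n i * b i (g * s) - χ (g * s) = ∑ i, n i * b i g - χ g
  have hadd : ∀ i, b i (g * s) = b i g + (b i s - b i 1) := fun i => by
    have := sha2_add_right (hb i) g (s := s) (Subgroup.mem_subgroupOf.mpr hsL)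
    linear_combination this
  rw [hχadd]
  simp only [hadd, mul_add, Finset.sum_add_distrib]
  linear_combination h0

end Fermat.Agent.S55
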