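import Mathlib
import Fermat.Agent.S55.Sha2Main
import Fermat.Agent.S55.Sha2Lin
import Fermat.Agent.S55.ShapLevel
import Fermat.Agent.S55.IfaceHc

/-!
# S55, block SHA2 (part 7): the `[G2]` input of the base case

`U = Gal(ℚ̄/k)`, trivial coefficients `ZMod p`, levels `shapLevSub (pt_globalLev S) U`.

* `sha2_prim_of_qbar` : a `ZMod p`-valued 2-cochain `a` on `U` with `ζ ^ a = d c` for a
  finite-level cochain `c : U → ℚ̄ˣ` is the coboundary of a finite-level `ZMod p`-valued cochain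
  (Hilbert 90 for `c ^ p`);
* `sha2_exists_delta` : there is a subspace `R` of level 2-cochains with `finrank R ≤ r` such that
  every level 2-cochain `a` with `ζ ^ a = d c` (`c` finite-level, `ℚ̄ˣ`-valued) lies in
  `R + d (level 1-cochains)`.
-/

set_option autoImplicit false

open ExtCitation IsDedekindDomain NumberField

namespace Fermat.Agent.S55

local notation "Qb" => AlgebraicClosure ℚ
local notation "Γ" => (AlgebraicClosure ℚ ≃ₐ[ℚ] AlgebraicClosure ℚ)

attribute [local instance] pt_qbar_isAlgebraic pt_qbar_isAlgClosure pt_qbar_isGalois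

/-- Hilbert 90 glue: from a `ℚ̄ˣ`-valued finite-level primitive of `ζ ^ a` to a `ZMod p`-valued
finite-level primitive of `a`. -/
theorem sha2_prim_of_qbar (p : ℕ) [Fact p.Prime] (k : IntermediateField ℚ Qb) (ζ : Qbˣ)
    (hζk : (ζ : Qb) ∈ k) (hζ : IsPrimitiveRoot ζ p)
    (a : ↥k.fixingSubgroup × ↥k.fixingSubgroup → ZMod p) (c : ↥k.fixingSubgroup → Qbˣ)
    (hc : ∃ M : IntermediateField ℚ Qb, FiniteDimensional ℚ M ∧
      ∀ g s : ↥k.fixingSubgroup, (s : Γ) ∈ M.fixingSubgroup → c (g * s) = c g)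
    (hca : ∀ g h : ↥k.fixingSubgroup,
      c g * Units.map (((g : Γ) : Qb ≃ₐ[ℚ] Qb) : Qb →* Qb) (c h) =
        ζ ^ (a (g, h)).val * c (g * h)) :
    ∃ b : ↥k.fixingSubgroup → ZMod p,
      (∃ M : IntermediateField ℚ Qb, FiniteDimensional ℚ M ∧
        ∀ g s : ↥k.fixingSubgroup, (s : Γ) ∈ M.fixingSubgroup → b (g * s) = b g) ∧
      ∀ g h, b h - b (g * h) + b g = a (g, h) := by
  have hp : p ≠ 0 := (Fact.out : p.Prime).ne_zero
  have hζp : ζ ^ p = 1 := hζ.pow_eq_one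
  have hz : IsPrimitiveRoot (ζ : Qb) p := IsPrimitiveRoot.coe_units_iff.mpr hζ
  have hzp : (ζ : Qb) ^ p = 1 := hz.pow_eq_one
  have hzfix : ∀ g : ↥k.fixingSubgroup, (g : Γ) (ζ : Qb) = ζ := fun g =>
    (IntermediateField.mem_fixingSubgroup_iff k g).mp g.2 _ hζk
  obtain ⟨M, hMfin, hM⟩ := hc
  -- Hilbert 90 for `c ^ p`
  obtain ⟨β, hβ⟩ := linf_descent k.fixingSubgroup.subtype k (fun g => c g ^ p)
    ⟨M, hMfin, fun g s hs => by simp only [hM g s hs]⟩
    (fun g h _ _ => by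
      have h1 := congrArg (fun u : Qbˣ => u ^ p) (hca g h)
      simp only [mul_pow, ← pow_mul] at h1
      rw [mul_comm _ p, pow_mul, hζp, one_pow, one_mul] at h1
      rw [← h1, map_pow]
      rfl)
  have hβ' : ∀ g : ↥k.fixingSubgroup, ((c g : Qbˣ) : Qb) ^ p = (g : Γ) (β : Qb) / β := by
    intro g
    have h1 := congrArg Units.val (hβ g g.2)
    simpa using h1
  have hca' : ∀ g h : ↥k.fixingSubgroup, ((c g : Qbˣ) : Qb) * (g : Γ) ((c h : Qbˣ) : Qb) =
      (ζ : Qb) ^ (a (g, h)).val * ((c (g * h) : Qbˣ) : Qb) := by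
    intro g h
    have h1 := congrArg Units.val (hca g h)
    simpa using h1
  obtain ⟨x, hx⟩ := IsAlgClosed.exists_pow_nat_eq (β : Qb) (Nat.pos_of_ne_zero hp)
  have hx0 : x ≠ 0 := by
    rintro rfl
    rw [zero_pow hp] at hx
    exact Units.ne_zero β hx.symm
  have hgx0 : ∀ g : ↥k.fixingSubgroup, (g : Γ) x ≠ 0 := fun g => (map_ne_zero _).mpr hx0
  have hc0 : ∀ g : ↥k.fixingSubgroup, ((c g : Qbˣ) : Qb) ≠ 0 := fun g => Units.ne_zero _
  have hβ0 : (β : Qb) ≠ 0 := Units.ne_zero β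
  -- the `μ_p`-valued cochain
  have hup : ∀ g : ↥k.fixingSubgroup, (((c g : Qbˣ) : Qb) * x / (g : Γ) x) ^ p = 1 := by
    intro g
    have hgβ0 : (g : Γ) (β : Qb) ≠ 0 := (map_ne_zero _).mpr hβ0
    rw [div_pow, mul_pow, hβ' g, ← map_pow, hx]
    field_simp
  have hex : ∀ g : ↥k.fixingSubgroup, ∃ i < p,
      (ζ : Qb) ^ i = ((c g : Qbˣ) : Qb) * x / (g : Γ) x := fun g =>
    hz.eq_pow_of_pow_eq_one (hup g)
  choose i hi hi' using hex
  have hb : ∀ g : ↥k.fixingSubgroup,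
      (ζ : Qb) ^ ((i g : ZMod p)).val = ((c g : Qbˣ) : Qb) * x / (g : Γ) x := by
    intro g
    rw [ZMod.val_cast_of_lt (hi g), hi' g]
  refine ⟨fun g => (i g : ZMod p), ?_, fun g h => ?_⟩
  · have hint : IsIntegral ℚ x := (AlgebraicClosure.isAlgebraic ℚ).isIntegral.1 x
    have : FiniteDimensional ℚ (IntermediateField.adjoin ℚ {x}) :=
      IntermediateField.adjoin.finiteDimensional hint
    refine ⟨M ⊔ IntermediateField.adjoin ℚ {x}, IntermediateField.finiteDimensional_sup M _,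
      fun g s hs => ?_⟩
    rw [IntermediateField.fixingSubgroup_sup] at hs
    obtain ⟨hsM, hsx⟩ := hs
    have hsx' : (s : Γ) x = x :=
      (IntermediateField.mem_fixingSubgroup_iff _ _).mp hsx x
        (IntermediateField.mem_adjoin_simple_self ℚ x)
    apply sha2_E_inj hz
    rw [hb (g * s), hb g, hM g s hsM]
    have h1 : ((g * s : ↥k.fixingSubgroup) : Γ) x = (g : Γ) ((s : Γ) x) := rfl
    rw [h1, hsx']
  · apply sha2_E_inj hz
    have e : (i h : ZMod p) - (i (g * h) : ZMod p) + (i g : ZMod p) =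
        (i h : ZMod p) + (-(i (g * h) : ZMod p) + (i g : ZMod p)) := by ring
    rw [e, sha2_E_add hzp, sha2_E_add hzp, sha2_E_neg hzp, hb h, hb (g * h), hb g]
    -- `g` fixes the value at `h`
    have hfix : (g : Γ) (((c h : Qbˣ) : Qb) * x / (h : Γ) x) =
        ((c h : Qbˣ) : Qb) * x / (h : Γ) x := by
      rw [← hb h, map_pow, hzfix]
    have h1 : ((g * h : ↥k.fixingSubgroup) : Γ) x = (g : Γ) ((h : Γ) x) := rfl
    have hghx0 : (g : Γ) ((h : Γ) x) ≠ 0 := (map_ne_zero _).mpr (hgx0 h)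
    rw [map_div₀, map_mul] at hfix
    have h2 := hca' g h
    rw [h1]
    have hcgh0 := hc0 (g * h)
    have hζa0 : (ζ : Qb) ^ (a (g, h)).val ≠ 0 := pow_ne_zero _ (Units.ne_zero ζ)
    -- LHS = (c h x / h x) * (c (gh) x / g h x)⁻¹ * (c g x / g x)
    rw [← hfix]
    have hgch : (g : Γ) ((c h : Qbˣ) : Qb) =
        (ζ : Qb) ^ (a (g, h)).val * ((c (g * h) : Qbˣ) : Qb) / ((c g : Qbˣ) : Qb) := by
      rw [eq_div_iff (hc0 g), mul_comm]
      exact h2
    rw [hgch]
    have := hgx0 g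
    have := hc0 g
    field_simp

section delta

variable (p : ℕ) [Fact p.Prime] (S : Finset Nat.Primes) (U : Subgroup Γ)

/-- Level 2-cochains on `U` (trivial coefficients) that are coboundaries of finite-level
1-cochains. -/
def sha2_D : Submodule (ZMod p)
    (hc_C2 (shapLevSub (pt_globalLev S) U) (Representation.trivial (ZMod p) ↥U (ZMod p))) where
  carrier := {a | ∃ b : ↥U → ZMod p,
    (∃ M : IntermediateField ℚ Qb, FiniteDimensional ℚ M ∧
      ∀ g s : ↥U, (s : Γ) ∈ M.fixingSubgroup → b (g * s) = b g) ∧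
    ∀ g h, b h - b (g * h) + b g = (a : ↥U × ↥U → ZMod p) (g, h)}
  zero_mem' := ⟨0, ⟨⊥, inferInstance, fun _ _ _ => rfl⟩, fun _ _ => by simp⟩
  add_mem' := by
    rintro a₁ a₂ ⟨b₁, ⟨M₁, hM₁, h₁⟩, hb₁⟩ ⟨b₂, ⟨M₂, hM₂, h₂⟩, hb₂⟩
    refine ⟨b₁ + b₂, ⟨M₁ ⊔ M₂, IntermediateField.finiteDimensional_sup M₁ M₂, fun g s hs => ?_⟩,
      fun g h => ?_⟩
    · rw [IntermediateField.fixingSubgroup_sup] at hs
      simp only [Pi.add_apply, h₁ g s hs.1, h₂ g s hs.2]
    · simp only [Pi.add_apply, Submodule.coe_add, ← hb₁, ← hb₂]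
      ring
  smul_mem' := by
    rintro c a ⟨b, ⟨M, hM, h⟩, hb⟩
    refine ⟨c • b, ⟨M, hM, fun g s hs => ?_⟩, fun g h => ?_⟩
    · simp only [Pi.smul_apply, h g s hs]
    · simp only [Pi.smul_apply, Submodule.coe_smul, ← hb, smul_eq_mul]
      ring

end delta

/-- **SHA2 = input `[G2]` of the base case.** -/
theorem sha2_exists_delta (p : ℕ) [Fact p.Prime] (S : Finset Nat.Primes) (hpS : pPrime p ∈ S)
    (k : IntermediateField ℚ Qb) [NumberField k] (hk : k.IsUnramifiedOutside S)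
    (ζ : Qbˣ) (hζk : (ζ : Qb) ∈ k) (hζ : IsPrimitiveRoot ζ p) (r : ℕ)
    (hr : sha2_ClBound p S k r) (U : Subgroup Γ) (hkU : k.fixingSubgroup = U) :
    ∃ R : Submodule (ZMod p)
        (hc_C2 (shapLevSub (pt_globalLev S) U) (Representation.trivial (ZMod p) ↥U (ZMod p))),
      Module.Finite (ZMod p) R ∧ Module.finrank (ZMod p) R ≤ r ∧
      ∀ a : hc_C2 (shapLevSub (pt_globalLev S) U) (Representation.trivial (ZMod p) ↥U (ZMod p)),
        (∃ c : ↥U → Qbˣ,
          (∃ M : IntermediateField ℚ Qb, FiniteDimensional ℚ M ∧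
            ∀ g s : ↥U, (s : Γ) ∈ M.fixingSubgroup → c (g * s) = c g) ∧
          ∀ g h : ↥U, c g * Units.map (((g : Γ) : Qb ≃ₐ[ℚ] Qb) : Qb →* Qb) (c h) =
            ζ ^ ((a : ↥U × ↥U → ZMod p) (g, h)).val * c (g * h)) →
        ∃ x ∈ R, ∃ t : hc_C1 (shapLevSub (pt_globalLev S) U)
            (Representation.trivial (ZMod p) ↥U (ZMod p)),
          a = x + hc_d12 (shapLevSub (pt_globalLev S) U)
            (Representation.trivial (ZMod p) ↥U (ZMod p)) t := by
  subst hkU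
  have hdep : ∀ x : Fin (r + 1) → hc_C2 (shapLevSub (pt_globalLev S) k.fixingSubgroup)
      (Representation.trivial (ZMod p) ↥k.fixingSubgroup (ZMod p)),
      (∀ i, x i ∈ sha2_D p S k.fixingSubgroup) →
      ∃ n : Fin (r + 1) → ZMod p, n ≠ 0 ∧ ∑ i, n i • x i ∈
        LinearMap.range (hc_d12 (shapLevSub (pt_globalLev S) k.fixingSubgroup)
          (Representation.trivial (ZMod p) ↥k.fixingSubgroup (ZMod p))) := by
    intro x hx
    choose b hbfin hbx using hx
    have hlev : ∀ i, ∃ F : IntermediateField ℚ Qb, F.IsUnramifiedOutside S ∧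
        sha2_dLev (F.fixingSubgroup.subgroupOf k.fixingSubgroup) (b i) := by
      intro i
      obtain ⟨N, hN, hlev2⟩ := (x i).2
      obtain ⟨N', ⟨K, hK, -, rfl⟩, rfl⟩ := hN
      refine ⟨K, hK, fun g h s hs t ht => ?_⟩
      rw [hbx i, hbx i]
      exact hlev2.1 g h s hs t ht
    obtain ⟨n, hn0, χ, t, hχadd, -, ⟨F, hF, ht⟩, hsum⟩ :=
      sha2_dep p S hpS k hk ζ hζk hζ r hr b hbfin hlev
    obtain ⟨K, hK, hKg, hFK⟩ := pt_exists_galois_level S F hF
    have htC : t ∈ hc_C1 (shapLevSub (pt_globalLev S) k.fixingSubgroup)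
        (Representation.trivial (ZMod p) ↥k.fixingSubgroup (ZMod p)) :=
      ⟨K.fixingSubgroup.subgroupOf k.fixingSubgroup,
        shap_mem_levSub (pt_mem_globalLevels S K hK hKg),
        fun g s hs => ht g s (IntermediateField.fixingSubgroup_antitone hFK
          (Subgroup.mem_subgroupOf.mp hs)),
        fun _ _ _ => rfl⟩
    refine ⟨n, hn0, ⟨⟨t, htC⟩, ?_⟩⟩
    apply Subtype.ext
    funext ⟨g, h⟩
    have h1 : ((∑ i, n i • x i : hc_C2 (shapLevSub (pt_globalLev S) k.fixingSubgroup)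
        (Representation.trivial (ZMod p) ↥k.fixingSubgroup (ZMod p))) :
          ↥k.fixingSubgroup × ↥k.fixingSubgroup → ZMod p) (g, h) =
        ∑ i, n i * (b i h - b i (g * h) + b i g) := by
      rw [Submodule.coe_sum, Finset.sum_apply]
      apply Finset.sum_congr rfl
      intro i _
      rw [Submodule.coe_smul, Pi.smul_apply, smul_eq_mul, hbx i]
    rw [h1]
    show t h - t (g * h) + t g = _
    have e : ∑ i, n i * (b i h - b i (g * h) + b i g) =
        ∑ i, n i * b i h - ∑ i, n i * b i (g * h) + ∑ i, n i * b i g := by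
      rw [← Finset.sum_sub_distrib, ← Finset.sum_add_distrib]
      apply Finset.sum_congr rfl
      intro i _
      ring
    rw [e, hsum h, hsum (g * h), hsum g, hχadd]
    ring
  obtain ⟨R, hRD, hRfin, hRrank, hle⟩ := sha2_span_bound (sha2_D p S k.fixingSubgroup)
    (LinearMap.range (hc_d12 (shapLevSub (pt_globalLev S) k.fixingSubgroup)
      (Representation.trivial (ZMod p) ↥k.fixingSubgroup (ZMod p)))) r hdep
  refine ⟨R, hRfin, hRrank, fun a ⟨c, hc, hca⟩ => ?_⟩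
  obtain ⟨b, hbfin, hb⟩ := sha2_prim_of_qbar p k ζ hζk hζ a c hc hca
  have haD : a ∈ sha2_D p S k.fixingSubgroup := ⟨b, hbfin, hb⟩
  obtain ⟨x, hx, y, ⟨t, rfl⟩, hxy⟩ := Submodule.mem_sup.mp (hle haD)
  exact ⟨x, hx, t, hxy.symm⟩

end Fermat.Agent.S55
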