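import Mathlib
import Fermat.Agent.S55.Sha2Final
import Fermat.Agent.S55.KumDep

/-!
# S55, block SHA2 (part 8): the `[G2]` input with `r = kumRho`

`sha2_clBound_kumRho` : the class-group bound `sha2_ClBound` holds for `r = kumRho k p (kumAbove k S)`
(helper23's `kum_dep`).

`sha2_G2` : the `[G2]` input of the base case for `U = Gal(ℚ̄/k)`: a subspace `R` of level
2-cochains with `finrank R ≤ kumRho k p (kumAbove k S)` such that every level 2-cochain `a` with
`ζ ^ a = d c` for a finite-level `c : U → ℚ̄ˣ` lies in `R + d (level 1-cochains)`.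
-/

set_option autoImplicit false

open ExtCitation IsDedekindDomain NumberField

namespace Fermat.Agent.S55

local notation "Qb" => AlgebraicClosure ℚ
local notation "Γ" => (AlgebraicClosure ℚ ≃ₐ[ℚ] AlgebraicClosure ℚ)

theorem sha2_clBound_kumRho (p : ℕ) [Fact p.Prime] (S : Finset Nat.Primes)
    (k : IntermediateField ℚ Qb) [NumberField k] {ζ : k} (hζ : IsPrimitiveRoot ζ p) :
    sha2_ClBound p S k (kumRho k p (kumAbove k S)) := by
  intro D hD
  obtain ⟨n, hn, α, hα⟩ := kum_dep k p hζ (kumAbove k S) D hD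
  exact ⟨n, hn, α, fun w hw => hα w ((notMem_kumAbove k S w).mpr hw)⟩

/-- **SHA2 = input `[G2]` of the base case, with `r = kumRho`.** -/
theorem sha2_G2 (p : ℕ) [Fact p.Prime] (S : Finset Nat.Primes) (hpS : pPrime p ∈ S)
    (k : IntermediateField ℚ Qb) [NumberField k] (hk : k.IsUnramifiedOutside S)
    (ζ : Qbˣ) (hζk : (ζ : Qb) ∈ k) (hζ : IsPrimitiveRoot ζ p)
    (U : Subgroup Γ) (hkU : k.fixingSubgroup = U) :
    ∃ R : Submodule (ZMod p)
        (hc_C2 (shapLevSub (pt_globalLev S) U) (Representation.trivial (ZMod p) ↥U (ZMod p))),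
      Module.Finite (ZMod p) R ∧ Module.finrank (ZMod p) R ≤ kumRho k p (kumAbove k S) ∧
      ∀ a : hc_C2 (shapLevSub (pt_globalLev S) U) (Representation.trivial (ZMod p) ↥U (ZMod p)),
        (∃ c : ↥U → Qbˣ,
          (∃ M : IntermediateField ℚ Qb, FiniteDimensional ℚ M ∧
            ∀ g s : ↥U, (s : Γ) ∈ M.fixingSubgroup → c (g * s) = c g) ∧
          ∀ g h : ↥U, c g * Units.map (((g : Γ) : Qb ≃ₐ[ℚ] Qb) : Qb →* Qb) (c h) =
            ζ ^ ((a : ↥U × ↥U → ZMod p) (g, h)).val * c (g * h)) →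
        ∃ x ∈ R, ∃ t : hc_C1 (shapLevSub (pt_globalLev S) U)
            (Representation.trivial (ZMod p) ↥U (ZMod p)),
          a = x + hc_d12 (shapLevSub (pt_globalLev S) U)
            (Representation.trivial (ZMod p) ↥U (ZMod p)) t := by
  have hz : IsPrimitiveRoot (ζ : Qb) p := IsPrimitiveRoot.coe_units_iff.mpr hζ
  have hζ' : IsPrimitiveRoot (⟨(ζ : Qb), hζk⟩ : k) p :=
    IsPrimitiveRoot.of_map_of_injective (f := algebraMap k Qb) (by exact hz)
      (algebraMap k Qb).injective
  exact sha2_exists_delta p S hpS k hk ζ hζk hζ _ (sha2_clBound_kumRho p S k hζ') U hkU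

end Fermat.Agent.S55
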