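import Mathlib
import Fermat.Agent.S55.Sha2Rho
import Fermat.Agent.S55.HpbUnr
import Fermat.Agent.S55.ShapCone
import Fermat.Agent.S55.IfaceLoc

/-!
# S55, block SHA2 (part 9): the `hδ` field of the base-case inputs from the cone condition

* `sha2_loc_triv` : local triviality (`hpbQTriv`) of `ζ ^ A` at `(q, g)` from a finite-level local
  primitive `l` of `A` (the cone condition at a place above `q ∈ S`).
* `sha2_hdelta` : for `U = Gal(ℚ̄/k)` and the local data `shapLocU (pt_loc S) U Δ`: the global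
  part of every cone 2-cocycle lies in `R + d (level 1-cochains)` with `R` of dimension at most
  `kumRho k p (kumAbove k S)` (the local triviality outside `S` is helper20's `hpb_qbar_S`).
-/

set_option autoImplicit false

open ExtCitation IsDedekindDomain NumberField

namespace Fermat.Agent.S55

local notation "Qb" => AlgebraicClosure ℚ
local notation "Γ" => (AlgebraicClosure ℚ ≃ₐ[ℚ] AlgebraicClosure ℚ)

attribute [local instance] pt_qbar_isAlgebraic pt_qbar_isAlgClosure pt_qbar_isGalois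

theorem sha2_pow_val_cob {M : Type*} [Group M] {p : ℕ} [NeZero p] {z : M} (hz : z ^ p = 1)
    (a b c : ZMod p) : z ^ (b - c + a).val = z ^ a.val * z ^ b.val / z ^ c.val := by
  have h := lkm_pow_val_add hz (b - c + a) c
  have e : b - c + a + c = a + b := by ring
  rw [e, lkm_pow_val_add hz a b] at h
  rw [h, mul_div_cancel_right]

section loc

variable (p : ℕ) [Fact p.Prime] (k : IntermediateField ℚ Qb) (ζ : Qbˣ) (q : ℕ) [Fact q.Prime]

local notation "Ω" => PadicAlgCl q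
local notation "Gq" => (PadicAlgCl q ≃ₐ[ℚ_[q]] PadicAlgCl q)

/-- **Local triviality from a local primitive.** -/
theorem sha2_loc_triv (hζk : (ζ : Qb) ∈ k) (hζp : ζ ^ p = 1) (g : Γ)
    (A : k.fixingSubgroup × k.fixingSubgroup → ZMod p) (l : hpbQHg k q g → ZMod p)
    (hl : ∃ K : IntermediateField ℚ Qb, FiniteDimensional ℚ K ∧
      ∀ y s : hpbQHg k q g, localGaloisToGlobal q (s : Gq) ∈ K.fixingSubgroup →
        l (y * s) = l y)
    (hA : ∀ y y' : hpbQHg k q g,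
      A (hpbQth k q g y, hpbQth k q g y') = l y' - l (y * y') + l y) :
    hpbQTriv k q (fun x => ζ ^ (A x).val) g := by
  obtain ⟨K, hK, hlK⟩ := hl
  let ε : Ωˣ := Units.map ((hpbQemb q g : Qb →ₐ[ℚ] Ω) : Qb →* Ω) ζ
  have hε : ε ^ p = 1 := by rw [← map_pow, hζp, map_one]
  have hεc : ∀ n : ℕ, padicEmbedding q (g⁻¹ (((ζ ^ n : Qbˣ) : Qbˣ) : Qb)) = ((ε ^ n : Ωˣ) : Ω) := by
    intro n
    rw [Units.val_pow_eq_pow_val, Units.val_pow_eq_pow_val, map_pow, map_pow]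
    rfl
  have hfix : ∀ y : hpbQHg k q g, (y : Gq) (ε : Ω) = ε := by
    intro y
    have h1 := hpbQemb_conj q g (y : Gq) (ζ : Qb)
    have h2 : (g * localGaloisToGlobal q (y : Gq) * g⁻¹) (ζ : Qb) = ζ :=
      (IntermediateField.mem_fixingSubgroup_iff k _).1 y.2 _ hζk
    rw [h2] at h1
    exact h1.symm
  refine ⟨fun y => ε ^ (l y).val,
    ⟨brl_locField q K, brl_finiteDimensional_locField q K, fun y s hs => ?_⟩, fun y y' => ?_⟩
  · show ε ^ (l (y * s)).val = ε ^ (l y).val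
    rw [hlK y s ((brl_mem_fixingSubgroup_iff q K _).2 hs)]
  · show padicEmbedding q (g⁻¹ (((ζ ^ (A (hpbQth k q g y, hpbQth k q g y')).val : Qbˣ)) : Qb)) =
      ((ε ^ (l y).val : Ωˣ) : Ω) * (y : Gq) ((ε ^ (l y').val : Ωˣ) : Ω) /
        ((ε ^ (l (y * y')).val : Ωˣ) : Ω)
    rw [hA, hεc, sha2_pow_val_cob hε]
    have e2 : (y : Gq) ((ε ^ (l y').val : Ωˣ) : Ω) = ((ε ^ (l y').val : Ωˣ) : Ω) := by
      rw [Units.val_pow_eq_pow_val, map_pow, hfix]
    rw [e2, Units.val_div_eq_div_val, Units.val_mul]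

end loc

section main

variable (p : ℕ) [Fact p.Prime] (S : Finset Nat.Primes)

theorem sha2_grp_dec {G : Type*} [Group G] (u ga h g : G) (hg : g = u * ga * h) :
    u⁻¹ * g * h⁻¹ = ga := by
  subst hg
  group

/-- The global part of a cone 2-cocycle of `U = Gal(ℚ̄/k)` becomes, after `ζ ^ ·`, the coboundary
of a finite-level 1-cochain with values in `ℚ̄ˣ`. -/
theorem sha2_hdelta_aux (hp2 : p ≠ 2) (k : IntermediateField ℚ Qb) [NumberField k]
    (hk : k.IsUnramifiedOutside S) (ζ : Qbˣ) (hζk : (ζ : Qb) ∈ k) (hζ : IsPrimitiveRoot ζ p)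
    {W : (pt_loc S).V → Type} (Δ : ∀ v, ShlDec ((pt_loc S).ι v) k.fixingSubgroup (W v))
    (z : hc_Cc2 (shapLocU (pt_loc S) k.fixingSubgroup Δ)
      (Representation.trivial (ZMod p) ↥k.fixingSubgroup (ZMod p)))
    (hz : hc_dc2 (shapLocU (pt_loc S) k.fixingSubgroup Δ)
      (Representation.trivial (ZMod p) ↥k.fixingSubgroup (ZMod p)) z = 0) :
    ∃ c : ↥k.fixingSubgroup → Qbˣ,
      (∃ M : IntermediateField ℚ Qb, FiniteDimensional ℚ M ∧
        ∀ g s : ↥k.fixingSubgroup, (s : Γ) ∈ M.fixingSubgroup → c (g * s) = c g) ∧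
      ∀ g h : ↥k.fixingSubgroup, c g * Units.map (((g : Γ) : Qb ≃ₐ[ℚ] Qb) : Qb →* Qb) (c h) =
        ζ ^ ((z.1 : ↥k.fixingSubgroup × ↥k.fixingSubgroup → ZMod p) (g, h)).val * c (g * h) := by
  classical
  obtain ⟨A, hA⟩ : ∃ A : ↥k.fixingSubgroup × ↥k.fixingSubgroup → ZMod p,
      A = (z.1 : ↥k.fixingSubgroup × ↥k.fixingSubgroup → ZMod p) := ⟨_, rfl⟩
  rw [← hA]
  -- the cocycle condition
  have h1 : hc_d23 _ _ z.1 = 0 := congrArg Prod.fst hz
  have hcocA : ∀ x y w : ↥k.fixingSubgroup,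
      A (y, w) - A (x * y, w) + A (x, y * w) - A (x, y) = 0 := by
    intro x y w
    have h := congrFun (congrArg Subtype.val h1) (x, y, w)
    rw [hA]
    simpa [hc_d23_coe, hc_d23f_apply] using h
  -- the local conditions
  have h2 : ∀ v, hc_res2 ((shapLocU (pt_loc S) k.fixingSubgroup Δ).compat v) _ z.1 =
      hc_d12 _ _ (z.2 v) := fun v => sub_eq_zero.mp (congrFun (congrArg Prod.snd hz) v)
  -- the level of `A`
  obtain ⟨N, hN, hlevA⟩ := z.1.2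
  obtain ⟨N₀, hN₀, rfl⟩ := shap_mem_levSub_iff.1 hN
  obtain ⟨K, hK, hKg, rfl⟩ := hN₀
  have hlevK : ∀ x x' s s' : ↥k.fixingSubgroup, (s : Γ) ∈ K.fixingSubgroup →
      (s' : Γ) ∈ K.fixingSubgroup → A (x * s, x' * s') = A (x, x') := by
    intro x x' s s' hs hs'
    rw [hA]
    exact hlevA.1 x x' s (Subgroup.mem_subgroupOf.2 hs) s' (Subgroup.mem_subgroupOf.2 hs')
  obtain ⟨F, hF, hFg, hle⟩ := pt_exists_galois_level S (k ⊔ K) (hk.sup hK)
  have : FiniteDimensional ℚ F := hF.1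
  have : IsGalois ℚ F := hFg
  have hkF : k ≤ F := le_sup_left.trans hle
  have hKF : K ≤ F := le_sup_right.trans hle
  have hzQ : IsPrimitiveRoot (ζ : Qb) p := IsPrimitiveRoot.coe_units_iff.mpr hζ
  have hζp : ζ ^ p = 1 := hζ.pow_eq_one
  have hfixζ : ∀ u : ↥k.fixingSubgroup, (u : Γ) • ζ = ζ := by
    intro u
    apply Units.ext
    exact (IntermediateField.mem_fixingSubgroup_iff k _).1 u.2 _ hζk
  have hcoc : ∀ u₁ u₂ u₃ : ↥k.fixingSubgroup,
      (fun x => ζ ^ (A x).val) (u₁ * u₂, u₃) * (fun x => ζ ^ (A x).val) (u₁, u₂) =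
        (u₁ : Γ) • (fun x => ζ ^ (A x).val) (u₂, u₃) * (fun x => ζ ^ (A x).val) (u₁, u₂ * u₃) := by
    intro u₁ u₂ u₃
    show ζ ^ (A (u₁ * u₂, u₃)).val * ζ ^ (A (u₁, u₂)).val =
      (u₁ : Γ) • ζ ^ (A (u₂, u₃)).val * ζ ^ (A (u₁, u₂ * u₃)).val
    rw [smul_pow', hfixζ, ← lkm_pow_val_add hζp, ← lkm_pow_val_add hζp]
    congr 2
    linear_combination -(hcocA u₁ u₂ u₃)
  have hlevF : ∀ u₁ u₂ n₁ n₂ : ↥k.fixingSubgroup, (n₁ : Γ) ∈ F.fixingSubgroup →
      (n₂ : Γ) ∈ F.fixingSubgroup →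
      (fun x => ζ ^ (A x).val) (u₁ * n₁, u₂ * n₂) = (fun x => ζ ^ (A x).val) (u₁, u₂) := by
    intro u₁ u₂ n₁ n₂ h₁ h₂
    show ζ ^ (A (u₁ * n₁, u₂ * n₂)).val = ζ ^ (A (u₁, u₂)).val
    rw [hlevK _ _ _ _ (IntermediateField.fixingSubgroup_antitone hKF h₁)
      (IntermediateField.fixingSubgroup_antitone hKF h₂)]
  have hval : ∀ u₁ u₂ : ↥k.fixingSubgroup,
      (((fun x => ζ ^ (A x).val) (u₁, u₂) : Qbˣ) : Qb) ∈ F := by
    intro u₁ u₂
    show ((ζ ^ (A (u₁, u₂)).val : Qbˣ) : Qb) ∈ F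
    rw [Units.val_pow_eq_pow_val]
    exact pow_mem (hkF hζk) _
  have htors : ∃ m : ℕ, ∀ u₁ u₂ : ↥k.fixingSubgroup,
      (fun x => ζ ^ (A x).val) (u₁, u₂) ^ p ^ m = 1 := by
    refine ⟨1, fun u₁ u₂ => ?_⟩
    show (ζ ^ (A (u₁, u₂)).val) ^ p ^ 1 = 1
    rw [pow_one, ← pow_mul, mul_comm, pow_mul, hζp, one_pow]
  have hloc : ∀ (q : ℕ) [Fact q.Prime] (g : Γ), (⟨q, Fact.out⟩ : Nat.Primes) ∈ S →
      ∃ (u : k.fixingSubgroup) (y₀ : PadicAlgCl q ≃ₐ[ℚ_[q]] PadicAlgCl q),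
        hpbQTriv k q (fun x => ζ ^ (A x).val) ((u : Γ) * g * localGaloisToGlobal q y₀) := by
    intro q _ g hq
    · -- a prime of `S`: the cone condition
      let v : (pt_loc S).V := ⟨⟨q, Fact.out⟩, hq⟩
      let y₀ : PadicAlgCl q ≃ₐ[ℚ_[q]] PadicAlgCl q := (Δ v).hh g
      have hdec : g = ((Δ v).uu g : Γ) * (Δ v).g ((Δ v).w g) * localGaloisToGlobal q y₀ :=
        (Δ v).dec g
      refine ⟨((Δ v).uu g)⁻¹, y₀⁻¹, ?_⟩
      have hg : ((((Δ v).uu g)⁻¹ : ↥k.fixingSubgroup) : Γ) * g * localGaloisToGlobal q y₀⁻¹ =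
          (Δ v).g ((Δ v).w g) := by
        rw [map_inv, Subgroup.coe_inv]
        exact sha2_grp_dec _ _ _ _ hdec
      rw [hg]
      obtain ⟨N', hN', hl⟩ := (z.2 ⟨v, (Δ v).w g⟩).2
      obtain ⟨N₁, hN₁, rfl⟩ := shap_mem_levSub_iff.1 hN'
      obtain ⟨K', hK', hK'g, rfl⟩ := hN₁
      have hloc2 : ∀ y y' : ↥((Δ v).Ha ((Δ v).w g)),
          (z.1 : ↥k.fixingSubgroup × ↥k.fixingSubgroup → ZMod p)
              ((Δ v).th ((Δ v).w g) y, (Δ v).th ((Δ v).w g) y') =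
            (z.2 ⟨v, (Δ v).w g⟩).1 y' - (z.2 ⟨v, (Δ v).w g⟩).1 (y * y') +
              (z.2 ⟨v, (Δ v).w g⟩).1 y := by
        intro y y'
        have h := congrFun (congrArg Subtype.val (h2 ⟨v, (Δ v).w g⟩)) (y, y')
        simpa [hc_res2_coe, hc_d12_coe, hc_d12f_apply] using h
      refine sha2_loc_triv p k ζ q hζk hζp _ A
        (fun y => (z.2 ⟨v, (Δ v).w g⟩).1 y) ⟨K', hK', fun y s hs => ?_⟩
        (fun y y' => ?_)
      · exact hl.1 y s (Subgroup.mem_subgroupOf.2 (Subgroup.mem_comap.2 hs))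
      · rw [hA]
        exact hloc2 y y'
  obtain ⟨c, -, hc2, hc3⟩ := hpb_qbar_S p hp2 S k F hF hkF (ζ : Qb) hzQ hζk
    (fun x => ζ ^ (A x).val) hcoc hlevF hval htors hloc
  refine ⟨c, ⟨F, inferInstance, hc2⟩, fun g h => ?_⟩
  have h3 : ζ ^ (A (g, h)).val = (g : Γ) • c h / c (g * h) * c g := hc3 g h
  have e : Units.map (((g : Γ) : Qb ≃ₐ[ℚ] Qb) : Qb →* Qb) (c h) = (g : Γ) • c h := Units.ext rfl
  rw [e, h3, div_mul_eq_mul_div, div_mul_cancel, mul_comm]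

/-- **The `hδ` field of the base-case inputs** (with `δ := R.subtype`, `r := kumRho k p (kumAbove k S)`)
for `U = Gal(ℚ̄/k)` and the local data `shapLocU (pt_loc S) U Δ`. -/
theorem sha2_hdelta (hp2 : p ≠ 2) (hpS : pPrime p ∈ S) (k : IntermediateField ℚ Qb) [NumberField k]
    (hk : k.IsUnramifiedOutside S) (ζ : Qbˣ) (hζk : (ζ : Qb) ∈ k) (hζ : IsPrimitiveRoot ζ p)
    (U : Subgroup Γ) (hkU : k.fixingSubgroup = U)
    {W : (pt_loc S).V → Type} (Δ : ∀ v, ShlDec ((pt_loc S).ι v) U (W v)) :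
    ∃ R : Submodule (ZMod p)
        (hc_C2 (shapLevSub (pt_globalLev S) U) (Representation.trivial (ZMod p) ↥U (ZMod p))),
      Module.Finite (ZMod p) R ∧ Module.finrank (ZMod p) R ≤ kumRho k p (kumAbove k S) ∧
      ∀ z : hc_Cc2 (shapLocU (pt_loc S) U Δ) (Representation.trivial (ZMod p) ↥U (ZMod p)),
        hc_dc2 (shapLocU (pt_loc S) U Δ) (Representation.trivial (ZMod p) ↥U (ZMod p)) z = 0 →
        ∃ (c : R) (t : hc_C1 (shapLevSub (pt_globalLev S) U)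
            (Representation.trivial (ZMod p) ↥U (ZMod p))),
          z.1 = R.subtype c + hc_d12 (shapLevSub (pt_globalLev S) U)
            (Representation.trivial (ZMod p) ↥U (ZMod p)) t := by
  subst hkU
  obtain ⟨R, hRf, hRr, hR⟩ := sha2_G2 p S hpS k hk ζ hζk hζ k.fixingSubgroup rfl
  refine ⟨R, hRf, hRr, fun z hz => ?_⟩
  obtain ⟨x, hx, t, ht⟩ := hR z.1 (sha2_hdelta_aux p S hp2 k hk ζ hζk hζ Δ z hz)
  exact ⟨⟨x, hx⟩, t, ht⟩

end main

end Fermat.Agent.S55
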