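import Fermat.Agent.S55.ShapTransfer
import Fermat.Agent.S55.ShapLocPkg
import Fermat.Agent.S55.IndDualQC

/-!
# S55, block SHAP: existence of the auxiliary data of the Shapiro comparison

* `shap_exists_retraction`: an equivariant retraction `r : G → U` with `r 1 = 1`;
* `shap_exists_dec`: double coset data `Δ : ShlDec ι U W` (`W = U \ G / ι(H)`, finite when `U`
  has finite index) whose representatives are normalised by `r (g a) = 1`;
* `shap_exists_data`: both, for all the local groups of local data `D`;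
* `shapTauI`, `shapTauI_dc2`, `shapQDataI`: the transferred trace and the Shapiro comparison
  `ShapQData` in the exact shape consumed by `pt_baseCase_of_transfer` (coefficients `𝔽_p`,
  `𝔽_p(χ|U)`, multiplication pairing).
-/

set_option autoImplicit false
set_option linter.unusedSectionVars false
set_option linter.unusedVariables false

namespace Fermat.Agent.S55

universe u v w

section retraction

variable {G : Type*} [Group G] (U : Subgroup G)

/-- An equivariant retraction `r : G → U` with `r 1 = 1`. -/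
theorem shap_exists_retraction :
    ∃ r : G → U, (∀ (u : U) (x : G), r ((u : G) * x) = u * r x) ∧ r 1 = 1 := by
  classical
  let s := QuotientGroup.rightRel U
  have hout : ∀ x : G, x * (Quotient.out (Quotient.mk s x))⁻¹ ∈ U := by
    intro x
    have h : s (Quotient.out (Quotient.mk s x)) x :=
      Quotient.exact (Quotient.out_eq (Quotient.mk s x))
    exact QuotientGroup.rightRel_apply.mp h
  have hmk : ∀ (u : U) (x : G), Quotient.mk s ((u : G) * x) = Quotient.mk s x := by
    intro u x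
    refine Quotient.sound ?_
    show s ((u : G) * x) x
    rw [QuotientGroup.rightRel_apply]
    simp
  let r₀ : G → U := fun x => ⟨x * (Quotient.out (Quotient.mk s x))⁻¹, hout x⟩
  have hr₀ : ∀ (u : U) (x : G), r₀ ((u : G) * x) = u * r₀ x := by
    intro u x
    apply Subtype.ext
    show (u : G) * x * (Quotient.out (Quotient.mk s ((u : G) * x)))⁻¹ =
      (u : G) * (x * (Quotient.out (Quotient.mk s x))⁻¹)
    rw [hmk, mul_assoc]
  refine ⟨fun x => r₀ x * (r₀ 1)⁻¹, fun u x => ?_, ?_⟩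
  · show r₀ ((u : G) * x) * (r₀ 1)⁻¹ = u * (r₀ x * (r₀ 1)⁻¹)
    rw [hr₀, mul_assoc]
  · show r₀ 1 * (r₀ 1)⁻¹ = 1
    exact mul_inv_cancel _

end retraction

section dec

variable {G H : Type*} [Group G] [Group H] (ι : H →* G) (U : Subgroup G)
  (r : G → U) (hr : ∀ (u : U) (x : G), r ((u : G) * x) = u * r x)

include hr in
/-- Double coset data with representatives normalised by `r (g a) = 1`. -/
theorem shap_exists_dec :
    ∃ Δ : ShlDec ι U (DoubleCoset.Quotient (U : Set G) (ι.range : Set G)),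
      ∀ a, r (Δ.g a) = 1 := by
  classical
  let g : DoubleCoset.Quotient (U : Set G) (ι.range : Set G) → G :=
    fun a => ((r a.out : U) : G)⁻¹ * a.out
  have hg1 : ∀ a, r (g a) = 1 := by
    intro a
    have h := hr (r a.out)⁻¹ a.out
    show r (((r a.out : U) : G)⁻¹ * a.out) = 1
    rw [← Subgroup.coe_inv, h, inv_mul_cancel]
  have hmk : ∀ a, DoubleCoset.mk U ι.range (g a) = a := by
    intro a
    refine ((DoubleCoset.eq U ι.range (g a) a.out).2
      ⟨(r a.out : U), (r a.out).2, 1, one_mem _, ?_⟩).trans (DoubleCoset.out_eq' U ι.range a)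
    show a.out = ((r a.out : U) : G) * (((r a.out : U) : G)⁻¹ * a.out) * 1
    group
  have hg : ∀ x : G, ∃! a, ∃ (u : U) (h : H), x = (u : G) * g a * ι h := by
    intro x
    refine ⟨DoubleCoset.mk U ι.range x, ?_, ?_⟩
    · have h2 := hmk (DoubleCoset.mk U ι.range x)
      obtain ⟨h, hh, k, ⟨y, rfl⟩, e⟩ := (DoubleCoset.eq U ι.range _ _).1 h2
      exact ⟨⟨h, hh⟩, y, e⟩
    · rintro b ⟨u', h', e⟩
      rw [← hmk b]
      exact (DoubleCoset.eq U ι.range _ _).2 ⟨(u' : G), u'.2, ι h', ⟨h', rfl⟩, e⟩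
  obtain ⟨Δ, hΔ⟩ := shl_exists_dec ι U g hg
  exact ⟨Δ, fun a => by rw [hΔ]; exact hg1 a⟩

instance shap_finite_doubleCoset [U.FiniteIndex] :
    Finite (DoubleCoset.Quotient (U : Set G) (ι.range : Set G)) := by
  have : Finite (G ⧸ U) := Subgroup.finite_quotient_of_finiteIndex
  let f : G ⧸ U → DoubleCoset.Quotient (U : Set G) (ι.range : Set G) :=
    Quotient.lift (fun x : G => DoubleCoset.mk U ι.range x⁻¹) (by
      intro a b hab
      have hab' : a⁻¹ * b ∈ U := QuotientGroup.leftRel_apply.mp hab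
      refine (DoubleCoset.eq U ι.range _ _).2 ⟨(a⁻¹ * b)⁻¹, U.inv_mem hab', 1, one_mem _, ?_⟩
      group)
  refine Finite.of_surjective f (fun q => ?_)
  refine ⟨((q.out)⁻¹ : G), ?_⟩
  show DoubleCoset.mk U ι.range ((q.out)⁻¹)⁻¹ = q
  rw [inv_inv]
  exact DoubleCoset.out_eq' U ι.range q

end dec

section data

variable {G : Type u} [Group G] {L : hc_Lev G} (D : hc_Loc.{u, v, u} L) (U : Subgroup G)

/-- **Existence of the data of the Shapiro comparison**: an equivariant retraction `r` with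
`r 1 = 1` and, for every local group, double coset data whose representatives satisfy
`r (g a) = 1`; the sets of double cosets are finite when `U` has finite index. -/
theorem shap_exists_data [U.FiniteIndex] :
    ∃ (r : G → U) (_ : ∀ (u : U) (x : G), r ((u : G) * x) = u * r x) (_ : r 1 = 1)
      (W : D.V → Type u) (_ : ∀ v, Finite (W v)) (Δ : ∀ v, ShlDec (D.ι v) U (W v)),
      ∀ v a, r ((Δ v).g a) = 1 := by
  obtain ⟨r, hr, h1⟩ := shap_exists_retraction U
  choose Δ hΔ using fun v => shap_exists_dec (D.ι v) U r hr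
  exact ⟨r, hr, h1, fun v => DoubleCoset.Quotient (U : Set G) ((D.ι v).range : Set G),
    fun v => inferInstance, Δ, hΔ⟩

instance shap_finite_locU {W : D.V → Type u} (Δ : ∀ v, ShlDec (D.ι v) U (W v)) [Finite D.V]
    [∀ v, Finite (W v)] : Finite (shapLocU D U Δ).V :=
  inferInstanceAs (Finite (Σ v : D.V, W v))

end data

section idual

variable {Γ : Type} [Group Γ] {p : ℕ} [Fact p.Prime] (χ : Γ →* (ZMod p)ˣ) (U : Subgroup Γ)
  [U.FiniteIndex] {L : hc_Lev Γ} (D : hc_Loc.{0, 0, 0} L)
  {W : D.V → Type} (Δ : ∀ v, ShlDec (D.ι v) U (W v))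
  (r : Γ → U) (hr : ∀ (u : U) (x : Γ), r ((u : Γ) * x) = u * r x) (h1 : r 1 = 1)
  (hU : ∃ M ∈ L.S, M ≤ U) (hrg : ∀ v a, r ((Δ v).g a) = 1)
  (pkN : ∀ v, ShapLP (D.Lv v) (Δ v) (Representation.trivial (ZMod p) U (ZMod p)))
  (pkT : ∀ v, ShapLP (D.Lv v) (Δ v) (idual_rhoN χ U))
  (τ : hc_Cc3 D (dual_rhoT χ) →ₗ[ZMod p] ZMod p) (hτ : ∀ x, τ (hc_dc2 D (dual_rhoT χ) x) = 0)

/-- The transferred trace on the `U`-complex with coefficients `𝔽_p(χ|U)` (`= shapTauU` for
`ρT = dual_rhoT χ`, by `rfl`). -/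
noncomputable def shapTauI : hc_Cc3 (shapLocU D U Δ) (idual_rhoN χ U) →ₗ[ZMod p] ZMod p :=
  shapTauU D U Δ (dual_rhoT χ) r hr hU pkT τ

theorem shapTauI_eq :
    shapTauI χ U D Δ r hr hU pkT τ = shapTauU D U Δ (dual_rhoT χ) r hr hU pkT τ := rfl

include hrg hτ in
/-- The transferred trace vanishes on cone coboundaries. -/
theorem shapTauI_dc2 (x : hc_Cc2 (shapLocU D U Δ) (idual_rhoN χ U)) :
    shapTauI χ U D Δ r hr hU pkT τ (hc_dc2 (shapLocU D U Δ) (idual_rhoN χ U) x) = 0 :=
  shapTauU_dc2 D U Δ (dual_rhoT χ) r hr hU hrg pkT τ hτ x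

/-- **The Shapiro comparison in the shape of `pt_baseCase_of_transfer`**: between the
`Γ`-complex of `(Coind_U 𝔽_p, Coind_U 𝔽_p(χ|U))` and the `U`-complex of `(𝔽_p, 𝔽_p(χ|U))`
with local data `shapLocU D U Δ` and trace `shapTauI`. -/
noncomputable def shapQDataI :
    ShapQData (idual_QCshap χ U D τ hτ)
      (hc_QC (shapLocU D U Δ) (shapTauI χ U D Δ r hr hU pkT τ)
        (shapTauI_dc2 χ U D Δ r hr hU hrg pkT τ hτ) (idual_hφ χ U)) :=
  shapQData D U Δ (ρN := Representation.trivial (ZMod p) U (ZMod p)) (ρN' := idual_rhoN χ U)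
    (dual_rhoT χ) (LinearMap.mul (ZMod p) (ZMod p)) (idual_hφ χ U) r hr h1 hU hrg pkN pkT τ hτ

end idual

end Fermat.Agent.S55
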