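import Mathlib
import Fermat.Agent.S55.ShapLoc

/-!
# S55, block SHAP-L: existence of double coset data adapted to a retraction

For `U ≤ G` of finite index, an equivariant retraction `r : G → U` (`r (u x) = u r x`) and
`ι : H →* G`, there are double coset data `Δ : ShlDec ι U W` with `W` finite and all
representatives normalised by `r (g_a) = 1` (`shl_exists_dec_r`, in any universe via
`ULift (Fin n)`).
-/

set_option autoImplicit false
set_option linter.unusedSectionVars false
set_option linter.unusedVariables false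

namespace Fermat.Agent.S55

universe w

section exist

variable {G H : Type*} [Group G] [Group H]

/-- the double coset relation of `U \ G / ι(H)`. -/
def shlDblSetoid (ι : H →* G) (U : Subgroup G) : Setoid G where
  r x y := ∃ (u : U) (h : H), y = (u : G) * x * ι h
  iseqv := by
    refine ⟨fun x => ⟨1, 1, by simp⟩, ?_, ?_⟩
    · rintro x y ⟨u, h, rfl⟩
      exact ⟨u⁻¹, h⁻¹, by simp [mul_assoc]⟩
    · rintro x y z ⟨u, h, rfl⟩ ⟨u', h', rfl⟩
      exact ⟨u' * u, h * h', by simp [mul_assoc]⟩

/-- finitely many double cosets when `U` has finite index. -/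
theorem shl_finite_dbl (ι : H →* G) (U : Subgroup G) [U.FiniteIndex] :
    Finite (Quotient (shlDblSetoid ι U)) := by
  have hfin : Finite (G ⧸ U) := Subgroup.finite_quotient_of_finiteIndex
  let f : G ⧸ U → Quotient (shlDblSetoid ι U) :=
    Quotient.lift (fun y : G => (Quotient.mk (shlDblSetoid ι U) y⁻¹)) (by
      intro a b hab
      have hab' : a⁻¹ * b ∈ U := QuotientGroup.leftRel_apply.mp hab
      refine Quotient.sound ?_
      refine ⟨⟨(a⁻¹ * b)⁻¹, U.inv_mem hab'⟩, 1, ?_⟩
      simp)
  refine Finite.of_surjective f ?_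
  intro q
  induction q using Quotient.inductionOn with
  | h x =>
    refine ⟨((x⁻¹ : G) : G ⧸ U), ?_⟩
    show Quotient.mk (shlDblSetoid ι U) (x⁻¹)⁻¹ = Quotient.mk (shlDblSetoid ι U) x
    rw [inv_inv]

/-- **Existence of double coset data adapted to a retraction.** -/
theorem shl_exists_dec_r (ι : H →* G) (U : Subgroup G) [U.FiniteIndex] (r : G → U)
    (hr : ∀ (u : U) (x : G), r ((u : G) * x) = u * r x) :
    ∃ (n : ℕ) (Δ : ShlDec ι U (ULift.{w} (Fin n))), ∀ a, r (Δ.g a) = 1 := by
  classical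
  have hfin := shl_finite_dbl ι U
  let Q := Quotient (shlDblSetoid ι U)
  let e : Q ≃ Fin (Nat.card Q) := Finite.equivFin Q
  -- the normalised representative of a double coset
  let g0 : Q → G := fun q => (((r q.out)⁻¹ : U) : G) * q.out
  have hg0r : ∀ q, r (g0 q) = 1 := fun q => by
    show r ((((r q.out)⁻¹ : U) : G) * q.out) = 1
    rw [hr, inv_mul_cancel]
  have hg0q : ∀ q, Quotient.mk (shlDblSetoid ι U) (g0 q) = q := fun q => by
    have h1 : Quotient.mk (shlDblSetoid ι U) (g0 q) = Quotient.mk (shlDblSetoid ι U) q.out := by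
      refine Quotient.sound ?_
      exact ⟨r q.out, 1, by simp [g0]⟩
    rw [h1, Quotient.out_eq]
  let g : ULift.{w} (Fin (Nat.card Q)) → G := fun a => g0 (e.symm a.down)
  have hg : ∀ x : G, ∃! a : ULift.{w} (Fin (Nat.card Q)),
      ∃ (u : U) (h : H), x = (u : G) * g a * ι h := by
    intro x
    refine ⟨⟨e (Quotient.mk (shlDblSetoid ι U) x)⟩, ?_, ?_⟩
    · have h1 : Quotient.mk (shlDblSetoid ι U) (g0 (Quotient.mk (shlDblSetoid ι U) x)) =
          Quotient.mk (shlDblSetoid ι U) x := hg0q _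
      obtain ⟨u, h, hx⟩ := Quotient.exact h1
      refine ⟨u, h, ?_⟩
      show x = (u : G) * g0 (e.symm (e (Quotient.mk (shlDblSetoid ι U) x))) * ι h
      rw [Equiv.symm_apply_apply]
      exact hx
    · rintro ⟨a⟩ ⟨u, h, hx⟩
      have h1 : Quotient.mk (shlDblSetoid ι U) x = Quotient.mk (shlDblSetoid ι U) (g ⟨a⟩) :=
        (Quotient.sound ⟨u, h, hx⟩ : Quotient.mk (shlDblSetoid ι U) (g ⟨a⟩) =
          Quotient.mk (shlDblSetoid ι U) x).symm
      have h2 : Quotient.mk (shlDblSetoid ι U) (g ⟨a⟩) = e.symm a := hg0q _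
      rw [h1, h2, Equiv.apply_symm_apply]
  obtain ⟨Δ, hΔ⟩ := shl_exists_dec ι U g hg
  exact ⟨Nat.card Q, Δ, fun a => by rw [hΔ]; exact hg0r _⟩

end exist

end Fermat.Agent.S55
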