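import Mathlib
import Fermat.Agent.S55.ShapLocOut

/-!
# S55, block TRU: auxiliary statements for the `U`-level trace formula

* `shl_finsum_sigma`: a `finsum` over a sigma type with finite fibres;
* `shl_I_le_Ha`: the inertia subgroups lie in all the local subgroups `H_{w,a}`;
* `shl_fin_U`: a finite-level cochain of `U` is unramified at almost all outside places of `U`;
* `shlLamW_unr`: the transferred outside functionals kill unramified cocycles.
-/

set_option autoImplicit false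
set_option linter.unusedSectionVars false
set_option linter.unusedVariables false

namespace Fermat.Agent.S55

universe u v w v' w'

/-- a `finsum` over a sigma type with finite fibres, when only finitely many fibres carry a
nonzero term. -/
theorem shl_finsum_sigma {α : Type*} {β : α → Type*} [∀ a, Fintype (β a)] {M : Type*}
    [AddCommMonoid M] (f : (Σ a, β a) → M) (hf : {a | ∃ b, f ⟨a, b⟩ ≠ 0}.Finite) :
    ∑ᶠ p, f p = ∑ᶠ a, ∑ b, f ⟨a, b⟩ := by
  classical
  have h1 : Function.support f ⊆ ((hf.toFinset.sigma fun _ => Finset.univ : Finset (Σ a, β a)) :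
      Set (Σ a, β a)) := by
    rintro ⟨a, b⟩ hp
    rw [Finset.mem_coe, Finset.mem_sigma]
    exact ⟨hf.mem_toFinset.2 ⟨b, hp⟩, Finset.mem_univ _⟩
  have h2 : Function.support (fun a => ∑ b, f ⟨a, b⟩) ⊆ (hf.toFinset : Set α) := by
    intro a ha
    rw [Finset.mem_coe, Set.Finite.mem_toFinset]
    by_contra hne
    exact ha (Finset.sum_eq_zero fun b _ => by_contra fun hb => hne ⟨b, hb⟩)
  rw [finsum_eq_sum_of_support_subset _ h1, finsum_eq_sum_of_support_subset _ h2,
    Finset.sum_sigma]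

section unr

variable {k : Type*} [CommRing k] {G : Type u} [Group G] {L Linf : hc_Lev G}
  (O : tr_Out.{u, v', w'} L Linf) (U : Subgroup G)
  {WO : O.W → Type w'} (ΔO : ∀ w, ShlDec (O.ι w) U (WO w))

include L in
/-- the inertia subgroups lie in all the local subgroups `H_{w,a}`. -/
theorem shl_I_le_Ha (hU : ∃ N ∈ L.S, N ≤ U) (w : O.W) (a : WO w) :
    O.I w ≤ (ΔO w).Ha a := by
  obtain ⟨N, hN, hNU⟩ := hU
  intro s hs
  have h1 : O.ι w s ∈ N := O.unr w N hN hs
  exact (ΔO w).mem_Ha.2 (hNU ((L.nor N hN).conj_mem _ h1 _))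

/-- a finite-level cochain of `U` is unramified at almost all outside places of `U`. -/
theorem shl_fin_U {N : Type*} [AddCommGroup N] [Module k N] (ρ : Representation k U N)
    (hfinN : ∀ M ∈ Linf.S, {w : O.W | ¬ O.I w ≤ M.comap (O.ι w)}.Finite)
    (z : hc_C2 (shapLevSub Linf U) ρ) :
    {w : O.W | ¬ ∀ a, hc_IsLev2 (ρ.comp ((ΔO w).th a))
      ((O.I w).subgroupOf ((ΔO w).Ha a))
      (hc_res2 (shl_th_compat (ΔO w) (O.compat w) a) ρ z :
        (ΔO w).Ha a × (ΔO w).Ha a → N)}.Finite := by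
  obtain ⟨_, ⟨M, hM, rfl⟩, hz⟩ := hc_mem_C2.1 z.2
  refine (hfinN M hM).subset fun w hw hle => hw fun a => ?_
  refine hc_isLev2_res ρ (fun s hs => ?_) hz
  have h1 : O.ι w (s : O.H w) ∈ M := hle (Subgroup.mem_subgroupOf.mp hs)
  show ((ΔO w).th a s : U) ∈ M.subgroupOf U
  rw [Subgroup.mem_subgroupOf, ShlDec.th_coe]
  exact (Linf.nor M hM).conj_mem _ h1 _

end unr

section lamW

variable {k : Type*} [CommRing k] {G : Type u} [Group G] {L Linf : hc_Lev G}
  (O : tr_Out.{u, v', w'} L Linf) (U : Subgroup G) [U.FiniteIndex]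
  {WO : O.W → Type w'} (ΔO : ∀ w, ShlDec (O.ι w) U (WO w))
  {T : Type*} [AddCommGroup T] [Module k T] (ρT : Representation k G T)
  [∀ w, Finite (WO w)] [∀ w, DecidableEq (WO w)]
  (hopenO : ∀ w, ∃ M₀ ∈ (O.LW w).S, ∀ a, M₀ ≤ (ΔO w).Ha a)

/-- the transferred outside functionals kill unramified cocycles. -/
theorem shlLamW_unr (invW : ∀ w : O.W, hc_C2 (O.LW w) (ρT.comp (O.ι w)) →ₗ[k] k)
    (hunr0 : ∀ (w : O.W) (e : hc_C2 (O.LW w) (ρT.comp (O.ι w))),
      hc_IsLev2 (ρT.comp (O.ι w)) (O.I w) (e : O.H w × O.H w → T) →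
      hc_d23 (O.LW w) (ρT.comp (O.ι w)) e = 0 → invW w e = 0)
    (hU : ∃ N ∈ L.S, N ≤ U) (w : O.W) [(O.I w).Normal] (a : WO w)
    (x : hc_C2 (shapLevSub (O.LW w) ((ΔO w).Ha a)) ((ρT.comp U.subtype).comp ((ΔO w).th a)))
    (hx : hc_IsLev2 ((ρT.comp U.subtype).comp ((ΔO w).th a))
      ((O.I w).subgroupOf ((ΔO w).Ha a)) (x : (ΔO w).Ha a × (ΔO w).Ha a → T))
    (hdx : hc_d23 _ _ x = 0) :
    shlLamW O U ΔO ρT hopenO invW ⟨w, a⟩ x = 0 := by
  rw [shlLamW_apply]
  exact hunr0 w _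
    (shlCorA₂_isLev (O.LW w) (ΔO w) ρT (hopenO w) (O.I w) (shl_I_le_Ha O U ΔO hU w) a x hx)
    (shlCorA₂_cocycle (O.LW w) (ΔO w) ρT (hopenO w) a x hdx)

end lamW

end Fermat.Agent.S55
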