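import Fermat.Agent.S55.Trace
import Fermat.Agent.S55.ShapLocUnr
import Fermat.Agent.S55.ShapPair

/-!
# S55, block TRU: the trace formula at the level of the subgroup `U`

Setting of `Trace.lean`: level structures `L ≤ Linf` on `G`, cone places `D : hc_Loc L`, outside
places `O : tr_Out L Linf`, local invariants `I : tr_Inv D hD O ρT`, trace `τ = tr_tau hL I` on
the cone 3-cochains `C_c³(G; T)`.  Let `U ≤ G` be of finite index containing a level of `L`,
`ρU = ρT|U`, `ρI = Coind_U^G (ρT|U)`, `Σ_* = shapSigma U ρT : Coind_U^G (T|U) → T`, `r` an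
equivariant retraction `G → U`, and for every cone place `v` (outside place `w`) double coset
data `Δ v : ShlDec (D.ι v) U (Wv v)` with a local Mackey package `P v : ShapLP (D.Lv v) (Δ v) ρU`
(resp. `ΔO w`, `PO w`).  The places of `U` above `v` are the pairs `(v, a)`, `a : Wv v`, with
local group `(Δ v).Ha a` and map `(Δ v).th a` to `U`.

* `tru_cone3`: the degree-3 component of the cone map of the Shapiro comparison followed by
  `Σ_*`:  `(a, c) ↦ (Σ_* j₃ a, (Σ_* (ψ₂ c_v + e₃ (res_v j₃ a)))_v) : C_c³(G; T)`; the trace of `U`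
  is `τ ∘ tru_cone3`;
* `tru_lam v = inv_v ∘ Σ_* ∘ ψ₂` (`tru_lamW w` at the outside places): the local functionals on
  the families of local 2-cochains at the places of `U` above `v`; they kill coboundaries
  (`tru_lam_d`, `tru_lamW_d`);
* `tru_loc`: `τ (tru_cone3 (0, c)) = ∑ v, tru_lam v (c v)`;
* `tru_eval` / `tru_eval_shl`: for `z` a 2-cochain of `U` of the finer level structure with
  `d z = a` of level `L`, and unramified trivialisations `e_{w,a}` of `res_{w,a} (d z)` at the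
  places of `U` above the outside places,
  `τ (tru_cone3 (a, c)) = ∑ v, tru_lam v (c_v - res_v z) + ∑ᶠ w, tru_lamW w (e_w - res_w z)`.

Everything is formal: `tr_tau_loc`, `tr_tau_eval`, the full homotopy identity `shlP_full₂` of
the local packages and `Φ_a ∘ res ∘ j = res_{θ_a}` (`tru_phi_res_j₂/₃`, valid when
`r (g_a) = 1`).
-/

set_option autoImplicit false
set_option linter.unusedSectionVars false
set_option linter.unusedVariables false
set_option linter.checkUnivs false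

namespace Fermat.Agent.S55

universe u v w v' w'

section phires

variable {k : Type*} [CommRing k] {G H : Type*} [Group G] [Group H]
  {LH : hc_Lev H} {L : hc_Lev G} {ι : H →* G} (hι : hc_LevCompat LH L ι)
  {U : Subgroup G} {W : Type*} (Δ : ShlDec ι U W)
  {N : Type*} [AddCommGroup N] [Module k N] (ρ : Representation k U N)
  (r : G → U) (hr : ∀ (u : U) (x : G), r ((u : G) * x) = u * r x)
  (hU : ∃ M ∈ L.S, M ≤ U)

include hr in
/-- the retraction at `g_a * ι z`, `z ∈ H_a`, when `r (g_a) = 1`. -/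
theorem tru_r_g_mul (a : W) (hg : r (Δ.g a) = 1) (z : Δ.Ha a) :
    r (Δ.g a * ι (z : H)) = Δ.th a z := by
  rw [Δ.g_mul_iota, hr, hg, mul_one]

include hr in
/-- `Φ_a ∘ res ∘ j = res_{θ_a}` in degree 2, when `r (g_a) = 1`. -/
theorem tru_phi_res_j₂ (a : W) (hg : r (Δ.g a) = 1) (x : hc_C2 (shapLevSub L U) ρ) :
    shapPhiL₂ LH Δ ρ a (hc_res2 hι (Representation.coind U.subtype ρ)
        (shapJL₂ L U ρ r hr hU x)) =
      hc_res2 (shl_th_compat Δ hι a) ρ x := by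
  apply Subtype.ext
  funext ⟨z, z'⟩
  show ((shapJL₂ L U ρ r hr hU x).1 (ι (z : H), ι (z' : H))).1 (Δ.g a) =
    x.1 (Δ.th a z, Δ.th a z')
  rw [shapJL₂_apply]
  have h2 : r (Δ.g a * ι (z : H) * ι (z' : H)) = Δ.th a z * Δ.th a z' := by
    rw [mul_assoc, ← map_mul, ← Subgroup.coe_mul, tru_r_g_mul Δ r hr a hg, map_mul]
  simp only [shapJ₂, shapTinv₂, shapC₂]
  rw [h2, tru_r_g_mul Δ r hr a hg, hg, map_one, inv_one, one_mul, inv_mul_cancel_left]
  rfl

include hr in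
/-- `Φ_a ∘ res ∘ j = res_{θ_a}` in degree 3, when `r (g_a) = 1`. -/
theorem tru_phi_res_j₃ (a : W) (hg : r (Δ.g a) = 1) (x : hc_C3 (shapLevSub L U) ρ) :
    shapPhiL₃ LH Δ ρ a (hc_res3 hι (Representation.coind U.subtype ρ)
        (shapJL₃ L U ρ r hr hU x)) =
      hc_res3 (shl_th_compat Δ hι a) ρ x := by
  apply Subtype.ext
  funext ⟨z, z', z''⟩
  show ((shapJL₃ L U ρ r hr hU x).1 (ι (z : H), ι (z' : H), ι (z'' : H))).1 (Δ.g a) =
    x.1 (Δ.th a z, Δ.th a z', Δ.th a z'')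
  rw [shapJL₃_apply]
  have h2 : r (Δ.g a * ι (z : H) * ι (z' : H)) = Δ.th a z * Δ.th a z' := by
    rw [mul_assoc, ← map_mul, ← Subgroup.coe_mul, tru_r_g_mul Δ r hr a hg, map_mul]
  have h3 : r (Δ.g a * ι (z : H) * ι (z' : H) * ι (z'' : H)) =
      Δ.th a z * Δ.th a z' * Δ.th a z'' := by
    rw [mul_assoc, mul_assoc, ← map_mul, ← map_mul, ← Subgroup.coe_mul, ← Subgroup.coe_mul,
      tru_r_g_mul Δ r hr a hg, map_mul, map_mul, mul_assoc]
  simp only [shapJ₃, shapTinv₃, shapC₃]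
  rw [h3, h2, tru_r_g_mul Δ r hr a hg, hg, map_one, inv_one, one_mul, inv_mul_cancel_left,
    inv_mul_cancel_left]
  rfl

/-- the section `j` does not depend on the level structure (raw form), degree 3. -/
theorem tru_JL₃_coe (x : hc_C3 (shapLevSub L U) ρ) :
    ((shapJL₃ L U ρ r hr hU x : hc_C3 L (Representation.coind U.subtype ρ)) :
      G × G × G → ↥(Representation.coindV U.subtype ρ)) = shapJF₃ U ρ r hr x.1 := rfl

end phires

section gen

variable {k : Type*} [CommRing k] {G : Type*} [Group G]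
  {T : Type*} [AddCommGroup T] [Module k T] {ρT : Representation k G T}
  (U : Subgroup G) [U.FiniteIndex]

local notation "ρU" => MonoidHom.comp ρT (Subgroup.subtype U)
local notation "ρI" => Representation.coind (Subgroup.subtype U)
  (MonoidHom.comp ρT (Subgroup.subtype U))

/-- equivariance of `Σ_*` along a homomorphism to `G`. -/
theorem tru_sigma_equiv {H : Type*} [Group H] (ι : H →* G) :
    ∀ (g : H) (a : ↥(Representation.coindV U.subtype (ρU))),
      shapSigma U ρT (((ρI).comp ι) g a) = (ρT.comp ι) g (shapSigma U ρT a) :=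
  fun g a => shapSigma_equivariant U ρT (ι g) a

/-- the homotopy step at one place: for a `Coind`-valued local 2-cochain `g` with
`Φ_a g = φ a` and `d g = dg`, the cochain `ψ₂ c + e₃ dg` is `g + ψ₂ (c - φ)` up to a
coboundary. -/
theorem tru_step {H : Type*} [Group H] {LH : hc_Lev H} {ι : H →* G} {W : Type*}
    {Δ₀ : ShlDec ι U W} (P₀ : ShapLP LH Δ₀ (ρT.comp U.subtype))
    (c φ : ∀ a : W, hc_C2 (shapLevSub LH (Δ₀.Ha a)) ((ρU).comp (Δ₀.th a)))
    (g : hc_C2 LH ((ρI).comp ι)) (dg : hc_C3 LH ((ρI).comp ι))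
    (hφ : ∀ a, shapPhiL₂ LH Δ₀ (ρU) a g = φ a) (hdg : hc_d23 LH _ g = dg) :
    ∃ y : hc_C1 LH ((ρI).comp ι),
      P₀.psi2 c + P₀.e3 dg + hc_d12 LH _ y = g + P₀.psi2 (fun a => c a - φ a) := by
  have full := shlP_full₂ P₀ g
  have hφ' : (fun a => shapPhiL₂ LH Δ₀ (ρU) a g) = φ := funext hφ
  rw [hφ', hdg] at full
  refine ⟨P₀.e2 (g - P₀.psi2 φ - P₀.e3 dg), ?_⟩
  have hsub : P₀.psi2 (fun a => c a - φ a) + P₀.psi2 φ = P₀.psi2 c := by
    rw [← map_add]
    congr 1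
    funext a
    exact sub_add_cancel (c a) (φ a)
  calc P₀.psi2 c + P₀.e3 dg + hc_d12 LH _ (P₀.e2 (g - P₀.psi2 φ - P₀.e3 dg))
      = (P₀.psi2 (fun a => c a - φ a) + P₀.psi2 φ) + P₀.e3 dg
          + hc_d12 LH _ (P₀.e2 (g - P₀.psi2 φ - P₀.e3 dg)) := by rw [hsub]
    _ = (P₀.psi2 φ + P₀.e3 dg + hc_d12 LH _ (P₀.e2 (g - P₀.psi2 φ - P₀.e3 dg)))
          + P₀.psi2 (fun a => c a - φ a) := by abel
    _ = g + P₀.psi2 (fun a => c a - φ a) := by rw [← full]

/-- the contribution of one place: a functional killing coboundaries sees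
`Σ_* (ψ₂ c + e₃ dg) - Σ_* g` as `Σ_* ψ₂ (c - φ)`. -/
theorem tru_place {H : Type*} [Group H] {LH : hc_Lev H} {ι : H →* G} {W : Type*}
    {Δ₀ : ShlDec ι U W} (P₀ : ShapLP LH Δ₀ (ρT.comp U.subtype))
    (inv : hc_C2 LH (ρT.comp ι) →ₗ[k] k)
    (hinv : ∀ b : hc_C1 LH (ρT.comp ι), inv (hc_d12 LH (ρT.comp ι) b) = 0)
    (c φ : ∀ a : W, hc_C2 (shapLevSub LH (Δ₀.Ha a)) ((ρU).comp (Δ₀.th a)))
    (g : hc_C2 LH ((ρI).comp ι)) (dg : hc_C3 LH ((ρI).comp ι))
    (hφ : ∀ a, shapPhiL₂ LH Δ₀ (ρU) a g = φ a) (hdg : hc_d23 LH _ g = dg) :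
    inv (hc_map2 LH (shapSigma U ρT) (tru_sigma_equiv U ι) (P₀.psi2 c + P₀.e3 dg)
        - hc_map2 LH (shapSigma U ρT) (tru_sigma_equiv U ι) g) =
      inv (hc_map2 LH (shapSigma U ρT) (tru_sigma_equiv U ι)
        (P₀.psi2 (fun a => c a - φ a))) := by
  obtain ⟨y, hy⟩ := tru_step U P₀ c φ g dg hφ hdg
  have h1 := congrArg (fun x => inv (hc_map2 LH (shapSigma U ρT) (tru_sigma_equiv U ι) x)) hy
  simp only [map_add, hc_map2_d12, hinv, add_zero] at h1
  rw [map_sub, map_add, map_add, h1, add_sub_cancel_left]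

end gen

section defs

variable {k : Type*} [Field k] {G : Type u} [Group G] {L Linf : hc_Lev G}
  {D : hc_Loc.{u, v, w} L} [Fintype D.V]
  {hD : ∀ v, hc_LevCompat (D.Lv v) Linf (D.ι v)}
  {O : tr_Out.{u, v', w'} L Linf}
  {T : Type*} [AddCommGroup T] [Module k T] {ρT : Representation k G T}
  (I : tr_Inv D hD O ρT)
  (U : Subgroup G) [U.FiniteIndex]
  (r : G → U) (hr : ∀ (u : U) (x : G), r ((u : G) * x) = u * r x)
  (hU : ∃ M ∈ L.S, M ≤ U)
  {Wv : D.V → Type*} (Δ : ∀ v, ShlDec (D.ι v) U (Wv v))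
  (P : ∀ v, ShapLP (D.Lv v) (Δ v) (ρT.comp U.subtype))
  {WO : O.W → Type*} (ΔO : ∀ w, ShlDec (O.ι w) U (WO w))
  (PO : ∀ w, ShapLP (O.LW w) (ΔO w) (ρT.comp U.subtype))

local notation "ρU" => MonoidHom.comp ρT (Subgroup.subtype U)
local notation "ρI" => Representation.coind (Subgroup.subtype U)
  (MonoidHom.comp ρT (Subgroup.subtype U))

/-- the degree-3 component of the cone map of the Shapiro comparison, with values in the cone
of the coinduced module: `(a, c) ↦ (j₃ a, (ψ₂ c_v + e₃ (res_v j₃ a))_v)`. -/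
noncomputable def tru_coneI3 :
    (hc_C3 (shapLevSub L U) ρU × (∀ v, ∀ a : Wv v,
      hc_C2 (shapLevSub (D.Lv v) ((Δ v).Ha a)) ((ρU).comp ((Δ v).th a)))) →ₗ[k]
      hc_Cc3 D ρI :=
  LinearMap.prod ((shapJL₃ L U ρU r hr hU).comp (LinearMap.fst k _ _))
    (LinearMap.pi fun v =>
      ((P v).psi2.comp ((LinearMap.proj v).comp (LinearMap.snd k _ _)))
        + (((P v).e3.comp (hc_res3 (D.compat v) ρI)).comp
            ((shapJL₃ L U ρU r hr hU).comp (LinearMap.fst k _ _))))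

theorem tru_coneI3_fst (x : hc_C3 (shapLevSub L U) ρU × (∀ v, ∀ a : Wv v,
      hc_C2 (shapLevSub (D.Lv v) ((Δ v).Ha a)) ((ρU).comp ((Δ v).th a)))) :
    (tru_coneI3 U r hr hU Δ P x).1 = shapJL₃ L U ρU r hr hU x.1 := rfl

theorem tru_coneI3_snd (x : hc_C3 (shapLevSub L U) ρU × (∀ v, ∀ a : Wv v,
      hc_C2 (shapLevSub (D.Lv v) ((Δ v).Ha a)) ((ρU).comp ((Δ v).th a)))) (v : D.V) :
    (tru_coneI3 U r hr hU Δ P x).2 v = (P v).psi2 (x.2 v)
      + (P v).e3 (hc_res3 (D.compat v) ρI (shapJL₃ L U ρU r hr hU x.1)) := rfl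

/-- the degree-3 cone map followed by the trace `Σ_* : Coind_U (T|U) → T`. -/
noncomputable def tru_cone3 :
    (hc_C3 (shapLevSub L U) ρU × (∀ v, ∀ a : Wv v,
      hc_C2 (shapLevSub (D.Lv v) ((Δ v).Ha a)) ((ρU).comp ((Δ v).th a)))) →ₗ[k]
      hc_Cc3 D ρT :=
  (hc_cmap3 D (shapSigma U ρT) (shapSigma_equivariant U ρT)).comp (tru_coneI3 U r hr hU Δ P)

theorem tru_cone3_fst (x : hc_C3 (shapLevSub L U) ρU × (∀ v, ∀ a : Wv v,
      hc_C2 (shapLevSub (D.Lv v) ((Δ v).Ha a)) ((ρU).comp ((Δ v).th a)))) :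
    (tru_cone3 U r hr hU Δ P x).1 =
      hc_map3 L (shapSigma U ρT) (shapSigma_equivariant U ρT)
        (shapJL₃ L U ρU r hr hU x.1) := rfl

theorem tru_cone3_snd (x : hc_C3 (shapLevSub L U) ρU × (∀ v, ∀ a : Wv v,
      hc_C2 (shapLevSub (D.Lv v) ((Δ v).Ha a)) ((ρU).comp ((Δ v).th a)))) (v : D.V) :
    (tru_cone3 U r hr hU Δ P x).2 v =
      hc_map2 (D.Lv v) (shapSigma U ρT) (hc_equiv_loc D (shapSigma_equivariant U ρT) v)
        ((P v).psi2 (x.2 v)
          + (P v).e3 (hc_res3 (D.compat v) ρI (shapJL₃ L U ρU r hr hU x.1))) := rfl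

/-- the local functional at the places of `U` above the cone place `v`:
`inv_v ∘ Σ_* ∘ ψ₂`. -/
noncomputable def tru_lam (v : D.V) :
    (∀ a : Wv v, hc_C2 (shapLevSub (D.Lv v) ((Δ v).Ha a)) ((ρU).comp ((Δ v).th a)))
      →ₗ[k] k :=
  (I.inv v).comp ((hc_map2 (D.Lv v) (shapSigma U ρT)
    (hc_equiv_loc D (shapSigma_equivariant U ρT) v)).comp (P v).psi2)

/-- the local functional at the places of `U` above the outside place `w`:
`invW_w ∘ Σ_* ∘ ψ₂`. -/
noncomputable def tru_lamW (w : O.W) :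
    (∀ a : WO w, hc_C2 (shapLevSub (O.LW w) ((ΔO w).Ha a)) ((ρU).comp ((ΔO w).th a)))
      →ₗ[k] k :=
  (I.invW w).comp ((hc_map2 (O.LW w) (shapSigma U ρT)
    (tru_sigma_equiv U (O.ι w))).comp (PO w).psi2)

end defs

section thms

variable {k : Type*} [Field k] {G : Type u} [Group G] {L Linf : hc_Lev G}
  (hL : ∀ N ∈ L.S, ∃ N' ∈ Linf.S, N' ≤ N)
  {D : hc_Loc.{u, v, w} L} [Fintype D.V]
  {hD : ∀ v, hc_LevCompat (D.Lv v) Linf (D.ι v)}
  {O : tr_Out.{u, v', w'} L Linf}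
  {T : Type*} [AddCommGroup T] [Module k T] {ρT : Representation k G T}
  (I : tr_Inv D hD O ρT)
  (U : Subgroup G) [U.FiniteIndex]
  (r : G → U) (hr : ∀ (u : U) (x : G), r ((u : G) * x) = u * r x)
  (hU : ∃ M ∈ L.S, M ≤ U)
  {Wv : D.V → Type*} (Δ : ∀ v, ShlDec (D.ι v) U (Wv v))
  (P : ∀ v, ShapLP (D.Lv v) (Δ v) (ρT.comp U.subtype))
  {WO : O.W → Type*} (ΔO : ∀ w, ShlDec (O.ι w) U (WO w))
  (PO : ∀ w, ShapLP (O.LW w) (ΔO w) (ρT.comp U.subtype))

local notation "ρU" => MonoidHom.comp ρT (Subgroup.subtype U)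
local notation "ρI" => Representation.coind (Subgroup.subtype U)
  (MonoidHom.comp ρT (Subgroup.subtype U))

/-- **(i) the `U`-level trace on purely local cone cochains** is the sum of the local
functionals `tru_lam v`. -/
theorem tru_loc (c : ∀ v, ∀ a : Wv v,
      hc_C2 (shapLevSub (D.Lv v) ((Δ v).Ha a)) ((ρU).comp ((Δ v).th a))) :
    tr_tau hL I (tru_cone3 U r hr hU Δ P (0, c)) = ∑ v, tru_lam I U Δ P v (c v) := by
  have h : tru_cone3 U r hr hU Δ P (0, c) = (0, fun v =>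
      hc_map2 (D.Lv v) (shapSigma U ρT) (hc_equiv_loc D (shapSigma_equivariant U ρT) v)
        ((P v).psi2 (c v))) := by
    refine Prod.ext ?_ (funext fun v => ?_)
    · rw [tru_cone3_fst]
      simp
    · rw [tru_cone3_snd]
      simp
  rw [h, tr_tau_loc]
  rfl

/-- the local functionals kill coboundaries. -/
theorem tru_lam_d (v : D.V) (b : ∀ a : Wv v,
      hc_C1 (shapLevSub (D.Lv v) ((Δ v).Ha a)) ((ρU).comp ((Δ v).th a))) :
    tru_lam I U Δ P v (fun a => hc_d12 _ _ (b a)) = 0 := by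
  show I.inv v (hc_map2 (D.Lv v) (shapSigma U ρT)
    (hc_equiv_loc D (shapSigma_equivariant U ρT) v)
      ((P v).psi2 (fun a => hc_d12 _ _ (b a)))) = 0
  rw [shlP_psi2_d (P v) b, hc_map2_d12, I.inv_d]

/-- the local functionals at the outside places kill coboundaries, if the invariants do. -/
theorem tru_lamW_d
    (hWd : ∀ (w : O.W) (c : hc_C1 (O.LW w) (ρT.comp (O.ι w))),
      I.invW w (hc_d12 (O.LW w) (ρT.comp (O.ι w)) c) = 0)
    (w : O.W) (b : ∀ a : WO w,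
      hc_C1 (shapLevSub (O.LW w) ((ΔO w).Ha a)) ((ρU).comp ((ΔO w).th a))) :
    tru_lamW I U ΔO PO w (fun a => hc_d12 _ _ (b a)) = 0 := by
  show I.invW w (hc_map2 (O.LW w) (shapSigma U ρT)
    (tru_sigma_equiv U (O.ι w))
      ((PO w).psi2 (fun a => hc_d12 _ _ (b a)))) = 0
  rw [shlP_psi2_d (PO w) b, hc_map2_d12, hWd]

include hr in
/-- **(ii) evaluation of the `U`-level trace** on `(d z, c)` for `z` a cochain of `U` of the
finer level structure: the sum of the local functionals of `c_{v,a} - res_{v,a} z` over the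
places of `U` above the cone places, plus the sum of the local functionals of
`e_{w,a} - res_{w,a} z` over the places of `U` above the outside places, for unramified
trivialisations `e_{w,a}` of `res_{w,a} (d z)`. -/
theorem tru_eval
    (hg : ∀ v a, r ((Δ v).g a) = 1) (hgO : ∀ w a, r ((ΔO w).g a) = 1)
    (hWd : ∀ (w : O.W) (c : hc_C1 (O.LW w) (ρT.comp (O.ι w))),
      I.invW w (hc_d12 (O.LW w) (ρT.comp (O.ι w)) c) = 0)
    (hpsi : ∀ (w : O.W) (c : ∀ a : WO w,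
        hc_C2 (shapLevSub (O.LW w) ((ΔO w).Ha a)) ((ρU).comp ((ΔO w).th a))),
      (∀ a, hc_IsLev2 ((ρU).comp ((ΔO w).th a)) ((O.I w).subgroupOf ((ΔO w).Ha a))
        (c a : ↥((ΔO w).Ha a) × ↥((ΔO w).Ha a) → T)) →
      hc_IsLev2 ((ρI).comp (O.ι w)) (O.I w)
        ((PO w).psi2 c : O.H w × O.H w → ↥(Representation.coindV U.subtype (ρU))))
    (he3 : ∀ (w : O.W) (f : hc_C3 (O.LW w) ((ρI).comp (O.ι w))),
      hc_IsLev3 ((ρI).comp (O.ι w)) (O.I w)
        (f : O.H w × O.H w × O.H w → ↥(Representation.coindV U.subtype (ρU))) →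
      hc_IsLev2 ((ρI).comp (O.ι w)) (O.I w)
        ((PO w).e3 f : O.H w × O.H w → ↥(Representation.coindV U.subtype (ρU))))
    (a3 : hc_C3 (shapLevSub L U) (ρU))
    (c : ∀ v, ∀ a : Wv v, hc_C2 (shapLevSub (D.Lv v) ((Δ v).Ha a)) ((ρU).comp ((Δ v).th a)))
    (z : hc_C2 (shapLevSub Linf U) (ρU))
    (e : ∀ w, ∀ a : WO w,
      hc_C2 (shapLevSub (O.LW w) ((ΔO w).Ha a)) ((ρU).comp ((ΔO w).th a)))
    (hz : (a3 : ↥U × ↥U × ↥U → T) = hc_d23f (ρU) (z : ↥U × ↥U → T))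
    (he : ∀ w a, hc_IsLev2 ((ρU).comp ((ΔO w).th a)) ((O.I w).subgroupOf ((ΔO w).Ha a))
        (e w a : ↥((ΔO w).Ha a) × ↥((ΔO w).Ha a) → T) ∧
      hc_d23 _ _ (e w a) = hc_res3 (shl_th_compat (ΔO w) (O.compat w) a) (ρU)
        (hc_d23 (shapLevSub Linf U) (ρU) z)) :
    tr_tau hL I (tru_cone3 U r hr hU Δ P (a3, c)) =
      ∑ v, tru_lam I U Δ P v
          (fun a => c v a - hc_res2 (shl_th_compat (Δ v) (hD v) a) (ρU) z)
        + ∑ᶠ w, tru_lamW I U ΔO PO w
          (fun a => e w a - hc_res2 (shl_th_compat (ΔO w) (O.compat w) a) (ρU) z) := by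
  classical
  have hUinf : ∃ M ∈ Linf.S, M ≤ U := by
    obtain ⟨M, hM, hMU⟩ := hU
    obtain ⟨M', hM', hle⟩ := hL M hM
    exact ⟨M', hM', hle.trans hMU⟩
  -- the `Coind`-valued cochain `j₂ z` and its trace
  obtain ⟨jz, hjz⟩ : ∃ jz : hc_C2 Linf (ρI), jz = shapJL₂ Linf U (ρU) r hr hUinf z := ⟨_, rfl⟩
  obtain ⟨z', hz'⟩ : ∃ z' : hc_C2 Linf ρT,
    z' = hc_map2 Linf (shapSigma U ρT) (shapSigma_equivariant U ρT) jz := ⟨_, rfl⟩
  have hdj : hc_d23 Linf (ρI) jz =
      shapJL₃ Linf U (ρU) r hr hUinf (hc_d23 (shapLevSub Linf U) (ρU) z) := by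
    rw [hjz]
    exact shapJL_d23 Linf U (ρU) r hr hUinf z
  have hraw : ((hc_d23 Linf (ρI) jz : hc_C3 Linf (ρI)) :
        G × G × G → ↥(Representation.coindV U.subtype (ρU))) =
      ((shapJL₃ L U (ρU) r hr hU a3 : hc_C3 L (ρI)) :
        G × G × G → ↥(Representation.coindV U.subtype (ρU))) := by
    rw [hdj, tru_JL₃_coe, tru_JL₃_coe]
    congr 1
    exact hz.symm
  have hdz' : hc_d23 Linf ρT z' = hc_map3 Linf (shapSigma U ρT) (shapSigma_equivariant U ρT)
      (hc_d23 Linf (ρI) jz) := by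
    rw [hz', hc_map3_d23]
  -- the global component
  have hA3 : ((tru_cone3 U r hr hU Δ P (a3, c)).1 : G × G × G → T) =
      hc_d23f ρT (z' : G × G → T) := by
    have h2 : (hc_d23 Linf ρT z' : G × G × G → T) = hc_d23f ρT (z' : G × G → T) := rfl
    rw [← h2, hdz', tru_cone3_fst]
    funext x
    show shapSigma U ρT ((shapJL₃ L U (ρU) r hr hU a3 :
        G × G × G → ↥(Representation.coindV U.subtype (ρU))) x) =
      shapSigma U ρT ((hc_d23 Linf (ρI) jz :
        G × G × G → ↥(Representation.coindV U.subtype (ρU))) x)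
    rw [hraw]
  -- the outside trivialisations
  obtain ⟨f, hf⟩ : ∃ f : ∀ w, hc_C3 (O.LW w) ((ρI).comp (O.ι w)),
    f = fun w => hc_res3 (O.compat w) (ρI) (hc_d23 Linf (ρI) jz) := ⟨_, rfl⟩
  obtain ⟨E, hE⟩ : ∃ E : ∀ w, hc_C2 (O.LW w) (ρT.comp (O.ι w)),
    E = fun w => hc_map2 (O.LW w) (shapSigma U ρT)
      (tru_sigma_equiv U (O.ι w))
      ((PO w).psi2 (e w) + (PO w).e3 (f w)) := ⟨_, rfl⟩
  have hEprop : ∀ w, hc_IsLev2 (ρT.comp (O.ι w)) (O.I w) (E w : O.H w × O.H w → T) ∧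
      hc_d23 (O.LW w) (ρT.comp (O.ι w)) (E w) =
        hc_res3 (O.compat w) ρT (hc_d23 Linf ρT z') := by
    intro w
    have hflev : hc_IsLev3 ((ρI).comp (O.ι w)) (O.I w)
        (f w : O.H w × O.H w × O.H w → ↥(Representation.coindV U.subtype (ρU))) := by
      obtain ⟨N, hN, hlev⟩ := (shapJL₃ L U (ρU) r hr hU a3).2
      have h1 := hc_isLev3_res (ρI) (O.unr w N hN) hlev
      have h2 : (f w : O.H w × O.H w × O.H w → ↥(Representation.coindV U.subtype (ρU))) =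
          fun x => (shapJL₃ L U (ρU) r hr hU a3 :
            G × G × G → ↥(Representation.coindV U.subtype (ρU)))
            (O.ι w x.1, O.ι w x.2.1, O.ι w x.2.2) := by
        rw [hf, ← hraw]
        rfl
      rw [h2]
      exact h1
    have hk3 : f w = hc_d23 (O.LW w) _ ((PO w).psi2 (e w) + (PO w).e3 (f w)) := by
      refine (PO w).k3 (f w) (e w) ?_ (fun a => ?_)
      · have h1 : f w = hc_d23 (O.LW w) ((ρI).comp (O.ι w))
            (hc_res2 (O.compat w) (ρI) jz) := by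
          rw [hf]
          exact hc_res3_d23 (O.compat w) (ρI) jz
        rw [h1]
        exact hc_d34f_d23 _ _ _
      · rw [(he w a).2]
        have h1 : f w = hc_res3 (O.compat w) (ρI)
            (shapJL₃ Linf U (ρU) r hr hUinf (hc_d23 (shapLevSub Linf U) (ρU) z)) := by
          rw [hf, hdj]
        rw [h1]
        exact tru_phi_res_j₃ (O.compat w) (ΔO w) (ρU) r hr hUinf a (hgO w a) _
    refine ⟨?_, ?_⟩
    · rw [hE]
      exact hc_isLev2_map (tru_sigma_equiv U (O.ι w))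
        (tr_isLev2_add (hpsi w (e w) (fun a => (he w a).1)) (he3 w (f w) hflev))
    · rw [hE]
      show hc_d23 (O.LW w) (ρT.comp (O.ι w)) (hc_map2 (O.LW w) (shapSigma U ρT)
        (tru_sigma_equiv U (O.ι w))
        ((PO w).psi2 (e w) + (PO w).e3 (f w))) = _
      rw [← hc_map3_d23, ← hk3, hdz', hf]
      rfl
  have hsplit : tru_cone3 U r hr hU Δ P (a3, c) =
      ((tru_cone3 U r hr hU Δ P (a3, c)).1, (tru_cone3 U r hr hU Δ P (a3, c)).2) := rfl
  rw [hsplit, tr_tau_eval hL I _ _ z' E hA3 hEprop]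
  congr 1
  · -- the cone places
    refine Finset.sum_congr rfl fun v _ => ?_
    have hΦ : ∀ a, shapPhiL₂ (D.Lv v) (Δ v) (ρU) a (hc_res2 (hD v) (ρI) jz) =
        hc_res2 (shl_th_compat (Δ v) (hD v) a) (ρU) z := by
      intro a
      rw [hjz]
      exact tru_phi_res_j₂ (hD v) (Δ v) (ρU) r hr hUinf a (hg v a) z
    have hdg : hc_d23 (D.Lv v) _ (hc_res2 (hD v) (ρI) jz) =
        hc_res3 (D.compat v) (ρI) (shapJL₃ L U (ρU) r hr hU a3) := by
      rw [← hc_res3_d23]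
      apply Subtype.ext
      funext x
      show (hc_d23 Linf (ρI) jz : G × G × G → ↥(Representation.coindV U.subtype (ρU)))
          (D.ι v x.1, D.ι v x.2.1, D.ι v x.2.2) = _
      rw [hraw]
      rfl
    subst hz'
    exact tru_place U (P v) (I.inv v) (I.inv_d v) (c v) _ (hc_res2 (hD v) (ρI) jz) _ hΦ hdg
  · -- the outside places
    refine finsum_congr fun w => ?_
    have hΦ : ∀ a, shapPhiL₂ (O.LW w) (ΔO w) (ρU) a (hc_res2 (O.compat w) (ρI) jz) =
        hc_res2 (shl_th_compat (ΔO w) (O.compat w) a) (ρU) z := by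
      intro a
      rw [hjz]
      exact tru_phi_res_j₂ (O.compat w) (ΔO w) (ρU) r hr hUinf a (hgO w a) z
    have hdg : hc_d23 (O.LW w) _ (hc_res2 (O.compat w) (ρI) jz) = f w := by
      rw [hf, ← hc_res3_d23]
    subst hz' hE
    exact tru_place U (PO w) (I.invW w) (hWd w) (e w) _ (hc_res2 (O.compat w) (ρI) jz) _ hΦ hdg

end thms

section concrete

variable {k : Type*} [Field k] {G : Type u} [Group G] {L Linf : hc_Lev G}
  (hL : ∀ N ∈ L.S, ∃ N' ∈ Linf.S, N' ≤ N)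
  {D : hc_Loc.{u, v, w} L} [Fintype D.V]
  {hD : ∀ v, hc_LevCompat (D.Lv v) Linf (D.ι v)}
  {O : tr_Out.{u, v', w'} L Linf}
  {T : Type*} [AddCommGroup T] [Module k T] {ρT : Representation k G T}
  (I : tr_Inv D hD O ρT)
  (U : Subgroup G) [U.FiniteIndex]
  (r : G → U) (hr : ∀ (u : U) (x : G), r ((u : G) * x) = u * r x)
  (hU : ∃ M ∈ L.S, M ≤ U)
  {Wv : D.V → Type*} (Δ : ∀ v, ShlDec (D.ι v) U (Wv v))
  (P : ∀ v, ShapLP (D.Lv v) (Δ v) (ρT.comp U.subtype))
  {WO : O.W → Type*} (ΔO : ∀ w, ShlDec (O.ι w) U (WO w))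

local notation "ρU" => MonoidHom.comp ρT (Subgroup.subtype U)
local notation "ρI" => Representation.coind (Subgroup.subtype U)
  (MonoidHom.comp ρT (Subgroup.subtype U))

include hL hU in
/-- `U` contains a level of the finer level structure. -/
theorem tru_hUinf : ∃ M ∈ Linf.S, M ≤ U := by
  obtain ⟨M, hM, hMU⟩ := hU
  obtain ⟨M', hM', hle⟩ := hL M hM
  exact ⟨M', hM', hle.trans hMU⟩

include hU in
/-- the inertia subgroups at the outside places lie in all the local subgroups `H_a`. -/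
theorem tru_I_le_Ha (w : O.W) (a : WO w) : O.I w ≤ (ΔO w).Ha a := by
  obtain ⟨N, hN, hNU⟩ := hU
  intro s hs
  have h1 : O.ι w s ∈ N := O.unr w N hN hs
  have h2 : (ΔO w).g a * O.ι w s * ((ΔO w).g a)⁻¹ ∈ N := (L.nor N hN).conj_mem _ h1 _
  exact (ΔO w).mem_Ha.2 (hNU h2)

variable [∀ w, Finite (WO w)] [∀ w, (O.I w).Normal]

/-- the concrete local Mackey packages at the outside places. -/
noncomputable def tru_PO (w : O.W) : ShapLP (O.LW w) (ΔO w) (ρT.comp U.subtype) :=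
  shlLP (O.LW w) (ΔO w) (ρU) (shl_hopen (ΔO w) (O.compat w) (tru_hUinf hL U hU))

include hr in
/-- **(ii) evaluation of the `U`-level trace**, with the concrete local Mackey packages at the
outside places (where the preservation of unramifiedness is automatic). -/
theorem tru_eval_shl
    (hg : ∀ v a, r ((Δ v).g a) = 1) (hgO : ∀ w a, r ((ΔO w).g a) = 1)
    (hWd : ∀ (w : O.W) (c : hc_C1 (O.LW w) (ρT.comp (O.ι w))),
      I.invW w (hc_d12 (O.LW w) (ρT.comp (O.ι w)) c) = 0)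
    (a3 : hc_C3 (shapLevSub L U) (ρU))
    (c : ∀ v, ∀ a : Wv v, hc_C2 (shapLevSub (D.Lv v) ((Δ v).Ha a)) ((ρU).comp ((Δ v).th a)))
    (z : hc_C2 (shapLevSub Linf U) (ρU))
    (e : ∀ w, ∀ a : WO w,
      hc_C2 (shapLevSub (O.LW w) ((ΔO w).Ha a)) ((ρU).comp ((ΔO w).th a)))
    (hz : (a3 : ↥U × ↥U × ↥U → T) = hc_d23f (ρU) (z : ↥U × ↥U → T))
    (he : ∀ w a, hc_IsLev2 ((ρU).comp ((ΔO w).th a)) ((O.I w).subgroupOf ((ΔO w).Ha a))
        (e w a : ↥((ΔO w).Ha a) × ↥((ΔO w).Ha a) → T) ∧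
      hc_d23 _ _ (e w a) = hc_res3 (shl_th_compat (ΔO w) (O.compat w) a) (ρU)
        (hc_d23 (shapLevSub Linf U) (ρU) z)) :
    tr_tau hL I (tru_cone3 U r hr hU Δ P (a3, c)) =
      ∑ v, tru_lam I U Δ P v
          (fun a => c v a - hc_res2 (shl_th_compat (Δ v) (hD v) a) (ρU) z)
        + ∑ᶠ w, tru_lamW I U ΔO (tru_PO hL U hU ΔO) w
          (fun a => e w a - hc_res2 (shl_th_compat (ΔO w) (O.compat w) a) (ρU) z) :=
  tru_eval hL I U r hr hU Δ P ΔO (tru_PO hL U hU ΔO) hg hgO hWd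
    (fun w c hc => shlPsiL₂_isLev (ΔO w) (ρU) (O.LW w)
      (shl_hopen (ΔO w) (O.compat w) (tru_hUinf hL U hU)) (O.I w)
      (tru_I_le_Ha U hU ΔO w) c hc)
    (fun w f hf => shlEL₃_isLev (ΔO w) (ρU) (O.LW w)
      (shl_hopen (ΔO w) (O.compat w) (tru_hUinf hL U hU)) (O.I w)
      (tru_I_le_Ha U hU ΔO w) f hf)
    a3 c z e hz he

end concrete

end Fermat.Agent.S55
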