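import Mathlib
import Fermat.Agent.S55.ShapLocTru
import Fermat.Agent.S55.Tru

/-!
# S55, block TRU: the `U`-level trace formula

The transferred trace `shapTauU` on the cone complex of `U` is a trace in the sense of
`tr_IsTrace`, with respect to the `U`-level local data `shapLocU D U Δ`, the `U`-level outside
data `ev_outU O U ΔO` and the transferred local functionals `shlLam`, `shlLamW`
(`shl_tru_isTrace`).  This is the adapter between the trace formula `tru_loc`, `tru_eval_shl`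
of `Tru.lean` (families indexed by the double cosets over each place) and the predicate
`tr_IsTrace` consumed by the base case (families indexed by the places of `U`).
-/

set_option autoImplicit false
set_option linter.unusedSectionVars false
set_option linter.unusedVariables false

namespace Fermat.Agent.S55

universe u v w v' w'

section adapter

variable {k : Type*} [Field k] {G : Type u} [Group G] {L Linf : hc_Lev G}
  (hL : ∀ N ∈ L.S, ∃ N' ∈ Linf.S, N' ≤ N)
  {D : hc_Loc.{u, v, w} L} [Fintype D.V]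
  {hD : ∀ v, hc_LevCompat (D.Lv v) Linf (D.ι v)}
  {O : tr_Out.{u, v', w'} L Linf}
  {T : Type*} [AddCommGroup T] [Module k T] {ρT : Representation k G T}
  (I : tr_Inv D hD O ρT)
  (U : Subgroup G) [U.FiniteIndex]
  (r : G → U) (hr : ∀ (u : U) (x : G), r ((u : G) * x) = u * r x)
  (hU : ∃ M ∈ L.S, M ≤ U)
  {W : D.V → Type w} (Δ : ∀ v, ShlDec (D.ι v) U (W v))
  {WO : O.W → Type w'} (ΔO : ∀ w, ShlDec (O.ι w) U (WO w))
  [∀ v, Fintype (W v)] [∀ v, DecidableEq (W v)] [∀ w, Fintype (WO w)] [∀ w, DecidableEq (WO w)]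
  (hopen : ∀ v, ∃ M₀ ∈ (D.Lv v).S, ∀ a, M₀ ≤ (Δ v).Ha a)
  (hopenO : ∀ w, ∃ M₀ ∈ (O.LW w).S, ∀ a, M₀ ≤ (ΔO w).Ha a)

/-- the transferred trace is `τ ∘ tru_cone3` (with the concrete local packages). -/
theorem shl_tauU_eq (x : hc_Cc3 (shapLocU D U Δ) (ρT.comp U.subtype)) :
    shapTauU D U Δ ρT r hr hU (fun v => shlLP (D.Lv v) (Δ v) (ρT.comp U.subtype) (hopen v))
        (tr_tau hL I) x =
      tr_tau hL I (tru_cone3 U r hr hU Δ
        (fun v => shlLP (D.Lv v) (Δ v) (ρT.comp U.subtype) (hopen v))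
        (x.1, fun v a => x.2 ⟨v, a⟩)) := rfl

/-- the local functional of `Tru.lean` at the places above `v` is the sum of the transferred
local functionals. -/
theorem shl_tru_lam_eq (v : D.V)
    (fam : ∀ a : W v, hc_C2 (shapLevSub (D.Lv v) ((Δ v).Ha a))
      ((ρT.comp U.subtype).comp ((Δ v).th a))) :
    tru_lam I U Δ (fun v => shlLP (D.Lv v) (Δ v) (ρT.comp U.subtype) (hopen v)) v fam =
      ∑ a, shlLam D U Δ ρT hopen I.inv ⟨v, a⟩ (fam a) := by
  show I.inv v (hc_map2 (D.Lv v) (shapSigma U ρT) (shl_sigma_equivariant ρT)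
    (shlPsiL₂ (Δ v) (ρT.comp U.subtype) (D.Lv v) (hopen v) fam)) = _
  rw [shl_sigma_psi₂_eq_sum (D.Lv v) (Δ v) ρT (hopen v) fam, map_sum]
  rfl

/-- the outside functional of `Tru.lean` at the places above `w` is the sum of the transferred
outside functionals. -/
theorem shl_tru_lamW_eq [∀ w, (O.I w).Normal] (w : O.W)
    (fam : ∀ a : WO w, hc_C2 (shapLevSub (O.LW w) ((ΔO w).Ha a))
      ((ρT.comp U.subtype).comp ((ΔO w).th a))) :
    tru_lamW I U ΔO (tru_PO hL U hU ΔO) w fam =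
      ∑ a, shlLamW O U ΔO ρT hopenO I.invW ⟨w, a⟩ (fam a) := by
  show I.invW w (hc_map2 (O.LW w) (shapSigma U ρT) (shl_sigma_equivariant ρT)
    (shlPsiL₂ (ΔO w) (ρT.comp U.subtype) (O.LW w) (hopenO w) fam)) = _
  rw [shl_sigma_psi₂_eq_sum (O.LW w) (ΔO w) ρT (hopenO w) fam, map_sum]
  rfl

include hU in
/-- the outside terms of the `U`-level evaluation formula vanish at almost all places of `G`. -/
theorem shl_tru_fin [∀ w, (O.I w).Normal]
    (hfinN : ∀ M ∈ Linf.S, {w : O.W | ¬ O.I w ≤ M.comap (O.ι w)}.Finite)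
    (z : hc_C2 (shapLevSub Linf U) (ρT.comp U.subtype))
    (e : ∀ p : (ev_outU O U ΔO).W,
      hc_C2 ((ev_outU O U ΔO).LW p) ((ρT.comp U.subtype).comp ((ev_outU O U ΔO).ι p)))
    (he : ∀ p, hc_IsLev2 ((ρT.comp U.subtype).comp ((ev_outU O U ΔO).ι p))
        ((ev_outU O U ΔO).I p) (e p : (ev_outU O U ΔO).H p × (ev_outU O U ΔO).H p → T) ∧
      hc_d23 ((ev_outU O U ΔO).LW p) ((ρT.comp U.subtype).comp ((ev_outU O U ΔO).ι p)) (e p)
        = hc_res3 ((ev_outU O U ΔO).compat p) (ρT.comp U.subtype)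
          (hc_d23 (shapLevSub Linf U) (ρT.comp U.subtype) z)) :
    {w : O.W | ∃ a : WO w, shlLamW O U ΔO ρT hopenO I.invW ⟨w, a⟩
      (e ⟨w, a⟩ - hc_res2 ((ev_outU O U ΔO).compat ⟨w, a⟩) (ρT.comp U.subtype) z) ≠ 0}.Finite := by
  refine (shl_fin_U O U ΔO (ρT.comp U.subtype) hfinN z).subset ?_
  rintro w ⟨a, ha⟩ hlev
  refine ha (shlLamW_unr O U ΔO ρT hopenO I.invW I.unr0 hU w a _ ?_ ?_)
  · exact tr_isLev2_sub (he ⟨w, a⟩).1 (hlev a)
  · have h1 := (he ⟨w, a⟩).2
    have h2 := hc_res3_d23 ((ev_outU O U ΔO).compat ⟨w, a⟩) (ρT.comp U.subtype) z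
    have h3 := map_sub (hc_d23 ((ev_outU O U ΔO).LW ⟨w, a⟩)
      ((ρT.comp U.subtype).comp ((ev_outU O U ΔO).ι ⟨w, a⟩))) (e ⟨w, a⟩)
      (hc_res2 ((ev_outU O U ΔO).compat ⟨w, a⟩) (ρT.comp U.subtype) z)
    exact h3.trans (sub_eq_zero.2 (h1.trans h2))

include hr in
/-- **The `U`-level trace formula**: the transferred trace `shapTauU` is a trace
(`tr_IsTrace`) for the `U`-level local data, the `U`-level outside data and the transferred
local functionals. -/
theorem shl_tru_isTrace_aux [∀ w, (O.I w).Normal]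
    (hrg : ∀ v a, r ((Δ v).g a) = 1) (hrgO : ∀ w a, r ((ΔO w).g a) = 1)
    (hWd : ∀ (w : O.W) (c : hc_C1 (O.LW w) (ρT.comp (O.ι w))),
      I.invW w (hc_d12 (O.LW w) (ρT.comp (O.ι w)) c) = 0)
    (hfinN : ∀ M ∈ Linf.S, {w : O.W | ¬ O.I w ≤ M.comap (O.ι w)}.Finite) :
    @tr_IsTrace k _ ↥U _ (shapLevSub L U) (shapLevSub Linf U) (shapLocU D U Δ)
      (inferInstanceAs (Fintype (Σ v : D.V, W v)))
      (shl_hDU D hD U Δ) (ev_outU O U ΔO) T _ _ (ρT.comp U.subtype)
      (shlLam D U Δ ρT hopen I.inv) (shlLamW O U ΔO ρT hopenO I.invW)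
      (shapTauU D U Δ ρT r hr hU
        (fun v => shlLP (D.Lv v) (Δ v) (ρT.comp U.subtype) (hopen v)) (tr_tau hL I)) := by
  let _ : Fintype (shapLocU D U Δ).V := inferInstanceAs (Fintype (Σ v : D.V, W v))
  refine ⟨?_, ?_, ?_⟩
  · exact shapTauU_dc2 D U Δ ρT r hr hU hrg _ (tr_tau hL I) (tr_tau_dc2 hL I)
  · intro c
    rw [shl_tauU_eq hL I U r hr hU Δ hopen]
    have h := tru_loc hL I U r hr hU Δ
      (fun v => shlLP (D.Lv v) (Δ v) (ρT.comp U.subtype) (hopen v)) (fun v a => c ⟨v, a⟩)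
    refine h.trans ?_
    rw [Fintype.sum_sigma]
    exact Finset.sum_congr rfl fun v _ => shl_tru_lam_eq I U Δ hopen v _
  · intro a3 c z e hz he
    rw [shl_tauU_eq hL I U r hr hU Δ hopen]
    have h := tru_eval_shl hL I U r hr hU Δ
      (fun v => shlLP (D.Lv v) (Δ v) (ρT.comp U.subtype) (hopen v)) ΔO hrg hrgO hWd
      a3 (fun v a => c ⟨v, a⟩) z (fun w a => e ⟨w, a⟩) hz (fun w a => he ⟨w, a⟩)
    refine h.trans ?_
    congr 1
    · rw [Fintype.sum_sigma]
      exact Finset.sum_congr rfl fun v _ => shl_tru_lam_eq I U Δ hopen v _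
    · rw [shl_finsum_sigma _ (shl_tru_fin I U hU ΔO hopenO hfinN z e he)]
      exact finsum_congr fun w => shl_tru_lamW_eq hL I U hU ΔO hopenO w _

end adapter

section main

variable {k : Type*} [Field k] {G : Type u} [Group G] {L Linf : hc_Lev G}
  (hL : ∀ N ∈ L.S, ∃ N' ∈ Linf.S, N' ≤ N)
  {D : hc_Loc.{u, v, w} L} [Fintype D.V]
  {hD : ∀ v, hc_LevCompat (D.Lv v) Linf (D.ι v)}
  {O : tr_Out.{u, v', w'} L Linf}
  {T : Type*} [AddCommGroup T] [Module k T] {ρT : Representation k G T}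
  (I : tr_Inv D hD O ρT)
  (U : Subgroup G) [U.FiniteIndex]
  (r : G → U) (hr : ∀ (u : U) (x : G), r ((u : G) * x) = u * r x)
  (hU : ∃ M ∈ L.S, M ≤ U)
  {W : D.V → Type w} (Δ : ∀ v, ShlDec (D.ι v) U (W v))
  {WO : O.W → Type w'} (ΔO : ∀ w, ShlDec (O.ι w) U (WO w))
  [∀ v, Finite (W v)] [∀ v, DecidableEq (W v)] [∀ w, Finite (WO w)] [∀ w, DecidableEq (WO w)]
  [Fintype (shapLocU D U Δ).V] [∀ w, (O.I w).Normal]
  (hopen : ∀ v, ∃ M₀ ∈ (D.Lv v).S, ∀ a, M₀ ≤ (Δ v).Ha a)
  (hopenO : ∀ w, ∃ M₀ ∈ (O.LW w).S, ∀ a, M₀ ≤ (ΔO w).Ha a)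

include hr in
/-- **The `U`-level trace formula** (block TRU).  Let `τ = tr_tau hL I` be the trace of
`Trace.lean` for local invariants `I` on `G`, `U ≤ G` of finite index containing a level of
`L`, `r : G → U` an equivariant retraction, and `Δ v`, `ΔO w` double coset data at the cone
places and the outside places whose representatives are killed by `r`.  If the outside
invariants kill coboundaries and every finite level of `Linf` is unramified at almost all
outside places, then the transferred trace `shapTauU` is a trace (`tr_IsTrace`) on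
`(U, shapLocU D U Δ, ev_outU O U ΔO)` for the transferred local functionals
`shlLam = inv_v ∘ cor_{v,a}`, `shlLamW = invW_w ∘ cor_{w,a}`. -/
theorem shl_tru_isTrace
    (hrg : ∀ v a, r ((Δ v).g a) = 1) (hrgO : ∀ w a, r ((ΔO w).g a) = 1)
    (hWd : ∀ (w : O.W) (c : hc_C1 (O.LW w) (ρT.comp (O.ι w))),
      I.invW w (hc_d12 (O.LW w) (ρT.comp (O.ι w)) c) = 0)
    (hfinN : ∀ M ∈ Linf.S, {w : O.W | ¬ O.I w ≤ M.comap (O.ι w)}.Finite) :
    tr_IsTrace (shapLocU D U Δ) (shl_hDU D hD U Δ) (ev_outU O U ΔO) (ρT.comp U.subtype)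
      (shlLam D U Δ ρT hopen I.inv) (shlLamW O U ΔO ρT hopenO I.invW)
      (shapTauU D U Δ ρT r hr hU
        (fun v => shlLP (D.Lv v) (Δ v) (ρT.comp U.subtype) (hopen v)) (tr_tau hL I)) := by
  classical
  have : ∀ v, Fintype (W v) := fun v => Fintype.ofFinite (W v)
  have : ∀ w, Fintype (WO w) := fun w => Fintype.ofFinite (WO w)
  have h := shl_tru_isTrace_aux hL I U r hr hU Δ ΔO hopen hopenO hrg hrgO hWd hfinN
  convert h

end main

end Fermat.Agent.S55
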