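import Fermat.Agent.S55.IfaceMain
import Fermat.Agent.S55.IfaceBase
import Fermat.Agent.S55.BaseInst
import Fermat.Agent.S55.FinLc
import Fermat.Agent.S55.KumField
import Fermat.Agent.S55.KumG1
import Fermat.Agent.S55.ShapLocTruMain
import Fermat.Agent.S55.ShapLocExist
import Fermat.Agent.S55.ShapData
import Fermat.Agent.S55.Sha2Cone
import Fermat.Agent.S55.FinRam
import Fermat.Agent.S55.EvG4a
import Fermat.Agent.S55.EvLocalAsm
import Fermat.Agent.S55.Lc3Cor

/-!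
# S55: the final assembly

`fin_baseCase` : the base case `pt_BaseCase` of S55 for the trace `tri_tau` attached to an
arithmetic package `A : tri_Arith p` satisfying `[LC3]` (`tri_LC3 A`).

`fin_S55` : S55 from the arithmetic package.

For a subgroup `U` of the base case, `U = Gal(ℚ̄/k)` with `k ∋ ζ_p` unramified outside `S`
(`kum_exists_field`); choose an equivariant retraction `r : Γ → U` and double coset data `Δ v`
(`v ∈ S`), `ΔO w` (`w ∉ S`) normalised by `r`.  Then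

* the Shapiro comparison is `shapQDataI` (block SHAP);
* the transferred trace is a trace for the transferred local invariants: `shl_tru_isTrace`
  (block TRU);
* the inputs `pt_UInputs` are `bi_inputs` applied to `[L3]` (`lkm_L3`), `[G1]` (`kum_G1`),
  `[G2]` (`sha2_hdelta`), `[LC3]` (`fin_hLC3`), `[LC4']` (`lkc_hLC4`) and `[G4a]` (`ev_hG4a`
  with `fin_LC6`).
-/

set_option autoImplicit false

open CategoryTheory groupCohomology ExtCitation IsDedekindDomain NumberField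

namespace Fermat.Agent.S55

local notation "Qb" => AlgebraicClosure ℚ
local notation "Γ" => (AlgebraicClosure ℚ ≃ₐ[ℚ] AlgebraicClosure ℚ)

section

variable {p : ℕ} [Fact p.Prime]

/-- **The inputs of the base case** for `U = Gal(ℚ̄/k)` and the transferred trace. -/
theorem fin_inputs (hp2 : p ≠ 2) (S : Finset Nat.Primes) (hpS : pPrime p ∈ S)
    (A : tri_Arith p) (hA : tri_LC3 A)
    (hfin : ∀ F : IntermediateField ℚ Qb, FiniteDimensional ℚ F →
      ∃ T : Finset Nat.Primes, F.IsUnramifiedOutside T)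
    (k : IntermediateField ℚ Qb) [NumberField k] (hk : k.IsUnramifiedOutside S)
    {ζ : Qb} (hζ : IsPrimitiveRoot ζ p) (hζk : ζ ∈ k)
    (hUlev : ∃ N ∈ (pt_globalLev S).S, N ≤ k.fixingSubgroup)
    (hUχ : k.fixingSubgroup ≤ (cycloChar p).ker) [k.fixingSubgroup.FiniteIndex]
    (r : Γ → k.fixingSubgroup)
    (hr : ∀ (u : k.fixingSubgroup) (x : Γ), r ((u : Γ) * x) = u * r x)
    {W : (pt_loc S).V → Type} [∀ v, Fintype (W v)] [∀ v, DecidableEq (W v)]
    (Δ : ∀ v, ShlDec ((pt_loc S).ι v) k.fixingSubgroup (W v))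
    (hΔ : ∀ v a, r ((Δ v).g a) = 1)
    {WO : (tri_out S).W → Type} [∀ w, Fintype (WO w)] [∀ w, DecidableEq (WO w)]
    (ΔO : ∀ w, ShlDec ((tri_out S).ι w) k.fixingSubgroup (WO w))
    (hΔO : ∀ w a, r ((ΔO w).g a) = 1)
    (hopen : ∀ v, ∃ M₀ ∈ ((pt_loc S).Lv v).S, ∀ a, M₀ ≤ (Δ v).Ha a)
    (hopenO : ∀ w, ∃ M₀ ∈ ((tri_out S).LW w).S, ∀ a, M₀ ≤ (ΔO w).Ha a) :
    Nonempty (pt_UInputs (cycloChar p) k.fixingSubgroup
      (shapLocU (pt_loc S) k.fixingSubgroup Δ)
      (shapTauU (pt_loc S) k.fixingSubgroup Δ (dual_rhoT (cycloChar p)) r hr hUlev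
        (fun v => shlLP ((pt_loc S).Lv v) (Δ v)
          ((dual_rhoT (cycloChar p)).comp k.fixingSubgroup.subtype) (hopen v))
        (tri_tau S hpS A hfin)) hUχ) := by
  classical
  have hp : p.Prime := Fact.out
  have hLU := fin_hL_sub (tri_hL S) k.fixingSubgroup
  -- the trace of `U`
  have hnor : ∀ w, ((tri_out S).I w).Normal := tri_out_I_normal S
  have htr : tr_IsTrace (shapLocU (pt_loc S) k.fixingSubgroup Δ)
      (shl_hDU (pt_loc S) (fun v => tri_compat (primeLocalToGlobal v.1)) k.fixingSubgroup Δ)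
      (ev_outU (tri_out S) k.fixingSubgroup ΔO)
      ((dual_rhoT (cycloChar p)).comp k.fixingSubgroup.subtype)
      (shlLam (pt_loc S) k.fixingSubgroup Δ (dual_rhoT (cycloChar p)) hopen
        (tri_inv S hpS A hfin).inv)
      (shlLamW (tri_out S) k.fixingSubgroup ΔO (dual_rhoT (cycloChar p)) hopenO
        (tri_inv S hpS A hfin).invW)
      (shapTauU (pt_loc S) k.fixingSubgroup Δ (dual_rhoT (cycloChar p)) r hr hUlev
        (fun v => shlLP ((pt_loc S).Lv v) (Δ v)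
          ((dual_rhoT (cycloChar p)).comp k.fixingSubgroup.subtype) (hopen v))
        (tri_tau S hpS A hfin)) :=
    shl_tru_isTrace (tri_hL S) (tri_inv S hpS A hfin) k.fixingSubgroup r hr hUlev Δ ΔO
      hopen hopenO hΔ hΔO (tri_invW_d S hpS A hfin) (tri_hfinN S hfin)
  -- `[LC3]`, `[LC4']`
  have hLC3 := fin_hLC3 S hpS A hA hfin k.fixingSubgroup hUχ Δ hopen
  have hLC4 := lkc_hLC4 p S (cycloChar p) k.fixingSubgroup hUχ k rfl hζ hζk Δ hLC3
  -- `[L3]`
  have hL3 := lkm_L3 p S hpS k hζ hζk Δ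
  have := hL3.1
  -- `[G1]`
  obtain ⟨f, hf, hf0⟩ := kum_G1 p S hpS k hk hζ hζk
  -- `[G2]`
  obtain ⟨ζu, hζu⟩ := hζ.isUnit hp.ne_zero
  have hζu' : IsPrimitiveRoot ζu p := by
    rw [← IsPrimitiveRoot.coe_units_iff, hζu]
    exact hζ
  obtain ⟨R, hRfin, hRrank, hR⟩ := sha2_hdelta p S hp2 hpS k hk ζu (by rw [hζu]; exact hζk)
    hζu' k.fixingSubgroup rfl Δ
  -- `[G4a]`
  have hLC6 : ev_LC6 p S k ΔO hUχ
      (shlLamW (tri_out S) k.fixingSubgroup ΔO (dual_rhoT (cycloChar p)) hopenO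
        (tri_inv S hpS A hfin).invW) :=
    fun w ψ χ0 hψ hχ hψI hχI hne =>
      fin_LC6 hp2 S hpS A hA hfin k hζ hζk hUχ ΔO hopenO w ψ χ0 hψ hχ hψI hχI hne
  have hG4a := fun y hy hy0 => ev_hG4a p S k ΔO hpS hk hζ hζk (evl_EV1 p k) (evl_EV2 p k) hUχ hLU
    (shlLamW (tri_out S) k.fixingSubgroup ΔO (dual_rhoT (cycloChar p)) hopenO
      (tri_inv S hpS A hfin).invW) hLC6 y hy hy0
  exact ⟨bi_inputs (cycloChar p) k.fixingSubgroup (shapLocU (pt_loc S) k.fixingSubgroup Δ)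
    (shl_hDU (pt_loc S) (fun v => tri_compat (primeLocalToGlobal v.1)) k.fixingSubgroup Δ)
    (ev_outU (tri_out S) k.fixingSubgroup ΔO) hLU hUχ htr
    ((kumAbove ↥k S).card + NumberField.Units.rank ↥k + 1) (kumRho ↥k p (kumAbove ↥k S))
    LinearMap.id (lkm_hg_id _ _) hL3.2
    f hf hf0 (by simp)
    R.subtype hR hRrank
    hLC3 hLC4 (fun y hy _ hy0 => hG4a y hy hy0)⟩

/-- **The base case of S55** for the trace of an arithmetic package with `[LC3]`. -/
theorem fin_baseCase (hp2 : p ≠ 2) (S : Finset Nat.Primes) (hpS : pPrime p ∈ S)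
    (A : tri_Arith p) (hA : tri_LC3 A) :
    pt_BaseCase p S (tri_tau S hpS A (fun F _ => finram_exists F))
      (tri_tau_dc2 S hpS A (fun F _ => finram_exists F)) := by
  classical
  have hfin : ∀ F : IntermediateField ℚ Qb, FiniteDimensional ℚ F →
      ∃ T : Finset Nat.Primes, F.IsUnramifiedOutside T := fun F _ => finram_exists F
  refine pt_baseCase_of_transfer S _ _ ?_
  intro U hUlev hUχ _
  obtain ⟨k, hk, hμ, rfl⟩ := kum_exists_field p S U hUlev hUχ
  -- the number field `k` and the root of unity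
  have hfd : FiniteDimensional ℚ k := hk.1
  have hnf : NumberField k := ⟨⟩
  have hp : p.Prime := Fact.out
  have : NeZero (p : Qb) := ⟨by exact_mod_cast hp.ne_zero⟩
  obtain ⟨ζ, hζ⟩ : ∃ ζ : Qb, IsPrimitiveRoot ζ p :=
    HasEnoughRootsOfUnity.exists_primitiveRoot Qb p
  have hζk : ζ ∈ k := hμ ζ hζ.pow_eq_one
  -- the retraction and the double coset decompositions
  obtain ⟨r, hr, hr1⟩ := lc3_exists_retraction k.fixingSubgroup
  choose n Δ hΔ using fun v : (pt_loc S).V =>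
    shl_exists_dec_r.{0} ((pt_loc S).ι v) k.fixingSubgroup r hr
  choose nO ΔO hΔO using fun w : (tri_out S).W =>
    shl_exists_dec_r.{0} ((tri_out S).ι w) k.fixingSubgroup r hr
  have hUfull : ∃ N ∈ tr_fullLev.S, N ≤ k.fixingSubgroup := by
    obtain ⟨N, hN, hNU⟩ := hUlev
    obtain ⟨N', hN', hle⟩ := tri_hL S N hN
    exact ⟨N', hN', hle.trans hNU⟩
  have hopen : ∀ v, ∃ M₀ ∈ ((pt_loc S).Lv v).S, ∀ a, M₀ ≤ (Δ v).Ha a :=
    fun v => shl_hopen (Δ v) ((pt_loc S).compat v) hUlev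
  have hopenO : ∀ w, ∃ M₀ ∈ ((tri_out S).LW w).S, ∀ a, M₀ ≤ (ΔO w).Ha a :=
    fun w => shl_hopen (ΔO w) ((tri_out S).compat w) hUfull
  exact ⟨shapLevSub (pt_globalLev S) k.fixingSubgroup, shapLocU (pt_loc S) k.fixingSubgroup Δ,
    inferInstance, _, _,
    ⟨shapQDataI (cycloChar p) k.fixingSubgroup (pt_loc S) Δ r hr hr1 hUlev hΔ
      (fun v => shlLP ((pt_loc S).Lv v) (Δ v)
        (Representation.trivial (ZMod p) ↥k.fixingSubgroup (ZMod p)) (hopen v))
      (fun v => shlLP ((pt_loc S).Lv v) (Δ v)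
        ((dual_rhoT (cycloChar p)).comp k.fixingSubgroup.subtype) (hopen v))
      (tri_tau S hpS A hfin) (tri_tau_dc2 S hpS A hfin)⟩,
    fin_inputs hp2 S hpS A hA hfin k hk hζ hζk hUlev hUχ r hr Δ hΔ ΔO hΔO hopen hopenO⟩

/-- **S55 from the arithmetic package.** -/
theorem fin_S55 (hp2 : p ≠ 2) (S : Finset Nat.Primes) (hpS : pPrime p ∈ S)
    (M : Rep (ZMod p) Γ) [FiniteDimensional (ZMod p) M]
    (hsm : ∀ m : M, ∃ F : IntermediateField ℚ (AlgebraicClosure ℚ), FiniteDimensional ℚ F ∧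
      ∀ s ∈ F.fixingSubgroup, M.ρ s m = m)
    (hMur : ∀ q : Nat.Primes, q ∉ S → ∀ A : ValuationSubring (AlgebraicClosure ℚ),
      A.LiesOverPrime (q : ℕ) → ∀ g ∈ A.inertiaSubgroupIn ℚ, M.ρ g = 1)
    (harith : ∃ A : tri_Arith p, tri_LC3 A) :
    ∃ B : sha₁ S (M.dualTwist (cycloChar p)) →ₗ[ZMod p] sha₂ S M →ₗ[ZMod p] ZMod p,
      (∀ y, (∀ x, B y x = 0) → y = 0) ∧ (∀ x, (∀ y, B y x = 0) → x = 0) := by
  obtain ⟨A, hA⟩ := harith
  exact pt_main hp2 S hpS M hsm hMur _ _ (fin_baseCase hp2 S hpS A hA)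

end

end Fermat.Agent.S55
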