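import Fermat.Agent.S55.LcgLc3

/-!
# S55, block LC-GLUE, part 7: the interface to the reciprocity law (block REC)

The reciprocity block states its conclusion for the multiplicative local cocycles
`lcg_locExp p ζ q e := fun x => emb_q (ζ ^ (e x).val)` (`e` a `μ_p`-valued cochain of the local
Galois group at `q`) and an abstract family of invariants.  Here:

* `lcg_toLoc₂_Eq` : the cocycle used in `lcg_invq_eq` is `lcg_locExp`;
* `lcg_invq_eq'` : `lcg_invq p ζ hζ q c = loc_inv … (lcg_locExp p ζ q c)` on cocycles;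
* `lcg_hunr` : the hypothesis `hunr` of the reciprocity law for `inv := loc_inv`;
* `lcg_arith_exists` : `∃ A : tri_Arith p, tri_LC3 A` from the reciprocity law in the form
  `∑ᶠ q, loc_inv ℚ_q (PadicAlgCl q) p (lcg_locExp p ζ q (res_q z)) = 0`.
-/

set_option autoImplicit false
set_option linter.unusedSectionVars false

open ExtCitation groupCohomology

namespace Fermat.Agent.S55

local notation "Qb" => AlgebraicClosure ℚ
local notation "Γ" => (AlgebraicClosure ℚ ≃ₐ[ℚ] AlgebraicClosure ℚ)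

/-- primality of `q : Nat.Primes` as a `Fact` (local instance). -/
local instance lcg_factq'' (q : Nat.Primes) : Fact ((q : ℕ).Prime) := ⟨q.2⟩

section recip

variable (p : ℕ) [Fact p.Prime] (ζ : Qbˣ) (hζ : IsPrimitiveRoot ζ p) (q : Nat.Primes)

local notation "Lq" => pt_localLev (primeLocalToGlobal q)
set_option quotPrecheck false in
local notation "ρTq" => (dual_rhoT (cycloChar p)).comp (primeLocalToGlobal q)

/-- the local multiplicative cochain `emb_q (ζ ^ e)` attached to a `μ_p`-valued local cochain. -/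
noncomputable def lcg_locExp
    (e : primeLocalGaloisGroup q × primeLocalGaloisGroup q → ZMod p) :
    (PadicAlgCl (q : ℕ) ≃ₐ[ℚ_[(q : ℕ)]] PadicAlgCl (q : ℕ)) ×
      (PadicAlgCl (q : ℕ) ≃ₐ[ℚ_[(q : ℕ)]] PadicAlgCl (q : ℕ)) → (PadicAlgCl (q : ℕ))ˣ :=
  fun x => Units.map
    ((padicEmbedding (q : ℕ) : Qb →+* PadicAlgCl (q : ℕ)) : Qb →* PadicAlgCl (q : ℕ))
    (ζ ^ (e x).val)

theorem lcg_toLoc₂_Eq (e : primeLocalGaloisGroup q × primeLocalGaloisGroup q → ZMod p) :
    lcg_toLoc₂ (lcg_eq q) (fun x => lcg_Eq p ζ hζ q (e x)) = lcg_locExp p ζ q e := by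
  funext x
  show Additive.toMul (lcg_Eq p ζ hζ q (e (x.1, x.2))) = _
  rw [lcg_Eq_apply, toMul_ofMul]
  unfold lcg_locExp lcg_exp
  rw [map_pow]
  rfl

/-- on cocycles, `lcg_invq` is the Brauer invariant of `emb_q (ζ ^ c)`. -/
theorem lcg_invq_eq' (c : hc_C2 Lq (ρTq)) (hc : hc_d23 Lq (ρTq) c = 0) :
    lcg_invq p ζ hζ q c = loc_inv ℚ_[(q : ℕ)] (PadicAlgCl (q : ℕ)) p
      (lcg_locExp p ζ q (c : primeLocalGaloisGroup q × primeLocalGaloisGroup q → ZMod p)) := by
  rw [lcg_invq_eq p ζ hζ q c hc, lcg_toLoc₂_Eq]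

include hζ in
/-- the unramified vanishing in the multiplicative form consumed by the reciprocity law. -/
theorem lcg_hunr (e : hc_C2 Lq (ρTq))
    (he : hc_IsLev2 (ρTq) (tri_I q)
      (e : primeLocalGaloisGroup q × primeLocalGaloisGroup q → ZMod p))
    (hde : hc_d23 Lq (ρTq) e = 0) :
    loc_inv ℚ_[(q : ℕ)] (PadicAlgCl (q : ℕ)) p
      (lcg_locExp p ζ q (e : primeLocalGaloisGroup q × primeLocalGaloisGroup q → ZMod p)) = 0 := by
  rw [← lcg_invq_eq' p ζ hζ q e hde]
  exact lcg_invq_unr0 p ζ hζ q e he hde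

end recip

/-- `Qbar` contains a primitive `p`-th root of unity (as a unit). -/
theorem lcg_exists_zeta (p : ℕ) [Fact p.Prime] : ∃ ζ : Qbˣ, IsPrimitiveRoot ζ p := by
  have hp : NeZero p := ⟨(Fact.out : p.Prime).ne_zero⟩
  obtain ⟨ω, hω⟩ := HasEnoughRootsOfUnity.exists_primitiveRoot Qb p
  have hu : IsUnit ω := hω.isUnit (NeZero.ne p)
  refine ⟨hu.unit, ?_⟩
  rw [← IsPrimitiveRoot.coe_units_iff]
  exact hω

/-- **The arithmetic input of S55**: from the reciprocity law for the local Brauer invariants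
of `ζ ^ z` (block REC), an inhabitant of `tri_Arith p` satisfying `[LC3]`. -/
theorem lcg_arith_exists (p : ℕ) [Fact p.Prime] (ζ : Qbˣ) (hζ : IsPrimitiveRoot ζ p)
    (hrec : ∀ z : hc_C2 tr_fullLev (dual_rhoT (cycloChar p)),
      hc_d23 tr_fullLev (dual_rhoT (cycloChar p)) z = 0 →
      ∑ᶠ q : Nat.Primes, loc_inv ℚ_[(q : ℕ)] (PadicAlgCl (q : ℕ)) p
        (lcg_locExp p ζ q (hc_res2 (tri_compat (primeLocalToGlobal q))
          (dual_rhoT (cycloChar p)) z :
            primeLocalGaloisGroup q × primeLocalGaloisGroup q → ZMod p)) = 0) :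
    ∃ A : tri_Arith p, tri_LC3 A := by
  have hrecip : ∀ z : hc_C2 tr_fullLev (dual_rhoT (cycloChar p)),
      hc_d23 tr_fullLev (dual_rhoT (cycloChar p)) z = 0 →
      ∑ᶠ q : Nat.Primes, lcg_invq p ζ hζ q (hc_res2 (tri_compat (primeLocalToGlobal q))
        (dual_rhoT (cycloChar p)) z) = 0 := by
    intro z hz
    rw [← hrec z hz]
    refine finsum_congr fun q => ?_
    refine lcg_invq_eq' p ζ hζ q _ ?_
    rw [← hc_res3_d23, hz, map_zero]
  exact ⟨lcg_arith p ζ hζ hrecip, lcg_lc3 p ζ hζ hrecip⟩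

end Fermat.Agent.S55
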