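import Mathlib
import Fermat.Agent.S55.LocLimUnr
import Fermat.Agent.S55.LocTameRoot

/-!
# S55 block LOC, part 3h: inertia and unramified cocycles

* `loc_inertia K Ω` : the inertia subgroup of `Γ = Ω ≃ₐ[K] Ω` (trivial action on the residue
  field of `Ω`).
* `loc_mem_inertia_iff` : inertia is the common kernel of the unramified characters `loc_chi`.
* `loc_exists_chi_ker_le` : a subgroup containing inertia and a finite-level subgroup contains
  `ker (loc_chi K Ω N)` for some `N` (compactness).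
* `loc_unr_cob_of_inertia` : a level 2-cocycle which is inertia-invariant and has values of
  norm one is a level coboundary.
-/

set_option autoImplicit false
set_option linter.unusedSectionVars false

namespace Fermat.Agent.S55

open IntermediateField

section inertia

variable (K Ω : Type) [NontriviallyNormedField K] [IsUltrametricDist K] [ProperSpace K]
  [NormedField Ω] [NormedAlgebra K Ω] [IsAlgClosed Ω] [Algebra.IsAlgebraic K Ω]

/-- the inertia subgroup: automorphisms acting trivially on the residue field of `Ω`. -/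
def loc_inertia : Subgroup (Ω ≃ₐ[K] Ω) where
  carrier := {g | ∀ x : Ω, ‖x‖ ≤ 1 → ‖g x - x‖ < 1}
  mul_mem' := by
    intro g h hg hh x hx
    have hU : IsUltrametricDist Ω := IsUltrametricDist.of_normedAlgebra K
    have h1 : (g * h) x - x = g (h x - x) + (g x - x) := by
      rw [AlgEquiv.mul_apply, map_sub]; ring
    rw [h1]
    refine lt_of_le_of_lt (IsUltrametricDist.norm_add_le_max _ _) (max_lt ?_ (hg x hx))
    rw [loc_norm_algEquiv]
    exact hh x hx
  one_mem' := by
    intro x _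
    simp
  inv_mem' := by
    intro g hg x hx
    have h1 : g⁻¹ x - x = g⁻¹ (x - g x) := by
      rw [map_sub]
      congr 1
      exact (g.symm_apply_apply x).symm
    rw [h1, loc_norm_algEquiv, ← norm_neg, neg_sub]
    exact hg x hx

variable {K Ω}

theorem loc_mem_inertia {g : Ω ≃ₐ[K] Ω} :
    g ∈ loc_inertia K Ω ↔ ∀ x : Ω, ‖x‖ ≤ 1 → ‖g x - x‖ < 1 := Iff.rfl

variable (K Ω)

theorem loc_chi_eq_zero_of_mem_inertia (g : Ω ≃ₐ[K] Ω) (hg : g ∈ loc_inertia K Ω) (N : ℕ)
    [NeZero N] : loc_chi K Ω N g = 0 := by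
  rw [loc_chi_eq_zero_iff]
  have hU : IsUltrametricDist Ω := IsUltrametricDist.of_normedAlgebra K
  have hζ := loc_zeta_spec K Ω N
  set ζ := loc_zeta K Ω N with hζdef
  have hr0 : loc_r K N ≠ 0 := (loc_r_pos K N).ne'
  have hζn : ‖ζ‖ = 1 := unr_norm_eq_one_of_pow_eq_one hr0 hζ.pow_eq_one
  by_contra hne
  have hrΩ : ‖(loc_r K N : Ω)‖ = 1 := by
    have : (loc_r K N : Ω) = algebraMap K Ω (loc_r K N : K) := by simp
    rw [this, norm_algebraMap', loc_norm_r]
  have h1 : (g ζ) ^ loc_r K N = 1 := by rw [← map_pow, hζ.pow_eq_one, map_one]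
  have h2 := unr_norm_sub_eq_one hrΩ h1 hζ.pow_eq_one hne
  have h3 := hg ζ hζn.le
  rw [h2] at h3
  exact lt_irrefl _ h3

theorem loc_mem_inertia_of_chi (g : Ω ≃ₐ[K] Ω)
    (h : ∀ (N : ℕ) (_ : NeZero N), loc_chi K Ω N g = 0) : g ∈ loc_inertia K Ω := by
  intro x hx
  have hU : IsUltrametricDist Ω := IsUltrametricDist.of_normedAlgebra K
  rcases lt_or_eq_of_le hx with hlt | heq
  · refine lt_of_le_of_lt (lp_norm_sub_le _ _) (max_lt ?_ hlt)
    rw [loc_norm_algEquiv]
    exact hlt
  · obtain ⟨f, hf, ξ, hξ, hnear⟩ := ltr_exists_near_root K Ω x heq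
    have hgξ : g ξ = ξ := by
      have := loc_chi_all K Ω f g ξ hξ
      rw [h f hf] at this
      simpa using this
    have h1 : g x - x = g (x - ξ) - (x - ξ) := by
      rw [map_sub, hgξ]; ring
    rw [h1]
    refine lt_of_le_of_lt (lp_norm_sub_le _ _) (max_lt ?_ hnear)
    rw [loc_norm_algEquiv]
    exact hnear

theorem loc_mem_inertia_iff (g : Ω ≃ₐ[K] Ω) :
    g ∈ loc_inertia K Ω ↔ ∀ (N : ℕ) (_ : NeZero N), loc_chi K Ω N g = 0 :=
  ⟨fun hg N _ => loc_chi_eq_zero_of_mem_inertia K Ω g hg N, loc_mem_inertia_of_chi K Ω g⟩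

theorem loc_chi_eq_zero_of_dvd (N N' : ℕ) [NeZero N] [NeZero N'] (h : N ∣ N')
    (g : Ω ≃ₐ[K] Ω) (hg : loc_chi K Ω N' g = 0) : loc_chi K Ω N g = 0 := by
  obtain ⟨t, rfl⟩ := h
  have : NeZero t := ⟨fun h0 => by
    have := NeZero.ne (N * t)
    rw [h0, mul_zero] at this
    exact this rfl⟩
  have h1 := loc_chi_compat K Ω N t g
  rw [hg, ZMod.val_zero, Nat.zero_mod] at h1
  exact (ZMod.val_eq_zero _).mp h1

end inertia

section compact

variable (K Ω : Type) [NontriviallyNormedField K] [IsUltrametricDist K] [ProperSpace K]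
  [NormedField Ω] [NormedAlgebra K Ω] [IsAlgClosed Ω] [Algebra.IsAlgebraic K Ω] [IsGalois K Ω]

/-- **compactness**: a subgroup of `Γ` containing the inertia group and the fixing subgroup of
a finite extension contains the kernel of one of the unramified characters. -/
theorem loc_exists_chi_ker_le (S : Subgroup (Ω ≃ₐ[K] Ω)) (M : IntermediateField K Ω)
    [FiniteDimensional K M] (hM : M.fixingSubgroup ≤ S) (hI : loc_inertia K Ω ≤ S) :
    ∃ (N : ℕ) (_ : NeZero N), ∀ g, loc_chi K Ω N g = 0 → g ∈ S := by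
  classical
  have hSopen : IsOpen (S : Set (Ω ≃ₐ[K] Ω)) := Subgroup.isOpen_mono hM M.fixingSubgroup_isOpen
  have hcompact : IsCompact ((S : Set (Ω ≃ₐ[K] Ω))ᶜ) := hSopen.isClosed_compl.isCompact
  let U : ℕ → Set (Ω ≃ₐ[K] Ω) := fun n => {g | loc_chi K Ω (n + 1) g ≠ 0}
  have hUopen : ∀ n, IsOpen (U n) := by
    intro n
    have hfd := (loc_cyc_facts K (n + 1) _ (loc_zeta_spec K Ω (n + 1))).1
    have hcl : IsClosed ((K⟮loc_zeta K Ω (n + 1)⟯.fixingSubgroup : Set (Ω ≃ₐ[K] Ω))) :=
      IntermediateField.fixingSubgroup_isClosed _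
    have : U n = ((K⟮loc_zeta K Ω (n + 1)⟯.fixingSubgroup : Set (Ω ≃ₐ[K] Ω)))ᶜ := by
      ext g
      simp only [U, Set.mem_ofPred_eq, Set.mem_compl_iff, SetLike.mem_coe, ne_eq]
      rw [loc_chi_eq_zero_iff, IntermediateField.mem_fixingSubgroup_iff]
      constructor
      · intro h1 h2
        exact h1 (h2 _ (mem_adjoin_simple_self K _))
      · intro h1 h2
        exact h1 (loc_fixes_adjoin g _ h2)
    rw [this]
    exact hcl.isOpen_compl
  have hcover : (S : Set (Ω ≃ₐ[K] Ω))ᶜ ⊆ ⋃ n, U n := by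
    intro g hg
    by_contra hcon
    simp only [Set.mem_iUnion, U, Set.mem_ofPred_eq, not_exists, not_not] at hcon
    apply hg
    apply hI
    apply loc_mem_inertia_of_chi
    intro N hN
    obtain ⟨n, rfl⟩ : ∃ n, N = n + 1 := ⟨N - 1, by have := NeZero.ne N; omega⟩
    exact hcon n
  obtain ⟨t, ht⟩ := hcompact.elim_finite_subcover U hUopen hcover
  have hprod : NeZero (∏ n ∈ t, (n + 1)) :=
    ⟨Finset.prod_ne_zero_iff.mpr (fun n _ => Nat.succ_ne_zero n)⟩
  refine ⟨∏ n ∈ t, (n + 1), hprod, fun g hg => ?_⟩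
  by_contra hgS
  have h1 := ht hgS
  simp only [Set.mem_iUnion, U, Set.mem_ofPred_eq] at h1
  obtain ⟨n, hn, hne⟩ := h1
  exact hne (loc_chi_eq_zero_of_dvd K Ω (n + 1) _
    (Finset.dvd_prod_of_mem (fun n => n + 1) hn) g hg)

/-- **[LC2], multiplicative form**: a level 2-cocycle which is invariant under the inertia group
(in both arguments, and in its values) and has values of norm one is a level coboundary. -/
theorem loc_unr_cob_of_inertia (x : (Ω ≃ₐ[K] Ω) × (Ω ≃ₐ[K] Ω) → Ωˣ)
    (hx : groupCohomology.IsMulCocycle₂ x) (hlev : loc_Lev₂ x)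
    (hI : ∀ g h, ∀ s ∈ loc_inertia K Ω, ∀ t ∈ loc_inertia K Ω, x (g * s, h * t) = x (g, h))
    (hIv : ∀ p, ∀ s ∈ loc_inertia K Ω, s • x p = x p)
    (hunit : ∀ p, ‖(x p : Ω)‖ = 1) : loc_IsLevCob x := by
  obtain ⟨M, hMfd, hxM⟩ := hlev
  let S : Subgroup (Ω ≃ₐ[K] Ω) :=
    { carrier := {s | (∀ g h, x (g * s, h) = x (g, h)) ∧ (∀ g h, x (g, h * s) = x (g, h)) ∧
        ∀ p, s • x p = x p}
      mul_mem' := by
        rintro s t ⟨hs1, hs2, hs3⟩ ⟨ht1, ht2, ht3⟩
        refine ⟨fun g h => ?_, fun g h => ?_, fun p => ?_⟩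
        · rw [← mul_assoc, ht1, hs1]
        · rw [← mul_assoc, ht2, hs2]
        · rw [mul_smul, ht3, hs3]
      one_mem' := ⟨fun g h => by rw [mul_one], fun g h => by rw [mul_one], fun p => one_smul _ _⟩
      inv_mem' := by
        rintro s ⟨hs1, hs2, hs3⟩
        refine ⟨fun g h => ?_, fun g h => ?_, fun p => ?_⟩
        · have := hs1 (g * s⁻¹) h
          rw [inv_mul_cancel_right] at this
          exact this.symm
        · have := hs2 g (h * s⁻¹)
          rw [inv_mul_cancel_right] at this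
          exact this.symm
        · rw [inv_smul_eq_iff, hs3] }
  have hMS : M.fixingSubgroup ≤ S := by
    intro s hs
    refine ⟨fun g h => ?_, fun g h => ?_, fun p => ?_⟩
    · have := hxM.1 g h s hs 1 (one_mem _)
      rwa [mul_one] at this
    · have := hxM.1 g h 1 (one_mem _) s hs
      rwa [mul_one] at this
    · apply Units.ext
      exact (IntermediateField.mem_fixingSubgroup_iff _ _).mp hs _ (hxM.2 p)
  have hIS : loc_inertia K Ω ≤ S := by
    intro s hs
    refine ⟨fun g h => ?_, fun g h => ?_, fun p => hIv p s hs⟩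
    · have := hI g h s hs 1 (one_mem _)
      rwa [mul_one] at this
    · have := hI g h 1 (one_mem _) s hs
      rwa [mul_one] at this
  obtain ⟨N, hN, hker⟩ := loc_exists_chi_ker_le K Ω S M hMS hIS
  have hfix : ∀ s ∈ K⟮loc_zeta K Ω N⟯.fixingSubgroup, s ∈ S := fun s hs =>
    hker s ((loc_chi_eq_zero_iff K Ω N s).mpr
      ((IntermediateField.mem_fixingSubgroup_iff _ _).mp hs _ (mem_adjoin_simple_self K _)))
  have hlvl : loc_IsLvl₂ K⟮loc_zeta K Ω N⟯ x := by
    refine ⟨fun g h s hs t ht => ?_, fun p => ?_⟩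
    · rw [(hfix t ht).2.1, (hfix s hs).1]
    · rw [← InfiniteGalois.fixedField_fixingSubgroup K⟮loc_zeta K Ω N⟯,
        IntermediateField.mem_fixedField_iff]
      intro s hs
      exact congrArg Units.val ((hfix s hs).2.2 p)
  exact loc_unr_unit_cob K Ω N x hx hlvl hunit

end compact

end Fermat.Agent.S55
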