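import Mathlib

set_option linter.unusedSectionVars false

namespace Fermat.Agent.S55

section linv

variable {Z K : Type*} [CommGroup Z] [CommGroup K] (B : Subgroup Z) (u : ℕ → K →* Z)
  (v : K →* Multiplicative ℤ)

/-- The normal-form relation: the class of `x` modulo `B` is that of `u N a` for some `N > 0`
and `a` with `p · v a = N · m`, and `c = m mod p`. -/
def linv_Rel (p : ℕ) (x : Z) (c : ZMod p) : Prop :=
  ∃ N : ℕ, 0 < N ∧ ∃ (a : K) (m : ℤ), x / u N a ∈ B ∧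
    (p : ℤ) * Multiplicative.toAdd (v a) = N * m ∧ c = (m : ZMod p)

theorem linv_div_mem_iff (x y : Z) : x / y ∈ B ↔ (x : Z ⧸ B) = (y : Z ⧸ B) :=
  (QuotientGroup.eq_iff_div_mem).symm

theorem linv_Rel_congr (p : ℕ) (x y : Z) (hxy : x / y ∈ B) (c : ZMod p)
    (h : linv_Rel B u v p x c) : linv_Rel B u v p y c := by
  obtain ⟨N, hN, a, m, hx, hm, rfl⟩ := h
  refine ⟨N, hN, a, m, ?_, hm, rfl⟩
  rw [linv_div_mem_iff] at hx hxy ⊢
  rw [← hxy, hx]

theorem linv_Rel_unique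
    (hCB : ∀ N : ℕ, 0 < N → ∀ a : K, u N a ∈ B ↔ (N : ℤ) ∣ Multiplicative.toAdd (v a))
    (hCM : ∀ N t : ℕ, 0 < N → 0 < t → ∀ a : K, u (N * t) (a ^ t) / u N a ∈ B)
    (p : ℕ) (x : Z) (c c' : ZMod p) (h : linv_Rel B u v p x c)
    (h' : linv_Rel B u v p x c') : c = c' := by
  obtain ⟨N, hN, a, m, hx, hm, rfl⟩ := h
  obtain ⟨N', hN', a', m', hx', hm', rfl⟩ := h'
  have h1 := hCM N N' hN hN' a
  have h2 := hCM N' N hN' hN a'
  rw [linv_div_mem_iff] at hx hx' h1 h2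
  have h3 : u (N * N') (a ^ N' / a' ^ N) ∈ B := by
    rw [← QuotientGroup.eq_one_iff, map_div, QuotientGroup.mk_div, h1, mul_comm N N', h2, ← hx,
      ← hx', div_self']
  rw [hCB (N * N') (Nat.mul_pos hN hN')] at h3
  rw [map_div, toAdd_div, map_pow v, map_pow v, toAdd_pow, toAdd_pow] at h3
  obtain ⟨k, hk⟩ := h3
  simp only [nsmul_eq_mul, Nat.cast_mul] at hk
  have hNN : (N : ℤ) * N' ≠ 0 := by positivity
  have h4 : (N : ℤ) * N' * (m - m') = N * N' * (p * k) := by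
    linear_combination (p : ℤ) * hk - (N' : ℤ) * hm + (N : ℤ) * hm'
  have h5 : m - m' = p * k := mul_left_cancel₀ hNN h4
  symm
  rw [ZMod.intCast_eq_intCast_iff_dvd_sub]
  exact ⟨k, h5⟩

theorem linv_Rel_exists
    (hNF : ∀ x : Z, ∃ N : ℕ, 0 < N ∧ ∃ a : K, x / u N a ∈ B)
    (hCB : ∀ N : ℕ, 0 < N → ∀ a : K, u N a ∈ B ↔ (N : ℤ) ∣ Multiplicative.toAdd (v a))
    (p : ℕ) (x : Z) (hx : x ^ p ∈ B) : ∃ c, linv_Rel B u v p x c := by
  obtain ⟨N, hN, a, hxa⟩ := hNF x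
  have h1 : u N (a ^ p) ∈ B := by
    rw [linv_div_mem_iff] at hxa
    rw [← QuotientGroup.eq_one_iff] at hx ⊢
    rw [map_pow, QuotientGroup.mk_pow, ← hxa, ← QuotientGroup.mk_pow, hx]
  rw [hCB N hN, map_pow v, toAdd_pow] at h1
  obtain ⟨m, hm⟩ := h1
  exact ⟨(m : ZMod p), N, hN, a, m, hxa, by simpa using hm, rfl⟩

theorem linv_Rel_u (p : ℕ) (N : ℕ) (hN : 0 < N) (a : K) (m : ℤ)
    (hm : (p : ℤ) * Multiplicative.toAdd (v a) = N * m) :
    linv_Rel B u v p (u N a) (m : ZMod p) :=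
  ⟨N, hN, a, m, by rw [div_self']; exact B.one_mem, hm, rfl⟩

theorem linv_Rel_mul
    (hCM : ∀ N t : ℕ, 0 < N → 0 < t → ∀ a : K, u (N * t) (a ^ t) / u N a ∈ B)
    (p : ℕ) (x y : Z) (c d : ZMod p) (hx : linv_Rel B u v p x c)
    (hy : linv_Rel B u v p y d) : linv_Rel B u v p (x * y) (c + d) := by
  obtain ⟨N, hN, a, m, hx, hm, rfl⟩ := hx
  obtain ⟨N', hN', a', m', hx', hm', rfl⟩ := hy
  have h1 := hCM N N' hN hN' a
  have h2 := hCM N' N hN' hN a'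
  rw [linv_div_mem_iff] at hx hx' h1 h2
  refine ⟨N * N', Nat.mul_pos hN hN', a ^ N' * a' ^ N, m + m', ?_, ?_, by push_cast; rfl⟩
  · rw [linv_div_mem_iff, map_mul, QuotientGroup.mk_mul, QuotientGroup.mk_mul, h1,
      mul_comm N N', h2, hx, hx']
  · rw [map_mul, toAdd_mul, map_pow v, map_pow v, toAdd_pow, toAdd_pow]
    simp only [nsmul_eq_mul, Nat.cast_mul]
    linear_combination (N' : ℤ) * hm + (N : ℤ) * hm'

theorem linv_Rel_zero_of_mem (p : ℕ) (x : Z) (hx : x ∈ B) : linv_Rel B u v p x 0 :=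
  ⟨1, Nat.one_pos, 1, 0, by simpa using hx, by simp, by simp⟩

theorem linv_mem_of_Rel_zero
    (hCB : ∀ N : ℕ, 0 < N → ∀ a : K, u N a ∈ B ↔ (N : ℤ) ∣ Multiplicative.toAdd (v a))
    (p : ℕ) (hp : p ≠ 0) (x : Z) (h : linv_Rel B u v p x 0) : x ∈ B := by
  obtain ⟨N, hN, a, m, hx, hm, h0⟩ := h
  have h1 : (p : ℤ) ∣ m := by
    rw [← ZMod.intCast_zmod_eq_zero_iff_dvd]
    exact h0.symm
  obtain ⟨m₀, rfl⟩ := h1
  have hp' : (p : ℤ) ≠ 0 := by exact_mod_cast hp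
  have h2 : Multiplicative.toAdd (v a) = N * m₀ := by
    apply mul_left_cancel₀ hp'
    rw [hm]; ring
  have h3 : u N a ∈ B := (hCB N hN a).2 ⟨m₀, h2⟩
  rw [linv_div_mem_iff] at hx
  rw [← QuotientGroup.eq_one_iff] at h3 ⊢
  rw [hx, h3]

/-- The abstract invariant attached to a normal-form system. -/
noncomputable def linv_inv (p : ℕ) (x : Z) : ZMod p :=
  @Classical.epsilon (ZMod p) ⟨0⟩ (linv_Rel B u v p x)

theorem linv_inv_eq_of_Rel
    (hCB : ∀ N : ℕ, 0 < N → ∀ a : K, u N a ∈ B ↔ (N : ℤ) ∣ Multiplicative.toAdd (v a))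
    (hCM : ∀ N t : ℕ, 0 < N → 0 < t → ∀ a : K, u (N * t) (a ^ t) / u N a ∈ B)
    (p : ℕ) (x : Z) (c : ZMod p) (h : linv_Rel B u v p x c) : linv_inv B u v p x = c := by
  have hex : ∃ c, linv_Rel B u v p x c := ⟨c, h⟩
  exact linv_Rel_unique B u v hCB hCM p x _ _ (@Classical.epsilon_spec (ZMod p) _ hex) h

theorem linv_inv_Rel
    (hNF : ∀ x : Z, ∃ N : ℕ, 0 < N ∧ ∃ a : K, x / u N a ∈ B)
    (hCB : ∀ N : ℕ, 0 < N → ∀ a : K, u N a ∈ B ↔ (N : ℤ) ∣ Multiplicative.toAdd (v a))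
    (p : ℕ) (x : Z) (hx : x ^ p ∈ B) : linv_Rel B u v p x (linv_inv B u v p x) := by
  have hex := linv_Rel_exists B u v hNF hCB p x hx
  exact @Classical.epsilon_spec (ZMod p) _ hex

theorem linv_inv_congr (p : ℕ) (x y : Z) (hxy : x / y ∈ B) :
    linv_inv B u v p x = linv_inv B u v p y := by
  have hyx : y / x ∈ B := by
    rw [linv_div_mem_iff] at hxy ⊢
    exact hxy.symm
  have : linv_Rel B u v p x = linv_Rel B u v p y := by
    funext c
    exact propext ⟨linv_Rel_congr B u v p x y hxy c, linv_Rel_congr B u v p y x hyx c⟩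
  unfold linv_inv
  rw [this]

/-- **Abstract invariant from the normal form** (T1). -/
theorem loc_inv_abstract (B : Subgroup Z) (u : ℕ → K →* Z) (v : K →* Multiplicative ℤ)
    (hNF : ∀ x : Z, ∃ N : ℕ, 0 < N ∧ ∃ a : K, x / u N a ∈ B)
    (hCB : ∀ N : ℕ, 0 < N → ∀ a : K, u N a ∈ B ↔ (N : ℤ) ∣ Multiplicative.toAdd (v a))
    (hCM : ∀ N t : ℕ, 0 < N → 0 < t → ∀ a : K, u (N * t) (a ^ t) / u N a ∈ B)
    (p : ℕ) [Fact p.Prime] :
    ∃ inv : Z → ZMod p,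
      (∀ x y, x ^ p ∈ B → y ^ p ∈ B → inv (x * y) = inv x + inv y) ∧
      (∀ x, x ^ p ∈ B → (inv x = 0 ↔ x ∈ B)) ∧
      (∀ x y, x / y ∈ B → inv x = inv y) ∧
      (∀ N : ℕ, 0 < N → ∀ (a : K) (m : ℤ),
        (p : ℤ) * Multiplicative.toAdd (v a) = N * m → inv (u N a) = (m : ZMod p)) := by
  refine ⟨linv_inv B u v p, ?_, ?_, ?_, ?_⟩
  · intro x y hx hy
    exact linv_inv_eq_of_Rel B u v hCB hCM p _ _
      (linv_Rel_mul B u v hCM p x y _ _ (linv_inv_Rel B u v hNF hCB p x hx)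
        (linv_inv_Rel B u v hNF hCB p y hy))
  · intro x hx
    constructor
    · intro h0
      have := linv_inv_Rel B u v hNF hCB p x hx
      rw [h0] at this
      exact linv_mem_of_Rel_zero B u v hCB p (Fact.out : p.Prime).ne_zero x this
    · intro hxB
      exact linv_inv_eq_of_Rel B u v hCB hCM p x 0 (linv_Rel_zero_of_mem B u v p x hxB)
  · intro x y hxy
    exact linv_inv_congr B u v p x y hxy
  · intro N hN a m hm
    exact linv_inv_eq_of_Rel B u v hCB hCM p _ _ (linv_Rel_u B u v p N hN a m hm)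

end linv

section linvres

variable {Z K Z' K' : Type*} [CommGroup Z] [CommGroup K] [CommGroup Z'] [CommGroup K']

/-- Restriction compatibility of abstract invariants, minimal hypotheses: only the third
(class function) and fourth (normalisation) properties of `inv` and `inv'` are used, and only
`hNF`, `hCB`, `hCM` of the source system. -/
theorem linv_res (B : Subgroup Z) (u : ℕ → K →* Z) (v : K →* Multiplicative ℤ)
    (hNF : ∀ x : Z, ∃ N : ℕ, 0 < N ∧ ∃ a : K, x / u N a ∈ B)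
    (hCB : ∀ N : ℕ, 0 < N → ∀ a : K, u N a ∈ B ↔ (N : ℤ) ∣ Multiplicative.toAdd (v a))
    (hCM : ∀ N t : ℕ, 0 < N → 0 < t → ∀ a : K, u (N * t) (a ^ t) / u N a ∈ B)
    (B' : Subgroup Z') (u' : ℕ → K' →* Z') (v' : K' →* Multiplicative ℤ)
    (res : Z →* Z') (hresB : ∀ x ∈ B, res x ∈ B') (ι : K →* K') (e f n : ℕ)
    (hef : e * f = n) (hf : 0 < f)
    (hv : ∀ a, Multiplicative.toAdd (v' (ι a)) = e * Multiplicative.toAdd (v a))
    (hres : ∀ N : ℕ, 0 < N → ∀ a : K, res (u (N * f) a) / u' N (ι a) ∈ B')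
    (p : ℕ) (inv : Z → ZMod p) (inv' : Z' → ZMod p)
    (h3 : ∀ x y, x / y ∈ B → inv x = inv y)
    (h4 : ∀ N : ℕ, 0 < N → ∀ (a : K) (m : ℤ),
        (p : ℤ) * Multiplicative.toAdd (v a) = N * m → inv (u N a) = (m : ZMod p))
    (h3' : ∀ x y, x / y ∈ B' → inv' x = inv' y)
    (h4' : ∀ N : ℕ, 0 < N → ∀ (a : K') (m : ℤ),
        (p : ℤ) * Multiplicative.toAdd (v' a) = N * m → inv' (u' N a) = (m : ZMod p))
    (x : Z) (hx : x ^ p ∈ B) : inv' (res x) = (n : ZMod p) * inv x := by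
  obtain ⟨N, hN, a, hxa⟩ := hNF x
  have h1 : u N (a ^ p) ∈ B := by
    rw [linv_div_mem_iff] at hxa
    rw [← QuotientGroup.eq_one_iff] at hx ⊢
    rw [map_pow, QuotientGroup.mk_pow, ← hxa, ← QuotientGroup.mk_pow, hx]
  rw [hCB N hN, map_pow v, toAdd_pow] at h1
  obtain ⟨m, hm⟩ := h1
  have hm' : (p : ℤ) * Multiplicative.toAdd (v a) = N * m := by simpa using hm
  have hinvx : inv x = (m : ZMod p) := by
    rw [h3 x (u N a) hxa]
    exact h4 N hN a m hm'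
  have h5 : x / u (N * f) (a ^ f) ∈ B := by
    have h6 := hCM N f hN hf a
    rw [linv_div_mem_iff] at hxa h6 ⊢
    rw [h6, hxa]
  have h7 : res x / u' N (ι (a ^ f)) ∈ B' := by
    have h8 := hresB _ h5
    have h9 := hres N hN (a ^ f)
    rw [map_div] at h8
    rw [linv_div_mem_iff] at h8 h9 ⊢
    rw [h8, h9]
  rw [h3' _ _ h7, hinvx]
  have h10 : (p : ℤ) * Multiplicative.toAdd (v' (ι (a ^ f))) = N * ((n : ℤ) * m) := by
    rw [hv, map_pow v, toAdd_pow, ← hef]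
    simp only [nsmul_eq_mul, Nat.cast_mul]
    linear_combination (e : ℤ) * (f : ℤ) * hm'
  rw [h4' N hN _ _ h10]
  push_cast
  rfl

/-- **Restriction compatibility of abstract invariants** (T1, second part): `inv`, `inv'` are
ANY functions with the four properties of `loc_inv_abstract` for the respective systems. -/
theorem loc_inv_abstract_res (B : Subgroup Z) (u : ℕ → K →* Z) (v : K →* Multiplicative ℤ)
    (hNF : ∀ x : Z, ∃ N : ℕ, 0 < N ∧ ∃ a : K, x / u N a ∈ B)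
    (hCB : ∀ N : ℕ, 0 < N → ∀ a : K, u N a ∈ B ↔ (N : ℤ) ∣ Multiplicative.toAdd (v a))
    (hCM : ∀ N t : ℕ, 0 < N → 0 < t → ∀ a : K, u (N * t) (a ^ t) / u N a ∈ B)
    (B' : Subgroup Z') (u' : ℕ → K' →* Z') (v' : K' →* Multiplicative ℤ)
    (res : Z →* Z') (hresB : ∀ x ∈ B, res x ∈ B') (ι : K →* K') (e f n : ℕ)
    (hef : e * f = n) (hf : 0 < f)
    (hv : ∀ a, Multiplicative.toAdd (v' (ι a)) = e * Multiplicative.toAdd (v a))
    (hres : ∀ N : ℕ, 0 < N → ∀ a : K, res (u (N * f) a) / u' N (ι a) ∈ B')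
    (p : ℕ) (inv : Z → ZMod p) (inv' : Z' → ZMod p)
    (hinv : (∀ x y, x ^ p ∈ B → y ^ p ∈ B → inv (x * y) = inv x + inv y) ∧
      (∀ x, x ^ p ∈ B → (inv x = 0 ↔ x ∈ B)) ∧
      (∀ x y, x / y ∈ B → inv x = inv y) ∧
      (∀ N : ℕ, 0 < N → ∀ (a : K) (m : ℤ),
        (p : ℤ) * Multiplicative.toAdd (v a) = N * m → inv (u N a) = (m : ZMod p)))
    (hinv' : (∀ x y, x ^ p ∈ B' → y ^ p ∈ B' → inv' (x * y) = inv' x + inv' y) ∧
      (∀ x, x ^ p ∈ B' → (inv' x = 0 ↔ x ∈ B')) ∧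
      (∀ x y, x / y ∈ B' → inv' x = inv' y) ∧
      (∀ N : ℕ, 0 < N → ∀ (a : K') (m : ℤ),
        (p : ℤ) * Multiplicative.toAdd (v' a) = N * m → inv' (u' N a) = (m : ZMod p))) :
    ∀ x, x ^ p ∈ B → inv' (res x) = (n : ZMod p) * inv x :=
  linv_res B u v hNF hCB hCM B' u' v' res hresB ι e f n hef hf hv hres p inv inv'
    hinv.2.2.1 hinv.2.2.2 hinv'.2.2.1 hinv'.2.2.2

/-- Uniqueness: two functions with the class-function and normalisation properties agree on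
`p`-torsion classes. -/
theorem linv_unique (B : Subgroup Z) (u : ℕ → K →* Z) (v : K →* Multiplicative ℤ)
    (hNF : ∀ x : Z, ∃ N : ℕ, 0 < N ∧ ∃ a : K, x / u N a ∈ B)
    (hCB : ∀ N : ℕ, 0 < N → ∀ a : K, u N a ∈ B ↔ (N : ℤ) ∣ Multiplicative.toAdd (v a))
    (hCM : ∀ N t : ℕ, 0 < N → 0 < t → ∀ a : K, u (N * t) (a ^ t) / u N a ∈ B)
    (p : ℕ) (inv inv' : Z → ZMod p)
    (h3 : ∀ x y, x / y ∈ B → inv x = inv y)
    (h4 : ∀ N : ℕ, 0 < N → ∀ (a : K) (m : ℤ),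
        (p : ℤ) * Multiplicative.toAdd (v a) = N * m → inv (u N a) = (m : ZMod p))
    (h3' : ∀ x y, x / y ∈ B → inv' x = inv' y)
    (h4' : ∀ N : ℕ, 0 < N → ∀ (a : K) (m : ℤ),
        (p : ℤ) * Multiplicative.toAdd (v a) = N * m → inv' (u N a) = (m : ZMod p))
    (x : Z) (hx : x ^ p ∈ B) : inv' x = inv x := by
  have := linv_res B u v hNF hCB hCM B u v (MonoidHom.id Z) (fun _ h => h) (MonoidHom.id K)
    1 1 1 rfl Nat.one_pos (fun a => by simp) (fun N _ a => by simp [B.one_mem]) p inv inv'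
    h3 h4 h3' h4' x hx
  simpa using this

end linvres

end Fermat.Agent.S55
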