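import Mathlib
import Fermat.Agent.S55.LocInvAbs

/-!
# S55 block LOC: abstract invariants, part 2 (T3b)

In the setting of `loc_inv_abstract_res`: for ANY class `y` of the source system whose
restriction is `p`-torsion, `y ^ n` is `p`-torsion and `inv (y ^ n) = inv' (res y)`
(`linv_res_pow`, `loc_inv_abstract_res_pow`).  This is the form needed when `cor ∘ res = n` is
applied to a class `y` which is not itself `p`-torsion.
-/

set_option autoImplicit false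
set_option linter.unusedSectionVars false

namespace Fermat.Agent.S55

section linvres2

variable {Z K Z' K' : Type*} [CommGroup Z] [CommGroup K] [CommGroup Z'] [CommGroup K']

/-- **(T3b)**, minimal hypotheses. -/
theorem linv_res_pow (B : Subgroup Z) (u : ℕ → K →* Z) (v : K →* Multiplicative ℤ)
    (hNF : ∀ x : Z, ∃ N : ℕ, 0 < N ∧ ∃ a : K, x / u N a ∈ B)
    (hCB : ∀ N : ℕ, 0 < N → ∀ a : K, u N a ∈ B ↔ (N : ℤ) ∣ Multiplicative.toAdd (v a))
    (hCM : ∀ N t : ℕ, 0 < N → 0 < t → ∀ a : K, u (N * t) (a ^ t) / u N a ∈ B)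
    (B' : Subgroup Z') (u' : ℕ → K' →* Z') (v' : K' →* Multiplicative ℤ)
    (hCB' : ∀ N : ℕ, 0 < N → ∀ a : K', u' N a ∈ B' ↔ (N : ℤ) ∣ Multiplicative.toAdd (v' a))
    (res : Z →* Z') (hresB : ∀ x ∈ B, res x ∈ B') (ι : K →* K') (e f n : ℕ)
    (hef : e * f = n) (hf : 0 < f)
    (hv : ∀ a, Multiplicative.toAdd (v' (ι a)) = e * Multiplicative.toAdd (v a))
    (hres : ∀ N : ℕ, 0 < N → ∀ a : K, res (u (N * f) a) / u' N (ι a) ∈ B')
    (p : ℕ) (inv : Z → ZMod p) (inv' : Z' → ZMod p)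
    (h3 : ∀ x y, x / y ∈ B → inv x = inv y)
    (h4 : ∀ N : ℕ, 0 < N → ∀ (a : K) (m : ℤ),
        (p : ℤ) * Multiplicative.toAdd (v a) = N * m → inv (u N a) = (m : ZMod p))
    (h3' : ∀ x y, x / y ∈ B' → inv' x = inv' y)
    (h4' : ∀ N : ℕ, 0 < N → ∀ (a : K') (m : ℤ),
        (p : ℤ) * Multiplicative.toAdd (v' a) = N * m → inv' (u' N a) = (m : ZMod p))
    (y : Z) (hy : res y ^ p ∈ B') : (y ^ n) ^ p ∈ B ∧ inv (y ^ n) = inv' (res y) := by
  obtain ⟨N, hN, a, hya⟩ := hNF y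
  have h5 : y / u (N * f) (a ^ f) ∈ B := by
    have h6 := hCM N f hN hf a
    rw [linv_div_mem_iff] at hya h6 ⊢
    rw [h6, hya]
  have h7 : res y / u' N (ι (a ^ f)) ∈ B' := by
    have h8 := hresB _ h5
    have h9 := hres N hN (a ^ f)
    rw [map_div] at h8
    rw [linv_div_mem_iff] at h8 h9 ⊢
    rw [h8, h9]
  have h8 : u' N (ι (a ^ f) ^ p) ∈ B' := by
    rw [linv_div_mem_iff] at h7
    rw [← QuotientGroup.eq_one_iff] at hy ⊢
    rw [map_pow (u' N), QuotientGroup.mk_pow, ← h7, ← QuotientGroup.mk_pow, hy]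
  rw [hCB' N hN, map_pow v', toAdd_pow, hv, map_pow v, toAdd_pow] at h8
  obtain ⟨m, hm⟩ := h8
  simp only [nsmul_eq_mul] at hm
  have hm' : (p : ℤ) * ((n : ℤ) * Multiplicative.toAdd (v a)) = N * m := by
    rw [← hef, ← hm]
    push_cast
    ring
  refine ⟨?_, ?_⟩
  · have h9 : u N (a ^ (n * p)) ∈ B := by
      rw [hCB N hN, map_pow v, toAdd_pow, nsmul_eq_mul]
      refine ⟨m, ?_⟩
      rw [← hm']
      push_cast
      ring
    rw [linv_div_mem_iff] at hya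
    rw [← QuotientGroup.eq_one_iff] at h9 ⊢
    rw [← pow_mul, QuotientGroup.mk_pow, hya, ← QuotientGroup.mk_pow, ← map_pow (u N), h9]
  · have h10 : y ^ n / u N (a ^ n) ∈ B := by
      rw [linv_div_mem_iff] at hya ⊢
      rw [QuotientGroup.mk_pow, hya, ← QuotientGroup.mk_pow, ← map_pow (u N)]
    rw [h3 _ _ h10, h3' _ _ h7]
    rw [h4 N hN (a ^ n) m (by rw [map_pow v, toAdd_pow, nsmul_eq_mul]; exact hm')]
    rw [h4' N hN (ι (a ^ f)) m (by
      rw [hv, map_pow v, toAdd_pow, nsmul_eq_mul, ← hm', ← hef]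
      push_cast
      ring)]

/-- **(T3b)**: `inv`, `inv'` ANY functions with the four properties of `loc_inv_abstract` for
the respective systems; for every `y` with `(res y) ^ p ∈ B'`: `(y ^ n) ^ p ∈ B` and
`inv (y ^ n) = inv' (res y)`. -/
theorem loc_inv_abstract_res_pow (B : Subgroup Z) (u : ℕ → K →* Z) (v : K →* Multiplicative ℤ)
    (hNF : ∀ x : Z, ∃ N : ℕ, 0 < N ∧ ∃ a : K, x / u N a ∈ B)
    (hCB : ∀ N : ℕ, 0 < N → ∀ a : K, u N a ∈ B ↔ (N : ℤ) ∣ Multiplicative.toAdd (v a))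
    (hCM : ∀ N t : ℕ, 0 < N → 0 < t → ∀ a : K, u (N * t) (a ^ t) / u N a ∈ B)
    (B' : Subgroup Z') (u' : ℕ → K' →* Z') (v' : K' →* Multiplicative ℤ)
    (hCB' : ∀ N : ℕ, 0 < N → ∀ a : K', u' N a ∈ B' ↔ (N : ℤ) ∣ Multiplicative.toAdd (v' a))
    (res : Z →* Z') (hresB : ∀ x ∈ B, res x ∈ B') (ι : K →* K') (e f n : ℕ)
    (hef : e * f = n) (hf : 0 < f)
    (hv : ∀ a, Multiplicative.toAdd (v' (ι a)) = e * Multiplicative.toAdd (v a))
    (hres : ∀ N : ℕ, 0 < N → ∀ a : K, res (u (N * f) a) / u' N (ι a) ∈ B')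
    (p : ℕ) (inv : Z → ZMod p) (inv' : Z' → ZMod p)
    (hinv : (∀ x y, x ^ p ∈ B → y ^ p ∈ B → inv (x * y) = inv x + inv y) ∧
      (∀ x, x ^ p ∈ B → (inv x = 0 ↔ x ∈ B)) ∧
      (∀ x y, x / y ∈ B → inv x = inv y) ∧
      (∀ N : ℕ, 0 < N → ∀ (a : K) (m : ℤ),
        (p : ℤ) * Multiplicative.toAdd (v a) = N * m → inv (u N a) = (m : ZMod p)))
    (hinv' : (∀ x y, x ^ p ∈ B' → y ^ p ∈ B' → inv' (x * y) = inv' x + inv' y) ∧
      (∀ x, x ^ p ∈ B' → (inv' x = 0 ↔ x ∈ B')) ∧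
      (∀ x y, x / y ∈ B' → inv' x = inv' y) ∧
      (∀ N : ℕ, 0 < N → ∀ (a : K') (m : ℤ),
        (p : ℤ) * Multiplicative.toAdd (v' a) = N * m → inv' (u' N a) = (m : ZMod p))) :
    ∀ y, res y ^ p ∈ B' → (y ^ n) ^ p ∈ B ∧ inv (y ^ n) = inv' (res y) :=
  linv_res_pow B u v hNF hCB hCM B' u' v' hCB' res hresB ι e f n hef hf hv hres p inv inv'
    hinv.2.2.1 hinv.2.2.2 hinv'.2.2.1 hinv'.2.2.2

end linvres2

end Fermat.Agent.S55
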