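import Mathlib
import Fermat.Agent.S55.LocBasic
import Fermat.Agent.S55.UnrBasic
import Fermat.Agent.S55.UnrPack
import Fermat.Agent.S55.LocCarry
import Fermat.Agent.S55.LocLimBase
import Fermat.Agent.S55.LocLimCoc
import Fermat.Agent.S55.LocInvAbs

/-!
# S55 block LOC: restriction from `Γ_K` to `Γ_L` (RES)

`L/K` finite extension of local fields inside `Ω` (model: `[Algebra K L] [Algebra K Ω]
[Algebra L Ω] [IsScalarTower K L Ω]`, so `L` may be any type, in particular `↥L` for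
`L : IntermediateField K Ω`), `Γ_L = Ω ≃ₐ[L] Ω → Γ_K = Ω ≃ₐ[K] Ω` by `AlgEquiv.restrictScalars K`.

* `lres_exists_e_f`, `lres_ord_map`: ramification numerics `e * f = [L:K]`, `q_L = q_K ^ f`,
  `ord_L = e * ord_K` on `K`;
* `lres₁`, `lres₂`: restriction of cochains (monoid homs); `lres₂_d₁`, `lres₂_isMulCocycle₂`,
  `lres₁_lev`, `lres₂_lev`, `lres₂_levCob`: compatibility with coboundaries, cocycles, levels;
* `lres₂_ucoc`: (RES) pointwise for the unramified carry cocycles;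
* `linv_res_surj`: RES-surjectivity in the abstract normal-form setting of `LocInvAbs`.
-/

set_option autoImplicit false
set_option linter.unusedSectionVars false

namespace Fermat.Agent.S55

open IntermediateField

section Ram

variable {K L : Type*} [NontriviallyNormedField K] [IsUltrametricDist K] [ProperSpace K]
  [NontriviallyNormedField L] [IsUltrametricDist L] [ProperSpace L] [NormedAlgebra K L]
  [FiniteDimensional K L]

omit [IsUltrametricDist K] [ProperSpace K] in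
/-- Two uniformizers have the same norm. -/
theorem lres_unif_norm_eq {ϖ ϖ' : K} (h : loc_IsUnif ϖ) (h' : loc_IsUnif ϖ') : ‖ϖ‖ = ‖ϖ'‖ :=
  le_antisymm (h'.2.2 ϖ h.2.1) (h.2.2 ϖ' h'.2.1)

variable (K L) in
/-- **Ramification numerics**: `e * f = [L:K]`, `q_L = q_K ^ f`, `‖ϖ_K‖ = ‖ϖ_L‖ ^ e`. -/
theorem lres_exists_e_f : ∃ e f : ℕ, 0 < e ∧ 0 < f ∧ e * f = Module.finrank K L ∧
    unr_q L = unr_q K ^ f ∧
    ∀ (ϖK : K) (ϖL : L), loc_IsUnif ϖK → loc_IsUnif ϖL → ‖ϖK‖ = ‖ϖL‖ ^ e := by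
  obtain ⟨ϖK, hK⟩ := loc_exists_unif K
  obtain ⟨ϖL, hL⟩ := loc_exists_unif L
  have hnorm : ‖algebraMap K L ϖK‖ = ‖ϖK‖ := norm_algebraMap' L ϖK
  have hne : algebraMap K L ϖK ≠ 0 := by
    rw [← norm_pos_iff, hnorm]
    exact hK.1
  obtain ⟨k, hk⟩ := hL.exists_zpow hne
  have hkpos : 0 < k := by
    by_contra hcon
    have hk0 : 0 ≤ -k := by omega
    have h1 : 1 ≤ ‖ϖL‖⁻¹ := (one_le_inv₀ hL.1).mpr hL.2.1.le
    have h2 : 1 ≤ ‖ϖL‖⁻¹ ^ (-k) := one_le_zpow₀ h1 hk0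
    rw [inv_zpow', neg_neg, ← hk, hnorm] at h2
    exact absurd hK.2.1 (not_lt.mpr h2)
  obtain ⟨e, rfl⟩ := Int.eq_ofNat_of_zero_le hkpos.le
  have hepos : 0 < e := by exact_mod_cast hkpos
  rw [zpow_natCast] at hk
  have h1 := unr_q_pow_eq hK hL e hk
  obtain ⟨f, hf, hq⟩ := unr_q_eq_pow_pos (K := K) (L := L)
  refine ⟨e, f, hepos, hf, ?_, hq, ?_⟩
  · rw [hq, ← pow_mul] at h1
    have := Nat.pow_right_injective (unr_two_le K) h1
    rw [← this, mul_comm]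
  · intro ϖK' ϖL' hK' hL'
    rw [lres_unif_norm_eq hK' hK, lres_unif_norm_eq hL' hL, ← hnorm, hk]

/-- The valuation of `L` restricted to `K` is `e` times the valuation of `K`. -/
theorem lres_ord_map {ϖK : K} {ϖL : L} (hK : loc_IsUnif ϖK) (hL : loc_IsUnif ϖL) (e : ℕ)
    (he : ‖ϖK‖ = ‖ϖL‖ ^ e) (a : Kˣ) :
    loc_ord hL (Additive.ofMul (Units.map (algebraMap K L : K →* L) a)) =
      e * loc_ord hK (Additive.ofMul a) := by
  rw [loc_ord_eq_iff]
  have h1 := loc_ord_spec hK (Additive.ofMul a)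
  rw [toMul_ofMul] at h1 ⊢
  have h2 : ‖((Units.map (algebraMap K L : K →* L) a : Lˣ) : L)‖ = ‖(a : K)‖ :=
    norm_algebraMap' L (a : K)
  rw [h2, h1, he, zpow_mul, zpow_natCast]

end Ram

section Res

variable (K L : Type) {Ω : Type} [Field K] [Field L] [Field Ω] [Algebra K L] [Algebra K Ω]
  [Algebra L Ω] [IsScalarTower K L Ω]

/-- restriction of 1-cochains from `Γ_K` to `Γ_L`. -/
def lres₁ : ((Ω ≃ₐ[K] Ω) → Ωˣ) →* ((Ω ≃ₐ[L] Ω) → Ωˣ) where
  toFun β := fun g => β (g.restrictScalars K)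
  map_one' := rfl
  map_mul' _ _ := rfl

/-- restriction of 2-cochains from `Γ_K` to `Γ_L`. -/
def lres₂ : ((Ω ≃ₐ[K] Ω) × (Ω ≃ₐ[K] Ω) → Ωˣ) →* ((Ω ≃ₐ[L] Ω) × (Ω ≃ₐ[L] Ω) → Ωˣ) where
  toFun x := fun p => x (p.1.restrictScalars K, p.2.restrictScalars K)
  map_one' := rfl
  map_mul' _ _ := rfl

lemma lres₁_apply (β : (Ω ≃ₐ[K] Ω) → Ωˣ) (g : Ω ≃ₐ[L] Ω) :
    lres₁ K L β g = β (g.restrictScalars K) := rfl

lemma lres₂_apply (x : (Ω ≃ₐ[K] Ω) × (Ω ≃ₐ[K] Ω) → Ωˣ) (g h : Ω ≃ₐ[L] Ω) :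
    lres₂ K L x (g, h) = x (g.restrictScalars K, h.restrictScalars K) := rfl

/-- restriction commutes with the coboundary. -/
lemma lres₂_d₁ (β : (Ω ≃ₐ[K] Ω) → Ωˣ) : lres₂ K L (loc_d₁ β) = loc_d₁ (lres₁ K L β) := by
  funext ⟨g, h⟩
  rfl

/-- restriction preserves cocycles. -/
lemma lres₂_isMulCocycle₂ {x : (Ω ≃ₐ[K] Ω) × (Ω ≃ₐ[K] Ω) → Ωˣ}
    (hx : groupCohomology.IsMulCocycle₂ x) : groupCohomology.IsMulCocycle₂ (lres₂ K L x) := by
  intro g h j
  exact hx (g.restrictScalars K) (h.restrictScalars K) (j.restrictScalars K)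

/-- a finite level of `Ω/K` is contained in a finite level of `Ω/L`. -/
theorem lres_exists_level [Algebra.IsAlgebraic L Ω] (M : IntermediateField K Ω)
    [FiniteDimensional K M] :
    ∃ M' : IntermediateField L Ω, FiniteDimensional L M' ∧ ∀ x ∈ M, x ∈ M' := by
  classical
  let b := Module.finBasis K M
  let S : Set Ω := Set.range (fun i => ((b i : M) : Ω))
  have hS : Finite S := Set.finite_range _
  refine ⟨IntermediateField.adjoin L S,
    IntermediateField.finiteDimensional_adjoin (fun x _ => Algebra.IsIntegral.isIntegral x), ?_⟩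
  intro x hx
  have h1 : ((∑ i, b.repr ⟨x, hx⟩ i • b i : M) : Ω) = x :=
    congrArg (Subtype.val) (b.sum_repr ⟨x, hx⟩)
  have h2 : x = ∑ i, (b.repr ⟨x, hx⟩ i) • ((b i : M) : Ω) :=
    h1.symm.trans (by rw [IntermediateField.coe_sum]; rfl)
  rw [h2]
  refine sum_mem fun i _ => ?_
  rw [Algebra.smul_def, IsScalarTower.algebraMap_apply K L Ω]
  exact mul_mem (IntermediateField.algebraMap_mem _ _)
    (IntermediateField.subset_adjoin L S ⟨i, rfl⟩)

lemma lres_mem_fixingSubgroup {M : IntermediateField K Ω} {M' : IntermediateField L Ω}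
    (hM : ∀ x ∈ M, x ∈ M') {s : Ω ≃ₐ[L] Ω} (hs : s ∈ M'.fixingSubgroup) :
    s.restrictScalars K ∈ M.fixingSubgroup := by
  rw [IntermediateField.mem_fixingSubgroup_iff] at hs ⊢
  intro x hx
  exact hs x (hM x hx)

lemma lres₁_isLvl {M : IntermediateField K Ω} {M' : IntermediateField L Ω}
    (hM : ∀ x ∈ M, x ∈ M') {β : (Ω ≃ₐ[K] Ω) → Ωˣ} (hβ : loc_IsLvl₁ M β) :
    loc_IsLvl₁ M' (lres₁ K L β) :=
  ⟨fun g s hs => hβ.1 (g.restrictScalars K) (s.restrictScalars K)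
      (lres_mem_fixingSubgroup K L hM hs),
    fun _ => hM _ (hβ.2 _)⟩

lemma lres₂_isLvl {M : IntermediateField K Ω} {M' : IntermediateField L Ω}
    (hM : ∀ x ∈ M, x ∈ M') {x : (Ω ≃ₐ[K] Ω) × (Ω ≃ₐ[K] Ω) → Ωˣ} (hx : loc_IsLvl₂ M x) :
    loc_IsLvl₂ M' (lres₂ K L x) :=
  ⟨fun g h s hs t ht => hx.1 (g.restrictScalars K) (h.restrictScalars K) (s.restrictScalars K)
      (lres_mem_fixingSubgroup K L hM hs) (t.restrictScalars K) (lres_mem_fixingSubgroup K L hM ht),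
    fun _ => hM _ (hx.2 _)⟩

lemma lres_isLvlχ {X : Type*} {M : IntermediateField K Ω} {M' : IntermediateField L Ω}
    (hM : ∀ x ∈ M, x ∈ M') {χ : (Ω ≃ₐ[K] Ω) → X} (hχ : loc_IsLvlχ M χ) :
    loc_IsLvlχ M' (fun g : Ω ≃ₐ[L] Ω => χ (g.restrictScalars K)) :=
  fun g s hs => hχ (g.restrictScalars K) (s.restrictScalars K) (lres_mem_fixingSubgroup K L hM hs)

variable [Algebra.IsAlgebraic L Ω]

/-- restriction preserves level 1-cochains. -/
theorem lres₁_lev {β : (Ω ≃ₐ[K] Ω) → Ωˣ} (hβ : loc_Lev₁ β) : loc_Lev₁ (lres₁ K L β) := by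
  obtain ⟨M, hM, hβ⟩ := hβ
  obtain ⟨M', hM', hMM'⟩ := lres_exists_level K L M
  exact ⟨M', hM', lres₁_isLvl K L hMM' hβ⟩

/-- restriction preserves level 2-cochains. -/
theorem lres₂_lev {x : (Ω ≃ₐ[K] Ω) × (Ω ≃ₐ[K] Ω) → Ωˣ} (hx : loc_Lev₂ x) :
    loc_Lev₂ (lres₂ K L x) := by
  obtain ⟨M, hM, hx⟩ := hx
  obtain ⟨M', hM', hMM'⟩ := lres_exists_level K L M
  exact ⟨M', hM', lres₂_isLvl K L hMM' hx⟩

/-- restriction preserves level coboundaries. -/
theorem lres₂_levCob {x : (Ω ≃ₐ[K] Ω) × (Ω ≃ₐ[K] Ω) → Ωˣ} (hx : loc_IsLevCob x) :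
    loc_IsLevCob (lres₂ K L x) := by
  obtain ⟨β, hβ, rfl⟩ := hx
  exact ⟨lres₁ K L β, lres₁_lev K L hβ, lres₂_d₁ K L β⟩

end Res

section ResU

/-- **(RES), pointwise**: the unramified carry cocycle of `K` of modulus `N * f` restricts to the
unramified carry cocycle of `L` of modulus `N` (`q_L = q_K ^ f`). -/
theorem lres₂_ucoc (K L Ω : Type) [NontriviallyNormedField K] [IsUltrametricDist K]
    [ProperSpace K] [NontriviallyNormedField L] [IsUltrametricDist L] [ProperSpace L]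
    [NormedField Ω] [NormedAlgebra K Ω] [NormedAlgebra L Ω] [IsAlgClosed Ω]
    [Algebra.IsAlgebraic K Ω] [Algebra.IsAlgebraic L Ω] [Algebra K L] [IsScalarTower K L Ω]
    (f : ℕ) [NeZero f] (hf : unr_q L = unr_q K ^ f) (N : ℕ) [NeZero N] (a : Ωˣ) :
    lres₂ K L (loc_ucoc (N * f) (loc_chi K Ω (N * f)) a) = loc_ucoc N (loc_chi L Ω N) a := by
  funext ⟨g, h⟩
  rw [lres₂_apply, loc_ucoc_apply, loc_ucoc_apply,
    loc_carry_scale N f _ _ _ _ (loc_chi_base_change K L Ω f hf N g)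
      (loc_chi_base_change K L Ω f hf N h)]

/-- the inclusion of unit groups is compatible with the tower. -/
lemma lres_units_map (K L Ω : Type) [Field K] [Field L] [Field Ω] [Algebra K L] [Algebra K Ω]
    [Algebra L Ω] [IsScalarTower K L Ω] (a : Kˣ) :
    Units.map (algebraMap L Ω : L →* Ω) (Units.map (algebraMap K L : K →* L) a) =
      Units.map (algebraMap K Ω : K →* Ω) a := by
  apply Units.ext
  exact (IsScalarTower.algebraMap_apply K L Ω (a : K)).symm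

end ResU

section ResSurj

variable {Z K Z' K' : Type*} [CommGroup Z] [CommGroup K] [CommGroup Z'] [CommGroup K']

/-- **RES-surjectivity**, abstract form: if the primed system (over `L`) has the normal form,
restriction maps `u (N * f) a` to `u' N (ι a)` modulo `B'`, `v' ∘ ι = e * v`, and `K` has a
uniformiser, then every class of the primed system is the restriction of some `u N a`. -/
theorem linv_res_surj (u : ℕ → K →* Z) (v : K →* Multiplicative ℤ)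
    (B' : Subgroup Z') (u' : ℕ → K' →* Z') (v' : K' →* Multiplicative ℤ)
    (hNF' : ∀ x : Z', ∃ N : ℕ, 0 < N ∧ ∃ a : K', x / u' N a ∈ B')
    (hCB' : ∀ N : ℕ, 0 < N → ∀ a : K', u' N a ∈ B' ↔ (N : ℤ) ∣ Multiplicative.toAdd (v' a))
    (hCM' : ∀ N t : ℕ, 0 < N → 0 < t → ∀ a : K', u' (N * t) (a ^ t) / u' N a ∈ B')
    (res : Z →* Z') (ι : K →* K') (e f : ℕ) (he : 0 < e) (hf : 0 < f)
    (hv : ∀ a, Multiplicative.toAdd (v' (ι a)) = e * Multiplicative.toAdd (v a))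
    (hres : ∀ N : ℕ, 0 < N → ∀ a : K, res (u (N * f) a) / u' N (ι a) ∈ B')
    (ϖ : K) (hϖ : Multiplicative.toAdd (v ϖ) = 1) (x : Z') :
    ∃ N : ℕ, 0 < N ∧ ∃ a : K, x / res (u N a) ∈ B' := by
  obtain ⟨N, hN, b, hxb⟩ := hNF' x
  set a : K := ϖ ^ (Multiplicative.toAdd (v' b)) with ha
  have hva : Multiplicative.toAdd (v a) = Multiplicative.toAdd (v' b) := by
    rw [ha, map_zpow v, toAdd_zpow, hϖ, smul_eq_mul, mul_one]
  have hNe : 0 < N * e := Nat.mul_pos hN he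
  have h1 : u' (N * e) (b ^ e / ι a) ∈ B' := by
    rw [hCB' (N * e) hNe, map_div, toAdd_div, map_pow v', toAdd_pow, hv, hva, nsmul_eq_mul,
      sub_self]
    exact dvd_zero _
  have h2 := hCM' N e hN he b
  have h3 := hres (N * e) hNe a
  refine ⟨N * e * f, Nat.mul_pos hNe hf, a, ?_⟩
  rw [linv_div_mem_iff] at hxb h2 h3 ⊢
  rw [← QuotientGroup.eq_one_iff, map_div, QuotientGroup.mk_div, div_eq_one] at h1
  rw [hxb, ← h2, h1, h3]

end ResSurj

end Fermat.Agent.S55
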