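import Mathlib
import Fermat.Agent.S55.LocBasic
import Fermat.Agent.S55.LocLimBase
import Fermat.Agent.S55.LocLimCoc
import Fermat.Agent.S55.LocLimCyc
import Fermat.Agent.S55.LocLimUnr
import Fermat.Agent.S55.LocInvAbs
import Fermat.Agent.S55.LocInvAbs2
import Fermat.Agent.S55.LocRes

/-!
# S55 block LOC: the mod-`p` local invariant of `(K, Ω)` (T4) and its restriction behaviour

`K` local field, `Ω` an algebraic closure with compatible norm, `Γ = Ω ≃ₐ[K] Ω`; cochains are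
functions `Γ × Γ → Ωˣ`.  Instantiating the abstract normal-form machinery of `LocInvAbs` with
`Z := lli_Z K Ω` (level 2-cocycles), `B := lli_B K Ω` (level coboundaries), `u N := loc_u K Ω N`,
`v := ord_K`, `hCB := loc_u_cob_iff`, `hCM := loc_u_compat` and the normal form (NF) as an
explicit hypothesis `hNF`, we get:

* `loc_IsInv K Ω p inv` : the predicate "`inv` is a mod-`p` local invariant";
* `loc_inv K Ω p` : a concrete function; `loc_inv_isInv (hNF) : loc_IsInv K Ω p (loc_inv K Ω p)`;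
  `loc_inv_exists`;
* for a finite extension `L/K` inside `Ω` (tower model `[NormedAlgebra K L] [NormedAlgebra L Ω]
  [IsScalarTower K L Ω]`, restriction `lres₂ K L` of `LocRes`):
  `loc_inv_res` (`inv_L (res x) = [L:K] inv_K x`), `loc_inv_res_pow` (T3b),
  `loc_inv_res_surj` (T3a, RES-surjectivity).
-/

set_option autoImplicit false
set_option linter.unusedSectionVars false

namespace Fermat.Agent.S55

open IntermediateField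

section cochains

variable {K Ω : Type} [Field K] [Field Ω] [Algebra K Ω]

lemma lli_isMulCocycle₂_mul {x y : (Ω ≃ₐ[K] Ω) × (Ω ≃ₐ[K] Ω) → Ωˣ}
    (hx : groupCohomology.IsMulCocycle₂ x) (hy : groupCohomology.IsMulCocycle₂ y) :
    groupCohomology.IsMulCocycle₂ (x * y) := by
  intro g h j
  simp only [Pi.mul_apply, smul_mul']
  rw [mul_mul_mul_comm, hx g h j, hy g h j, mul_mul_mul_comm]

lemma lli_isMulCocycle₂_inv {x : (Ω ≃ₐ[K] Ω) × (Ω ≃ₐ[K] Ω) → Ωˣ}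
    (hx : groupCohomology.IsMulCocycle₂ x) : groupCohomology.IsMulCocycle₂ x⁻¹ := by
  intro g h j
  simp only [Pi.inv_apply, smul_inv']
  rw [← mul_inv, ← mul_inv, hx g h j]

lemma lli_isMulCocycle₂_one :
    groupCohomology.IsMulCocycle₂ (1 : (Ω ≃ₐ[K] Ω) × (Ω ≃ₐ[K] Ω) → Ωˣ) := by
  intro g h j
  simp

/-- a coboundary is a cocycle. -/
lemma lli_d₁_isMulCocycle₂ (β : (Ω ≃ₐ[K] Ω) → Ωˣ) :
    groupCohomology.IsMulCocycle₂ (loc_d₁ β) := by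
  intro g h j
  simp only [loc_d₁_apply, smul_mul', smul_div', mul_smul, mul_assoc]
  apply Additive.ofMul.injective
  simp only [ofMul_mul, ofMul_div]
  abel

lemma lli_lev₂_mul {x y : (Ω ≃ₐ[K] Ω) × (Ω ≃ₐ[K] Ω) → Ωˣ} (hx : loc_Lev₂ x) (hy : loc_Lev₂ y) :
    loc_Lev₂ (x * y) := by
  obtain ⟨M, hM, hx⟩ := hx
  obtain ⟨M', hM', hy⟩ := hy
  refine ⟨M ⊔ M', inferInstance, ?_⟩
  have h1 := hx.mono (le_sup_left : M ≤ M ⊔ M')
  have h2 := hy.mono (le_sup_right : M' ≤ M ⊔ M')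
  exact ⟨fun g h s hs t ht => by
      simp only [Pi.mul_apply, h1.1 g h s hs t ht, h2.1 g h s hs t ht],
    fun p => by
      simp only [Pi.mul_apply, Units.val_mul]
      exact mul_mem (h1.2 p) (h2.2 p)⟩

lemma lli_lev₂_inv {x : (Ω ≃ₐ[K] Ω) × (Ω ≃ₐ[K] Ω) → Ωˣ} (hx : loc_Lev₂ x) : loc_Lev₂ x⁻¹ := by
  obtain ⟨M, hM, hx⟩ := hx
  refine ⟨M, hM, fun g h s hs t ht => by simp only [Pi.inv_apply, hx.1 g h s hs t ht],
    fun p => ?_⟩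
  simp only [Pi.inv_apply, Units.val_inv_eq_inv_val]
  exact inv_mem (hx.2 p)

lemma lli_lev₂_one : loc_Lev₂ (1 : (Ω ≃ₐ[K] Ω) × (Ω ≃ₐ[K] Ω) → Ωˣ) :=
  ⟨⊥, inferInstance, fun _ _ _ _ _ _ => rfl, fun _ => by simp⟩

/-- conjugates of elements of the fixing subgroup of a normal intermediate field. -/
lemma lli_conj_mem_fixingSubgroup (M : IntermediateField K Ω) [Normal K M] (h s : Ω ≃ₐ[K] Ω)
    (hs : s ∈ M.fixingSubgroup) : h⁻¹ * s * h ∈ M.fixingSubgroup := by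
  rw [IntermediateField.mem_fixingSubgroup_iff] at hs ⊢
  intro y hy
  have h1 : h y ∈ M := loc_mem_of_normal M h hy
  show h⁻¹ (s (h y)) = y
  rw [hs _ h1]
  exact h.symm_apply_apply y

/-- the coboundary of a level 1-cochain is a level 2-cochain. -/
lemma lli_d₁_lev [Normal K Ω] {β : (Ω ≃ₐ[K] Ω) → Ωˣ} (hβ : loc_Lev₁ β) :
    loc_Lev₂ (loc_d₁ β) := by
  obtain ⟨M₁, hM₁, hβ₁⟩ := hβ
  obtain ⟨M, hle, hfd, hnor⟩ := loc_exists_normal_ge M₁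
  have hβM := hβ₁.mono hle
  refine ⟨M, hfd, fun g h s hs t ht => ?_, fun p => ?_⟩
  · rw [loc_d₁_apply, loc_d₁_apply, hβM.1 h t ht, hβM.1 g s hs]
    have e1 : (g * s) • β h = g • β h := by
      rw [mul_smul]
      congr 1
      apply Units.ext
      exact (IntermediateField.mem_fixingSubgroup_iff _ s).mp hs _ (hβM.2 h)
    have e2 : g * s * (h * t) = g * h * (h⁻¹ * s * h * t) := by group
    rw [e1, e2, hβM.1 (g * h) _
      (M.fixingSubgroup.mul_mem (lli_conj_mem_fixingSubgroup M h s hs) ht)]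
  · obtain ⟨g, h⟩ := p
    rw [loc_d₁_apply, Units.val_mul, Units.val_div_eq_div_val]
    exact mul_mem (div_mem (loc_mem_of_normal M g (hβM.2 h)) (hβM.2 _)) (hβM.2 g)

/-- the group of level 2-cocycles. -/
def lli_Z (K Ω : Type) [Field K] [Field Ω] [Algebra K Ω] :
    Subgroup ((Ω ≃ₐ[K] Ω) × (Ω ≃ₐ[K] Ω) → Ωˣ) where
  carrier := {x | groupCohomology.IsMulCocycle₂ x ∧ loc_Lev₂ x}
  mul_mem' := fun hx hy => ⟨lli_isMulCocycle₂_mul hx.1 hy.1, lli_lev₂_mul hx.2 hy.2⟩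
  one_mem' := ⟨lli_isMulCocycle₂_one, lli_lev₂_one⟩
  inv_mem' := fun hx => ⟨lli_isMulCocycle₂_inv hx.1, lli_lev₂_inv hx.2⟩

lemma lli_mem_Z {x : (Ω ≃ₐ[K] Ω) × (Ω ≃ₐ[K] Ω) → Ωˣ} :
    x ∈ lli_Z K Ω ↔ groupCohomology.IsMulCocycle₂ x ∧ loc_Lev₂ x := Iff.rfl

/-- the group of level coboundaries (inside all 2-cochains). -/
def lli_Bf (K Ω : Type) [Field K] [Field Ω] [Algebra K Ω] :
    Subgroup ((Ω ≃ₐ[K] Ω) × (Ω ≃ₐ[K] Ω) → Ωˣ) where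
  carrier := {x | loc_IsLevCob x}
  mul_mem' := fun hx hy => hx.mul hy
  one_mem' := loc_isLevCob_one
  inv_mem' := fun hx => hx.inv

lemma lli_mem_Bf {x : (Ω ≃ₐ[K] Ω) × (Ω ≃ₐ[K] Ω) → Ωˣ} :
    x ∈ lli_Bf K Ω ↔ loc_IsLevCob x := Iff.rfl

/-- level coboundaries are level cocycles. -/
lemma lli_Bf_le_Z [Normal K Ω] : lli_Bf K Ω ≤ lli_Z K Ω := by
  rintro x ⟨β, hβ, rfl⟩
  exact ⟨lli_d₁_isMulCocycle₂ β, lli_d₁_lev hβ⟩

/-- the group of level coboundaries, as a subgroup of the level cocycles. -/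
def lli_B (K Ω : Type) [Field K] [Field Ω] [Algebra K Ω] : Subgroup ↥(lli_Z K Ω) :=
  (lli_Bf K Ω).subgroupOf (lli_Z K Ω)

lemma lli_mem_B {x : ↥(lli_Z K Ω)} :
    x ∈ lli_B K Ω ↔ loc_IsLevCob (x : (Ω ≃ₐ[K] Ω) × (Ω ≃ₐ[K] Ω) → Ωˣ) := Iff.rfl

end cochains

section system

variable (K Ω : Type) [NontriviallyNormedField K] [IsUltrametricDist K] [ProperSpace K]
  [NormedField Ω] [NormedAlgebra K Ω] [IsAlgClosed Ω] [Algebra.IsAlgebraic K Ω]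

lemma lli_u_mem (N : ℕ) [NeZero N] (a : Kˣ) : loc_u K Ω N a ∈ lli_Z K Ω :=
  ⟨loc_u_isMulCocycle₂ K Ω N a, K⟮loc_zeta K Ω N⟯,
    (loc_cyc_facts K N _ (loc_zeta_spec K Ω N)).1, loc_u_isLvl K Ω N a⟩

lemma lli_loc_u_one (N : ℕ) [NeZero N] : loc_u K Ω N 1 = 1 := by
  funext p
  simp only [loc_u, map_one, Pi.one_apply]
  exact loc_ucoc_one _ _ _

/-- the unramified carry cocycles as homomorphisms `Kˣ →* Z` (trivial for `N = 0`). -/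
noncomputable def lli_u (N : ℕ) : Kˣ →* ↥(lli_Z K Ω) :=
  if h : N = 0 then 1 else
    haveI : NeZero N := ⟨h⟩
    { toFun := fun a => ⟨loc_u K Ω N a, lli_u_mem K Ω N a⟩
      map_one' := Subtype.ext (lli_loc_u_one K Ω N)
      map_mul' := fun a b => Subtype.ext (loc_u_mul K Ω N a b) }

lemma lli_u_coe (N : ℕ) [NeZero N] (a : Kˣ) :
    ((lli_u K Ω N a : ↥(lli_Z K Ω)) : (Ω ≃ₐ[K] Ω) × (Ω ≃ₐ[K] Ω) → Ωˣ) = loc_u K Ω N a := by
  unfold lli_u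
  rw [dif_neg (NeZero.ne N)]
  rfl

variable {K}

/-- the valuation as a homomorphism to `Multiplicative ℤ`. -/
noncomputable def lli_v {ϖ : K} (hϖ : loc_IsUnif ϖ) : Kˣ →* Multiplicative ℤ :=
  AddMonoidHom.toMultiplicativeRight (loc_ord hϖ)

lemma lli_v_apply {ϖ : K} (hϖ : loc_IsUnif ϖ) (a : Kˣ) :
    Multiplicative.toAdd (lli_v hϖ a) = loc_ord hϖ (Additive.ofMul a) := rfl

/-- `‖a‖` is an `N`-th power of a norm iff `N ∣ ord a`. -/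
lemma lli_norm_pow_iff {ϖ : K} (hϖ : loc_IsUnif ϖ) (N : ℕ) (hN : 0 < N) (a : Kˣ) :
    (∃ c : K, ‖(a : K)‖ = ‖c‖ ^ N) ↔ (N : ℤ) ∣ loc_ord hϖ (Additive.ofMul a) := by
  constructor
  · rintro ⟨c, hc⟩
    have hc0 : c ≠ 0 := by
      rintro rfl
      rw [norm_zero, zero_pow hN.ne'] at hc
      exact a.ne_zero (norm_eq_zero.mp hc)
    obtain ⟨k, hk⟩ := hϖ.exists_zpow hc0
    refine ⟨k, ?_⟩
    rw [loc_ord_eq_iff, toMul_ofMul, hc, hk, ← zpow_natCast, ← zpow_mul, mul_comm]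
  · rintro ⟨k, hk⟩
    refine ⟨ϖ ^ k, ?_⟩
    have h1 := loc_ord_spec hϖ (Additive.ofMul a)
    rw [toMul_ofMul, hk] at h1
    rw [h1, norm_zpow, ← zpow_natCast, ← zpow_mul, mul_comm]

variable (K)
variable [IsGalois K Ω]

/-- (CB) in the abstract shape. -/
lemma lli_hCB {ϖ : K} (hϖ : loc_IsUnif ϖ) (N : ℕ) (hN : 0 < N) (a : Kˣ) :
    lli_u K Ω N a ∈ lli_B K Ω ↔ (N : ℤ) ∣ Multiplicative.toAdd (lli_v hϖ a) := by
  have : NeZero N := ⟨hN.ne'⟩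
  rw [lli_mem_B, lli_u_coe, loc_u_cob_iff, lli_v_apply, lli_norm_pow_iff hϖ N hN]

/-- (CM) in the abstract shape. -/
lemma lli_hCM (N t : ℕ) (hN : 0 < N) (ht : 0 < t) (a : Kˣ) :
    lli_u K Ω (N * t) (a ^ t) / lli_u K Ω N a ∈ lli_B K Ω := by
  have : NeZero N := ⟨hN.ne'⟩
  have : NeZero t := ⟨ht.ne'⟩
  rw [lli_mem_B, Subgroup.coe_div, lli_u_coe, lli_u_coe]
  exact loc_u_compat K Ω N t a

/-- (NF) in the abstract shape, from the function-level normal form. -/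
lemma lli_hNF
    (hNF : ∀ x : (Ω ≃ₐ[K] Ω) × (Ω ≃ₐ[K] Ω) → Ωˣ, groupCohomology.IsMulCocycle₂ x → loc_Lev₂ x →
      ∃ (N : ℕ) (_ : NeZero N) (a : Kˣ), loc_IsLevCob (x / loc_u K Ω N a))
    (x : ↥(lli_Z K Ω)) : ∃ N : ℕ, 0 < N ∧ ∃ a : Kˣ, x / lli_u K Ω N a ∈ lli_B K Ω := by
  obtain ⟨N, hN, a, h⟩ := hNF x.1 x.2.1 x.2.2
  refine ⟨N, Nat.pos_of_ne_zero (NeZero.ne N), a, ?_⟩
  rw [lli_mem_B, Subgroup.coe_div, lli_u_coe]
  exact h

end system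

section absdef

variable {Z K : Type*} [CommGroup Z] [CommGroup K]

/-- The four properties of `loc_inv_abstract` for the concrete function `linv_inv`. -/
theorem linv_inv_spec (B : Subgroup Z) (u : ℕ → K →* Z) (v : K →* Multiplicative ℤ)
    (hNF : ∀ x : Z, ∃ N : ℕ, 0 < N ∧ ∃ a : K, x / u N a ∈ B)
    (hCB : ∀ N : ℕ, 0 < N → ∀ a : K, u N a ∈ B ↔ (N : ℤ) ∣ Multiplicative.toAdd (v a))
    (hCM : ∀ N t : ℕ, 0 < N → 0 < t → ∀ a : K, u (N * t) (a ^ t) / u N a ∈ B)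
    (p : ℕ) [Fact p.Prime] :
    (∀ x y, x ^ p ∈ B → y ^ p ∈ B →
      linv_inv B u v p (x * y) = linv_inv B u v p x + linv_inv B u v p y) ∧
    (∀ x, x ^ p ∈ B → (linv_inv B u v p x = 0 ↔ x ∈ B)) ∧
    (∀ x y, x / y ∈ B → linv_inv B u v p x = linv_inv B u v p y) ∧
    (∀ N : ℕ, 0 < N → ∀ (a : K) (m : ℤ),
      (p : ℤ) * Multiplicative.toAdd (v a) = N * m → linv_inv B u v p (u N a) = (m : ZMod p)) := by
  refine ⟨?_, ?_, ?_, ?_⟩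
  · intro x y hx hy
    exact linv_inv_eq_of_Rel B u v hCB hCM p _ _
      (linv_Rel_mul B u v hCM p x y _ _ (linv_inv_Rel B u v hNF hCB p x hx)
        (linv_inv_Rel B u v hNF hCB p y hy))
  · intro x hx
    constructor
    · intro h0
      have := linv_inv_Rel B u v hNF hCB p x hx
      rw [h0] at this
      exact linv_mem_of_Rel_zero B u v hCB p (Fact.out : p.Prime).ne_zero x this
    · intro hxB
      exact linv_inv_eq_of_Rel B u v hCB hCM p x 0 (linv_Rel_zero_of_mem B u v p x hxB)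
  · intro x y hxy
    exact linv_inv_congr B u v p x y hxy
  · intro N hN a m hm
    exact linv_inv_eq_of_Rel B u v hCB hCM p _ _ (linv_Rel_u B u v p N hN a m hm)

end absdef

section inv

variable (K Ω : Type) [NontriviallyNormedField K] [IsUltrametricDist K] [ProperSpace K]
  [NormedField Ω] [NormedAlgebra K Ω] [IsAlgClosed Ω] [Algebra.IsAlgebraic K Ω]

/-- `inv` is a mod-`p` local invariant for `(K, Ω)`: additive on `p`-torsion classes of level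
2-cocycles, zero exactly on level coboundaries, a class function, and normalised on the
unramified carry cocycles by `inv (u_{N,a}) = p · ord(a) / N`. -/
def loc_IsInv (p : ℕ) (inv : ((Ω ≃ₐ[K] Ω) × (Ω ≃ₐ[K] Ω) → Ωˣ) → ZMod p) : Prop :=
  (∀ x y, groupCohomology.IsMulCocycle₂ x → loc_Lev₂ x → groupCohomology.IsMulCocycle₂ y →
      loc_Lev₂ y → loc_IsLevCob (x ^ p) → loc_IsLevCob (y ^ p) → inv (x * y) = inv x + inv y) ∧
  (∀ x, groupCohomology.IsMulCocycle₂ x → loc_Lev₂ x → loc_IsLevCob (x ^ p) →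
      (inv x = 0 ↔ loc_IsLevCob x)) ∧
  (∀ x y, groupCohomology.IsMulCocycle₂ x → loc_Lev₂ x → loc_IsLevCob (x / y) →
      inv x = inv y) ∧
  (∀ (ϖ : K) (hϖ : loc_IsUnif ϖ) (N : ℕ) [NeZero N] (a : Kˣ) (m : ℤ),
      (p : ℤ) * loc_ord hϖ (Additive.ofMul a) = N * m → inv (loc_u K Ω N a) = (m : ZMod p))

variable {K} in
/-- the valuation does not depend on the uniformizer. -/
lemma lli_ord_eq {ϖ ϖ' : K} (hϖ : loc_IsUnif ϖ) (hϖ' : loc_IsUnif ϖ') (x : Additive Kˣ) :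
    loc_ord hϖ x = loc_ord hϖ' x := by
  rw [loc_ord_eq_iff, lres_unif_norm_eq hϖ hϖ']
  exact loc_ord_spec hϖ' x

open Classical in
/-- **The mod-`p` local invariant** of `(K, Ω)` on 2-cochains (zero outside level cocycles). -/
noncomputable def loc_inv (p : ℕ) (x : (Ω ≃ₐ[K] Ω) × (Ω ≃ₐ[K] Ω) → Ωˣ) : ZMod p :=
  if h : x ∈ lli_Z K Ω then
    linv_inv (lli_B K Ω) (lli_u K Ω) (lli_v (loc_exists_unif K).choose_spec) p ⟨x, h⟩
  else 0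

variable [IsGalois K Ω]

/-- **(T4)**: given the normal form (NF), `loc_inv K Ω p` is a mod-`p` local invariant. -/
theorem loc_inv_isInv
    (hNF : ∀ x : (Ω ≃ₐ[K] Ω) × (Ω ≃ₐ[K] Ω) → Ωˣ, groupCohomology.IsMulCocycle₂ x → loc_Lev₂ x →
      ∃ (N : ℕ) (_ : NeZero N) (a : Kˣ), loc_IsLevCob (x / loc_u K Ω N a))
    (p : ℕ) [Fact p.Prime] : loc_IsInv K Ω p (loc_inv K Ω p) := by
  have hϖ₀ := (loc_exists_unif K).choose_spec
  obtain ⟨h1, h2, h3, h4⟩ := linv_inv_spec (lli_B K Ω) (lli_u K Ω) (lli_v hϖ₀)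
    (lli_hNF K Ω hNF) (lli_hCB K Ω hϖ₀) (lli_hCM K Ω) p
  refine ⟨?_, ?_, ?_, ?_⟩
  · intro x y hx hxl hy hyl hxp hyp
    have hxZ : x ∈ lli_Z K Ω := ⟨hx, hxl⟩
    have hyZ : y ∈ lli_Z K Ω := ⟨hy, hyl⟩
    have hxyZ : x * y ∈ lli_Z K Ω := mul_mem hxZ hyZ
    unfold loc_inv
    rw [dif_pos hxZ, dif_pos hyZ, dif_pos hxyZ]
    exact h1 ⟨x, hxZ⟩ ⟨y, hyZ⟩ hxp hyp
  · intro x hx hxl hxp
    have hxZ : x ∈ lli_Z K Ω := ⟨hx, hxl⟩
    unfold loc_inv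
    rw [dif_pos hxZ]
    exact h2 ⟨x, hxZ⟩ hxp
  · intro x y hx hxl hxy
    have hxZ : x ∈ lli_Z K Ω := ⟨hx, hxl⟩
    have hyZ : y ∈ lli_Z K Ω := by
      have h5 : x / y ∈ lli_Z K Ω := lli_Bf_le_Z hxy
      have h6 : y = x / (x / y) := by rw [div_div_cancel]
      rw [h6]
      exact div_mem hxZ h5
    unfold loc_inv
    rw [dif_pos hxZ, dif_pos hyZ]
    exact h3 ⟨x, hxZ⟩ ⟨y, hyZ⟩ hxy
  · intro ϖ hϖ N _ a m hm
    unfold loc_inv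
    rw [dif_pos (lli_u_mem K Ω N a)]
    have h5 := h4 N (Nat.pos_of_ne_zero (NeZero.ne N)) a m (by
      rw [lli_v_apply, lli_ord_eq hϖ₀ hϖ]
      exact hm)
    rw [← h5]
    congr 1
    exact Subtype.ext (lli_u_coe K Ω N a).symm

/-- existential form of `loc_inv_isInv`. -/
theorem loc_inv_exists
    (hNF : ∀ x : (Ω ≃ₐ[K] Ω) × (Ω ≃ₐ[K] Ω) → Ωˣ, groupCohomology.IsMulCocycle₂ x → loc_Lev₂ x →
      ∃ (N : ℕ) (_ : NeZero N) (a : Kˣ), loc_IsLevCob (x / loc_u K Ω N a))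
    (p : ℕ) [Fact p.Prime] :
    ∃ inv : ((Ω ≃ₐ[K] Ω) × (Ω ≃ₐ[K] Ω) → Ωˣ) → ZMod p, loc_IsInv K Ω p inv :=
  ⟨loc_inv K Ω p, loc_inv_isInv K Ω hNF p⟩

/-- the abstract normalisation property of a function-level invariant. -/
lemma lli_isInv_h4 {ϖ : K} (hϖ : loc_IsUnif ϖ) (p : ℕ)
    (inv : ((Ω ≃ₐ[K] Ω) × (Ω ≃ₐ[K] Ω) → Ωˣ) → ZMod p) (h : loc_IsInv K Ω p inv) :
    ∀ N : ℕ, 0 < N → ∀ (a : Kˣ) (m : ℤ),
      (p : ℤ) * Multiplicative.toAdd (lli_v hϖ a) = N * m →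
      inv ((lli_u K Ω N a : ↥(lli_Z K Ω)) : (Ω ≃ₐ[K] Ω) × (Ω ≃ₐ[K] Ω) → Ωˣ) = (m : ZMod p) := by
  intro N hN a m hm
  have : NeZero N := ⟨hN.ne'⟩
  rw [lli_u_coe]
  exact h.2.2.2 ϖ hϖ N a m hm

/-- the abstract class-function property of a function-level invariant. -/
lemma lli_isInv_h3 (p : ℕ)
    (inv : ((Ω ≃ₐ[K] Ω) × (Ω ≃ₐ[K] Ω) → Ωˣ) → ZMod p) (h : loc_IsInv K Ω p inv) :
    ∀ x y : ↥(lli_Z K Ω), x / y ∈ lli_B K Ω →
      inv (x : (Ω ≃ₐ[K] Ω) × (Ω ≃ₐ[K] Ω) → Ωˣ) = inv (y : (Ω ≃ₐ[K] Ω) × (Ω ≃ₐ[K] Ω) → Ωˣ) :=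
  fun x y hxy => h.2.2.1 x.1 y.1 x.2.1 x.2.2 hxy

end inv

section res

variable (K L Ω : Type) [NontriviallyNormedField K] [IsUltrametricDist K] [ProperSpace K]
  [NontriviallyNormedField L] [IsUltrametricDist L] [ProperSpace L]
  [NormedField Ω] [NormedAlgebra K Ω] [NormedAlgebra L Ω] [IsAlgClosed Ω]
  [Algebra.IsAlgebraic K Ω] [Algebra.IsAlgebraic L Ω]
  [NormedAlgebra K L] [FiniteDimensional K L] [IsScalarTower K L Ω]

/-- restriction of level 2-cocycles, as a homomorphism `Z_K →* Z_L`. -/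
def lli_res : ↥(lli_Z K Ω) →* ↥(lli_Z L Ω) :=
  ((lres₂ K L).comp (lli_Z K Ω).subtype).codRestrict (lli_Z L Ω)
    (fun x => ⟨lres₂_isMulCocycle₂ K L x.2.1, lres₂_lev K L x.2.2⟩)

lemma lli_res_coe (x : ↥(lli_Z K Ω)) :
    ((lli_res K L Ω x : ↥(lli_Z L Ω)) : (Ω ≃ₐ[L] Ω) × (Ω ≃ₐ[L] Ω) → Ωˣ) =
      lres₂ K L (x : (Ω ≃ₐ[K] Ω) × (Ω ≃ₐ[K] Ω) → Ωˣ) := rfl

lemma lli_res_B (x : ↥(lli_Z K Ω)) (hx : x ∈ lli_B K Ω) : lli_res K L Ω x ∈ lli_B L Ω :=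
  lres₂_levCob K L hx

/-- (RES) pointwise in the abstract shape. -/
lemma lli_hres (f : ℕ) (hf : 0 < f) (hq : unr_q L = unr_q K ^ f) (N : ℕ) (hN : 0 < N) (a : Kˣ) :
    lli_res K L Ω (lli_u K Ω (N * f) a) / lli_u L Ω N (Units.map (algebraMap K L : K →* L) a) ∈
      lli_B L Ω := by
  have : NeZero N := ⟨hN.ne'⟩
  have : NeZero f := ⟨hf.ne'⟩
  have h1 : lli_res K L Ω (lli_u K Ω (N * f) a) =
      lli_u L Ω N (Units.map (algebraMap K L : K →* L) a) := by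
    apply Subtype.ext
    rw [lli_res_coe, lli_u_coe, lli_u_coe]
    funext ⟨g, h⟩
    exact loc_u_res K L Ω f hq N a g h
  rw [h1, div_self']
  exact (lli_B L Ω).one_mem

variable [IsGalois K Ω] [IsGalois L Ω]

/-- **(RES)**: `inv_L (res x) = [L:K] · inv_K x` on `p`-torsion classes of level 2-cocycles of
`Γ_K`; `invK`, `invL` ANY mod-`p` local invariants. -/
theorem loc_inv_res
    (hNF : ∀ x : (Ω ≃ₐ[K] Ω) × (Ω ≃ₐ[K] Ω) → Ωˣ, groupCohomology.IsMulCocycle₂ x → loc_Lev₂ x →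
      ∃ (N : ℕ) (_ : NeZero N) (a : Kˣ), loc_IsLevCob (x / loc_u K Ω N a))
    (p : ℕ) (invK : ((Ω ≃ₐ[K] Ω) × (Ω ≃ₐ[K] Ω) → Ωˣ) → ZMod p) (hK : loc_IsInv K Ω p invK)
    (invL : ((Ω ≃ₐ[L] Ω) × (Ω ≃ₐ[L] Ω) → Ωˣ) → ZMod p) (hL : loc_IsInv L Ω p invL)
    (x : (Ω ≃ₐ[K] Ω) × (Ω ≃ₐ[K] Ω) → Ωˣ) (hx : groupCohomology.IsMulCocycle₂ x)
    (hxl : loc_Lev₂ x) (hxp : loc_IsLevCob (x ^ p)) :
    invL (lres₂ K L x) = (Module.finrank K L : ZMod p) * invK x := by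
  obtain ⟨ϖK, hϖK⟩ := loc_exists_unif K
  obtain ⟨ϖL, hϖL⟩ := loc_exists_unif L
  obtain ⟨e, f, he, hf, hef, hq, hnorm⟩ := lres_exists_e_f K L
  exact linv_res (lli_B K Ω) (lli_u K Ω) (lli_v hϖK) (lli_hNF K Ω hNF) (lli_hCB K Ω hϖK)
    (lli_hCM K Ω) (lli_B L Ω) (lli_u L Ω) (lli_v hϖL) (lli_res K L Ω) (lli_res_B K L Ω)
    (Units.map (algebraMap K L : K →* L)) e f (Module.finrank K L) hef hf
    (fun a => lres_ord_map hϖK hϖL e (hnorm ϖK ϖL hϖK hϖL) a)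
    (fun N hN a => lli_hres K L Ω f hf hq N hN a) p
    (fun z => invK z.1) (fun z => invL z.1)
    (lli_isInv_h3 K Ω p invK hK) (lli_isInv_h4 K Ω hϖK p invK hK)
    (lli_isInv_h3 L Ω p invL hL) (lli_isInv_h4 L Ω hϖL p invL hL)
    ⟨x, hx, hxl⟩ hxp

/-- **(T3b), concrete**: for ANY level 2-cocycle `y` of `Γ_K` whose restriction to `Γ_L` is
`p`-torsion, `y ^ [L:K]` is `p`-torsion and `inv_K (y ^ [L:K]) = inv_L (res y)`. -/
theorem loc_inv_res_pow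
    (hNF : ∀ x : (Ω ≃ₐ[K] Ω) × (Ω ≃ₐ[K] Ω) → Ωˣ, groupCohomology.IsMulCocycle₂ x → loc_Lev₂ x →
      ∃ (N : ℕ) (_ : NeZero N) (a : Kˣ), loc_IsLevCob (x / loc_u K Ω N a))
    (p : ℕ) (invK : ((Ω ≃ₐ[K] Ω) × (Ω ≃ₐ[K] Ω) → Ωˣ) → ZMod p) (hK : loc_IsInv K Ω p invK)
    (invL : ((Ω ≃ₐ[L] Ω) × (Ω ≃ₐ[L] Ω) → Ωˣ) → ZMod p) (hL : loc_IsInv L Ω p invL)
    (y : (Ω ≃ₐ[K] Ω) × (Ω ≃ₐ[K] Ω) → Ωˣ) (hy : groupCohomology.IsMulCocycle₂ y)
    (hyl : loc_Lev₂ y) (hyp : loc_IsLevCob (lres₂ K L y ^ p)) :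
    loc_IsLevCob ((y ^ Module.finrank K L) ^ p) ∧
      invK (y ^ Module.finrank K L) = invL (lres₂ K L y) := by
  obtain ⟨ϖK, hϖK⟩ := loc_exists_unif K
  obtain ⟨ϖL, hϖL⟩ := loc_exists_unif L
  obtain ⟨e, f, he, hf, hef, hq, hnorm⟩ := lres_exists_e_f K L
  exact linv_res_pow (lli_B K Ω) (lli_u K Ω) (lli_v hϖK) (lli_hNF K Ω hNF) (lli_hCB K Ω hϖK)
    (lli_hCM K Ω) (lli_B L Ω) (lli_u L Ω) (lli_v hϖL) (lli_hCB L Ω hϖL) (lli_res K L Ω)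
    (lli_res_B K L Ω) (Units.map (algebraMap K L : K →* L)) e f (Module.finrank K L) hef hf
    (fun a => lres_ord_map hϖK hϖL e (hnorm ϖK ϖL hϖK hϖL) a)
    (fun N hN a => lli_hres K L Ω f hf hq N hN a) p
    (fun z => invK z.1) (fun z => invL z.1)
    (lli_isInv_h3 K Ω p invK hK) (lli_isInv_h4 K Ω hϖK p invK hK)
    (lli_isInv_h3 L Ω p invL hL) (lli_isInv_h4 L Ω hϖL p invL hL)
    ⟨y, hy, hyl⟩ hyp

/-- **(T3a), concrete — RES-surjectivity**: every level 2-cocycle of `Γ_L` is, up to a level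
coboundary, the restriction of an unramified carry cocycle `u_{N,a}` of `K`. -/
theorem loc_inv_res_surj
    (hNFL : ∀ x : (Ω ≃ₐ[L] Ω) × (Ω ≃ₐ[L] Ω) → Ωˣ, groupCohomology.IsMulCocycle₂ x → loc_Lev₂ x →
      ∃ (N : ℕ) (_ : NeZero N) (a : Lˣ), loc_IsLevCob (x / loc_u L Ω N a))
    (x : (Ω ≃ₐ[L] Ω) × (Ω ≃ₐ[L] Ω) → Ωˣ) (hx : groupCohomology.IsMulCocycle₂ x)
    (hxl : loc_Lev₂ x) :
    ∃ (N : ℕ) (_ : NeZero N) (a : Kˣ), loc_IsLevCob (x / lres₂ K L (loc_u K Ω N a)) := by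
  obtain ⟨ϖK, hϖK⟩ := loc_exists_unif K
  obtain ⟨ϖL, hϖL⟩ := loc_exists_unif L
  obtain ⟨e, f, he, hf, hef, hq, hnorm⟩ := lres_exists_e_f K L
  obtain ⟨N, hN, a, h⟩ := linv_res_surj (lli_u K Ω) (lli_v hϖK) (lli_B L Ω) (lli_u L Ω)
    (lli_v hϖL) (lli_hNF L Ω hNFL) (lli_hCB L Ω hϖL) (lli_hCM L Ω) (lli_res K L Ω)
    (Units.map (algebraMap K L : K →* L)) e f he hf
    (fun a => lres_ord_map hϖK hϖL e (hnorm ϖK ϖL hϖK hϖL) a)
    (fun N hN a => lli_hres K L Ω f hf hq N hN a)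
    (Units.mk0 ϖK hϖK.ne_zero) (loc_ord_unif hϖK) ⟨x, hx, hxl⟩
  have hNz : NeZero N := ⟨hN.ne'⟩
  refine ⟨N, hNz, a, ?_⟩
  rw [lli_mem_B, Subgroup.coe_div, lli_res_coe, lli_u_coe] at h
  exact h

end res

end Fermat.Agent.S55
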