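import Mathlib
import Fermat.Agent.S55.LocLimInv
import Fermat.Agent.S55.LocLimNF

/-!
# S55 block LOC: the mod-`p` local invariant, hypothesis-free statements

With the normal form theorem `loc_nf` (`LocLimNF`) the hypothesis `hNF` of `LocLimInv` is
discharged.  `loc_inv K Ω p : ((Ω ≃ₐ[K] Ω) × (Ω ≃ₐ[K] Ω) → Ωˣ) → ZMod p`:

* `loc_inv_spec : loc_IsInv K Ω p (loc_inv K Ω p)`, and its components `loc_inv_mul`,
  `loc_inv_eq_zero_iff`, `loc_inv_congr`, `loc_inv_u`, `loc_inv_u_p`, `loc_inv_of_cob`,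
  `loc_inv_pow`;
* tower model (`L/K` finite, `lres₂ K L` = restriction to `Γ_L`): `loc_inv_lres`
  (`inv_L (res x) = [L:K] · inv_K x`), `loc_inv_lres_pow`, `loc_lres_surj`;
* the same for `L : IntermediateField K Ω` finite over `K` (instances `loc_normedAlgebraIF L`,
  `loc_isUltrametricDistIF L`, `loc_properSpaceIF' L`): `loc_inv_lresIF`, `loc_inv_lres_powIF`,
  `loc_lres_surjIF`.
-/

set_option autoImplicit false
set_option linter.unusedSectionVars false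

namespace Fermat.Agent.S55

open IntermediateField

section main

variable (K Ω : Type) [NontriviallyNormedField K] [IsUltrametricDist K] [ProperSpace K]
  [NormedField Ω] [NormedAlgebra K Ω] [IsAlgClosed Ω] [Algebra.IsAlgebraic K Ω] [IsGalois K Ω]

/-- **The mod-`p` local invariant**: `loc_inv K Ω p` has the four characteristic properties. -/
theorem loc_inv_spec (p : ℕ) [Fact p.Prime] : loc_IsInv K Ω p (loc_inv K Ω p) :=
  loc_inv_isInv K Ω (loc_nf K Ω) p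

variable {K Ω}

/-- additivity on `p`-torsion classes. -/
theorem loc_inv_mul (p : ℕ) [Fact p.Prime] {x y : (Ω ≃ₐ[K] Ω) × (Ω ≃ₐ[K] Ω) → Ωˣ}
    (hx : groupCohomology.IsMulCocycle₂ x) (hxl : loc_Lev₂ x)
    (hy : groupCohomology.IsMulCocycle₂ y) (hyl : loc_Lev₂ y)
    (hxp : loc_IsLevCob (x ^ p)) (hyp : loc_IsLevCob (y ^ p)) :
    loc_inv K Ω p (x * y) = loc_inv K Ω p x + loc_inv K Ω p y :=
  (loc_inv_spec K Ω p).1 x y hx hxl hy hyl hxp hyp

/-- the invariant vanishes exactly on level coboundaries (among `p`-torsion classes). -/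
theorem loc_inv_eq_zero_iff (p : ℕ) [Fact p.Prime] {x : (Ω ≃ₐ[K] Ω) × (Ω ≃ₐ[K] Ω) → Ωˣ}
    (hx : groupCohomology.IsMulCocycle₂ x) (hxl : loc_Lev₂ x) (hxp : loc_IsLevCob (x ^ p)) :
    loc_inv K Ω p x = 0 ↔ loc_IsLevCob x :=
  (loc_inv_spec K Ω p).2.1 x hx hxl hxp

/-- the invariant is a class function. -/
theorem loc_inv_congr (p : ℕ) [Fact p.Prime] {x y : (Ω ≃ₐ[K] Ω) × (Ω ≃ₐ[K] Ω) → Ωˣ}
    (hx : groupCohomology.IsMulCocycle₂ x) (hxl : loc_Lev₂ x) (hxy : loc_IsLevCob (x / y)) :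
    loc_inv K Ω p x = loc_inv K Ω p y :=
  (loc_inv_spec K Ω p).2.2.1 x y hx hxl hxy

/-- the invariant of a level coboundary is zero. -/
theorem loc_inv_of_cob (p : ℕ) [Fact p.Prime] {x : (Ω ≃ₐ[K] Ω) × (Ω ≃ₐ[K] Ω) → Ωˣ}
    (hx : loc_IsLevCob x) : loc_inv K Ω p x = 0 := by
  have hxZ : x ∈ lli_Z K Ω := lli_Bf_le_Z hx
  have hxp : loc_IsLevCob (x ^ p) := (lli_Bf K Ω).pow_mem hx p
  exact (loc_inv_eq_zero_iff p hxZ.1 hxZ.2 hxp).mpr hx

/-- normalisation on the unramified carry cocycles: `inv (u_{N,a}) = p · ord(a) / N`. -/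
theorem loc_inv_u (p : ℕ) [Fact p.Prime] {ϖ : K} (hϖ : loc_IsUnif ϖ) (N : ℕ) [NeZero N]
    (a : Kˣ) (m : ℤ) (hm : (p : ℤ) * loc_ord hϖ (Additive.ofMul a) = N * m) :
    loc_inv K Ω p (loc_u K Ω N a) = (m : ZMod p) :=
  (loc_inv_spec K Ω p).2.2.2 ϖ hϖ N a m hm

/-- normalisation, modulus `p`: `inv (u_{p,a}) = ord(a) mod p`. -/
theorem loc_inv_u_p (p : ℕ) [Fact p.Prime] {ϖ : K} (hϖ : loc_IsUnif ϖ) (a : Kˣ) :
    loc_inv K Ω p (loc_u K Ω p a) = (loc_ord hϖ (Additive.ofMul a) : ZMod p) :=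
  loc_inv_u p hϖ p a _ rfl

/-- the invariant of a power, on `p`-torsion classes. -/
theorem loc_inv_pow (p : ℕ) [Fact p.Prime] {x : (Ω ≃ₐ[K] Ω) × (Ω ≃ₐ[K] Ω) → Ωˣ}
    (hx : groupCohomology.IsMulCocycle₂ x) (hxl : loc_Lev₂ x) (hxp : loc_IsLevCob (x ^ p))
    (n : ℕ) : loc_inv K Ω p (x ^ n) = (n : ZMod p) * loc_inv K Ω p x := by
  have hxZ : x ∈ lli_Z K Ω := ⟨hx, hxl⟩
  induction n with
  | zero =>
    rw [pow_zero, Nat.cast_zero, zero_mul]
    exact loc_inv_of_cob p loc_isLevCob_one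
  | succ n ih =>
    have hnZ : x ^ n ∈ lli_Z K Ω := (lli_Z K Ω).pow_mem hxZ n
    have hnp : loc_IsLevCob ((x ^ n) ^ p) := by
      rw [← pow_mul, mul_comm, pow_mul]
      exact (lli_Bf K Ω).pow_mem hxp n
    rw [pow_succ, loc_inv_mul p hnZ.1 hnZ.2 hx hxl hnp hxp, ih]
    push_cast
    ring

end main

section tower

variable (K L Ω : Type) [NontriviallyNormedField K] [IsUltrametricDist K] [ProperSpace K]
  [NontriviallyNormedField L] [IsUltrametricDist L] [ProperSpace L]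
  [NormedField Ω] [NormedAlgebra K Ω] [NormedAlgebra L Ω] [IsAlgClosed Ω]
  [Algebra.IsAlgebraic K Ω] [Algebra.IsAlgebraic L Ω]
  [NormedAlgebra K L] [FiniteDimensional K L] [IsScalarTower K L Ω]
  [IsGalois K Ω] [IsGalois L Ω]

/-- **(RES)**: `inv_L (res x) = [L:K] · inv_K x` on `p`-torsion classes. -/
theorem loc_inv_lres (p : ℕ) [Fact p.Prime] (x : (Ω ≃ₐ[K] Ω) × (Ω ≃ₐ[K] Ω) → Ωˣ)
    (hx : groupCohomology.IsMulCocycle₂ x) (hxl : loc_Lev₂ x) (hxp : loc_IsLevCob (x ^ p)) :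
    loc_inv L Ω p (lres₂ K L x) = (Module.finrank K L : ZMod p) * loc_inv K Ω p x :=
  loc_inv_res K L Ω (loc_nf K Ω) p _ (loc_inv_spec K Ω p) _ (loc_inv_spec L Ω p) x hx hxl hxp

/-- **(T3b)**: for ANY level 2-cocycle `y` of `Γ_K` whose restriction to `Γ_L` is `p`-torsion:
`y ^ [L:K]` is `p`-torsion and `inv_K (y ^ [L:K]) = inv_L (res y)`. -/
theorem loc_inv_lres_pow (p : ℕ) [Fact p.Prime] (y : (Ω ≃ₐ[K] Ω) × (Ω ≃ₐ[K] Ω) → Ωˣ)
    (hy : groupCohomology.IsMulCocycle₂ y) (hyl : loc_Lev₂ y)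
    (hyp : loc_IsLevCob (lres₂ K L y ^ p)) :
    loc_IsLevCob ((y ^ Module.finrank K L) ^ p) ∧
      loc_inv K Ω p (y ^ Module.finrank K L) = loc_inv L Ω p (lres₂ K L y) :=
  loc_inv_res_pow K L Ω (loc_nf K Ω) p _ (loc_inv_spec K Ω p) _ (loc_inv_spec L Ω p) y hy hyl hyp

/-- **(T3a), RES-surjectivity**: every level 2-cocycle of `Γ_L` is, up to a level coboundary,
the restriction of an unramified carry cocycle of `K`. -/
theorem loc_lres_surj (x : (Ω ≃ₐ[L] Ω) × (Ω ≃ₐ[L] Ω) → Ωˣ)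
    (hx : groupCohomology.IsMulCocycle₂ x) (hxl : loc_Lev₂ x) :
    ∃ (N : ℕ) (_ : NeZero N) (a : Kˣ), loc_IsLevCob (x / lres₂ K L (loc_u K Ω N a)) :=
  loc_inv_res_surj K L Ω (loc_nf L Ω) x hx hxl

end tower

section IF

attribute [local instance] loc_normedAlgebraIF loc_isUltrametricDistIF loc_properSpaceIF'

variable (K Ω : Type) [NontriviallyNormedField K] [IsUltrametricDist K] [ProperSpace K]
  [NormedField Ω] [NormedAlgebra K Ω] [IsAlgClosed Ω] [Algebra.IsAlgebraic K Ω] [IsGalois K Ω]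
  (L : IntermediateField K Ω) [FiniteDimensional K L]

/-- (RES) for a finite subextension `L` of `Ω/K`. -/
theorem loc_inv_lresIF (p : ℕ) [Fact p.Prime] (x : (Ω ≃ₐ[K] Ω) × (Ω ≃ₐ[K] Ω) → Ωˣ)
    (hx : groupCohomology.IsMulCocycle₂ x) (hxl : loc_Lev₂ x) (hxp : loc_IsLevCob (x ^ p)) :
    loc_inv L Ω p (lres₂ K L x) = (Module.finrank K L : ZMod p) * loc_inv K Ω p x :=
  loc_inv_lres K L Ω p x hx hxl hxp

/-- (T3b) for a finite subextension `L` of `Ω/K`. -/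
theorem loc_inv_lres_powIF (p : ℕ) [Fact p.Prime] (y : (Ω ≃ₐ[K] Ω) × (Ω ≃ₐ[K] Ω) → Ωˣ)
    (hy : groupCohomology.IsMulCocycle₂ y) (hyl : loc_Lev₂ y)
    (hyp : loc_IsLevCob (lres₂ K L y ^ p)) :
    loc_IsLevCob ((y ^ Module.finrank K L) ^ p) ∧
      loc_inv K Ω p (y ^ Module.finrank K L) = loc_inv L Ω p (lres₂ K L y) :=
  loc_inv_lres_pow K L Ω p y hy hyl hyp

/-- (T3a) for a finite subextension `L` of `Ω/K`. -/
theorem loc_lres_surjIF (x : (Ω ≃ₐ[L] Ω) × (Ω ≃ₐ[L] Ω) → Ωˣ)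
    (hx : groupCohomology.IsMulCocycle₂ x) (hxl : loc_Lev₂ x) :
    ∃ (N : ℕ) (_ : NeZero N) (a : Kˣ), loc_IsLevCob (x / lres₂ K L (loc_u K Ω N a)) :=
  loc_lres_surj K L Ω x hx hxl

end IF

end Fermat.Agent.S55
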