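import Fermat.Agent.S55.LcgDict
import Fermat.Agent.S55.LocBridge
import Fermat.Agent.S55.TrInst
import Fermat.Agent.S55.LocLimInvMain
import Fermat.Agent.S55.LocLimInertia

/-!
# S55, block LC-GLUE, part 5: the local invariant at `q` on `μ_p`-valued level cochains

* `lcg_eq q`, `lcg_rhoq q`, `lcg_dict_q q` : the dictionary between the Prelude local Galois group
  at `q` (levels pulled back from the finite Galois extensions of `ℚ`) and the abstract local
  model `(K, Ω) = (ℚ_q, PadicAlgCl q)` (Krasner: `LocBridge.lean`).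
* `lcg_Eq p ζ hζ q : ZMod p →+ Additive (PadicAlgCl q)ˣ`, `c ↦ ζ ^ c` (image in `Ω_q`), with
  equivariance, injectivity, image = `p`-torsion, unit norms.
* `lcg_invq p ζ hζ q` : the local invariant on `μ_p`-valued level 2-cochains; `lcg_invq_eq`
  (on cocycles it is `loc_inv` of `ζ ^ c`), `lcg_invq_d` (kills coboundaries), `lcg_invq_inj`
  (a cocycle with invariant `0` is a level coboundary), `lcg_invq_unr0` (vanishes on
  inertia-level cocycles).
* `lcg_arith p ζ hζ hrecip : tri_Arith p` — the arithmetic input of the trace, given the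
  reciprocity law for `lcg_invq`.
-/

set_option autoImplicit false
set_option linter.unusedSectionVars false

open ExtCitation groupCohomology

namespace Fermat.Agent.S55

local notation "Qb" => AlgebraicClosure ℚ
local notation "Γ" => (AlgebraicClosure ℚ ≃ₐ[ℚ] AlgebraicClosure ℚ)

/-- primality of `q : Nat.Primes` as a `Fact` (local instance). -/
local instance lcg_factq (q : Nat.Primes) : Fact ((q : ℕ).Prime) := ⟨q.2⟩

section dq

variable (q : Nat.Primes)

/-- the dictionary equivalence at `q`: the identity. -/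
noncomputable def lcg_eq :
    primeLocalGaloisGroup q ≃* (PadicAlgCl (q : ℕ) ≃ₐ[ℚ_[(q : ℕ)]] PadicAlgCl (q : ℕ)) :=
  MulEquiv.refl (PadicAlgCl (q : ℕ) ≃ₐ[ℚ_[(q : ℕ)]] PadicAlgCl (q : ℕ))

/-- the local Galois module `Ω_q^×`, with `Ω_q` spelled as `PadicAlgCl q`. -/
noncomputable def lcg_rhoq :
    Representation ℤ (primeLocalGaloisGroup q) (Additive (PadicAlgCl (q : ℕ))ˣ) :=
  tr_rhoL q

/-- **The dictionary at `q`** between the Prelude local Galois group with its pulled-back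
levels and the abstract local model `(ℚ_q, PadicAlgCl q)`. -/
theorem lcg_dict_q :
    lcg_Dict (K := ℚ_[(q : ℕ)]) (Ω := PadicAlgCl (q : ℕ))
      (pt_localLev (primeLocalToGlobal q)) (lcg_eq q) (lcg_rhoq q) where
  act := fun g a => rfl
  lv1 := by
    rintro N ⟨F, hF, hFg, rfl⟩
    refine ⟨brl_locField (q : ℕ) F, brl_finiteDimensional_locField (q : ℕ) F, fun s hs => ?_⟩
    exact (brl_mem_fixingSubgroup_iff (q : ℕ) F s).2 hs
  lv2 := by
    intro M hM
    obtain ⟨F, hF, hFg, hle⟩ := brl_exists_le_locField (q : ℕ) M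
    refine ⟨F.fixingSubgroup.comap (primeLocalToGlobal q), ⟨F, hF, hFg, rfl⟩, fun s hs => ?_⟩
    have h1 := (brl_mem_fixingSubgroup_iff (q : ℕ) F s).1 hs
    exact IntermediateField.fixingSubgroup_antitone hle h1

end dq

section E

variable (p : ℕ) [Fact p.Prime] (ζ : Qbˣ) (hζ : IsPrimitiveRoot ζ p) (q : Nat.Primes)

local notation "Lq" => pt_localLev (primeLocalToGlobal q)
set_option quotPrecheck false in
local notation "ρTq" => (dual_rhoT (cycloChar p)).comp (primeLocalToGlobal q)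

/-- the image of `ζ` in `Ω_q^×`. -/
noncomputable def lcg_zetaq : (PadicAlgCl (q : ℕ))ˣ :=
  Additive.toMul (tr_emb q (Additive.ofMul ζ))

include hζ in
theorem lcg_zetaq_prim : IsPrimitiveRoot (lcg_zetaq ζ q) p := by
  have hinj : Function.Injective (Units.map (tr_embRing q).toMonoidHom) :=
    Units.map_injective (tr_embRing q).injective
  exact hζ.map_of_injective hinj

/-- `c ↦ ζ ^ c` followed by the `q`-adic embedding, with values in `Additive (PadicAlgCl q)ˣ`. -/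
noncomputable def lcg_Eq : ZMod p →+ Additive (PadicAlgCl (q : ℕ))ˣ :=
  tr_zpL p ζ hζ.pow_eq_one q

theorem lcg_zpL_val (hζ' : ζ ^ p = 1) (c : ZMod p) :
    tr_zpL p ζ hζ' q c = c.val • tr_emb q (Additive.ofMul ζ) := by
  have hc : c = ((c.val : ℤ) : ZMod p) := by
    rw [Int.cast_natCast, ZMod.natCast_zmod_val]
  rw [tr_zpL_apply]
  conv_lhs => rw [hc]
  rw [tr_zp_intCast, map_zsmul, natCast_zsmul]

theorem lcg_Eq_apply (c : ZMod p) :
    lcg_Eq p ζ hζ q c = Additive.ofMul (lcg_exp (lcg_zetaq ζ q) c) :=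
  lcg_zpL_val p ζ q hζ.pow_eq_one c

theorem lcg_Eq_equivariant (τ : primeLocalGaloisGroup q) (c : ZMod p) :
    lcg_Eq p ζ hζ q ((ρTq) τ c) = lcg_rhoq q τ (lcg_Eq p ζ hζ q c) :=
  tr_zpL_equivariant p ζ hζ.pow_eq_one q τ c

theorem lcg_Eq_injective : Function.Injective (lcg_Eq p ζ hζ q) := by
  intro s t h
  rw [lcg_Eq_apply, lcg_Eq_apply] at h
  exact lcg_exp_injective (lcg_zetaq_prim p ζ hζ q).eq_orderOf.symm (Additive.ofMul.injective h)

theorem lcg_Eq_tors (a : Additive (PadicAlgCl (q : ℕ))ˣ) (ha : p • a = 0) :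
    ∃ t, lcg_Eq p ζ hζ q t = a := by
  obtain ⟨t, ht⟩ := lcg_dict_tors (lcg_zetaq_prim p ζ hζ q) a ha
  exact ⟨t, by rw [lcg_Eq_apply, ht]⟩

theorem lcg_Eq_norm (c : ZMod p) :
    ‖((Additive.toMul (lcg_Eq p ζ hζ q c) : (PadicAlgCl (q : ℕ))ˣ) : PadicAlgCl (q : ℕ))‖ = 1 := by
  have hp : p ≠ 0 := (Fact.out : p.Prime).ne_zero
  have h1 : ((Additive.toMul (lcg_Eq p ζ hζ q c) : (PadicAlgCl (q : ℕ))ˣ) : PadicAlgCl (q : ℕ)) ^ p
      = 1 := by
    rw [lcg_Eq_apply, toMul_ofMul, ← Units.val_pow_eq_pow_val,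
      lcg_exp_pow_p (lcg_zetaq_prim p ζ hζ q).pow_eq_one, Units.val_one]
  have h2 := congrArg norm h1
  rw [norm_pow, norm_one] at h2
  exact (pow_eq_one_iff_of_nonneg (norm_nonneg _) hp).mp h2

/-- existence of the local invariant at `q` on `μ_p`-valued level 2-cochains. -/
theorem lcg_invq_exists :
    ∃ invT : hc_C2 Lq (ρTq) →ₗ[ZMod p] ZMod p,
      (∀ c : hc_C2 Lq (ρTq), hc_d23 Lq (ρTq) c = 0 →
        invT c = loc_inv ℚ_[(q : ℕ)] (PadicAlgCl (q : ℕ)) p
          (lcg_toLoc₂ (lcg_eq q) (fun x => lcg_Eq p ζ hζ q (c.1 x)))) ∧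
      (∀ b : hc_C1 Lq (ρTq), invT (hc_d12 Lq (ρTq) b) = 0) ∧
      (∀ c : hc_C2 Lq (ρTq), hc_d23 Lq (ρTq) c = 0 → invT c = 0 →
        ∃ b : hc_C1 Lq (ρTq), hc_d12 Lq (ρTq) b = c) :=
  lcg_dict_invT (lcg_dict_q q) (ρTq) (lcg_Eq p ζ hζ q) (lcg_Eq_equivariant p ζ hζ q)
    (lcg_Eq_injective p ζ hζ q) (lcg_Eq_tors p ζ hζ q)
    (loc_inv ℚ_[(q : ℕ)] (PadicAlgCl (q : ℕ)) p)
    (fun _ _ hx hxl hxp hy hyl hyp => loc_inv_mul p hx hxl hy hyl hxp hyp)
    (fun _ hx hxl hxp => loc_inv_eq_zero_iff p hx hxl hxp)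

/-- **The local invariant at `q`** on `μ_p`-valued level 2-cochains of the local Galois group:
a `ZMod p`-linear functional which on cocycles `c` is the Brauer invariant of `ζ ^ c`. -/
noncomputable def lcg_invq : hc_C2 Lq (ρTq) →ₗ[ZMod p] ZMod p :=
  Classical.choose (lcg_invq_exists p ζ hζ q)

/-- on cocycles, `lcg_invq` is the invariant of `ζ ^ c`. -/
theorem lcg_invq_eq (c : hc_C2 Lq (ρTq)) (hc : hc_d23 Lq (ρTq) c = 0) :
    lcg_invq p ζ hζ q c = loc_inv ℚ_[(q : ℕ)] (PadicAlgCl (q : ℕ)) p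
      (lcg_toLoc₂ (lcg_eq q) (fun x => lcg_Eq p ζ hζ q (c.1 x))) :=
  (Classical.choose_spec (lcg_invq_exists p ζ hζ q)).1 c hc

/-- `lcg_invq` kills coboundaries. -/
theorem lcg_invq_d (b : hc_C1 Lq (ρTq)) : lcg_invq p ζ hζ q (hc_d12 Lq (ρTq) b) = 0 :=
  (Classical.choose_spec (lcg_invq_exists p ζ hζ q)).2.1 b

/-- `[LC3]` for the full local group: a cocycle with invariant `0` is a level coboundary. -/
theorem lcg_invq_inj (c : hc_C2 Lq (ρTq)) (hc : hc_d23 Lq (ρTq) c = 0)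
    (h0 : lcg_invq p ζ hζ q c = 0) : ∃ b : hc_C1 Lq (ρTq), hc_d12 Lq (ρTq) b = c :=
  (Classical.choose_spec (lcg_invq_exists p ζ hζ q)).2.2 c hc h0

/-- `lcg_invq` vanishes on cocycles of inertia level (unramified classes). -/
theorem lcg_invq_unr0 (e : hc_C2 Lq (ρTq))
    (he : hc_IsLev2 (ρTq) (tri_I q)
      (e : primeLocalGaloisGroup q × primeLocalGaloisGroup q → ZMod p))
    (hde : hc_d23 Lq (ρTq) e = 0) : lcg_invq p ζ hζ q e = 0 := by
  rw [lcg_invq_eq p ζ hζ q e hde]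
  have D := lcg_dict_q q
  have hZ := lcg_comp_mem_Z2p Lq (ρTq) (lcg_rhoq q) (lcg_Eq p ζ hζ q)
    (lcg_Eq_equivariant p ζ hζ q) e hde
  apply loc_inv_of_cob
  refine loc_unr_cob_of_inertia _ _ _ ((lcg_cocycle_iff D _).1 hZ.2.1)
    ((lcg_lev2_iff D _).1 hZ.1) ?_ ?_ ?_
  · intro g h s hs t ht
    exact congrArg (fun z => Additive.toMul (lcg_Eq p ζ hζ q z))
      (he.1 g h s (tr_inertial_mem q hs) t (tr_inertial_mem q ht))
  · intro x s hs
    have h1 := he.2 (x.1, x.2) s (tr_inertial_mem q hs)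
    have h2 := lcg_Eq_equivariant p ζ hζ q s (e.1 (x.1, x.2))
    rw [h1] at h2
    exact (congrArg Additive.toMul h2).symm
  · intro x
    exact lcg_Eq_norm p ζ hζ q _

/-- **The arithmetic input `tri_Arith p`** of the trace, from the local invariants `lcg_invq` and
the reciprocity law for them (the latter as a hypothesis: block REC). -/
noncomputable def lcg_arith
    (hrecip : ∀ z : hc_C2 tr_fullLev (dual_rhoT (cycloChar p)),
      hc_d23 tr_fullLev (dual_rhoT (cycloChar p)) z = 0 →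
      ∑ᶠ q : Nat.Primes, lcg_invq p ζ hζ q (hc_res2 (tri_compat (primeLocalToGlobal q))
        (dual_rhoT (cycloChar p)) z) = 0) : tri_Arith p where
  inv := lcg_invq p ζ hζ
  inv_d := lcg_invq_d p ζ hζ
  unr0 := fun q _ e he hde => lcg_invq_unr0 p ζ hζ q e he hde
  recip := hrecip

theorem lcg_arith_inv
    (hrecip : ∀ z : hc_C2 tr_fullLev (dual_rhoT (cycloChar p)),
      hc_d23 tr_fullLev (dual_rhoT (cycloChar p)) z = 0 →
      ∑ᶠ q : Nat.Primes, lcg_invq p ζ hζ q (hc_res2 (tri_compat (primeLocalToGlobal q))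
        (dual_rhoT (cycloChar p)) z) = 0) (q : Nat.Primes) :
    (lcg_arith p ζ hζ hrecip).inv q = lcg_invq p ζ hζ q := rfl

end E

end Fermat.Agent.S55
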