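import Mathlib
import Fermat.Agent.S55.LocLimInvMain

/-!
# S55 block LOC: the mod-`p` local invariant — consumer shapes and the case `(ℚ_q, PadicAlgCl q)`

* `loc_inv_hmul`, `loc_inv_hker`: additivity and kernel of `loc_inv K Ω p` in the argument order
  used by the LC-GLUE dictionary (`lcg_dict_inv`, `lcg_dict_invT`);
* `loc_isUnif_padic`: `q` is a uniformizer of `ℚ_[q]`; `unr_q_padic : unr_q ℚ_[q] = q`;
* `loc_inv_u_padic`: `loc_inv ℚ_[q] (PadicAlgCl q) p (loc_u ℚ_[q] (PadicAlgCl q) p q) = 1`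
  (the unramified normalisation used by reciprocity).
-/

set_option autoImplicit false
set_option linter.unusedSectionVars false

namespace Fermat.Agent.S55

section shapes

variable (K Ω : Type) [NontriviallyNormedField K] [IsUltrametricDist K] [ProperSpace K]
  [NormedField Ω] [NormedAlgebra K Ω] [IsAlgClosed Ω] [Algebra.IsAlgebraic K Ω] [IsGalois K Ω]

/-- additivity of `loc_inv`, in the shape of the hypothesis `hmul` of `lcg_dict_inv`. -/
theorem loc_inv_hmul (p : ℕ) [Fact p.Prime] :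
    ∀ x y : (Ω ≃ₐ[K] Ω) × (Ω ≃ₐ[K] Ω) → Ωˣ, groupCohomology.IsMulCocycle₂ x → loc_Lev₂ x →
      loc_IsLevCob (x ^ p) → groupCohomology.IsMulCocycle₂ y → loc_Lev₂ y →
      loc_IsLevCob (y ^ p) → loc_inv K Ω p (x * y) = loc_inv K Ω p x + loc_inv K Ω p y :=
  fun _ _ hx hxl hxp hy hyl hyp => loc_inv_mul p hx hxl hy hyl hxp hyp

/-- kernel of `loc_inv`, in the shape of the hypothesis `hker` of `lcg_dict_inv`. -/
theorem loc_inv_hker (p : ℕ) [Fact p.Prime] :
    ∀ x : (Ω ≃ₐ[K] Ω) × (Ω ≃ₐ[K] Ω) → Ωˣ, groupCohomology.IsMulCocycle₂ x → loc_Lev₂ x →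
      loc_IsLevCob (x ^ p) → (loc_inv K Ω p x = 0 ↔ loc_IsLevCob x) :=
  fun _ hx hxl hxp => loc_inv_eq_zero_iff p hx hxl hxp

end shapes

section padic

variable (q : ℕ) [Fact q.Prime]

/-- `q` is a uniformizer of `ℚ_[q]`. -/
theorem loc_isUnif_padic : loc_IsUnif ((q : ℕ) : ℚ_[q]) := by
  have hq : (1 : ℝ) < q := by exact_mod_cast (Fact.out : q.Prime).one_lt
  refine ⟨?_, ?_, ?_⟩
  · rw [Padic.norm_p]
    positivity
  · exact Padic.norm_p_lt_one
  · intro x hx
    have h := (Padic.norm_le_pow_iff_norm_lt_pow_add_one x (-1)).mpr (by simpa using hx)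
    rw [Padic.norm_p]
    simpa [zpow_neg_one] using h

/-- the residue field of `ℚ_[q]` has `q` elements. -/
theorem unr_q_padic : unr_q ℚ_[q] = q := by
  have h1 := unr_relIndex_unif (loc_isUnif_padic q)
  have h2 := lp_relIndex_B_padic (p := q) (K := ℚ_[q]) (r := 1) zero_lt_one
    (mul_nonneg (norm_nonneg _) zero_le_one)
  rw [Module.finrank_self, pow_one] at h2
  rw [← h1]
  refine Eq.trans ?_ h2
  congr 1
  exact unr_B_congr (by rw [mul_one]) _ _

/-- the valuation of `q` in `ℚ_[q]` is `1`. -/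
theorem loc_ord_padic (a : ℚ_[q]ˣ) (ha : (a : ℚ_[q]) = (q : ℕ)) :
    loc_ord (loc_isUnif_padic q) (Additive.ofMul a) = 1 := by
  rw [loc_ord_eq_iff, toMul_ofMul, ha, zpow_one]

/-- **the unramified normalisation over `ℚ_q`**: `inv (u_{p,q}) = 1`. -/
theorem loc_inv_u_padic (p : ℕ) [Fact p.Prime] (a : ℚ_[q]ˣ) (ha : (a : ℚ_[q]) = (q : ℕ)) :
    loc_inv ℚ_[q] (PadicAlgCl q) p (loc_u ℚ_[q] (PadicAlgCl q) p a) = 1 := by
  have h := loc_inv_u_p (K := ℚ_[q]) (Ω := PadicAlgCl q) p (loc_isUnif_padic q) a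
  rw [h]
  have h1 : loc_ord (loc_isUnif_padic q) (Additive.ofMul a) = 1 := by
    rw [loc_ord_eq_iff, toMul_ofMul, ha, zpow_one]
  rw [h1]
  simp

end padic

end Fermat.Agent.S55
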