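import Fermat.Agent.S55.LcgDq
import Fermat.Agent.S55.LocLimInvQ

/-!
# S55, block REC: the bridge from the multiplicative reciprocity law to `lcg_arith`

helper28's `rec_recip` (file `RecMain.lean`) is stated for an abstract family of invariants
`inv q` on `Ω_qˣ`-valued 2-cochains of `Gal(ℚ̄_q/ℚ_q)` (`hmul`, `hker`, `hnorm`, `hunr`) and
concludes `∑ᶠ q, inv q (emb_q (ζ ^ res_q z)) = 0`.  helper4's `lcg_arith p ζ hζ hrecip` needs
`hrecip : ∑ᶠ q, lcg_invq p ζ hζ q (res_q z) = 0`.  This file proves the second from the first,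
for `inv q := loc_inv ℚ_q (PadicAlgCl q) p`:

* `recb_toLoc_eq` : the multiplicative cochain attached to a `μ_p`-valued cochain `c` by the
  LC-GLUE dictionary is `x ↦ emb_q (ζ ^ (c x).val)`;
* `recb_hmul`, `recb_hker`, `recb_hnorm`, `recb_hunr` : the four hypotheses of `rec_recip` for
  `loc_inv`;
* `recb_hrecip` : the reciprocity hypothesis of `lcg_arith` from the statement of `rec_recip`.
-/

set_option autoImplicit false

open ExtCitation groupCohomology

namespace Fermat.Agent.S55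

local notation "Qb" => AlgebraicClosure ℚ
local notation "Γ" => (AlgebraicClosure ℚ ≃ₐ[ℚ] AlgebraicClosure ℚ)

/-- primality of `q : Nat.Primes` as a `Fact` (local instance). -/
local instance recb_factq (q : Nat.Primes) : Fact ((q : ℕ).Prime) := ⟨q.2⟩

/-- The family of local invariants `loc_inv ℚ_q (PadicAlgCl q) p`. -/
noncomputable def recb_inv (p : ℕ) [Fact p.Prime] (q : ℕ) [Fact q.Prime] :
    ((PadicAlgCl q ≃ₐ[ℚ_[q]] PadicAlgCl q) × (PadicAlgCl q ≃ₐ[ℚ_[q]] PadicAlgCl q) →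
      (PadicAlgCl q)ˣ) → ZMod p :=
  loc_inv ℚ_[q] (PadicAlgCl q) p

theorem recb_hmul (p : ℕ) [Fact p.Prime] (q : ℕ) [Fact q.Prime]
    (x y : (PadicAlgCl q ≃ₐ[ℚ_[q]] PadicAlgCl q) × (PadicAlgCl q ≃ₐ[ℚ_[q]] PadicAlgCl q) →
      (PadicAlgCl q)ˣ)
    (hx : groupCohomology.IsMulCocycle₂ x) (hxl : loc_Lev₂ x) (hxp : loc_IsLevCob (x ^ p))
    (hy : groupCohomology.IsMulCocycle₂ y) (hyl : loc_Lev₂ y) (hyp : loc_IsLevCob (y ^ p)) :
    recb_inv p q (x * y) = recb_inv p q x + recb_inv p q y :=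
  loc_inv_mul p hx hxl hy hyl hxp hyp

theorem recb_hker (p : ℕ) [Fact p.Prime] (q : ℕ) [Fact q.Prime]
    (x : (PadicAlgCl q ≃ₐ[ℚ_[q]] PadicAlgCl q) × (PadicAlgCl q ≃ₐ[ℚ_[q]] PadicAlgCl q) →
      (PadicAlgCl q)ˣ)
    (hx : groupCohomology.IsMulCocycle₂ x) (hxl : loc_Lev₂ x) (hxp : loc_IsLevCob (x ^ p)) :
    recb_inv p q x = 0 ↔ loc_IsLevCob x :=
  loc_inv_eq_zero_iff p hx hxl hxp

theorem recb_hnorm (p : ℕ) [Fact p.Prime] (q : ℕ) [Fact q.Prime] (a : ℚ_[q]ˣ)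
    (ha : (a : ℚ_[q]) = (q : ℕ)) :
    recb_inv p q (loc_u ℚ_[q] (PadicAlgCl q) p a) = 1 :=
  loc_inv_u_padic q p a ha

section E

variable (p : ℕ) [Fact p.Prime] (ζ : Qbˣ) (hζ : IsPrimitiveRoot ζ p) (q : Nat.Primes)

/-- The multiplicative cochain attached by the LC-GLUE dictionary to a `μ_p`-valued cochain `c`
is `x ↦ emb_q (ζ ^ (c x).val)`. -/
theorem recb_toLoc_eq (c : primeLocalGaloisGroup q × primeLocalGaloisGroup q → ZMod p) :
    lcg_toLoc₂ (lcg_eq q) (fun x => lcg_Eq p ζ hζ q (c x)) =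
      fun x => Units.map
        ((padicEmbedding (q : ℕ) : Qb →+* PadicAlgCl (q : ℕ)) : Qb →* PadicAlgCl (q : ℕ))
        (ζ ^ (c x).val) := by
  funext x
  show Additive.toMul (lcg_Eq p ζ hζ q (c (x.1, x.2))) = _
  rw [lcg_Eq_apply, toMul_ofMul, map_pow]
  rfl

/-- `loc_inv` of `emb_q (ζ ^ c)` is `lcg_invq` of `c`, for a cocycle `c`. -/
theorem recb_inv_eq (c : hc_C2 (pt_localLev (primeLocalToGlobal q))
      ((dual_rhoT (cycloChar p)).comp (primeLocalToGlobal q)))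
    (hc : hc_d23 (pt_localLev (primeLocalToGlobal q))
      ((dual_rhoT (cycloChar p)).comp (primeLocalToGlobal q)) c = 0) :
    recb_inv p (q : ℕ) (fun x => Units.map
        ((padicEmbedding (q : ℕ) : Qb →+* PadicAlgCl (q : ℕ)) : Qb →* PadicAlgCl (q : ℕ))
        (ζ ^ ((c : primeLocalGaloisGroup q × primeLocalGaloisGroup q → ZMod p) x).val)) =
      lcg_invq p ζ hζ q c := by
  rw [lcg_invq_eq p ζ hζ q c hc, recb_toLoc_eq p ζ hζ q]
  rfl

include hζ in
/-- `hunr` for `loc_inv`. -/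
theorem recb_hunr (e : hc_C2 (pt_localLev (primeLocalToGlobal q))
      ((dual_rhoT (cycloChar p)).comp (primeLocalToGlobal q)))
    (he : hc_IsLev2 ((dual_rhoT (cycloChar p)).comp (primeLocalToGlobal q)) (tri_I q)
      (e : primeLocalGaloisGroup q × primeLocalGaloisGroup q → ZMod p))
    (hde : hc_d23 (pt_localLev (primeLocalToGlobal q))
      ((dual_rhoT (cycloChar p)).comp (primeLocalToGlobal q)) e = 0) :
    recb_inv p (q : ℕ) (fun x => Units.map
        ((padicEmbedding (q : ℕ) : Qb →+* PadicAlgCl (q : ℕ)) : Qb →* PadicAlgCl (q : ℕ))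
        (ζ ^ ((e : primeLocalGaloisGroup q × primeLocalGaloisGroup q → ZMod p) x).val)) = 0 := by
  rw [recb_inv_eq p ζ hζ q e hde]
  exact lcg_invq_unr0 p ζ hζ q e he hde

end E

/-- **The bridge.**  The statement of `rec_recip` (for the given `p`, `ζ`; with `rec_qUnit`
and `rec_locExp` written out) implies the reciprocity hypothesis `hrecip` of `lcg_arith`. -/
theorem recb_hrecip (p : ℕ) [Fact p.Prime] (ζ : Qbˣ) (hζ : IsPrimitiveRoot ζ p)
    (hrec : ∀ (inv : ∀ (q : ℕ) [Fact q.Prime],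
        ((PadicAlgCl q ≃ₐ[ℚ_[q]] PadicAlgCl q) × (PadicAlgCl q ≃ₐ[ℚ_[q]] PadicAlgCl q) →
          (PadicAlgCl q)ˣ) → ZMod p),
      (∀ (q : ℕ) [Fact q.Prime] (x y : (PadicAlgCl q ≃ₐ[ℚ_[q]] PadicAlgCl q) ×
          (PadicAlgCl q ≃ₐ[ℚ_[q]] PadicAlgCl q) → (PadicAlgCl q)ˣ),
        groupCohomology.IsMulCocycle₂ x → loc_Lev₂ x → loc_IsLevCob (x ^ p) →
        groupCohomology.IsMulCocycle₂ y → loc_Lev₂ y → loc_IsLevCob (y ^ p) →
        inv q (x * y) = inv q x + inv q y) →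
      (∀ (q : ℕ) [Fact q.Prime] (x : (PadicAlgCl q ≃ₐ[ℚ_[q]] PadicAlgCl q) ×
          (PadicAlgCl q ≃ₐ[ℚ_[q]] PadicAlgCl q) → (PadicAlgCl q)ˣ),
        groupCohomology.IsMulCocycle₂ x → loc_Lev₂ x → loc_IsLevCob (x ^ p) →
        (inv q x = 0 ↔ loc_IsLevCob x)) →
      (∀ (q : ℕ) [Fact q.Prime],
        inv q (loc_u ℚ_[q] (PadicAlgCl q) p (Units.mk0 (q : ℚ_[q])
          (by exact_mod_cast (Fact.out : q.Prime).ne_zero))) = 1) →
      (∀ q : Nat.Primes, (q : ℕ) ≠ p →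
        ∀ e : hc_C2 (pt_localLev (primeLocalToGlobal q))
          ((dual_rhoT (cycloChar p)).comp (primeLocalToGlobal q)),
        hc_IsLev2 ((dual_rhoT (cycloChar p)).comp (primeLocalToGlobal q)) (tri_I q)
          (e : primeLocalGaloisGroup q × primeLocalGaloisGroup q → ZMod p) →
        hc_d23 (pt_localLev (primeLocalToGlobal q))
          ((dual_rhoT (cycloChar p)).comp (primeLocalToGlobal q)) e = 0 →
        inv (q : ℕ) (fun x => Units.map
          ((padicEmbedding (q : ℕ) : Qb →+* PadicAlgCl (q : ℕ)) : Qb →* PadicAlgCl (q : ℕ))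
          (ζ ^ ((e : primeLocalGaloisGroup q × primeLocalGaloisGroup q → ZMod p) x).val)) = 0) →
      ∀ z : hc_C2 tr_fullLev (dual_rhoT (cycloChar p)),
        hc_d23 tr_fullLev (dual_rhoT (cycloChar p)) z = 0 →
        ∑ᶠ q : Nat.Primes, inv (q : ℕ) (fun x => Units.map
          ((padicEmbedding (q : ℕ) : Qb →+* PadicAlgCl (q : ℕ)) : Qb →* PadicAlgCl (q : ℕ))
          (ζ ^ ((hc_res2 (tri_compat (primeLocalToGlobal q)) (dual_rhoT (cycloChar p)) z :
            primeLocalGaloisGroup q × primeLocalGaloisGroup q → ZMod p) x).val)) = 0)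
    (z : hc_C2 tr_fullLev (dual_rhoT (cycloChar p)))
    (hz : hc_d23 tr_fullLev (dual_rhoT (cycloChar p)) z = 0) :
    ∑ᶠ q : Nat.Primes, lcg_invq p ζ hζ q (hc_res2 (tri_compat (primeLocalToGlobal q))
      (dual_rhoT (cycloChar p)) z) = 0 := by
  have h := hrec (fun q _ => recb_inv p q)
    (fun q _ x y hx hxl hxp hy hyl hyp => recb_hmul p q x y hx hxl hxp hy hyl hyp)
    (fun q _ x hx hxl hxp => recb_hker p q x hx hxl hxp)
    (fun q _ => recb_hnorm p q _ (by simp))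
    (fun q _ e he hde => recb_hunr p ζ hζ q e he hde) z hz
  rw [← h]
  refine finsum_congr fun q => ?_
  have hcoc : hc_d23 (pt_localLev (primeLocalToGlobal q))
      ((dual_rhoT (cycloChar p)).comp (primeLocalToGlobal q))
      (hc_res2 (tri_compat (primeLocalToGlobal q)) (dual_rhoT (cycloChar p)) z) = 0 := by
    rw [← hc_res3_d23, hz, map_zero]
  exact (recb_inv_eq p ζ hζ q _ hcoc).symm

end Fermat.Agent.S55
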