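import Fermat.Agent.S55.RecMain
import Fermat.Agent.S55.RecBridge
import Fermat.Agent.S55.LcgDq

/-!
# S55, block REC: the arithmetic input `tri_Arith p`, unconditionally

* `rec_hrecip` : the reciprocity law for the local invariants `lcg_invq p ζ hζ q` (the hypothesis
  `hrecip` of `lcg_arith`), from `rec_recip` through the bridge `recb_hrecip`;
* `rec_arith p hp2 ζ hζ : tri_Arith p` := `lcg_arith p ζ hζ (rec_hrecip p hp2 ζ hζ)`.
-/

set_option autoImplicit false

open ExtCitation

namespace Fermat.Agent.S55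

local notation "Qb" => AlgebraicClosure ℚ

/-- **Reciprocity for `lcg_invq`**: the sum over all primes of the local invariants of the
restrictions of a global `μ_p`-valued 2-cocycle vanishes. -/
theorem rec_hrecip (p : ℕ) [Fact p.Prime] (hp2 : p ≠ 2) (ζ : Qbˣ) (hζ : IsPrimitiveRoot ζ p)
    (z : hc_C2 tr_fullLev (dual_rhoT (cycloChar p)))
    (hz : hc_d23 tr_fullLev (dual_rhoT (cycloChar p)) z = 0) :
    ∑ᶠ q : Nat.Primes, lcg_invq p ζ hζ q (hc_res2 (tri_compat (primeLocalToGlobal q))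
      (dual_rhoT (cycloChar p)) z) = 0 :=
  recb_hrecip p ζ hζ
    (fun inv hmul hker hnorm hunr z hz => rec_recip p hp2 ζ hζ inv hmul hker hnorm hunr z hz) z hz

/-- **The arithmetic input of the trace**, unconditionally (for odd `p`). -/
noncomputable def rec_arith (p : ℕ) [Fact p.Prime] (hp2 : p ≠ 2) (ζ : Qbˣ)
    (hζ : IsPrimitiveRoot ζ p) : tri_Arith p :=
  lcg_arith p ζ hζ (rec_hrecip p hp2 ζ hζ)

theorem rec_arith_inv (p : ℕ) [Fact p.Prime] (hp2 : p ≠ 2) (ζ : Qbˣ)
    (hζ : IsPrimitiveRoot ζ p) : (rec_arith p hp2 ζ hζ).inv = lcg_invq p ζ hζ := rfl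

end Fermat.Agent.S55
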