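import Mathlib

/-!
# S55, block BRH, part 1: the invariant `T_c(h) = ∑ₓ c(x, h)` of a 2-cocycle of a finite group

For a finite group `G`, a representation `A` and a 2-cochain `c : G × G → A` put
`brhT A c h = ∑ x, c (x, h)` and `brhNorm A a = ∑ x, ρ(x) a`.

* `brhT_d`: `T_{db}(h) = Norm (b h)`;
* `brhT_mul`: `T_c(y z) + Norm (c (y, z)) = T_c(y) + T_c(z)` for a 2-cocycle `c`;
* `brhT_pow`: `T_c(h ^ m) ≡ m • T_c(h)` modulo norms;
* `brhT_inv`: `T_c(h)` is `G`-invariant;
* `brh_cyclic_coboundary`: if `G` is generated by `γ` and `T_c(γ)` is a norm, then `c` is a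
  coboundary.
-/

set_option autoImplicit false

namespace Fermat.Agent.S55

open groupCohomology

universe u

/-- Solving the difference equation `b (x γ) = b x + F x` on a finite cyclic group. -/
theorem brh_diff_eq {G : Type*} [Group G] [Fintype G] {M : Type*} [AddCommGroup M] (γ : G)
    (hγ : ∀ x, x ∈ Subgroup.zpowers γ) (F : G → M) (hF : ∑ x, F x = 0) :
    ∃ b : G → M, ∀ x, b (x * γ) = b x + F x := by
  classical
  have hfin : IsOfFinOrder γ := isOfFinOrder_of_finite γ
  have hn : 0 < orderOf γ := hfin.orderOf_pos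
  have hex : ∀ x : G, ∃ k, k < orderOf γ ∧ γ ^ k = x := by
    intro x
    have hx : x ∈ Finset.image (fun i => γ ^ i) (Finset.range (orderOf γ)) := by
      rw [IsCyclic.image_range_orderOf hγ]; exact Finset.mem_univ x
    obtain ⟨k, hk, rfl⟩ := Finset.mem_image.1 hx
    exact ⟨k, Finset.mem_range.1 hk, rfl⟩
  choose e he1 he2 using hex
  have huniq : ∀ (x : G) (k : ℕ), k < orderOf γ → γ ^ k = x → e x = k := by
    intro x k hk hkx
    exact pow_injOn_Iio_orderOf (he1 x) hk ((he2 x).trans hkx.symm)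
  have hsum : ∑ k ∈ Finset.range (orderOf γ), F (γ ^ k) = 0 := by
    rw [← hF, ← IsCyclic.image_range_orderOf hγ, Finset.sum_image]
    intro i hi j hj hij
    exact pow_injOn_Iio_orderOf (Finset.mem_range.1 hi) (Finset.mem_range.1 hj) hij
  refine ⟨fun x => ∑ k ∈ Finset.range (e x), F (γ ^ k), fun x => ?_⟩
  by_cases hlt : e x + 1 < orderOf γ
  · have h1 : e (x * γ) = e x + 1 := huniq _ _ hlt (by rw [pow_succ, he2])
    simp only [h1, Finset.sum_range_succ, he2]
  · have heq : e x + 1 = orderOf γ := le_antisymm (he1 x) (not_lt.1 hlt)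
    have h1 : e (x * γ) = 0 := huniq _ _ hn (by
      rw [pow_zero]
      have : x * γ = γ ^ (e x + 1) := by rw [pow_succ, he2]
      rw [this, heq, pow_orderOf_eq_one])
    simp only [h1, Finset.range_zero, Finset.sum_empty]
    have h2 : ∑ k ∈ Finset.range (e x), F (γ ^ k) + F x
        = ∑ k ∈ Finset.range (orderOf γ), F (γ ^ k) := by
      rw [← heq, Finset.sum_range_succ, he2]
    rw [h2, hsum]

section BrhT

variable {k G : Type u} [CommRing k] [Group G] [Fintype G] (A : Rep.{u} k G)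

/-- The invariant `T_c(h) = ∑ₓ c(x, h)` of a 2-cochain. -/
def brhT (c : G × G → A) (h : G) : A := ∑ x : G, c (x, h)

/-- The norm `∑ₓ ρ(x) a`. -/
def brhNorm (a : A) : A := ∑ x : G, A.ρ x a

theorem brhNorm_add (a b : A) : brhNorm A (a + b) = brhNorm A a + brhNorm A b := by
  simp only [brhNorm, map_add, Finset.sum_add_distrib]

theorem brhNorm_nsmul (m : ℕ) (a : A) : brhNorm A (m • a) = m • brhNorm A a := by
  simp only [brhNorm, map_nsmul, Finset.smul_sum]

theorem brhNorm_inv (x : G) (a : A) : A.ρ x (brhNorm A a) = brhNorm A a := by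
  simp only [brhNorm, map_sum]
  rw [← Equiv.sum_comp (Equiv.mulLeft x) (fun y => A.ρ y a)]
  refine Finset.sum_congr rfl fun y _ => ?_
  simp [map_mul]

theorem brhT_d (b : G → A) (h : G) : brhT A (d₁₂ A b) h = brhNorm A (b h) := by
  simp only [brhT, brhNorm, d₁₂_hom_apply, Finset.sum_add_distrib, Finset.sum_sub_distrib]
  have h1 : ∑ x : G, b (x * h) = ∑ x : G, b x := Equiv.sum_comp (Equiv.mulRight h) b
  rw [h1]
  abel

theorem brhT_mul {c : G × G → A} (hc : c ∈ cocycles₂ A) (y z : G) :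
    brhT A c (y * z) + brhNorm A (c (y, z)) = brhT A c y + brhT A c z := by
  have h := (mem_cocycles₂_iff c).1 hc
  have h1 : ∑ x : G, (c (x * y, z) + c (x, y)) = ∑ x : G, (A.ρ x (c (y, z)) + c (x, y * z)) :=
    Finset.sum_congr rfl fun x _ => h x y z
  have h2 : ∑ x : G, c (x * y, z) = ∑ x : G, c (x, z) :=
    Equiv.sum_comp (Equiv.mulRight y) (fun x => c (x, z))
  rw [Finset.sum_add_distrib, Finset.sum_add_distrib, h2] at h1
  simp only [brhT, brhNorm]
  rw [add_comm, ← h1, add_comm]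

theorem brhT_one {c : G × G → A} (hc : c ∈ cocycles₂ A) :
    brhT A c 1 = brhNorm A (c (1, 1)) := by
  simp only [brhT, brhNorm]
  exact Finset.sum_congr rfl fun x _ => cocycles₂_map_one_snd ⟨c, hc⟩ x

theorem brhT_pow {c : G × G → A} (hc : c ∈ cocycles₂ A) (h : G) (m : ℕ) :
    ∃ w : A, brhT A c (h ^ m) = m • brhT A c h + brhNorm A w := by
  induction m with
  | zero => exact ⟨c (1, 1), by simp [brhT_one A hc]⟩
  | succ m ih =>
    obtain ⟨w, hw⟩ := ih
    refine ⟨w - c (h ^ m, h), ?_⟩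
    have h1 := brhT_mul A hc (h ^ m) h
    rw [pow_succ, eq_sub_of_add_eq h1, hw, succ_nsmul]
    have : brhNorm A (w - c (h ^ m, h)) = brhNorm A w - brhNorm A (c (h ^ m, h)) := by
      simp only [brhNorm, map_sub, Finset.sum_sub_distrib]
    rw [this]
    abel

theorem brhT_inv {c : G × G → A} (hc : c ∈ cocycles₂ A) (x h : G) :
    A.ρ x (brhT A c h) = brhT A c h := by
  have hh := (mem_cocycles₂_iff c).1 hc
  have h1 : ∑ y : G, (c (x * y, h) + c (x, y)) = ∑ y : G, (A.ρ x (c (y, h)) + c (x, y * h)) :=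
    Finset.sum_congr rfl fun y _ => hh x y h
  have h2 : ∑ y : G, c (x * y, h) = ∑ y : G, c (y, h) :=
    Equiv.sum_comp (Equiv.mulLeft x) (fun y => c (y, h))
  have h3 : ∑ y : G, c (x, y * h) = ∑ y : G, c (x, y) :=
    Equiv.sum_comp (Equiv.mulRight h) (fun y => c (x, y))
  rw [Finset.sum_add_distrib, Finset.sum_add_distrib, h2, h3] at h1
  simp only [brhT, map_sum]
  exact (add_right_cancel h1).symm

/-- If `G` is generated by `γ` and `T_c(γ)` is a norm, the 2-cocycle `c` is a coboundary. -/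
theorem brh_cyclic_coboundary (γ : G) (hγ : ∀ x, x ∈ Subgroup.zpowers γ) {c : G × G → A}
    (hc : c ∈ cocycles₂ A) (m : A) (hm : brhT A c γ = brhNorm A m) :
    c ∈ coboundaries₂ A := by
  classical
  have hh := (mem_cocycles₂_iff c).1 hc
  -- solve the difference equation
  obtain ⟨b₀, hb₀⟩ := brh_diff_eq γ hγ (fun x => A.ρ x m - c (x, γ)) (by
    rw [Finset.sum_sub_distrib]
    exact sub_eq_zero.2 hm.symm)
  set b : G → A := fun x => b₀ x - b₀ 1 + c (1, 1) with hb
  have hb1 : b 1 = c (1, 1) := by simp [hb]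
  have hbrec : ∀ x, b (x * γ) = b x + (A.ρ x m - c (x, γ)) := by
    intro x
    simp only [hb, hb₀ x]
    abel
  have hbγ : b γ = m := by
    have h1 := hbrec 1
    have h2 : c (1, γ) = c (1, 1) := cocycles₂_map_one_fst ⟨c, hc⟩ γ
    rw [one_mul, hb1, h2] at h1
    simpa using h1
  -- the difference cocycle
  set E : G × G → A := c - d₁₂ A b with hE
  have hEc : E ∈ cocycles₂ A := Submodule.sub_mem _ hc (d₁₂_apply_mem_cocycles₂ b)
  have hEh := (mem_cocycles₂_iff E).1 hEc
  have hEγ : ∀ x, E (x, γ) = 0 := by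
    intro x
    simp only [hE, Pi.sub_apply, d₁₂_hom_apply, hbrec x, hbγ]
    abel
  have hE1 : ∀ x, E (x, 1) = 0 := by
    intro x
    have h1 : c (x, 1) = A.ρ x (c (1, 1)) := cocycles₂_map_one_snd ⟨c, hc⟩ x
    simp only [hE, Pi.sub_apply, d₁₂_hom_apply, mul_one, hb1, h1]
    abel
  have hEstep : ∀ x y, E (x, y * γ) = E (x, y) := by
    intro x y
    have := hEh x y γ
    rw [hEγ, hEγ, map_zero, zero_add, zero_add] at this
    exact this.symm
  have hEpow : ∀ (j : ℕ) x, E (x, γ ^ j) = 0 := by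
    intro j
    induction j with
    | zero => intro x; rw [pow_zero]; exact hE1 x
    | succ j ih => intro x; rw [pow_succ, hEstep]; exact ih x
  have hE0 : E = 0 := by
    funext ⟨x, y⟩
    have hy : y ∈ Submonoid.powers γ := by
      rw [mem_powers_iff_mem_zpowers]; exact hγ y
    obtain ⟨j, rfl⟩ := hy
    exact hEpow j x
  refine ⟨b, ?_⟩
  have : c = d₁₂ A b := by
    have := hE0
    rw [hE] at this
    exact sub_eq_zero.1 this
  exact this.symm

end BrhT

end Fermat.Agent.S55
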