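import Mathlib

/-!
# S55 block TATE, part 1: `Hⁿ(G, B)` is killed by `[G : S]` when `Hⁿ(S, B) = 0`

* `tc_unit S B : B ⟶ Coind_S^G Res_S B`, `tc_trace S B : Coind_S^G Res_S B ⟶ B`,
  `tc_unit_trace : tc_unit S B ≫ tc_trace S B = [G : S] • 𝟙 B`.
* `tc_index_nsmul_eq_zero`: if `Hⁿ(S, B) = 0` then `[G : S] • x = 0` for all `x : Hⁿ(G, B)`.
* `tc_isZero_of_sylow`: if `Hⁿ(P, B) = 0` for all Sylow subgroups `P` of the finite group `G`,
  then `Hⁿ(G, B) = 0`.
-/

set_option autoImplicit false

namespace Fermat.Agent.S55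

open CategoryTheory groupCohomology Rep Representation

universe u

section Additivity

variable {k G : Type u} [CommRing k] [Group G]

theorem tc_map_add {A B : Rep.{u} k G} (φ ψ : A ⟶ B) (n : ℕ) :
    groupCohomology.map (MonoidHom.id G) (φ + ψ) n =
      groupCohomology.map (MonoidHom.id G) φ n + groupCohomology.map (MonoidHom.id G) ψ n := by
  have h : cochainsMap (MonoidHom.id G) (φ + ψ) =
      cochainsMap (MonoidHom.id G) φ + cochainsMap (MonoidHom.id G) ψ := by
    ext i x g
    simp [cochainsMap_f_hom, Rep.add_hom]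
  rw [groupCohomology.map, h, HomologicalComplex.homologyMap_add]
  rfl

theorem tc_map_zero {A B : Rep.{u} k G} (n : ℕ) :
    groupCohomology.map (MonoidHom.id G) (0 : A ⟶ B) n = 0 := by
  have h : cochainsMap (MonoidHom.id G) (0 : A ⟶ B) = 0 := by
    ext i x g
    simp
  rw [groupCohomology.map, h, HomologicalComplex.homologyMap_zero]
  rfl

theorem tc_map_nsmul {A B : Rep.{u} k G} (φ : A ⟶ B) (m : ℕ) (n : ℕ) :
    groupCohomology.map (MonoidHom.id G) (m • φ) n =
      m • groupCohomology.map (MonoidHom.id G) φ n := by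
  induction m with
  | zero => simp [tc_map_zero]
  | succ m ih => rw [succ_nsmul, tc_map_add, ih, succ_nsmul]

end Additivity

section Index

variable {k G : Type u} [CommRing k] [Group G] (S : Subgroup G) (B : Rep.{u} k G)

/-- The unit `B ⟶ Coind_S^G Res_S B`, `b ↦ (g ↦ g • b)`. -/
noncomputable def tc_unit : B ⟶ coind S.subtype (res S.subtype B) :=
  resCoindToHom S.subtype B (res S.subtype B) (𝟙 _)

variable [S.FiniteIndex]

open Classical in
/-- The trace `Coind_S^G Res_S B ⟶ B`, `f ↦ ∑_{Sg} g⁻¹ • f g`. -/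
noncomputable def tc_trace : coind S.subtype (res S.subtype B) ⟶ B :=
  (indCoindIso (res S.subtype B)).inv ≫ (indResHomEquiv S.subtype (res S.subtype B) B).symm (𝟙 _)

attribute [local instance] Subgroup.fintypeQuotientOfFiniteIndex

open Classical in
theorem tc_unit_trace : tc_unit S B ≫ tc_trace S B = S.index • 𝟙 B := by
  ext b
  simp only [tc_unit, tc_trace, Rep.hom_comp, Representation.IntertwiningMap.comp_toLinearMap,
    LinearMap.comp_apply, indCoindIso_inv_hom_toLinearMap]
  change (Hom.hom ((indResHomEquiv S.subtype (res S.subtype B) B).symm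
      (𝟙 (res S.subtype B)))).toLinearMap (coindToInd (res S.subtype B) _) = _
  rw [coindToInd_apply, map_sum]
  have key : ∀ q : Quotient (QuotientGroup.rightRel S),
      (Hom.hom ((indResHomEquiv S.subtype (res S.subtype B) B).symm
          (𝟙 (res S.subtype B)))).toLinearMap
        (Quotient.liftOn q (fun g => IndV.mk S.subtype _ g
          (((Hom.hom (resCoindToHom S.subtype B (res S.subtype B)
            (𝟙 (res S.subtype B)))).toLinearMap b).1 g))
          (fun g₁ g₂ ⟨s, (hs : _ * _ = _)⟩ =>
      (Submodule.Quotient.eq _).2 <| Coinvariants.mem_ker_of_eq s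
        (.single g₂ 1 ⊗ₜ[k] ((Hom.hom (resCoindToHom S.subtype B (res S.subtype B)
          (𝟙 (res S.subtype B)))).toLinearMap b).1 g₂) _ <| by
          have := ((Hom.hom (resCoindToHom S.subtype B (res S.subtype B)
            (𝟙 (res S.subtype B)))).toLinearMap b).2 s g₂; simp_all)) = b := by
    intro q
    induction q using Quotient.inductionOn with | h g =>
    simp [indResHomEquiv]
  rw [Finset.sum_congr rfl (fun q _ => key q)]
  have hcard : Fintype.card (Quotient (QuotientGroup.rightRel S)) = S.index := by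
    rw [Subgroup.index_eq_card, Nat.card_eq_fintype_card]
    exact Fintype.card_congr (QuotientGroup.quotientRightRelEquivQuotientLeftRel S)
  rw [Finset.sum_const, Finset.card_univ, hcard]
  rfl

/-- If `Hⁿ(S, B) = 0` then `Hⁿ(G, B)` is killed by the index `[G : S]`. -/
theorem tc_index_nsmul_eq_zero (n : ℕ)
    (h : Limits.IsZero (groupCohomology (res S.subtype B) n)) (x : groupCohomology B n) :
    S.index • x = 0 := by
  have h1 : Limits.IsZero (groupCohomology (coind S.subtype (res S.subtype B)) n) :=
    Limits.IsZero.of_iso h (groupCohomology.coindIso (res S.subtype B) n)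
  have h2 : groupCohomology.map (MonoidHom.id G) (S.index • 𝟙 B) n = 0 := by
    rw [← tc_unit_trace S B, groupCohomology.map_id_comp,
      h1.eq_of_tgt (groupCohomology.map (MonoidHom.id G) (tc_unit S B) n) 0, Limits.zero_comp]
  rw [tc_map_nsmul, groupCohomology.map_id] at h2
  have := congrArg (fun f => f.hom x) h2
  simpa using this

end Index

section Sylow

variable {G : Type} [Group G] [Finite G] (B : Rep.{0} ℤ G)

/-- Sylow reduction: if `Hⁿ(P, B) = 0` for every Sylow subgroup `P` of the finite group `G`,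
then `Hⁿ(G, B) = 0`. -/
theorem tc_isZero_of_sylow (n : ℕ)
    (h : ∀ (p : ℕ) [Fact p.Prime] (P : Sylow p G),
      Limits.IsZero (groupCohomology (res (P : Subgroup G).subtype B) n)) :
    Limits.IsZero (groupCohomology B n) := by
  rw [ModuleCat.isZero_iff_subsingleton]
  refine ⟨fun x y => ?_⟩
  suffices h0 : ∀ z : groupCohomology B n, z = 0 by rw [h0 x, h0 y]
  intro z
  -- the order of `z` divides the index of every Sylow subgroup
  have hdvd : ∀ (p : ℕ) [Fact p.Prime] (P : Sylow p G), addOrderOf z ∣ (P : Subgroup G).index :=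
    fun p _ P => addOrderOf_dvd_of_nsmul_eq_zero
      (tc_index_nsmul_eq_zero (P : Subgroup G) B n (h p P) z)
  have h1 : addOrderOf z = 1 := by
    by_contra hne
    obtain ⟨p, hp, hpd⟩ := Nat.exists_prime_and_dvd hne
    have : Fact p.Prime := ⟨hp⟩
    obtain ⟨P⟩ : Nonempty (Sylow p G) := inferInstance
    have := (hpd.trans (hdvd p P))
    exact (Sylow.not_dvd_index P) this
  exact AddMonoid.addOrderOf_eq_one_iff.mp h1

end Sylow

end Fermat.Agent.S55
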