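import Mathlib
import Fermat.Agent.S55.TateIndex

/-!
# S55 block TATE, part 2: the cohomological triviality criterion (positive degrees)

Main results (`G` a finite group, `B : Rep k G`):

* `tc_cyclic_step`: if `H ◁ G`, `G/H` is cyclic generated by the class of `s`, and
  `Coind_H^G Res_H B` is acyclic, then `Hⁿ⁺¹(G, B) = 0 ⟹ Hⁿ⁺³(G, B) = 0`.  The proof uses the
  exact sequence `0 → B → I → I → B → 0`, `I = Coind_H^G Res_H B`, with middle map `Φ_s - 1`,
  `(Φ_s f)(g) = s • f (s⁻¹ g)`.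
* `tc_trivial_pgroup`, `tc_trivial`, `tc_trivial_subgroup`, `tc_trivial_res`: if
  `H¹(K, B) = H²(K, B) = 0` for all subgroups `K ≤ G`, then `Hⁿ(K, B) = 0` for all `n ≥ 1`.
* `tc_isZero_of_sylow'`: Sylow reduction over any coefficient ring.
* `tc_resIsoRange`: `Hⁿ(K, res f B) ≅ Hⁿ(f.range, B)` for injective `f : K →* G`.
* `tc_shortExact_of`: short exactness in `Rep k G` can be checked on underlying functions.
-/

set_option autoImplicit false

namespace Fermat.Agent.S55

open CategoryTheory groupCohomology Rep Representation Finset Limits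

universe u

/-- Abstract exactness: if `∑_{i<m} Φ^i π Φ^(m-i) = 1` in `End W`, then
`ker (∑_{i<m} Φ^i) ⊆ range (Φ - 1)`. -/
theorem tc_end_exact {k W : Type*} [CommRing k] [AddCommGroup W] [Module k W]
    (Φ π : Module.End k W) (m : ℕ)
    (hπ : ∑ i ∈ range m, Φ ^ i * π * Φ ^ (m - i) = 1)
    (f : W) (hf : (∑ i ∈ range m, Φ ^ i) f = 0) : ∃ e : W, (Φ - 1) e = f := by
  have h0 : (∑ i ∈ range m, Φ ^ (m - i)) f = 0 := by
    have h1 : ∑ i ∈ range m, Φ ^ (m - i) = Φ * ∑ i ∈ range m, Φ ^ i := by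
      rw [← Finset.sum_range_reflect, Finset.mul_sum]
      refine Finset.sum_congr rfl fun j hj => ?_
      have hj' : j < m := Finset.mem_range.1 hj
      rw [← pow_succ']
      congr 1
      omega
    rw [h1, Module.End.mul_apply, hf, map_zero]
  refine ⟨∑ i ∈ range m, (∑ j ∈ range i, Φ ^ j) (π ((Φ ^ (m - i)) f)), ?_⟩
  rw [map_sum]
  have h2 : ∀ i ∈ range m, (Φ - 1) ((∑ j ∈ range i, Φ ^ j) (π ((Φ ^ (m - i)) f))) =
      (Φ ^ i * π * Φ ^ (m - i)) f - π ((Φ ^ (m - i)) f) := by
    intro i _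
    rw [← Module.End.mul_apply, mul_geom_sum]
    simp [Module.End.mul_apply, sub_eq_add_neg]
  rw [Finset.sum_congr rfl h2, Finset.sum_sub_distrib]
  have h3 : ∑ i ∈ range m, (Φ ^ i * π * Φ ^ (m - i)) f = f := by
    have := congrArg (fun T : Module.End k W => T f) hπ
    simpa [LinearMap.sum_apply] using this
  have h4 : ∑ i ∈ range m, π ((Φ ^ (m - i)) f) = 0 := by
    rw [← map_sum]
    have : ∑ i ∈ range m, (Φ ^ (m - i)) f = 0 := by
      simpa [LinearMap.sum_apply] using h0
    rw [this, map_zero]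
  rw [h3, h4, sub_zero]

section Cyclic

variable {k G : Type u} [CommRing k] [Group G] (H : Subgroup G) [hN : H.Normal]
  {V : Type u} [AddCommGroup V] [Module k V] (ρ : Representation k G V)

/-- The operator `(Φ_s f)(g) = s • f (s⁻¹ g)` on `Coind_H^G V` (`H` normal). -/
noncomputable def tc_phi (s : G) :
    coindV H.subtype (ρ.comp H.subtype) →ₗ[k] coindV H.subtype (ρ.comp H.subtype) where
  toFun f := ⟨fun g => ρ s (f.1 (s⁻¹ * g)), by
    intro h g
    have hmem : s⁻¹ * (h : G) * s ∈ H := by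
      have := hN.conj_mem (h : G) h.2 s⁻¹
      simpa using this
    have h1 := f.2 ⟨s⁻¹ * h * s, hmem⟩ (s⁻¹ * g)
    change ρ s (f.1 (s⁻¹ * ((h : G) * g))) = ρ (h : G) (ρ s (f.1 (s⁻¹ * g)))
    change f.1 (s⁻¹ * (h : G) * s * (s⁻¹ * g)) = ρ (s⁻¹ * (h : G) * s) (f.1 (s⁻¹ * g)) at h1
    have h2 : s⁻¹ * (h : G) * s * (s⁻¹ * g) = s⁻¹ * ((h : G) * g) := by group
    rw [h2] at h1
    rw [h1, ← Module.End.mul_apply, ← map_mul, ← Module.End.mul_apply, ← map_mul]
    congr 2
    group⟩
  map_add' f g := by ext x; simp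
  map_smul' c f := by ext x; simp

omit hN in
@[simp] theorem tc_phi_apply [H.Normal] (s : G) (f : coindV H.subtype (ρ.comp H.subtype)) (g : G) :
    (tc_phi H ρ s f).1 g = ρ s (f.1 (s⁻¹ * g)) := rfl

theorem tc_phi_pow_apply (s : G) (j : ℕ) (f : coindV H.subtype (ρ.comp H.subtype)) (g : G) :
    ((tc_phi H ρ s ^ j) f).1 g = ρ (s ^ j) (f.1 ((s ^ j)⁻¹ * g)) := by
  induction j generalizing g with
  | zero => simp
  | succ j ih =>
    rw [pow_succ', Module.End.mul_apply, tc_phi_apply, ih, ← Module.End.mul_apply, ← map_mul,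
      ← pow_succ']
    congr 2
    rw [pow_succ' s j, mul_inv_rev, mul_assoc]

omit hN in
/-- The projection `π₀ f = f · 1_H`. -/
noncomputable def tc_pi0 [DecidablePred (· ∈ H)] :
    coindV H.subtype (ρ.comp H.subtype) →ₗ[k] coindV H.subtype (ρ.comp H.subtype) where
  toFun f := ⟨fun g => if g ∈ H then f.1 g else 0, by
    intro h g
    have hiff : ((h : G) * g ∈ H) ↔ g ∈ H := H.mul_mem_cancel_left (x := (h:G)) (y := g) h.2
    change (if (h : G) * g ∈ H then f.1 ((h : G) * g) else 0) =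
      ρ (h : G) (if g ∈ H then f.1 g else 0)
    have h1 : f.1 ((h : G) * g) = ρ (h : G) (f.1 g) := f.2 h g
    by_cases hg : g ∈ H
    · rw [if_pos (hiff.2 hg), if_pos hg, h1]
    · rw [if_neg (fun hh => hg (hiff.1 hh)), if_neg hg, map_zero]⟩
  map_add' f g := by
    ext x
    by_cases hx : x ∈ H <;> simp [hx]
  map_smul' c f := by
    ext x
    by_cases hx : x ∈ H <;> simp [hx]

omit hN in
@[simp] theorem tc_pi0_apply [DecidablePred (· ∈ H)] (f : coindV H.subtype (ρ.comp H.subtype))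
    (g : G) : (tc_pi0 H ρ f).1 g = if g ∈ H then f.1 g else 0 := rfl

omit hN in
theorem tc_coind_mem_apply (f : coindV H.subtype (ρ.comp H.subtype)) {h : G} (hh : h ∈ H) (g : G) :
    f.1 (h * g) = ρ h (f.1 g) := f.2 ⟨h, hh⟩ g

variable {H} in
/-- `Φ_s ^ m = 1` when `s ^ m ∈ H`. -/
theorem tc_phi_pow_eq_one (s : G) (m : ℕ) (hm : s ^ m ∈ H) : tc_phi H ρ s ^ m = 1 := by
  ext f g
  rw [tc_phi_pow_apply, tc_coind_mem_apply H ρ f (H.inv_mem hm), ← Module.End.mul_apply, ← map_mul]
  simp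

variable {H} in
theorem tc_phi_pi0_phi [DecidablePred (· ∈ H)] (s : G) (m : ℕ) (hm : s ^ m ∈ H) (i : ℕ)
    (hi : i ≤ m) (f : coindV H.subtype (ρ.comp H.subtype)) (g : G) :
    ((tc_phi H ρ s ^ i * tc_pi0 H ρ * tc_phi H ρ s ^ (m - i)) f).1 g =
      if (s ^ i)⁻¹ * g ∈ H then f.1 g else 0 := by
  rw [Module.End.mul_apply, Module.End.mul_apply, tc_phi_pow_apply, tc_pi0_apply]
  by_cases hg : (s ^ i)⁻¹ * g ∈ H
  · rw [if_pos hg, if_pos hg, tc_phi_pow_apply, ← Module.End.mul_apply, ← map_mul, ← pow_add,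
      Nat.add_sub_cancel' hi]
    have h1 : (s ^ (m - i))⁻¹ * ((s ^ i)⁻¹ * g) = (s ^ m)⁻¹ * g := by
      rw [← mul_assoc, ← mul_inv_rev, ← pow_add, Nat.add_sub_cancel' hi]
    rw [h1, tc_coind_mem_apply H ρ f (H.inv_mem hm), ← Module.End.mul_apply, ← map_mul]
    simp
  · rw [if_neg hg, if_neg hg, map_zero]

variable {H} in
/-- The partition of unity `∑_{i<m} Φ^i π₀ Φ^(m-i) = 1`. -/
theorem tc_sum_phi_pi0_phi [DecidablePred (· ∈ H)] (s : G) (m : ℕ) (hm : s ^ m ∈ H)
    (huniq : ∀ g : G, ∃! i, i < m ∧ (s ^ i)⁻¹ * g ∈ H) :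
    ∑ i ∈ range m, tc_phi H ρ s ^ i * tc_pi0 H ρ * tc_phi H ρ s ^ (m - i) = 1 := by
  ext f g
  rw [LinearMap.sum_apply]
  simp only [AddSubmonoidClass.coe_finsetSum, Finset.sum_apply, Module.End.one_apply]
  rw [Finset.sum_congr rfl (fun i hi =>
    tc_phi_pi0_phi ρ s m hm i (Finset.mem_range.1 hi).le f g)]
  obtain ⟨i₀, ⟨hi₀, hmem⟩, huni⟩ := huniq g
  rw [Finset.sum_eq_single i₀]
  · rw [if_pos hmem]
  · intro j hj hne
    rw [if_neg]
    intro hj'
    exact hne (huni j ⟨Finset.mem_range.1 hj, hj'⟩)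
  · intro hn
    exact absurd (Finset.mem_range.2 hi₀) hn

variable {H} in
/-- A `Φ_s`-fixed element is in the image of the unit. -/
theorem tc_phi_fixed (s : G) (hgen : ∀ g : G, ∃ i : ℕ, (s ^ i)⁻¹ * g ∈ H)
    (f : coindV H.subtype (ρ.comp H.subtype)) (hf : tc_phi H ρ s f = f) (g : G) :
    f.1 g = ρ g (f.1 1) := by
  have h1 : ∀ (i : ℕ) (y : G), f.1 (s ^ i * y) = ρ (s ^ i) (f.1 y) := by
    intro i
    induction i with
    | zero => intro y; simp
    | succ i ih =>
      intro y
      have h2 : f.1 (s * (s ^ i * y)) = ρ s (f.1 (s ^ i * y)) := by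
        conv_lhs => rw [← hf]
        rw [tc_phi_apply]
        simp
      rw [pow_succ', mul_assoc, h2, ih, ← Module.End.mul_apply, ← map_mul]
  obtain ⟨i, hi⟩ := hgen g
  have h3 : g = s ^ i * ((s ^ i)⁻¹ * g * 1) := by group
  conv_lhs => rw [h3]
  rw [h1, tc_coind_mem_apply H ρ f hi, ← Module.End.mul_apply, ← map_mul]
  congr 2
  group


/-- The norm operator `N = ∑_{i<m} Φ_s^i`. -/
noncomputable def tc_normLin (s : G) (m : ℕ) :
    Module.End k (coindV H.subtype (ρ.comp H.subtype)) :=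
  ∑ i ∈ range m, tc_phi H ρ s ^ i

theorem tc_normLin_apply (s : G) (m : ℕ) (f : coindV H.subtype (ρ.comp H.subtype)) (g : G) :
    (tc_normLin H ρ s m f).1 g = ∑ i ∈ range m, ρ (s ^ i) (f.1 ((s ^ i)⁻¹ * g)) := by
  rw [tc_normLin, LinearMap.sum_apply]
  simp only [AddSubmonoidClass.coe_finsetSum, Finset.sum_apply]
  exact Finset.sum_congr rfl fun i _ => tc_phi_pow_apply H ρ s i f g

variable {H} in
theorem tc_phi_mul_normLin (s : G) (m : ℕ) (hm : s ^ m ∈ H) :
    tc_phi H ρ s * tc_normLin H ρ s m = tc_normLin H ρ s m := by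
  have h := mul_geom_sum (tc_phi H ρ s) m
  rw [tc_phi_pow_eq_one ρ s m hm, sub_self] at h
  exact sub_eq_zero.1 ((sub_one_mul (tc_phi H ρ s) (tc_normLin H ρ s m)).symm.trans h)

variable {H} in
theorem tc_normLin_mul_phi_sub_one (s : G) (m : ℕ) (hm : s ^ m ∈ H) :
    tc_normLin H ρ s m * (tc_phi H ρ s - 1) = 0 := by
  have h := geom_sum_mul (tc_phi H ρ s) m
  rw [tc_phi_pow_eq_one ρ s m hm, sub_self] at h
  exact h

variable {H} in
theorem tc_normLin_apply_eq (s : G) (m : ℕ) (hm : s ^ m ∈ H)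
    (hgen : ∀ g : G, ∃ i : ℕ, (s ^ i)⁻¹ * g ∈ H)
    (f : coindV H.subtype (ρ.comp H.subtype)) (g : G) :
    (tc_normLin H ρ s m f).1 g = ρ g ((tc_normLin H ρ s m f).1 1) := by
  apply tc_phi_fixed ρ s hgen
  rw [← Module.End.mul_apply, tc_phi_mul_normLin ρ s m hm]

end Cyclic

section CyclicRep

variable {k G : Type u} [CommRing k] [Group G] (H : Subgroup G) [hN : H.Normal]
  (B : Rep.{u} k G)

/-- `Φ_s` as an endomorphism of the representation `Coind_H^G Res_H B`. -/
noncomputable def tc_phiHom (s : G) :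
    coind H.subtype (res H.subtype B) ⟶ coind H.subtype (res H.subtype B) :=
  Rep.ofHom ⟨tc_phi H B.ρ s, fun x => by
    ext f g
    change B.ρ s (f.1 (s⁻¹ * g * x)) = B.ρ s (f.1 (s⁻¹ * (g * x)))
    rw [mul_assoc]⟩

/-- The cyclic trace `f ↦ ∑_{i<m} s^i • f (s^{-i})`, a morphism `Coind_H^G Res_H B ⟶ B`. -/
noncomputable def tc_cycTrace (s : G) (m : ℕ) (hm : s ^ m ∈ H)
    (hgen : ∀ g : G, ∃ i : ℕ, (s ^ i)⁻¹ * g ∈ H) :
    coind H.subtype (res H.subtype B) ⟶ B :=
  Rep.ofHom ⟨(LinearMap.proj 1) ∘ₗ (coindV H.subtype (B.ρ.comp H.subtype)).subtype ∘ₗ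
      tc_normLin H B.ρ s m, fun x => by
    ext f
    simp only [LinearMap.comp_apply, LinearMap.proj_apply, Submodule.subtype_apply]
    rw [← tc_normLin_apply_eq B.ρ s m hm hgen, tc_normLin_apply, tc_normLin_apply]
    refine Finset.sum_congr rfl fun i _ => ?_
    change B.ρ (s ^ i) (f.1 ((s ^ i)⁻¹ * 1 * x)) = B.ρ (s ^ i) (f.1 ((s ^ i)⁻¹ * x))
    rw [mul_one]⟩


omit hN in
theorem tc_unit_apply (b : B) (g : G) : ((tc_unit H B).hom b).1 g = B.ρ g b := rfl

omit hN in
theorem tc_unit_injective : Function.Injective (tc_unit H B).hom := by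
  intro b b' h
  have h1 : ((tc_unit H B).hom b).1 1 = ((tc_unit H B).hom b').1 1 := by rw [h]
  rw [tc_unit_apply, tc_unit_apply] at h1
  simpa using h1

theorem tc_phiHom_apply (s : G) (f : coindV H.subtype (B.ρ.comp H.subtype)) :
    (tc_phiHom H B s).hom f = tc_phi H B.ρ s f := rfl

variable {H} in
theorem tc_phiHom_fixed (s : G) (hgen : ∀ g : G, ∃ i : ℕ, (s ^ i)⁻¹ * g ∈ H)
    (f : coindV H.subtype (B.ρ.comp H.subtype)) (hf : tc_phi H B.ρ s f = f) :
    ∃ b : B, (tc_unit H B).hom b = f := by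
  refine ⟨f.1 1, ?_⟩
  apply Subtype.ext
  funext g
  rw [tc_unit_apply]
  exact (tc_phi_fixed B.ρ s hgen f hf g).symm

theorem tc_phi_unit (s : G) (b : B) : tc_phi H B.ρ s ((tc_unit H B).hom b) = (tc_unit H B).hom b := by
  apply Subtype.ext
  funext g
  rw [tc_phi_apply, tc_unit_apply, tc_unit_apply, ← Module.End.mul_apply, ← map_mul]
  congr 2
  group

variable {H} in
theorem tc_cycTrace_apply (s : G) (m : ℕ) (hm : s ^ m ∈ H)
    (hgen : ∀ g : G, ∃ i : ℕ, (s ^ i)⁻¹ * g ∈ H) (f : coindV H.subtype (B.ρ.comp H.subtype)) :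
    (tc_cycTrace H B s m hm hgen).hom f = (tc_normLin H B.ρ s m f).1 1 := rfl

variable {H} in
theorem tc_cycTrace_phi (s : G) (m : ℕ) (hm : s ^ m ∈ H)
    (hgen : ∀ g : G, ∃ i : ℕ, (s ^ i)⁻¹ * g ∈ H) (e : coindV H.subtype (B.ρ.comp H.subtype)) :
    (tc_cycTrace H B s m hm hgen).hom (tc_phi H B.ρ s e - e) = 0 := by
  rw [tc_cycTrace_apply]
  have h := tc_normLin_mul_phi_sub_one B.ρ s m hm
  have h2 : tc_normLin H B.ρ s m (tc_phi H B.ρ s e - e) = 0 := by
    have := congrArg (fun T : Module.End k (coindV H.subtype (B.ρ.comp H.subtype)) => T e) h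
    simpa [Module.End.mul_apply] using this
  rw [h2]
  rfl

variable {H} in
theorem tc_cycTrace_ker [DecidablePred (· ∈ H)] (s : G) (m : ℕ) (hm : s ^ m ∈ H)
    (huniq : ∀ g : G, ∃! i, i < m ∧ (s ^ i)⁻¹ * g ∈ H)
    (hgen : ∀ g : G, ∃ i : ℕ, (s ^ i)⁻¹ * g ∈ H)
    (f : coindV H.subtype (B.ρ.comp H.subtype))
    (hf : (tc_cycTrace H B s m hm hgen).hom f = 0) :
    ∃ e : coindV H.subtype (B.ρ.comp H.subtype), tc_phi H B.ρ s e - e = f := by
  rw [tc_cycTrace_apply] at hf
  have hN0 : tc_normLin H B.ρ s m f = 0 := by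
    apply Subtype.ext
    funext g
    rw [tc_normLin_apply_eq B.ρ s m hm hgen, hf, map_zero]
    rfl
  obtain ⟨e, he⟩ := tc_end_exact (tc_phi H B.ρ s) (tc_pi0 H B.ρ) m
    (tc_sum_phi_pi0_phi B.ρ s m hm huniq) f hN0
  exact ⟨e, by simpa using he⟩

variable {H} in
theorem tc_cycTrace_surjective [DecidablePred (· ∈ H)] (s : G) (m : ℕ) (hm : s ^ m ∈ H)
    (huniq : ∀ g : G, ∃! i, i < m ∧ (s ^ i)⁻¹ * g ∈ H)
    (hgen : ∀ g : G, ∃ i : ℕ, (s ^ i)⁻¹ * g ∈ H) :
    Function.Surjective (tc_cycTrace H B s m hm hgen).hom := by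
  intro b
  refine ⟨tc_pi0 H B.ρ ((tc_unit H B).hom b), ?_⟩
  rw [tc_cycTrace_apply, tc_normLin_apply]
  obtain ⟨i₀, ⟨hi₀, hmem⟩, huni⟩ := huniq 1
  rw [Finset.sum_eq_single i₀]
  · rw [tc_pi0_apply, if_pos hmem, tc_unit_apply, ← Module.End.mul_apply, ← map_mul]
    simp
  · intro j hj hne
    rw [tc_pi0_apply, if_neg, map_zero]
    intro hj'
    exact hne (huni j ⟨Finset.mem_range.1 hj, hj'⟩)
  · intro hn
    exact absurd (Finset.mem_range.2 hi₀) hn


/-- A short complex of representations is short exact if it is so on underlying functions. -/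
theorem tc_shortExact_of {k G : Type u} [CommRing k] [Group G] (X : ShortComplex (Rep.{u} k G))
    (hf : Function.Injective X.f.hom) (hg : Function.Surjective X.g.hom)
    (hex : ∀ x : X.X₂, X.g.hom x = 0 → ∃ y : X.X₁, X.f.hom y = x) : X.ShortExact := by
  have hmono : Mono X.f := (Rep.mono_iff_injective X.f).2 hf
  have hepi : Epi X.g := (Rep.epi_iff_surjective X.g).2 hg
  refine ShortComplex.ShortExact.mk' ?_ hmono hepi
  rw [← ShortComplex.exact_map_iff_of_faithful X (forget₂ (Rep.{u} k G) (ModuleCat.{u} k))]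
  rw [ShortComplex.moduleCat_exact_iff]
  intro x hx
  obtain ⟨y, hy⟩ := hex x hx
  exact ⟨y, hy⟩

variable {H} in
/-- The periodicity step: if `G/H` is cyclic (generated by `s`, of order `m`) and
`Coind_H^G Res_H B` is acyclic, then `Hⁿ⁺¹(G, B) = 0 ⟹ Hⁿ⁺³(G, B) = 0`. -/
theorem tc_cyclic_step [DecidablePred (· ∈ H)] (s : G) (m : ℕ) (hm : s ^ m ∈ H)
    (huniq : ∀ g : G, ∃! i, i < m ∧ (s ^ i)⁻¹ * g ∈ H)
    (hI : ∀ n : ℕ, IsZero (groupCohomology (coind H.subtype (res H.subtype B)) (n + 1)))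
    (n : ℕ) (hn : IsZero (groupCohomology B (n + 1))) :
    IsZero (groupCohomology B (n + 3)) := by
  have hgen : ∀ g : G, ∃ i : ℕ, (s ^ i)⁻¹ * g ∈ H :=
    fun g => (huniq g).exists.imp fun i hi => hi.2
  -- `S₂ : 0 → C → I → B → 0`
  have hS₂ : (ShortComplex.mk (kernel.ι (tc_cycTrace H B s m hm hgen))
      (tc_cycTrace H B s m hm hgen) (kernel.condition _)).ShortExact := by
    refine ShortComplex.ShortExact.mk' (ShortComplex.exact_of_f_is_kernel _ (kernelIsKernel _))
      inferInstance ?_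
    exact (Rep.epi_iff_surjective _).2 (tc_cycTrace_surjective B s m hm huniq hgen)
  have hC : IsZero (groupCohomology (kernel (tc_cycTrace H B s m hm hgen)) (n + 2)) := by
    have hex := mapShortComplex₁_exact hS₂ (i := n + 1) (j := n + 2) rfl
    exact hex.isZero_of_both_zeros (hn.eq_of_src _ _) ((hI (n + 1)).eq_of_tgt _ _)
  -- `S₁ : 0 → B → I → C → 0`
  have w : (tc_phiHom H B s - 𝟙 _) ≫ tc_cycTrace H B s m hm hgen = 0 := by
    ext e
    exact tc_cycTrace_phi B s m hm hgen e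
  have hq : kernel.lift _ (tc_phiHom H B s - 𝟙 _) w ≫ kernel.ι (tc_cycTrace H B s m hm hgen) =
      tc_phiHom H B s - 𝟙 _ := kernel.lift_ι _ _ _
  have hι : Function.Injective (kernel.ι (tc_cycTrace H B s m hm hgen)).hom :=
    (Rep.mono_iff_injective _).1 inferInstance
  have hq' : ∀ e : coindV H.subtype (B.ρ.comp H.subtype),
      (kernel.ι (tc_cycTrace H B s m hm hgen)).hom
        ((kernel.lift _ (tc_phiHom H B s - 𝟙 _) w).hom e) = tc_phi H B.ρ s e - e := by
    intro e
    have := congrArg (fun φ => φ.hom e) hq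
    exact this
  have w1 : tc_unit H B ≫ kernel.lift _ (tc_phiHom H B s - 𝟙 _) w = 0 := by
    ext b
    apply hι
    change (kernel.ι (tc_cycTrace H B s m hm hgen)).hom
      ((kernel.lift _ (tc_phiHom H B s - 𝟙 _) w).hom ((tc_unit H B).hom b)) =
      (kernel.ι (tc_cycTrace H B s m hm hgen)).hom 0
    rw [hq' _, tc_phi_unit, sub_self, map_zero]
  have hS₁ : (ShortComplex.mk (tc_unit H B) (kernel.lift _ (tc_phiHom H B s - 𝟙 _) w) w1).ShortExact := by
    refine tc_shortExact_of _ (tc_unit_injective H B) ?_ ?_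
    · intro c
      have hc : (tc_cycTrace H B s m hm hgen).hom ((kernel.ι (tc_cycTrace H B s m hm hgen)).hom c) = 0 := by
        have := congrArg (fun φ => φ.hom c) (kernel.condition (tc_cycTrace H B s m hm hgen))
        exact this
      obtain ⟨e, he⟩ := tc_cycTrace_ker B s m hm huniq hgen _ hc
      refine ⟨e, hι ?_⟩
      rw [hq' e, he]
    · intro x hx
      have h1 : tc_phi H B.ρ s x - x = 0 := by
        rw [← hq' x]
        change (kernel.ι (tc_cycTrace H B s m hm hgen)).hom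
          ((kernel.lift _ (tc_phiHom H B s - 𝟙 _) w).hom x) = 0
        have hx' : (kernel.lift _ (tc_phiHom H B s - 𝟙 _) w).hom x = 0 := hx
        rw [hx', map_zero]
      exact tc_phiHom_fixed B s hgen x (sub_eq_zero.1 h1)
  have hex := mapShortComplex₁_exact hS₁ (i := n + 2) (j := n + 3) rfl
  exact hex.isZero_of_both_zeros (hC.eq_of_src _ _) ((hI (n + 2)).eq_of_tgt _ _)


end CyclicRep

section Criterion

/-- Coset decomposition when `G ⧸ H` is cyclic generated by the class of `s`. -/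
theorem tc_coset_uniq {G : Type u} [Group G] (H : Subgroup G) [H.Normal] [Finite (G ⧸ H)] (s : G)
    (hs : ∀ x : G ⧸ H, x ∈ Subgroup.zpowers (s : G ⧸ H)) :
    s ^ Nat.card (G ⧸ H) ∈ H ∧
      ∀ g : G, ∃! i, i < Nat.card (G ⧸ H) ∧ (s ^ i)⁻¹ * g ∈ H := by
  classical
  have hord : orderOf (s : G ⧸ H) = Nat.card (G ⧸ H) := orderOf_eq_card_of_forall_mem_zpowers hs
  refine ⟨?_, fun g => ?_⟩
  · rw [← QuotientGroup.eq_one_iff, QuotientGroup.mk_pow, ← hord, pow_orderOf_eq_one]
  · have hg := hs (g : G ⧸ H)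
    rw [mem_zpowers_iff_mem_range_orderOf, Finset.mem_image] at hg
    obtain ⟨i, hi, hig⟩ := hg
    rw [Finset.mem_range, hord] at hi
    have key : ∀ j : ℕ, ((s ^ j)⁻¹ * g ∈ H ↔ (s : G ⧸ H) ^ j = (g : G ⧸ H)) := by
      intro j
      rw [← QuotientGroup.eq, QuotientGroup.mk_pow]
    refine ⟨i, ⟨hi, (key i).2 hig⟩, ?_⟩
    rintro j ⟨hj, hjg⟩
    have h1 := (key j).1 hjg
    exact pow_injOn_Iio_orderOf (x := (s : G ⧸ H)) (by simpa [hord] using hj)
      (by simpa [hord] using hi) (h1.trans hig.symm)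

variable {k : Type u} [CommRing k]

/-- The criterion for `p`-groups, by induction on the order. -/
theorem tc_trivial_pgroup (p : ℕ) [Fact p.Prime] (N : ℕ) :
    ∀ (G : Type u) [Group G] [Finite G], Nat.card G = N → IsPGroup p G →
      ∀ (B : Rep.{u} k G),
      (∀ (K : Type u) [Group K] (f : K →* G), Function.Injective f →
        IsZero (groupCohomology (res f B) 1)) →
      (∀ (K : Type u) [Group K] (f : K →* G), Function.Injective f →
        IsZero (groupCohomology (res f B) 2)) →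
      ∀ n : ℕ, IsZero (groupCohomology B (n + 1)) := by
  induction N using Nat.strong_induction_on with
  | _ N ih =>
    intro G _ _ hcard hp B h1 h2
    classical
    by_cases hsub : Subsingleton G
    · exact fun n => isZero_groupCohomology_succ_of_subsingleton B n
    obtain ⟨a, ha⟩ := IsPGroup.iff_card.1 hp
    have ha0 : a ≠ 0 := by
      rintro rfl
      rw [pow_zero] at ha
      exact hsub ((Nat.card_eq_one_iff_unique.1 ha).1)
    obtain ⟨H, hH⟩ := Sylow.exists_subgroup_card_pow_prime (G := G) p (n := a - 1)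
      (by rw [ha]; exact pow_dvd_pow p (Nat.sub_le a 1))
    have hidx : H.index = p := by
      have h3 := H.index_mul_card
      rw [hH, ha] at h3
      have h4 : p ^ a = p * p ^ (a - 1) := by
        rw [← pow_succ']; congr 1; omega
      rw [h4] at h3
      exact Nat.eq_of_mul_eq_mul_right (pow_pos (Fact.out : p.Prime).pos _) h3
    have hnorm : H.Normal := by
      apply Subgroup.normal_of_index_eq_minFac_card
      rw [hidx, ha, (Fact.out : p.Prime).pow_minFac ha0]
    have hfin : H.FiniteIndex := ⟨by rw [hidx]; exact (Fact.out : p.Prime).ne_zero⟩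
    have hcardq : Nat.card (G ⧸ H) = p := by rw [← Subgroup.index_eq_card, hidx]
    have hcyc : IsCyclic (G ⧸ H) := isCyclic_of_prime_card hcardq
    obtain ⟨q, hq⟩ := hcyc.exists_generator
    obtain ⟨s, rfl⟩ := QuotientGroup.mk_surjective q
    obtain ⟨hm, huniq⟩ := tc_coset_uniq H s hq
    -- induction hypothesis for `H`
    have hHlt : Nat.card H < N := by
      rw [hH, ← hcard, ha]
      exact Nat.pow_lt_pow_right (Fact.out : p.Prime).one_lt (by omega)
    have hHB : ∀ n : ℕ, IsZero (groupCohomology (res H.subtype B) (n + 1)) :=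
      ih (Nat.card H) hHlt H rfl (hp.to_subgroup H) (res H.subtype B)
        (fun K _ f hf => h1 K (H.subtype.comp f) (H.subtype_injective.comp hf))
        (fun K _ f hf => h2 K (H.subtype.comp f) (H.subtype_injective.comp hf))
    have hI : ∀ n : ℕ, IsZero (groupCohomology (coind H.subtype (res H.subtype B)) (n + 1)) :=
      fun n => (hHB n).of_iso (groupCohomology.coindIso (res H.subtype B) (n + 1))
    have hb1 : IsZero (groupCohomology B 1) := h1 G (MonoidHom.id G) (fun _ _ h => h)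
    have hb2 : IsZero (groupCohomology B 2) := h2 G (MonoidHom.id G) (fun _ _ h => h)
    have hboth : ∀ n : ℕ, IsZero (groupCohomology B (n + 1)) ∧ IsZero (groupCohomology B (n + 2)) := by
      intro n
      induction n with
      | zero => exact ⟨hb1, hb2⟩
      | succ n ihn => exact ⟨ihn.2, tc_cyclic_step B s _ hm huniq hI n ihn.1⟩
    exact fun n => (hboth n).1


/-- Sylow reduction, general coefficient ring: if `Hⁿ(P, B) = 0` for every Sylow subgroup `P`
of the finite group `G`, then `Hⁿ(G, B) = 0`. -/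
theorem tc_isZero_of_sylow' {G : Type u} [Group G] [Finite G] (B : Rep.{u} k G) (n : ℕ)
    (h : ∀ (p : ℕ) [Fact p.Prime] (P : Sylow p G),
      IsZero (groupCohomology (res (P : Subgroup G).subtype B) n)) :
    IsZero (groupCohomology B n) := by
  rw [ModuleCat.isZero_iff_subsingleton]
  refine ⟨fun x y => ?_⟩
  suffices h0 : ∀ z : groupCohomology B n, z = 0 by rw [h0 x, h0 y]
  intro z
  have hdvd : ∀ (p : ℕ) [Fact p.Prime] (P : Sylow p G), addOrderOf z ∣ (P : Subgroup G).index :=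
    fun p _ P => addOrderOf_dvd_of_nsmul_eq_zero
      (tc_index_nsmul_eq_zero (P : Subgroup G) B n (h p P) z)
  have h1 : addOrderOf z = 1 := by
    by_contra hne
    obtain ⟨p, hp, hpd⟩ := Nat.exists_prime_and_dvd hne
    have : Fact p.Prime := ⟨hp⟩
    obtain ⟨P⟩ : Nonempty (Sylow p G) := inferInstance
    exact (Sylow.not_dvd_index P) (hpd.trans (hdvd p P))
  exact AddMonoid.addOrderOf_eq_one_iff.mp h1

/-- **Cohomological triviality criterion** (positive degrees): if `H¹(K, B) = H²(K, B) = 0` for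
all subgroups `K` of the finite group `G` (phrased via injective homomorphisms `K →* G`), then
`Hⁿ(G, B) = 0` for all `n ≥ 1`. -/
theorem tc_trivial {G : Type u} [Group G] [Finite G] (B : Rep.{u} k G)
    (h1 : ∀ (K : Type u) [Group K] (f : K →* G), Function.Injective f →
      IsZero (groupCohomology (res f B) 1))
    (h2 : ∀ (K : Type u) [Group K] (f : K →* G), Function.Injective f →
      IsZero (groupCohomology (res f B) 2)) :
    ∀ n : ℕ, IsZero (groupCohomology B (n + 1)) := by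
  intro n
  apply tc_isZero_of_sylow'
  intro p _ P
  exact tc_trivial_pgroup p (Nat.card (P : Subgroup G)) (P : Subgroup G) rfl P.isPGroup'
    (res (P : Subgroup G).subtype B)
    (fun K _ f hf => h1 K ((P : Subgroup G).subtype.comp f)
      ((P : Subgroup G).subtype_injective.comp hf))
    (fun K _ f hf => h2 K ((P : Subgroup G).subtype.comp f)
      ((P : Subgroup G).subtype_injective.comp hf)) n

/-- Restriction along an injective homomorphism `f : K →* G` has the same cohomology as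
restriction to the subgroup `f.range`. -/
noncomputable def tc_resIsoRange {G K : Type u} [Group G] [Group K] (f : K →* G)
    (hf : Function.Injective f) (B : Rep.{u} k G) (n : ℕ) :
    groupCohomology (res f B) n ≅ groupCohomology (res f.range.subtype B) n :=
  groupCohomology.mapIso (A := res f.range.subtype B) (B := res f B)
    (MonoidHom.ofInjective hf) (LinearEquiv.refl k B.V)
    (fun g => by
      ext x
      simp only [LinearMap.comp_apply, LinearEquiv.coe_coe, LinearEquiv.refl_apply]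
      rfl) n

/-- The criterion with hypotheses on subgroups. -/
theorem tc_trivial_subgroup {G : Type u} [Group G] [Finite G] (B : Rep.{u} k G)
    (h : ∀ H : Subgroup G, IsZero (groupCohomology (res H.subtype B) 1) ∧
      IsZero (groupCohomology (res H.subtype B) 2)) :
    ∀ n : ℕ, IsZero (groupCohomology B (n + 1)) :=
  tc_trivial B (fun _ _ f hf => ((h f.range).1).of_iso (tc_resIsoRange f hf B 1))
    (fun _ _ f hf => ((h f.range).2).of_iso (tc_resIsoRange f hf B 2))

/-- The criterion, conclusion for all subgroups (injective-hom form). -/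
theorem tc_trivial_res {G : Type u} [Group G] [Finite G] (B : Rep.{u} k G)
    (h1 : ∀ (K : Type u) [Group K] (f : K →* G), Function.Injective f →
      IsZero (groupCohomology (res f B) 1))
    (h2 : ∀ (K : Type u) [Group K] (f : K →* G), Function.Injective f →
      IsZero (groupCohomology (res f B) 2))
    (K : Type u) [Group K] (f : K →* G) (hf : Function.Injective f) (n : ℕ) :
    IsZero (groupCohomology (res f B) (n + 1)) := by
  have : Finite K := Finite.of_injective f hf
  exact tc_trivial (res f B)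
    (fun L _ g hg => h1 L (f.comp g) (hf.comp hg))
    (fun L _ g hg => h2 L (f.comp g) (hf.comp hg)) n

end Criterion

end Fermat.Agent.S55
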