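import Fermat.Agent.S55.BrhCyclic
import Fermat.Agent.S55.TcIndex
import Fermat.Agent.S55.TateCrit

/-!
# S55, block BRH, part 2: the Hasse principle for `H²` from the Hasse norm theorem (abstract form)
-/

set_option autoImplicit false

namespace Fermat.Agent.S55

open CategoryTheory CategoryTheory.Limits groupCohomology

universe u

/-- Sum over a finite cyclic group generated by `g`, as a sum over exponents. -/
theorem brh_sum_cyclic {C : Type*} [Group C] [Fintype C] {M : Type*} [AddCommMonoid M] (g : C)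
    (hg : ∀ x, x ∈ Subgroup.zpowers g) (f : C → M) :
    ∑ x : C, f x = ∑ k ∈ Finset.range (Nat.card C), f (g ^ k) := by
  classical
  rw [← orderOf_eq_card_of_forall_mem_zpowers hg, ← IsCyclic.image_range_orderOf hg,
    Finset.sum_image]
  intro i hi j hj hij
  exact pow_injOn_Iio_orderOf (Finset.mem_range.1 hi) (Finset.mem_range.1 hj) hij

/-- `H²` of the trivial group vanishes. -/
theorem brh_H2_subsingleton {k Γ : Type u} [CommRing k] [Group Γ] [Subsingleton Γ]
    (M : Rep.{u} k Γ)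
    (β : groupCohomology M 2) : β = 0 := by
  induction β using H2_induction_on with | h c =>
  rw [H2π_eq_zero_iff]
  refine ⟨fun _ => c (1, 1), ?_⟩
  funext ⟨g, h⟩
  have hg : g = 1 := Subsingleton.elim _ _
  have hh : h = 1 := Subsingleton.elim _ _
  subst hg hh
  simp [d₁₂_hom_apply]

section Local

variable {k G : Type u} [CommRing k] [Group G] (A : Rep.{u} k G) {I : Type*}
  (Gl : I → Type u) [∀ i, Group (Gl i)] (ψ : ∀ i, Gl i →* G)
  (B : ∀ i, Rep.{u} k (Gl i)) (φ : ∀ i, Rep.res (ψ i) A ⟶ B i)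

/-- The comparison morphism from the global module to the local module `B i`, over a test
group `Δ` mapping compatibly to `Γ` and `D i`. -/
noncomputable def brhLoc {Γ Δ : Type u} [Group Γ] [Group Δ] (j : Γ →* G) (i : I) (a : Δ →* Γ)
    (b : Δ →* Gl i) (hab : ∀ x, j (a x) = ψ i (b x)) :
    Rep.res a (Rep.res j A) ⟶ Rep.res b (B i) :=
  Rep.ofHom ⟨(φ i).hom.toLinearMap, fun g => by
    ext v
    have h := Rep.hom_comm_apply (φ i) (b g) v
    simp only [LinearMap.coe_comp, Function.comp_apply, Rep.res_obj_ρ, MonoidHom.coe_comp,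
      hab g]
    exact h⟩

theorem brhLoc_apply {Γ Δ : Type u} [Group Γ] [Group Δ] (j : Γ →* G) (i : I) (a : Δ →* Γ)
    (b : Δ →* Gl i) (hab : ∀ x, j (a x) = ψ i (b x)) (v : A) :
    (brhLoc A Gl ψ B φ j i a b hab).hom v = (φ i).hom v := rfl

/-- Local triviality of a class in `H²(Γ, A)` (`Γ` mapping to `G`). -/
def brhLT {Γ : Type u} [Group Γ] (j : Γ →* G) (β : groupCohomology (Rep.res j A) 2) : Prop :=
  ∀ (i : I) (Δ : Type u) [Group Δ] (a : Δ →* Γ) (b : Δ →* Gl i)
    (hab : ∀ x, j (a x) = ψ i (b x)), (map a (brhLoc A Gl ψ B φ j i a b hab) 2).hom β = 0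

/-- Local triviality is inherited by restriction to a subgroup. -/
theorem brhLT_res {Γ : Type u} [Group Γ] (j : Γ →* G) (β : groupCohomology (Rep.res j A) 2)
    (hβ : brhLT A Gl ψ B φ j β) (N : Subgroup Γ) :
    brhLT A Gl ψ B φ (j.comp N.subtype) ((tcRes (Rep.res j A) N 2).hom β) := by
  intro i Δ _ a b hab
  have h := hβ i Δ (N.subtype.comp a) b hab
  have e : map (N.subtype.comp a) (brhLoc A Gl ψ B φ j i (N.subtype.comp a) b hab) 2 =
      map N.subtype (𝟙 (Rep.res N.subtype (Rep.res j A))) 2 ≫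
        map a (brhLoc A Gl ψ B φ (j.comp N.subtype) i a b hab) 2 := by
    rw [← map_comp]
    exact map_congr rfl rfl 2
  have e' := congrArg (fun t => t.hom β) e
  simp only [ModuleCat.hom_comp, LinearMap.coe_comp, Function.comp_apply] at e'
  exact e'.symm.trans h

/-- The local comparison morphism on invariants. -/
noncomputable def brhLocInv {Γ Δ : Type u} [Group Γ] [Group Δ] (j : Γ →* G) (i : I) (a : Δ →* Γ)
    (b : Δ →* Gl i) (hab : ∀ x, j (a x) = ψ i (b x)) (N : Subgroup Γ) [N.Normal]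
    (ΔN : Subgroup Δ) [ΔN.Normal] (hΔN : ΔN ≤ N.comap a) :
    Rep.res (QuotientGroup.map ΔN N a hΔN) ((Rep.res j A).quotientToInvariants N) ⟶
      (Rep.res b (B i)).quotientToInvariants ΔN :=
  Rep.ofHom ⟨
    { toFun := fun x => ⟨(φ i).hom x.1, fun n => by
        have h1 := Rep.hom_comm_apply (φ i) (b n.1) x.1
        have h2 := x.2 ⟨a n.1, hΔN n.2⟩
        simp only [Rep.res_obj_ρ, MonoidHom.coe_comp, Function.comp_apply,
          Subgroup.coe_subtype] at h1 h2 ⊢
        rw [← h1, ← hab, h2]⟩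
      map_add' := fun x y => Subtype.ext (by simp)
      map_smul' := fun r x => Subtype.ext (by simp) },
    fun g => by
      induction g using QuotientGroup.induction_on with | H d =>
      ext x
      have h1 := Rep.hom_comm_apply (φ i) (b d) x.1
      simp only [Rep.res_obj_ρ, MonoidHom.coe_comp, Function.comp_apply,
          Subgroup.coe_subtype] at h1
      simp only [LinearMap.coe_comp, Function.comp_apply, LinearMap.coe_mk, AddHom.coe_mk,
        Rep.res_obj_ρ, MonoidHom.coe_comp, QuotientGroup.map_mk]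
      change (φ i).hom (A.ρ (j (a d)) x.1) = (B i).ρ (b d) ((φ i).hom x.1)
      rw [← h1, hab]⟩

theorem brhLocInv_apply {Γ Δ : Type u} [Group Γ] [Group Δ] (j : Γ →* G) (i : I) (a : Δ →* Γ)
    (b : Δ →* Gl i) (hab : ∀ x, j (a x) = ψ i (b x)) (N : Subgroup Γ) [N.Normal]
    (ΔN : Subgroup Δ) [ΔN.Normal] (hΔN : ΔN ≤ N.comap a)
    (x : (Rep.res j A).quotientToInvariants N) :
    ((brhLocInv A Gl ψ B φ j i a b hab N ΔN hΔN).hom x).1 = (φ i).hom x.1 := rfl

/-- Compatibility of the local comparison maps with inflation. -/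
theorem brh_inf_square {Γ Δ : Type u} [Group Γ] [Group Δ] (j : Γ →* G) (i : I) (a : Δ →* Γ)
    (b : Δ →* Gl i) (hab : ∀ x, j (a x) = ψ i (b x)) (N : Subgroup Γ) [N.Normal]
    (ΔN : Subgroup Δ) [ΔN.Normal] (hΔN : ΔN ≤ N.comap a)
    (β' : groupCohomology ((Rep.res j A).quotientToInvariants N) 2) :
    (map a (brhLoc A Gl ψ B φ j i a b hab) 2).hom ((tcInf N (Rep.res j A) 2).hom β') =
      (tcInf ΔN (Rep.res b (B i)) 2).hom
        ((map (QuotientGroup.map ΔN N a hΔN) (brhLocInv A Gl ψ B φ j i a b hab N ΔN hΔN) 2).hom β') := by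
  have e : tcInf N (Rep.res j A) 2 ≫ map a (brhLoc A Gl ψ B φ j i a b hab) 2 =
      map (QuotientGroup.map ΔN N a hΔN) (brhLocInv A Gl ψ B φ j i a b hab N ΔN hΔN) 2 ≫
        tcInf ΔN (Rep.res b (B i)) 2 := by
    rw [← map_comp, ← map_comp]
    exact map_congr rfl rfl 2
  have e' := congrArg (fun t => t.hom β') e
  simpa only [ModuleCat.hom_comp, LinearMap.coe_comp, Function.comp_apply] using e'

/-- From local triviality of an inflated class to the local norm condition. -/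
theorem brh_local_norm (p : ℕ) [Fact p.Prime]
    (h90loc : ∀ (i : I) (K : Type u) [Group K] (f : K →* Gl i), Function.Injective f →
      IsZero (groupCohomology (Rep.res f (B i)) 1))
    {Γ : Type u} [Group Γ] [Finite Γ] (j : Γ →* G) (hj : Function.Injective j)
    (N : Subgroup Γ) [N.Normal] [Fintype (Γ ⧸ N)] (hN : Nat.card (Γ ⧸ N) = p)
    (c' : cocycles₂ ((Rep.res j A).quotientToInvariants N))
    (hβ : brhLT A Gl ψ B φ j ((tcInf N (Rep.res j A) 2).hom (H2π _ c')))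
    (γ : Γ) (i : I) (t : Gl i) (δ : Γ) (hδt : j δ = ψ i t) (hδN : δ ∉ N) :
    ∃ y : B i, (∀ n : Gl i, ψ i n ∈ N.map j → (B i).ρ n y = y) ∧
      (φ i).hom (brhT ((Rep.res j A).quotientToInvariants N) (⇑c') (γ : Γ ⧸ N)).1 =
        ∑ k ∈ Finset.range p, (B i).ρ (t ^ k) y := by
  classical
  -- the test group: the fibre product of `Γ` and `Gl i` over `G`
  set Δ : Subgroup (Γ × Gl i) :=
    MonoidHom.eqLocus (j.comp (MonoidHom.fst Γ (Gl i))) ((ψ i).comp (MonoidHom.snd Γ (Gl i)))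
    with hΔ
  set aΔ : Δ →* Γ := (MonoidHom.fst Γ (Gl i)).comp Δ.subtype with haΔ
  set bΔ : Δ →* Gl i := (MonoidHom.snd Γ (Gl i)).comp Δ.subtype with hbΔ
  have hab : ∀ x : Δ, j (aΔ x) = ψ i (bΔ x) := fun x => x.2
  set ΔN : Subgroup Δ := N.comap aΔ with hΔN
  have hle : ΔN ≤ N.comap aΔ := le_rfl
  -- local H90
  have hbinj : Function.Injective bΔ := by
    intro x y hxy
    have h1 : x.1.2 = y.1.2 := hxy
    have h2 : j x.1.1 = j y.1.1 :=
      (hab x).trans ((congrArg (ψ i) h1).trans (hab y).symm)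
    exact Subtype.ext (Prod.ext (hj h2) h1)
  have h90 : IsZero (groupCohomology (Rep.res ΔN.subtype (Rep.res bΔ (B i))) 1) :=
    h90loc i ΔN (bΔ.comp ΔN.subtype) (hbinj.comp ΔN.subtype_injective)
  -- the local class of the deflated class vanishes
  have h1 : (map (QuotientGroup.map ΔN N aΔ hle) (brhLocInv A Gl ψ B φ j i aΔ bΔ hab N ΔN hle) 2).hom (H2π _ c') = 0 := by
    apply tc_H2_inf_injective ΔN (Rep.res bΔ (B i)) h90
    exact (brh_inf_square A Gl ψ B φ j i aΔ bΔ hab N ΔN hle (H2π _ c')).symm.trans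
      ((hβ i Δ aΔ bΔ hab).trans (map_zero (tcInf ΔN (Rep.res bΔ (B i)) 2).hom).symm)
  have h2 : H2π ((Rep.res bΔ (B i)).quotientToInvariants ΔN) (mapCocycles₂ (QuotientGroup.map ΔN N aΔ hle) (brhLocInv A Gl ψ B φ j i aΔ bΔ hab N ΔN hle) c') = 0 := by
    have := congrArg (fun t => t.hom c') (H2π_comp_map (QuotientGroup.map ΔN N aΔ hle) (brhLocInv A Gl ψ B φ j i aΔ bΔ hab N ΔN hle))
    exact this.symm.trans h1
  obtain ⟨bloc, hbloc⟩ := (H2π_eq_zero_iff _).1 h2
  have hbloc' : ∀ x y : Δ ⧸ ΔN, (brhLocInv A Gl ψ B φ j i aΔ bΔ hab N ΔN hle).hom (c' ((QuotientGroup.map ΔN N aΔ hle) x, (QuotientGroup.map ΔN N aΔ hle) y)) = (d₁₂ ((Rep.res bΔ (B i)).quotientToInvariants ΔN) bloc) (x, y) := by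
    intro x y; rw [hbloc]; rfl
  -- the element δ
  set δ' : Δ := ⟨(δ, t), hδt⟩ with hδ'
  have hδne : (QuotientGroup.map ΔN N aΔ hle) (δ' : Δ ⧸ ΔN) ≠ 1 := by
    rw [QuotientGroup.map_mk]
    intro h; exact hδN ((QuotientGroup.eq_one_iff δ).1 h)
  have hgen : ∀ x : Γ ⧸ N, x ∈ Subgroup.zpowers ((QuotientGroup.map ΔN N aΔ hle) (δ' : Δ ⧸ ΔN)) :=
    fun x => mem_zpowers_of_prime_card hN hδne
  -- the map on quotients is bijective
  have hinj : Function.Injective (QuotientGroup.map ΔN N aΔ hle) := by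
    rw [injective_iff_map_eq_one]
    intro x hx
    induction x using QuotientGroup.induction_on with | H d =>
    rw [QuotientGroup.map_mk] at hx
    have : aΔ d ∈ N := (QuotientGroup.eq_one_iff _).1 hx
    exact (QuotientGroup.eq_one_iff d).2 this
  have hsurj : Function.Surjective (QuotientGroup.map ΔN N aΔ hle) := by
    intro x
    obtain ⟨m, hm⟩ := (mem_powers_iff_mem_zpowers).2 (hgen x)
    exact ⟨(δ' : Δ ⧸ ΔN) ^ m, by rw [map_pow]; exact hm⟩
  let e : Δ ⧸ ΔN ≃ Γ ⧸ N := Equiv.ofBijective (QuotientGroup.map ΔN N aΔ hle) ⟨hinj, hsurj⟩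
  have hfinloc : Finite (Δ ⧸ ΔN) := Finite.of_injective _ hinj
  let _ : Fintype (Δ ⧸ ΔN) := Fintype.ofFinite _
  have hcardloc : Nat.card (Δ ⧸ ΔN) = p := (Nat.card_congr e).trans hN
  have hgenloc : ∀ x : Δ ⧸ ΔN, x ∈ Subgroup.zpowers (δ' : Δ ⧸ ΔN) := by
    have hne : (δ' : Δ ⧸ ΔN) ≠ 1 := fun h => hδne (by rw [h, map_one])
    exact fun x => mem_zpowers_of_prime_card hcardloc hne
  -- T of the local cocycle
  have hT1 : brhT ((Rep.res bΔ (B i)).quotientToInvariants ΔN) (d₁₂ ((Rep.res bΔ (B i)).quotientToInvariants ΔN) bloc) (δ' : Δ ⧸ ΔN) = brhNorm ((Rep.res bΔ (B i)).quotientToInvariants ΔN) (bloc (δ' : Δ ⧸ ΔN)) :=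
    brhT_d ((Rep.res bΔ (B i)).quotientToInvariants ΔN) bloc _
  have hT2 : brhT ((Rep.res bΔ (B i)).quotientToInvariants ΔN) (d₁₂ ((Rep.res bΔ (B i)).quotientToInvariants ΔN) bloc) (δ' : Δ ⧸ ΔN) =
      (brhLocInv A Gl ψ B φ j i aΔ bΔ hab N ΔN hle).hom (brhT ((Rep.res j A).quotientToInvariants N) (⇑c') ((QuotientGroup.map ΔN N aΔ hle) (δ' : Δ ⧸ ΔN))) := by
    simp only [brhT, map_sum]
    rw [← Equiv.sum_comp e (fun x' => (brhLocInv A Gl ψ B φ j i aΔ bΔ hab N ΔN hle).hom (c' (x', (QuotientGroup.map ΔN N aΔ hle) (δ' : Δ ⧸ ΔN))))]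
    exact Finset.sum_congr rfl fun x _ => (hbloc' x _).symm
  -- γ̄ is a power
  obtain ⟨m, hm⟩ := (mem_powers_iff_mem_zpowers).2 (hgen (γ : Γ ⧸ N))
  obtain ⟨w, hw⟩ := brhT_pow ((Rep.res j A).quotientToInvariants N) (c := ⇑c') c'.2 ((QuotientGroup.map ΔN N aΔ hle) (δ' : Δ ⧸ ΔN)) m
  have hm' : (QuotientGroup.map ΔN N aΔ hle) (δ' : Δ ⧸ ΔN) ^ m = (γ : Γ ⧸ N) := hm
  rw [hm'] at hw
  -- the comparison map sends norms to norms
  have hψN : (brhLocInv A Gl ψ B φ j i aΔ bΔ hab N ΔN hle).hom (brhNorm ((Rep.res j A).quotientToInvariants N) w) = brhNorm ((Rep.res bΔ (B i)).quotientToInvariants ΔN) ((brhLocInv A Gl ψ B φ j i aΔ bΔ hab N ΔN hle).hom w) := by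
    rw [brhNorm, brhNorm, map_sum, ← Equiv.sum_comp e]
    refine Finset.sum_congr rfl fun x _ => ?_
    exact Rep.hom_comm_apply (brhLocInv A Gl ψ B φ j i aΔ bΔ hab N ΔN hle) x w
  set y' : ((Rep.res bΔ (B i)).quotientToInvariants ΔN) := m • bloc (δ' : Δ ⧸ ΔN) + (brhLocInv A Gl ψ B φ j i aΔ bΔ hab N ΔN hle).hom w with hy'
  have hmain : (brhLocInv A Gl ψ B φ j i aΔ bΔ hab N ΔN hle).hom (brhT ((Rep.res j A).quotientToInvariants N) (⇑c') (γ : Γ ⧸ N)) = brhNorm ((Rep.res bΔ (B i)).quotientToInvariants ΔN) y' := by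
    rw [hw, map_add, map_nsmul, ← hT2, hT1, hψN, hy', brhNorm_add, brhNorm_nsmul]
  refine ⟨y'.1, ?_, ?_⟩
  · rintro n ⟨ν, hν, hνn⟩
    exact y'.2 ⟨⟨(ν, n), hνn⟩, hν⟩
  · have h3 : (φ i).hom (brhT ((Rep.res j A).quotientToInvariants N) (⇑c') (γ : Γ ⧸ N)).1 = (brhNorm ((Rep.res bΔ (B i)).quotientToInvariants ΔN) y').1 := by
      rw [← hmain]
      exact (brhLocInv_apply A Gl ψ B φ j i aΔ bΔ hab N ΔN hle _).symm
    rw [h3, brhNorm, brh_sum_cyclic (δ' : Δ ⧸ ΔN) hgenloc, hcardloc]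
    rw [Submodule.coe_sum]
    refine Finset.sum_congr rfl fun k _ => ?_
    have hk : ((δ' : Δ ⧸ ΔN)) ^ k = ((δ' ^ k : Δ) : Δ ⧸ ΔN) := rfl
    rw [hk]
    change (B i).ρ (bΔ (δ' ^ k)) y'.1 = _
    rw [map_pow]
    rfl

/-- The abstract Hasse norm theorem for all cyclic layers of degree `p` inside `G`:
for subgroups `N ◁ H ≤ G` of relative index `p`, an `H`-invariant element which is locally a
norm (at every local datum `i` and every `t : Gl i` mapping into `H ∖ N`) is a global norm. -/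
def BrhHNT (p : ℕ) : Prop :=
  ∀ (H N : Subgroup G), N ≤ H → (∀ h ∈ H, ∀ n ∈ N, h * n * h⁻¹ ∈ N) → N.relIndex H = p →
    ∀ σ ∈ H, σ ∉ N → ∀ a : A, (∀ h ∈ H, A.ρ h a = a) →
      (∀ (i : I) (t : Gl i), ψ i t ∈ H → ψ i t ∉ N →
        ∃ y : B i, (∀ n : Gl i, ψ i n ∈ N → (B i).ρ n y = y) ∧
          (φ i).hom a = ∑ k ∈ Finset.range p, (B i).ρ (t ^ k) y) →
      ∃ x : A, (∀ n ∈ N, A.ρ n x = x) ∧ a = ∑ k ∈ Finset.range p, A.ρ (σ ^ k) x

/-- The cyclic layer: a class of `H²(Γ/N, A^N)` (`Γ/N` of order `p`) whose inflation is locally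
trivial vanishes. -/
theorem brh_cyclic_step (p : ℕ) [Fact p.Prime]
    (h90loc : ∀ (i : I) (K : Type u) [Group K] (f : K →* Gl i), Function.Injective f →
      IsZero (groupCohomology (Rep.res f (B i)) 1))
    (hnt : BrhHNT A Gl ψ B φ p)
    {Γ : Type u} [Group Γ] [Finite Γ] (j : Γ →* G) (hj : Function.Injective j)
    (N : Subgroup Γ) [N.Normal] (hN : Nat.card (Γ ⧸ N) = p)
    (β' : groupCohomology ((Rep.res j A).quotientToInvariants N) 2)
    (hβ : brhLT A Gl ψ B φ j ((tcInf N (Rep.res j A) 2).hom β')) : β' = 0 := by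
  classical
  let _ : Fintype (Γ ⧸ N) := Fintype.ofFinite _
  induction β' using H2_induction_on with | h c' =>
  rw [H2π_eq_zero_iff]
  -- a generator
  haveI : IsCyclic (Γ ⧸ N) := isCyclic_of_prime_card hN
  obtain ⟨q, hq⟩ := IsCyclic.exists_generator (α := Γ ⧸ N)
  obtain ⟨γ, rfl⟩ := QuotientGroup.mk_surjective q
  have hγN : γ ∉ N := by
    intro h
    have h1 : (γ : Γ ⧸ N) = 1 := (QuotientGroup.eq_one_iff γ).2 h
    have hsub : Subsingleton (Γ ⧸ N) := ⟨fun x y => by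
      have hx := hq x
      have hy := hq y
      rw [h1, Subgroup.zpowers_one_eq_bot, Subgroup.mem_bot] at hx hy
      rw [hx, hy]⟩
    have hc1 : Nat.card (Γ ⧸ N) = 1 := Nat.card_of_subsingleton 1
    rw [hN] at hc1
    exact (Fact.out : p.Prime).one_lt.ne' hc1
  have hinvar : ∀ h ∈ j.range, A.ρ h
      (brhT ((Rep.res j A).quotientToInvariants N) (⇑c') (γ : Γ ⧸ N)).1 =
      (brhT ((Rep.res j A).quotientToInvariants N) (⇑c') (γ : Γ ⧸ N)).1 := by
    rintro _ ⟨g, rfl⟩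
    have := brhT_inv ((Rep.res j A).quotientToInvariants N) c'.2 (g : Γ ⧸ N) (γ : Γ ⧸ N)
    exact congrArg Subtype.val this
  have hle : N.map j ≤ j.range := by
    rintro _ ⟨n, _, rfl⟩; exact ⟨n, rfl⟩
  have hnormal : ∀ h ∈ j.range, ∀ n ∈ N.map j, h * n * h⁻¹ ∈ N.map j := by
    rintro _ ⟨g, rfl⟩ _ ⟨n, hn, rfl⟩
    exact ⟨g * n * g⁻¹, Subgroup.Normal.conj_mem ‹_› n hn g, by simp⟩
  have hindex : (N.map j).relIndex j.range = p := by
    rw [MonoidHom.range_eq_map, Subgroup.relIndex_map_map_of_injective _ _ hj,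
      Subgroup.relIndex_top_right, Subgroup.index_eq_card, hN]
  have hnotin : j γ ∉ N.map j := by
    rintro ⟨n, hn, hnγ⟩
    exact hγN (hj hnγ ▸ hn)
  obtain ⟨x, hx1, hx2⟩ := hnt j.range (N.map j) hle hnormal hindex (j γ) ⟨γ, rfl⟩ hnotin
    (brhT ((Rep.res j A).quotientToInvariants N) (⇑c') (γ : Γ ⧸ N)).1 hinvar (by
      intro i t htH htN
      obtain ⟨δ, hδ⟩ := htH
      have hδN : δ ∉ N := fun h => htN ⟨δ, h, hδ⟩
      exact brh_local_norm A Gl ψ B φ p h90loc j hj N hN c' hβ γ i t δ hδ hδN)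
  -- conclude
  refine brh_cyclic_coboundary ((Rep.res j A).quotientToInvariants N) (γ : Γ ⧸ N) hq c'.2
    ⟨x, fun n => hx1 _ ⟨n.1, n.2, rfl⟩⟩ ?_
  apply Subtype.ext
  rw [hx2, brhNorm, brh_sum_cyclic (γ : Γ ⧸ N) hq, hN, Submodule.coe_sum]
  refine Finset.sum_congr rfl fun k _ => ?_
  rw [← map_pow]
  rfl

/-- The Hasse principle for `p`-groups mapping injectively to `G`. -/
theorem brh_pgroup (p : ℕ) [Fact p.Prime]
    (h90 : ∀ (K : Type u) [Group K] (f : K →* G), Function.Injective f →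
      IsZero (groupCohomology (Rep.res f A) 1))
    (h90loc : ∀ (i : I) (K : Type u) [Group K] (f : K →* Gl i), Function.Injective f →
      IsZero (groupCohomology (Rep.res f (B i)) 1))
    (hnt : BrhHNT A Gl ψ B φ p) :
    ∀ (n : ℕ) (Γ : Type u) [Group Γ] [Finite Γ] (j : Γ →* G), Function.Injective j →
      Nat.card Γ = p ^ n →
      ∀ β : groupCohomology (Rep.res j A) 2, brhLT A Gl ψ B φ j β → β = 0 := by
  intro n
  induction n with
  | zero =>
    intro Γ _ _ j hj hcard β hβ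
    rw [pow_zero] at hcard
    haveI : Subsingleton Γ := (Nat.card_eq_one_iff_unique.1 hcard).1
    exact brh_H2_subsingleton _ β
  | succ n ih =>
    intro Γ _ _ j hj hcard β hβ
    obtain ⟨N, hNcard⟩ := Sylow.exists_subgroup_card_pow_prime (G := Γ) p (n := n)
      (by rw [hcard]; exact pow_dvd_pow p (Nat.le_succ n))
    have hidx : N.index = p := by
      have h3 := N.index_mul_card
      rw [hNcard, hcard, pow_succ'] at h3
      exact Nat.eq_of_mul_eq_mul_right (pow_pos (Fact.out : p.Prime).pos _) h3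
    haveI hnorm : N.Normal := by
      apply Subgroup.normal_of_index_eq_minFac_card
      rw [hidx, hcard, (Fact.out : p.Prime).pow_minFac (Nat.succ_ne_zero n)]
    have hcardq : Nat.card (Γ ⧸ N) = p := by rw [← Subgroup.index_eq_card, hidx]
    have hres : (tcRes (Rep.res j A) N 2).hom β = 0 :=
      ih N (j.comp N.subtype) (hj.comp N.subtype_injective) hNcard _
        (brhLT_res A Gl ψ B φ j β hβ N)
    have hN1 : IsZero (groupCohomology (Rep.res N.subtype (Rep.res j A)) 1) :=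
      h90 N (j.comp N.subtype) (hj.comp N.subtype_injective)
    obtain ⟨β', rfl⟩ := tc_H2_inf_res_exact N (Rep.res j A) hN1 β hres
    rw [brh_cyclic_step A Gl ψ B φ p h90loc hnt j hj N hcardq β' hβ, map_zero]

/-- Classes which are trivial at every local datum are locally trivial in the sense of
`brhLT` after pulling back along any `j`. -/
theorem brhLT_of_hloc (α : groupCohomology A 2)
    (hloc : ∀ i, (map (ψ i) (φ i) 2).hom α = 0)
    {Γ : Type u} [Group Γ] (j : Γ →* G) :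
    brhLT A Gl ψ B φ j ((map j (𝟙 (Rep.res j A)) 2).hom α) := by
  intro i Δ _ a b hab
  have e : map j (𝟙 (Rep.res j A)) 2 ≫ map a (brhLoc A Gl ψ B φ j i a b hab) 2 =
      map (ψ i) (φ i) 2 ≫ map b (𝟙 (Rep.res b (B i))) 2 := by
    rw [← map_comp, ← map_comp]
    refine map_congr (MonoidHom.ext hab) ?_ 2
    rfl
  have e' := congrArg (fun t => t.hom α) e
  simp only [ModuleCat.hom_comp, LinearMap.coe_comp, Function.comp_apply] at e'
  rw [e', hloc i, map_zero]

/-- **Hasse principle for `H²` from the Hasse norm theorem** (abstract form).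
`G` is a finite group, `A` a `G`-module with Hilbert 90 for all subgroups; the local data are
groups `Gl i` with homomorphisms `ψ i : Gl i →* G`, modules `B i` with Hilbert 90 for all
subgroups and equivariant maps `φ i : A → B i`.  If the Hasse norm theorem `BrhHNT` holds for all
cyclic layers of degree `p`, then every `p`-power torsion class in `H²(G, A)` which vanishes in
all `H²(Gl i, B i)` is zero. -/
theorem brh_hasse [Finite G] (p : ℕ) [Fact p.Prime]
    (h90 : ∀ H : Subgroup G, IsZero (groupCohomology (Rep.res H.subtype A) 1))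
    (h90loc : ∀ (i : I) (H : Subgroup (Gl i)),
      IsZero (groupCohomology (Rep.res H.subtype (B i)) 1))
    (hnt : BrhHNT A Gl ψ B φ p)
    (α : groupCohomology A 2) (hp : ∃ m : ℕ, p ^ m • α = 0)
    (hloc : ∀ i, (map (ψ i) (φ i) 2).hom α = 0) : α = 0 := by
  have h90' : ∀ (K : Type u) [Group K] (f : K →* G), Function.Injective f →
      IsZero (groupCohomology (Rep.res f A) 1) :=
    fun K _ f hf => (h90 f.range).of_iso (tc_resIsoRange f hf A 1)
  have h90loc' : ∀ (i : I) (K : Type u) [Group K] (f : K →* Gl i), Function.Injective f →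
      IsZero (groupCohomology (Rep.res f (B i)) 1) :=
    fun i K _ f hf => (h90loc i f.range).of_iso (tc_resIsoRange f hf (B i) 1)
  obtain ⟨P⟩ : Nonempty (Sylow p G) := inferInstance
  obtain ⟨n, hn⟩ := IsPGroup.iff_card.1 P.isPGroup'
  have hres : (tcRes A (P : Subgroup G) 2).hom α = 0 :=
    brh_pgroup A Gl ψ B φ p h90' h90loc' hnt n (P : Subgroup G) (P : Subgroup G).subtype
      (P : Subgroup G).subtype_injective hn _ (brhLT_of_hloc A Gl ψ B φ α hloc _)
  have hidx : (P : Subgroup G).index • α = 0 :=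
    tc_index_nsmul_eq_zero_of_res (P : Subgroup G) 1 A α hres
  obtain ⟨m, hm⟩ := hp
  have h1 : addOrderOf α ∣ p ^ m := addOrderOf_dvd_of_nsmul_eq_zero hm
  have h2 : addOrderOf α ∣ (P : Subgroup G).index := addOrderOf_dvd_of_nsmul_eq_zero hidx
  have hcop : Nat.Coprime (p ^ m) (P : Subgroup G).index :=
    Nat.Coprime.pow_left m ((Nat.Prime.coprime_iff_not_dvd (Fact.out : p.Prime)).2
      P.not_dvd_index)
  have h3 : addOrderOf α = 1 := Nat.eq_one_of_dvd_coprimes hcop h1 h2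
  exact AddMonoid.addOrderOf_eq_one_iff.1 h3

/-- Cocycle form of `brh_hasse`. -/
theorem brh_hasse_cocycle [Finite G] (p : ℕ) [Fact p.Prime]
    (h90 : ∀ H : Subgroup G, IsZero (groupCohomology (Rep.res H.subtype A) 1))
    (h90loc : ∀ (i : I) (H : Subgroup (Gl i)),
      IsZero (groupCohomology (Rep.res H.subtype (B i)) 1))
    (hnt : BrhHNT A Gl ψ B φ p)
    (c : G × G → A) (hc : c ∈ cocycles₂ A) (hp : ∃ m : ℕ, p ^ m • c ∈ coboundaries₂ A)
    (hloc : ∀ i, (fun g : Gl i × Gl i => (φ i).hom (c (ψ i g.1, ψ i g.2))) ∈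
      coboundaries₂ (B i)) :
    c ∈ coboundaries₂ A := by
  have h0 : H2π A ⟨c, hc⟩ = 0 := by
    refine brh_hasse A Gl ψ B φ p h90 h90loc hnt _ ?_ ?_
    · obtain ⟨m, hm⟩ := hp
      refine ⟨m, ?_⟩
      rw [← map_nsmul, H2π_eq_zero_iff]
      exact hm
    · intro i
      have h1 := congrArg (fun t => t.hom (⟨c, hc⟩ : cocycles₂ A)) (H2π_comp_map (ψ i) (φ i))
      refine h1.trans ?_
      change H2π (B i) (mapCocycles₂ (ψ i) (φ i) ⟨c, hc⟩) = 0
      rw [H2π_eq_zero_iff]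
      exact hloc i
  exact (H2π_eq_zero_iff _).1 h0

end Local

end Fermat.Agent.S55
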