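import Mathlib

/-!
# S55, block CYC (1): cyclic characters with prescribed orders

Pure group theory / elementary number theory (Mathlib only).

* `cyc_exists_good_character`: in a finite commutative group, finitely many elements whose orders
  are divisible by a large power of `p` keep order divisible by `p ^ n` under ONE character.
* `cyc_exists_cyclic_quotient`: the same, phrased with a cyclic quotient of `p`-power order.
* `cyc_exists_prime_order`: for `ℓ ≥ 2` and an odd prime `p` there are primes `q` (as large as we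
  like) such that `ℓ` has order exactly `p ^ M` in `(ZMod q)ˣ`.
* `cyc_exists_character`: for finitely many primes `ℓ ∈ T` there is a squarefree conductor `Q`
  prime to `p` and to `T` and a cyclic quotient of `(ZMod Q)ˣ` of `p`-power order in which every
  `ℓ ∈ T` has order divisible by `p ^ n`.
-/

set_option autoImplicit false

namespace Fermat.Agent.S55

open CommGroup

/-- Characters of a finite commutative group killing `h`: their number times the order of `h` is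
the order of the group. -/
theorem cyc_card_characters_kill {G : Type*} [CommGroup G] [Finite G] (h : G) :
    Nat.card {χ : G →* ℂˣ // χ h = 1} * orderOf h = Nat.card G := by
  have e : {χ : G →* ℂˣ // χ h = 1} ≃ (MonoidHom.domRestrictHom (Subgroup.zpowers h) ℂˣ).ker := by
    refine Equiv.subtypeEquivRight fun χ => ?_
    rw [MonoidHom.mem_ker]
    constructor
    · intro hχ
      ext ⟨y, hy⟩
      obtain ⟨k, rfl⟩ := Subgroup.mem_zpowers_iff.mp hy
      show ((χ (h ^ k) : ℂˣ) : ℂ) = ((1 : ℂˣ) : ℂ)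
      rw [map_zpow, hχ, one_zpow]
    · intro hχ
      have := congrArg (fun φ : Subgroup.zpowers h →* ℂˣ => φ ⟨h, Subgroup.mem_zpowers h⟩) hχ
      simpa using this
  rw [Nat.card_congr e, card_domRestrictHom_ker ℂ (Subgroup.zpowers h), ← Nat.card_zpowers h,
    mul_comm]
  exact (Subgroup.card_eq_card_quotient_mul_card_subgroup (Subgroup.zpowers h)).symm ▸ by ring

/-- Finitely many elements whose orders are divisible by `p ^ (n + r)` (`r` the number of
elements) keep an order divisible by `p ^ n` under a single character. -/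
theorem cyc_exists_good_character {G : Type*} [CommGroup G] [Finite G] {ι : Type*} [Fintype ι]
    (p : ℕ) (hp : p.Prime) (n : ℕ) (g : ι → G)
    (hg : ∀ i, p ^ (n + Fintype.card ι) ∣ orderOf (g i)) :
    ∃ χ : G →* ℂˣ, ∀ i, p ^ n ∣ orderOf (χ (g i)) := by
  classical
  rcases Nat.eq_zero_or_pos n with rfl | hn
  · exact ⟨1, fun i => by simp⟩
  obtain ⟨n', rfl⟩ : ∃ n', n = n' + 1 := ⟨n - 1, by omega⟩
  set r := Fintype.card ι with hr
  have hD : ∀ i, orderOf (g i) ≠ 0 := fun i => (orderOf_pos (g i)).ne'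
  -- the auxiliary elements
  let k : ι → ℕ := fun i => p ^ n' * (orderOf (g i) / p ^ (orderOf (g i)).factorization p)
  let h : ι → G := fun i => g i ^ k i
  have hcop : ∀ i, Nat.Coprime p (orderOf (g i) / p ^ (orderOf (g i)).factorization p) :=
    fun i => Nat.coprime_ordCompl hp (hD i)
  have hh : ∀ i, p ^ (r + 1) ∣ orderOf (h i) := by
    intro i
    have h1 : orderOf (g i) ∣ k i * orderOf (h i) := by
      apply orderOf_dvd_of_pow_eq_one
      rw [pow_mul]
      exact pow_orderOf_eq_one (h i)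
    have h2 : p ^ (n' + 1 + r) ∣ k i * orderOf (h i) := (hg i).trans h1
    have h3 : p ^ n' * p ^ (r + 1) ∣
        p ^ n' * ((orderOf (g i) / p ^ (orderOf (g i)).factorization p) * orderOf (h i)) := by
      have : p ^ (n' + 1 + r) = p ^ n' * p ^ (r + 1) := by rw [← pow_add]; congr 1; omega
      rw [← this, ← mul_assoc]
      exact h2
    have h4 := Nat.dvd_of_mul_dvd_mul_left (pow_pos hp.pos n') h3
    exact (Nat.Coprime.pow_left (r + 1) (hcop i)).dvd_of_dvd_mul_left h4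
  -- finiteness of the character group
  have : Finite (G →* ℂˣ) :=
    Finite.of_equiv G (monoidHom_mulEquiv_of_hasEnoughRootsOfUnity G ℂ).some.symm.toEquiv
  have : Fintype (G →* ℂˣ) := Fintype.ofFinite _
  have hX : Fintype.card (G →* ℂˣ) = Nat.card G := by
    rw [← Nat.card_eq_fintype_card]; exact card_monoidHom_of_hasEnoughRootsOfUnity G ℂ
  have hGpos : 0 < Nat.card G := Nat.card_pos
  by_contra hcon
  push Not at hcon
  -- every character kills some `h i`
  have hbad : ∀ χ : G →* ℂˣ, ∃ i, χ (h i) = 1 := by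
    intro χ
    obtain ⟨i, hi⟩ := hcon χ
    refine ⟨i, ?_⟩
    set d := orderOf (χ (g i)) with hd
    have hdD : d ∣ orderOf (g i) := orderOf_map_dvd χ (g i)
    have hd0 : d ≠ 0 := fun h0 => hD i (by rw [h0] at hdD; exact Nat.eq_zero_of_zero_dvd hdD)
    have hb : d.factorization p ≤ n' := by
      by_contra hlt
      push Not at hlt
      exact hi ((hp.pow_dvd_iff_le_factorization hd0).mpr hlt)
    have hdk : d ∣ k i := by
      rw [← Nat.ordProj_mul_ordCompl_eq_self d p]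
      exact Nat.mul_dvd_mul (pow_dvd_pow p hb) (Nat.ordCompl_dvd_ordCompl_of_dvd hdD p)
    show χ (g i ^ k i) = 1
    rw [map_pow]
    exact orderOf_dvd_iff_pow_eq_one.mp hdk
  -- counting
  have hcard : ∀ i, (Finset.univ.filter fun χ : G →* ℂˣ => χ (h i) = 1).card * p ^ (r + 1)
      ≤ Nat.card G := by
    intro i
    have h1 := cyc_card_characters_kill (h i)
    rw [Nat.card_eq_fintype_card, Fintype.card_subtype] at h1
    calc _ ≤ (Finset.univ.filter fun χ : G →* ℂˣ => χ (h i) = 1).card * orderOf (h i) :=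
          Nat.mul_le_mul_left _ (Nat.le_of_dvd (orderOf_pos (h i)) (hh i))
      _ = Nat.card G := h1
  have hcover : (Finset.univ : Finset (G →* ℂˣ)) ⊆
      Finset.univ.biUnion fun i : ι => Finset.univ.filter fun χ : G →* ℂˣ => χ (h i) = 1 := by
    intro χ _
    obtain ⟨i, hi⟩ := hbad χ
    exact Finset.mem_biUnion.mpr ⟨i, Finset.mem_univ i, Finset.mem_filter.mpr ⟨Finset.mem_univ _, hi⟩⟩
  have h1 : Nat.card G * p ^ (r + 1) ≤ r * Nat.card G := by
    calc Nat.card G * p ^ (r + 1) = (Finset.univ : Finset (G →* ℂˣ)).card * p ^ (r + 1) := by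
          rw [Finset.card_univ, hX]
      _ ≤ (Finset.univ.biUnion fun i : ι =>
            Finset.univ.filter fun χ : G →* ℂˣ => χ (h i) = 1).card * p ^ (r + 1) :=
          Nat.mul_le_mul_right _ (Finset.card_le_card hcover)
      _ ≤ (∑ i : ι, (Finset.univ.filter fun χ : G →* ℂˣ => χ (h i) = 1).card) * p ^ (r + 1) :=
          Nat.mul_le_mul_right _ Finset.card_biUnion_le
      _ = ∑ i : ι, (Finset.univ.filter fun χ : G →* ℂˣ => χ (h i) = 1).card * p ^ (r + 1) :=
          Finset.sum_mul _ _ _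
      _ ≤ ∑ _i : ι, Nat.card G := Finset.sum_le_sum fun i _ => hcard i
      _ = r * Nat.card G := by rw [Finset.sum_const, Finset.card_univ, smul_eq_mul]
  have h2 : p ^ (r + 1) ≤ r := by
    have : p ^ (r + 1) * Nat.card G ≤ r * Nat.card G := by rwa [mul_comm] at h1
    exact Nat.le_of_mul_le_mul_right this hGpos
  have h3 : r < p ^ (r + 1) :=
    calc r < 2 ^ r := Nat.lt_two_pow_self
      _ ≤ 2 ^ (r + 1) := Nat.pow_le_pow_right (by norm_num) (Nat.le_succ r)
      _ ≤ p ^ (r + 1) := Nat.pow_le_pow_left hp.two_le _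
  omega

/-- Finitely many elements whose orders are divisible by `p ^ (n + r)` keep an order divisible by
`p ^ n` in a suitable cyclic quotient of `p`-power order. -/
theorem cyc_exists_cyclic_quotient {G : Type*} [CommGroup G] [Finite G] {ι : Type*} [Fintype ι]
    (p : ℕ) (hp : p.Prime) (n : ℕ) (g : ι → G)
    (hg : ∀ i, p ^ (n + Fintype.card ι) ∣ orderOf (g i)) :
    ∃ H : Subgroup G, IsCyclic (G ⧸ H) ∧ (∃ m, Nat.card (G ⧸ H) = p ^ m) ∧
      ∀ i, p ^ n ∣ orderOf (QuotientGroup.mk (g i) : G ⧸ H) := by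
  obtain ⟨χ, hχ⟩ := cyc_exists_good_character p hp n g hg
  have hN0 : Nat.card G ≠ 0 := Nat.card_pos.ne'
  set a := (Nat.card G).factorization p with ha
  set u := Nat.card G / p ^ a with hu
  have hpu : p ^ a * u = Nat.card G := Nat.ordProj_mul_ordCompl_eq_self _ p
  have hcop : Nat.Coprime p u := Nat.coprime_ordCompl hp hN0
  let ψ : G →* ℂˣ := χ ^ u
  have hψ : ∀ x, ψ x = χ x ^ u := fun x => rfl
  have hinj : Function.Injective (QuotientGroup.kerLift ψ) := QuotientGroup.kerLift_injective ψ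
  have hcyc : IsCyclic (G ⧸ ψ.ker) :=
    isCyclic_of_injective_ringHom ((Units.coeHom ℂ).comp (QuotientGroup.kerLift ψ))
      (Units.val_injective.comp hinj)
  refine ⟨ψ.ker, hcyc, ?_, fun i => ?_⟩
  · obtain ⟨c, hc⟩ := hcyc.exists_generator
    have hcard : orderOf c = Nat.card (G ⧸ ψ.ker) := orderOf_eq_card_of_forall_mem_zpowers hc
    have hpow : c ^ p ^ a = 1 := by
      obtain ⟨x, rfl⟩ := QuotientGroup.mk_surjective c
      apply hinj
      rw [map_pow, QuotientGroup.kerLift_mk, map_one, hψ, ← pow_mul, mul_comm, hpu, ← map_pow,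
        pow_card_eq_one', map_one]
    obtain ⟨m, -, hm⟩ := (Nat.dvd_prime_pow hp).mp (orderOf_dvd_of_pow_eq_one hpow)
    exact ⟨m, by rw [← hcard, hm]⟩
  · have h1 : orderOf (QuotientGroup.mk (g i) : G ⧸ ψ.ker) = orderOf (ψ (g i)) := by
      rw [← orderOf_injective (QuotientGroup.kerLift ψ) hinj, QuotientGroup.kerLift_mk]
    have hu0 : u ≠ 0 := by
      rintro h0
      rw [h0, mul_zero] at hpu
      exact hN0 hpu.symm
    rw [h1, hψ, orderOf_pow' _ hu0]
    set d := orderOf (χ (g i)) with hd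
    have h2 : p ^ n ∣ d.gcd u * (d / d.gcd u) := by
      rw [Nat.mul_div_cancel' (Nat.gcd_dvd_left d u)]; exact hχ i
    have h3 : Nat.Coprime (p ^ n) (d.gcd u) :=
      Nat.Coprime.pow_left n (Nat.Coprime.coprime_dvd_right (Nat.gcd_dvd_right d u) hcop)
    exact h3.dvd_of_dvd_mul_left h2

/-- For an odd prime `p`, `ℓ ≥ 2` and `M ≥ 1` there is a prime `q ≠ p`, `q > p ^ M`, such that `ℓ`
has order exactly `p ^ M` in `(ZMod q)ˣ`. -/
theorem cyc_exists_prime_order (p : ℕ) (hp : p.Prime) (hp2 : p ≠ 2) (ℓ : ℕ) (hℓ : 2 ≤ ℓ) (M : ℕ) :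
    ∃ q : ℕ, q.Prime ∧ q ≠ p ∧ p ^ (M + 1) < q ∧
      ∃ hc : Nat.Coprime ℓ q, orderOf (ZMod.unitOfCoprime ℓ hc) = p ^ (M + 1) := by
  have : Fact p.Prime := ⟨hp⟩
  set y := ℓ ^ p ^ M with hy
  have hy2 : 2 ≤ y := by
    calc 2 ≤ ℓ := hℓ
      _ = ℓ ^ 1 := (pow_one ℓ).symm
      _ ≤ ℓ ^ p ^ M := Nat.pow_le_pow_right (by omega) (Nat.one_le_pow _ _ hp.pos)
  set Φ := ∑ j ∈ Finset.range p, y ^ j with hΦ
  -- `Φ` in any commutative ring
  have hΦcast : ∀ (R : Type) [CommRing R], ((Φ : ℕ) : R) = ∑ j ∈ Finset.range p, (y : R) ^ j := by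
    intro R _
    rw [hΦ]; push_cast; rfl
  have hgeom : ∀ (R : Type) [CommRing R], ((Φ : ℕ) : R) * ((y : R) - 1) = (y : R) ^ p - 1 := by
    intro R _
    rw [hΦcast R]; exact geom_sum_mul _ _
  -- `Φ > p`
  have hΦgt : p < Φ := by
    have h1 : ∀ j ∈ Finset.range p, 1 ≤ y ^ j := fun j _ => Nat.one_le_pow _ _ (by omega)
    have h2 : ∑ _j ∈ Finset.range p, 1 < ∑ j ∈ Finset.range p, y ^ j := by
      apply Finset.sum_lt_sum h1
      exact ⟨1, Finset.mem_range.mpr hp.one_lt, by rw [pow_one]; omega⟩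
    simpa using h2
  -- `p ^ 2 ∤ Φ`
  have hp2Φ : ¬ p ^ 2 ∣ Φ := by
    intro hdvd
    have hpΦ : p ∣ Φ := (dvd_pow_self p (by norm_num)).trans hdvd
    -- `y ≡ 1 mod p`
    have hy1 : ((y : ℕ) : ZMod p) = 1 := by
      by_contra hne
      have h1 := hgeom (ZMod p)
      rw [ZMod.pow_card, (ZMod.natCast_eq_zero_iff Φ p).mpr hpΦ, zero_mul] at h1
      exact hne (sub_eq_zero.mp h1.symm)
    obtain ⟨t, ht⟩ : ∃ t : ℕ, y = 1 + p * t := by
      have h1 : (((y - 1 : ℕ) : ℕ) : ZMod p) = 0 := by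
        rw [Nat.cast_sub (by omega), hy1]; simp
      obtain ⟨t, ht⟩ := (ZMod.natCast_eq_zero_iff _ _).mp h1
      exact ⟨t, by omega⟩
    obtain ⟨s, hs⟩ : ∃ s, p = 2 * s + 1 := by
      rcases hp.eq_two_or_odd with h | h
      · exact absurd h hp2
      · exact ⟨p / 2, by omega⟩
    have hpp : ((p : ℕ) : ZMod (p ^ 2)) * (p : ZMod (p ^ 2)) = 0 := by
      rw [← Nat.cast_mul, ← pow_two]; exact ZMod.natCast_self _
    have hpowj : ∀ j : ℕ, ((y : ℕ) : ZMod (p ^ 2)) ^ j = 1 + (j : ZMod (p ^ 2)) * p * t := by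
      intro j
      induction j with
      | zero => simp
      | succ j ih =>
        have e1 : ((y : ℕ) : ZMod (p ^ 2)) ^ (j + 1) = ((y : ℕ) : ZMod (p ^ 2)) ^ j * y :=
          pow_succ _ _
        have e2 : ((y : ℕ) : ZMod (p ^ 2)) = 1 + (p : ZMod (p ^ 2)) * t := by
          rw [ht]; push_cast; rfl
        rw [e1, ih, e2]
        push_cast
        linear_combination ((j : ZMod (p ^ 2)) * t * t) * hpp
    have hsum : ((Φ : ℕ) : ZMod (p ^ 2)) = p := by
      rw [hΦcast (ZMod (p ^ 2))]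
      simp only [hpowj]
      rw [Finset.sum_add_distrib, Finset.sum_const, Finset.card_range, nsmul_one,
        ← Finset.sum_mul, ← Finset.sum_mul, ← Nat.cast_sum]
      have h2 : (∑ i ∈ Finset.range p, i) = p * s := by
        have := Finset.sum_range_id_mul_two p
        have h3 : p * (p - 1) = (p * s) * 2 := by
          have : p - 1 = 2 * s := by omega
          rw [this]; ring
        rw [h3] at this
        exact Nat.eq_of_mul_eq_mul_right (by norm_num) this
      rw [h2]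
      push_cast
      linear_combination ((s : ZMod (p ^ 2)) * t) * hpp
    have h0 : ((Φ : ℕ) : ZMod (p ^ 2)) = 0 := (ZMod.natCast_eq_zero_iff _ _).mpr hdvd
    rw [hsum, ZMod.natCast_eq_zero_iff] at h0
    have := Nat.le_of_dvd hp.pos h0
    have : p < p ^ 2 := by
      calc p = p ^ 1 := (pow_one p).symm
        _ < p ^ 2 := Nat.pow_lt_pow_right hp.one_lt (by norm_num)
    omega
  -- a prime factor of `Φ` different from `p`
  obtain ⟨q, hq, hqΦ, hqp⟩ : ∃ q : ℕ, q.Prime ∧ q ∣ Φ ∧ q ≠ p := by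
    by_cases hpΦ : p ∣ Φ
    · obtain ⟨Φ', hΦ'⟩ := hpΦ
      have hΦ'1 : Φ' ≠ 1 := by
        rintro rfl
        rw [mul_one] at hΦ'
        omega
      refine ⟨Φ'.minFac, Nat.minFac_prime hΦ'1, (Nat.minFac_dvd Φ').trans ⟨p, by rw [hΦ']; ring⟩, ?_⟩
      intro hqp
      apply hp2Φ
      rw [hΦ', pow_two]
      exact Nat.mul_dvd_mul_left p (hqp ▸ Nat.minFac_dvd Φ')
    · have hΦ1 : Φ ≠ 1 := by
        have := hp.two_le
        omega
      refine ⟨Φ.minFac, Nat.minFac_prime hΦ1, Nat.minFac_dvd Φ, ?_⟩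
      intro hqp
      exact hpΦ (hqp ▸ Nat.minFac_dvd Φ)
  have : Fact q.Prime := ⟨hq⟩
  have hΦq : ((Φ : ℕ) : ZMod q) = 0 := (ZMod.natCast_eq_zero_iff _ _).mpr hqΦ
  -- `ℓ ^ p ^ (M + 1) = 1` in `ZMod q`
  have hfin : ((ℓ : ℕ) : ZMod q) ^ p ^ (M + 1) = 1 := by
    have h1 := hgeom (ZMod q)
    rw [hΦq, zero_mul] at h1
    have h2 : ((y : ℕ) : ZMod q) ^ p = 1 := (sub_eq_zero.mp h1.symm)
    rw [hy] at h2
    push_cast at h2
    rw [← pow_mul, ← pow_succ] at h2
    exact h2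
  have hnot : ¬ ((ℓ : ℕ) : ZMod q) ^ p ^ M = 1 := by
    intro h1
    have h2 : ((y : ℕ) : ZMod q) = 1 := by rw [hy]; push_cast; exact h1
    have h3 := hΦcast (ZMod q)
    rw [hΦq, h2] at h3
    simp only [one_pow, Finset.sum_const, Finset.card_range, nsmul_one] at h3
    have h4 : q ∣ p := (ZMod.natCast_eq_zero_iff _ _).mp h3.symm
    exact hqp ((Nat.prime_dvd_prime_iff_eq hq hp).mp h4)
  have hc : Nat.Coprime ℓ q := by
    rw [Nat.coprime_comm, hq.coprime_iff_not_dvd]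
    intro hdvd
    have h0 : ((ℓ : ℕ) : ZMod q) = 0 := (ZMod.natCast_eq_zero_iff _ _).mpr hdvd
    rw [h0, zero_pow (pow_pos hp.pos _).ne'] at hfin
    exact zero_ne_one hfin
  have hord : orderOf (ZMod.unitOfCoprime ℓ hc) = p ^ (M + 1) := by
    apply orderOf_eq_prime_pow
    · intro h1
      apply hnot
      have := congrArg (fun x : (ZMod q)ˣ => (x : ZMod q)) h1
      simpa using this
    · apply Units.ext
      simpa using hfin
  refine ⟨q, hq, hqp, ?_, hc, hord⟩
  have h1 : p ^ (M + 1) ∣ q - 1 := by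
    rw [← hord, ← ZMod.card_units q, ← Nat.card_eq_fintype_card]
    exact orderOf_dvd_natCard _
  have hq2 := hq.two_le
  have h2 := Nat.le_of_dvd (by omega) h1
  omega

/-- **Cyclic cyclotomic characters with prescribed local orders.**  For an odd prime `p`, an
exponent `n` and a finite set `T` of primes there are a squarefree conductor `Q`, prime to `p` and
to all `ℓ ∈ T`, and a subgroup `H` of `(ZMod Q)ˣ` with cyclic quotient of `p`-power order, such
that every `ℓ ∈ T` has order divisible by `p ^ n` in the quotient. -/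
theorem cyc_exists_character (p : ℕ) (hp : p.Prime) (hp2 : p ≠ 2) (n : ℕ) (T : Finset ℕ)
    (hT : ∀ ℓ ∈ T, ℓ.Prime) :
    ∃ (Q : ℕ) (hQ : ∀ ℓ ∈ T, Nat.Coprime ℓ Q) (H : Subgroup (ZMod Q)ˣ),
      Squarefree Q ∧ Nat.Coprime p Q ∧ 0 < Q ∧ (∀ q : ℕ, q.Prime → q ∣ Q → q ≠ p ∧ q ∉ T) ∧
      IsCyclic ((ZMod Q)ˣ ⧸ H) ∧ (∃ m, Nat.card ((ZMod Q)ˣ ⧸ H) = p ^ m) ∧
      ∀ ℓ (hℓ : ℓ ∈ T), p ^ n ∣
        orderOf (QuotientGroup.mk (ZMod.unitOfCoprime ℓ (hQ ℓ hℓ)) : (ZMod Q)ˣ ⧸ H) := by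
  classical
  -- a bound for the elements of `T`
  set B := T.sup id with hB
  have hTB : ∀ ℓ ∈ T, ℓ ≤ B := fun ℓ hℓ => Finset.le_sup (f := id) hℓ
  set M := n + T.card + B with hM
  have hBM : B < p ^ (M + 1) := by
    calc B < 2 ^ B := Nat.lt_two_pow_self
      _ ≤ 2 ^ (M + 1) := Nat.pow_le_pow_right (by norm_num) (by omega)
      _ ≤ p ^ (M + 1) := Nat.pow_le_pow_left hp.two_le _
  -- the auxiliary primes
  have hex : ∀ ℓ, ℓ ∈ T → ∃ q : ℕ, q.Prime ∧ q ≠ p ∧ p ^ (M + 1) < q ∧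
      ∃ hc : Nat.Coprime ℓ q, orderOf (ZMod.unitOfCoprime ℓ hc) = p ^ (M + 1) :=
    fun ℓ hℓ => cyc_exists_prime_order p hp hp2 ℓ (hT ℓ hℓ).two_le M
  choose! qf hqf using hex
  set Qs : Finset ℕ := T.image qf with hQs
  have hQsprime : ∀ q ∈ Qs, q.Prime := by
    intro q hq
    obtain ⟨ℓ, hℓ, rfl⟩ := Finset.mem_image.mp hq
    exact (hqf ℓ hℓ).1
  have hQsp : ∀ q ∈ Qs, q ≠ p := by
    intro q hq
    obtain ⟨ℓ, hℓ, rfl⟩ := Finset.mem_image.mp hq
    exact (hqf ℓ hℓ).2.1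
  have hQsT : ∀ q ∈ Qs, q ∉ T := by
    intro q hq hqT
    obtain ⟨ℓ, hℓ, rfl⟩ := Finset.mem_image.mp hq
    have h1 := (hqf ℓ hℓ).2.2.1
    have h2 := hTB _ hqT
    omega
  set Q := ∏ q ∈ Qs, q with hQdef
  have hQpos : 0 < Q := Finset.prod_pos fun q hq => (hQsprime q hq).pos
  have hdvdQ : ∀ q ∈ Qs, q ∣ Q := fun q hq => Finset.dvd_prod_of_mem _ hq
  have hprimeQ : ∀ q : ℕ, q.Prime → q ∣ Q → q ∈ Qs := by
    intro q hq hqQ
    obtain ⟨q', hq', hqq'⟩ := (Prime.dvd_finsetProd_iff (Nat.prime_iff.mp hq) _).mp hqQ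
    rw [(Nat.prime_dvd_prime_iff_eq hq (hQsprime q' hq')).mp hqq']
    exact hq'
  have hsq : Squarefree Q := by
    refine Finset.squarefree_prod_of_pairwise_isCoprime (fun a ha b hb hab => ?_)
      fun q hq => (hQsprime q hq).squarefree
    simp only [Function.onFun, ← Nat.coprime_iff_isRelPrime]
    exact (Nat.coprime_primes (hQsprime a ha) (hQsprime b hb)).mpr hab
  have hcopQ : ∀ x : ℕ, x.Prime → x ∉ Qs → Nat.Coprime x Q := by
    intro x hx hxQ
    rw [hx.coprime_iff_not_dvd]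
    exact fun h => hxQ (hprimeQ x hx h)
  have hQ : ∀ ℓ ∈ T, Nat.Coprime ℓ Q := fun ℓ hℓ =>
    hcopQ ℓ (hT ℓ hℓ) fun h => hQsT ℓ h hℓ
  have hpQ : Nat.Coprime p Q := hcopQ p hp fun h => hQsp p h rfl
  have : NeZero Q := ⟨hQpos.ne'⟩
  -- the elements
  let g : T → (ZMod Q)ˣ := fun ℓ => ZMod.unitOfCoprime ℓ.1 (hQ ℓ.1 ℓ.2)
  have hg : ∀ ℓ : T, p ^ (n + Fintype.card T) ∣ orderOf (g ℓ) := by
    rintro ⟨ℓ, hℓ⟩
    obtain ⟨-, -, -, hc, hord⟩ := hqf ℓ hℓ
    have hd : qf ℓ ∣ Q := hdvdQ _ (Finset.mem_image_of_mem qf hℓ)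
    have hmap : ZMod.unitsMap hd (g ⟨ℓ, hℓ⟩) = ZMod.unitOfCoprime ℓ hc := by
      apply Units.ext
      rw [ZMod.unitsMap_val]
      show ((ℓ : ZMod Q)).cast = ((ℓ : ℕ) : ZMod (qf ℓ))
      exact ZMod.cast_natCast hd ℓ
    have h1 : p ^ (M + 1) ∣ orderOf (g ⟨ℓ, hℓ⟩) := by
      rw [← hord, ← hmap]
      exact orderOf_map_dvd _ _
    refine dvd_trans (pow_dvd_pow p ?_) h1
    rw [Fintype.card_coe]
    omega
  obtain ⟨H, hcyc, hcard, hord⟩ := cyc_exists_cyclic_quotient p hp n g hg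
  refine ⟨Q, hQ, H, hsq, hpQ, hQpos, fun q hq hqQ => ?_, hcyc, hcard, fun ℓ hℓ => hord ⟨ℓ, hℓ⟩⟩
  have := hprimeQ q hq hqQ
  exact ⟨hQsp q this, hQsT q this⟩

end Fermat.Agent.S55
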