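import Fermat.Agent.S55.LocKey
import Fermat.Agent.S55.TcIndex

/-!
# S55: restriction to a subgroup of index prime to the order (multiplicative cocycles)

* `cnf_pow_index_coboundary`: a multiplicative 2-cocycle of `G` which is a coboundary on a
  subgroup `H` of finite index becomes a coboundary after raising to the power `[G : H]`.
* `cnf_coboundary_of_res_coprime`: if moreover `x ^ m` is a coboundary with `m` prime to
  `[G : H]`, then `x` is a coboundary.
-/

set_option autoImplicit false

namespace Fermat.Agent.S55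

open CategoryTheory CategoryTheory.Limits groupCohomology

variable {G : Type} [Group G] {M : Type} [CommGroup M] [MulDistribMulAction G M]

/-- A 2-cocycle which is a coboundary on a subgroup `H` of finite index becomes a coboundary
after raising to the power `[G : H]`. -/
theorem cnf_pow_index_coboundary (H : Subgroup G) [H.FiniteIndex] (x : G × G → M)
    (hx : IsMulCocycle₂ x)
    (hres : ∃ β : H → M, ∀ s t : H, (s : G) • β t / β (s * t) * β s = x (s, t)) :
    IsMulCoboundary₂ (x ^ H.index) := by
  have h1 := tc_index_nsmul_eq_zero_of_res H 1 (Rep.ofMulDistribMulAction G M) (loc_H2mk x hx)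
    ((loc_H2mk_res_eq_zero_iff H x hx).2 hres)
  rw [← loc_H2mk_pow x hx H.index] at h1
  exact (loc_H2mk_eq_zero_iff _ _).1 h1

/-- If `x ^ m` is a coboundary, `x` is a coboundary on a subgroup `H` of finite index, and `m`
is prime to `[G : H]`, then `x` is a coboundary. -/
theorem cnf_coboundary_of_res_coprime (H : Subgroup G) [H.FiniteIndex] (x : G × G → M)
    (hx : IsMulCocycle₂ x)
    (hres : ∃ β : H → M, ∀ s t : H, (s : G) • β t / β (s * t) * β s = x (s, t))
    (m : ℕ) (hm : IsMulCoboundary₂ (x ^ m)) (hcop : Nat.Coprime m H.index) :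
    IsMulCoboundary₂ x := by
  have h1 : H.index • loc_H2mk x hx = 0 := by
    rw [← loc_H2mk_pow x hx H.index]
    exact (loc_H2mk_eq_zero_iff _ _).2 (cnf_pow_index_coboundary H x hx hres)
  have h2 : m • loc_H2mk x hx = 0 := by
    rw [← loc_H2mk_pow x hx m]
    exact (loc_H2mk_eq_zero_iff _ _).2 hm
  have h3 : addOrderOf (loc_H2mk x hx) ∣ Nat.gcd m H.index :=
    Nat.dvd_gcd (addOrderOf_dvd_of_nsmul_eq_zero h2) (addOrderOf_dvd_of_nsmul_eq_zero h1)
  rw [hcop, Nat.dvd_one] at h3
  exact (loc_H2mk_eq_zero_iff _ _).1 (AddMonoid.addOrderOf_eq_one_iff.mp h3)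

end Fermat.Agent.S55
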