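import Fermat.Agent.S55.LocKey
import Fermat.Agent.S55.LocCarry
import Fermat.Agent.S55.HpbCyclic

/-!
# S55: cyclic normal form of 2-cocycles (multiplicative form)

* `cnf_cyclic_inflated`: let `χ : G → ZMod n` be additive with `χ σ = 1`, and let `x` be a
  multiplicative 2-cocycle of `G` which is inflated from `G / ker χ` (right-invariant under
  `ker χ` in both arguments, values fixed by `ker χ`).  Then `b = ∏_{k<n} x (σ^k, σ)` is
  `G`-fixed and `x = loc_ucoc n χ b · d(cnf_beta χ σ x)`.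
* `cnf_inflated`: explicit inflation–restriction in degree 2: if `H¹(N, M) = 0` and the
  2-cocycle `x` of `G` is a coboundary on the normal subgroup `N`, then `x` is cohomologous to
  a 2-cocycle inflated from `G / N`.
* `cnf_normal_form`: the combination: if moreover `G / N` is cyclic via `χ`, then
  `x = loc_ucoc n χ b · dβ` for a `G`-fixed `b`.
* `cnf_cyclic`: the case of a cyclic group (`χ` injective).
-/

set_option autoImplicit false

namespace Fermat.Agent.S55

open CategoryTheory CategoryTheory.Limits groupCohomology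

section Cyclic

variable {G M : Type*} [Group G] [CommGroup M] [MulDistribMulAction G M] {n : ℕ} [NeZero n]

/-- The explicit primitive of `x / loc_ucoc n χ b` in the cyclic normal form. -/
def cnf_beta (χ : G → ZMod n) (σ : G) (x : G × G → M) (g : G) : M :=
  x (1, 1) / hpbY x σ (χ g).val

omit [NeZero n] [MulDistribMulAction G M] in
theorem cnf_beta_mul_right (χ : G → ZMod n) (hχ : ∀ g h, χ (g * h) = χ g + χ h) (σ : G)
    (x : G × G → M) (g s : G) (hs : χ s = 0) : cnf_beta χ σ x (g * s) = cnf_beta χ σ x g := by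
  unfold cnf_beta
  rw [hχ, hs, add_zero]

omit [NeZero n] in
theorem cnf_hpbY_fix (χ : G → ZMod n) (σ : G) (x : G × G → M)
    (hfix : ∀ g h s, χ s = 0 → s • x (g, h) = x (g, h)) (i : ℕ) (s : G) (hs : χ s = 0) :
    s • hpbY x σ i = hpbY x σ i := by
  unfold hpbY
  rw [Finset.smul_prod']
  exact Finset.prod_congr rfl fun k _ => hfix _ _ s hs

omit [NeZero n] in
theorem cnf_beta_fix (χ : G → ZMod n) (σ : G) (x : G × G → M)
    (hfix : ∀ g h s, χ s = 0 → s • x (g, h) = x (g, h)) (g s : G) (hs : χ s = 0) :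
    s • cnf_beta χ σ x g = cnf_beta χ σ x g := by
  unfold cnf_beta
  rw [smul_div', hfix _ _ s hs, cnf_hpbY_fix χ σ x hfix _ s hs]

/-- **Cyclic normal form for inflated cocycles.** -/
theorem cnf_cyclic_inflated (χ : G → ZMod n) (hχ : ∀ g h, χ (g * h) = χ g + χ h) (σ : G)
    (hσ : χ σ = 1) (x : G × G → M) (hx : IsMulCocycle₂ x)
    (hinv : ∀ g h s t, χ s = 0 → χ t = 0 → x (g * s, h * t) = x (g, h))
    (hfix : ∀ g h s, χ s = 0 → s • x (g, h) = x (g, h)) :
    (∀ g : G, g • hpbY x σ n = hpbY x σ n) ∧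
      ∀ g h, x (g, h) = loc_ucoc n χ (hpbY x σ n) (g, h) *
        (g • cnf_beta χ σ x h / cnf_beta χ σ x (g * h) * cnf_beta χ σ x g) := by
  have hχ1 := loc_chi_one χ hχ
  have hσn : χ (σ ^ n) = 0 := by
    rw [loc_chi_pow χ hχ, hσ, mul_one]
    exact ZMod.natCast_self n
  have hdec : ∀ g : G, χ ((σ ^ (χ g).val)⁻¹ * g) = 0 := by
    intro g
    rw [hχ, loc_chi_inv χ hχ, loc_chi_pow χ hχ, hσ, mul_one, ZMod.natCast_zmod_val]
    ring
  have hx2 : ∀ g h, x (g, h) = x (σ ^ (χ g).val, σ ^ (χ h).val) := by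
    intro g h
    have := hinv (σ ^ (χ g).val) (σ ^ (χ h).val) _ _ (hdec g) (hdec h)
    rw [mul_inv_cancel_left, mul_inv_cancel_left] at this
    exact this
  have hYfix := cnf_hpbY_fix χ σ x hfix
  have hact : ∀ (g : G) (m : M), (∀ s, χ s = 0 → s • m = m) → g • m = σ ^ (χ g).val • m := by
    intro g m hm
    have h1 : g = σ ^ (χ g).val * ((σ ^ (χ g).val)⁻¹ * g) := by group
    conv_lhs => rw [h1, mul_smul, hm _ (hdec g)]
  have hper : ∀ i, hpbY x σ (i + n) = hpbY x σ i * hpbY x σ n := by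
    intro i
    induction i with
    | zero => simp
    | succ i ih =>
      rw [add_right_comm, hpbY_succ, ih, hpbY_succ]
      have h1 : x (σ ^ (i + n), σ) = x (σ ^ i, σ) := by
        have := hinv (σ ^ i) σ (σ ^ n) 1 hσn hχ1
        rwa [← pow_add, mul_one] at this
      rw [h1, mul_right_comm]
  have hσb : σ • hpbY x σ n = hpbY x σ n := by
    have h := hpb_cyclic_formula hx σ 1 n
    have h1 : hpbY x σ 1 = x (1, 1) := by
      rw [hpbY_succ, hpbY_zero, one_mul, pow_zero, map_one_fst_of_isMulCocycle₂ hx]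
    have h2 : x (σ ^ 1, σ ^ n) = σ • x (1, 1) := by
      have := hinv (σ ^ 1) 1 1 (σ ^ n) hχ1 hσn
      rw [mul_one, one_mul] at this
      rw [this, pow_one, map_one_snd_of_isMulCocycle₂ hx]
    rw [h2, hper 1, h1, pow_one] at h
    have h' := congrArg Additive.ofMul h
    apply Additive.ofMul.injective
    simp only [ofMul_mul] at h' ⊢
    linear_combination (norm := abel) h'
  have hpowb : ∀ i : ℕ, σ ^ i • hpbY x σ n = hpbY x σ n := by
    intro i
    induction i with
    | zero => rw [pow_zero, one_smul]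
    | succ i ih => rw [pow_succ, mul_smul, hσb, ih]
  have hb : ∀ g : G, g • hpbY x σ n = hpbY x σ n := by
    intro g
    rw [hact g _ (hYfix n), hpowb]
  refine ⟨hb, fun g h => ?_⟩
  have key := hpb_cyclic_formula hx σ (χ g).val (χ h).val
  have spec := loc_carry_spec n (χ g) (χ h)
  have hc := loc_carry_le_one n (χ g) (χ h)
  have hβfix : ∀ s, χ s = 0 → s • cnf_beta χ σ x h = cnf_beta χ σ x h :=
    fun s hs => cnf_beta_fix χ σ x hfix h s hs
  have hY : hpbY x σ ((χ g).val + (χ h).val) =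
      hpbY x σ (χ (g * h)).val * hpbY x σ n ^ loc_carry n (χ g) (χ h) := by
    rw [spec, hχ]
    interval_cases hcc : loc_carry n (χ g) (χ h)
    · simp
    · rw [mul_one, hper, pow_one]
  rw [hx2 g h, loc_ucoc_apply, hact g _ hβfix]
  unfold cnf_beta
  rw [smul_div', ← hx2 g h]
  rw [hY, ← hx2 g h] at key
  have key' := congrArg Additive.ofMul key
  apply Additive.ofMul.injective
  simp only [ofMul_mul, ofMul_div, ofMul_pow] at key' ⊢
  linear_combination (norm := abel) key'

/-- **Cyclic normal form**: every 2-cocycle of a finite cyclic group (presented by an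
injective additive `χ : G → ZMod n` and `σ` with `χ σ = 1`) is the carry cocycle of the
`G`-fixed element `b = ∏_{k<n} x (σ^k, σ)` times a coboundary. -/
theorem cnf_cyclic (χ : G → ZMod n) (hχ : ∀ g h, χ (g * h) = χ g + χ h)
    (hinj : ∀ g, χ g = 0 → g = 1) (σ : G) (hσ : χ σ = 1) (x : G × G → M)
    (hx : IsMulCocycle₂ x) :
    ∃ (b : M) (β : G → M), (∀ g : G, g • b = b) ∧
      ∀ g h, x (g, h) = loc_ucoc n χ b (g, h) * (g • β h / β (g * h) * β g) := by
  obtain ⟨h1, h2⟩ := cnf_cyclic_inflated χ hχ σ hσ x hx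
    (fun g h s t hs ht => by rw [hinj s hs, hinj t ht, mul_one, mul_one])
    (fun g h s hs => by rw [hinj s hs, one_smul])
  exact ⟨_, _, h1, h2⟩

end Cyclic

section InfRes

variable {G : Type} [Group G] {M : Type} [CommGroup M] [MulDistribMulAction G M]

/-- **Explicit inflation–restriction in degree 2.**  If `H¹(N, M) = 0` and the 2-cocycle `x`
of `G` is a coboundary on the normal subgroup `N`, then `x` is cohomologous to a 2-cocycle
`x₀` inflated from `G ⧸ N`: right-invariant under `N` in both arguments, with `N`-fixed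
values. -/
theorem cnf_inflated (N : Subgroup G) [N.Normal]
    (hN : IsZero (groupCohomology (Rep.res N.subtype (Rep.ofMulDistribMulAction G M)) 1))
    (x : G × G → M) (hx : IsMulCocycle₂ x)
    (hxres : ∃ β : N → M, ∀ s t : N, (s : G) • β t / β (s * t) * β s = x (s, t)) :
    ∃ (x₀ : G × G → M) (β : G → M), IsMulCocycle₂ x₀ ∧
      (∀ g h s t, s ∈ N → t ∈ N → x₀ (g * s, h * t) = x₀ (g, h)) ∧
      (∀ g h s, s ∈ N → s • x₀ (g, h) = x₀ (g, h)) ∧
      ∀ g h, x (g, h) = x₀ (g, h) * (g • β h / β (g * h) * β g) := by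
  obtain ⟨y, hy⟩ := tc_H2_inf_res_exact N (Rep.ofMulDistribMulAction G M) hN (loc_H2mk x hx)
    ((loc_H2mk_res_eq_zero_iff N x hx).2 hxres)
  induction y using H2_induction_on with | h c =>
  have h1 : (tcInf N (Rep.ofMulDistribMulAction G M) 2).hom
      (H2π ((Rep.ofMulDistribMulAction G M).quotientToInvariants N) c) =
      H2π (Rep.ofMulDistribMulAction G M)
        (mapCocycles₂ (QuotientGroup.mk' N)
          (Rep.ofHom <| (Rep.ofMulDistribMulAction G M).ρ.quotientToInvariants_lift N) c) :=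
    H2π_comp_map_apply (QuotientGroup.mk' N) _ c
  rw [h1] at hy
  set c' := mapCocycles₂ (QuotientGroup.mk' N)
    (Rep.ofHom <| (Rep.ofMulDistribMulAction G M).ρ.quotientToInvariants_lift N) c with hc'
  let f₀ : G × G → Additive M := fun q => c'.1 q
  have hf₀c : f₀ ∈ cocycles₂ (Rep.ofMulDistribMulAction G M) := c'.2
  have hval : ∀ g h : G, f₀ (g, h) =
      (Representation.invariants ((Rep.ofMulDistribMulAction G M).ρ.comp N.subtype)).subtype
        (c ((g : G ⧸ N), (h : G ⧸ N))) := fun g h => rfl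
  have hmk : ∀ (g s : G), s ∈ N → ((g * s : G) : G ⧸ N) = (g : G ⧸ N) := by
    intro g s hs
    rw [QuotientGroup.mk_mul, (QuotientGroup.eq_one_iff s).2 hs, mul_one]
  have hcob := (H2π_eq_iff _ _).1 hy
  obtain ⟨β₀, hβ₀⟩ := hcob
  let β : G → Additive M := β₀
  have hβ' : ∀ g h : G, (Additive.toMul (f₀ (g, h)) : M) / x (g, h) =
      g • Additive.toMul (β h) / Additive.toMul (β (g * h)) * Additive.toMul (β g) := by
    intro g h
    have h2 := congrFun hβ₀ (g, h)
    have h3 : (d₁₂ (Rep.ofMulDistribMulAction G M)).hom β₀ (g, h) =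
        f₀ (g, h) - Additive.ofMul (x (g, h)) := h2
    rw [d₁₂_hom_apply] at h3
    have h4 : Additive.ofMul (g • Additive.toMul (β h)) - β (g * h) + β g =
        f₀ (g, h) - Additive.ofMul (x (g, h)) := h3
    exact (congrArg Additive.toMul h4).symm
  have hx₀ : IsMulCocycle₂ (fun q => (Additive.toMul (f₀ q) : M)) := fun g h j =>
    congrArg Additive.toMul
      ((mem_cocycles₂_iff (A := Rep.ofMulDistribMulAction G M) f₀).1 hf₀c g h j)
  refine ⟨fun q => Additive.toMul (f₀ q),
    fun g => (Additive.toMul (β g))⁻¹, hx₀, ?_, ?_, ?_⟩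
  · intro g h s t hs ht
    show Additive.toMul (f₀ (g * s, h * t)) = Additive.toMul (f₀ (g, h))
    rw [hval, hval, hmk g s hs, hmk h t ht]
  · intro g h s hs
    have h2 := (c ((g : G ⧸ N), (h : G ⧸ N))).2 ⟨s, hs⟩
    exact congrArg Additive.toMul h2
  · intro g h
    show x (g, h) = Additive.toMul (f₀ (g, h)) *
      (g • (Additive.toMul (β h))⁻¹ / (Additive.toMul (β (g * h)))⁻¹ * (Additive.toMul (β g))⁻¹)
    have h7 := hβ' g h
    rw [smul_inv']
    have h8 := congrArg Additive.ofMul h7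
    apply Additive.ofMul.injective
    simp only [ofMul_mul, ofMul_div, ofMul_inv] at h8 ⊢
    linear_combination (norm := abel) -h8

/-- **Normal form of 2-cocycles split by a normal subgroup with cyclic quotient.**  Let
`N ⊴ G` with `H¹(N, M) = 0`, and let `χ : G → ZMod n` be additive with kernel `N` and
`χ σ = 1`.  Then every 2-cocycle `x` of `G` which is a coboundary on `N` is the carry cocycle
`loc_ucoc n χ b` of a `G`-fixed `b : M` times a coboundary. -/
theorem cnf_normal_form (N : Subgroup G) [N.Normal]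
    (hN : IsZero (groupCohomology (Rep.res N.subtype (Rep.ofMulDistribMulAction G M)) 1))
    {n : ℕ} [NeZero n] (χ : G → ZMod n) (hχ : ∀ g h, χ (g * h) = χ g + χ h)
    (hker : ∀ g, χ g = 0 ↔ g ∈ N) (σ : G) (hσ : χ σ = 1)
    (x : G × G → M) (hx : IsMulCocycle₂ x)
    (hxres : ∃ β : N → M, ∀ s t : N, (s : G) • β t / β (s * t) * β s = x (s, t)) :
    ∃ (b : M) (β : G → M), (∀ g : G, g • b = b) ∧
      ∀ g h, x (g, h) = loc_ucoc n χ b (g, h) * (g • β h / β (g * h) * β g) := by
  obtain ⟨x₀, β₁, hx₀, hinv, hfix, hxx₀⟩ := cnf_inflated N hN x hx hxres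
  obtain ⟨hb, hnf⟩ := cnf_cyclic_inflated χ hχ σ hσ x₀ hx₀
    (fun g h s t hs ht => hinv g h s t ((hker s).1 hs) ((hker t).1 ht))
    (fun g h s hs => hfix g h s ((hker s).1 hs))
  refine ⟨hpbY x₀ σ n, fun g => cnf_beta χ σ x₀ g * β₁ g, hb, fun g h => ?_⟩
  rw [hxx₀ g h, hnf g h, smul_mul']
  apply Additive.ofMul.injective
  simp only [ofMul_mul, ofMul_div]
  abel

/-- Hilbert 90 on `N`, elementwise, from the vanishing of `H¹(N, M)`. -/
theorem cnf_h90 (N : Subgroup G)
    (hN : IsZero (groupCohomology (Rep.res N.subtype (Rep.ofMulDistribMulAction G M)) 1))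
    (f : G → M) (hf : ∀ s t, s ∈ N → t ∈ N → f (s * t) = s • f t * f s) :
    ∃ c : M, ∀ s, s ∈ N → f s = s • c / c := by
  let f' : N → Additive M := fun s => Additive.ofMul (f s)
  have hf' : f' ∈ cocycles₁ (Rep.res N.subtype (Rep.ofMulDistribMulAction G M)) :=
    (mem_cocycles₁_iff (A := Rep.res N.subtype (Rep.ofMulDistribMulAction G M)) f').2
      (fun s t => congrArg Additive.ofMul (hf s t s.2 t.2))
  have hsub := ModuleCat.subsingleton_of_isZero hN
  have h0 : H1π (Rep.res N.subtype (Rep.ofMulDistribMulAction G M)) ⟨f', hf'⟩ = 0 :=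
    Subsingleton.elim _ _
  obtain ⟨a, ha⟩ := (H1π_eq_zero_iff _).1 h0
  let a' : Additive M := a
  refine ⟨Additive.toMul a', fun s hs => ?_⟩
  have h1 := congrFun ha ⟨s, hs⟩
  have h2 : Additive.ofMul (s • Additive.toMul a') - a' = Additive.ofMul (f s) := h1
  exact (congrArg Additive.toMul h2).symm

/-- The carry cocycle of a `G`-fixed `b` is a coboundary iff `b` is the norm (along `σ`) of an
`N`-fixed element, when `H¹(N, M) = 0` and `N = ker χ`. -/
theorem cnf_ucoc_coboundary_iff (N : Subgroup G)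
    (hN : IsZero (groupCohomology (Rep.res N.subtype (Rep.ofMulDistribMulAction G M)) 1))
    {n : ℕ} [NeZero n] (χ : G → ZMod n) (hχ : ∀ g h, χ (g * h) = χ g + χ h)
    (hker : ∀ g, χ g = 0 ↔ g ∈ N) (σ : G) (hσ : χ σ = 1) (b : M) (hb : ∀ g : G, g • b = b) :
    IsMulCoboundary₂ (loc_ucoc n χ b) ↔
      ∃ c : M, (∀ s, s ∈ N → s • c = c) ∧ b = loc_pnorm σ c n := by
  constructor
  · rintro ⟨β, hβ⟩
    obtain ⟨c, hc, hbc⟩ := loc_ucoc_coboundary_norm χ hχ σ hσ
      (fun f hf => by
        obtain ⟨c, hc⟩ := cnf_h90 N hN f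
          (fun s t hs ht => hf s t ((hker s).2 hs) ((hker t).2 ht))
        exact ⟨c, fun s hs => hc s ((hker s).1 hs)⟩)
      b hb β hβ
    exact ⟨c, fun s hs => hc s ((hker s).2 hs), hbc⟩
  · rintro ⟨c, hc, rfl⟩
    exact ⟨fun g => loc_pnorm σ c (χ g).val, fun g h =>
      loc_ucoc_of_norm χ hχ σ hσ c (fun s hs => hc s ((hker s).1 hs)) g h⟩

end InfRes

end Fermat.Agent.S55
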