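import Fermat.Agent.S55.CycNF
import Fermat.Agent.S55.LocTransport

/-!
# S55: cyclic normal form of 2-cocycles, field form

For a finite Galois extension `L/k` with group `G`, an additive `χ : G → ZMod n` with
`χ σ = 1`, and a 2-cocycle `x : G × G → Lˣ` which is a coboundary on `ker χ`:
`x = loc_ucoc n χ b · dβ` with `b ∈ kˣ` (`cnf_normal_form_field`).  Hilbert 90 for
`L / L^{ker χ}` is discharged here.
-/

set_option autoImplicit false

namespace Fermat.Agent.S55

open CategoryTheory CategoryTheory.Limits groupCohomology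

section Field

variable {k L : Type} [Field k] [Field L] [Algebra k L] [FiniteDimensional k L]

/-- The kernel of an additive map `χ : G → ZMod n`, as a subgroup. -/
def cnf_ker {G : Type*} [Group G] {n : ℕ} (χ : G → ZMod n)
    (hχ : ∀ g h, χ (g * h) = χ g + χ h) : Subgroup G where
  carrier := {g | χ g = 0}
  mul_mem' := fun {a b} ha hb => by
    show χ (a * b) = 0
    rw [hχ, show χ a = 0 from ha, show χ b = 0 from hb, add_zero]
  one_mem' := loc_chi_one χ hχ
  inv_mem' := fun {a} ha => by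
    show χ a⁻¹ = 0
    rw [loc_chi_inv χ hχ, show χ a = 0 from ha, neg_zero]

theorem cnf_mem_ker {G : Type*} [Group G] {n : ℕ} (χ : G → ZMod n)
    (hχ : ∀ g h, χ (g * h) = χ g + χ h) (g : G) : g ∈ cnf_ker χ hχ ↔ χ g = 0 := Iff.rfl

instance cnf_ker_normal {G : Type*} [Group G] {n : ℕ} (χ : G → ZMod n)
    (hχ : ∀ g h, χ (g * h) = χ g + χ h) : (cnf_ker χ hχ).Normal where
  conj_mem := fun a ha g => by
    show χ (g * a * g⁻¹) = 0
    rw [hχ, hχ, loc_chi_inv χ hχ, show χ a = 0 from ha]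
    ring

/-- Hilbert 90 for a subgroup `H` of `Gal(L/k)` acting on `Lˣ`. -/
theorem cnf_isZero_H1_units (H : Subgroup (L ≃ₐ[k] L)) :
    IsZero (groupCohomology (Rep.res H.subtype (Rep.ofMulDistribMulAction (L ≃ₐ[k] L) Lˣ)) 1) := by
  refine IsZero.of_iso ?_ (loc_resIso H 1)
  have : Unique (groupCohomology.H1
      (Rep.ofAlgebraAutOnUnits (IntermediateField.fixedField H) L)) :=
    groupCohomology.H1ofAutOnUnitsUnique _ _
  exact ModuleCat.isZero_of_subsingleton _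

/-- **Cyclic normal form, field form.** -/
theorem cnf_normal_form_field [IsGalois k L] {n : ℕ} [NeZero n] (χ : (L ≃ₐ[k] L) → ZMod n)
    (hχ : ∀ g h, χ (g * h) = χ g + χ h) (σ : L ≃ₐ[k] L) (hσ : χ σ = 1)
    (x : (L ≃ₐ[k] L) × (L ≃ₐ[k] L) → Lˣ) (hx : IsMulCocycle₂ x)
    (hres : ∃ β₀ : (L ≃ₐ[k] L) → Lˣ, ∀ s t, χ s = 0 → χ t = 0 →
      x (s, t) = s • β₀ t / β₀ (s * t) * β₀ s) :
    ∃ (b : kˣ) (β : (L ≃ₐ[k] L) → Lˣ), ∀ g h, x (g, h) =
      loc_ucoc n χ (Units.map (algebraMap k L : k →* L) b) (g, h) *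
        (g • β h / β (g * h) * β g) := by
  obtain ⟨β₀, hβ₀⟩ := hres
  obtain ⟨b, β, hb, hxb⟩ := cnf_normal_form (cnf_ker χ hχ)
    (cnf_isZero_H1_units (cnf_ker χ hχ)) χ hχ (fun g => Iff.rfl) σ hσ x hx
    ⟨fun s => β₀ s, fun s t => (hβ₀ s t s.2 t.2).symm⟩
  -- `b` is fixed by the Galois group, hence lies in `k`
  have hbk : ((b : Lˣ) : L) ∈ Set.range (algebraMap k L) := by
    rw [IsGalois.mem_range_algebraMap_iff_fixed]
    intro f
    exact congrArg Units.val (hb f)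
  obtain ⟨b₀, hb₀⟩ := hbk
  have hb₀ne : b₀ ≠ 0 := by
    rintro rfl
    rw [map_zero] at hb₀
    exact b.ne_zero hb₀.symm
  refine ⟨Units.mk0 b₀ hb₀ne, β, fun g h => ?_⟩
  have hbb : Units.map (algebraMap k L : k →* L) (Units.mk0 b₀ hb₀ne) = b :=
    Units.ext hb₀
  rw [hbb]
  exact hxb g h

end Field

end Fermat.Agent.S55
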