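import Fermat.Agent.S14.DensityCore
import Fermat.Agent.S14.PrimeSums
import Fermat.Agent.S14.PrimeSumsPow

/-!
# S55 block DEN: non-residue primes for Kummer classes

`den_exists_nonres`: if `ζ_p ∈ F` and `e ∈ 𝓞 F` is not a `p`-th power in `F`, then outside any
finite set of primes there is a prime `v` of degree one, prime to `p` and to `e`, such that `e`
is not a `p`-th power residue modulo `v` (i.e. `v` does not split in `F(e^{1/p})`).

The proof compares the two prime sums of S14: `primeSum_ge` (primes of degree one have density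
one) and `primeSum_powRes_le` (the primes at which `e` is a `p`-th power residue have density at
most `1 / p`).
-/

set_option autoImplicit false

open NumberField IsDedekindDomain Filter Ideal Topology
open scoped nonZeroDivisors

namespace Fermat.Agent.S55

open Fermat.Agent.S14

section general

variable (F : Type) [Field F] [NumberField F]

/-- Only finitely many primes contain a given nonzero element. -/
theorem den_finite_primes_of_mem (e : 𝓞 F) (he : e ≠ 0) :
    {v : HeightOneSpectrum (𝓞 F) | e ∈ v.asIdeal}.Finite := by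
  have h0 : Ideal.span {e} ≠ 0 := by
    rw [Ideal.zero_eq_bot, Ne, Ideal.span_singleton_eq_bot]
    exact he
  refine (Ideal.finite_factors h0).subset (fun v hv => ?_)
  exact Ideal.dvd_span_singleton.mpr hv

/-- **Non-residue primes.** If `e` is not a `p`-th power in `F ∋ ζ_p`, then outside any finite
set `T` of primes there is a prime of degree one, not containing `p` or `e`, modulo which `e`
is not a `p`-th power. -/
theorem den_exists_nonres (p : ℕ) [Fact p.Prime] {ζ : F} (hζ : IsPrimitiveRoot ζ p) (e : 𝓞 F)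
    (he : ∀ c : F, (e : F) ≠ c ^ p) (T : Set (HeightOneSpectrum (𝓞 F))) (hT : T.Finite) :
    ∃ v : HeightOneSpectrum (𝓞 F), v ∉ T ∧ (Ideal.absNorm v.asIdeal).Prime ∧
      (p : 𝓞 F) ∉ v.asIdeal ∧ e ∉ v.asIdeal ∧ ¬ ∃ x : 𝓞 F, e - x ^ p ∈ v.asIdeal := by
  by_contra hcon
  push_neg at hcon
  have hp := (Fact.out : p.Prime)
  have hp0 : p ≠ 0 := hp.ne_zero
  have he0 : e ≠ 0 := by
    rintro rfl
    exact he 0 (by simp [hp0])
  obtain ⟨C₀, δ₀, hδ₀, hge⟩ := primeSum_ge F
  obtain ⟨C₂, δ₂, hδ₂, hpow⟩ := primeSum_powRes_le F p hζ e he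
  have hfin1 := density_finite_primes_over F p hp0
  have hfin2 := den_finite_primes_of_mem F e he0
  have hfinV : ({v : HeightOneSpectrum (𝓞 F) | (p : 𝓞 F) ∈ v.asIdeal} ∪
      {v : HeightOneSpectrum (𝓞 F) | e ∈ v.asIdeal}).Finite := hfin1.union hfin2
  set D : Set (HeightOneSpectrum (𝓞 F)) := {v | (Ideal.absNorm v.asIdeal).Prime} with hD
  set P : Set (HeightOneSpectrum (𝓞 F)) := {v | (p : 𝓞 F) ∉ v.asIdeal ∧ e ∉ v.asIdeal ∧
      ∃ x : 𝓞 F, e - x ^ p ∈ v.asIdeal} with hP
  set V : Set (HeightOneSpectrum (𝓞 F)) := {v | (p : 𝓞 F) ∈ v.asIdeal} ∪ {v | e ∈ v.asIdeal}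
    with hV
  have hsub : D ⊆ P ∪ T ∪ V := by
    intro v hv
    by_cases hvT : v ∈ T
    · exact Or.inl (Or.inr hvT)
    by_cases hpv : (p : 𝓞 F) ∈ v.asIdeal
    · exact Or.inr (Or.inl hpv)
    by_cases hev : e ∈ v.asIdeal
    · exact Or.inr (Or.inr hev)
    · exact Or.inl (Or.inl ⟨hpv, hev, hcon v hvT hv hpv hev⟩)
  set K : ℝ := (hT.toFinset.card : ℝ) + (hfinV.toFinset.card : ℝ) with hK
  set M : ℝ := C₀ + C₂ + K with hM
  set t : ℝ := min (min (δ₀ / 2) (δ₂ / 2)) (Real.exp (-(2 * |M| + 2))) with ht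
  have ht0 : 0 < t := by
    rw [ht]
    exact lt_min (lt_min (by linarith) (by linarith)) (Real.exp_pos _)
  have ht₀ : t < δ₀ := lt_of_le_of_lt ((min_le_left _ _).trans (min_le_left _ _)) (by linarith)
  have ht₂ : t < δ₂ := lt_of_le_of_lt ((min_le_left _ _).trans (min_le_right _ _)) (by linarith)
  have hte : t ≤ Real.exp (-(2 * |M| + 2)) := min_le_right _ _
  have hs1 : 1 < 1 + t := by linarith
  have h0 := hge (1 + t) hs1 (by linarith)
  have h2 := hpow (1 + t) hs1 (by linarith)
  have h3 := density_primeSum_finite_le F T hT (1 + t) (by linarith)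
  have h4 := density_primeSum_finite_le F V hfinV (1 + t) (by linarith)
  have hcov := density_primeSum_le_union F D P T V hsub (1 + t) hs1
  have hL : Real.log (1 / (1 + t - 1)) = -Real.log t := by
    rw [add_sub_cancel_left, one_div, Real.log_inv]
  rw [hL] at h0 h2
  have hlog : Real.log t ≤ -(2 * |M| + 2) := (Real.log_le_iff_le_exp ht0).mpr hte
  have hp2 : (1 : ℝ) / (p : ℝ) ≤ 1 / 2 :=
    one_div_le_one_div_of_le (by norm_num) (by exact_mod_cast hp.two_le)
  have hLpos : 0 ≤ -Real.log t := by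
    have := abs_nonneg M
    linarith
  have hmul : (1 / (p : ℝ)) * (-Real.log t) ≤ (1 / 2) * (-Real.log t) :=
    mul_le_mul_of_nonneg_right hp2 hLpos
  have hMabs : M ≤ |M| := le_abs_self M
  have hfinal : -Real.log t - C₀ ≤ (1 / 2) * (-Real.log t) + C₂ + K := by
    rw [hK]
    linarith
  have habs := abs_nonneg M
  rw [hM] at hMabs
  linarith

/-- Infinitely many non-residue primes. -/
theorem den_infinite_nonres (p : ℕ) [Fact p.Prime] {ζ : F} (hζ : IsPrimitiveRoot ζ p) (e : 𝓞 F)
    (he : ∀ c : F, (e : F) ≠ c ^ p) :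
    {v : HeightOneSpectrum (𝓞 F) | (Ideal.absNorm v.asIdeal).Prime ∧
      (p : 𝓞 F) ∉ v.asIdeal ∧ e ∉ v.asIdeal ∧ ¬ ∃ x : 𝓞 F, e - x ^ p ∈ v.asIdeal}.Infinite := by
  intro hfin
  obtain ⟨v, hvT, hv⟩ := den_exists_nonres F p hζ e he _ hfin
  exact hvT hv

end general

end Fermat.Agent.S55
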