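import Fermat.Agent.S55.Density

/-!
# S55 block DEN, part 2: separating primes for a finite-dimensional Kummer group

`den_exists_separating`: if `e_1, …, e_r ∈ 𝓞 F` are independent in `F^× / F^{×p}` (`ζ_p ∈ F`),
then outside any finite set of primes there are at most `r` primes `v` of degree one, prime to
`p` and to all `e_i`, such that an element `∏ e_i ^ a_i` which is a `p`-th power residue at all
of them has `a = 0`.  (So the Frobenius elements at these primes generate
`Gal (F(e_1^{1/p}, …, e_r^{1/p}) / F)`.)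
-/

set_option autoImplicit false

open NumberField IsDedekindDomain Ideal
open scoped nonZeroDivisors

namespace Fermat.Agent.S55

section greedy

variable {k E ι : Type*} [Field k] [AddCommGroup E] [Module k E] [FiniteDimensional k E]

/-- Greedy choice: if every nonzero vector is avoided by `R v` for some `v` outside any finite
set, then finitely many (at most `finrank`) of the `R v` intersect trivially. -/
theorem den_greedy_aux [DecidableEq ι] (R : ι → Submodule k E)
    (h : ∀ a : E, a ≠ 0 → ∀ T : Finset ι, ∃ v, v ∉ T ∧ a ∉ R v) :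
    ∀ (n : ℕ) (K : Submodule k E), Module.finrank k K ≤ n → ∀ T : Finset ι,
      ∃ s : Finset ι, Disjoint s T ∧ s.card ≤ n ∧ ∀ a ∈ K, (∀ v ∈ s, a ∈ R v) → a = 0 := by
  intro n
  induction n with
  | zero =>
    intro K hK T
    refine ⟨∅, Finset.disjoint_empty_left _, le_refl _, fun a ha _ => ?_⟩
    have hK0 : Module.finrank k K = 0 := Nat.le_zero.mp hK
    have : K = ⊥ := Submodule.finrank_eq_zero.mp hK0
    rw [this] at ha
    exact (Submodule.mem_bot k).mp ha
  | succ n ih =>
    intro K hK T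
    by_cases hKb : K = ⊥
    · refine ⟨∅, Finset.disjoint_empty_left _, Nat.zero_le _, fun a ha _ => ?_⟩
      rw [hKb] at ha
      exact (Submodule.mem_bot k).mp ha
    · obtain ⟨a, haK, ha0⟩ := Submodule.exists_mem_ne_zero_of_ne_bot hKb
      obtain ⟨v, hvT, hav⟩ := h a ha0 T
      have hlt : K ⊓ R v < K := by
        refine lt_of_le_of_ne inf_le_left (fun heq => hav ?_)
        have : a ∈ K ⊓ R v := by rw [heq]; exact haK
        exact this.2
      have hfr : Module.finrank k ↥(K ⊓ R v) ≤ n := by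
        have := Submodule.finrank_lt_finrank_of_lt hlt
        omega
      obtain ⟨s', hdisj, hcard, hs'⟩ := ih (K ⊓ R v) hfr (insert v T)
      have hvs' : v ∉ s' := fun hv =>
        Finset.disjoint_left.mp hdisj hv (Finset.mem_insert_self v T)
      refine ⟨insert v s', ?_, ?_, ?_⟩
      · rw [Finset.disjoint_insert_left]
        refine ⟨hvT, ?_⟩
        exact Finset.disjoint_of_subset_right (Finset.subset_insert v T) hdisj
      · rw [Finset.card_insert_of_notMem hvs']
        omega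
      · intro b hbK hb
        refine hs' b ⟨hbK, hb v (Finset.mem_insert_self v s')⟩ (fun w hw => ?_)
        exact hb w (Finset.mem_insert_of_mem hw)

theorem den_greedy [DecidableEq ι] (R : ι → Submodule k E)
    (h : ∀ a : E, a ≠ 0 → ∀ T : Finset ι, ∃ v, v ∉ T ∧ a ∉ R v) :
    ∃ s : Finset ι, s.card ≤ Module.finrank k E ∧ ∀ a : E, (∀ v ∈ s, a ∈ R v) → a = 0 := by
  obtain ⟨s, -, hcard, hs⟩ := den_greedy_aux R h (Module.finrank k E) ⊤
    (by rw [finrank_top]) ∅
  exact ⟨s, hcard, fun a ha => hs a Submodule.mem_top ha⟩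

end greedy

section general

variable (F : Type) [Field F] [NumberField F]

/-- The monomial `∏ e_i ^ a_i` with exponents the canonical representatives of `a_i ∈ ZMod p`. -/
noncomputable def denMon (p : ℕ) {r : ℕ} (e : Fin r → 𝓞 F) (a : Fin r → ZMod p) : 𝓞 F :=
  ∏ i, e i ^ (a i).val

/-- `y` is a `p`-th power residue modulo `v`. -/
def denRes (p : ℕ) (v : HeightOneSpectrum (𝓞 F)) (y : 𝓞 F) : Prop :=
  ∃ x : 𝓞 F, y - x ^ p ∈ v.asIdeal

variable {F}

theorem denRes_mul {p : ℕ} {v : HeightOneSpectrum (𝓞 F)} {y z : 𝓞 F}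
    (hy : denRes F p v y) (hz : denRes F p v z) : denRes F p v (y * z) := by
  obtain ⟨x, hx⟩ := hy
  obtain ⟨w, hw⟩ := hz
  refine ⟨x * w, ?_⟩
  have : y * z - (x * w) ^ p = (y - x ^ p) * z + x ^ p * (z - w ^ p) := by ring
  rw [this]
  exact v.asIdeal.add_mem (v.asIdeal.mul_mem_right _ hx) (v.asIdeal.mul_mem_left _ hw)

theorem denRes_pow_self {p : ℕ} (v : HeightOneSpectrum (𝓞 F)) (x : 𝓞 F) :
    denRes F p v (x ^ p) := ⟨x, by simp⟩

theorem denRes_congr {p : ℕ} {v : HeightOneSpectrum (𝓞 F)} {y z : 𝓞 F}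
    (h : y - z ∈ v.asIdeal) (hy : denRes F p v y) : denRes F p v z := by
  obtain ⟨x, hx⟩ := hy
  refine ⟨x, ?_⟩
  have : z - x ^ p = (y - x ^ p) - (y - z) := by ring
  rw [this]
  exact v.asIdeal.sub_mem hx h

/-- Cancellation: if `y * z ^ p` is a residue and `z ∉ v` then `y` is a residue. -/
theorem denRes_of_mul_pow {p : ℕ} {v : HeightOneSpectrum (𝓞 F)} {y z : 𝓞 F}
    (hz : z ∉ v.asIdeal) (h : denRes F p v (y * z ^ p)) : denRes F p v y := by
  haveI := v.isMaximal
  obtain ⟨z', hz'⟩ := Ideal.IsMaximal.exists_inv (I := v.asIdeal) v.isMaximal hz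
  obtain ⟨m, hm, hzz⟩ := hz'
  -- `z' * z + m = 1` with `m ∈ v`
  have h1 : z' * z - 1 ∈ v.asIdeal := by
    have : z' * z - 1 = -m := by rw [← hzz]; ring
    rw [this]
    exact v.asIdeal.neg_mem hm
  have h2 : (z' * z) ^ p - 1 ∈ v.asIdeal := by
    have hdvd : (z' * z - 1) ∣ ((z' * z) ^ p - 1 ^ p) := sub_dvd_pow_sub_pow _ _ p
    rw [one_pow] at hdvd
    exact Ideal.mem_of_dvd _ hdvd h1
  have h3 := denRes_mul h (denRes_pow_self (p := p) v z')
  refine denRes_congr ?_ h3
  have : y * z ^ p * z' ^ p - y = y * ((z' * z) ^ p - 1) := by ring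
  rw [this]
  exact v.asIdeal.mul_mem_left _ h2

theorem denMon_zero (p : ℕ) {r : ℕ} (e : Fin r → 𝓞 F) : denMon F p e 0 = 1 := by
  simp [denMon]

/-- `denMon a * denMon b = denMon (a + b) * z ^ p` with `z` a product of the `e i`. -/
theorem denMon_add (p : ℕ) [NeZero p] {r : ℕ} (e : Fin r → 𝓞 F) (a b : Fin r → ZMod p) :
    denMon F p e a * denMon F p e b =
      denMon F p e (a + b) * (∏ i, e i ^ (((a i).val + (b i).val) / p)) ^ p := by
  unfold denMon
  rw [← Finset.prod_mul_distrib, ← Finset.prod_pow, ← Finset.prod_mul_distrib]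
  refine Finset.prod_congr rfl (fun i _ => ?_)
  rw [← pow_add, ← pow_mul, ← pow_add, Pi.add_apply, ZMod.val_add]
  congr 1
  rw [mul_comm]
  exact (Nat.mod_add_div _ _).symm

theorem den_prod_notMem {r : ℕ} (e : Fin r → 𝓞 F) (v : HeightOneSpectrum (𝓞 F))
    (hv : ∀ i, e i ∉ v.asIdeal) (n : Fin r → ℕ) : (∏ i, e i ^ n i) ∉ v.asIdeal := by
  intro h
  haveI := v.isPrime
  obtain ⟨i, -, hi⟩ := (Ideal.IsPrime.prod_mem_iff (p := v.asIdeal)).mp h
  exact hv i (Ideal.IsPrime.mem_of_pow_mem v.isPrime _ hi)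

/-- The exponent vectors `a` for which `∏ e_i ^ a_i` is a `p`-th power residue at `v`, as an
additive submonoid. -/
noncomputable def denSubmonoid (p : ℕ) [Fact p.Prime] {r : ℕ} (e : Fin r → 𝓞 F)
    (v : HeightOneSpectrum (𝓞 F)) (hv : ∀ i, e i ∉ v.asIdeal) :
    AddSubmonoid (Fin r → ZMod p) :=
  haveI : NeZero p := ⟨(Fact.out : p.Prime).ne_zero⟩
  { carrier := {a | denRes F p v (denMon F p e a)}
    zero_mem' := by
      show denRes F p v (denMon F p e 0)
      rw [denMon_zero]
      exact ⟨1, by simp⟩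
    add_mem' := by
      intro a b ha hb
      have h := denRes_mul ha hb
      rw [denMon_add] at h
      exact denRes_of_mul_pow (den_prod_notMem e v hv _) h }

/-- The exponent vectors `a` for which `∏ e_i ^ a_i` is a `p`-th power residue at `v` form a
subspace. -/
noncomputable def denSub (p : ℕ) [Fact p.Prime] {r : ℕ} (e : Fin r → 𝓞 F)
    (v : HeightOneSpectrum (𝓞 F)) (hv : ∀ i, e i ∉ v.asIdeal) :
    Submodule (ZMod p) (Fin r → ZMod p) :=
  AddSubgroup.toZModSubmodule p
    { denSubmonoid p e v hv with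
      neg_mem' := by
        intro a ha
        have h1 : (p - 1) • a ∈ denSubmonoid p e v hv := AddSubmonoid.nsmul_mem _ ha _
        have h2 : (p - 1) • a = -a := by
          have hp1 : 1 ≤ p := (Fact.out : p.Prime).one_le
          have h3 : (p - 1) • a + a = 0 := by
            rw [← succ_nsmul, Nat.sub_add_cancel hp1]
            exact ZModModule.char_nsmul_eq_zero p a
          exact eq_neg_of_add_eq_zero_left h3
        rw [← h2]
        exact h1 }

theorem mem_denSub (p : ℕ) [Fact p.Prime] {r : ℕ} (e : Fin r → 𝓞 F)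
    (v : HeightOneSpectrum (𝓞 F)) (hv : ∀ i, e i ∉ v.asIdeal) (a : Fin r → ZMod p) :
    a ∈ denSub p e v hv ↔ denRes F p v (denMon F p e a) := Iff.rfl

variable (F)

/-- **Separating primes.** If `e_1, …, e_r` are independent in `F^× / F^{×p}`, then outside any
finite set `T` there is a set `s` of at most `r` primes of degree one, prime to `p` and to the
`e_i`, such that `∏ e_i ^ a_i` is a `p`-th power residue at all `v ∈ s` only for `a = 0`. -/
theorem den_exists_separating (p : ℕ) [Fact p.Prime] {ζ : F} (hζ : IsPrimitiveRoot ζ p)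
    (r : ℕ) (e : Fin r → 𝓞 F)
    (hind : ∀ a : Fin r → ZMod p, a ≠ 0 → ∀ c : F, ((denMon F p e a : 𝓞 F) : F) ≠ c ^ p)
    (T : Set (HeightOneSpectrum (𝓞 F))) (hT : T.Finite) :
    ∃ s : Finset (HeightOneSpectrum (𝓞 F)), s.card ≤ r ∧
      (∀ v ∈ s, v ∉ T ∧ (Ideal.absNorm v.asIdeal).Prime ∧ (p : 𝓞 F) ∉ v.asIdeal ∧
        ∀ i, e i ∉ v.asIdeal) ∧
      ∀ a : Fin r → ZMod p, (∀ v ∈ s, denRes F p v (denMon F p e a)) → a = 0 := by
  classical
  have hp := (Fact.out : p.Prime)
  haveI : NeZero p := ⟨hp.ne_zero⟩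
  -- the `e i` are nonzero
  have he0 : ∀ i, e i ≠ 0 := by
    intro i hi
    have hne : (Pi.single i (1 : ZMod p) : Fin r → ZMod p) ≠ 0 := by
      intro h
      have := congrFun h i
      simp at this
    refine hind _ hne 0 ?_
    have : denMon F p e (Pi.single i (1 : ZMod p)) = 0 := by
      unfold denMon
      refine Finset.prod_eq_zero (Finset.mem_univ i) ?_
      rw [hi, Pi.single_eq_same, ZMod.val_one_eq_one_mod]
      have : 1 % p = 1 := Nat.mod_eq_of_lt hp.one_lt
      rw [this, pow_one]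
    rw [this]
    simp [hp.ne_zero]
  -- the bad primes
  have hbad : {v : HeightOneSpectrum (𝓞 F) | ∃ i, e i ∈ v.asIdeal}.Finite := by
    have : {v : HeightOneSpectrum (𝓞 F) | ∃ i, e i ∈ v.asIdeal} =
        ⋃ i, {v : HeightOneSpectrum (𝓞 F) | e i ∈ v.asIdeal} := by
      ext v
      simp
    rw [this]
    exact Set.finite_iUnion (fun i => den_finite_primes_of_mem F (e i) (he0 i))
  -- the index type of good primes
  let ι : Type := {v : HeightOneSpectrum (𝓞 F) // v ∉ T ∧ (Ideal.absNorm v.asIdeal).Prime ∧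
    (p : 𝓞 F) ∉ v.asIdeal ∧ ∀ i, e i ∉ v.asIdeal}
  let R : ι → Submodule (ZMod p) (Fin r → ZMod p) := fun v => denSub p e v.1 v.2.2.2.2
  have hR : ∀ a : Fin r → ZMod p, a ≠ 0 → ∀ T' : Finset ι, ∃ v, v ∉ T' ∧ a ∉ R v := by
    intro a ha T'
    have hfin : (T ∪ {v : HeightOneSpectrum (𝓞 F) | ∃ i, e i ∈ v.asIdeal} ∪
        ((T'.image Subtype.val : Finset (HeightOneSpectrum (𝓞 F))) :
          Set (HeightOneSpectrum (𝓞 F)))).Finite :=
      (hT.union hbad).union (Finset.finite_toSet _)
    obtain ⟨v, hvT, hdeg, hpv, -, hnres⟩ :=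
      den_exists_nonres F p hζ (denMon F p e a) (hind a ha) _ hfin
    have hv1 : v ∉ T := fun h => hvT (Or.inl (Or.inl h))
    have hv2 : ∀ i, e i ∉ v.asIdeal := fun i h => hvT (Or.inl (Or.inr ⟨i, h⟩))
    refine ⟨⟨v, hv1, hdeg, hpv, hv2⟩, ?_, ?_⟩
    · intro hmem
      apply hvT
      refine Or.inr ?_
      rw [Finset.mem_coe, Finset.mem_image]
      exact ⟨_, hmem, rfl⟩
    · exact hnres
  obtain ⟨s, hcard, hs⟩ := den_greedy R hR
  refine ⟨s.image Subtype.val, ?_, ?_, ?_⟩
  · refine (Finset.card_image_le).trans ?_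
    refine hcard.trans ?_
    rw [Module.finrank_fin_fun]
  · intro v hv
    rw [Finset.mem_image] at hv
    obtain ⟨w, -, rfl⟩ := hv
    exact w.2
  · intro a ha
    refine hs a (fun w hw => ?_)
    exact ha w.1 (Finset.mem_image_of_mem _ hw)

end general

end Fermat.Agent.S55
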