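import Fermat.Agent.S55.IndBasic

/-!
# S55, block IND (module-theoretic dévissage), part 2: coinduced modules

For a subgroup `U ≤ Γ` and a `U`-representation `Y`, `Rep.coind U.subtype Y` is the `Γ`-module of
functions `f : Γ → Y` with `f (u g) = u f(g)`.

* `ind_coindMap_injective / _surjective / _exact`: coinduction is exact;
* `ind_coind_adm`: coinduction preserves admissibility;
* `ind_unit`, `ind_counit`, `ind_unit_counit`: `X` is a retract of `coind (res X)` when the index of
  `U` is prime to `p`.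
-/

set_option autoImplicit false

open CategoryTheory

namespace Fermat.Agent.S55

variable {Γ : Type} [Group Γ] {p : ℕ} [Fact p.Prime]

/-- Admissible modules: finite-dimensional, some level acts trivially. -/
def IndAdm (Lev : Set (Subgroup Γ)) (X : Rep.{0} (ZMod p) Γ) : Prop :=
  Module.Finite (ZMod p) X ∧ ∃ N ∈ Lev, ∀ n ∈ N, X.ρ n = 1

/-- The base modules of the dévissage: functions on `U \ Γ`. -/
noncomputable abbrev indBase (p : ℕ) [Fact p.Prime] (U : Subgroup Γ) : Rep.{0} (ZMod p) Γ :=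
  Rep.coind U.subtype (Rep.trivial (ZMod p) U (ZMod p))

section Exact

variable (U : Subgroup Γ) {A B C : Rep.{0} (ZMod p) U}

theorem ind_coindMap_apply (f : A ⟶ B) (x : Rep.coind U.subtype A) (g : Γ) :
    ((Rep.coindMap U.subtype f).hom x).1 g = f.hom (x.1 g) := rfl

theorem ind_coindMap_injective (f : A ⟶ B) (hf : Function.Injective f.hom) :
    Function.Injective (Rep.coindMap U.subtype f).hom := by
  intro x y hxy
  apply Subtype.ext
  funext g
  apply hf
  have := congrArg (fun z => z.1 g) hxy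
  simpa [ind_coindMap_apply] using this

theorem ind_coindMap_surjective (f : A ⟶ B) (hf : Function.Surjective f.hom) :
    Function.Surjective (Rep.coindMap U.subtype f).hom := by
  have h1 : Epi f := (Rep.epi_iff_surjective f).2 hf
  have h2 : Epi ((Rep.coindFunctor (ZMod p) U.subtype).map f) := inferInstance
  exact (Rep.epi_iff_surjective _).1 h2

theorem ind_coindMap_exact (i : A ⟶ B) (q : B ⟶ C) (hi : Function.Injective i.hom)
    (hex : Function.Exact i.hom q.hom) :
    Function.Exact (Rep.coindMap U.subtype i).hom (Rep.coindMap U.subtype q).hom := by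
  intro y
  constructor
  · intro hy
    have hy' : ∀ g : Γ, q.hom (y.1 g) = 0 := fun g => by
      have := congrArg (fun z => z.1 g) hy
      simpa [ind_coindMap_apply] using this
    have hx : ∀ g : Γ, ∃ a : A, i.hom a = y.1 g := fun g => (hex (y.1 g)).1 (hy' g)
    choose x hx using hx
    refine ⟨⟨x, ?_⟩, ?_⟩
    · intro u g
      apply hi
      rw [hx, y.2 u g, Rep.hom_comm_apply, hx]
    · apply Subtype.ext
      funext g
      rw [ind_coindMap_apply]
      exact hx g
  · rintro ⟨x, rfl⟩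
    apply Subtype.ext
    funext g
    rw [ind_coindMap_apply, ind_coindMap_apply]
    exact (hex _).2 ⟨x.1 g, rfl⟩

end Exact

section Adm

variable (U N : Subgroup Γ) [N.Normal] (Y : Rep.{0} (ZMod p) U)

/-- If `N ≤ U` is normal in `Γ` and acts trivially on `Y`, elements of the coinduced module are
right `N`-invariant functions. -/
theorem ind_coind_apply_mul_of_mem (hNU : N ≤ U)
    (htriv : ∀ u : U, (u : Γ) ∈ N → Y.ρ u = 1) (f : Rep.coind U.subtype Y) (g n : Γ)
    (hn : n ∈ N) : f.1 (g * n) = f.1 g := by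
  have hc : g * n * g⁻¹ ∈ N := ‹N.Normal›.conj_mem n hn g
  have h1 : g * n = (⟨g * n * g⁻¹, hNU hc⟩ : U).1 * g := by simp
  rw [h1]
  have h2 := f.2 (⟨g * n * g⁻¹, hNU hc⟩ : U) g
  simp only [Subgroup.subtype_apply] at h2
  rw [h2, htriv _ hc]
  rfl

/-- `N` acts trivially on the coinduced module. -/
theorem ind_coind_triv (hNU : N ≤ U)
    (htriv : ∀ u : U, (u : Γ) ∈ N → Y.ρ u = 1) (n : Γ) (hn : n ∈ N) :
    (Rep.coind U.subtype Y).ρ n = 1 := by
  apply LinearMap.ext
  intro f
  apply Subtype.ext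
  funext g
  exact ind_coind_apply_mul_of_mem U N Y hNU htriv f g n hn

/-- The coinduced module is finite-dimensional. -/
theorem ind_coind_finite [N.FiniteIndex] [Module.Finite (ZMod p) Y] (hNU : N ≤ U)
    (htriv : ∀ u : U, (u : Γ) ∈ N → Y.ρ u = 1) :
    Module.Finite (ZMod p) (Rep.coind U.subtype Y) := by
  classical
  have : Finite (Γ ⧸ N) := Subgroup.finite_quotient_of_finiteIndex
  let ev : (Rep.coind U.subtype Y) →ₗ[ZMod p] ((Γ ⧸ N) → Y) :=
    { toFun := fun f q => f.1 (Quotient.out q)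
      map_add' := fun f f' => rfl
      map_smul' := fun c f => rfl }
  have hinj : Function.Injective ev := by
    intro f f' hff
    apply Subtype.ext
    funext g
    have hq : (QuotientGroup.mk (Quotient.out (QuotientGroup.mk g : Γ ⧸ N)) : Γ ⧸ N) =
        QuotientGroup.mk g := Quotient.out_eq _
    have hmem : (Quotient.out (QuotientGroup.mk g : Γ ⧸ N))⁻¹ * g ∈ N :=
      QuotientGroup.eq.mp hq
    have hg : g = Quotient.out (QuotientGroup.mk g : Γ ⧸ N) *
        ((Quotient.out (QuotientGroup.mk g : Γ ⧸ N))⁻¹ * g) := by group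
    rw [hg, ind_coind_apply_mul_of_mem U N Y hNU htriv f _ _ hmem,
      ind_coind_apply_mul_of_mem U N Y hNU htriv f' _ _ hmem]
    exact congrFun hff (QuotientGroup.mk g)
  exact Module.Finite.of_injective ev hinj

theorem ind_coind_adm (Lev : Set (Subgroup Γ)) (hN : N ∈ Lev) [N.FiniteIndex]
    [Module.Finite (ZMod p) Y] (hNU : N ≤ U) (htriv : ∀ u : U, (u : Γ) ∈ N → Y.ρ u = 1) :
    IndAdm Lev (Rep.coind U.subtype Y) :=
  ⟨ind_coind_finite U N Y hNU htriv, N, hN, fun n hn => ind_coind_triv U N Y hNU htriv n hn⟩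

end Adm

section Retract

variable (U : Subgroup Γ) (X : Rep.{0} (ZMod p) Γ)

/-- The unit `X ⟶ coind (res X)`, `x ↦ (g ↦ g x)`. -/
noncomputable def indUnit : X ⟶ Rep.coind U.subtype (Rep.res U.subtype X) :=
  Rep.resCoindToHom U.subtype X (Rep.res U.subtype X) (𝟙 _)

theorem indUnit_apply (x : X) (g : Γ) : ((indUnit U X).hom x).1 g = X.ρ g x := rfl

/-- The summand of the counit attached to a coset representative. -/
theorem ind_counit_term (f : Rep.coind U.subtype (Rep.res U.subtype X)) (g : Γ) (u : U) :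
    X.ρ (g * u) (f.1 (g * u)⁻¹) = X.ρ g (f.1 g⁻¹) := by
  have h2 := f.2 u⁻¹ g⁻¹
  simp only [Subgroup.subtype_apply] at h2
  have h3 : ((u⁻¹ : U) : Γ) * g⁻¹ = (g * u)⁻¹ := by simp
  rw [h3] at h2
  rw [h2]
  change X.ρ (g * u) (X.ρ ((u⁻¹ : U) : Γ) (f.1 g⁻¹)) = _
  rw [← Module.End.mul_apply, ← map_mul]
  simp

variable [U.FiniteIndex]

/-- The (unnormalised) counit `coind (res X) → X`, `f ↦ ∑_{gU} g f(g⁻¹)`, as a linear map. -/
noncomputable def indCounitLin :
    (Rep.coind U.subtype (Rep.res U.subtype X)) →ₗ[ZMod p] X :=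
  letI : Fintype (Γ ⧸ U) := Fintype.ofFinite _
  ∑ q : Γ ⧸ U,
    { toFun := fun f => X.ρ (Quotient.out q) (f.1 (Quotient.out q)⁻¹)
      map_add' := fun f f' => by
        change X.ρ _ (f.1 _ + f'.1 _) = _
        rw [map_add]
      map_smul' := fun c f => by
        change X.ρ _ (c • f.1 _) = _
        rw [map_smul]
        rfl }

theorem indCounitLin_apply (f : Rep.coind U.subtype (Rep.res U.subtype X)) :
    letI : Fintype (Γ ⧸ U) := Fintype.ofFinite _
    indCounitLin U X f = ∑ q : Γ ⧸ U, X.ρ (Quotient.out q) (f.1 (Quotient.out q)⁻¹) := by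
  simp [indCounitLin, LinearMap.sum_apply]

omit [U.FiniteIndex] in
/-- The summand only depends on the coset. -/
theorem ind_counit_term_out (f : Rep.coind U.subtype (Rep.res U.subtype X)) (g : Γ) :
    X.ρ (Quotient.out (QuotientGroup.mk g : Γ ⧸ U))
        (f.1 (Quotient.out (QuotientGroup.mk g : Γ ⧸ U))⁻¹) = X.ρ g (f.1 g⁻¹) := by
  have hq : (QuotientGroup.mk (Quotient.out (QuotientGroup.mk g : Γ ⧸ U)) : Γ ⧸ U) =
      QuotientGroup.mk g := Quotient.out_eq _
  have hmem : g⁻¹ * (Quotient.out (QuotientGroup.mk g : Γ ⧸ U)) ∈ U :=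
    QuotientGroup.eq.mp hq.symm
  have hg : Quotient.out (QuotientGroup.mk g : Γ ⧸ U) =
      g * ((⟨g⁻¹ * (Quotient.out (QuotientGroup.mk g : Γ ⧸ U)), hmem⟩ : U) : Γ) := by
    simp
  rw [hg]
  exact ind_counit_term U X f g _

theorem indCounitLin_equivariant (γ : Γ) (f : Rep.coind U.subtype (Rep.res U.subtype X)) :
    indCounitLin U X ((Rep.coind U.subtype (Rep.res U.subtype X)).ρ γ f) =
      X.ρ γ (indCounitLin U X f) := by
  classical
  let _ : Fintype (Γ ⧸ U) := Fintype.ofFinite _
  rw [indCounitLin_apply, indCounitLin_apply, map_sum]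
  -- reindex by `q ↦ γ • q`
  rw [← Equiv.sum_comp (MulAction.toPerm γ : Equiv.Perm (Γ ⧸ U))
    (fun q => X.ρ (Quotient.out q)
      (((Rep.coind U.subtype (Rep.res U.subtype X)).ρ γ f).1 (Quotient.out q)⁻¹))]
  apply Finset.sum_congr rfl
  intro q _
  obtain ⟨g, rfl⟩ := QuotientGroup.mk_surjective q
  have h1 : (MulAction.toPerm γ : Equiv.Perm (Γ ⧸ U)) (QuotientGroup.mk g) =
      QuotientGroup.mk (γ * g) := rfl
  rw [h1, ind_counit_term_out U X _ (γ * g), ind_counit_term_out U X f g]
  change X.ρ (γ * g) (f.1 ((γ * g)⁻¹ * γ)) = X.ρ γ (X.ρ g (f.1 g⁻¹))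
  rw [← Module.End.mul_apply, ← map_mul]
  congr 2
  group

/-- The normalised counit `coind (res X) ⟶ X`. -/
noncomputable def indCounit : Rep.coind U.subtype (Rep.res U.subtype X) ⟶ X :=
  Rep.ofHom (X := (Rep.coind U.subtype (Rep.res U.subtype X)).V) (Y := X.V)
    (ρ := (Rep.coind U.subtype (Rep.res U.subtype X)).ρ) (σ := X.ρ)
    ⟨((U.index : ZMod p))⁻¹ • indCounitLin U X, fun γ => by
      apply LinearMap.ext
      intro f
      simp only [LinearMap.comp_apply, LinearMap.smul_apply, map_smul]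
      rw [indCounitLin_equivariant]⟩

theorem indCounit_apply (f : Rep.coind U.subtype (Rep.res U.subtype X)) :
    (indCounit U X).hom f = ((U.index : ZMod p))⁻¹ • indCounitLin U X f := rfl

/-- `X` is a retract of `coind (res X)` when the index of `U` is prime to `p`. -/
theorem ind_unit_counit (hU : ¬ p ∣ U.index) : indUnit U X ≫ indCounit U X = 𝟙 X := by
  classical
  let _ : Fintype (Γ ⧸ U) := Fintype.ofFinite _
  apply Rep.hom_ext
  apply Representation.IntertwiningMap.ext
  apply LinearMap.ext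
  intro x
  change (indCounit U X).hom ((indUnit U X).hom x) = x
  rw [indCounit_apply, indCounitLin_apply]
  have hterm : ∀ q : Γ ⧸ U,
      X.ρ (Quotient.out q) (((indUnit U X).hom x).1 (Quotient.out q)⁻¹) = x := by
    intro q
    rw [indUnit_apply, ← Module.End.mul_apply, ← map_mul]
    simp
  rw [Finset.sum_congr rfl (fun q _ => hterm q), Finset.sum_const, Finset.card_univ,
    ← Nat.card_eq_fintype_card, ← Subgroup.index_eq_card, ← Nat.cast_smul_eq_nsmul (ZMod p),
    smul_smul, inv_mul_cancel₀, one_smul]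
  rw [Ne, ZMod.natCast_eq_zero_iff]
  exact hU

end Retract

end Fermat.Agent.S55
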