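import Mathlib
import Fermat.Prelude.Def_GroupCohomology_Selmer
import Fermat.Agent.S55.IndCoind

/-!
# S55, block DUAL: the dual-twist functor `X ↦ X.dualTwist χ` on `Rep k Γ`

* `dual_map χ f : Y.dualTwist χ ⟶ X.dualTwist χ` for `f : X ⟶ Y` (transpose), functoriality;
* exactness: `dual_map_injective`, `dual_map_surjective`, `dual_map_exact`;
* `dual_adm`: the dual twist of an admissible module is admissible (if `χ` is trivial on a level);
* the evaluation pairings `dual_pair X : X →ₗ Dual X →ₗ k`, `dual_pairFlip`, equivariant for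
  `dual_rhoT χ` (the one-dimensional module `k(χ)`), adjointness with `dual_map`;
* the double dual: `dual_dd χ X : X ⟶ (X.dualTwist χ).dualTwist χ`, an isomorphism for
  finite-dimensional `X`, with inverse `dual_ddInv`.
-/

set_option autoImplicit false

open CategoryTheory

namespace Fermat.Agent.S55

variable {Γ : Type} [Group Γ] {k : Type} [Field k] (χ : Γ →* kˣ)

/-- The one-dimensional module `k(χ)`: target of the evaluation pairing. -/
def dual_rhoT : Representation k Γ k := (Representation.trivial k Γ k).twist χ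

theorem dual_rhoT_apply (g : Γ) (c : k) : dual_rhoT χ g c = (χ g : k) * c := rfl

section Map

variable {X Y Z : Rep.{0} k Γ}

theorem dual_rho_apply (X : Rep.{0} k Γ) (g : Γ) (φ : Module.Dual k X) (x : X) :
    (X.dualTwist χ).ρ g φ x = (χ g : k) * φ (X.ρ g⁻¹ x) := rfl

/-- The transpose of a morphism of representations. -/
noncomputable def dual_map (f : X ⟶ Y) : Y.dualTwist χ ⟶ X.dualTwist χ :=
  Rep.ofHom (X := Module.Dual k Y) (Y := Module.Dual k X)
    (ρ := Y.ρ.dual.twist χ) (σ := X.ρ.dual.twist χ)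
    ⟨f.hom.toLinearMap.dualMap, fun g => by
      apply LinearMap.ext
      intro φ
      apply LinearMap.ext
      intro x
      change (χ g : k) * φ (Y.ρ g⁻¹ (f.hom x)) = (χ g : k) * φ (f.hom (X.ρ g⁻¹ x))
      rw [Representation.IntertwiningMap.isIntertwining _ _ f.hom g⁻¹ x]⟩

theorem dual_map_apply (f : X ⟶ Y) (φ : Module.Dual k Y) (x : X) :
    (dual_map χ f).hom φ x = φ (f.hom x) := rfl

theorem dual_map_id (X : Rep.{0} k Γ) : dual_map χ (𝟙 X) = 𝟙 (X.dualTwist χ) := rfl

theorem dual_map_comp (f : X ⟶ Y) (g : Y ⟶ Z) :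
    dual_map χ (f ≫ g) = dual_map χ g ≫ dual_map χ f := rfl

theorem dual_map_add (f g : X ⟶ Y) : dual_map χ (f + g) = dual_map χ f + dual_map χ g := by
  apply Rep.hom_ext
  apply Representation.IntertwiningMap.ext
  apply LinearMap.ext
  intro φ
  apply LinearMap.ext
  intro x
  change φ (f.hom x + g.hom x) = φ (f.hom x) + φ (g.hom x)
  rw [map_add]

theorem dual_map_zero : dual_map χ (0 : X ⟶ Y) = 0 := by
  apply Rep.hom_ext
  apply Representation.IntertwiningMap.ext
  apply LinearMap.ext
  intro φ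
  apply LinearMap.ext
  intro x
  change φ 0 = 0
  rw [map_zero]

/-- The transpose of a surjection is injective. -/
theorem dual_map_injective (f : X ⟶ Y) (hf : Function.Surjective f.hom) :
    Function.Injective (dual_map χ f).hom := by
  intro φ ψ h
  apply LinearMap.ext
  intro y
  obtain ⟨x, rfl⟩ := hf y
  exact congrArg (fun θ : Module.Dual k X => θ x) h

/-- The transpose of an injection is surjective. -/
theorem dual_map_surjective (f : X ⟶ Y) (hf : Function.Injective f.hom) :
    Function.Surjective (dual_map χ f).hom := by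
  intro φ
  have hinj : Function.Injective f.hom.toLinearMap := hf
  obtain ⟨ψ, hψ⟩ := LinearMap.dualMap_surjective_of_injective hinj φ
  exact ⟨ψ, hψ⟩

/-- The dual of an exact sequence is exact. -/
theorem dual_map_exact (i : X ⟶ Y) (q : Y ⟶ Z) (hex : Function.Exact i.hom q.hom) :
    Function.Exact (dual_map χ q).hom (dual_map χ i).hom := by
  intro φ
  constructor
  · intro hφ
    -- `φ` vanishes on the range of `i`, which is the kernel of `q`
    have hker : LinearMap.ker q.hom.toLinearMap ≤ LinearMap.ker φ := by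
      intro y hy
      obtain ⟨x, rfl⟩ := (hex y).1 hy
      exact congrArg (fun θ : Module.Dual k X => θ x) hφ
    have hmem : φ ∈ (LinearMap.ker q.hom.toLinearMap).dualAnnihilator := by
      rw [Submodule.mem_dualAnnihilator]
      intro y hy
      exact hker hy
    rw [← LinearMap.range_dualMap_eq_dualAnnihilator_ker] at hmem
    obtain ⟨ψ, hψ⟩ := hmem
    exact ⟨ψ, hψ⟩
  · rintro ⟨ψ, rfl⟩
    apply LinearMap.ext
    intro x
    change ψ (q.hom (i.hom x)) = 0
    rw [(hex (i.hom x)).2 ⟨x, rfl⟩, map_zero]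

end Map

section Adm

variable {p : ℕ} [Fact p.Prime]

/-- The dual twist of an admissible module is admissible. -/
theorem dual_adm (χ : Γ →* (ZMod p)ˣ) (Lev : Set (Subgroup Γ))
    (hdir : ∀ N₁ ∈ Lev, ∀ N₂ ∈ Lev, ∃ N ∈ Lev, N ≤ N₁ ⊓ N₂)
    (hχ : ∃ N ∈ Lev, ∀ n ∈ N, χ n = 1) (X : Rep.{0} (ZMod p) Γ) (hX : IndAdm Lev X) :
    IndAdm Lev (X.dualTwist χ) := by
  obtain ⟨hfin, N₁, hN₁, h1⟩ := hX
  obtain ⟨N₂, hN₂, h2⟩ := hχ
  obtain ⟨N, hN, hNle⟩ := hdir N₁ hN₁ N₂ hN₂
  refine ⟨?_, N, hN, ?_⟩
  · change Module.Finite (ZMod p) (Module.Dual (ZMod p) X)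
    infer_instance
  · intro n hn
    apply LinearMap.ext
    intro φ
    apply LinearMap.ext
    intro x
    change ((χ n : (ZMod p)ˣ) : ZMod p) * φ (X.ρ n⁻¹ x) = φ x
    rw [h2 n (hNle hn).2, h1 n⁻¹ (N₁.inv_mem (hNle hn).1)]
    simp

end Adm

section Pairing

variable (X : Rep.{0} k Γ)

/-- The evaluation pairing `X × X' → k`. -/
def dual_pair : X →ₗ[k] Module.Dual k X →ₗ[k] k := Module.Dual.eval k X

/-- The evaluation pairing `X' × X → k`. -/
def dual_pairFlip : Module.Dual k X →ₗ[k] X →ₗ[k] k := LinearMap.id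

theorem dual_pair_apply (x : X) (φ : Module.Dual k X) : dual_pair X x φ = φ x := rfl

theorem dual_pairFlip_apply (x : X) (φ : Module.Dual k X) : dual_pairFlip X φ x = φ x := rfl

/-- The evaluation pairing is equivariant with values in `k(χ)`. -/
theorem dual_pair_equivariant (g : Γ) (x : X) (φ : Module.Dual k X) :
    dual_pair X (X.ρ g x) ((X.dualTwist χ).ρ g φ) = dual_rhoT χ g (dual_pair X x φ) := by
  change (χ g : k) * φ (X.ρ g⁻¹ (X.ρ g x)) = (χ g : k) * φ x
  have h : X.ρ g⁻¹ (X.ρ g x) = x := by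
    rw [← Module.End.mul_apply, ← map_mul, inv_mul_cancel, map_one, Module.End.one_apply]
  rw [h]

theorem dual_pairFlip_equivariant (g : Γ) (x : X) (φ : Module.Dual k X) :
    dual_pairFlip X ((X.dualTwist χ).ρ g φ) (X.ρ g x) = dual_rhoT χ g (dual_pairFlip X φ x) :=
  dual_pair_equivariant χ X g x φ

/-- Adjointness of a morphism and its transpose. -/
theorem dual_pair_map {X Y : Rep.{0} k Γ} (f : X ⟶ Y) (x : X) (φ : Module.Dual k Y) :
    dual_pair Y (f.hom x) φ = dual_pair X x ((dual_map χ f).hom φ) := rfl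

/-- The evaluation pairing is perfect on the right. -/
theorem dual_pair_eq_zero_right (φ : Module.Dual k X) (h : ∀ x, dual_pair X x φ = 0) : φ = 0 :=
  LinearMap.ext h

/-- The evaluation pairing is perfect on the left. -/
theorem dual_pair_eq_zero_left (x : X) (h : ∀ φ, dual_pair X x φ = 0) : x = 0 :=
  (Module.forall_dual_apply_eq_zero_iff k x).mp h

end Pairing

section DoubleDual

variable (X : Rep.{0} k Γ)

/-- The canonical map to the double dual twist, `x ↦ (φ ↦ φ x)`. -/
noncomputable def dual_dd : X ⟶ (X.dualTwist χ).dualTwist χ :=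
  Rep.ofHom (X := X.V) (Y := Module.Dual k (Module.Dual k X))
    (ρ := X.ρ) (σ := ((X.dualTwist χ).ρ).dual.twist χ)
    ⟨Module.Dual.eval k X, fun g => by
      apply LinearMap.ext
      intro x
      apply LinearMap.ext
      intro φ
      change φ (X.ρ g x) = (χ g : k) * ((χ g⁻¹ : k) * φ (X.ρ g⁻¹⁻¹ x))
      rw [inv_inv, ← mul_assoc, ← Units.val_mul, ← map_mul, mul_inv_cancel, map_one,
        Units.val_one, one_mul]⟩

theorem dual_dd_apply (x : X) (φ : Module.Dual k X) : (dual_dd χ X).hom x φ = φ x := rfl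

/-- The pairing of `X'` with `X''` restricted along `dual_dd` is the flipped pairing. -/
theorem dual_pair_dd (x : X) (φ : Module.Dual k X) :
    dual_pair (X.dualTwist χ) φ ((dual_dd χ X).hom x) = dual_pairFlip X φ x := rfl

theorem dual_dd_injective : Function.Injective (dual_dd χ X).hom := by
  intro x y hxy
  have h : ∀ φ : Module.Dual k X, φ (x - y) = 0 := by
    intro φ
    have := congrArg (fun θ : Module.Dual k (Module.Dual k X) => θ φ) hxy
    change φ x = φ y at this
    rw [map_sub, this, sub_self]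
  exact sub_eq_zero.mp ((Module.forall_dual_apply_eq_zero_iff k (x - y)).mp h)

theorem dual_dd_surjective [FiniteDimensional k X] : Function.Surjective (dual_dd χ X).hom := by
  intro θ
  obtain ⟨x, hx⟩ := (Module.bijective_dual_eval k X).2 θ
  exact ⟨x, hx⟩

/-- The inverse of `dual_dd` for finite-dimensional modules. -/
noncomputable def dual_ddInv [FiniteDimensional k X] : (X.dualTwist χ).dualTwist χ ⟶ X :=
  Rep.ofHom (X := Module.Dual k (Module.Dual k X)) (Y := X.V)
    (ρ := ((X.dualTwist χ).ρ).dual.twist χ) (σ := X.ρ)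
    ⟨((Module.evalEquiv k X).symm : Module.Dual k (Module.Dual k X) →ₗ[k] X), fun g => by
      apply LinearMap.ext
      intro θ
      obtain ⟨x, rfl⟩ := dual_dd_surjective χ X θ
      have h1 : (((X.dualTwist χ).ρ).dual.twist χ) g ((dual_dd χ X).hom x) =
          (dual_dd χ X).hom (X.ρ g x) :=
        (Representation.IntertwiningMap.isIntertwining _ _ (dual_dd χ X).hom g x).symm
      have h2 : ∀ y : X, (Module.evalEquiv k X).symm ((dual_dd χ X).hom y) = y := fun y =>
        (Module.evalEquiv k X).symm_apply_apply y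
      simp only [LinearMap.comp_apply, LinearEquiv.coe_coe]
      rw [h1, h2, h2]⟩

theorem dual_ddInv_dd [FiniteDimensional k X] (x : X) :
    (dual_ddInv χ X).hom ((dual_dd χ X).hom x) = x :=
  (Module.evalEquiv k X).symm_apply_apply x

theorem dual_dd_ddInv [FiniteDimensional k X] (θ : Module.Dual k (Module.Dual k X)) :
    (dual_dd χ X).hom ((dual_ddInv χ X).hom θ) = θ :=
  (Module.evalEquiv k X).apply_symm_apply θ

theorem dual_dd_comp_ddInv [FiniteDimensional k X] : dual_dd χ X ≫ dual_ddInv χ X = 𝟙 X := by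
  apply Rep.hom_ext
  apply Representation.IntertwiningMap.ext
  apply LinearMap.ext
  intro x
  exact dual_ddInv_dd χ X x

theorem dual_ddInv_comp_dd [FiniteDimensional k X] :
    dual_ddInv χ X ≫ dual_dd χ X = 𝟙 ((X.dualTwist χ).dualTwist χ) := by
  apply Rep.hom_ext
  apply Representation.IntertwiningMap.ext
  apply LinearMap.ext
  intro θ
  exact dual_dd_ddInv χ X θ

/-- The pairing of `X'` with `X''` in terms of the inverse of `dual_dd`. -/
theorem dual_pair_ddInv [FiniteDimensional k X] (φ : Module.Dual k X)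
    (θ : Module.Dual k (Module.Dual k X)) :
    dual_pairFlip X φ ((dual_ddInv χ X).hom θ) = dual_pair (X.dualTwist χ) φ θ := by
  obtain ⟨x, rfl⟩ := dual_dd_surjective χ X θ
  rw [dual_ddInv_dd]
  rfl

end DoubleDual

end Fermat.Agent.S55
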