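import Mathlib

/-!
# S55 endgame: existence of a nondegenerate pairing from equality of dimensions

The conclusion of S55 only asks for the *existence* of a bilinear pairing that is nondegenerate
on both sides.  For finite-dimensional spaces this is equivalent to equality of dimensions.
-/

set_option autoImplicit false

namespace Fermat.Agent.S55

open Module

/-- A linear equivalence `V ≃ Dual W` gives a pairing nondegenerate on both sides
(`W` finite-dimensional). -/
theorem exists_nondeg_pairing_of_equiv_dual {k V W : Type*} [Field k]
    [AddCommGroup V] [Module k V] [AddCommGroup W] [Module k W] [FiniteDimensional k W]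
    (e : V ≃ₗ[k] Module.Dual k W) :
    ∃ B : V →ₗ[k] W →ₗ[k] k,
      (∀ y, (∀ x, B y x = 0) → y = 0) ∧ (∀ x, (∀ y, B y x = 0) → x = 0) := by
  refine ⟨e.toLinearMap, ?_, ?_⟩
  · intro y hy
    have : e y = 0 := LinearMap.ext hy
    simpa using this
  · intro x hx
    by_contra hne
    obtain ⟨f, hf⟩ : ∃ f : Module.Dual k W, f x ≠ 0 := by
      by_contra hall
      push Not at hall
      exact hne ((Module.forall_dual_apply_eq_zero_iff k x).1 hall)
    apply hf
    have := hx (e.symm f)
    simpa using this

/-- Equal finite dimensions give a pairing nondegenerate on both sides. -/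
theorem exists_nondeg_pairing_of_finrank_eq {k V W : Type*} [Field k]
    [AddCommGroup V] [Module k V] [AddCommGroup W] [Module k W]
    [FiniteDimensional k V] [FiniteDimensional k W]
    (h : finrank k V = finrank k W) :
    ∃ B : V →ₗ[k] W →ₗ[k] k,
      (∀ y, (∀ x, B y x = 0) → y = 0) ∧ (∀ x, (∀ y, B y x = 0) → x = 0) := by
  have h' : finrank k V = finrank k (Module.Dual k W) := by
    rw [h, Subspace.dual_finrank_eq]
  exact exists_nondeg_pairing_of_equiv_dual (LinearEquiv.ofFinrankEq V (Module.Dual k W) h')

/-- Variant: a pairing that is nondegenerate on both sides, with one side finite-dimensional,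
exists as soon as there are injections in both directions into the duals
(given as two inequalities of dimensions). -/
theorem exists_nondeg_pairing_of_finrank_le_le {k V W : Type*} [Field k]
    [AddCommGroup V] [Module k V] [AddCommGroup W] [Module k W]
    [FiniteDimensional k V] [FiniteDimensional k W]
    (h₁ : finrank k V ≤ finrank k W) (h₂ : finrank k W ≤ finrank k V) :
    ∃ B : V →ₗ[k] W →ₗ[k] k,
      (∀ y, (∀ x, B y x = 0) → y = 0) ∧ (∀ x, (∀ y, B y x = 0) → x = 0) :=
  exists_nondeg_pairing_of_finrank_eq (le_antisymm h₁ h₂)

/-- If `V` injects into `Dual W` and `W` injects into `Dual V` with `W` finite-dimensional, then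
`V` is finite-dimensional as well and the dimensions agree. -/
theorem finrank_eq_of_injective_dual {k V W : Type*} [Field k]
    [AddCommGroup V] [Module k V] [AddCommGroup W] [Module k W]
    [FiniteDimensional k W]
    (f : V →ₗ[k] Module.Dual k W) (hf : Function.Injective f)
    (g : W →ₗ[k] Module.Dual k V) (hg : Function.Injective g) :
    FiniteDimensional k V ∧ finrank k V = finrank k W := by
  have : FiniteDimensional k V := FiniteDimensional.of_injective f hf
  refine ⟨inferInstance, le_antisymm ?_ ?_⟩
  · have := LinearMap.finrank_le_finrank_of_injective hf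
    rwa [Subspace.dual_finrank_eq] at this
  · have := LinearMap.finrank_le_finrank_of_injective hg
    rwa [Subspace.dual_finrank_eq] at this

end Fermat.Agent.S55
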