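import Mathlib

/-!
# Dirichlet's `S`-unit theorem (rank form)

For a number field `K` and a finite set `S` of primes of `𝓞 K`, the group of `S`-units
`(S : Set _).unit K` is finitely generated of rank `S.card + NumberField.Units.rank K`.

* `suOrd K v`: the `v`-adic order `Kˣ → ℤ` (as an additive map on `Additive Kˣ`).
* `su_valuation_eq_one_iff`: `x : Kˣ` is a unit at all primes iff it comes from `(𝓞 K)ˣ`.
* `su_exists_generator`: for every prime `v` there is `a ∈ 𝓞 K`, `a ≠ 0`, with `(a) = v ^ h`
  (`h` the class number).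
* `su_finrank`: the rank theorem.
-/

set_option autoImplicit false

namespace Fermat.Agent.S55

open IsDedekindDomain NumberField

open scoped nonZeroDivisors

section SUnit

variable (K : Type*) [Field K] [NumberField K]

/-- The `v`-adic order of a nonzero element of `K`. -/
noncomputable def suOrd (v : HeightOneSpectrum (𝓞 K)) : Additive Kˣ →+ ℤ where
  toFun x := WithZero.log (v.valuation K ((Additive.toMul x : Kˣ) : K))
  map_zero' := by simp
  map_add' x y := by
    change WithZero.log (v.valuation K ((Additive.toMul x * Additive.toMul y : Kˣ) : K)) = _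
    rw [Units.val_mul, map_mul, WithZero.log_mul
      ((Valuation.ne_zero_iff _).mpr (Units.ne_zero _))
      ((Valuation.ne_zero_iff _).mpr (Units.ne_zero _))]

theorem suOrd_apply (v : HeightOneSpectrum (𝓞 K)) (x : Kˣ) :
    suOrd K v (Additive.ofMul x) = WithZero.log (v.valuation K (x : K)) := rfl

theorem suOrd_eq_zero_iff (v : HeightOneSpectrum (𝓞 K)) (x : Kˣ) :
    suOrd K v (Additive.ofMul x) = 0 ↔ v.valuation K (x : K) = 1 := by
  rw [suOrd_apply]
  have hne : v.valuation K (x : K) ≠ 0 := (Valuation.ne_zero_iff _).mpr (Units.ne_zero _)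
  constructor
  · intro h
    rw [← WithZero.exp_log hne, h, WithZero.exp_zero]
  · intro h
    rw [h, WithZero.log_one]

/-- An element of `Kˣ` which is a unit at all primes comes from a unit of `𝓞 K`. -/
theorem su_valuation_eq_one_iff (x : Kˣ) :
    (∀ v : HeightOneSpectrum (𝓞 K), v.valuation K (x : K) = 1) ↔
      ∃ u : (𝓞 K)ˣ, algebraMap (𝓞 K) K (u : 𝓞 K) = (x : K) := by
  constructor
  · intro h
    obtain ⟨r, hr⟩ := HeightOneSpectrum.mem_integers_of_valuation_le_one K (x : K)
      (fun v => (h v).le)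
    obtain ⟨r', hr'⟩ := HeightOneSpectrum.mem_integers_of_valuation_le_one K ((x⁻¹ : Kˣ) : K)
      (fun v => by
        rw [Units.val_inv_eq_inv_val, map_inv₀, h v, inv_one])
    have h1 : r * r' = 1 := by
      apply FaithfulSMul.algebraMap_injective (𝓞 K) K
      rw [map_mul, map_one]
      have e1 : algebraMap (𝓞 K) K r = (x : K) := hr
      have e2 : algebraMap (𝓞 K) K r' = ((x⁻¹ : Kˣ) : K) := hr'
      rw [e1, e2, ← Units.val_mul, mul_inv_cancel, Units.val_one]
    exact ⟨⟨r, r', h1, by rw [mul_comm]; exact h1⟩, hr⟩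
  · rintro ⟨u, hu⟩ v
    rw [← hu, HeightOneSpectrum.valuation_of_algebraMap, HeightOneSpectrum.intValuation_eq_one_iff]
    intro hmem
    exact v.isPrime.ne_top (Ideal.eq_top_of_isUnit_mem _ hmem u.isUnit)

/-- For every prime `v`, the power `v ^ h` (`h` the class number) is principal, generated by an
element with valuation `exp (-h)` at `v` and `1` elsewhere. -/
theorem su_exists_generator (v : HeightOneSpectrum (𝓞 K)) :
    ∃ a : 𝓞 K, a ≠ 0 ∧
      v.intValuation a = WithZero.exp (-(Fintype.card (ClassGroup (𝓞 K)) : ℤ)) ∧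
      ∀ w : HeightOneSpectrum (𝓞 K), w ≠ v → w.intValuation a = 1 := by
  classical
  set h := Fintype.card (ClassGroup (𝓞 K)) with hh
  have hv0 : v.asIdeal ∈ (Ideal (𝓞 K))⁰ := mem_nonZeroDivisors_of_ne_zero v.ne_bot
  have hpow : v.asIdeal ^ h ∈ (Ideal (𝓞 K))⁰ := pow_mem hv0 h
  have h1 : ClassGroup.mk0 ⟨v.asIdeal ^ h, hpow⟩ = 1 := by
    have : (⟨v.asIdeal ^ h, hpow⟩ : (Ideal (𝓞 K))⁰) = ⟨v.asIdeal, hv0⟩ ^ h := rfl
    rw [this, map_pow, hh, pow_card_eq_one]
  rw [ClassGroup.mk0_eq_one_iff] at h1
  obtain ⟨a, ha⟩ := h1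
  have ha' : v.asIdeal ^ h = Ideal.span {a} := ha
  have ha0 : a ≠ 0 := by
    rintro rfl
    have : v.asIdeal ^ h = ⊥ := by rw [ha']; simp
    exact pow_ne_zero h v.ne_bot this
  have hamem : a ∈ v.asIdeal ^ h := by rw [ha']; exact Ideal.mem_span_singleton_self a
  refine ⟨a, ha0, ?_, ?_⟩
  · have hne : v.intValuation a ≠ 0 := v.intValuation_ne_zero a ha0
    have hle : v.intValuation a ≤ WithZero.exp (-(h : ℤ)) :=
      (v.intValuation_le_pow_iff_mem a h).mpr hamem
    have hnle : ¬ v.intValuation a ≤ WithZero.exp (-((h + 1 : ℕ) : ℤ)) := by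
      intro hcon
      have hmem := (v.intValuation_le_pow_iff_mem a (h + 1)).mp hcon
      have hsub : v.asIdeal ^ h ≤ v.asIdeal ^ (h + 1) := by
        rw [ha', Ideal.span_singleton_le_iff_mem]
        exact hmem
      exact absurd hsub (not_le_of_gt (Ideal.pow_succ_lt_pow v.ne_bot h))
    rw [← WithZero.exp_log hne] at hle hnle ⊢
    rw [WithZero.exp_le_exp] at hle hnle
    rw [WithZero.exp_inj]
    push_cast at hnle
    omega
  · intro w hw
    rw [HeightOneSpectrum.intValuation_eq_one_iff]
    intro hmem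
    have hsub : v.asIdeal ^ h ≤ w.asIdeal := by
      rw [ha', Ideal.span_singleton_le_iff_mem]
      exact hmem
    have hle : v.asIdeal ≤ w.asIdeal := Ideal.IsPrime.le_of_pow_le hsub
    have heq : v.asIdeal = w.asIdeal := v.isMaximal.eq_of_le w.isPrime.ne_top hle
    exact hw (HeightOneSpectrum.ext heq.symm)

end SUnit

section Rank

variable (K : Type*) [Field K] [NumberField K] (S : Finset (HeightOneSpectrum (𝓞 K)))

/-- The order map from the `S`-units to `ℤ^S`. -/
noncomputable def suOrdS :
    Additive ((S : Set (HeightOneSpectrum (𝓞 K))).unit K) →+ (S → ℤ) :=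
  (AddMonoidHom.pi (fun v : S => suOrd K v.1)).comp
    (MonoidHom.toAdditive (Subgroup.subtype ((S : Set (HeightOneSpectrum (𝓞 K))).unit K)))

theorem suOrdS_apply (x : (S : Set (HeightOneSpectrum (𝓞 K))).unit K) (v : S) :
    suOrdS K S (Additive.ofMul x) v = suOrd K v.1 (Additive.ofMul (x : Kˣ)) := rfl

/-- The inclusion of the units of `𝓞 K` into the `S`-units. -/
noncomputable def suUnitsHom : (𝓞 K)ˣ →* ((S : Set (HeightOneSpectrum (𝓞 K))).unit K) :=
  MonoidHom.codRestrict (Units.map (algebraMap (𝓞 K) K : 𝓞 K →* K)) _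
    (fun u v _ => ((su_valuation_eq_one_iff K _).mpr ⟨u, rfl⟩) v)

theorem suUnitsHom_apply (u : (𝓞 K)ˣ) :
    (((suUnitsHom K S u : (S : Set (HeightOneSpectrum (𝓞 K))).unit K) : Kˣ) : K) =
      algebraMap (𝓞 K) K (u : 𝓞 K) := rfl

theorem suUnitsHom_injective : Function.Injective (suUnitsHom K S) := by
  intro u u' h
  have h' : algebraMap (𝓞 K) K (u : 𝓞 K) = algebraMap (𝓞 K) K (u' : 𝓞 K) := by
    rw [← suUnitsHom_apply K S u, ← suUnitsHom_apply K S u', h]
  exact Units.ext (FaithfulSMul.algebraMap_injective (𝓞 K) K h')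

/-- The kernel of the order map is the image of the units of `𝓞 K`. -/
theorem suOrdS_ker :
    (suOrdS K S).ker = (MonoidHom.toAdditive (suUnitsHom K S)).range := by
  ext x
  obtain ⟨x, rfl⟩ := Additive.ofMul.surjective x
  rw [AddMonoidHom.mem_ker, AddMonoidHom.mem_range]
  constructor
  · intro hx
    have hall : ∀ v : HeightOneSpectrum (𝓞 K), v.valuation K ((x : Kˣ) : K) = 1 := by
      intro v
      by_cases hv : v ∈ S
      · have := congrFun hx ⟨v, hv⟩
        rw [suOrdS_apply] at this
        exact (suOrd_eq_zero_iff K v _).mp this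
      · exact x.2 v (by simpa using hv)
    obtain ⟨u, hu⟩ := (su_valuation_eq_one_iff K _).mp hall
    refine ⟨Additive.ofMul u, ?_⟩
    change Additive.ofMul (suUnitsHom K S u) = Additive.ofMul x
    congr 1
    apply Subtype.ext
    apply Units.ext
    rw [suUnitsHom_apply, hu]
  · rintro ⟨u, rfl⟩
    obtain ⟨u, rfl⟩ := Additive.ofMul.surjective u
    ext v
    change suOrdS K S (Additive.ofMul (suUnitsHom K S u)) v = 0
    rw [suOrdS_apply, suOrd_eq_zero_iff]
    exact ((su_valuation_eq_one_iff K _).mpr ⟨u, rfl⟩) v.1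

/-- `-h • e_v` lies in the image of the order map, `h` the class number. -/
theorem suOrdS_exists (v : S) :
    ∃ x : (S : Set (HeightOneSpectrum (𝓞 K))).unit K,
      suOrdS K S (Additive.ofMul x) v = -(Fintype.card (ClassGroup (𝓞 K)) : ℤ) ∧
      ∀ w : S, w ≠ v → suOrdS K S (Additive.ofMul x) w = 0 := by
  obtain ⟨a, ha0, hav, haw⟩ := su_exists_generator K v.1
  have hne : algebraMap (𝓞 K) K a ≠ 0 := by
    rw [Ne, FaithfulSMul.algebraMap_eq_zero_iff]
    exact ha0
  have hmem : Units.mk0 (algebraMap (𝓞 K) K a) hne ∈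
      (S : Set (HeightOneSpectrum (𝓞 K))).unit K := by
    intro w hw
    rw [Units.val_mk0, HeightOneSpectrum.valuation_of_algebraMap]
    apply haw
    rintro rfl
    exact hw v.2
  refine ⟨⟨_, hmem⟩, ?_, ?_⟩
  · rw [suOrdS_apply, suOrd_apply]
    change WithZero.log (v.1.valuation K (algebraMap (𝓞 K) K a)) = _
    rw [HeightOneSpectrum.valuation_of_algebraMap, hav, WithZero.log_exp]
  · intro w hwv
    rw [suOrdS_apply, suOrd_apply]
    change WithZero.log (w.1.valuation K (algebraMap (𝓞 K) K a)) = _
    rw [HeightOneSpectrum.valuation_of_algebraMap, haw w.1 (fun h => hwv (Subtype.ext h)),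
      WithZero.log_one]

/-- **Dirichlet's `S`-unit theorem**: the group of `S`-units is finitely generated of rank
`#S + rank (𝓞 K)ˣ`. -/
theorem su_finrank :
    Module.Finite ℤ (Additive ((S : Set (HeightOneSpectrum (𝓞 K))).unit K)) ∧
      Module.finrank ℤ (Additive ((S : Set (HeightOneSpectrum (𝓞 K))).unit K)) =
        S.card + NumberField.Units.rank K := by
  classical
  set M := Additive ((S : Set (HeightOneSpectrum (𝓞 K))).unit K) with hM
  let f : M →ₗ[ℤ] (S → ℤ) := (suOrdS K S).toIntLinearMap
  let g : Additive (𝓞 K)ˣ →ₗ[ℤ] M := (MonoidHom.toAdditive (suUnitsHom K S)).toIntLinearMap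
  have hg : Function.Injective g := fun u u' h => by
    obtain ⟨u, rfl⟩ := Additive.ofMul.surjective u
    obtain ⟨u', rfl⟩ := Additive.ofMul.surjective u'
    have : suUnitsHom K S u = suUnitsHom K S u' := Additive.ofMul.injective h
    rw [suUnitsHom_injective K S this]
  have hker : LinearMap.ker f = LinearMap.range g := by
    ext x
    rw [LinearMap.mem_ker, LinearMap.mem_range]
    have := congrArg (fun H : AddSubgroup M => x ∈ H) (suOrdS_ker K S)
    simp only [AddMonoidHom.mem_ker, AddMonoidHom.mem_range] at this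
    exact Iff.of_eq this
  -- the kernel
  let eker : Additive (𝓞 K)ˣ ≃ₗ[ℤ] LinearMap.ker f :=
    (LinearEquiv.ofInjective g hg).trans (LinearEquiv.ofEq _ _ hker.symm)
  have hfinker : Module.Finite ℤ (LinearMap.ker f) := Module.Finite.equiv eker
  have hrankker : Module.finrank ℤ (LinearMap.ker f) = NumberField.Units.rank K := by
    rw [← LinearEquiv.finrank_eq eker, NumberField.Units.finrank_eq]
  -- the range
  have hfinrange : Module.Finite ℤ (LinearMap.range f) := inferInstance
  have hfinquot : Module.Finite ℤ (M ⧸ LinearMap.ker f) :=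
    Module.Finite.equiv f.quotKerEquivRange.symm
  have hfin : Module.Finite ℤ M := Module.Finite.of_submodule_quotient (LinearMap.ker f)
  refine ⟨hfin, ?_⟩
  set h : ℤ := -(Fintype.card (ClassGroup (𝓞 K)) : ℤ) with hh
  have hh0 : h ≠ 0 := by
    rw [hh, neg_ne_zero, Int.natCast_ne_zero]
    exact Fintype.card_ne_zero
  have hmemrange : ∀ c : S → ℤ, h • c ∈ LinearMap.range f := by
    intro c
    have hc : c = ∑ v, c v • (Pi.single v 1 : S → ℤ) := by
      ext w
      simp [Finset.sum_apply, Pi.single_apply]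
    rw [hc, Finset.smul_sum]
    refine Submodule.sum_mem _ (fun v _ => ?_)
    rw [smul_comm]
    refine Submodule.smul_mem _ _ ?_
    obtain ⟨x, hx1, hx2⟩ := suOrdS_exists K S v
    refine ⟨Additive.ofMul x, ?_⟩
    ext w
    change suOrdS K S (Additive.ofMul x) w = _
    rw [Pi.smul_apply]
    by_cases hwv : w = v
    · subst hwv
      rw [hx1, Pi.single_eq_same, smul_eq_mul, mul_one]
    · rw [hx2 w hwv, Pi.single_eq_of_ne hwv, smul_zero]
  let φ : (S → ℤ) →ₗ[ℤ] LinearMap.range f :=
    LinearMap.codRestrict (LinearMap.range f) (h • LinearMap.id) hmemrange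
  have hφ : Function.Injective φ := by
    intro c c' hcc
    have h1 : h • c = h • c' := congrArg Subtype.val hcc
    exact smul_right_injective _ hh0 h1
  have hrankrange : Module.finrank ℤ (LinearMap.range f) = S.card := by
    apply le_antisymm
    · have := Submodule.finrank_le (LinearMap.range f)
      rwa [Module.finrank_pi, Fintype.card_coe] at this
    · have := LinearMap.finrank_le_finrank_of_injective hφ
      rwa [Module.finrank_pi, Fintype.card_coe] at this
  have hsum := Submodule.finrank_quotient_add_finrank (LinearMap.ker f)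
  rw [LinearEquiv.finrank_eq f.quotKerEquivRange, hrankrange, hrankker] at hsum
  exact hsum.symm

end Rank

end Fermat.Agent.S55
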