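import Fermat.Agent.S55.KumDep
import Fermat.Agent.S55.Density
import Fermat.Agent.S55.SUnitRank

/-!
# S55 block [G4a] (EV): the arithmetic choices

* `ev_exists_integer` : every `e₀ ∈ Fˣ` is an algebraic integer times a `p`-th power.
* `ev_arith` : for `e ∈ 𝓞 F` not a `p`-th power (`ζ_p ∈ F`) and a finite set `T` of primes there
  are a prime `v ∉ T` prime to `p` and `e` modulo which `e` is not a `p`-th power, an element `α`
  with `(α) = v ^ (p ^ m * h)`, `p ∤ h`, and a uniformizer `π` at `v`.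
-/

set_option autoImplicit false

namespace Fermat.Agent.S55

open IsDedekindDomain NumberField WithZero

/-- Every unit of a number field is an algebraic integer times a `p`-th power. -/
theorem ev_exists_integer (F : Type*) [Field F] [NumberField F] (p : ℕ) (hp : p ≠ 0) (e₀ : Fˣ) :
    ∃ (e : 𝓞 F) (b : Fˣ), (e : F) = (e₀ : F) * (b : F) ^ p := by
  obtain ⟨d, n, hn⟩ := IsLocalization.exists_integer_multiple (nonZeroDivisors (𝓞 F)) (e₀ : F)
  have hd0 : ((d : 𝓞 F) : F) ≠ 0 := by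
    have h1 : (d : 𝓞 F) ≠ 0 := nonZeroDivisors.coe_ne_zero d
    exact fun h => h1 (by exact_mod_cast h)
  refine ⟨n * (d : 𝓞 F) ^ (p - 1), Units.mk0 _ hd0, ?_⟩
  have h2 : ((n : 𝓞 F) : F) = ((d : 𝓞 F) : F) * (e₀ : F) := by
    rw [← Algebra.smul_def]
    exact hn
  have h3 : ((d : 𝓞 F) : F) ^ p = ((d : 𝓞 F) : F) * ((d : 𝓞 F) : F) ^ (p - 1) := by
    rw [← pow_succ', Nat.sub_add_cancel (Nat.pos_of_ne_zero hp)]
  push_cast
  rw [Units.val_mk0, h3]
  have h4 : (algebraMap (𝓞 F) F) n = ((d : 𝓞 F) : F) * (e₀ : F) := h2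
  calc (algebraMap (𝓞 F) F) n * ((d : 𝓞 F) : F) ^ (p - 1)
      = ((d : 𝓞 F) : F) * (e₀ : F) * ((d : 𝓞 F) : F) ^ (p - 1) := by rw [h4]
    _ = (e₀ : F) * (((d : 𝓞 F) : F) * ((d : 𝓞 F) : F) ^ (p - 1)) := by ring

/-- **The arithmetic choices for the evaluation class.** -/
theorem ev_arith (F : Type) [Field F] [NumberField F] (p : ℕ) [Fact p.Prime] {ζ : F}
    (hζ : IsPrimitiveRoot ζ p) (e : 𝓞 F) (he : ∀ c : F, (e : F) ≠ c ^ p)
    (T : Finset (HeightOneSpectrum (𝓞 F))) :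
    ∃ (v : HeightOneSpectrum (𝓞 F)) (α π : F) (m h : ℕ),
      v ∉ T ∧ (p : 𝓞 F) ∉ v.asIdeal ∧ e ∉ v.asIdeal ∧ (¬ ∃ x : 𝓞 F, e - x ^ p ∈ v.asIdeal) ∧
      α ≠ 0 ∧ ¬ p ∣ h ∧ v.valuation F α = exp (-((p ^ m * h : ℕ) : ℤ)) ∧
      (∀ w : HeightOneSpectrum (𝓞 F), w ≠ v → w.valuation F α = 1) ∧
      v.valuation F π = exp (-1 : ℤ) := by
  have hp := (Fact.out : p.Prime)
  obtain ⟨v, hvT, -, hpv, hev, hres⟩ := den_exists_nonres F p hζ e he (T : Set _) T.finite_toSet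
  obtain ⟨a, ha0, hav, haw⟩ := su_exists_generator F v
  obtain ⟨π, hπ⟩ := v.valuation_exists_uniformizer F
  have hcl : Fintype.card (ClassGroup (𝓞 F)) ≠ 0 := Fintype.card_ne_zero
  obtain ⟨m, h, hh, hmh⟩ := Nat.exists_eq_pow_mul_and_not_dvd hcl p hp.ne_one
  refine ⟨v, (a : F), π, m, h, by simpa using hvT, hpv, hev, hres, ?_, hh, ?_, ?_, hπ⟩
  · exact fun h0 => ha0 (by exact_mod_cast h0)
  · rw [HeightOneSpectrum.valuation_of_algebraMap, hav, hmh]
  · intro w hw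
    rw [HeightOneSpectrum.valuation_of_algebraMap, haw w hw]

end Fermat.Agent.S55
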