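import Fermat.Agent.S55.LocKumOut
import Fermat.Agent.S55.EvG4a

/-!
# S55: the tame formula `ev_LC6` from `[LC3]` at the outside places of `U`

`lkc_ev_LC6` : the hypothesis `ev_LC6 p S k ΔO hU invW` of `ev_hG4a` (EvG4a.lean) holds for every
family of functionals `invW` on the level 2-cochains at the outside places of
`U = k.fixingSubgroup` which detect coboundaries among cocycles (`[LC3]` at the outside places).
-/

set_option autoImplicit false

open ExtCitation IsDedekindDomain NumberField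

namespace Fermat.Agent.S55

local notation "Qb" => AlgebraicClosure ℚ
local notation "Γ" => (AlgebraicClosure ℚ ≃ₐ[ℚ] AlgebraicClosure ℚ)

/-- **`ev_LC6` from `[LC3]`** at the outside places of `U = k.fixingSubgroup`. -/
theorem lkc_ev_LC6 (p : ℕ) [Fact p.Prime] (hp2 : p ≠ 2) (S : Finset Nat.Primes)
    (hpS : pPrime p ∈ S) (k : IntermediateField ℚ Qb) [NumberField k] {ζ : Qb}
    (hζ : IsPrimitiveRoot ζ p) (hζk : ζ ∈ k) {WO : (tri_out S).W → Type}
    (ΔO : ∀ w, ShlDec ((tri_out S).ι w) k.fixingSubgroup (WO w))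
    (hU : k.fixingSubgroup ≤ (cycloChar p).ker)
    (invW : ∀ w : (ev_outU (tri_out S) k.fixingSubgroup ΔO).W,
      hc_C2 ((ev_outU (tri_out S) k.fixingSubgroup ΔO).LW w)
        ((idual_rhoN (cycloChar p) k.fixingSubgroup).comp
          ((ev_outU (tri_out S) k.fixingSubgroup ΔO).ι w)) →ₗ[ZMod p] ZMod p)
    (hLC3W : ∀ (w : (ev_outU (tri_out S) k.fixingSubgroup ΔO).W)
      (x : hc_C2 ((ev_outU (tri_out S) k.fixingSubgroup ΔO).LW w)
        ((idual_rhoN (cycloChar p) k.fixingSubgroup).comp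
          ((ev_outU (tri_out S) k.fixingSubgroup ΔO).ι w))),
      hc_d23 ((ev_outU (tri_out S) k.fixingSubgroup ΔO).LW w)
        ((idual_rhoN (cycloChar p) k.fixingSubgroup).comp
          ((ev_outU (tri_out S) k.fixingSubgroup ΔO).ι w)) x = 0 → invW w x = 0 →
      x ∈ LinearMap.range (hc_d12 ((ev_outU (tri_out S) k.fixingSubgroup ΔO).LW w)
        ((idual_rhoN (cycloChar p) k.fixingSubgroup).comp
          ((ev_outU (tri_out S) k.fixingSubgroup ΔO).ι w)))) :
    ev_LC6 p S k ΔO hU invW := by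
  intro w ψ χ0 hψ hχ0 hψI hχI hne
  exact lkc_tame_invW p hp2 S hpS k.fixingSubgroup k rfl hζ hζk ΔO
    (idual_rhoN (cycloChar p) k.fixingSubgroup)
    (pt_hφ_triv (cycloChar p) k.fixingSubgroup hU) w (invW w) (hLC3W w) ψ χ0 hψ hχ0 hψI hχI hne

end Fermat.Agent.S55
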