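import Fermat.Agent.S55.EvG4a
import Fermat.Agent.S55.EvLocalAsm
import Fermat.Agent.S55.LocKumEv

/-!
# S55 block [G4a] (EV): the final form

`ev_hG4a_final` : the input `hG4a` of `bi_inputs` (BaseInst.lean) for `U = k.fixingSubgroup` and
the outside data `ev_outU (tri_out S) U ΔO`, for any family of outside functionals `invW` which
is injective on the local `H²` (`[LC3]` at the outside places of `U`).  All other inputs are
discharged: the local inputs (EV1), (EV2) (`EvLocalAsm.lean`) and the tame formula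
(`lkc_ev_LC6`, `LocKumEv.lean`).
-/

set_option autoImplicit false
set_option linter.unusedSectionVars false

namespace Fermat.Agent.S55

open ExtCitation IsDedekindDomain NumberField

local notation "Qb" => AlgebraicClosure ℚ
local notation "Γ" => (AlgebraicClosure ℚ ≃ₐ[ℚ] AlgebraicClosure ℚ)

section main

variable (p : ℕ) [Fact p.Prime] (S : Finset Nat.Primes) (k : IntermediateField ℚ Qb)
  [NumberField k] {WO : (tri_out S).W → Type}
  (ΔO : ∀ w, ShlDec ((tri_out S).ι w) k.fixingSubgroup (WO w))

/-- **[G4a] at the `U`-level, final form** (the input `hG4a` of `bi_inputs`). -/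
theorem ev_hG4a_final (hp2 : p ≠ 2) (hpS : pPrime p ∈ S) (hk : k.IsUnramifiedOutside S)
    {ζ : Qb} (hζ : IsPrimitiveRoot ζ p) (hζk : ζ ∈ k)
    (hU : k.fixingSubgroup ≤ (cycloChar p).ker)
    (hL : ∀ N ∈ (shapLevSub (pt_globalLev S) k.fixingSubgroup).S,
      ∃ N' ∈ (shapLevSub tr_fullLev k.fixingSubgroup).S, N' ≤ N)
    (invW : ∀ w : (ev_outU (tri_out S) k.fixingSubgroup ΔO).W,
      hc_C2 ((ev_outU (tri_out S) k.fixingSubgroup ΔO).LW w)
        ((idual_rhoN (cycloChar p) k.fixingSubgroup).comp
          ((ev_outU (tri_out S) k.fixingSubgroup ΔO).ι w)) →ₗ[ZMod p] ZMod p)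
    (hLC3W : ∀ (w : (ev_outU (tri_out S) k.fixingSubgroup ΔO).W)
      (x : hc_C2 ((ev_outU (tri_out S) k.fixingSubgroup ΔO).LW w)
        ((idual_rhoN (cycloChar p) k.fixingSubgroup).comp
          ((ev_outU (tri_out S) k.fixingSubgroup ΔO).ι w))),
      hc_d23 ((ev_outU (tri_out S) k.fixingSubgroup ΔO).LW w)
        ((idual_rhoN (cycloChar p) k.fixingSubgroup).comp
          ((ev_outU (tri_out S) k.fixingSubgroup ΔO).ι w)) x = 0 → invW w x = 0 →
      x ∈ LinearMap.range (hc_d12 ((ev_outU (tri_out S) k.fixingSubgroup ΔO).LW w)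
        ((idual_rhoN (cycloChar p) k.fixingSubgroup).comp
          ((ev_outU (tri_out S) k.fixingSubgroup ΔO).ι w))))
    (y : hc_C1 (shapLevSub (pt_globalLev S) k.fixingSubgroup)
      (Representation.trivial (ZMod p) ↥k.fixingSubgroup (ZMod p)))
    (hy : hc_d12 (shapLevSub (pt_globalLev S) k.fixingSubgroup)
      (Representation.trivial (ZMod p) ↥k.fixingSubgroup (ZMod p)) y = 0)
    (hy0 : y ≠ 0) :
    ∃ (β : hc_C1 (shapLevSub tr_fullLev k.fixingSubgroup)
          (Representation.trivial (ZMod p) ↥k.fixingSubgroup (ZMod p)))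
      (_ : hc_d12f (Representation.trivial (ZMod p) ↥k.fixingSubgroup (ZMod p))
          (β : ↥k.fixingSubgroup → ZMod p) ∈
        hc_C2 (shapLevSub (pt_globalLev S) k.fixingSubgroup)
          (Representation.trivial (ZMod p) ↥k.fixingSubgroup (ZMod p)))
      (e : ∀ w : (ev_outU (tri_out S) k.fixingSubgroup ΔO).W,
        hc_C2 ((ev_outU (tri_out S) k.fixingSubgroup ΔO).LW w)
          ((idual_rhoN (cycloChar p) k.fixingSubgroup).comp
            ((ev_outU (tri_out S) k.fixingSubgroup ΔO).ι w)))
      (w0 : (ev_outU (tri_out S) k.fixingSubgroup ΔO).W),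
      (∀ w, hc_IsLev2 ((idual_rhoN (cycloChar p) k.fixingSubgroup).comp
            ((ev_outU (tri_out S) k.fixingSubgroup ΔO).ι w))
            ((ev_outU (tri_out S) k.fixingSubgroup ΔO).I w)
            (e w : (ev_outU (tri_out S) k.fixingSubgroup ΔO).H w ×
              (ev_outU (tri_out S) k.fixingSubgroup ΔO).H w → ZMod p) ∧
          hc_d23 ((ev_outU (tri_out S) k.fixingSubgroup ΔO).LW w)
            ((idual_rhoN (cycloChar p) k.fixingSubgroup).comp
              ((ev_outU (tri_out S) k.fixingSubgroup ΔO).ι w)) (e w)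
            = hc_res3 ((ev_outU (tri_out S) k.fixingSubgroup ΔO).compat w)
              (idual_rhoN (cycloChar p) k.fixingSubgroup)
              (hc_d23 (shapLevSub tr_fullLev k.fixingSubgroup)
                (idual_rhoN (cycloChar p) k.fixingSubgroup)
                (hc_cup11 (shapLevSub tr_fullLev k.fixingSubgroup)
                  (pt_hφ_triv (cycloChar p) k.fixingSubgroup hU) β
                  (bi_incl1 hL (Representation.trivial (ZMod p) ↥k.fixingSubgroup (ZMod p))
                    y)))) ∧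
      (∀ w, w ≠ w0 → e w = hc_res2 ((ev_outU (tri_out S) k.fixingSubgroup ΔO).compat w)
          (idual_rhoN (cycloChar p) k.fixingSubgroup)
          (hc_cup11 (shapLevSub tr_fullLev k.fixingSubgroup)
            (pt_hφ_triv (cycloChar p) k.fixingSubgroup hU) β
            (bi_incl1 hL (Representation.trivial (ZMod p) ↥k.fixingSubgroup (ZMod p)) y))) ∧
      invW w0 (e w0 - hc_res2 ((ev_outU (tri_out S) k.fixingSubgroup ΔO).compat w0)
          (idual_rhoN (cycloChar p) k.fixingSubgroup)
          (hc_cup11 (shapLevSub tr_fullLev k.fixingSubgroup)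
            (pt_hφ_triv (cycloChar p) k.fixingSubgroup hU) β
            (bi_incl1 hL (Representation.trivial (ZMod p) ↥k.fixingSubgroup (ZMod p)) y)))
        ≠ 0 :=
  ev_hG4a p S k ΔO hpS hk hζ hζk (evl_EV1 p k) (evl_EV2 p k) hU hL invW
    (lkc_ev_LC6 p hp2 S hpS k hζ hζk ΔO hU invW hLC3W) y hy hy0

end main

end Fermat.Agent.S55
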