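/-
S55 block [G4a], generic hc bookkeeping (helper13).

Setting of `BaseInst.lean` (`bi_hG4`): a leveled group `G` (`L ≤ Linf`), outside data `O`,
trivial coefficients, pairing = multiplication.  Given a finite-level 1-cochain `β`, a finite-level
1-cocycle `ψ`, an `L`-level 1-cocycle `y` and an outside place `w0` such that

* `β` is unramified (right-invariant under `O.I w`) at every outside place `w ≠ w0`,
* `β + ψ` is unramified at `w0`,

the family `e w := res_w (β ∪ y)` (`w ≠ w0`), `e w0 := res_{w0} ((β + ψ) ∪ y)` consists of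
unramified trivialisations of `res_w (d (β ∪ y))`, and `e w0 - res_{w0} (β ∪ y) = res_{w0} (ψ ∪ y)`.
This is exactly the data required by `[G4a]` (`hG4a` of `bi_inputs`), up to the final
non-vanishing `invW w0 (res_{w0} ψ ∪ res_{w0} y) ≠ 0`.
-/
import Fermat.Agent.S55.BaseInst

set_option autoImplicit false
set_option linter.unusedSectionVars false
set_option linter.unusedVariables false

namespace Fermat.Agent.S55

universe v' w'

section

variable {k : Type} [Field k] {G : Type} [Group G] {L Linf : hc_Lev G}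
  (O : tr_Out.{0, v', w'} L Linf)
  {ρT : Representation k G k}
  (hφ : ∀ g a b, LinearMap.mul k k (Representation.trivial k G k g a)
    (Representation.trivial k G k g b) = ρT g (LinearMap.mul k k a b))

include hφ in
/-- The target representation of a pairing `triv ⊗ triv → ρT` by multiplication is trivial. -/
lemma evg_rhoT_apply (g : G) (a : k) : ρT g a = a := by
  have h := hφ g a 1
  simp only [Representation.trivial_apply, LinearMap.mul_apply_apply, mul_one] at h
  exact h.symm

include hφ in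
/-- An `L`-level 1-cochain is unramified at every outside place. -/
lemma evg_unr_of_level (y : hc_C1 L (Representation.trivial k G k)) (w : O.W) (x s : O.H w)
    (hs : s ∈ O.I w) : (y : G → k) (O.ι w (x * s)) = (y : G → k) (O.ι w x) := by
  obtain ⟨N, hN, h1, -⟩ := y.2
  rw [map_mul]
  exact h1 _ _ (O.unr w N hN hs)

include hφ in
/-- The restriction to an outside place of a cup product of two unramified 1-cochains is
unramified. -/
lemma evg_isLev2_cup (w : O.W) (a b : hc_C1 Linf (Representation.trivial k G k))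
    (ha : ∀ x s : O.H w, s ∈ O.I w → (a : G → k) (O.ι w (x * s)) = (a : G → k) (O.ι w x))
    (hb : ∀ x s : O.H w, s ∈ O.I w → (b : G → k) (O.ι w (x * s)) = (b : G → k) (O.ι w x)) :
    hc_IsLev2 (ρT.comp (O.ι w)) (O.I w)
      (hc_res2 (O.compat w) ρT (hc_cup11 Linf hφ a b) : O.H w × O.H w → k) := by
  refine ⟨fun g h s hs t ht => ?_, fun x s hs => ?_⟩
  · simp only [hc_res2_coe, hc_cup11_coe, hc_cup11f_apply, Representation.trivial_apply,
      LinearMap.mul_apply_apply, ha g s hs, hb h t ht]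
  · simp only [MonoidHom.comp_apply]
    exact evg_rhoT_apply hφ _ _

include hφ in
/-- **[G4a], generic bookkeeping.** -/
theorem evg_G4a (hL : ∀ N ∈ L.S, ∃ N' ∈ Linf.S, N' ≤ N)
    (y : hc_C1 L (Representation.trivial k G k))
    (hy : hc_d12 L (Representation.trivial k G k) y = 0)
    (β ψ : hc_C1 Linf (Representation.trivial k G k))
    (hψ : hc_d12 Linf (Representation.trivial k G k) ψ = 0)
    (w0 : O.W)
    (hβ : ∀ w, w ≠ w0 → ∀ x s : O.H w, s ∈ O.I w →
      (β : G → k) (O.ι w (x * s)) = (β : G → k) (O.ι w x))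
    (hβψ : ∀ x s : O.H w0, s ∈ O.I w0 →
      (β : G → k) (O.ι w0 (x * s)) + (ψ : G → k) (O.ι w0 (x * s)) =
        (β : G → k) (O.ι w0 x) + (ψ : G → k) (O.ι w0 x)) :
    ∃ e : ∀ w : O.W, hc_C2 (O.LW w) (ρT.comp (O.ι w)),
      (∀ w, hc_IsLev2 (ρT.comp (O.ι w)) (O.I w) (e w : O.H w × O.H w → k) ∧
        hc_d23 (O.LW w) (ρT.comp (O.ι w)) (e w) = hc_res3 (O.compat w) ρT
          (hc_d23 Linf ρT (hc_cup11 Linf hφ β (bi_incl1 hL (Representation.trivial k G k) y)))) ∧
      (∀ w, w ≠ w0 → e w = hc_res2 (O.compat w) ρT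
        (hc_cup11 Linf hφ β (bi_incl1 hL (Representation.trivial k G k) y))) ∧
      e w0 - hc_res2 (O.compat w0) ρT
          (hc_cup11 Linf hφ β (bi_incl1 hL (Representation.trivial k G k) y)) =
        hc_res2 (O.compat w0) ρT
          (hc_cup11 Linf hφ ψ (bi_incl1 hL (Representation.trivial k G k) y)) := by
  classical
  set y' : hc_C1 Linf (Representation.trivial k G k) :=
    bi_incl1 hL (Representation.trivial k G k) y with hy'
  have hy'I : ∀ w (x s : O.H w), s ∈ O.I w →
      (y' : G → k) (O.ι w (x * s)) = (y' : G → k) (O.ι w x) :=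
    fun w x s hs => evg_unr_of_level O hφ y w x s hs
  have hdy' : hc_d12 Linf (Representation.trivial k G k) y' = 0 := by
    apply Subtype.ext
    have h := congrArg Subtype.val hy
    exact h
  -- `d (ψ ∪ y) = 0`
  have hdψy : hc_d23 Linf ρT (hc_cup11 Linf hφ ψ y') = 0 := by
    rw [hc_leibniz11, hψ, hdy', map_zero, map_zero, sub_zero, LinearMap.zero_apply]
  refine ⟨fun w => if w = w0 then hc_res2 (O.compat w) ρT (hc_cup11 Linf hφ (β + ψ) y')
    else hc_res2 (O.compat w) ρT (hc_cup11 Linf hφ β y'), fun w => ?_, fun w hw => ?_, ?_⟩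
  · by_cases hw : w = w0
    · subst hw
      dsimp only
      rw [if_pos rfl]
      refine ⟨evg_isLev2_cup O hφ w (β + ψ) y' (fun x s hs => ?_) (hy'I w), ?_⟩
      · simpa using hβψ x s hs
      · rw [← hc_res3_d23, map_add, LinearMap.add_apply, map_add, hdψy, add_zero]
    · dsimp only
      rw [if_neg hw]
      exact ⟨evg_isLev2_cup O hφ w β y' (hβ w hw) (hy'I w), (hc_res3_d23 _ _ _).symm⟩
  · dsimp only
    rw [if_neg hw]
  · dsimp only
    rw [if_pos rfl, map_add, LinearMap.add_apply, map_add, add_sub_cancel_left]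

include hφ in
/-- **[G4a], generic bookkeeping**, in the exact shape of the conclusion of `hG4a`
(`BaseInst.bi_inputs`): the only remaining input is the non-vanishing of the local invariant of
`ψ ∪ y` at `w0`. -/
theorem evg_G4a' (hL : ∀ N ∈ L.S, ∃ N' ∈ Linf.S, N' ≤ N)
    (invW : ∀ w : O.W, hc_C2 (O.LW w) (ρT.comp (O.ι w)) →ₗ[k] k)
    (y : hc_C1 L (Representation.trivial k G k))
    (hy : hc_d12 L (Representation.trivial k G k) y = 0)
    (β ψ : hc_C1 Linf (Representation.trivial k G k))
    (hψ : hc_d12 Linf (Representation.trivial k G k) ψ = 0)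
    (w0 : O.W)
    (hβ : ∀ w, w ≠ w0 → ∀ x s : O.H w, s ∈ O.I w →
      (β : G → k) (O.ι w (x * s)) = (β : G → k) (O.ι w x))
    (hβψ : ∀ x s : O.H w0, s ∈ O.I w0 →
      (β : G → k) (O.ι w0 (x * s)) + (ψ : G → k) (O.ι w0 (x * s)) =
        (β : G → k) (O.ι w0 x) + (ψ : G → k) (O.ι w0 x))
    (hne : invW w0 (hc_cup11 (O.LW w0) (fun g a b => hφ (O.ι w0 g) a b)
      (hc_res1 (O.compat w0) (Representation.trivial k G k) ψ)
      (hc_res1 (O.compat w0) (Representation.trivial k G k)
        (bi_incl1 hL (Representation.trivial k G k) y))) ≠ 0) :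
    ∃ (e : ∀ w : O.W, hc_C2 (O.LW w) (ρT.comp (O.ι w))),
      (∀ w, hc_IsLev2 (ρT.comp (O.ι w)) (O.I w) (e w : O.H w × O.H w → k) ∧
        hc_d23 (O.LW w) (ρT.comp (O.ι w)) (e w) = hc_res3 (O.compat w) ρT
          (hc_d23 Linf ρT (hc_cup11 Linf hφ β (bi_incl1 hL (Representation.trivial k G k) y)))) ∧
      (∀ w, w ≠ w0 → e w = hc_res2 (O.compat w) ρT
        (hc_cup11 Linf hφ β (bi_incl1 hL (Representation.trivial k G k) y))) ∧
      invW w0 (e w0 - hc_res2 (O.compat w0) ρT
        (hc_cup11 Linf hφ β (bi_incl1 hL (Representation.trivial k G k) y))) ≠ 0 := by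
  obtain ⟨e, he1, he2, he3⟩ := evg_G4a O hφ hL y hy β ψ hψ w0 hβ hβψ
  refine ⟨e, he1, he2, ?_⟩
  rw [he3, hc_res2_cup11]
  exact hne

end

end Fermat.Agent.S55
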