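import Mathlib

/-!
# Conjugate primes and valuations (number fields)

For a ring automorphism `σ` of a number field `L` and a prime `w` of `𝓞 L`, the conjugate prime
`fiConj σ w = σ(w)` satisfies `v_{σ w}(σ x) = v_w(x)`.  If `σ` is `K`-linear then `σ w` lies over the
same prime of `K` as `w`.  Also: the prime of `K` below a prime of `L` (`fiUnder`).
-/

set_option autoImplicit false

namespace Fermat.Agent.S55

open IsDedekindDomain NumberField WithZero

section Thresholds

/-- Two elements `≤ 1` of `ℤᵐ⁰` with the same thresholds `≤ exp (-n)` are equal. -/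
theorem fi_eq_of_thresholds (a b : ℤᵐ⁰) (ha : a ≤ 1)
    (h : ∀ n : ℕ, a ≤ exp (-(n : ℤ)) ↔ b ≤ exp (-(n : ℤ))) (hb : b ≤ 1) : a = b := by
  have key : ∀ a b : ℤᵐ⁰, a ≤ 1 → (∀ n : ℕ, a ≤ exp (-(n : ℤ)) → b ≤ exp (-(n : ℤ))) → b ≤ a := by
    intro a b ha h
    rcases eq_or_ne a 0 with rfl | ha0
    · have hb0 : b = 0 := by
        by_contra hb0
        obtain ⟨m, rfl⟩ : ∃ m : ℤ, b = exp m := ⟨log b, (exp_log hb0).symm⟩
        have h2 := h ((-m).toNat + 1) zero_le
        rw [exp_le_exp] at h2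
        have := Int.self_le_toNat (-m)
        push_cast at h2
        omega
      rw [hb0]
    · have hla : log a ≤ 0 := by
        rw [← exp_log ha0, ← exp_zero, exp_le_exp] at ha
        exact ha
      have h1 := h (-(log a)).toNat (by
        rw [Int.toNat_of_nonneg (by omega), neg_neg, exp_log ha0])
      rwa [Int.toNat_of_nonneg (by omega), neg_neg, exp_log ha0] at h1
  exact le_antisymm (key b a hb (fun n => (h n).2)) (key a b ha (fun n => (h n).1))

end Thresholds

section Conj

variable {L : Type*} [Field L] [NumberField L]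

/-- The conjugate prime `σ(w)`. -/
noncomputable def fiConj (σ : L ≃+* L) (w : HeightOneSpectrum (𝓞 L)) : HeightOneSpectrum (𝓞 L) :=
  HeightOneSpectrum.equivOfRingEquiv (RingOfIntegers.mapRingEquiv σ) w

theorem fiConj_asIdeal (σ : L ≃+* L) (w : HeightOneSpectrum (𝓞 L)) :
    (fiConj σ w).asIdeal = w.asIdeal.map (RingOfIntegers.mapRingEquiv σ) := by
  rw [fiConj, HeightOneSpectrum.equivOfRingEquiv_apply, HeightOneSpectrum.comap_asIdeal]
  exact Ideal.comap_symm (RingOfIntegers.mapRingEquiv σ)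

theorem fiConj_mem_pow (σ : L ≃+* L) (w : HeightOneSpectrum (𝓞 L)) (r : 𝓞 L) (n : ℕ) :
    RingOfIntegers.mapRingEquiv σ r ∈ (fiConj σ w).asIdeal ^ n ↔ r ∈ w.asIdeal ^ n := by
  rw [fiConj_asIdeal, ← Ideal.map_pow]
  exact Ideal.apply_mem_of_equiv_iff (f := RingOfIntegers.mapRingEquiv σ)

theorem fiConj_intValuation (σ : L ≃+* L) (w : HeightOneSpectrum (𝓞 L)) (r : 𝓞 L) :
    (fiConj σ w).intValuation (RingOfIntegers.mapRingEquiv σ r) = w.intValuation r := by
  refine fi_eq_of_thresholds _ _ (HeightOneSpectrum.intValuation_le_one _ _) (fun n => ?_)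
    (HeightOneSpectrum.intValuation_le_one _ _)
  rw [HeightOneSpectrum.intValuation_le_pow_iff_mem, HeightOneSpectrum.intValuation_le_pow_iff_mem,
    fiConj_mem_pow]

theorem fiConj_valuation (σ : L ≃+* L) (w : HeightOneSpectrum (𝓞 L)) (x : L) :
    (fiConj σ w).valuation L (σ x) = w.valuation L x := by
  obtain ⟨r, s, hs, rfl⟩ := IsFractionRing.div_surjective (A := 𝓞 L) x
  have h1 : σ (algebraMap (𝓞 L) L r / algebraMap (𝓞 L) L s)
      = algebraMap (𝓞 L) L (RingOfIntegers.mapRingEquiv σ r)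
        / algebraMap (𝓞 L) L (RingOfIntegers.mapRingEquiv σ s) := by
    rw [map_div₀]
    rfl
  rw [h1, map_div₀, map_div₀, HeightOneSpectrum.valuation_of_algebraMap,
    HeightOneSpectrum.valuation_of_algebraMap, HeightOneSpectrum.valuation_of_algebraMap,
    HeightOneSpectrum.valuation_of_algebraMap, fiConj_intValuation, fiConj_intValuation]

theorem fiConj_symm (σ : L ≃+* L) (w : HeightOneSpectrum (𝓞 L)) :
    fiConj σ (fiConj σ.symm w) = w := by
  apply HeightOneSpectrum.ext
  ext x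
  have h1 := fiConj_mem_pow σ (fiConj σ.symm w) ((RingOfIntegers.mapRingEquiv σ.symm) x) 1
  have h2 := fiConj_mem_pow σ.symm w x 1
  rw [pow_one, pow_one] at h1 h2
  have h3 : RingOfIntegers.mapRingEquiv σ ((RingOfIntegers.mapRingEquiv σ.symm) x) = x := by
    apply RingOfIntegers.ext
    simp [RingOfIntegers.mapRingEquiv_apply]
  rw [h3] at h1
  rw [h1, h2]

/-- `v_w(σ x) = v_{σ⁻¹ w}(x)`. -/
theorem fi_valuation_apply (σ : L ≃+* L) (w : HeightOneSpectrum (𝓞 L)) (x : L) :
    w.valuation L (σ x) = (fiConj σ.symm w).valuation L x := by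
  conv_lhs => rw [← fiConj_symm σ w]
  exact fiConj_valuation σ _ x

end Conj

section Under

variable (K : Type*) {L : Type*} [Field K] [NumberField K] [Field L] [NumberField L] [Algebra K L]

/-- The prime of `K` below a prime of `L`. -/
noncomputable def fiUnder (w : HeightOneSpectrum (𝓞 L)) : HeightOneSpectrum (𝓞 K) where
  asIdeal := w.asIdeal.comap (algebraMap (𝓞 K) (𝓞 L))
  isPrime := Ideal.comap_isPrime _ _
  ne_bot := Ideal.IsIntegral.comap_ne_bot (𝓞 K) w.ne_bot

theorem fiUnder_asIdeal (w : HeightOneSpectrum (𝓞 L)) :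
    (fiUnder K w).asIdeal = w.asIdeal.comap (algebraMap (𝓞 K) (𝓞 L)) := rfl

/-- A `K`-automorphism does not change the prime below. -/
theorem fiUnder_conj (σ : L ≃ₐ[K] L) (w : HeightOneSpectrum (𝓞 L)) :
    fiUnder K (fiConj (σ : L ≃+* L) w) = fiUnder K w := by
  apply HeightOneSpectrum.ext
  ext x
  rw [fiUnder_asIdeal, fiUnder_asIdeal, Ideal.mem_comap, Ideal.mem_comap]
  have hx : RingOfIntegers.mapRingEquiv (σ : L ≃+* L) (algebraMap (𝓞 K) (𝓞 L) x)
      = algebraMap (𝓞 K) (𝓞 L) x := by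
    apply RingOfIntegers.ext
    rw [RingOfIntegers.mapRingEquiv_apply]
    change σ (algebraMap K L (x : K)) = algebraMap K L (x : K)
    exact σ.commutes _
  rw [← hx]
  have := fiConj_mem_pow (σ : L ≃+* L) w (algebraMap (𝓞 K) (𝓞 L) x) 1
  rw [pow_one, pow_one] at this
  rw [this, hx]

end Under

end Fermat.Agent.S55
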