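import Fermat.Agent.S55.KsiDefs

/-!
# Weak approximation for a number field (completions-free form)

* `su_index_iInf_of_approx`: for subgroups `H i` of a commutative group which are "independent"
  (every family of cosets has a common representative), the index of the intersection is the
  product of the indices.
* `su_weak_approx`: for finitely many primes `v ∈ S`, precisions `n v` and targets `x v ∈ Kˣ`
  there is `y ∈ Kˣ` with `y / x v ∈ ksiU K v (n v)` for all `v ∈ S`.
* `su_index_iInf`: `[Kˣ : ⋂_{v ∈ S} H v] = ∏_{v ∈ S} [Kˣ : H v]` whenever `ksiU K v (n v) ≤ H v`.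
-/

set_option autoImplicit false

namespace Fermat.Agent.S55

open IsDedekindDomain NumberField

open scoped nonZeroDivisors

section Group

variable {G : Type*} [CommGroup G] {ι : Type*}

/-- Index of an intersection of independent subgroups. -/
theorem su_index_iInf_of_approx (S : Finset ι) (H : ι → Subgroup G)
    (happ : ∀ x : ι → G, ∃ y : G, ∀ i ∈ S, y / x i ∈ H i) :
    (⨅ i ∈ S, H i).index = ∏ i ∈ S, (H i).index := by
  classical
  induction S using Finset.induction_on with
  | empty => simp
  | insert a T ha ih =>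
    have happT : ∀ x : ι → G, ∃ y : G, ∀ i ∈ T, y / x i ∈ H i := by
      intro x
      obtain ⟨y, hy⟩ := happ x
      exact ⟨y, fun i hi => hy i (Finset.mem_insert_of_mem hi)⟩
    rw [Finset.iInf_insert, Finset.prod_insert ha, ← ih happT]
    set B := ⨅ i ∈ T, H i with hB
    have hsup : B ⊔ H a = ⊤ := by
      rw [eq_top_iff]
      intro g _
      obtain ⟨y, hy⟩ := happ (fun i => if i = a then 1 else g)
      have h1 : y ∈ H a := by
        have := hy a (Finset.mem_insert_self a T)
        rwa [if_pos rfl, div_one] at this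
      have h2 : g / y ∈ B := by
        rw [hB, Subgroup.mem_iInf]
        intro i
        rw [Subgroup.mem_iInf]
        intro hi
        have hia : i ≠ a := fun h => ha (h ▸ hi)
        have := hy i (Finset.mem_insert_of_mem hi)
        rw [if_neg hia] at this
        have h3 := (H i).inv_mem this
        rwa [inv_div] at h3
      have : g = (g / y) * y := by rw [div_mul_cancel]
      rw [this]
      exact Subgroup.mul_mem_sup h2 h1
    have e1 : (H a ⊓ B).relIndex B * B.index = (H a ⊓ B).index :=
      Subgroup.relIndex_mul_index inf_le_right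
    rw [← e1, Subgroup.inf_relIndex_right, ← Subgroup.relIndex_sup_right, hsup,
      Subgroup.relIndex_top_right]

end Group

section Approx

variable (K : Type*) [Field K] [NumberField K]

/-- **Weak approximation** at finitely many primes. -/
theorem su_weak_approx (S : Finset (HeightOneSpectrum (𝓞 K)))
    (n : HeightOneSpectrum (𝓞 K) → ℕ) (x : HeightOneSpectrum (𝓞 K) → Kˣ) :
    ∃ y : Kˣ, ∀ v ∈ S, y / x v ∈ ksiU K v (n v) := by
  classical
  rcases S.eq_empty_or_nonempty with rfl | hne
  · exact ⟨1, fun v hv => absurd hv (Finset.notMem_empty v)⟩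
  -- common denominator
  obtain ⟨b, hb⟩ := IsLocalization.exist_integer_multiples (𝓞 K)⁰ S (fun v => ((x v : Kˣ) : K))
  choose! a ha using hb
  have hb0 : algebraMap (𝓞 K) K (b : 𝓞 K) ≠ 0 := by
    rw [Ne, FaithfulSMul.algebraMap_eq_zero_iff]
    exact nonZeroDivisors.coe_ne_zero b
  have hxa : ∀ v ∈ S, ((x v : Kˣ) : K) = algebraMap (𝓞 K) K (a v) / algebraMap (𝓞 K) K (b : 𝓞 K) := by
    intro v hv
    rw [eq_div_iff hb0, mul_comm, ← Algebra.smul_def]
    exact (ha v hv).symm
  have ha0 : ∀ v ∈ S, a v ≠ 0 := by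
    intro v hv h0
    have := hxa v hv
    rw [h0, map_zero, zero_div] at this
    exact (Units.ne_zero (x v)) this
  -- precision
  let c : HeightOneSpectrum (𝓞 K) → ℤ := fun v => -WithZero.log (v.intValuation (a v))
  have hc : ∀ v ∈ S, v.intValuation (a v) = WithZero.exp (-(c v)) := by
    intro v hv
    change _ = WithZero.exp (- -WithZero.log (v.intValuation (a v)))
    rw [neg_neg, WithZero.exp_log (v.intValuation_ne_zero _ (ha0 v hv))]
  have hc0 : ∀ v ∈ S, 0 ≤ c v := by
    intro v hv
    have h1 := v.intValuation_le_one (a v)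
    rw [hc v hv, ← WithZero.exp_zero, WithZero.exp_le_exp] at h1
    omega
  let m : HeightOneSpectrum (𝓞 K) → ℕ := fun v => (c v + n v + 1).toNat
  have hm : ∀ v ∈ S, ((m v : ℕ) : ℤ) = c v + n v + 1 := by
    intro v hv
    have := hc0 v hv
    change (((c v + n v + 1).toNat : ℕ) : ℤ) = _
    omega
  -- Chinese remainder theorem
  obtain ⟨y₀, hy₀⟩ := IsDedekindDomain.exists_forall_sub_mem_ideal
    (s := S) (fun v : HeightOneSpectrum (𝓞 K) => v.asIdeal) m (fun v _ => v.prime)
    (fun v _ w _ hvw h => hvw (HeightOneSpectrum.ext h)) (fun v => a v.1)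
  have hval : ∀ v ∈ S, v.intValuation (y₀ - a v) ≤ WithZero.exp (-(c v + n v + 1)) := by
    intro v hv
    have := (v.intValuation_le_pow_iff_mem (y₀ - a v) (m v)).mpr (hy₀ v hv)
    rwa [hm v hv] at this
  have hlt : ∀ v ∈ S, v.intValuation (y₀ - a v) < v.intValuation (a v) := by
    intro v hv
    refine lt_of_le_of_lt (hval v hv) ?_
    rw [hc v hv, WithZero.exp_lt_exp]
    omega
  have hy₀val : ∀ v ∈ S, v.intValuation y₀ = v.intValuation (a v) := by
    intro v hv
    have h1 : y₀ = (y₀ - a v) + a v := by ring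
    rw [h1]
    exact Valuation.map_add_eq_of_lt_right _ (hlt v hv)
  obtain ⟨v₀, hv₀⟩ := hne
  have hy₀0 : y₀ ≠ 0 := by
    intro h0
    have := hy₀val v₀ hv₀
    rw [h0, map_zero] at this
    exact v₀.intValuation_ne_zero _ (ha0 v₀ hv₀) this.symm
  have hyK : algebraMap (𝓞 K) K y₀ ≠ 0 := by
    rw [Ne, FaithfulSMul.algebraMap_eq_zero_iff]
    exact hy₀0
  refine ⟨Units.mk0 (algebraMap (𝓞 K) K y₀ / algebraMap (𝓞 K) K (b : 𝓞 K)) (div_ne_zero hyK hb0), ?_⟩
  intro v hv
  have haK : algebraMap (𝓞 K) K (a v) ≠ 0 := by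
    rw [Ne, FaithfulSMul.algebraMap_eq_zero_iff]
    exact ha0 v hv
  have hquot : (((Units.mk0 (algebraMap (𝓞 K) K y₀ / algebraMap (𝓞 K) K (b : 𝓞 K))
      (div_ne_zero hyK hb0) / x v : Kˣ)) : K) = algebraMap (𝓞 K) K y₀ / algebraMap (𝓞 K) K (a v) := by
    rw [Units.val_div_eq_div_val, Units.val_mk0, hxa v hv]
    field_simp
  rw [mem_ksiU_iff, hquot]
  constructor
  · rw [map_div₀, HeightOneSpectrum.valuation_of_algebraMap, HeightOneSpectrum.valuation_of_algebraMap,
      hy₀val v hv]
    exact div_self (v.intValuation_ne_zero _ (ha0 v hv))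
  · have e : algebraMap (𝓞 K) K y₀ / algebraMap (𝓞 K) K (a v) - 1 =
        algebraMap (𝓞 K) K (y₀ - a v) / algebraMap (𝓞 K) K (a v) := by
      rw [map_sub]
      field_simp
    rw [e, map_div₀, HeightOneSpectrum.valuation_of_algebraMap,
      HeightOneSpectrum.valuation_of_algebraMap, hc v hv]
    have hdiv : v.intValuation (y₀ - a v) / WithZero.exp (-(c v)) ≤
        WithZero.exp (-(c v + n v + 1)) / WithZero.exp (-(c v)) := by
      rw [div_eq_mul_inv, div_eq_mul_inv]
      gcongr
      exact hval v hv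
    refine le_trans hdiv ?_
    rw [← WithZero.exp_sub, WithZero.exp_le_exp]
    omega

/-- The index of an intersection of local conditions at finitely many primes is the product of the
indices. -/
theorem su_index_iInf (S : Finset (HeightOneSpectrum (𝓞 K)))
    (n : HeightOneSpectrum (𝓞 K) → ℕ) (H : HeightOneSpectrum (𝓞 K) → Subgroup Kˣ)
    (hH : ∀ v ∈ S, ksiU K v (n v) ≤ H v) :
    (⨅ v ∈ S, H v).index = ∏ v ∈ S, (H v).index := by
  apply su_index_iInf_of_approx
  intro x
  obtain ⟨y, hy⟩ := su_weak_approx K S n x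
  exact ⟨y, fun v hv => hH v hv (hy v hv)⟩

end Approx

end Fermat.Agent.S55
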