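import Fermat.Agent.S55.SUnitGalois
import Fermat.Agent.S55.SUnitPid

/-!
# Simultaneous principalisation for an extension `L / K`

* `su_finite_above`: finitely many primes of `L` lie above a given prime of `K`.
* `suAbove K L S`: the `Finset` of primes of `L` above a finite set `S` of primes of `K`.
* `su_exists_pid_pair`: every finite `S0` is contained in a finite `S` such that both
  `suPid K S` and `suPid L (primes above S)` hold.
-/

set_option autoImplicit false

namespace Fermat.Agent.S55

open IsDedekindDomain NumberField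

section Pair

variable (K L : Type*) [Field K] [Field L] [NumberField K] [NumberField L] [Algebra K L]

/-- Finitely many primes of `L` lie above a given prime of `K`. -/
theorem su_finite_above (v : HeightOneSpectrum (𝓞 K)) :
    {w : HeightOneSpectrum (𝓞 L) | w.under (𝓞 K) = v}.Finite := by
  have hne : Ideal.map (algebraMap (𝓞 K) (𝓞 L)) v.asIdeal ≠ 0 := by
    rw [Ne, Ideal.zero_eq_bot, Ideal.map_eq_bot_iff_of_injective
      (FaithfulSMul.algebraMap_injective (𝓞 K) (𝓞 L))]
    exact v.ne_bot
  refine (Ideal.finite_factors hne).subset ?_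
  intro w hw
  have hw' : w.under (𝓞 K) = v := hw
  change w.asIdeal ∣ Ideal.map (algebraMap (𝓞 K) (𝓞 L)) v.asIdeal
  rw [Ideal.dvd_iff_le, Ideal.map_le_iff_le_comap, ← hw']
  exact le_of_eq rfl

/-- The finite set of primes of `L` above a finite set `S` of primes of `K`. -/
noncomputable def suAbove (S : Finset (HeightOneSpectrum (𝓞 K))) :
    Finset (HeightOneSpectrum (𝓞 L)) :=
  (Set.Finite.biUnion S.finite_toSet (fun v _ => su_finite_above K L v)).toFinset

theorem mem_suAbove (S : Finset (HeightOneSpectrum (𝓞 K))) (w : HeightOneSpectrum (𝓞 L)) :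
    w ∈ suAbove K L S ↔ w.under (𝓞 K) ∈ S := by
  rw [suAbove, Set.Finite.mem_toFinset, Set.mem_iUnion₂]
  constructor
  · rintro ⟨v, hv, hw⟩
    have hw' : w.under (𝓞 K) = v := hw
    rw [hw']
    exact hv
  · intro h
    exact ⟨w.under (𝓞 K), h, rfl⟩

/-- Simultaneous principalisation: `S ⊇ S0` with `suPid K S` and `suPid L (suAbove K L S)`. -/
theorem su_exists_pid_pair (S0 : Finset (HeightOneSpectrum (𝓞 K))) :
    ∃ S : Finset (HeightOneSpectrum (𝓞 K)), S0 ⊆ S ∧ suPid K S ∧ suPid L (suAbove K L S) := by
  classical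
  obtain ⟨S1, hS01, hS1⟩ := su_exists_pid K S0
  obtain ⟨TL, hTL, hTLpid⟩ := su_exists_pid L (suAbove K L S1)
  refine ⟨S1 ∪ TL.image (fun w => w.under (𝓞 K)), ?_, ?_, ?_⟩
  · exact hS01.trans Finset.subset_union_left
  · exact suPid_mono Finset.subset_union_left hS1
  · apply suPid_mono _ hTLpid
    intro w hw
    rw [mem_suAbove, Finset.mem_union]
    right
    exact Finset.mem_image_of_mem _ hw

end Pair

end Fermat.Agent.S55
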