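import Fermat.Agent.S55.FiLocal
import Fermat.Agent.S55.SUnitApprox
import Fermat.Agent.S55.SUnitPidPair

/-!
# At a prime which is not nonsplit every element is a local norm (completions-free)

`L / K` a Galois extension of number fields of prime degree `p`, `v` a prime of `K` with at least
two primes of `L` above it.  Then `ksiNorm K L v n = ⊤` for all `n` (`fi_split`): by weak
approximation in `L` choose `y` close to `x` at one prime `w₁` above `v` and close to `1` at the
others; the norm of `y` is then close to `x` at `v`.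
-/

set_option autoImplicit false

namespace Fermat.Agent.S55

open IsDedekindDomain NumberField WithZero

variable {K L : Type*} [Field K] [NumberField K] [Field L] [NumberField L] [Algebra K L]
  [IsGalois K L]

/-- If there are two primes above `v` (prime degree), the stabilisers are trivial. -/
theorem fi_stabilizer_trivial (p : ℕ) (hp : p.Prime) (hdeg : Module.finrank K L = p)
    (w₁ w₂ : HeightOneSpectrum (𝓞 L)) (hu : w₁.under (𝓞 K) = w₂.under (𝓞 K)) (hne : w₁ ≠ w₂)
    (τ : L ≃ₐ[K] L) (hτ : τ ≠ 1) : suComap τ w₁ ≠ w₁ := by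
  intro hfix
  have : Fact p.Prime := ⟨hp⟩
  have hcard : Nat.card (L ≃ₐ[K] L) = p := by rw [IsGalois.card_aut_eq_finrank, hdeg]
  let H : Subgroup (L ≃ₐ[K] L) :=
    { carrier := {g | suComap g w₁ = w₁}
      one_mem' := suComap_one w₁
      mul_mem' := by
        intro g h hg hh
        change suComap (g * h) w₁ = w₁
        rw [suComap_mul, hg, hh]
      inv_mem' := by
        intro g hg
        change suComap g⁻¹ w₁ = w₁
        have h1 : suComap (g * g⁻¹) w₁ = suComap g⁻¹ (suComap g w₁) := suComap_mul g⁻¹ g w₁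
        rw [hg, mul_inv_cancel, suComap_one] at h1
        exact h1.symm }
  have hτH : τ ∈ H := hfix
  have htop : H = ⊤ := by
    rw [eq_top_iff, ← zpowers_eq_top_of_prime_card hcard hτ]
    exact (Subgroup.zpowers_le).mpr hτH
  obtain ⟨g, hg⟩ := su_exists_suComap_eq w₁ w₂ hu
  have hgH : g ∈ H := by rw [htop]; exact Subgroup.mem_top g
  have h2 : suComap g w₁ = w₁ := hgH
  exact hne (h2.symm.trans hg)

/-- Descent of the congruence condition from `w` to the prime below. -/
theorem fi_ksiU_descend (w : HeightOneSpectrum (𝓞 L)) (n : ℕ) (z : Kˣ)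
    (hz : Units.map (algebraMap K L : K →* L) z ∈
      ksiU L w (n * (w.under (𝓞 K)).asIdeal.ramificationIdx' w.asIdeal)) :
    z ∈ ksiU K (w.under (𝓞 K)) n := by
  rw [mem_ksiU_iff] at hz ⊢
  obtain ⟨h1, h2⟩ := hz
  refine ⟨(su_valuation_algebraMap_eq_one_iff w (z : K)).mp h1, ?_⟩
  have he := fi_ramificationIdx_ne_zero (K := K) w
  set e := (w.under (𝓞 K)).asIdeal.ramificationIdx' w.asIdeal with hedef
  have h3 : ((Units.map (algebraMap K L : K →* L) z : Lˣ) : L) - 1 =
      algebraMap K L ((z : K) - 1) := by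
    rw [map_sub, map_one]
    rfl
  rw [h3, fi_valuation_under, ← hedef] at h2
  by_cases h0 : (w.under (𝓞 K)).valuation K ((z : K) - 1) = 0
  · rw [h0]
    exact zero_le
  · rw [← exp_log h0, ← exp_nsmul, exp_le_exp] at h2
    rw [← exp_log h0, exp_le_exp]
    have he' : (0 : ℤ) < (e : ℤ) := by exact_mod_cast Nat.pos_of_ne_zero he
    have h4 : (e : ℤ) * log ((w.under (𝓞 K)).valuation K ((z : K) - 1)) ≤ (e : ℤ) * (-(n : ℤ)) := by
      have : e • log ((w.under (𝓞 K)).valuation K ((z : K) - 1)) =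
          (e : ℤ) * log ((w.under (𝓞 K)).valuation K ((z : K) - 1)) := by simp
      rw [this] at h2
      calc (e : ℤ) * log ((w.under (𝓞 K)).valuation K ((z : K) - 1)) ≤ -((n * e : ℕ) : ℤ) := h2
        _ = (e : ℤ) * (-(n : ℤ)) := by push_cast; ring
    exact le_of_mul_le_mul_left h4 he'

/-- **Split primes**: every element is a local norm to any precision. -/
theorem fi_split (p : ℕ) (hp : p.Prime) (hdeg : Module.finrank K L = p)
    (v : HeightOneSpectrum (𝓞 K)) (hns : ¬ suNonsplit K L v) (n : ℕ) : ksiNorm K L v n = ⊤ := by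
  classical
  rw [suNonsplit] at hns
  push Not at hns
  obtain ⟨w₁, w₂, hw₁, hw₂, hne⟩ := hns
  have hstab : ∀ τ : L ≃ₐ[K] L, τ ≠ 1 → suComap τ w₁ ≠ w₁ :=
    fi_stabilizer_trivial p hp hdeg w₁ w₂ (hw₁.trans hw₂.symm) hne
  set T : Finset (HeightOneSpectrum (𝓞 L)) := (su_finite_above K L v).toFinset with hT
  have hmemT : ∀ w : HeightOneSpectrum (𝓞 L), w ∈ T ↔ w.under (𝓞 K) = v := by
    intro w
    rw [hT, Set.Finite.mem_toFinset]
    rfl
  set m : ℕ := n * (w₁.under (𝓞 K)).asIdeal.ramificationIdx' w₁.asIdeal with hm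
  rw [eq_top_iff]
  intro x _
  obtain ⟨y, hy⟩ := su_weak_approx L T (fun _ => m)
    (fun w => if w = w₁ then Units.map (algebraMap K L : K →* L) x else 1)
  -- the conjugates of `y`
  have hconj : ∀ τ : L ≃ₐ[K] L, τ ≠ 1 →
      Units.map ((τ : L ≃ₐ[K] L) : L →* L) y ∈ ksiU L w₁ m := by
    intro τ hτ
    have hw' : suComap τ w₁ ∈ T := by
      rw [hmemT, suComap_under, hw₁]
    have h1 := hy _ hw'
    simp only [if_neg (hstab τ hτ), div_one] at h1
    rw [mem_ksiU_iff] at h1 ⊢
    obtain ⟨h2, h3⟩ := h1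
    refine ⟨?_, ?_⟩
    · change w₁.valuation L (τ (y : L)) = 1
      rw [su_valuation_algEquiv]
      exact h2
    · change w₁.valuation L (τ (y : L) - 1) ≤ _
      have : τ (y : L) - 1 = τ ((y : L) - 1) := by rw [map_sub, map_one]
      rw [this, su_valuation_algEquiv]
      exact h3
  have h1 : y / Units.map (algebraMap K L : K →* L) x ∈ ksiU L w₁ m := by
    have := hy w₁ ((hmemT w₁).mpr hw₁)
    simpa using this
  -- the norm
  have hnorm : Units.map (algebraMap K L : K →* L) (Units.map (Algebra.norm K : L →* K) y) =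
      ∏ τ : L ≃ₐ[K] L, Units.map ((τ : L ≃ₐ[K] L) : L →* L) y := by
    apply Units.ext
    rw [Units.coe_prod]
    change algebraMap K L (Algebra.norm K (y : L)) = _
    rw [Algebra.norm_eq_prod_automorphisms]
    rfl
  set z : Kˣ := Units.map (Algebra.norm K : L →* K) y / x with hz
  have hZ : Units.map (algebraMap K L : K →* L) z ∈ ksiU L w₁ m := by
    have h2 : Units.map (algebraMap K L : K →* L) z =
        (y / Units.map (algebraMap K L : K →* L) x) *
          ∏ τ ∈ (Finset.univ : Finset (L ≃ₐ[K] L)).erase 1,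
            Units.map ((τ : L ≃ₐ[K] L) : L →* L) y := by
      rw [hz, map_div, hnorm, ← Finset.mul_prod_erase _ _ (Finset.mem_univ (1 : L ≃ₐ[K] L))]
      have h3 : Units.map (((1 : L ≃ₐ[K] L) : L ≃ₐ[K] L) : L →* L) y = y := by
        apply Units.ext
        rfl
      rw [h3, div_mul_eq_mul_div]
    rw [h2]
    refine Subgroup.mul_mem _ h1 (Subgroup.prod_mem _ (fun τ hτ => ?_))
    exact hconj τ (Finset.ne_of_mem_erase hτ)
  have hzv : z ∈ ksiU K v n := by
    have := fi_ksiU_descend w₁ n z hZ
    rw [hw₁] at this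
    exact this
  rw [mem_ksiNorm_iff]
  refine ⟨y, z⁻¹, Subgroup.inv_mem _ hzv, ?_⟩
  rw [hz, inv_div, mul_div_cancel]

end Fermat.Agent.S55
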