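import Fermat.Agent.S55.FiWeak
import Fermat.Agent.S55.FiSplit

/-!
# The Hasse norm theorem for cyclic extensions of prime degree (completions-free)

`K ∋ ζ_p`, `L / K` Galois of odd prime degree `p`.  If `x ∈ Kˣ` is a local norm (to every
precision) at all primes of `K` with a unique prime of `L` above them, then `x` is a global norm.

* `fi_hasse_norm_aux`: the index computation, for a fixed `S`, given the second inequality
  `[Kˣ : K_S · ⋂_{v ∈ S} N_v] ≤ p` and that the local norm groups at the nonsplit primes of `S`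
  are proper.
* `fi_hasse_norm_of_si`: the Hasse norm theorem, given the second inequality for `L / K` and the
  properness of the local norm groups at the nonsplit primes above `p`.
-/

set_option autoImplicit false

namespace Fermat.Agent.S55

open IsDedekindDomain NumberField WithZero

/-- The index computation behind the Hasse norm theorem. -/
theorem fi_hasse_norm_aux (p : ℕ) [hp : Fact p.Prime] (hp2 : p ≠ 2) (K : Type) [Field K]
    [NumberField K] {ζ : K} (hζ : IsPrimitiveRoot ζ p)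
    (L : Type) [Field L] [NumberField L] [Algebra K L] [IsGalois K L]
    (hL : Module.finrank K L = p)
    (S : Finset (HeightOneSpectrum (𝓞 K))) (hPID : suPid K S)
    (hunr : ∀ w : HeightOneSpectrum (𝓞 L), w.under (𝓞 K) ∉ S →
      ∀ z : K, w.valuation L (algebraMap K L z) = (w.under (𝓞 K)).valuation K z)
    (hloc : ∀ v ∈ S, suNonsplit K L v → ∃ n, ksiNorm K L v n ≠ ⊤)
    (hSI : ∀ n : HeightOneSpectrum (𝓞 K) → ℕ,
      ((S : Set (HeightOneSpectrum (𝓞 K))).unit K ⊔ ⨅ v ∈ S, ksiNorm K L v (n v)).index ≤ p ∧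
      ((S : Set (HeightOneSpectrum (𝓞 K))).unit K ⊔ ⨅ v ∈ S, ksiNorm K L v (n v)).index ≠ 0)
    (x : Kˣ) (hxS : x ∈ (S : Set (HeightOneSpectrum (𝓞 K))).unit K)
    (hx : ∀ v ∈ S, suNonsplit K L v → ∀ n, x ∈ ksiNorm K L v n) :
    ∃ y : Lˣ, Units.map (Algebra.norm K : L →* K) y = x := by
  classical
  set U : Finset (HeightOneSpectrum (𝓞 K)) := S.filter (fun v => suNonsplit K L v) with hUdef
  have hU : ∀ v, v ∈ U ↔ v ∈ S ∧ suNonsplit K L v := fun v => Finset.mem_filter
  -- the precisions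
  have hex : ∀ v : HeightOneSpectrum (𝓞 K), ∃ n : ℕ, v ∈ U → ksiNorm K L v n ≠ ⊤ := by
    intro v
    by_cases hv : v ∈ U
    · obtain ⟨hvS, hvn⟩ := (hU v).mp hv
      obtain ⟨n, hn⟩ := hloc v hvS hvn
      exact ⟨n, fun _ => hn⟩
    · exact ⟨0, fun h => absurd h hv⟩
  choose n hn using hex
  set 𝒩 : Subgroup Kˣ := ⨅ v ∈ U, ksiNorm K L v (n v) with h𝒩
  set E : Subgroup Kˣ := (S : Set (HeightOneSpectrum (𝓞 K))).unit K with hE
  have hinf : (⨅ v ∈ S, ksiNorm K L v (n v)) = 𝒩 := by
    apply le_antisymm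
    · refine le_iInf₂ (fun v hv => ?_)
      exact iInf₂_le v ((hU v).mp hv).1
    · refine le_iInf₂ (fun v hv => ?_)
      by_cases hvn : suNonsplit K L v
      · exact iInf₂_le v ((hU v).mpr ⟨hv, hvn⟩)
      · rw [fi_split p hp.out hL v hvn (n v)]
        exact le_top
  obtain ⟨hSI1, hSI2⟩ := hSI n
  rw [hinf] at hSI1 hSI2
  -- the local indices
  have hdvd : p ^ U.card ∣ 𝒩.index := fi_pow_dvd_index_iInf p hζ L hL U n hn
  -- the unit index
  have hidx := fi_norm_relIndex S (suAbove K L S) p hp.out hp2 hL U (mem_suAbove K L S) hU hPID hunr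
  set NE : Subgroup Kˣ := (((suAbove K L S : Finset (HeightOneSpectrum (𝓞 L))) :
    Set (HeightOneSpectrum (𝓞 L))).unit L).map (Units.map (Algebra.norm K : L →* K)) with hNE
  have hNE𝒩 : NE ≤ 𝒩 := by
    rintro _ ⟨y, _, rfl⟩
    rw [h𝒩]
    simp only [Subgroup.mem_iInf]
    intro v _
    exact Subgroup.mem_sup_left ⟨y, rfl⟩
  have hNEE : NE ≤ E := by
    rintro _ ⟨y, hy, rfl⟩
    exact fi_norm_mem S (suAbove K L S) (mem_suAbove K L S) y hy
  -- index bookkeeping
  have h1 : 𝒩.relIndex E * (E ⊔ 𝒩).index = 𝒩.index := by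
    rw [← Subgroup.relIndex_sup_right E 𝒩]
    exact Subgroup.relIndex_mul_index le_sup_right
  have h2 : NE.relIndex (𝒩 ⊓ E) * 𝒩.relIndex E = NE.relIndex E := by
    rw [← Subgroup.inf_relIndex_right 𝒩 E]
    exact Subgroup.relIndex_mul_relIndex NE (𝒩 ⊓ E) E (le_inf hNE𝒩 hNEE) inf_le_right
  set a := 𝒩.relIndex E with ha
  set b := NE.relIndex (𝒩 ⊓ E) with hb
  set c := (E ⊔ 𝒩).index with hc
  have hpos : 0 < p ^ U.card := pow_pos hp.out.pos _
  have hb1 : b = 1 := by
    obtain ⟨k, hk⟩ := hdvd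
    rw [← h1] at hk
    rw [← h2] at hidx
    -- a * c = p^u * k, b * a * p = p^u
    have ha0 : 0 < a := by
      rcases Nat.eq_zero_or_pos a with h | h
      · rw [h, mul_zero, zero_mul] at hidx
        exact absurd hidx.symm hpos.ne'
      · exact h
    have h3 : a * c = a * (p * (b * k)) := by
      rw [hk, ← hidx]
      ring
    have h4 : c = p * (b * k) := Nat.eq_of_mul_eq_mul_left ha0 h3
    have h5 : b * k ≠ 0 := by
      intro h
      rw [h, mul_zero] at h4
      exact hSI2 h4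
    have h6 : b * k ≤ 1 := by
      have : p * (b * k) ≤ p * 1 := by
        rw [mul_one, ← h4]
        exact hSI1
      exact Nat.le_of_mul_le_mul_left this hp.out.pos
    have h7 : b * k = 1 := by omega
    exact Nat.eq_one_of_mul_eq_one_right h7
  have hle : 𝒩 ⊓ E ≤ NE := Subgroup.relIndex_eq_one.mp hb1
  have hxmem : x ∈ 𝒩 ⊓ E := by
    refine Subgroup.mem_inf.mpr ⟨?_, hxS⟩
    rw [h𝒩]
    simp only [Subgroup.mem_iInf]
    intro v hv
    obtain ⟨hvS, hvn⟩ := (hU v).mp hv
    exact hx v hvS hvn (n v)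
  obtain ⟨y, _, hy⟩ := hle hxmem
  exact ⟨y, hy⟩

/-- The set of primes above a nonzero natural number is finite. -/
theorem fi_finite_dvd (K : Type) [Field K] [NumberField K] (p : ℕ) (hp : p ≠ 0) :
    {v : HeightOneSpectrum (𝓞 K) | (p : 𝓞 K) ∈ v.asIdeal}.Finite := by
  have hp0 : (p : K) ≠ 0 := by exact_mod_cast hp
  refine (fi_finite_support (p : K) hp0).subset ?_
  intro v hv
  have h1 : v.valuation K (algebraMap (𝓞 K) K (p : 𝓞 K)) < 1 :=
    (v.valuation_lt_one_iff_mem _).mpr hv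
  rw [map_natCast] at h1
  exact h1.ne

/-- **Hasse norm theorem** for a cyclic extension of odd prime degree `p` of a number field
containing `ζ_p`, given the second inequality and the properness of the local norm groups at the
nonsplit primes above `p`. -/
theorem fi_hasse_norm_of_si (p : ℕ) [hp : Fact p.Prime] (hp2 : p ≠ 2) (K : Type) [Field K]
    [NumberField K] {ζ : K} (hζ : IsPrimitiveRoot ζ p)
    (L : Type) [Field L] [NumberField L] [Algebra K L] [IsGalois K L]
    (hL : Module.finrank K L = p)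
    (hSI : ∀ (S : Finset (HeightOneSpectrum (𝓞 K))),
      (∀ v : HeightOneSpectrum (𝓞 K), (p : 𝓞 K) ∈ v.asIdeal → v ∈ S) → suPid K S →
      ∀ a : Kˣ, a ∈ (S : Set (HeightOneSpectrum (𝓞 K))).unit K →
      a ∉ (powMonoidHom p : Kˣ →* Kˣ).range →
      ∀ θ : L, θ ^ p = algebraMap K L (a : K) → suPid L (suAbove K L S) →
      ∀ n : HeightOneSpectrum (𝓞 K) → ℕ,
      ((S : Set (HeightOneSpectrum (𝓞 K))).unit K ⊔ ⨅ v ∈ S, ksiNorm K L v (n v)).index ≤ p ∧
      ((S : Set (HeightOneSpectrum (𝓞 K))).unit K ⊔ ⨅ v ∈ S, ksiNorm K L v (n v)).index ≠ 0)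
    (hwild : ∀ v : HeightOneSpectrum (𝓞 K), (p : 𝓞 K) ∈ v.asIdeal → suNonsplit K L v →
      ∃ n, ksiNorm K L v n ≠ ⊤)
    (x : Kˣ) (hx : ∀ v : HeightOneSpectrum (𝓞 K), suNonsplit K L v → ∀ n, x ∈ ksiNorm K L v n) :
    ∃ y : Lˣ, Units.map (Algebra.norm K : L →* K) y = x := by
  classical
  have hp0 : p ≠ 0 := hp.out.ne_zero
  have : NeZero p := ⟨hp0⟩
  have hfd : FiniteDimensional K L := by
    apply Module.finite_of_finrank_pos
    rw [hL]
    exact hp.out.pos
  have hcard : Nat.card (L ≃ₐ[K] L) = p := by rw [IsGalois.card_aut_eq_finrank, hL]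
  have hcyc : IsCyclic (L ≃ₐ[K] L) := isCyclic_of_prime_card hcard
  -- Kummer generator
  have hK : (primitiveRoots (Module.finrank K L) K).Nonempty := by
    rw [hL]
    exact ⟨ζ, (mem_primitiveRoots hp.out.pos).mpr hζ⟩
  obtain ⟨θ, ⟨a, ha⟩, hθtop⟩ := exists_root_adjoin_eq_top_of_isCyclic K L hK
  rw [hL] at ha
  have hθK : θ ∉ (algebraMap K L).range := by
    rintro ⟨c, rfl⟩
    have h1 : IntermediateField.adjoin K {algebraMap K L c} = ⊥ := by
      rw [IntermediateField.adjoin_simple_eq_bot_iff]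
      exact IntermediateField.algebraMap_mem _ c
    rw [h1] at hθtop
    have h2 := congrArg (fun F : IntermediateField K L => Module.finrank K F) hθtop
    simp only [IntermediateField.finrank_bot, IntermediateField.finrank_top'] at h2
    rw [hL] at h2
    exact hp.out.one_lt.ne h2
  have hθ0 : θ ≠ 0 := by
    rintro rfl
    exact hθK ⟨0, map_zero _⟩
  have ha0 : a ≠ 0 := by
    rintro rfl
    rw [map_zero] at ha
    exact pow_ne_zero p hθ0 ha.symm
  have hap : ∀ c : K, c ^ p ≠ a := by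
    intro c hc
    have hc0 : c ≠ 0 := by
      rintro rfl
      rw [zero_pow hp0] at hc
      exact ha0 hc.symm
    have hcL : algebraMap K L c ≠ 0 := (map_ne_zero _).mpr hc0
    have h1 : (θ / algebraMap K L c) ^ p = 1 := by
      rw [div_pow, ← ha, ← hc, map_pow, div_self (pow_ne_zero p hcL)]
    have hζL : IsPrimitiveRoot (algebraMap K L ζ) p :=
      hζ.map_of_injective (algebraMap K L).injective
    obtain ⟨i, _, hi⟩ := hζL.eq_pow_of_pow_eq_one h1
    apply hθK
    refine ⟨ζ ^ i * c, ?_⟩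
    rw [map_mul, map_pow, hi, div_mul_cancel₀ _ hcL]
  set a' : Kˣ := Units.mk0 a ha0 with ha'
  have hap' : a' ∉ (powMonoidHom p : Kˣ →* Kˣ).range := by
    rintro ⟨c, hc⟩
    apply hap (c : K)
    have := congrArg (fun t : Kˣ => (t : K)) hc
    simpa [ha'] using this
  -- the set `S`
  set S0 : Finset (HeightOneSpectrum (𝓞 K)) :=
    (fi_finite_support a ha0).toFinset ∪ (fi_finite_support (x : K) x.ne_zero).toFinset ∪
      (fi_finite_dvd K p hp0).toFinset with hS0
  obtain ⟨S, hS0S, hPID, hPIDL⟩ := su_exists_pid_pair K L S0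
  have hpS : ∀ v : HeightOneSpectrum (𝓞 K), (p : 𝓞 K) ∈ v.asIdeal → v ∈ S := by
    intro v hv
    apply hS0S
    rw [hS0, Finset.mem_union]
    right
    exact (Set.Finite.mem_toFinset _).mpr hv
  have haS : a' ∈ (S : Set (HeightOneSpectrum (𝓞 K))).unit K := by
    intro v hv
    by_contra h
    apply hv
    apply hS0S
    rw [hS0, Finset.mem_union, Finset.mem_union]
    left; left
    exact (Set.Finite.mem_toFinset _).mpr h
  have hxS : x ∈ (S : Set (HeightOneSpectrum (𝓞 K))).unit K := by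
    intro v hv
    by_contra h
    apply hv
    apply hS0S
    rw [hS0, Finset.mem_union, Finset.mem_union]
    left; right
    exact (Set.Finite.mem_toFinset _).mpr h
  have hunr : ∀ w : HeightOneSpectrum (𝓞 L), w.under (𝓞 K) ∉ S →
      ∀ z : K, w.valuation L (algebraMap K L z) = (w.under (𝓞 K)).valuation K z := by
    intro w hw z
    exact fi_kummer_unram p hp.out K L hL a hap θ ha.symm w (fun h => hw (hpS _ h))
      (haS _ hw) z
  have hloc : ∀ v ∈ S, suNonsplit K L v → ∃ n, ksiNorm K L v n ≠ ⊤ := by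
    intro v _ hvn
    by_cases hpv : (p : 𝓞 K) ∈ v.asIdeal
    · exact hwild v hpv hvn
    · exact ⟨1, fi_local_index p hp.out hL hζ v hvn hpv⟩
  exact fi_hasse_norm_aux p hp2 K hζ L hL S hPID hunr hloc
    (hSI S hpS hPID a' haS hap' θ ha.symm hPIDL) x hxS (fun v _ hvn n => hx v hvn n)

end Fermat.Agent.S55
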