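import Fermat.Agent.S55.FiHasseMain
import Fermat.Agent.S55.WildNorm

/-!
# The Hasse norm theorem for cyclic extensions of odd prime degree — hypothesis-free form

`K ∋ ζ_p` a number field, `L / K` Galois of odd prime degree `p`.  If `x ∈ Kˣ` is a local norm
to every precision at all primes of `K` with a unique prime of `L` above them, then `x` is a norm
from `L`.
-/

set_option autoImplicit false

namespace Fermat.Agent.S55

open IsDedekindDomain NumberField WithZero

/-- **Hasse norm theorem** for a cyclic extension of odd prime degree `p` of a number field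
containing the `p`-th roots of unity (completions-free form). -/
theorem fi_hasse_norm_final (p : ℕ) [hp : Fact p.Prime] (hp2 : p ≠ 2) (K : Type) [Field K]
    [NumberField K] {ζ : K} (hζ : IsPrimitiveRoot ζ p)
    (L : Type) [Field L] [NumberField L] [Algebra K L] [IsGalois K L]
    (hL : Module.finrank K L = p)
    (x : Kˣ) (hx : ∀ v : HeightOneSpectrum (𝓞 K), suNonsplit K L v → ∀ n, x ∈ ksiNorm K L v n) :
    ∃ y : Lˣ, Units.map (Algebra.norm K : L →* K) y = x :=
  fi_hasse_norm p hp2 K hζ L hL (fun v _ hns => wild_norm_index p K L hL v hns) x hx

end Fermat.Agent.S55
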