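import Mathlib

/-!
# Kummer extensions are unramified at primes not dividing `p` where the radicand is a unit

`L = K(θ)`, `θ ^ p = x`, `[L : K] = p` prime, `x` not a `p`-th power in `K`.  If `w` is a prime
of `L` above `v`, `v ∤ p` and `v(x) = 1`, then `w(z) = v(z)` for all `z ∈ K`
(`fi_kummer_unram`), i.e. `e(w | v) = 1`.  The proof uses the different ideal: `p θ'^(p-1)` lies
in the different for an integral generator `θ'`, and is prime to `w`.
-/

set_option autoImplicit false

namespace Fermat.Agent.S55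

open IsDedekindDomain NumberField Polynomial IntermediateField

/-- An element of `L` which is a root of `X ^ p - a` with `a` integral is integral. -/
theorem fi_isIntegral_of_pow {L : Type*} [Field L] (p : ℕ) (hp : 0 < p) (θ : L)
    (h : IsIntegral ℤ (θ ^ p)) : IsIntegral ℤ θ :=
  IsIntegral.of_pow hp h

/-- If `[L : K] = p` is prime and `θ ∉ K` then `K[θ] = L`. -/
theorem fi_adjoin_eq_top_of_prime {K L : Type*} [Field K] [Field L] [Algebra K L]
    (p : ℕ) (hp : p.Prime) (hL : Module.finrank K L = p) (θ : L)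
    (hθ : θ ∉ (algebraMap K L).range) : Algebra.adjoin K {θ} = ⊤ := by
  have hfd : FiniteDimensional K L := by
    apply Module.finite_of_finrank_pos
    rw [hL]
    exact hp.pos
  have hint : IsIntegral K θ := Algebra.IsIntegral.isIntegral θ
  have := IntermediateField.isSimpleOrder_of_finrank_prime K L (hL ▸ hp)
  have h1 : K⟮θ⟯ = ⊤ := by
    rcases eq_bot_or_eq_top K⟮θ⟯ with h | h
    · exfalso
      apply hθ
      have h2 : θ ∈ (⊥ : IntermediateField K L) := by
        rw [← h]
        exact IntermediateField.mem_adjoin_simple_self K θ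
      rw [IntermediateField.mem_bot] at h2
      obtain ⟨c, hc⟩ := h2
      exact ⟨c, hc⟩
    · exact h
  have h2 := IntermediateField.adjoin_simple_toSubalgebra_of_isAlgebraic hint.isAlgebraic
  rw [h1] at h2
  rw [← h2]
  rfl

/-- **Kummer extensions are unramified** at primes not above `p` where the radicand is a unit:
valuation form. -/
theorem fi_kummer_unram (p : ℕ) (hp : p.Prime) (K : Type*) [Field K] [NumberField K]
    (L : Type*) [Field L] [NumberField L] [Algebra K L] (hL : Module.finrank K L = p)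
    (x : K) (hxp : ∀ c : K, c ^ p ≠ x) (θ : L) (hθ : θ ^ p = algebraMap K L x)
    (w : HeightOneSpectrum (𝓞 L)) (hpw : (p : 𝓞 K) ∉ (w.under (𝓞 K)).asIdeal)
    (hx : (w.under (𝓞 K)).valuation K x = 1) (z : K) :
    w.valuation L (algebraMap K L z) = (w.under (𝓞 K)).valuation K z := by
  set v := w.under (𝓞 K) with hv
  have hfd : FiniteDimensional K L := by
    apply Module.finite_of_finrank_pos
    rw [hL]
    exact hp.pos
  -- clear denominators
  obtain ⟨n, ⟨d, hd⟩, hnd⟩ := v.exists_primeCompl_mul_eq_of_integer x hx.le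
  have hd0 : (d : 𝓞 K) ≠ 0 := by
    rintro rfl
    exact hd v.asIdeal.zero_mem
  have hdv : v.valuation K (algebraMap (𝓞 K) K d) = 1 := by
    rw [HeightOneSpectrum.valuation_of_algebraMap]
    exact (v.intValuation_eq_one_iff_mem_primeCompl d).mpr hd
  have hnv : n ∉ v.asIdeal := by
    have h1 : v.valuation K (algebraMap (𝓞 K) K n) = 1 := by
      rw [← hnd, map_mul, hx, hdv, mul_one]
    rw [HeightOneSpectrum.valuation_of_algebraMap] at h1
    exact (v.intValuation_eq_one_iff_mem_primeCompl n).mp h1
  -- the integral generator `θ' = θ d`, `θ' ^ p = x' = n d^(p-1)`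
  set x' : 𝓞 K := n * d ^ (p - 1) with hx'
  have hx'v : x' ∉ v.asIdeal := by
    intro h
    rcases v.isPrime.mem_or_mem h with h | h
    · exact hnv h
    · exact hd (v.isPrime.mem_of_pow_mem _ h)
  have hpp : p - 1 + 1 = p := Nat.sub_add_cancel hp.pos
  have hθ' : (θ * algebraMap K L (algebraMap (𝓞 K) K d)) ^ p =
      algebraMap K L (algebraMap (𝓞 K) K x') := by
    rw [mul_pow, hθ, hx', map_mul, map_mul, map_pow, map_pow, ← hnd, map_mul]
    conv_lhs => rw [← hpp, pow_succ]
    ring
  have hint : IsIntegral ℤ (θ * algebraMap K L (algebraMap (𝓞 K) K d)) := by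
    apply IsIntegral.of_pow hp.pos
    rw [hθ']
    have h1 : IsIntegral ℤ (algebraMap (𝓞 K) K x') := RingOfIntegers.isIntegral_coe x'
    exact h1.map (IsScalarTower.toAlgHom ℤ K L)
  set t : 𝓞 L := ⟨θ * algebraMap K L (algebraMap (𝓞 K) K d), hint⟩ with ht
  have htp : t ^ p = algebraMap (𝓞 K) (𝓞 L) x' := by
    apply RingOfIntegers.ext
    rw [RingOfIntegers.coe_eq_algebraMap, map_pow]
    exact hθ'
  -- `θ'` generates
  have hgen : Algebra.adjoin K {algebraMap (𝓞 L) L t} = ⊤ := by
    apply fi_adjoin_eq_top_of_prime p hp hL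
    rintro ⟨c, hc⟩
    have hdL : algebraMap K L (algebraMap (𝓞 K) K d) ≠ 0 := by
      rw [Ne, map_eq_zero, map_eq_zero_iff _ (FaithfulSMul.algebraMap_injective (𝓞 K) K)]
      exact hd0
    have hdK : algebraMap (𝓞 K) K d ≠ 0 := by
      rw [Ne, map_eq_zero_iff _ (FaithfulSMul.algebraMap_injective (𝓞 K) K)]
      exact hd0
    apply hxp (c / algebraMap (𝓞 K) K d)
    apply (algebraMap K L).injective
    rw [map_pow, map_div₀, ← hθ]
    have h2 : algebraMap K L c = θ * algebraMap K L (algebraMap (𝓞 K) K d) := hc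
    rw [h2, mul_div_assoc, div_self hdL, mul_one]
  -- the minimal polynomial
  have htint : IsIntegral (𝓞 K) t := Algebra.IsIntegral.isIntegral t
  have hminK : (minpoly K (algebraMap (𝓞 L) L t)).natDegree = p := by
    have h1 := IntermediateField.adjoin.finrank
      (Algebra.IsIntegral.isIntegral (R := K) (algebraMap (𝓞 L) L t))
    have h2 : K⟮algebraMap (𝓞 L) L t⟯ = ⊤ := by
      apply IntermediateField.toSubalgebra_injective
      rw [IntermediateField.adjoin_simple_toSubalgebra_of_isAlgebraic
        (Algebra.IsIntegral.isIntegral (R := K) (algebraMap (𝓞 L) L t)).isAlgebraic, hgen]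
      rfl
    rw [← h1, h2, IntermediateField.finrank_top', hL]
  have hmin : minpoly (𝓞 K) t = X ^ p - C x' := by
    have hmon : (X ^ p - C x' : (𝓞 K)[X]).Monic := monic_X_pow_sub_C x' hp.ne_zero
    have hdeg : (X ^ p - C x' : (𝓞 K)[X]).natDegree = p := natDegree_X_pow_sub_C
    have hroot : aeval t (X ^ p - C x' : (𝓞 K)[X]) = 0 := by
      rw [map_sub, map_pow, aeval_X, aeval_C, htp, sub_self]
    have hdvd : minpoly (𝓞 K) t ∣ X ^ p - C x' := minpoly.isIntegrallyClosed_dvd htint hroot
    have hdeg2 : (minpoly (𝓞 K) t).natDegree = p := by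
      have h1 := minpoly.isIntegrallyClosed_eq_field_fractions K L htint
      rw [← hminK, h1, (minpoly.monic htint).natDegree_map]
    exact (Polynomial.eq_of_monic_of_dvd_of_natDegree_le (minpoly.monic htint) hmon hdvd
      (by rw [hdeg, hdeg2])).symm
  -- the derivative lies in the different
  have hdiff := aeval_derivative_mem_differentIdeal (𝓞 K) K L t hgen
  rw [hmin] at hdiff
  have hder : aeval t (derivative (X ^ p - C x' : (𝓞 K)[X])) = (p : 𝓞 L) * t ^ (p - 1) := by
    rw [derivative_sub, derivative_C, sub_zero, derivative_X_pow, map_mul, map_pow, aeval_X,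
      aeval_C, map_natCast]
  rw [hder] at hdiff
  -- it is prime to `w`
  have hnotw : (p : 𝓞 L) * t ^ (p - 1) ∉ w.asIdeal := by
    intro h
    rcases w.isPrime.mem_or_mem h with h | h
    · apply hpw
      have h2 : algebraMap (𝓞 K) (𝓞 L) (p : 𝓞 K) ∈ w.asIdeal := by
        rw [map_natCast]
        exact h
      exact h2
    · have h2 : t ^ p ∈ w.asIdeal := Ideal.pow_mem_of_mem _ (w.isPrime.mem_of_pow_mem _ h) p hp.pos
      rw [htp] at h2
      exact hx'v h2
  -- ramification index one
  have hlies : w.asIdeal.LiesOver v.asIdeal := ⟨rfl⟩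
  have hvmax : v.asIdeal.IsMaximal := v.isMaximal
  have he : v.asIdeal.ramificationIdx' w.asIdeal = 1 := by
    apply Ideal.ramificationIdx'_spec
    · rw [pow_one]
      exact Ideal.map_comap_le
    · intro hle
      have h2 : w.asIdeal ^ 2 ∣ v.asIdeal.map (algebraMap (𝓞 K) (𝓞 L)) := Ideal.dvd_iff_le.mpr hle
      have h3 := pow_sub_one_dvd_differentIdeal_aux (𝓞 K) K L w.asIdeal (by norm_num : (2 : ℕ) ≠ 0)
        v.ne_bot h2
      have h4 : differentIdeal (𝓞 K) (𝓞 L) ≤ w.asIdeal := by
        have h5 := Ideal.dvd_iff_le.mp h3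
        simpa using h5
      exact hnotw (h4 hdiff)
  have hval := HeightOneSpectrum.valuation_liesOver L v w z
  rw [he, pow_one] at hval
  exact hval.symm

end Fermat.Agent.S55
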