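import Fermat.Agent.S55.FiUnits
import Fermat.Agent.S55.FiKummer
import Fermat.Agent.S55.SUnitHq
import Fermat.Agent.S55.SUnitPid

/-!
# The unit index `[E_S(K) : N E_S(L)] = p ^ (u - 1)`

`L / K` a Galois extension of number fields of odd prime degree `p`, `S` a finite set of primes of
`K` with `Cl_S(K) = 1` outside of which `L / K` is unramified, `u` the number of primes in `S`
with a unique prime of `L` above them.  Then the norms of the `S`-units of `L` have index
`p ^ (u - 1)` in the `S`-units of `K` (`fi_norm_relIndex`).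
-/

set_option autoImplicit false

namespace Fermat.Agent.S55

open IsDedekindDomain NumberField WithZero

variable {K L : Type} [Field K] [NumberField K] [Field L] [NumberField L] [Algebra K L]

theorem fiUnder_eq_under (w : HeightOneSpectrum (𝓞 L)) : fiUnder K w = w.under (𝓞 K) := by
  apply HeightOneSpectrum.ext
  rfl

section Galois

variable [IsGalois K L]

/-- The product over the powers of a generator is the norm. -/
theorem fi_prod_pow_eq_norm (σ : L ≃ₐ[K] L) (hσ : ∀ τ : L ≃ₐ[K] L, τ ∈ Subgroup.zpowers σ)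
    (p : ℕ) (hcard : Nat.card (L ≃ₐ[K] L) = p) (y : L) :
    ∏ i ∈ Finset.range p, (σ ^ i) y = algebraMap K L (Algebra.norm K y) := by
  classical
  have hord : orderOf σ = p := by
    rw [orderOf_eq_card_of_forall_mem_zpowers hσ, hcard]
  rw [Algebra.norm_eq_prod_automorphisms]
  have himg : Finset.image (fun i => σ ^ i) (Finset.range (orderOf σ)) = Finset.univ := by
    rw [Finset.eq_univ_iff_forall]
    intro τ
    obtain ⟨k, hk⟩ := (mem_powers_iff_mem_zpowers.mpr (hσ τ))
    rw [Finset.mem_image]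
    refine ⟨k % orderOf σ, Finset.mem_range.mpr (Nat.mod_lt _ (orderOf_pos σ)), ?_⟩
    change σ ^ (k % orderOf σ) = τ
    rw [pow_mod_orderOf]
    exact hk
  rw [← himg, Finset.prod_image, hord]
  intro i hi j hj hij
  have hi' : i < orderOf σ := Finset.mem_range.mp hi
  have hj' : j < orderOf σ := Finset.mem_range.mp hj
  exact pow_injOn_Iio_orderOf hi' hj' hij

variable (S : Finset (HeightOneSpectrum (𝓞 K))) (SL : Finset (HeightOneSpectrum (𝓞 L)))

/-- The norm of an `S_L`-unit is an `S`-unit. -/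
theorem fi_norm_mem (hSL : ∀ w : HeightOneSpectrum (𝓞 L), w ∈ SL ↔ w.under (𝓞 K) ∈ S)
    (y : Lˣ) (hy : y ∈ (SL : Set (HeightOneSpectrum (𝓞 L))).unit L) :
    Units.map (Algebra.norm K : L →* K) y ∈ (S : Set (HeightOneSpectrum (𝓞 K))).unit K := by
  intro v hv
  obtain ⟨w, rfl⟩ := su_exists_under (L := L) v
  change (w.under (𝓞 K)).valuation K (Algebra.norm K (y : L)) = 1
  rw [← su_valuation_algebraMap_eq_one_iff, Algebra.norm_eq_prod_automorphisms, map_prod]
  apply Finset.prod_eq_one
  intro τ _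
  rw [su_valuation_algEquiv]
  apply hy
  intro hmem
  apply hv
  have h1 : suComap τ w ∈ SL := hmem
  rw [hSL, suComap_under] at h1
  exact h1

/-- `H¹(G, E_S(L)) = 0` in the language of `suAct`. -/
theorem fi_units_h1_su (hSL : ∀ w : HeightOneSpectrum (𝓞 L), w ∈ SL ↔ w.under (𝓞 K) ∈ S)
    (σ : L ≃ₐ[K] L) (hσ : ∀ τ : L ≃ₐ[K] L, τ ∈ Subgroup.zpowers σ) (hpid : suPid K S)
    (hunr : ∀ w : HeightOneSpectrum (𝓞 L), w.under (𝓞 K) ∉ S →
      ∀ x : K, w.valuation L (algebraMap K L x) = (w.under (𝓞 K)).valuation K x)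
    (e : (SL : Set (HeightOneSpectrum (𝓞 L))).unit L)
    (hN : Algebra.norm K (((e : Lˣ) : L)) = 1) :
    ∃ e' : (SL : Set (HeightOneSpectrum (𝓞 L))).unit L, e' / suAct S SL hSL σ e' = e := by
  have hmemS : ∀ w : HeightOneSpectrum (𝓞 L),
      w ∉ fiAbove K L (S : Set (HeightOneSpectrum (𝓞 K))) → w ∉ (SL : Set _) := by
    intro w hw hmem
    apply hw
    change fiUnder K w ∈ (S : Set _)
    rw [fiUnder_eq_under]
    exact (hSL w).mp hmem
  have hmemS' : ∀ w : HeightOneSpectrum (𝓞 L),
      w ∉ (SL : Set _) → w ∉ fiAbove K L (S : Set (HeightOneSpectrum (𝓞 K))) := by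
    intro w hw hmem
    apply hw
    have h1 : fiUnder K w ∈ (S : Set _) := hmem
    rw [fiUnder_eq_under] at h1
    exact (hSL w).mpr h1
  have hpid' : fiPID K (S : Set (HeightOneSpectrum (𝓞 K))) := hpid
  have hunr' : fiUnram K L (S : Set (HeightOneSpectrum (𝓞 K))) := by
    intro w hw x
    rw [fiUnder_eq_under] at hw ⊢
    exact hunr w hw x
  obtain ⟨e', he', hee⟩ := fi_units_h1 (S : Set (HeightOneSpectrum (𝓞 K))) σ hσ hpid' hunr'
    ((e : Lˣ) : L) (fun w hw => e.2 w (hmemS w hw)) hN
  refine ⟨⟨e', fun w hw => he' w (hmemS' w hw)⟩, ?_⟩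
  apply Subtype.ext
  apply Units.ext
  rw [Subgroup.coe_div, Units.val_div_eq_div_val, suAct_apply]
  exact hee

/-- **The unit index**: `[E_S(K) : N E_S(L)] · p = p ^ u`. -/
theorem fi_norm_relIndex (p : ℕ) (hp : p.Prime) (hp2 : p ≠ 2) (hdeg : Module.finrank K L = p)
    (U : Finset (HeightOneSpectrum (𝓞 K)))
    (hSL : ∀ w : HeightOneSpectrum (𝓞 L), w ∈ SL ↔ w.under (𝓞 K) ∈ S)
    (hU : ∀ v, v ∈ U ↔ v ∈ S ∧ suNonsplit K L v) (hpid : suPid K S)
    (hunr : ∀ w : HeightOneSpectrum (𝓞 L), w.under (𝓞 K) ∉ S →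
      ∀ x : K, w.valuation L (algebraMap K L x) = (w.under (𝓞 K)).valuation K x) :
    (((SL : Set (HeightOneSpectrum (𝓞 L))).unit L).map
      (Units.map (Algebra.norm K : L →* K))).relIndex
        ((S : Set (HeightOneSpectrum (𝓞 K))).unit K) * p = p ^ U.card := by
  classical
  have hcard : Nat.card (L ≃ₐ[K] L) = p := by rw [IsGalois.card_aut_eq_finrank, hdeg]
  -- a generator
  obtain ⟨σ, hσ1⟩ : ∃ σ : L ≃ₐ[K] L, σ ≠ 1 := by
    by_contra h
    push Not at h
    have : Subsingleton (L ≃ₐ[K] L) := ⟨fun a b => by rw [h a, h b]⟩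
    have h1 : Nat.card (L ≃ₐ[K] L) = 1 := Nat.card_unique
    rw [hcard] at h1
    exact hp.one_lt.ne' h1
  have : Fact p.Prime := ⟨hp⟩
  have hgen : ∀ τ : L ≃ₐ[K] L, τ ∈ Subgroup.zpowers σ := by
    intro τ
    rw [zpowers_eq_top_of_prime_card hcard hσ1]
    exact Subgroup.mem_top τ
  -- the maps `D` and `N`
  set T := suActAdd S SL hSL σ with hT
  set D : Additive ((SL : Set (HeightOneSpectrum (𝓞 L))).unit L) →+
      Additive ((SL : Set (HeightOneSpectrum (𝓞 L))).unit L) := T - AddMonoidHom.id _ with hDdef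
  set N : Additive ((SL : Set (HeightOneSpectrum (𝓞 L))).unit L) →+
      Additive ((SL : Set (HeightOneSpectrum (𝓞 L))).unit L) :=
    ∑ i ∈ Finset.range p, suActAdd S SL hSL (σ ^ i) with hNdef
  have hD : ∀ x, D x = suActAdd S SL hSL σ x - x := fun x => rfl
  have hN : ∀ x, N x = ∑ i ∈ Finset.range p, (⇑(suActAdd S SL hSL σ))^[i] x := by
    intro x
    rw [hNdef, AddMonoidHom.finsetSum_apply]
    exact Finset.sum_congr rfl (fun i _ => (suActAdd_iterate S SL hSL σ i x).symm)
  obtain ⟨h1, h2, h3⟩ := su_hq_units S SL p hp hp2 hdeg σ hσ1 U hSL hU D N hD hN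
  -- the value of `N` in multiplicative terms
  have hNval : ∀ x : (SL : Set (HeightOneSpectrum (𝓞 L))).unit L,
      (((Additive.toMul (N (Additive.ofMul x)) : (SL : Set (HeightOneSpectrum (𝓞 L))).unit L) : Lˣ)
        : L) = algebraMap K L (Algebra.norm K ((x : Lˣ) : L)) := by
    intro x
    rw [← fi_prod_pow_eq_norm σ hgen p hcard, hNdef, AddMonoidHom.finsetSum_apply]
    have h4 : ∀ (s : Finset ℕ), (((Additive.toMul (∑ i ∈ s, suActAdd S SL hSL (σ ^ i)
        (Additive.ofMul x)) : (SL : Set (HeightOneSpectrum (𝓞 L))).unit L) : Lˣ) : L) =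
        ∏ i ∈ s, (σ ^ i) ((x : Lˣ) : L) := by
      intro s
      induction s using Finset.induction_on with
      | empty => simp
      | insert a s ha ih =>
        rw [Finset.sum_insert ha, Finset.prod_insert ha, ← ih, suActAdd_apply]
        rfl
    exact h4 _
  -- `H¹ = 0`
  have hH1 : hq N D = 1 := by
    rw [hq, AddSubgroup.relIndex_eq_one]
    intro x hx
    obtain ⟨x, rfl⟩ := Additive.ofMul.surjective x
    rw [AddMonoidHom.mem_ker] at hx
    have hx' : Algebra.norm K ((x : Lˣ) : L) = 1 := by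
      apply (algebraMap K L).injective
      rw [← hNval x, hx, map_one]
      rfl
    obtain ⟨e', he'⟩ := fi_units_h1_su S SL hSL σ hgen hpid hunr x hx'
    refine ⟨Additive.ofMul e'⁻¹, ?_⟩
    rw [hD, suActAdd_apply, ← ofMul_div, ← he']
    congr 1
    rw [map_inv, inv_div_inv]
  rw [hH1, one_mul] at h3
  -- `Ĥ⁰`
  rw [← h3]
  congr 1
  rw [hq]
  -- transport along `suBase`
  set ι : Additive ((S : Set (HeightOneSpectrum (𝓞 K))).unit K) →+
      Additive ((SL : Set (HeightOneSpectrum (𝓞 L))).unit L) :=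
    MonoidHom.toAdditive (suBase S SL hSL) with hι
  have hιinj : Function.Injective ι := fun x y h => by
    obtain ⟨x, rfl⟩ := Additive.ofMul.surjective x
    obtain ⟨y, rfl⟩ := Additive.ofMul.surjective y
    have : suBase S SL hSL x = suBase S SL hSL y := Additive.ofMul.injective h
    rw [suBase_injective S SL hSL this]
  have hker : D.ker = AddSubgroup.map ι ⊤ := by
    ext x
    obtain ⟨x, rfl⟩ := Additive.ofMul.surjective x
    rw [AddMonoidHom.mem_ker, hD, sub_eq_zero, suActAdd_apply, AddSubgroup.mem_map]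
    constructor
    · intro h
      obtain ⟨z, hz⟩ := su_fixed S SL hSL σ hgen x (Additive.ofMul.injective h)
      exact ⟨Additive.ofMul z, AddSubgroup.mem_top _, congrArg Additive.ofMul hz⟩
    · rintro ⟨z, _, hz⟩
      obtain ⟨z, rfl⟩ := Additive.ofMul.surjective z
      have hz' : suBase S SL hSL z = x := Additive.ofMul.injective hz
      congr 1
      apply Subtype.ext
      apply Units.ext
      rw [suAct_apply, ← hz', suBase_apply]
      exact σ.commutes _
  -- the norm subgroup inside `E_S(K)`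
  set NE : Subgroup Kˣ := ((SL : Set (HeightOneSpectrum (𝓞 L))).unit L).map
      (Units.map (Algebra.norm K : L →* K)) with hNE
  have hNEle : NE ≤ (S : Set (HeightOneSpectrum (𝓞 K))).unit K := by
    rintro _ ⟨y, hy, rfl⟩
    exact fi_norm_mem S SL hSL y hy
  set NE' : AddSubgroup (Additive ((S : Set (HeightOneSpectrum (𝓞 K))).unit K)) :=
    Subgroup.toAddSubgroup (NE.subgroupOf ((S : Set (HeightOneSpectrum (𝓞 K))).unit K)) with hNE'
  have hrange : N.range = AddSubgroup.map ι NE' := by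
    ext x
    obtain ⟨x, rfl⟩ := Additive.ofMul.surjective x
    rw [AddMonoidHom.mem_range, AddSubgroup.mem_map]
    constructor
    · rintro ⟨y, hy⟩
      obtain ⟨y, rfl⟩ := Additive.ofMul.surjective y
      have hmem : Units.map (Algebra.norm K : L →* K) (y : Lˣ) ∈
          (S : Set (HeightOneSpectrum (𝓞 K))).unit K := fi_norm_mem S SL hSL y y.2
      refine ⟨Additive.ofMul ⟨_, hmem⟩, ?_, ?_⟩
      · change (⟨_, hmem⟩ : (S : Set (HeightOneSpectrum (𝓞 K))).unit K) ∈
          NE.subgroupOf ((S : Set (HeightOneSpectrum (𝓞 K))).unit K)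
        rw [Subgroup.mem_subgroupOf]
        exact ⟨y, y.2, rfl⟩
      · rw [← hy]
        change Additive.ofMul (suBase S SL hSL ⟨_, hmem⟩) =
          Additive.ofMul (Additive.toMul (N (Additive.ofMul y)))
        refine congrArg Additive.ofMul (Subtype.ext (Units.ext ?_))
        rw [suBase_apply]
        exact (hNval y).symm
    · rintro ⟨z, hz, hzx⟩
      obtain ⟨z, rfl⟩ := Additive.ofMul.surjective z
      have hz' : z ∈ NE.subgroupOf ((S : Set (HeightOneSpectrum (𝓞 K))).unit K) := hz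
      rw [Subgroup.mem_subgroupOf] at hz'
      obtain ⟨y, hy, hyz⟩ := hz'
      refine ⟨Additive.ofMul ⟨y, hy⟩, ?_⟩
      rw [← hzx]
      change Additive.ofMul (Additive.toMul (N (Additive.ofMul
        (⟨y, hy⟩ : (SL : Set (HeightOneSpectrum (𝓞 L))).unit L)))) =
          Additive.ofMul (suBase S SL hSL z)
      refine congrArg Additive.ofMul (Subtype.ext (Units.ext ?_))
      rw [hNval, suBase_apply, ← hyz]
      rfl
  rw [hker, hrange, AddSubgroup.relIndex_map_map_of_injective _ _ hιinj, AddSubgroup.relIndex_top_right,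
    hNE', Subgroup.index_toAddSubgroup]
  rfl

end Galois

end Fermat.Agent.S55
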