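import Fermat.Agent.S55.KsiTorsion

set_option autoImplicit false

/-!
# S55 block KSI: the global bound for the index of the local `p`-th powers at `S`
-/

namespace Fermat.Agent.S55

open IsDedekindDomain NumberField WithZero

variable {K : Type*} [Field K] [NumberField K]

/-- `d_v = ord_v (1 - ζ)`. -/
noncomputable def ksiD (ζ : K) (v : HeightOneSpectrum (𝓞 K)) : ℕ :=
  (-(log (v.valuation K (1 - ζ)))).toNat

theorem ksiD_spec (p : ℕ) [hp : Fact p.Prime] {ζ : K} (hζ : IsPrimitiveRoot ζ p)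
    (v : HeightOneSpectrum (𝓞 K)) :
    v.valuation K (1 - ζ) = exp (-(ksiD ζ v : ℤ)) := by
  have hp0 : p ≠ 0 := hp.out.ne_zero
  have h1 : (1 : K) - ζ ≠ 0 := sub_ne_zero.mpr (hζ.ne_one hp.out.one_lt).symm
  have h2 : v.valuation K (1 - ζ) ≠ 0 := (Valuation.ne_zero_iff _).mpr h1
  have hvζ : v.valuation K ζ = 1 :=
    ksi_val_eq_one_of_pow hp0 (by rw [hζ.pow_eq_one, map_one])
  have h3 : v.valuation K (1 - ζ) ≤ 1 := by
    refine (Valuation.map_sub _ _ _).trans (max_le ?_ hvζ.le)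
    rw [map_one]
  have h4 : log (v.valuation K (1 - ζ)) ≤ 0 := by
    rw [← exp_log h2, ← exp_zero, exp_le_exp] at h3
    exact h3
  have h5 : ((ksiD ζ v : ℕ) : ℤ) = -(log (v.valuation K (1 - ζ))) := by
    unfold ksiD
    omega
  rw [h5, neg_neg, exp_log h2]

theorem ksi_val_p (p : ℕ) [hp : Fact p.Prime] {ζ : K} (hζ : IsPrimitiveRoot ζ p)
    (v : HeightOneSpectrum (𝓞 K)) :
    v.valuation K (p : K) = exp (-(((p - 1) * ksiD ζ v : ℕ) : ℤ)) := by
  have hp0 : p ≠ 0 := hp.out.ne_zero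
  have hp1 : p - 1 + 1 = p := Nat.sub_add_cancel hp.out.pos
  have hζ' : IsPrimitiveRoot ζ (p - 1 + 1) := by rw [hp1]; exact hζ
  have hprod := IsPrimitiveRoot.prod_one_sub_pow_eq_order hζ'
  have hcast : ((p - 1 : ℕ) : K) + 1 = (p : K) := by
    have : ((p - 1 + 1 : ℕ) : K) = (p : K) := by rw [hp1]
    rw [← this]; push_cast; ring
  rw [hcast] at hprod
  rw [← hprod, map_prod]
  have hfac : ∀ k ∈ Finset.range (p - 1),
      v.valuation K (1 - ζ ^ (k + 1)) = exp (-(ksiD ζ v : ℤ)) := by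
    intro k hk
    rw [Finset.mem_range] at hk
    have hne : (1 : K) ≠ ζ ^ (k + 1) :=
      (hζ.pow_ne_one_of_pos_of_lt (Nat.succ_ne_zero k) (by omega)).symm
    rw [ksi_val_root_sub_root p hζ v (one_pow p)
      (by rw [← pow_mul, mul_comm, pow_mul, hζ.pow_eq_one, one_pow]) hne, ksiD_spec p hζ v]
  rw [Finset.prod_congr rfl hfac, Finset.prod_const, Finset.card_range, ← exp_nsmul]
  congr 1
  push_cast
  simp only [nsmul_eq_mul]
  ring

theorem ksi_natCast_mem_pow (p : ℕ) [hp : Fact p.Prime] {ζ : K} (hζ : IsPrimitiveRoot ζ p)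
    (v : HeightOneSpectrum (𝓞 K)) :
    (p : 𝓞 K) ∈ v.asIdeal ^ ((p - 1) * ksiD ζ v) := by
  rw [← HeightOneSpectrum.intValuation_le_pow_iff_mem,
    ← HeightOneSpectrum.valuation_of_algebraMap (K := K)]
  have : algebraMap (𝓞 K) K (p : 𝓞 K) = (p : K) := by simp
  have h2 := ksi_val_p p hζ v
  rw [← this] at h2
  exact h2.le

/-- `∏_{v ∈ S} N(v)^((p-1) d_v)` divides `p^[K:ℚ]`. -/
theorem ksi_prod_card_dvd (p : ℕ) [hp : Fact p.Prime] {ζ : K} (hζ : IsPrimitiveRoot ζ p)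
    (S : Finset (HeightOneSpectrum (𝓞 K))) :
    ∏ v ∈ S, Nat.card (𝓞 K ⧸ v.asIdeal) ^ ((p - 1) * ksiD ζ v) ∣
      p ^ Module.finrank ℚ K := by
  classical
  set I : Ideal (𝓞 K) := ∏ v ∈ S, v.asIdeal ^ ((p - 1) * ksiD ζ v) with hI
  have hnorm : Ideal.absNorm I = ∏ v ∈ S, Nat.card (𝓞 K ⧸ v.asIdeal) ^ ((p - 1) * ksiD ζ v) := by
    rw [hI, map_prod]
    refine Finset.prod_congr rfl (fun v _ => ?_)
    rw [map_pow, Ideal.absNorm_apply, Submodule.cardQuot_apply]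
  have hle : Ideal.span {(p : 𝓞 K)} ≤ I := by
    rw [hI, ← HeightOneSpectrum.inf_pow_eq_prod S (fun v => (p - 1) * ksiD ζ v) (fun v => v)
      (fun i _ j _ hij => hij)]
    rw [Ideal.span_le, Set.singleton_subset_iff, SetLike.mem_coe, Finset.inf_eq_iInf,
      Submodule.mem_iInf]
    intro v
    rw [Submodule.mem_iInf]
    intro _
    exact ksi_natCast_mem_pow p hζ v
  have h1 := Ideal.absNorm_dvd_absNorm_of_le hle
  rw [hnorm, Ideal.absNorm_span_singleton] at h1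
  have h2 : (Algebra.norm ℤ (p : 𝓞 K)).natAbs = p ^ Module.finrank ℚ K := by
    have : (p : 𝓞 K) = algebraMap ℤ (𝓞 K) (p : ℤ) := by simp
    rw [this, Algebra.norm_algebraMap, RingOfIntegers.rank, Int.natAbs_pow, Int.natAbs_natCast]
  rwa [h2] at h1

/-- The index of the subgroup of elements which are local `p`-th powers at all `v ∈ S`. -/
theorem ksi_index_iInf_ksiPow (p : ℕ) [hp : Fact p.Prime] {ζ : K} (hζ : IsPrimitiveRoot ζ p)
    (S : Finset (HeightOneSpectrum (𝓞 K))) (n : HeightOneSpectrum (𝓞 K) → ℕ)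
    (hn : ∀ v ∈ S, p * ksiD ζ v < n v) :
    (⨅ v ∈ S, ksiPow K p v (n v)).index ≤
        ∏ v ∈ S, (p * (p * Nat.card (𝓞 K ⧸ v.asIdeal) ^ ((p - 1) * ksiD ζ v))) ∧
      (⨅ v ∈ S, ksiPow K p v (n v)).index ≠ 0 := by
  classical
  induction S using Finset.induction_on with
  | empty => simp
  | insert a s ha ih =>
    have ih' := ih (fun v hv => hn v (Finset.mem_insert_of_mem hv))
    have h1 := ksi_index_ksiPow p hζ a (ksiD ζ a) (ksiD_spec p hζ a) (n a)
      (hn a (Finset.mem_insert_self a s))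
    rw [Finset.iInf_insert, Finset.prod_insert ha]
    refine ⟨Subgroup.index_inf_le.trans (Nat.mul_le_mul h1.1 ih'.1), ?_⟩
    exact Subgroup.index_inf_ne_zero h1.2 ih'.2

/-- Numerical form: the index is at most `p^(2 #S + [K:ℚ])`. -/
theorem ksi_index_iInf_ksiPow_le (p : ℕ) [hp : Fact p.Prime] {ζ : K} (hζ : IsPrimitiveRoot ζ p)
    (S : Finset (HeightOneSpectrum (𝓞 K))) (n : HeightOneSpectrum (𝓞 K) → ℕ)
    (hn : ∀ v ∈ S, p * ksiD ζ v < n v) :
    (⨅ v ∈ S, ksiPow K p v (n v)).index ≤ p ^ (2 * S.card + Module.finrank ℚ K) ∧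
      (⨅ v ∈ S, ksiPow K p v (n v)).index ≠ 0 := by
  have h := ksi_index_iInf_ksiPow p hζ S n hn
  refine ⟨h.1.trans ?_, h.2⟩
  have h2 : ∏ v ∈ S, (p * (p * Nat.card (𝓞 K ⧸ v.asIdeal) ^ ((p - 1) * ksiD ζ v)))
      = p ^ (2 * S.card) * ∏ v ∈ S, Nat.card (𝓞 K ⧸ v.asIdeal) ^ ((p - 1) * ksiD ζ v) := by
    rw [Finset.prod_mul_distrib, Finset.prod_mul_distrib, Finset.prod_const, ← mul_assoc,
      ← pow_add, two_mul]
  rw [h2, pow_add]
  exact Nat.mul_le_mul_left _ (Nat.le_of_dvd (pow_pos hp.out.pos _) (ksi_prod_card_dvd p hζ S))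

theorem ksi_finrank_le (K : Type*) [Field K] [NumberField K] :
    Module.finrank ℚ K ≤ 2 * (NumberField.Units.rank K + 1) := by
  have h1 := NumberField.InfinitePlace.card_add_two_mul_card_eq_rank K
  have h2 := NumberField.InfinitePlace.card_eq_nrRealPlaces_add_nrComplexPlaces K
  have h3 : 0 < Fintype.card (InfinitePlace K) := Fintype.card_pos
  unfold NumberField.Units.rank
  omega

end Fermat.Agent.S55
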