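import Fermat.Agent.S55.SUnitHq
import Fermat.Agent.S55.KsiNormVal
import Fermat.Agent.S55.KsiCount

/-!
# The local norm index at a tame nonsplit prime is nontrivial (completions-free)

`L / K` a Galois extension of number fields of prime degree `p`, `ζ_p ∈ K`, `v` a prime of `K`
not above `p` with a unique prime `w` of `L` above it.  Then not every element of `Kˣ` is a
norm from `L` up to `1 + v` (`fi_local_index`): if `v` is inert a uniformizer is not, if `v` is
ramified a unit which is not a `p`-th power residue is not.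
-/

set_option autoImplicit false

namespace Fermat.Agent.S55

open IsDedekindDomain NumberField WithZero

section

variable {K L : Type*} [Field K] [NumberField K] [Field L] [NumberField L] [Algebra K L]

/-- At a nonsplit prime, `e · f = [L : K]`. -/
theorem fi_ef_of_nonsplit (v : HeightOneSpectrum (𝓞 K)) (hns : suNonsplit K L v)
    (w : HeightOneSpectrum (𝓞 L)) (hw : w.under (𝓞 K) = v) :
    v.asIdeal.ramificationIdx' w.asIdeal * v.asIdeal.inertiaDeg' w.asIdeal =
      Module.finrank K L := by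
  classical
  have hvmax : v.asIdeal.IsMaximal := v.isMaximal
  have hsum := Ideal.sum_ramification_inertia (𝓞 L) K L (p := v.asIdeal) v.ne_bot
  have hset : IsDedekindDomain.primesOverFinset v.asIdeal (𝓞 L) = {w.asIdeal} := by
    ext P
    rw [IsDedekindDomain.mem_primesOverFinset_iff v.ne_bot, Finset.mem_singleton]
    constructor
    · rintro ⟨hP, hPv⟩
      have hP0 : P ≠ ⊥ := by
        rintro rfl
        have h1 : v.asIdeal = (⊥ : Ideal (𝓞 L)).under (𝓞 K) := hPv.over
        rw [Ideal.under_bot] at h1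
        exact v.ne_bot h1
      have h2 : (⟨P, hP, hP0⟩ : HeightOneSpectrum (𝓞 L)).under (𝓞 K) = v := by
        apply HeightOneSpectrum.ext
        exact hPv.over.symm
      have h3 := hns ⟨P, hP, hP0⟩ w h2 hw
      rw [← h3]
    · rintro rfl
      refine ⟨w.isPrime, ⟨?_⟩⟩
      rw [← hw]
      rfl
  rw [hset, Finset.sum_singleton] at hsum
  exact hsum

/-- Valuation at `w` of an element of `K`, as a power of the valuation at `v`. -/
theorem fi_valuation_under (w : HeightOneSpectrum (𝓞 L)) (z : K) :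
    w.valuation L (algebraMap K L z) =
      (w.under (𝓞 K)).valuation K z ^ (w.under (𝓞 K)).asIdeal.ramificationIdx' w.asIdeal := by
  have : w.asIdeal.LiesOver (w.under (𝓞 K)).asIdeal := ⟨rfl⟩
  exact (HeightOneSpectrum.valuation_liesOver L (w.under (𝓞 K)) w z).symm

theorem fi_ramificationIdx_ne_zero (w : HeightOneSpectrum (𝓞 L)) :
    (w.under (𝓞 K)).asIdeal.ramificationIdx' w.asIdeal ≠ 0 := by
  have : w.asIdeal.LiesOver (w.under (𝓞 K)).asIdeal := ⟨rfl⟩
  exact Ideal.IsDedekindDomain.ramificationIdx'_ne_zero_of_liesOver w.asIdeal (w.under (𝓞 K)).ne_bot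

/-- `w(z) < 1 ↔ v(z) < 1` for `z ∈ K`. -/
theorem fi_valuation_under_lt_one (w : HeightOneSpectrum (𝓞 L)) (z : K)
    (h : w.valuation L (algebraMap K L z) < 1) : (w.under (𝓞 K)).valuation K z < 1 := by
  rw [fi_valuation_under] at h
  by_contra hge
  rw [not_lt] at hge
  exact absurd h (not_lt.mpr (one_le_pow₀ hge))

variable [IsGalois K L]

/-- At a nonsplit prime all conjugates have the same valuation. -/
theorem fi_nonsplit_valuation (v : HeightOneSpectrum (𝓞 K)) (hns : suNonsplit K L v)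
    (w : HeightOneSpectrum (𝓞 L)) (hw : w.under (𝓞 K) = v) (τ : L ≃ₐ[K] L) (x : L) :
    w.valuation L (τ x) = w.valuation L x := by
  rw [su_valuation_algEquiv]
  have h1 : suComap τ w = w := hns _ _ (by rw [suComap_under, hw]) hw
  rw [h1]

/-- At a nonsplit prime, `w(N y) = w(y) ^ [L : K]`. -/
theorem fi_nonsplit_valuation_norm (v : HeightOneSpectrum (𝓞 K)) (hns : suNonsplit K L v)
    (w : HeightOneSpectrum (𝓞 L)) (hw : w.under (𝓞 K) = v) (y : L) :
    w.valuation L (algebraMap K L (Algebra.norm K y)) =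
      w.valuation L y ^ Module.finrank K L := by
  rw [Algebra.norm_eq_prod_automorphisms, map_prod,
    Finset.prod_congr rfl (fun τ _ => fi_nonsplit_valuation v hns w hw τ y), Finset.prod_const,
    Finset.card_univ, ← Nat.card_eq_fintype_card, IsGalois.card_aut_eq_finrank]

/-- **Inert case**: a uniformizer is not a norm times a unit. -/
theorem fi_inert_not_top (p : ℕ) (hp : p.Prime) (hdeg : Module.finrank K L = p)
    (v : HeightOneSpectrum (𝓞 K)) (hns : suNonsplit K L v)
    (w : HeightOneSpectrum (𝓞 L)) (hw : w.under (𝓞 K) = v)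
    (he : v.asIdeal.ramificationIdx' w.asIdeal = 1) : ksiNorm K L v 0 ≠ ⊤ := by
  intro htop
  obtain ⟨π, hπ⟩ := v.valuation_exists_uniformizer K
  have hπ0 : π ≠ 0 := by
    rintro rfl
    rw [map_zero] at hπ
    exact exp_ne_zero hπ.symm
  have hmem : Units.mk0 π hπ0 ∈ ksiNorm K L v 0 := by
    rw [htop]
    exact Subgroup.mem_top _
  obtain ⟨y, u, hu, hyu⟩ := mem_ksiNorm_iff.mp hmem
  rw [mem_ksiU_zero_iff] at hu
  have h1 : v.valuation K (Algebra.norm K (y : L)) = exp (-1 : ℤ) := by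
    have h2 := congrArg (fun t : Kˣ => v.valuation K (t : K)) hyu
    simp only [Units.val_mul, map_mul, Units.val_mk0, hu, mul_one] at h2
    rw [← hπ, ← h2]
    rfl
  have h3 := fi_nonsplit_valuation_norm v hns w hw (y : L)
  have h4 := fi_valuation_under w (Algebra.norm K (y : L))
  rw [hw, he, pow_one, h1] at h4
  rw [h4, hdeg] at h3
  have hy0 : w.valuation L (y : L) ≠ 0 := (Valuation.ne_zero_iff _).mpr y.ne_zero
  have h5 := congrArg log h3
  rw [log_exp, log_pow] at h5
  have h6 : (p : ℤ) ∣ 1 := ⟨-log (w.valuation L (y : L)), by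
    rw [nsmul_eq_mul] at h5
    linarith⟩
  have h7 := Int.eq_one_of_dvd_one (by positivity) h6
  have h8 : p = 1 := by exact_mod_cast h7
  exact hp.one_lt.ne' h8

/-- Residue classes at a prime of residue degree one come from `K`. -/
theorem fi_residue_surj (v : HeightOneSpectrum (𝓞 K)) (w : HeightOneSpectrum (𝓞 L))
    (hw : w.under (𝓞 K) = v) (hf : v.asIdeal.inertiaDeg' w.asIdeal = 1) (b : 𝓞 L) :
    ∃ a : 𝓞 K, b - algebraMap (𝓞 K) (𝓞 L) a ∈ w.asIdeal := by
  have hvmax : v.asIdeal.IsMaximal := v.isMaximal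
  have hlies : w.asIdeal.LiesOver v.asIdeal := ⟨by rw [← hw]; rfl⟩
  rw [Ideal.inertiaDeg'_algebraMap] at hf
  have hwmax : w.asIdeal.IsMaximal := w.isMaximal
  let _ : Field (𝓞 K ⧸ v.asIdeal) := Ideal.Quotient.field v.asIdeal
  have h1 := Subalgebra.bot_eq_top_of_finrank_eq_one hf
  have h2 : Ideal.Quotient.mk w.asIdeal b ∈ (⊥ : Subalgebra (𝓞 K ⧸ v.asIdeal) (𝓞 L ⧸ w.asIdeal)) := by
    rw [h1]
    exact Algebra.mem_top
  rw [Algebra.mem_bot] at h2
  obtain ⟨a', ha'⟩ := h2
  obtain ⟨a, rfl⟩ := Ideal.Quotient.mk_surjective a'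
  refine ⟨a, ?_⟩
  rw [← Ideal.Quotient.eq, ← ha']
  rfl

/-- Units at a prime of residue degree one are congruent to elements of `K`. -/
theorem fi_exists_congr (v : HeightOneSpectrum (𝓞 K)) (w : HeightOneSpectrum (𝓞 L))
    (hw : w.under (𝓞 K) = v) (hf : v.asIdeal.inertiaDeg' w.asIdeal = 1) (y : L)
    (hy : w.valuation L y ≤ 1) : ∃ c : K, w.valuation L (y - algebraMap K L c) < 1 := by
  obtain ⟨n, ⟨d, hd⟩, hnd⟩ := w.exists_primeCompl_mul_eq_of_integer y hy
  obtain ⟨an, han⟩ := fi_residue_surj v w hw hf n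
  obtain ⟨ad, had⟩ := fi_residue_surj v w hw hf d
  have hadw : algebraMap (𝓞 K) (𝓞 L) ad ∉ w.asIdeal := by
    intro h
    apply hd
    have : d = (d - algebraMap (𝓞 K) (𝓞 L) ad) + algebraMap (𝓞 K) (𝓞 L) ad := by ring
    rw [this]
    exact w.asIdeal.add_mem had h
  have hd0 : algebraMap (𝓞 L) L d ≠ 0 := by
    rw [Ne, map_eq_zero_iff _ (FaithfulSMul.algebraMap_injective (𝓞 L) L)]
    rintro rfl
    exact hd w.asIdeal.zero_mem
  have hAd0 : algebraMap (𝓞 L) L (algebraMap (𝓞 K) (𝓞 L) ad) ≠ 0 := by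
    rw [Ne, map_eq_zero_iff _ (FaithfulSMul.algebraMap_injective (𝓞 L) L)]
    intro h
    rw [h] at hadw
    exact hadw w.asIdeal.zero_mem
  refine ⟨algebraMap (𝓞 K) K an / algebraMap (𝓞 K) K ad, ?_⟩
  have hcast : ∀ a : 𝓞 K, algebraMap K L (algebraMap (𝓞 K) K a) =
      algebraMap (𝓞 L) L (algebraMap (𝓞 K) (𝓞 L) a) := fun a => rfl
  have hy' : y = algebraMap (𝓞 L) L n / algebraMap (𝓞 L) L d := by
    rw [← hnd]
    field_simp
  have hnum : n * algebraMap (𝓞 K) (𝓞 L) ad - algebraMap (𝓞 K) (𝓞 L) an * d ∈ w.asIdeal := by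
    have : n * algebraMap (𝓞 K) (𝓞 L) ad - algebraMap (𝓞 K) (𝓞 L) an * d =
        (n - algebraMap (𝓞 K) (𝓞 L) an) * algebraMap (𝓞 K) (𝓞 L) ad -
          algebraMap (𝓞 K) (𝓞 L) an * (d - algebraMap (𝓞 K) (𝓞 L) ad) := by ring
    rw [this]
    exact w.asIdeal.sub_mem (w.asIdeal.mul_mem_right _ han) (w.asIdeal.mul_mem_left _ had)
  have heq : y - algebraMap K L (algebraMap (𝓞 K) K an / algebraMap (𝓞 K) K ad) =
      algebraMap (𝓞 L) L (n * algebraMap (𝓞 K) (𝓞 L) ad - algebraMap (𝓞 K) (𝓞 L) an * d) /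
        (algebraMap (𝓞 L) L d * algebraMap (𝓞 L) L (algebraMap (𝓞 K) (𝓞 L) ad)) := by
    rw [hy', map_div₀, hcast, hcast, map_sub, map_mul, map_mul]
    field_simp
  rw [heq, map_div₀, map_mul]
  have h1 : w.valuation L (algebraMap (𝓞 L) L d) = 1 :=
    (HeightOneSpectrum.valuation_eq_one_iff_notMem w).mpr hd
  have h2 : w.valuation L (algebraMap (𝓞 L) L (algebraMap (𝓞 K) (𝓞 L) ad)) = 1 :=
    (HeightOneSpectrum.valuation_eq_one_iff_notMem w).mpr hadw
  rw [h1, h2, mul_one, div_one]
  exact (w.valuation_lt_one_iff_mem _).mpr hnum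

/-- A product of elements congruent to `C` is congruent to a power of `C`. -/
theorem fi_prod_congr (w : HeightOneSpectrum (𝓞 L)) {ι : Type*} (s : Finset ι) (f : ι → L) (C : L)
    (hC : w.valuation L C ≤ 1) (hf : ∀ i ∈ s, w.valuation L (f i - C) < 1) :
    w.valuation L (∏ i ∈ s, f i - C ^ s.card) < 1 := by
  classical
  induction s using Finset.induction_on with
  | empty => simp
  | insert a s ha ih =>
    have hfa := hf a (Finset.mem_insert_self a s)
    have ih' := ih (fun i hi => hf i (Finset.mem_insert_of_mem hi))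
    have hfa1 : w.valuation L (f a) ≤ 1 := by
      have : f a = (f a - C) + C := by ring
      rw [this]
      exact (Valuation.map_add _ _ _).trans (max_le hfa.le hC)
    rw [Finset.prod_insert ha, Finset.card_insert_of_notMem ha]
    have : f a * ∏ i ∈ s, f i - C ^ (s.card + 1) =
        f a * (∏ i ∈ s, f i - C ^ s.card) + (f a - C) * C ^ s.card := by ring
    rw [this]
    refine lt_of_le_of_lt (Valuation.map_add _ _ _) (max_lt ?_ ?_)
    · rw [map_mul]
      exact lt_of_le_of_lt (mul_le_of_le_one_left zero_le hfa1) ih'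
    · rw [map_mul, map_pow]
      exact lt_of_le_of_lt (mul_le_of_le_one_right zero_le (pow_le_one₀ zero_le hC)) hfa

/-- At a nonsplit prime of residue degree one, norms of units are `p`-th powers modulo `v`. -/
theorem fi_norm_congr_pow (p : ℕ) (hdeg : Module.finrank K L = p)
    (v : HeightOneSpectrum (𝓞 K)) (hns : suNonsplit K L v)
    (w : HeightOneSpectrum (𝓞 L)) (hw : w.under (𝓞 K) = v)
    (hf : v.asIdeal.inertiaDeg' w.asIdeal = 1) (y : L) (hy : w.valuation L y = 1) :
    ∃ c : K, v.valuation K (Algebra.norm K y - c ^ p) < 1 := by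
  obtain ⟨c, hc⟩ := fi_exists_congr v w hw hf y hy.le
  refine ⟨c, ?_⟩
  rw [← hw]
  apply fi_valuation_under_lt_one
  have hC : w.valuation L (algebraMap K L c) ≤ 1 := by
    have : algebraMap K L c = y - (y - algebraMap K L c) := by ring
    rw [this]
    exact (Valuation.map_sub _ _ _).trans (max_le hy.le hc.le)
  have h1 := fi_prod_congr w (Finset.univ : Finset (L ≃ₐ[K] L)) (fun τ => τ y) (algebraMap K L c)
    hC (fun τ _ => by
      have : τ y - algebraMap K L c = τ (y - algebraMap K L c) := by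
        rw [map_sub, AlgEquiv.commutes]
      rw [this, fi_nonsplit_valuation v hns w hw]
      exact hc)
  rw [Finset.card_univ, ← Nat.card_eq_fintype_card, IsGalois.card_aut_eq_finrank, hdeg,
    ← Algebra.norm_eq_prod_automorphisms] at h1
  rw [map_sub, map_pow]
  exact h1

end

section Residue

variable {K : Type*} [Field K] [NumberField K]

/-- If `ζ_p ∈ K` and `v ∤ p`, some unit at `v` is not a `p`-th power residue. -/
theorem fi_exists_nonresidue (p : ℕ) (hp : p.Prime) {ζ : K} (hζ : IsPrimitiveRoot ζ p)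
    (v : HeightOneSpectrum (𝓞 K)) (hpv : (p : 𝓞 K) ∉ v.asIdeal) :
    ∃ u : 𝓞 K, u ∉ v.asIdeal ∧ ∀ m d : 𝓞 K, d ∉ v.asIdeal → u * d ^ p - m ^ p ∉ v.asIdeal := by
  classical
  have hvmax : v.asIdeal.IsMaximal := v.isMaximal
  let _ : Field (𝓞 K ⧸ v.asIdeal) := Ideal.Quotient.field v.asIdeal
  have hfin : Finite (𝓞 K ⧸ v.asIdeal) := Ideal.finiteQuotientOfFreeOfNeBot v.asIdeal v.ne_bot
  -- the root of unity
  have hζint : IsIntegral ℤ ζ := by
    apply IsIntegral.of_pow hp.pos
    rw [hζ.pow_eq_one]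
    exact isIntegral_one
  set z : 𝓞 K := ⟨ζ, hζint⟩ with hz
  have hzp : z ^ p = 1 := by
    apply FaithfulSMul.algebraMap_injective (𝓞 K) K
    rw [map_pow, map_one]
    exact hζ.pow_eq_one
  have hsum : ∑ i ∈ Finset.range p, z ^ i = 0 := by
    apply FaithfulSMul.algebraMap_injective (𝓞 K) K
    rw [map_sum, map_zero]
    simp only [map_pow]
    exact hζ.geom_sum_eq_zero hp.one_lt
  have hz1 : Ideal.Quotient.mk v.asIdeal z ≠ 1 := by
    intro h
    apply hpv
    have h2 : Ideal.Quotient.mk v.asIdeal (∑ i ∈ Finset.range p, z ^ i) = (p : 𝓞 K ⧸ v.asIdeal) := by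
      rw [map_sum]
      simp only [map_pow, h, one_pow, Finset.sum_const, Finset.card_range, nsmul_eq_mul, mul_one]
    rw [hsum, map_zero] at h2
    rw [← Ideal.Quotient.eq_zero_iff_mem, map_natCast]
    exact h2.symm
  -- the power map is not injective on units
  let F : (𝓞 K ⧸ v.asIdeal)ˣ →* (𝓞 K ⧸ v.asIdeal)ˣ := powMonoidHom p
  have hzbar0 : Ideal.Quotient.mk v.asIdeal z ≠ 0 := by
    intro h
    have h2 : (Ideal.Quotient.mk v.asIdeal z) ^ p = 1 := by rw [← map_pow, hzp, map_one]
    rw [h, zero_pow hp.ne_zero] at h2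
    exact zero_ne_one h2
  have hninj : ¬ Function.Injective F := by
    intro hinj
    have h1 : F (Units.mk0 _ hzbar0) = F 1 := by
      apply Units.ext
      simp only [F, powMonoidHom_apply, Units.val_pow_eq_pow_val, Units.val_mk0, one_pow,
        Units.val_one]
      rw [← map_pow, hzp, map_one]
    have h2 := hinj h1
    apply hz1
    have h3 := congrArg Units.val h2
    simpa using h3
  have hnsurj : ¬ Function.Surjective F := fun h => hninj (Finite.injective_iff_surjective.mpr h)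
  rw [Function.Surjective] at hnsurj
  push Not at hnsurj
  obtain ⟨r, hr⟩ := hnsurj
  obtain ⟨u, hu⟩ := Ideal.Quotient.mk_surjective (r : 𝓞 K ⧸ v.asIdeal)
  refine ⟨u, ?_, ?_⟩
  · rw [← Ideal.Quotient.eq_zero_iff_mem, hu]
    exact r.ne_zero
  · intro m d hd hmem
    have hd0 : Ideal.Quotient.mk v.asIdeal d ≠ 0 := by
      rw [Ne, Ideal.Quotient.eq_zero_iff_mem]
      exact hd
    have h1 : (r : 𝓞 K ⧸ v.asIdeal) * (Ideal.Quotient.mk v.asIdeal d) ^ p =
        (Ideal.Quotient.mk v.asIdeal m) ^ p := by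
      rw [← hu, ← map_pow, ← map_pow, ← map_mul, ← sub_eq_zero, ← map_sub,
        Ideal.Quotient.eq_zero_iff_mem]
      exact hmem
    have hm0 : Ideal.Quotient.mk v.asIdeal m ≠ 0 := by
      intro h
      rw [h, zero_pow hp.ne_zero] at h1
      exact (mul_ne_zero r.ne_zero (pow_ne_zero p hd0)) h1
    apply hr (Units.mk0 _ hm0 / Units.mk0 _ hd0)
    apply Units.ext
    simp only [F, powMonoidHom_apply, Units.val_pow_eq_pow_val, Units.val_div_eq_div_val,
      Units.val_mk0]
    rw [div_pow, ← h1, mul_div_assoc, div_self (pow_ne_zero p hd0), mul_one]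

end Residue

section Main

variable {K L : Type*} [Field K] [NumberField K] [Field L] [NumberField L] [Algebra K L]
  [IsGalois K L]

/-- **Ramified case**: a non-residue unit is not a norm times a principal unit. -/
theorem fi_ram_not_top (p : ℕ) (hp : p.Prime) (hdeg : Module.finrank K L = p)
    {ζ : K} (hζ : IsPrimitiveRoot ζ p)
    (v : HeightOneSpectrum (𝓞 K)) (hns : suNonsplit K L v) (hpv : (p : 𝓞 K) ∉ v.asIdeal)
    (w : HeightOneSpectrum (𝓞 L)) (hw : w.under (𝓞 K) = v)
    (hf : v.asIdeal.inertiaDeg' w.asIdeal = 1) : ksiNorm K L v 1 ≠ ⊤ := by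
  intro htop
  obtain ⟨u, hu, hres⟩ := fi_exists_nonresidue p hp hζ v hpv
  have hu0 : algebraMap (𝓞 K) K u ≠ 0 := by
    rw [Ne, map_eq_zero_iff _ (FaithfulSMul.algebraMap_injective (𝓞 K) K)]
    rintro rfl
    exact hu v.asIdeal.zero_mem
  have hmem : Units.mk0 _ hu0 ∈ ksiNorm K L v 1 := by
    rw [htop]
    exact Subgroup.mem_top _
  obtain ⟨y, u1, hu1, hyu⟩ := mem_ksiNorm_iff.mp hmem
  rw [mem_ksiU_iff] at hu1
  obtain ⟨hu1a, hu1b⟩ := hu1
  have hyu' : Algebra.norm K (y : L) * (u1 : K) = algebraMap (𝓞 K) K u := by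
    have h2 := congrArg (fun t : Kˣ => (t : K)) hyu
    simpa using h2
  have huv : v.valuation K (algebraMap (𝓞 K) K u) = 1 :=
    (HeightOneSpectrum.valuation_eq_one_iff_notMem v).mpr hu
  have hNv : v.valuation K (Algebra.norm K (y : L)) = 1 := by
    rw [← hyu', map_mul, hu1a, mul_one] at huv
    exact huv
  -- `y` is a unit at `w`
  have hyw : w.valuation L (y : L) = 1 := by
    have h3 := fi_nonsplit_valuation_norm v hns w hw (y : L)
    have h4 := fi_valuation_under w (Algebra.norm K (y : L))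
    rw [hw, hNv, one_pow] at h4
    rw [h4, hdeg] at h3
    have hy0 : w.valuation L (y : L) ≠ 0 := (Valuation.ne_zero_iff _).mpr y.ne_zero
    have h5 := congrArg log h3
    rw [log_one, log_pow, nsmul_eq_mul] at h5
    have h6 : log (w.valuation L (y : L)) = 0 := by
      rcases mul_eq_zero.mp h5.symm with h | h
      · exact absurd (by exact_mod_cast h) hp.ne_zero
      · exact h
    rw [← exp_log hy0, h6, exp_zero]
  obtain ⟨c, hc⟩ := fi_norm_congr_pow p hdeg v hns w hw hf (y : L) hyw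
  -- `u ≡ c ^ p`
  have h7 : v.valuation K (algebraMap (𝓞 K) K u - c ^ p) < 1 := by
    have : algebraMap (𝓞 K) K u - c ^ p =
        Algebra.norm K (y : L) * ((u1 : K) - 1) + (Algebra.norm K (y : L) - c ^ p) := by
      rw [← hyu']
      ring
    rw [this]
    refine lt_of_le_of_lt (Valuation.map_add _ _ _) (max_lt ?_ hc)
    rw [map_mul, hNv, one_mul]
    refine lt_of_le_of_lt hu1b ?_
    rw [← exp_zero, exp_lt_exp]
    norm_num
  have hcv : v.valuation K c = 1 := by
    apply ksi_val_eq_one_of_pow hp.ne_zero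
    have : c ^ p = algebraMap (𝓞 K) K u - (algebraMap (𝓞 K) K u - c ^ p) := by ring
    rw [this, Valuation.map_sub_eq_of_lt_left _ (by rw [huv]; exact h7), huv]
  obtain ⟨m, ⟨d, hd⟩, hmd⟩ := v.exists_primeCompl_mul_eq_of_integer c hcv.le
  apply hres m d hd
  rw [← v.valuation_lt_one_iff_mem (K := K)]
  change v.valuation K (algebraMap (𝓞 K) K (u * d ^ p - m ^ p)) < 1
  have hdv : v.valuation K (algebraMap (𝓞 K) K d) = 1 :=
    (HeightOneSpectrum.valuation_eq_one_iff_notMem v).mpr hd
  have : algebraMap (𝓞 K) K (u * d ^ p - m ^ p) =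
      (algebraMap (𝓞 K) K u - c ^ p) * algebraMap (𝓞 K) K d ^ p := by
    rw [map_sub, map_mul, map_pow, map_pow, ← hmd]
    ring
  rw [this, map_mul, map_pow, hdv, one_pow, mul_one]
  exact h7

/-- **The local norm index at a tame nonsplit prime is nontrivial.** -/
theorem fi_local_index (p : ℕ) (hp : p.Prime) (hdeg : Module.finrank K L = p)
    {ζ : K} (hζ : IsPrimitiveRoot ζ p)
    (v : HeightOneSpectrum (𝓞 K)) (hns : suNonsplit K L v) (hpv : (p : 𝓞 K) ∉ v.asIdeal) :
    ksiNorm K L v 1 ≠ ⊤ := by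
  obtain ⟨w, hw⟩ := su_exists_under (L := L) v
  have hef := fi_ef_of_nonsplit v hns w hw
  rw [hdeg] at hef
  have hdvd : v.asIdeal.ramificationIdx' w.asIdeal ∣ p := ⟨_, hef.symm⟩
  rcases (Nat.dvd_prime hp).mp hdvd with he | he
  · intro htop
    apply fi_inert_not_top p hp hdeg v hns w hw he
    rw [eq_top_iff, ← htop]
    exact ksiNorm_anti L v (Nat.zero_le 1)
  · rw [he] at hef
    have hf : v.asIdeal.inertiaDeg' w.asIdeal = 1 := by
      have := Nat.eq_of_mul_eq_mul_left hp.pos (hef.trans (mul_one p).symm)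
      exact this
    exact fi_ram_not_top p hp hdeg hζ v hns hpv w hw hf

end Main

end Fermat.Agent.S55
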