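import Mathlib
import Fermat.Agent.S55.FiConj

/-!
# `H¹(G, E_S(L)) = 0` for cyclic `L/K` when `Cl_S(K) = 1` and `L/K` is unramified outside `S`

`K ⊆ L` number fields, `L/K` cyclic with generator `σ`, `S` a set of primes of `K`.
If every prime of `K` outside `S` is principal up to `S` (`fiPID`) and `L/K` is unramified outside
`S` (`fiUnram`, in valuation form), then every `S`-unit `e` of `L` of norm `1` is of the form
`e' / σ e'` with `e'` an `S`-unit of `L` (`fi_units_h1`).
-/

set_option autoImplicit false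

namespace Fermat.Agent.S55

open IsDedekindDomain NumberField WithZero

variable (K L : Type) [Field K] [NumberField K] [Field L] [NumberField L] [Algebra K L]

/-- The primes of `L` above a set `S` of primes of `K`. -/
def fiAbove (S : Set (HeightOneSpectrum (𝓞 K))) : Set (HeightOneSpectrum (𝓞 L)) :=
  {w | fiUnder K w ∈ S}

/-- `Cl_S(K) = 1` in elementwise form: every prime outside `S` has a generator up to `S`. -/
def fiPID (S : Set (HeightOneSpectrum (𝓞 K))) : Prop :=
  ∀ v ∉ S, ∃ π : Kˣ, v.valuation K (π : K) = exp (-1 : ℤ) ∧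
    ∀ v' ∉ S, v' ≠ v → v'.valuation K (π : K) = 1

/-- `L/K` is unramified outside `S`, in valuation form. -/
def fiUnram (S : Set (HeightOneSpectrum (𝓞 K))) : Prop :=
  ∀ w : HeightOneSpectrum (𝓞 L), fiUnder K w ∉ S →
    ∀ x : K, w.valuation L (algebraMap K L x) = (fiUnder K w).valuation K x

variable {K L}

/-- `S`-units of `L` are stable under `Gal(L/K)`. -/
theorem fi_unit_conj (S : Set (HeightOneSpectrum (𝓞 K))) (σ : L ≃ₐ[K] L) (x : L)
    (hx : ∀ w ∉ fiAbove K L S, w.valuation L x = 1) :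
    ∀ w ∉ fiAbove K L S, w.valuation L (σ x) = 1 := by
  intro w hw
  have h1 := fi_valuation_apply (σ : L ≃+* L) w x
  have h2 : (σ : L ≃+* L) x = σ x := rfl
  rw [h2] at h1
  rw [h1]
  apply hx
  have h3 : fiUnder K (fiConj (σ : L ≃+* L).symm w) = fiUnder K w := fiUnder_conj K σ.symm w
  change fiUnder K _ ∉ S
  rw [h3]
  exact hw

/-- Existence of a prime of `L` above a prime of `K`. -/
theorem fi_exists_above (v : HeightOneSpectrum (𝓞 K)) :
    ∃ w : HeightOneSpectrum (𝓞 L), fiUnder K w = v := by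
  obtain ⟨Q, hQ, hQv⟩ := Ideal.exists_ideal_over_prime_of_isIntegral (S := 𝓞 L) v.asIdeal
    (⊥ : Ideal (𝓞 L)) (by
      rw [Ideal.comap_bot_of_injective _ (FaithfulSMul.algebraMap_injective (𝓞 K) (𝓞 L))]
      exact bot_le)
  obtain ⟨hQp, hQc⟩ := hQv
  have hQ0 : Q ≠ ⊥ := by
    rintro rfl
    rw [Ideal.comap_bot_of_injective _ (FaithfulSMul.algebraMap_injective (𝓞 K) (𝓞 L))] at hQc
    exact v.ne_bot hQc.symm
  exact ⟨⟨Q, hQp, hQ0⟩, HeightOneSpectrum.ext hQc⟩

/-- Injectivity of powers on nonzero elements of `ℤᵐ⁰`. -/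
theorem fi_pow_inj (a b : ℤᵐ⁰) (ha : a ≠ 0) (hb : b ≠ 0) (n : ℕ) (hn : n ≠ 0)
    (h : a ^ n = b ^ n) : a = b := by
  rw [← exp_log ha, ← exp_log hb] at h ⊢
  rw [← exp_nsmul, ← exp_nsmul, exp_inj] at h
  congr 1
  have hn' : (n : ℤ) ≠ 0 := by exact_mod_cast hn
  have h' : (n : ℤ) * log a = (n : ℤ) * log b := by simpa using h
  exact mul_left_cancel₀ hn' h'

/-- The set of primes where a nonzero element is not a unit is finite. -/
theorem fi_finite_support (c : K) (hc : c ≠ 0) :
    {v : HeightOneSpectrum (𝓞 K) | v.valuation K c ≠ 1}.Finite := by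
  have h1 := HeightOneSpectrum.Support.finite (𝓞 K) c
  have h2 := HeightOneSpectrum.Support.finite (𝓞 K) c⁻¹
  refine (h1.union h2).subset ?_
  intro v hv
  rcases lt_or_gt_of_ne hv with h | h
  · right
    change 1 < v.valuation K c⁻¹
    rw [map_inv₀]
    have h0 : v.valuation K c ≠ 0 := (Valuation.ne_zero_iff _).mpr hc
    exact (one_lt_inv₀ (zero_lt_iff.mpr h0)).mpr h
  · left
    exact h

variable [FiniteDimensional K L] [IsGalois K L]

/-- **`H¹(G, E_S(L)) = 0`** (cyclic case, elementwise form). -/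
theorem fi_units_h1 (S : Set (HeightOneSpectrum (𝓞 K))) (σ : L ≃ₐ[K] L)
    (hσ : ∀ τ : L ≃ₐ[K] L, τ ∈ Subgroup.zpowers σ)
    (hpid : fiPID K S) (hunr : fiUnram K L S)
    (e : L) (he : ∀ w ∉ fiAbove K L S, w.valuation L e = 1) (hN : Algebra.norm K e = 1) :
    ∃ e' : Lˣ, (∀ w ∉ fiAbove K L S, w.valuation L (e' : L) = 1) ∧ (e' : L) / σ e' = e := by
  classical
  have : IsCyclic (L ≃ₐ[K] L) := ⟨σ, hσ⟩
  obtain ⟨y, hy⟩ := groupCohomology.exists_div_of_norm_eq_one hσ hN
  have hy0 : (y : L) ≠ 0 := y.ne_zero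
  have hσy0 : σ (y : L) ≠ 0 := (map_ne_zero σ).mpr hy0
  have he0 : e ≠ 0 := by
    rw [← hy]
    exact div_ne_zero hy0 hσy0
  -- σ y = y / e and σ⁻¹ y = σ⁻¹ e * y
  have hσy : σ (y : L) = y / e := by
    rw [← hy]
    field_simp
  have hσy' : σ.symm (y : L) = σ.symm e * y := by
    have : (y : L) = e * σ y := by rw [hσy]; field_simp
    conv_lhs => rw [this]
    rw [map_mul, AlgEquiv.symm_apply_apply]
  -- all conjugates of y have the same valuations outside S
  have hconj : ∀ τ : L ≃ₐ[K] L, ∀ w ∉ fiAbove K L S, w.valuation L (τ y) = w.valuation L y := by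
    intro τ
    obtain ⟨k, rfl⟩ := Subgroup.mem_zpowers_iff.mp (hσ τ)
    induction k using Int.induction_on with
    | zero => intro w _; rfl
    | succ i ih =>
      intro w hw
      have h1 : (σ ^ ((i : ℤ) + 1)) (y : L) = (σ ^ (i : ℤ)) (σ (y : L)) := by
        rw [zpow_add_one]
        rfl
      rw [h1, hσy, map_div₀, map_div₀, ih w hw, fi_unit_conj S (σ ^ (i : ℤ)) e he w hw, div_one]
    | pred i ih =>
      intro w hw
      have h1 : (σ ^ (-(i : ℤ) - 1)) (y : L) = (σ ^ (-(i : ℤ))) (σ.symm (y : L)) := by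
        rw [zpow_sub_one]
        rfl
      rw [h1, hσy', map_mul, map_mul, ih w hw,
        fi_unit_conj S (σ ^ (-(i : ℤ))) _ (fi_unit_conj S σ.symm e he) w hw, one_mul]
  -- the norm
  set c : K := Algebra.norm K (y : L) with hc
  have hc0 : c ≠ 0 := Algebra.norm_ne_zero_iff.mpr hy0
  set n : ℕ := Fintype.card (L ≃ₐ[K] L) with hn
  have hn0 : n ≠ 0 := Fintype.card_ne_zero
  have hval : ∀ w ∉ fiAbove K L S,
      w.valuation L (algebraMap K L c) = w.valuation L (y : L) ^ n := by
    intro w hw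
    rw [hc, Algebra.norm_eq_prod_automorphisms, map_prod,
      Finset.prod_congr rfl (fun τ _ => hconj τ w hw), Finset.prod_const, Finset.card_univ]
  -- the exponents
  have hexp : ∀ v : HeightOneSpectrum (𝓞 K), ∃ m : ℤ, v ∉ S → v.valuation K c = exp m ^ n := by
    intro v
    obtain ⟨w, hw⟩ := fi_exists_above (L := L) v
    refine ⟨log (w.valuation L (y : L)), fun hv => ?_⟩
    have hwS : w ∉ fiAbove K L S := by
      change fiUnder K w ∉ S
      rw [hw]
      exact hv
    have h1 := hunr w (by rw [hw]; exact hv) c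
    rw [hw] at h1
    rw [← h1, hval w hwS, exp_log ((Valuation.ne_zero_iff _).mpr hy0)]
  choose m hm using hexp
  -- uniformizers
  have hpi : ∀ v : HeightOneSpectrum (𝓞 K), ∃ π : Kˣ, v ∉ S →
      (v.valuation K (π : K) = exp (-1 : ℤ) ∧
        ∀ v' ∉ S, v' ≠ v → v'.valuation K (π : K) = 1) := by
    intro v
    by_cases hv : v ∈ S
    · exact ⟨1, fun h => absurd hv h⟩
    · obtain ⟨π, h1, h2⟩ := hpid v hv
      exact ⟨π, fun _ => ⟨h1, h2⟩⟩
  choose π hπ using hpi
  set F : Finset (HeightOneSpectrum (𝓞 K)) := (fi_finite_support c hc0).toFinset with hF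
  set z : Kˣ := ∏ v ∈ F.filter (fun v => v ∉ S), π v ^ (-(m v)) with hz
  have hzval : ∀ v' ∉ S, v'.valuation K (z : K) = exp (m v') := by
    intro v' hv'
    have hcoe : ((z : Kˣ) : K) = ∏ v ∈ F.filter (fun v => v ∉ S), ((π v : Kˣ) : K) ^ (-(m v)) := by
      rw [hz, Units.coe_prod]
      exact Finset.prod_congr rfl (fun v _ => Units.val_zpow_eq_zpow_val _ _)
    rw [hcoe, map_prod]
    by_cases hmem : v' ∈ F.filter (fun v => v ∉ S)
    · rw [Finset.prod_eq_single v']
      · rw [map_zpow₀, (hπ v' hv').1, ← exp_zsmul]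
        simp
      · intro v hv hne
        have hvS : v ∉ S := (Finset.mem_filter.mp hv).2
        rw [map_zpow₀, (hπ v hvS).2 v' hv' (Ne.symm hne), one_zpow]
      · intro h
        exact absurd hmem h
    · rw [Finset.prod_eq_one]
      · -- m v' = 0
        have h1 : v'.valuation K c = 1 := by
          by_contra h
          exact hmem (Finset.mem_filter.mpr ⟨(Set.Finite.mem_toFinset _).mpr h, hv'⟩)
        have h2 := hm v' hv'
        rw [h1, ← exp_nsmul, ← exp_zero, exp_inj] at h2
        have hn' : (n : ℤ) ≠ 0 := by exact_mod_cast hn0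
        have h3 : m v' = 0 := by
          have : (n : ℤ) * m v' = 0 := by simpa using h2.symm
          exact (mul_eq_zero.mp this).resolve_left hn'
        rw [h3, exp_zero]
      · intro v hv
        have hvS : v ∉ S := (Finset.mem_filter.mp hv).2
        have hne : v' ≠ v := by
          rintro rfl
          exact hmem hv
        rw [map_zpow₀, (hπ v hvS).2 v' hv' hne, one_zpow]
  -- the S-unit
  have hz0 : algebraMap K L (z : K) ≠ 0 := (map_ne_zero _).mpr z.ne_zero
  refine ⟨y / Units.map (algebraMap K L : K →* L) z, ?_, ?_⟩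
  · intro w hw
    have hvS : fiUnder K w ∉ S := hw
    have h1 : w.valuation L (algebraMap K L (z : K)) = exp (m (fiUnder K w)) := by
      rw [hunr w hvS, hzval _ hvS]
    have h2 : w.valuation L (y : L) = exp (m (fiUnder K w)) := by
      apply fi_pow_inj _ _ ((Valuation.ne_zero_iff _).mpr hy0) exp_ne_zero n hn0
      rw [← hval w hw, hunr w hvS, hm _ hvS]
    have hcoe : ((y / Units.map (algebraMap K L : K →* L) z : Lˣ) : L)
        = (y : L) / algebraMap K L (z : K) := by
      rw [Units.val_div_eq_div_val]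
      rfl
    rw [hcoe, map_div₀, h1, h2, div_self exp_ne_zero]
  · have hcoe : ((y / Units.map (algebraMap K L : K →* L) z : Lˣ) : L)
        = (y : L) / algebraMap K L (z : K) := by
      rw [Units.val_div_eq_div_val]
      rfl
    rw [hcoe, map_div₀, AlgEquiv.commutes, ← hy]
    field_simp

end Fermat.Agent.S55
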