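import Fermat.Agent.S55.FiIndex
import Fermat.Agent.S55.FiLocal
import Fermat.Agent.S55.SUnitApprox
import Fermat.Agent.S55.SUnitPidPair

/-!
# The weak first inequality for Kummer extensions of prime degree (completions-free)

`K ∋ ζ_p`, `S ⊇ {v | p}` finite with `Cl_S(K) = 1`, `x` an `S`-unit which is not a `p`-th power,
`M = K(x^{1/p})`, and assume that no prime above `p` is nonsplit in `M`.  Then
`K_S · ⋂_{v ∈ S nonsplit} N(Mˣ) U_v^{(1)} ≠ Kˣ` (`fi_weak`).
-/

set_option autoImplicit false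

namespace Fermat.Agent.S55

open IsDedekindDomain NumberField WithZero

/-- A proper subgroup of finite index containing all `p`-th powers has index divisible by `p`. -/
theorem fi_prime_dvd_index {G : Type*} [CommGroup G] (H : Subgroup G) (p : ℕ) (hp : p.Prime)
    (hpow : ∀ g : G, g ^ p ∈ H) (h0 : H.index ≠ 0) (h1 : H ≠ ⊤) : p ∣ H.index := by
  have : Fact p.Prime := ⟨hp⟩
  obtain ⟨g, hg⟩ : ∃ g : G, g ∉ H := by
    by_contra h
    push Not at h
    exact h1 (eq_top_iff.mpr (fun g _ => h g))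
  have hfi : H.FiniteIndex := ⟨h0⟩
  have hfin : Finite (G ⧸ H) := Subgroup.finite_quotient_of_finiteIndex
  have hgp : (QuotientGroup.mk g : G ⧸ H) ^ p = 1 := by
    rw [← QuotientGroup.mk_pow, QuotientGroup.eq_one_iff]
    exact hpow g
  have hg1 : (QuotientGroup.mk g : G ⧸ H) ≠ 1 := by
    rw [Ne, QuotientGroup.eq_one_iff]
    exact hg
  have hord : orderOf (QuotientGroup.mk g : G ⧸ H) = p := orderOf_eq_prime hgp hg1
  rw [Subgroup.index, ← hord]
  exact orderOf_dvd_natCard _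

section

variable {K : Type*} [Field K] [NumberField K]

/-- `ksiPow` has finite index at every precision. -/
theorem fi_ksiPow_index_ne_zero (p : ℕ) [hp : Fact p.Prime] {ζ : K} (hζ : IsPrimitiveRoot ζ p)
    (v : HeightOneSpectrum (𝓞 K)) (n : ℕ) : (ksiPow K p v n).index ≠ 0 := by
  have h1 := (ksi_index_ksiPow p hζ v (ksiD ζ v) (ksiD_spec p hζ v) (n + p * ksiD ζ v + 1)
    (by omega)).2
  have h2 : ksiPow K p v (n + p * ksiD ζ v + 1) ≤ ksiPow K p v n := ksiPow_anti p v (by omega)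
  exact fun h => h1 (Nat.eq_zero_of_zero_dvd (h ▸ Subgroup.index_dvd_of_le h2))

/-- `ksiNorm` has finite index at every precision. -/
theorem fi_ksiNorm_index_ne_zero (p : ℕ) [hp : Fact p.Prime] {ζ : K} (hζ : IsPrimitiveRoot ζ p)
    (L : Type*) [Field L] [Algebra K L] (hL : Module.finrank K L = p)
    (v : HeightOneSpectrum (𝓞 K)) (n : ℕ) : (ksiNorm K L v n).index ≠ 0 := by
  have h1 := fi_ksiPow_index_ne_zero p hζ v n
  have h2 := ksiPow_le_ksiNorm p L hL v n
  exact fun h => h1 (Nat.eq_zero_of_zero_dvd (h ▸ Subgroup.index_dvd_of_le h2))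

/-- If `ksiNorm` is a proper subgroup, its index is divisible by `p`. -/
theorem fi_ksiNorm_dvd_index (p : ℕ) [hp : Fact p.Prime] {ζ : K} (hζ : IsPrimitiveRoot ζ p)
    (L : Type*) [Field L] [Algebra K L] (hL : Module.finrank K L = p)
    (v : HeightOneSpectrum (𝓞 K)) (n : ℕ) (hne : ksiNorm K L v n ≠ ⊤) :
    p ∣ (ksiNorm K L v n).index := by
  apply fi_prime_dvd_index _ p hp.out _ (fi_ksiNorm_index_ne_zero p hζ L hL v n) hne
  intro g
  apply ksiPow_le_ksiNorm p L hL v n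
  exact Subgroup.mem_sup_left ⟨g, rfl⟩

/-- The index of the intersection of the local norm groups over a finite set of primes at which
they are proper is divisible by `p ^ #U`. -/
theorem fi_pow_dvd_index_iInf (p : ℕ) [hp : Fact p.Prime] {ζ : K} (hζ : IsPrimitiveRoot ζ p)
    (L : Type*) [Field L] [Algebra K L] (hL : Module.finrank K L = p)
    (U : Finset (HeightOneSpectrum (𝓞 K))) (n : HeightOneSpectrum (𝓞 K) → ℕ)
    (hne : ∀ v ∈ U, ksiNorm K L v (n v) ≠ ⊤) :
    p ^ U.card ∣ (⨅ v ∈ U, ksiNorm K L v (n v)).index := by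
  rw [su_index_iInf K U n (fun v => ksiNorm K L v (n v)) (fun v _ => le_sup_right),
    ← Finset.prod_const]
  exact Finset.prod_dvd_prod_of_dvd _ _
    (fun v hv => fi_ksiNorm_dvd_index p hζ L hL v (n v) (hne v hv))

end

/-- **Weak first inequality.** -/
theorem fi_weak (p : ℕ) [hp : Fact p.Prime] (hp2 : p ≠ 2) (K : Type) [Field K] [NumberField K]
    {ζ : K} (hζ : IsPrimitiveRoot ζ p)
    (S : Finset (HeightOneSpectrum (𝓞 K)))
    (hpS : ∀ v : HeightOneSpectrum (𝓞 K), (p : 𝓞 K) ∈ v.asIdeal → v ∈ S) (hPID : suPid K S)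
    (x : Kˣ) (hx : x ∈ (S : Set (HeightOneSpectrum (𝓞 K))).unit K)
    (hxp : x ∉ (powMonoidHom p : Kˣ →* Kˣ).range)
    (M : Type) [Field M] [NumberField M] [Algebra K M] [IsGalois K M]
    (hM : Module.finrank K M = p) (θ : M) (hθ : θ ^ p = algebraMap K M (x : K))
    (htame : ∀ v : HeightOneSpectrum (𝓞 K), (p : 𝓞 K) ∈ v.asIdeal → ¬ suNonsplit K M v) :
    ((S : Set (HeightOneSpectrum (𝓞 K))).unit K ⊔
      ⨅ v ∈ S, ⨅ (_ : suNonsplit K M v), ksiNorm K M v 1) ≠ ⊤ := by
  classical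
  -- the set of nonsplit primes
  set U : Finset (HeightOneSpectrum (𝓞 K)) := S.filter (fun v => suNonsplit K M v) with hUdef
  have hU : ∀ v, v ∈ U ↔ v ∈ S ∧ suNonsplit K M v := fun v => Finset.mem_filter
  have hinf : (⨅ v ∈ S, ⨅ (_ : suNonsplit K M v), ksiNorm K M v 1) =
      ⨅ v ∈ U, ksiNorm K M v 1 := by
    apply le_antisymm
    · refine le_iInf₂ (fun v hv => ?_)
      obtain ⟨hvS, hvn⟩ := (hU v).mp hv
      exact (iInf₂_le v hvS).trans (iInf_le _ hvn)
    · refine le_iInf₂ (fun v hv => le_iInf (fun hvn => ?_))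
      exact iInf₂_le v ((hU v).mpr ⟨hv, hvn⟩)
  rw [hinf]
  set 𝒩 : Subgroup Kˣ := ⨅ v ∈ U, ksiNorm K M v 1 with h𝒩
  set E : Subgroup Kˣ := (S : Set (HeightOneSpectrum (𝓞 K))).unit K with hE
  -- unramified outside `S`
  have hxp' : ∀ c : K, c ^ p ≠ (x : K) := by
    intro c hc
    have hc0 : c ≠ 0 := by
      rintro rfl
      rw [zero_pow hp.out.ne_zero] at hc
      exact x.ne_zero hc.symm
    apply hxp
    refine ⟨Units.mk0 c hc0, ?_⟩
    apply Units.ext
    simpa using hc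
  have hunr : ∀ w : HeightOneSpectrum (𝓞 M), w.under (𝓞 K) ∉ S →
      ∀ z : K, w.valuation M (algebraMap K M z) = (w.under (𝓞 K)).valuation K z := by
    intro w hw z
    exact fi_kummer_unram p hp.out K M hM (x : K) hxp' θ hθ w (fun h => hw (hpS _ h))
      (hx _ hw) z
  -- the unit index
  have hidx := fi_norm_relIndex S (suAbove K M S) p hp.out hp2 hM U (mem_suAbove K M S) hU hPID hunr
  set NE : Subgroup Kˣ := (((suAbove K M S : Finset (HeightOneSpectrum (𝓞 M))) :
    Set (HeightOneSpectrum (𝓞 M))).unit M).map (Units.map (Algebra.norm K : M →* K)) with hNE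
  -- local indices
  have hloc : ∀ v ∈ U, ksiNorm K M v 1 ≠ ⊤ := by
    intro v hv
    obtain ⟨_, hvn⟩ := (hU v).mp hv
    exact fi_local_index p hp.out hM hζ v hvn (fun h => htame v h hvn)
  have hdvd : p ^ U.card ∣ 𝒩.index := fi_pow_dvd_index_iInf p hζ M hM U (fun _ => 1) hloc
  -- norms are everywhere local norms
  have hNE𝒩 : NE ≤ 𝒩 := by
    rintro _ ⟨y, _, rfl⟩
    rw [h𝒩]
    simp only [Subgroup.mem_iInf]
    intro v _
    exact Subgroup.mem_sup_left ⟨y, rfl⟩
  intro htop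
  have h1 : 𝒩.index = 𝒩.relIndex E := by
    rw [← Subgroup.relIndex_top_right, ← htop, Subgroup.relIndex_sup_right]
  have h2 : 𝒩.relIndex E ∣ NE.relIndex E := Subgroup.relIndex_dvd_of_le_left E hNE𝒩
  have h3 : p ^ U.card ∣ NE.relIndex E := hdvd.trans (h1 ▸ h2)
  obtain ⟨c, hc⟩ := h3
  rw [hc] at hidx
  have hpos : 0 < p ^ U.card := pow_pos hp.out.pos _
  have h4 : c * p = 1 := by
    apply Nat.eq_of_mul_eq_mul_left hpos
    rw [mul_one, ← mul_assoc]
    exact hidx
  have h5 : p = 1 := Nat.eq_one_of_mul_eq_one_left h4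
  exact hp.out.one_lt.ne' h5

end Fermat.Agent.S55
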