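/-
S55 block HA (helper13): abstract homological algebra of the Poitou-Tate devissage.

A "paired truncated complex" `HaPC k` consists of
  * an `A`-side complex `A1 --dA1--> A2 --dA2--> A3` together with a subspace `Z3 ≤ A3`
    (think: the cone complex `C_c^i(M)`, `i = 1, 2, 3`, and its 3-cocycles),
  * a `B`-side complex `B0 --dB0--> B1 --dB1--> B2` together with a subspace `ZB2 ≤ B2`
    (think: `C^j(G_S, M')`, `j = 0, 1, 2`, and its 2-cocycles),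
  * pairings `b12 : A1 × B2 → k`, `b21 : A2 × B1 → k`, `b30 : A3 × B0 → k` satisfying the
    Leibniz-type relations `rel1`, `rel2` (up to nonzero scalars `e1`, `e2`).

`HaPC.Good P` says, at cochain level: `α¹ : H¹(A) → H²(B)^*` is surjective,
`α² : H²(A) → H¹(B)^*` is bijective and `α³ : Z3/dA2(A2) → H⁰(B)^*` is injective.

Main results: `HaSES.good` (GOOD is closed under extensions) and `HaRetract.good`
(GOOD passes to retracts).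
-/
import Mathlib

set_option autoImplicit false

namespace Fermat.Agent.S55

universe u v

/-- A paired truncated complex (see the file header). -/
structure HaPC (k : Type u) [Field k] : Type (max u (v + 1)) where
  A1 : Type v
  A2 : Type v
  A3 : Type v
  B0 : Type v
  B1 : Type v
  B2 : Type v
  [agA1 : AddCommGroup A1]
  [agA2 : AddCommGroup A2]
  [agA3 : AddCommGroup A3]
  [agB0 : AddCommGroup B0]
  [agB1 : AddCommGroup B1]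
  [agB2 : AddCommGroup B2]
  [mdA1 : Module k A1]
  [mdA2 : Module k A2]
  [mdA3 : Module k A3]
  [mdB0 : Module k B0]
  [mdB1 : Module k B1]
  [mdB2 : Module k B2]
  dA1 : A1 →ₗ[k] A2
  dA2 : A2 →ₗ[k] A3
  dB0 : B0 →ₗ[k] B1
  dB1 : B1 →ₗ[k] B2
  Z3 : Submodule k A3
  ZB2 : Submodule k B2
  b12 : A1 →ₗ[k] B2 →ₗ[k] k
  b21 : A2 →ₗ[k] B1 →ₗ[k] k
  b30 : A3 →ₗ[k] B0 →ₗ[k] k
  e1 : k
  e2 : k
  e1_ne : e1 ≠ 0
  e2_ne : e2 ≠ 0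
  dA12 : ∀ x, dA2 (dA1 x) = 0
  dB01 : ∀ y, dB1 (dB0 y) = 0
  dA2_mem : ∀ x, dA2 x ∈ Z3
  dB1_mem : ∀ y, dB1 y ∈ ZB2
  rel1 : ∀ x y, b21 (dA1 x) y = e1 * b12 x (dB1 y)
  rel2 : ∀ x y, b30 (dA2 x) y = e2 * b21 x (dB0 y)

attribute [instance] HaPC.agA1 HaPC.agA2 HaPC.agA3 HaPC.agB0 HaPC.agB1 HaPC.agB2
  HaPC.mdA1 HaPC.mdA2 HaPC.mdA3 HaPC.mdB0 HaPC.mdB1 HaPC.mdB2

variable {k : Type u} [Field k]

namespace HaPC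

variable (P : HaPC.{u, v} k)

/-- A 1-cocycle of the `A`-side pairs to zero with `B`-side 2-coboundaries. -/
lemma b12_dB1 {x : P.A1} (hx : P.dA1 x = 0) (y : P.B1) : P.b12 x (P.dB1 y) = 0 := by
  have h := P.rel1 x y
  rw [hx, map_zero, LinearMap.zero_apply] at h
  exact (mul_eq_zero.1 h.symm).resolve_left P.e1_ne

/-- An `A`-side 2-coboundary pairs to zero with `B`-side 1-cocycles. -/
lemma b21_dA1 (x : P.A1) {y : P.B1} (hy : P.dB1 y = 0) : P.b21 (P.dA1 x) y = 0 := by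
  rw [P.rel1, hy, map_zero, mul_zero]

/-- An `A`-side 2-cocycle pairs to zero with `B`-side 1-coboundaries. -/
lemma b21_dB0 {x : P.A2} (hx : P.dA2 x = 0) (y : P.B0) : P.b21 x (P.dB0 y) = 0 := by
  have h := P.rel2 x y
  rw [hx, map_zero, LinearMap.zero_apply] at h
  exact (mul_eq_zero.1 h.symm).resolve_left P.e2_ne

/-- An `A`-side 3-coboundary pairs to zero with `B`-side 0-cocycles. -/
lemma b30_dA2 (x : P.A2) {y : P.B0} (hy : P.dB0 y = 0) : P.b30 (P.dA2 x) y = 0 := by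
  rw [P.rel2, hy, map_zero, mul_zero]

/-- Cochain-level formulation of: `α¹ : H¹(A) → H²(B)^*` surjective, `α² : H²(A) → H¹(B)^*`
bijective, `α³ : Z3 / dA2(A2) → H⁰(B)^*` injective. -/
structure Good : Prop where
  a1_surj : ∀ φ : P.B2 →ₗ[k] k, (∀ y, φ (P.dB1 y) = 0) →
    ∃ x : P.A1, P.dA1 x = 0 ∧ ∀ y ∈ P.ZB2, φ y = P.b12 x y
  a2_inj : ∀ x : P.A2, P.dA2 x = 0 → (∀ y, P.dB1 y = 0 → P.b21 x y = 0) → ∃ z, P.dA1 z = x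
  a2_surj : ∀ φ : P.B1 →ₗ[k] k, (∀ y, φ (P.dB0 y) = 0) →
    ∃ x : P.A2, P.dA2 x = 0 ∧ ∀ y, P.dB1 y = 0 → φ y = P.b21 x y
  a3_inj : ∀ x ∈ P.Z3, (∀ y, P.dB0 y = 0 → P.b30 x y = 0) → ∃ z, P.dA2 z = x

end HaPC

/-- Over a field, a functional `χ` on `V` that kills `ker F` factors through `F : V → W`. -/
lemma ha_factor {V W : Type*} [AddCommGroup V] [Module k V] [AddCommGroup W] [Module k W]
    (F : V →ₗ[k] W) (χ : V →ₗ[k] k) (h : ∀ v, F v = 0 → χ v = 0) :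
    ∃ φ : W →ₗ[k] k, ∀ v, φ (F v) = χ v := by
  obtain ⟨s, hs⟩ := F.rangeRestrict.exists_rightInverse_of_surjective
    (LinearMap.range_eq_top.2 F.surjective_rangeRestrict)
  obtain ⟨φ, hφ⟩ := LinearMap.exists_extend (χ ∘ₗ s)
  refine ⟨φ, fun v => ?_⟩
  have h1 : φ (F v) = χ (s ⟨F v, LinearMap.mem_range_self F v⟩) := by
    have := congrArg (fun g => g ⟨F v, LinearMap.mem_range_self F v⟩) hφ
    simpa using this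
  have h2 : F (s ⟨F v, LinearMap.mem_range_self F v⟩) = F v := by
    have := congrArg (fun g => (g ⟨F v, LinearMap.mem_range_self F v⟩ : W)) hs
    simpa using this
  have h3 : χ (s ⟨F v, LinearMap.mem_range_self F v⟩ - v) = 0 :=
    h _ (by rw [map_sub, h2, sub_self])
  rw [h1]
  rw [map_sub, sub_eq_zero] at h3
  exact h3

/-- A short exact sequence `0 → P₁ → P₂ → P₃ → 0` of paired truncated complexes: covariant on the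
`A`-side, contravariant on the `B`-side, with the maps adjoint for the pairings. Only the exactness
properties used in the devissage are recorded. -/
structure HaSES (P₁ P₂ P₃ : HaPC.{u, v} k) where
  f1 : P₁.A1 →ₗ[k] P₂.A1
  f2 : P₁.A2 →ₗ[k] P₂.A2
  f3 : P₁.A3 →ₗ[k] P₂.A3
  g1 : P₂.A1 →ₗ[k] P₃.A1
  g2 : P₂.A2 →ₗ[k] P₃.A2
  g3 : P₂.A3 →ₗ[k] P₃.A3
  f0' : P₂.B0 →ₗ[k] P₁.B0
  f1' : P₂.B1 →ₗ[k] P₁.B1
  f2' : P₂.B2 →ₗ[k] P₁.B2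
  g0' : P₃.B0 →ₗ[k] P₂.B0
  g1' : P₃.B1 →ₗ[k] P₂.B1
  g2' : P₃.B2 →ₗ[k] P₂.B2
  f_d1 : ∀ x, f2 (P₁.dA1 x) = P₂.dA1 (f1 x)
  f_d2 : ∀ x, f3 (P₁.dA2 x) = P₂.dA2 (f2 x)
  g_d1 : ∀ x, g2 (P₂.dA1 x) = P₃.dA1 (g1 x)
  g_d2 : ∀ x, g3 (P₂.dA2 x) = P₃.dA2 (g2 x)
  f'_d0 : ∀ y, f1' (P₂.dB0 y) = P₁.dB0 (f0' y)
  f'_d1 : ∀ y, f2' (P₂.dB1 y) = P₁.dB1 (f1' y)
  g'_d0 : ∀ y, g1' (P₃.dB0 y) = P₂.dB0 (g0' y)
  g'_d1 : ∀ y, g2' (P₃.dB1 y) = P₂.dB1 (g1' y)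
  g1_surj : Function.Surjective g1
  g2_surj : Function.Surjective g2
  gf1 : ∀ a, g1 (f1 a) = 0
  gf2 : ∀ a, g2 (f2 a) = 0
  exact2 : ∀ x, g2 x = 0 → ∃ a, f2 a = x
  exact3 : ∀ x, g3 x = 0 → ∃ a, f3 a = x
  f3_inj : Function.Injective f3
  f0'_surj : Function.Surjective f0'
  f1'_surj : Function.Surjective f1'
  fg0' : ∀ c, f0' (g0' c) = 0
  fg1' : ∀ c, f1' (g1' c) = 0
  exact1' : ∀ y, f1' y = 0 → ∃ c, g1' c = y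
  exact2' : ∀ y, f2' y = 0 → ∃ c, g2' c = y
  g2'_inj : Function.Injective g2'
  f3_Z3_refl : ∀ a, f3 a ∈ P₂.Z3 → a ∈ P₁.Z3
  g3_Z3 : ∀ b ∈ P₂.Z3, g3 b ∈ P₃.Z3
  g2'_ZB2_refl : ∀ c, g2' c ∈ P₂.ZB2 → c ∈ P₃.ZB2
  f2'_ZB2 : ∀ y ∈ P₂.ZB2, f2' y ∈ P₁.ZB2
  adj_f12 : ∀ x y, P₂.b12 (f1 x) y = P₁.b12 x (f2' y)
  adj_f21 : ∀ x y, P₂.b21 (f2 x) y = P₁.b21 x (f1' y)
  adj_f30 : ∀ x y, P₂.b30 (f3 x) y = P₁.b30 x (f0' y)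
  adj_g12 : ∀ x y, P₃.b12 (g1 x) y = P₂.b12 x (g2' y)
  adj_g21 : ∀ x y, P₃.b21 (g2 x) y = P₂.b21 x (g1' y)
  adj_g30 : ∀ x y, P₃.b30 (g3 x) y = P₂.b30 x (g0' y)

namespace HaSES

variable {P₁ P₂ P₃ : HaPC.{u, v} k} (S : HaSES P₁ P₂ P₃)

include S in
/-- Compatibility of the pairings with the connecting maps `H¹(A₃) → H²(A₁)` and
`H¹(B₁) → H²(B₃)`. -/
lemma delta1 {b : P₂.A1} {a : P₁.A2} (hab : P₂.dA1 b = S.f2 a)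
    {b' : P₂.B1} {c' : P₃.B2} (hbc : P₂.dB1 b' = S.g2' c') :
    P₁.b21 a (S.f1' b') = P₂.e1 * P₃.b12 (S.g1 b) c' := by
  rw [← S.adj_f21, ← hab, P₂.rel1, hbc, S.adj_g12]

include S in
/-- Compatibility of the pairings with the connecting maps `H²(A₃) → H³(A₁)` and
`H⁰(B₁) → H¹(B₃)`. -/
lemma delta2 {b : P₂.A2} {a : P₁.A3} (hab : P₂.dA2 b = S.f3 a)
    {b' : P₂.B0} {c' : P₃.B1} (hbc : P₂.dB0 b' = S.g1' c') :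
    P₁.b30 a (S.f0' b') = P₂.e2 * P₃.b21 (S.g2 b) c' := by
  rw [← S.adj_f30, ← hab, P₂.rel2, hbc, S.adj_g21]

include S in
/-- `α¹(P₂)` is surjective. -/
lemma a1_surj (h₁ : P₁.Good) (h₃ : P₃.Good) (φ : P₂.B2 →ₗ[k] k) (hφ : ∀ y, φ (P₂.dB1 y) = 0) :
    ∃ x : P₂.A1, P₂.dA1 x = 0 ∧ ∀ y ∈ P₂.ZB2, φ y = P₂.b12 x y := by
  -- Step 1: push to `P₃`.
  obtain ⟨c, hc, hcφ⟩ := h₃.a1_surj (φ ∘ₗ S.g2') (fun y => by
    simp only [LinearMap.comp_apply]; rw [S.g'_d1]; exact hφ _)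
  -- Step 2: lift `c` to a cocycle of `P₂`.
  obtain ⟨b₀, hb₀⟩ := S.g1_surj c
  obtain ⟨a, ha⟩ := S.exact2 (P₂.dA1 b₀) (by rw [S.g_d1, hb₀, hc])
  have hda : P₁.dA2 a = 0 := S.f3_inj (by rw [S.f_d2, ha, P₂.dA12, map_zero])
  obtain ⟨z, hz⟩ := h₁.a2_inj a hda (fun a' ha' => by
    obtain ⟨b', rfl⟩ := S.f1'_surj a'
    obtain ⟨c', hc'⟩ := S.exact2' (P₂.dB1 b') (by rw [S.f'_d1, ha'])
    have hc'Z : c' ∈ P₃.ZB2 := S.g2'_ZB2_refl c' (by rw [hc']; exact P₂.dB1_mem b')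
    rw [S.delta1 ha.symm hc'.symm, hb₀, ← hcφ c' hc'Z, LinearMap.comp_apply, hc', hφ, mul_zero])
  set b : P₂.A1 := b₀ - S.f1 z with hb
  have hdb : P₂.dA1 b = 0 := by rw [hb, map_sub, ← S.f_d1, hz, ha, sub_self]
  have hgb : S.g1 b = c := by rw [hb, map_sub, S.gf1, sub_zero, hb₀]
  -- Step 3: correct by a class coming from `P₁`.
  set χ : P₂.B2 →ₗ[k] k := φ - P₂.b12 b with hχ
  have hχg : ∀ c' ∈ P₃.ZB2, χ (S.g2' c') = 0 := fun c' hc' => by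
    rw [hχ, LinearMap.sub_apply, ← S.adj_g12, hgb, ← hcφ c' hc', LinearMap.comp_apply, sub_self]
  obtain ⟨φ₁, hφ₁⟩ := ha_factor (S.f2' ∘ₗ P₂.ZB2.subtype) (χ ∘ₗ P₂.ZB2.subtype) (fun y hy => by
    obtain ⟨c', hc'⟩ := S.exact2' (y : P₂.B2) (by simpa using hy)
    have hc'Z : c' ∈ P₃.ZB2 := S.g2'_ZB2_refl c' (by rw [hc']; exact y.2)
    simp only [LinearMap.comp_apply, Submodule.subtype_apply]
    rw [← hc']; exact hχg c' hc'Z)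
  have hφ₁' : ∀ y ∈ P₂.ZB2, φ₁ (S.f2' y) = χ y := fun y hy => by
    simpa using hφ₁ ⟨y, hy⟩
  obtain ⟨a₁, ha₁, ha₁φ⟩ := h₁.a1_surj φ₁ (fun a' => by
    obtain ⟨b', rfl⟩ := S.f1'_surj a'
    rw [← S.f'_d1, hφ₁' _ (P₂.dB1_mem b'), hχ, LinearMap.sub_apply, hφ, P₂.b12_dB1 hdb, sub_zero])
  refine ⟨b + S.f1 a₁, by rw [map_add, hdb, ← S.f_d1, ha₁, map_zero, add_zero], fun y hy => ?_⟩
  rw [map_add, LinearMap.add_apply, S.adj_f12, ← ha₁φ _ (S.f2'_ZB2 y hy), hφ₁' y hy, hχ,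
    LinearMap.sub_apply]
  ring

include S in
/-- `α²(P₂)` is surjective. -/
lemma a2_surj (h₁ : P₁.Good) (h₃ : P₃.Good) (φ : P₂.B1 →ₗ[k] k) (hφ : ∀ y, φ (P₂.dB0 y) = 0) :
    ∃ x : P₂.A2, P₂.dA2 x = 0 ∧ ∀ y, P₂.dB1 y = 0 → φ y = P₂.b21 x y := by
  obtain ⟨c, hc, hcφ⟩ := h₃.a2_surj (φ ∘ₗ S.g1') (fun y => by
    simp only [LinearMap.comp_apply]; rw [S.g'_d0]; exact hφ _)
  obtain ⟨b₀, hb₀⟩ := S.g2_surj c
  obtain ⟨a, ha⟩ := S.exact3 (P₂.dA2 b₀) (by rw [S.g_d2, hb₀, hc])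
  have haZ : a ∈ P₁.Z3 := S.f3_Z3_refl a (by rw [ha]; exact P₂.dA2_mem b₀)
  obtain ⟨z, hz⟩ := h₁.a3_inj a haZ (fun a' ha' => by
    obtain ⟨b', rfl⟩ := S.f0'_surj a'
    obtain ⟨c', hc'⟩ := S.exact1' (P₂.dB0 b') (by rw [S.f'_d0, ha'])
    have hdc' : P₃.dB1 c' = 0 := S.g2'_inj (by rw [S.g'_d1, hc', P₂.dB01, map_zero])
    rw [S.delta2 ha.symm hc'.symm, hb₀, ← hcφ c' hdc', LinearMap.comp_apply, hc', hφ, mul_zero])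
  set b : P₂.A2 := b₀ - S.f2 z with hb
  have hdb : P₂.dA2 b = 0 := by rw [hb, map_sub, ← S.f_d2, hz, ha, sub_self]
  have hgb : S.g2 b = c := by rw [hb, map_sub, S.gf2, sub_zero, hb₀]
  set χ : P₂.B1 →ₗ[k] k := φ - P₂.b21 b with hχ
  have hχg : ∀ c', P₃.dB1 c' = 0 → χ (S.g1' c') = 0 := fun c' hc' => by
    rw [hχ, LinearMap.sub_apply, ← S.adj_g21, hgb, ← hcφ c' hc', LinearMap.comp_apply, sub_self]
  obtain ⟨φ₁, hφ₁⟩ := ha_factor (S.f1' ∘ₗ (LinearMap.ker P₂.dB1).subtype)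
    (χ ∘ₗ (LinearMap.ker P₂.dB1).subtype) (fun y hy => by
    obtain ⟨c', hc'⟩ := S.exact1' (y : P₂.B1) (by simpa using hy)
    have hdc' : P₃.dB1 c' = 0 := S.g2'_inj (by
      rw [S.g'_d1, hc', map_zero]; exact LinearMap.mem_ker.1 y.2)
    simp only [LinearMap.comp_apply, Submodule.subtype_apply]
    rw [← hc']; exact hχg c' hdc')
  have hφ₁' : ∀ y, P₂.dB1 y = 0 → φ₁ (S.f1' y) = χ y := fun y hy => by
    simpa using hφ₁ ⟨y, LinearMap.mem_ker.2 hy⟩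
  obtain ⟨a₁, ha₁, ha₁φ⟩ := h₁.a2_surj φ₁ (fun a' => by
    obtain ⟨b', rfl⟩ := S.f0'_surj a'
    rw [← S.f'_d0, hφ₁' _ (P₂.dB01 b'), hχ, LinearMap.sub_apply, hφ, P₂.b21_dB0 hdb, sub_zero])
  refine ⟨b + S.f2 a₁, by rw [map_add, hdb, ← S.f_d2, ha₁, map_zero, add_zero], fun y hy => ?_⟩
  have hfy : P₁.dB1 (S.f1' y) = 0 := by rw [← S.f'_d1, hy, map_zero]
  rw [map_add, LinearMap.add_apply, S.adj_f21, ← ha₁φ _ hfy, hφ₁' y hy, hχ, LinearMap.sub_apply]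
  ring

include S in
/-- `α²(P₂)` is injective. -/
lemma a2_inj (h₁ : P₁.Good) (h₃ : P₃.Good) (x : P₂.A2) (hx : P₂.dA2 x = 0)
    (hxy : ∀ y, P₂.dB1 y = 0 → P₂.b21 x y = 0) : ∃ z, P₂.dA1 z = x := by
  -- Step 1: the image in `P₃` is a coboundary; reduce to `x = f2 a`.
  obtain ⟨c₁, hc₁⟩ := h₃.a2_inj (S.g2 x) (by rw [← S.g_d2, hx, map_zero]) (fun c' hc' => by
    rw [S.adj_g21]; exact hxy _ (by rw [← S.g'_d1, hc', map_zero]))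
  obtain ⟨b₁, hb₁⟩ := S.g1_surj c₁
  obtain ⟨a, ha⟩ := S.exact2 (x - P₂.dA1 b₁) (by rw [map_sub, S.g_d1, hb₁, hc₁, sub_self])
  have hda : P₁.dA2 a = 0 := S.f3_inj (by
    rw [S.f_d2, ha, map_sub, hx, P₂.dA12, sub_zero, map_zero])
  have hay : ∀ y, P₂.dB1 y = 0 → P₁.b21 a (S.f1' y) = 0 := fun y hy => by
    rw [← S.adj_f21, ha, map_sub, LinearMap.sub_apply, hxy y hy, P₂.b21_dA1 b₁ hy, sub_zero]
  -- Step 2: a functional on `P₃.B2` representing `α²(a)` through the connecting map.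
  let E : Submodule k (P₂.B1 × P₃.B2) :=
    LinearMap.ker (P₂.dB1 ∘ₗ LinearMap.fst k P₂.B1 P₃.B2 - S.g2' ∘ₗ LinearMap.snd k P₂.B1 P₃.B2)
  have hE : ∀ (b' : P₂.B1) (c' : P₃.B2), (b', c') ∈ E ↔ P₂.dB1 b' = S.g2' c' := fun b' c' => by
    simp only [E, LinearMap.mem_ker, LinearMap.sub_apply, LinearMap.comp_apply,
      LinearMap.fst_apply, LinearMap.snd_apply, sub_eq_zero]
  obtain ⟨φ₃, hφ₃⟩ := ha_factor (LinearMap.snd k P₂.B1 P₃.B2 ∘ₗ E.subtype)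
    ((P₁.b21 a ∘ₗ S.f1') ∘ₗ LinearMap.fst k P₂.B1 P₃.B2 ∘ₗ E.subtype) (fun v hv => by
    obtain ⟨⟨b', c'⟩, hv'⟩ := v
    have hc' : c' = 0 := by simpa using hv
    have hb' : P₂.dB1 b' = 0 := by rw [(hE b' c').1 hv', hc', map_zero]
    simpa using hay b' hb')
  have hφ₃' : ∀ (b' : P₂.B1) (c' : P₃.B2), P₂.dB1 b' = S.g2' c' →
      φ₃ c' = P₁.b21 a (S.f1' b') := fun b' c' h => by
    simpa using hφ₃ ⟨(b', c'), (hE b' c').2 h⟩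
  obtain ⟨c, hc, hcφ⟩ := h₃.a1_surj φ₃ (fun c₀ => by
    rw [hφ₃' (S.g1' c₀) (P₃.dB1 c₀) (S.g'_d1 c₀).symm, S.fg1', map_zero])
  -- Step 3: compare `a` with the image of `c` under the connecting map.
  obtain ⟨b₂, hb₂⟩ := S.g1_surj c
  obtain ⟨a₀, ha₀⟩ := S.exact2 (P₂.dA1 b₂) (by rw [S.g_d1, hb₂, hc])
  have hda₀ : P₁.dA2 a₀ = 0 := S.f3_inj (by rw [S.f_d2, ha₀, P₂.dA12, map_zero])
  obtain ⟨z, hz⟩ := h₁.a2_inj (a₀ - P₂.e1 • a) (by rw [map_sub, map_smul, hda₀, hda, smul_zero,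
    sub_zero]) (fun a' ha' => by
    obtain ⟨b', rfl⟩ := S.f1'_surj a'
    obtain ⟨c', hc'⟩ := S.exact2' (P₂.dB1 b') (by rw [S.f'_d1, ha'])
    have hc'Z : c' ∈ P₃.ZB2 := S.g2'_ZB2_refl c' (by rw [hc']; exact P₂.dB1_mem b')
    rw [map_sub, map_smul, LinearMap.sub_apply, LinearMap.smul_apply, S.delta1 ha₀.symm hc'.symm,
      hb₂, ← hcφ c' hc'Z, hφ₃' b' c' hc'.symm, smul_eq_mul, sub_self])
  refine ⟨P₂.e1⁻¹ • (b₂ - S.f1 z) + b₁, ?_⟩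
  have hfa : S.f2 a = P₂.e1⁻¹ • (P₂.dA1 b₂ - P₂.dA1 (S.f1 z)) := by
    rw [← S.f_d1, hz, ← ha₀, ← map_sub, sub_sub_cancel, map_smul, smul_smul,
      inv_mul_cancel₀ P₂.e1_ne, one_smul]
  rw [map_add, map_smul, map_sub, ← hfa, ha]
  abel

include S in
/-- `α³(P₂)` is injective. -/
lemma a3_inj (h₁ : P₁.Good) (h₃ : P₃.Good) (x : P₂.A3) (hxZ : x ∈ P₂.Z3)
    (hxy : ∀ y, P₂.dB0 y = 0 → P₂.b30 x y = 0) : ∃ z, P₂.dA2 z = x := by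
  obtain ⟨c₂, hc₂⟩ := h₃.a3_inj (S.g3 x) (S.g3_Z3 x hxZ) (fun c' hc' => by
    rw [S.adj_g30]; exact hxy _ (by rw [← S.g'_d0, hc', map_zero]))
  obtain ⟨b₂, hb₂⟩ := S.g2_surj c₂
  obtain ⟨a, ha⟩ := S.exact3 (x - P₂.dA2 b₂) (by rw [map_sub, S.g_d2, hb₂, hc₂, sub_self])
  have haZ : a ∈ P₁.Z3 := S.f3_Z3_refl a (by
    rw [ha]; exact P₂.Z3.sub_mem hxZ (P₂.dA2_mem b₂))
  have hay : ∀ y, P₂.dB0 y = 0 → P₁.b30 a (S.f0' y) = 0 := fun y hy => by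
    rw [← S.adj_f30, ha, map_sub, LinearMap.sub_apply, hxy y hy, P₂.b30_dA2 b₂ hy, sub_zero]
  let E : Submodule k (P₂.B0 × P₃.B1) :=
    LinearMap.ker (P₂.dB0 ∘ₗ LinearMap.fst k P₂.B0 P₃.B1 - S.g1' ∘ₗ LinearMap.snd k P₂.B0 P₃.B1)
  have hE : ∀ (b' : P₂.B0) (c' : P₃.B1), (b', c') ∈ E ↔ P₂.dB0 b' = S.g1' c' := fun b' c' => by
    simp only [E, LinearMap.mem_ker, LinearMap.sub_apply, LinearMap.comp_apply,
      LinearMap.fst_apply, LinearMap.snd_apply, sub_eq_zero]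
  obtain ⟨φ₃, hφ₃⟩ := ha_factor (LinearMap.snd k P₂.B0 P₃.B1 ∘ₗ E.subtype)
    ((P₁.b30 a ∘ₗ S.f0') ∘ₗ LinearMap.fst k P₂.B0 P₃.B1 ∘ₗ E.subtype) (fun v hv => by
    obtain ⟨⟨b', c'⟩, hv'⟩ := v
    have hc' : c' = 0 := by simpa using hv
    have hb' : P₂.dB0 b' = 0 := by rw [(hE b' c').1 hv', hc', map_zero]
    simpa using hay b' hb')
  have hφ₃' : ∀ (b' : P₂.B0) (c' : P₃.B1), P₂.dB0 b' = S.g1' c' →
      φ₃ c' = P₁.b30 a (S.f0' b') := fun b' c' h => by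
    simpa using hφ₃ ⟨(b', c'), (hE b' c').2 h⟩
  obtain ⟨c, hc, hcφ⟩ := h₃.a2_surj φ₃ (fun c₀ => by
    rw [hφ₃' (S.g0' c₀) (P₃.dB0 c₀) (S.g'_d0 c₀).symm, S.fg0', map_zero])
  obtain ⟨b₁, hb₁⟩ := S.g2_surj c
  obtain ⟨a₀, ha₀⟩ := S.exact3 (P₂.dA2 b₁) (by rw [S.g_d2, hb₁, hc])
  have ha₀Z : a₀ ∈ P₁.Z3 := S.f3_Z3_refl a₀ (by rw [ha₀]; exact P₂.dA2_mem b₁)
  obtain ⟨z, hz⟩ := h₁.a3_inj (a₀ - P₂.e2 • a) (P₁.Z3.sub_mem ha₀Z (P₁.Z3.smul_mem _ haZ))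
    (fun a' ha' => by
    obtain ⟨b', rfl⟩ := S.f0'_surj a'
    obtain ⟨c', hc'⟩ := S.exact1' (P₂.dB0 b') (by rw [S.f'_d0, ha'])
    have hdc' : P₃.dB1 c' = 0 := S.g2'_inj (by rw [S.g'_d1, hc', P₂.dB01, map_zero])
    rw [map_sub, map_smul, LinearMap.sub_apply, LinearMap.smul_apply, S.delta2 ha₀.symm hc'.symm,
      hb₁, ← hcφ c' hdc', hφ₃' b' c' hc'.symm, smul_eq_mul, sub_self])
  refine ⟨P₂.e2⁻¹ • (b₁ - S.f2 z) + b₂, ?_⟩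
  have hfa : S.f3 a = P₂.e2⁻¹ • (P₂.dA2 b₁ - P₂.dA2 (S.f2 z)) := by
    rw [← S.f_d2, hz, ← ha₀, ← map_sub, sub_sub_cancel, map_smul, smul_smul,
      inv_mul_cancel₀ P₂.e2_ne, one_smul]
  rw [map_add, map_smul, map_sub, ← hfa, ha]
  abel

include S in
/-- **GOOD is closed under extensions.** -/
theorem good (h₁ : P₁.Good) (h₃ : P₃.Good) : P₂.Good :=
  ⟨S.a1_surj h₁ h₃, S.a2_inj h₁ h₃, S.a2_surj h₁ h₃, S.a3_inj h₁ h₃⟩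

end HaSES

/-- `P` is a retract of `Q` (as paired truncated complexes). Only the maps and identities used in
`HaRetract.good` are recorded. -/
structure HaRetract (P Q : HaPC.{u, v} k) where
  i2 : P.A2 →ₗ[k] Q.A2
  i3 : P.A3 →ₗ[k] Q.A3
  r1 : Q.A1 →ₗ[k] P.A1
  r2 : Q.A2 →ₗ[k] P.A2
  r3 : Q.A3 →ₗ[k] P.A3
  i0' : Q.B0 →ₗ[k] P.B0
  i1' : Q.B1 →ₗ[k] P.B1
  i2' : Q.B2 →ₗ[k] P.B2
  r1' : P.B1 →ₗ[k] Q.B1
  r2' : P.B2 →ₗ[k] Q.B2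
  i_d2 : ∀ x, i3 (P.dA2 x) = Q.dA2 (i2 x)
  r_d1 : ∀ x, r2 (Q.dA1 x) = P.dA1 (r1 x)
  r_d2 : ∀ x, r3 (Q.dA2 x) = P.dA2 (r2 x)
  i'_d0 : ∀ y, i1' (Q.dB0 y) = P.dB0 (i0' y)
  i'_d1 : ∀ y, i2' (Q.dB1 y) = P.dB1 (i1' y)
  r'_d1 : ∀ y, r2' (P.dB1 y) = Q.dB1 (r1' y)
  ri2 : ∀ x, r2 (i2 x) = x
  ri3 : ∀ x, r3 (i3 x) = x
  ir1' : ∀ y, i1' (r1' y) = y
  ir2' : ∀ y, i2' (r2' y) = y
  i3_Z3 : ∀ x ∈ P.Z3, i3 x ∈ Q.Z3
  r2'_ZB2 : ∀ y ∈ P.ZB2, r2' y ∈ Q.ZB2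
  adj_r12 : ∀ x y, P.b12 (r1 x) y = Q.b12 x (r2' y)
  adj_r21 : ∀ x y, P.b21 (r2 x) y = Q.b21 x (r1' y)
  adj_i21 : ∀ x y, Q.b21 (i2 x) y = P.b21 x (i1' y)
  adj_i30 : ∀ x y, Q.b30 (i3 x) y = P.b30 x (i0' y)

namespace HaRetract

variable {P Q : HaPC.{u, v} k} (R : HaRetract P Q)

include R in
/-- **GOOD passes to retracts.** -/
theorem good (hQ : Q.Good) : P.Good where
  a1_surj φ hφ := by
    obtain ⟨x, hx, hxφ⟩ := hQ.a1_surj (φ ∘ₗ R.i2') (fun y => by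
      simp only [LinearMap.comp_apply]; rw [R.i'_d1]; exact hφ _)
    refine ⟨R.r1 x, by rw [← R.r_d1, hx, map_zero], fun y hy => ?_⟩
    rw [R.adj_r12, ← hxφ _ (R.r2'_ZB2 y hy), LinearMap.comp_apply, R.ir2']
  a2_inj x hx hxy := by
    obtain ⟨z, hz⟩ := hQ.a2_inj (R.i2 x) (by rw [← R.i_d2, hx, map_zero]) (fun y hy => by
      rw [R.adj_i21]; exact hxy _ (by rw [← R.i'_d1, hy, map_zero]))
    exact ⟨R.r1 z, by rw [← R.r_d1, hz, R.ri2]⟩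
  a2_surj φ hφ := by
    obtain ⟨x, hx, hxφ⟩ := hQ.a2_surj (φ ∘ₗ R.i1') (fun y => by
      simp only [LinearMap.comp_apply]; rw [R.i'_d0]; exact hφ _)
    refine ⟨R.r2 x, by rw [← R.r_d2, hx, map_zero], fun y hy => ?_⟩
    rw [R.adj_r21, ← hxφ _ (by rw [← R.r'_d1, hy, map_zero]), LinearMap.comp_apply, R.ir1']
  a3_inj x hxZ hxy := by
    obtain ⟨z, hz⟩ := hQ.a3_inj (R.i3 x) (R.i3_Z3 x hxZ) (fun y hy => by
      rw [R.adj_i30]; exact hxy _ (by rw [← R.i'_d0, hy, map_zero]))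
    exact ⟨R.r2 z, by rw [← R.r_d2, hz, R.ri3]⟩

end HaRetract

end Fermat.Agent.S55
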