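/-
S55 block HA (helper13): final step of the devissage in "mirror" form (helper14's simplification
(A), report 440): no local duality is needed.

`P`  = paired 2-truncated complex of `(M, M')`   (`A`-side: cone of `M`,  `B`-side: `G_S`-cochains of `M'`),
`P'` = paired 2-truncated complex of `(M', M)`   (`A`-side: cone of `M'`, `B`-side: `G_S`-cochains of `M`),
`j  : P.A2 → P'.B2`  = global part of a cone 2-cochain of `M`,
`j' : P'.A1 → P.B1`  = global part of a cone 1-cochain of `M'`,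
with the symmetry `P.b21 x (j' x') = ε * P'.b12 x' (j x)` on cocycles (cup-1 homotopy).

Then `α²(P)` surjective and `α¹(P')` surjective give a pairing between
`Sha¹(M') = j'(Z_c^1(M')) / B^1` and `Sha²(M) = Z_c^2(M) / j⁻¹(B^2)` which is nondegenerate on
both sides.
-/
import Fermat.Agent.S55.HAQ

set_option autoImplicit false

namespace Fermat.Agent.S55

universe u v

variable {k : Type u} [Field k]

/-- Mirror data relating the paired complexes of `(M, M')` and `(M', M)`. -/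
structure HaQMirror (P P' : HaQC.{u, v} k) where
  j : P.A2 →ₗ[k] P'.B2
  j' : P'.A1 →ₗ[k] P.B1
  ε : k
  ε_ne : ε ≠ 0
  /-- the global part of a cone 2-cocycle is a 2-cocycle -/
  j_ZB2 : ∀ x ∈ P.ZA2, j x ∈ P'.ZB2
  /-- the global part of a cone 1-cocycle is a 1-cocycle -/
  j'_Z : ∀ x', P'.dA1 x' = 0 → P.dB1 (j' x') = 0
  /-- symmetry of the two pairings on cocycles -/
  sym : ∀ x ∈ P.ZA2, ∀ x', P'.dA1 x' = 0 → P.b21 x (j' x') = ε * P'.b12 x' (j x)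

namespace HaQMirror

variable {P P' : HaQC.{u, v} k} (C : HaQMirror P P')

/-- Global 1-cocycles of `M'` which are locally coboundaries: global parts of cone 1-cocycles. -/
def sha1Z : Submodule k P.B1 := (LinearMap.ker P'.dA1).map C.j'

lemma mem_sha1Z {y : P.B1} : y ∈ C.sha1Z ↔ ∃ x', P'.dA1 x' = 0 ∧ C.j' x' = y := by
  simp [sha1Z]

include C in
lemma dB1_eq_zero_of_mem_sha1Z {y : P.B1} (hy : y ∈ C.sha1Z) : P.dB1 y = 0 := by
  obtain ⟨x', hx', rfl⟩ := C.mem_sha1Z.1 hy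
  exact C.j'_Z x' hx'

include C in
/-- A cone 2-cocycle whose global part is a coboundary pairs to zero with `Sha¹`-cocycles. -/
lemma b21_eq_zero_of_j {z : P.A2} (hz : z ∈ P.ZA2) (hjz : C.j z ∈ LinearMap.range P'.dB1)
    {y : P.B1} (hy : y ∈ C.sha1Z) : P.b21 z y = 0 := by
  obtain ⟨x', hx', rfl⟩ := C.mem_sha1Z.1 hy
  obtain ⟨w, hw⟩ := hjz
  rw [C.sym z hz x' hx', ← hw, P'.b12_dB1 hx', mul_zero]

include C in
/-- **Final step of the devissage, mirror form.** If `α²(M) : H_c²(M) → H¹(M')^*` and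
`α¹(M') : H_c¹(M') → H²(M)^*` are surjective, then for any realisations `X1` of
`Sha¹(M') = sha1Z / BB1` and `X2` of `Sha²(M) = ZA2 / j⁻¹(B²)` there is a pairing `X1 × X2 → k`
which is nondegenerate on both sides. -/
theorem exists_pairing (hsurj : P.A2Surj) (hsurj' : P'.A1Surj)
    {X1 X2 : Type*} [AddCommGroup X1] [Module k X1] [AddCommGroup X2] [Module k X2]
    (π₁ : ↥C.sha1Z →ₗ[k] X1) (hπ₁ : Function.Surjective π₁)
    (hπ₁k : ∀ y, π₁ y = 0 ↔ (y : P.B1) ∈ P.BB1)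
    (π₂ : ↥P.ZA2 →ₗ[k] X2) (hπ₂ : Function.Surjective π₂)
    (hπ₂k : ∀ z, π₂ z = 0 ↔ C.j (z : P.A2) ∈ LinearMap.range P'.dB1) :
    ∃ B : X1 →ₗ[k] X2 →ₗ[k] k,
      (∀ y, (∀ x, B y x = 0) → y = 0) ∧ (∀ x, (∀ y, B y x = 0) → x = 0) := by
  obtain ⟨s₁, hs₁⟩ := π₁.exists_rightInverse_of_surjective (LinearMap.range_eq_top.2 hπ₁)
  obtain ⟨s₂, hs₂⟩ := π₂.exists_rightInverse_of_surjective (LinearMap.range_eq_top.2 hπ₂)
  have hs₁' : ∀ y, π₁ (s₁ y) = y := fun y => by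
    have := congrArg (fun g => g y) hs₁; simpa using this
  have hs₂' : ∀ x, π₂ (s₂ x) = x := fun x => by
    have := congrArg (fun g => g x) hs₂; simpa using this
  let β : ↥P.ZA2 →ₗ[k] ↥C.sha1Z →ₗ[k] k := P.b21.domRestrict₁₂ P.ZA2 C.sha1Z
  have hβ : ∀ (z : ↥P.ZA2) (y : ↥C.sha1Z), β z y = P.b21 (z : P.A2) (y : P.B1) := fun z y => rfl
  have hβ₂ : ∀ (z : ↥P.ZA2) (y : ↥C.sha1Z), π₂ z = 0 → β z y = 0 := fun z y hz => by
    rw [hβ]; exact C.b21_eq_zero_of_j z.2 ((hπ₂k z).1 hz) y.2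
  have hβ₁ : ∀ (z : ↥P.ZA2) (y : ↥C.sha1Z), π₁ y = 0 → β z y = 0 := fun z y hy => by
    rw [hβ]; exact P.b21_BB1 _ z.2 _ ((hπ₁k y).1 hy)
  have hβs : ∀ (z : ↥P.ZA2) (y : ↥C.sha1Z), β (s₂ (π₂ z)) (s₁ (π₁ y)) = β z y := fun z y => by
    have h1 : β (s₂ (π₂ z) - z) (s₁ (π₁ y)) = 0 :=
      hβ₂ _ _ (by rw [map_sub, hs₂', sub_self])
    have h2 : β z (s₁ (π₁ y) - y) = 0 := hβ₁ _ _ (by rw [map_sub, hs₁', sub_self])
    rw [map_sub, LinearMap.sub_apply, sub_eq_zero] at h1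
    rw [map_sub, sub_eq_zero] at h2
    rw [h1, h2]
  refine ⟨(β.compl₁₂ s₂ s₁).flip, fun y₁ hy₁ => ?_, fun x₂ hx₂ => ?_⟩
  · -- left nondegeneracy: from `A2Surj P`
    obtain ⟨y, rfl⟩ := hπ₁ y₁
    rw [hπ₁k]
    by_contra hy
    obtain ⟨φ, hφy, hφB⟩ := Submodule.exists_le_ker_of_notMem hy
    obtain ⟨x, hxZ, hxφ⟩ := hsurj φ (fun y' hy' => LinearMap.mem_ker.1 (hφB hy'))
    apply hφy
    rw [hxφ _ (C.dB1_eq_zero_of_mem_sha1Z y.2)]
    have := hy₁ (π₂ ⟨x, hxZ⟩)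
    simp only [LinearMap.flip_apply, LinearMap.compl₁₂_apply] at this
    rw [hβs, hβ] at this
    exact this
  · -- right nondegeneracy: from `A1Surj P'` and the symmetry
    obtain ⟨z, rfl⟩ := hπ₂ x₂
    rw [hπ₂k]
    have hz : ∀ y ∈ C.sha1Z, P.b21 (z : P.A2) y = 0 := fun y hy => by
      have := hx₂ (π₁ ⟨y, hy⟩)
      simp only [LinearMap.flip_apply, LinearMap.compl₁₂_apply] at this
      rw [hβs, hβ] at this
      exact this
    by_contra hjz
    obtain ⟨φ, hφz, hφB⟩ := Submodule.exists_le_ker_of_notMem hjz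
    obtain ⟨x', hx', hx'φ⟩ := hsurj' φ (fun y => LinearMap.mem_ker.1 (hφB ⟨y, rfl⟩))
    apply hφz
    rw [hx'φ _ (C.j_ZB2 _ z.2)]
    have h := C.sym _ z.2 x' hx'
    rw [hz _ (C.mem_sha1Z.2 ⟨x', hx', rfl⟩)] at h
    exact (mul_eq_zero.1 h.symm).resolve_left C.ε_ne

end HaQMirror

end Fermat.Agent.S55
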