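import Mathlib
import Fermat.Agent.S55.HAQ

/-!
# S55, block BASE-ABS: the abstract base-case count

`haqb_base`: for a paired 2-truncated complex `P` (`HaQC`) of "cone shape" with trivial
coefficients on both sides, the arithmetic inputs of the base case

* local: `dim L ≤ 2m` (local Kummer count), the local pairing `lam` is left-nondegenerate,
  the local invariants are injective (`inv_inj`);
* global: a Kummer space `V ↪ H¹` of dimension `≥ m + ρ`, a space `C` of dimension `≤ ρ` mapping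
  onto `Sha²` (`span`), and `Sha¹` is detected by `H_c²` (`detect`);

imply `P.A1Surj ∧ P.A2Inj ∧ P.A2Surj`.  Pure linear algebra.
-/

set_option autoImplicit false

namespace Fermat.Agent.S55

open Module

universe u v

variable {k : Type u} [Field k]

section LinAlg

variable {L : Type*} [AddCommGroup L] [Module k L] [FiniteDimensional k L]

/-- A left-nondegenerate pairing on a finite-dimensional space represents every functional
(in the first variable). -/
theorem haqb_repr (lam : L →ₗ[k] L →ₗ[k] k) (hnd : ∀ l, (∀ l', lam l l' = 0) → l = 0)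
    (ψ : L →ₗ[k] k) : ∃ l, ∀ l', lam l l' = ψ l' := by
  have hinj : Function.Injective lam := by
    rw [← LinearMap.ker_eq_bot, LinearMap.ker_eq_bot']
    intro l hl
    exact hnd l (fun l' => by rw [hl]; rfl)
  have hsurj : Function.Surjective lam :=
    (LinearMap.injective_iff_surjective_of_finrank_eq_finrank
      (Subspace.dual_finrank_eq (K := k) (V := L)).symm).mp hinj
  obtain ⟨l, hl⟩ := hsurj ψ
  exact ⟨l, fun l' => by rw [hl]⟩

/-- The left orthogonal of a subspace. -/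
def haqb_lorth (lam : L →ₗ[k] L →ₗ[k] k) (I : Submodule k L) : Submodule k L where
  carrier := {l | ∀ y ∈ I, lam l y = 0}
  add_mem' := fun {a b} ha hb y hy => by
    rw [map_add, LinearMap.add_apply, ha y hy, hb y hy, add_zero]
  zero_mem' := fun y _ => by rw [map_zero, LinearMap.zero_apply]
  smul_mem' := fun r a ha y hy => by
    rw [map_smul, LinearMap.smul_apply, ha y hy, smul_zero]

omit [FiniteDimensional k L] in
theorem haqb_mem_lorth (lam : L →ₗ[k] L →ₗ[k] k) (I : Submodule k L) (l : L) :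
    l ∈ haqb_lorth lam I ↔ ∀ y ∈ I, lam l y = 0 := Iff.rfl

/-- Dimension of the left orthogonal for a left-nondegenerate pairing. -/
theorem haqb_finrank_lorth (lam : L →ₗ[k] L →ₗ[k] k) (hnd : ∀ l, (∀ l', lam l l' = 0) → l = 0)
    (I : Submodule k L) : finrank k (haqb_lorth lam I) + finrank k I = finrank k L := by
  -- restriction map `L → Dual I`
  let r : L →ₗ[k] Dual k I := (LinearMap.lcomp k k I.subtype) ∘ₗ lam
  have hr : ∀ l (y : I), r l y = lam l (y : L) := fun l y => rfl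
  have hker : LinearMap.ker r = haqb_lorth lam I := by
    ext l
    rw [LinearMap.mem_ker, haqb_mem_lorth]
    constructor
    · intro h y hy
      have := congrArg (fun θ : Dual k I => θ ⟨y, hy⟩) h
      exact this
    · intro h
      apply LinearMap.ext
      intro y
      exact h y y.2
  have hsurj : Function.Surjective r := by
    intro ψ
    obtain ⟨ψ', hψ'⟩ := LinearMap.exists_extend ψ
    obtain ⟨l, hl⟩ := haqb_repr lam hnd ψ'
    refine ⟨l, ?_⟩
    apply LinearMap.ext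
    intro y
    rw [hr, hl]
    exact congrArg (fun θ : I →ₗ[k] k => θ y) hψ'
  have h1 := LinearMap.finrank_range_add_finrank_ker r
  rw [LinearMap.range_eq_top.mpr hsurj, finrank_top, hker, Subspace.dual_finrank_eq] at h1
  omega

end LinAlg

section Base

variable (P : HaQC.{u, v} k)
  {L : Type*} [AddCommGroup L] [Module k L] [FiniteDimensional k L]
  {K0 : Type*} [AddCommGroup K0] [Module k K0] [FiniteDimensional k K0]
  {V : Type*} [AddCommGroup V] [Module k V] [FiniteDimensional k V]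
  {C : Type*} [AddCommGroup C] [Module k C] [FiniteDimensional k C]

/-- `α²` is surjective: needs only local perfectness and the detection of `Sha¹`. -/
theorem haqb_a2Surj
    (bd : L →ₗ[k] P.A2) (bd_mem : ∀ l, bd l ∈ P.ZA2)
    (loc : P.B1 →ₗ[k] L)
    (lam : L →ₗ[k] L →ₗ[k] k)
    (compat : ∀ l y, P.dB1 y = 0 → P.b21 (bd l) y = lam l (loc y))
    (lam_nd : ∀ l, (∀ l', lam l l' = 0) → l = 0)
    (c : C →ₗ[k] P.A2) (c_mem : ∀ u, c u ∈ P.ZA2)
    (detect' : ∀ y, P.dB1 y = 0 → loc y = 0 → (∀ u, P.b21 (c u) y = 0) → y ∈ P.BB1) :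
    P.A2Surj := by
  intro φ hφ
  -- cocycles and the subspace of locally trivial cocycles
  let Z : Submodule k P.B1 := LinearMap.ker P.dB1
  let locZ : Z →ₗ[k] L := loc ∘ₗ Z.subtype
  let Sh : Submodule k Z := LinearMap.ker locZ
  -- Step 1: on `Sh`, `φ` is `b21 (c u) ·`
  let Ψ : Sh →ₗ[k] Dual k C := ((P.b21 ∘ₗ c).flip ∘ₗ Z.subtype) ∘ₗ Sh.subtype
  have hΨ : ∀ (y : Sh) (u : C), Ψ y u = P.b21 (c u) ((y : Z) : P.B1) := fun y u => rfl
  have h1 : ∀ y : Sh, Ψ y = 0 → (φ ∘ₗ Z.subtype ∘ₗ Sh.subtype) y = 0 := by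
    intro y hy
    apply hφ
    apply detect' _ (LinearMap.mem_ker.mp (y : Z).2) (LinearMap.mem_ker.mp y.2)
    intro u
    rw [← hΨ, hy]
    rfl
  obtain ⟨Φ, hΦ⟩ := haq_factor Ψ (φ ∘ₗ Z.subtype ∘ₗ Sh.subtype) h1
  obtain ⟨u, hu⟩ := (Module.bijective_dual_eval k C).2 Φ
  have hu' : ∀ y : Sh, P.b21 (c u) ((y : Z) : P.B1) = φ ((y : Z) : P.B1) := by
    intro y
    have h2 := congrArg (fun θ : Dual k (Dual k C) => θ (Ψ y)) hu
    simp only [Module.Dual.eval_apply] at h2
    rw [hΨ] at h2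
    rw [h2, hΦ]
    rfl
  -- Step 2: the rest factors through `loc`
  let φ' : Z →ₗ[k] k := (φ - P.b21 (c u)) ∘ₗ Z.subtype
  have hφ' : ∀ y : Z, φ' y = φ (y : P.B1) - P.b21 (c u) (y : P.B1) := fun y => rfl
  have h3 : ∀ y : Z, locZ y = 0 → φ' y = 0 := by
    intro y hy
    have := hu' ⟨y, LinearMap.mem_ker.mpr hy⟩
    rw [hφ', sub_eq_zero]
    exact this.symm
  obtain ⟨Φ', hΦ'⟩ := haq_factor locZ φ' h3
  obtain ⟨l, hl⟩ := haqb_repr lam lam_nd Φ'
  refine ⟨c u + bd l, P.ZA2.add_mem (c_mem u) (bd_mem l), ?_⟩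
  intro y hy
  have h4 := hΦ' ⟨y, LinearMap.mem_ker.mpr hy⟩
  rw [hφ'] at h4
  have h5 : Φ' (locZ ⟨y, LinearMap.mem_ker.mpr hy⟩) = lam l (loc y) := (hl _).symm
  rw [map_add, LinearMap.add_apply, compat l y hy, ← h5, h4]
  change φ y = P.b21 (c u) y + (φ y - P.b21 (c u) y)
  ring

/-- **The abstract base-case count.** -/
theorem haqb_base (m ρ : ℕ)
    (gl1 : P.A1 →ₗ[k] P.B1) (gl2 : P.A2 →ₗ[k] P.B2)
    (gl_d : ∀ w, gl2 (P.dA1 w) = P.dB1 (gl1 w))
    (bd : L →ₗ[k] P.A2) (bd_mem : ∀ l, bd l ∈ P.ZA2) (gl2_bd : ∀ l, gl2 (bd l) = 0)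
    (loc : P.B1 →ₗ[k] L)
    (lam : L →ₗ[k] L →ₗ[k] k)
    (compat : ∀ l y, P.dB1 y = 0 → P.b21 (bd l) y = lam l (loc y))
    (glob : ∀ y, P.dB1 y = 0 → ∃ w, P.dA1 w = bd (loc y))
    (lift : ∀ y, P.dB1 y = 0 → loc y = 0 → ∃ x', P.dA1 x' = 0 ∧ gl1 x' = y)
    (cst : K0 →ₗ[k] P.A1) (cst_d : ∀ c₀, P.dA1 (cst c₀) = 0)
    (e2 : k)
    (sym : ∀ x ∈ P.ZA2, ∀ x', P.dA1 x' = 0 → P.b21 x (gl1 x') = e2 * P.b12 x' (gl2 x))
    (hL : finrank k L ≤ 2 * m)
    (lam_nd : ∀ l, (∀ l', lam l l' = 0) → l = 0)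
    (inv_inj : ∀ y ∈ P.ZB2, (∀ c₀, P.b12 (cst c₀) y = 0) → ∃ z ∈ P.ZA2, gl2 z = y)
    (κ : V →ₗ[k] P.B1) (κ_d : ∀ v, P.dB1 (κ v) = 0) (κ_inj : ∀ v, κ v ∈ P.BB1 → v = 0)
    (hV : m + ρ ≤ finrank k V)
    (c : C →ₗ[k] P.A2) (c_mem : ∀ u, c u ∈ P.ZA2) (hC : finrank k C ≤ ρ)
    (span : ∀ z ∈ P.ZA2, ∃ u l w, z = c u + bd l + P.dA1 w)
    (detect : ∀ y, P.dB1 y = 0 → loc y = 0 → (∀ z ∈ P.ZA2, P.b21 z y = 0) → y ∈ P.BB1) :
    P.A1Surj ∧ P.A2Inj ∧ P.A2Surj := by
  -- detection by the classes `c u`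
  have detect' : ∀ y, P.dB1 y = 0 → loc y = 0 → (∀ u, P.b21 (c u) y = 0) → y ∈ P.BB1 := by
    intro y hy hly hu
    apply detect y hy hly
    intro z hz
    obtain ⟨u, l, w, rfl⟩ := span z hz
    rw [map_add, map_add, LinearMap.add_apply, LinearMap.add_apply, hu u, compat l y hy, hly,
      map_zero, P.b21_dA1 w hy, add_zero, add_zero]
  -- cocycles
  let Z : Submodule k P.B1 := LinearMap.ker P.dB1
  let locZ : Z →ₗ[k] L := loc ∘ₗ Z.subtype
  let I : Submodule k L := LinearMap.range locZ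
  have hZ : ∀ y : Z, P.dB1 (y : P.B1) = 0 := fun y => LinearMap.mem_ker.mp y.2
  -- isotropy
  have hiso : I ≤ haqb_lorth lam I := by
    rintro _ ⟨y₁, rfl⟩
    rw [haqb_mem_lorth]
    rintro _ ⟨y₂, rfl⟩
    obtain ⟨w, hw⟩ := glob y₁ (hZ y₁)
    have h1 := compat (loc y₁) y₂ (hZ y₂)
    rw [← hw, P.b21_dA1 w (hZ y₂)] at h1
    exact h1.symm
  have hdimI := haqb_finrank_lorth lam lam_nd I
  have hIle : finrank k I ≤ finrank k (haqb_lorth lam I) := Submodule.finrank_mono hiso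
  -- the map `Θ : Z → I × Dual C`
  let Ψ : Z →ₗ[k] Dual k C := (P.b21 ∘ₗ c).flip ∘ₗ Z.subtype
  have hΨ : ∀ (y : Z) (u : C), Ψ y u = P.b21 (c u) (y : P.B1) := fun y u => rfl
  let Θ : Z →ₗ[k] I × Dual k C := (locZ.rangeRestrict).prod Ψ
  have hΘ1 : ∀ y : Z, ((Θ y).1 : L) = loc (y : P.B1) := fun y => rfl
  have hΘ2 : ∀ y : Z, (Θ y).2 = Ψ y := fun y => rfl
  let κ' : V →ₗ[k] Z := κ.codRestrict Z (fun v => LinearMap.mem_ker.mpr (κ_d v))
  have hκ' : ∀ v, ((κ' v : Z) : P.B1) = κ v := fun v => rfl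
  have hginj : Function.Injective (Θ ∘ₗ κ') := by
    rw [← LinearMap.ker_eq_bot, LinearMap.ker_eq_bot']
    intro v hv
    apply κ_inj
    have h1 : loc (κ v) = 0 := by
      have := congrArg (fun t : I × Dual k C => (t.1 : L)) hv
      exact this
    have h2 : Ψ (κ' v) = 0 := congrArg (fun t : I × Dual k C => t.2) hv
    apply detect' (κ v) (κ_d v) h1
    intro u
    rw [← hκ', ← hΨ, h2]
    rfl
  have hdimV : finrank k V ≤ finrank k (I × Dual k C) :=
    LinearMap.finrank_le_finrank_of_injective hginj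
  have hprod : finrank k (I × Dual k C) = finrank k I + finrank k C := by
    rw [Module.finrank_prod, Subspace.dual_finrank_eq]
  -- the numerical consequences
  have hI : finrank k I = m := by omega
  have hLdim : finrank k L = 2 * m := by omega
  have horth : haqb_lorth lam I = I := by
    symm
    apply Submodule.eq_of_le_of_finrank_eq hiso
    omega
  have hVdim : finrank k V = finrank k (I × Dual k C) := by omega
  -- `Θ ∘ κ'` is surjective
  have hgsurj : Function.Surjective (Θ ∘ₗ κ') :=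
    (LinearMap.injective_iff_surjective_of_finrank_eq_finrank hVdim).mp hginj
  -- (S): every functional on `C` is `b21 (c ·) y` for a locally trivial cocycle `y`
  have hS : ∀ ψ : Dual k C, ∃ y, P.dB1 y = 0 ∧ loc y = 0 ∧ ∀ u, P.b21 (c u) y = ψ u := by
    intro ψ
    obtain ⟨v, hv⟩ := hgsurj ((0 : I), ψ)
    refine ⟨κ v, κ_d v, ?_, ?_⟩
    · have := congrArg (fun t : I × Dual k C => (t.1 : L)) hv
      exact this
    · intro u
      have h2 : Ψ (κ' v) = ψ := congrArg (fun t : I × Dual k C => t.2) hv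
      rw [← h2]
      rfl
  -- consequence: `b21 (c u) ·` vanishing on locally trivial cocycles forces `u = 0`
  have hu0 : ∀ u : C, (∀ y, P.dB1 y = 0 → loc y = 0 → P.b21 (c u) y = 0) → u = 0 := by
    intro u hu
    apply (Module.forall_dual_apply_eq_zero_iff k u).mp
    intro ψ
    obtain ⟨y, hy, hly, hyu⟩ := hS ψ
    rw [← hyu u]
    exact hu y hy hly
  refine ⟨?_, ?_, haqb_a2Surj P bd bd_mem loc lam compat lam_nd c c_mem detect'⟩
  · -- A1Surj
    intro φ hφ
    -- Step 1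
    obtain ⟨y', hy', hly', hyu⟩ := hS ((φ ∘ₗ gl2) ∘ₗ c)
    have h1 : ∀ z ∈ P.ZA2, P.b21 z y' = φ (gl2 z) := by
      intro z hz
      obtain ⟨u, l, w, rfl⟩ := span z hz
      have hl1 : P.b21 (c u + bd l + P.dA1 w) y' = P.b21 (c u) y' := by
        rw [map_add, map_add, LinearMap.add_apply, LinearMap.add_apply, compat l y' hy',
          hly', map_zero, P.b21_dA1 w hy', add_zero, add_zero]
      have hr1 : φ (gl2 (c u + bd l + P.dA1 w)) = φ (gl2 (c u)) := by
        have e : gl2 (c u + bd l + P.dA1 w) = gl2 (c u) + P.dB1 (gl1 w) := by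
          rw [map_add, map_add, gl2_bd, add_zero, gl_d]
        rw [e, map_add, hφ, add_zero]
      rw [hl1, hr1, hyu u]
      rfl
    obtain ⟨x', hx', hgx'⟩ := lift y' hy' hly'
    have h2 : ∀ z ∈ P.ZA2, P.b12 (e2 • x') (gl2 z) = φ (gl2 z) := by
      intro z hz
      have := sym z hz x' hx'
      rw [hgx', h1 z hz] at this
      rw [map_smul, LinearMap.smul_apply, smul_eq_mul, this]
    -- Step 2
    let φ' : P.ZB2 →ₗ[k] k := (φ - P.b12 (e2 • x')) ∘ₗ P.ZB2.subtype
    have hφ' : ∀ y : P.ZB2, φ' y = φ (y : P.B2) - P.b12 (e2 • x') (y : P.B2) := fun y => rfl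
    let ev : P.ZB2 →ₗ[k] Dual k K0 := (P.b12 ∘ₗ cst).flip ∘ₗ P.ZB2.subtype
    have hev : ∀ (y : P.ZB2) (c₀ : K0), ev y c₀ = P.b12 (cst c₀) (y : P.B2) := fun y c₀ => rfl
    have h3 : ∀ y : P.ZB2, ev y = 0 → φ' y = 0 := by
      intro y hy
      obtain ⟨z, hz, hzy⟩ := inv_inj (y : P.B2) y.2 (fun c₀ => by rw [← hev, hy]; rfl)
      rw [hφ', ← hzy, h2 z hz, sub_self]
    obtain ⟨Φ, hΦ⟩ := haq_factor ev φ' h3
    obtain ⟨c₀, hc₀⟩ := (Module.bijective_dual_eval k K0).2 Φ
    refine ⟨e2 • x' + cst c₀, ?_, ?_⟩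
    · rw [map_add, map_smul, hx', smul_zero, cst_d, add_zero]
    · intro y hy
      have h4 := hΦ ⟨y, hy⟩
      have h5 := congrArg (fun θ : Dual k (Dual k K0) => θ (ev ⟨y, hy⟩)) hc₀
      simp only [Module.Dual.eval_apply] at h5
      rw [hev] at h5
      rw [map_add, LinearMap.add_apply, h5, h4, hφ']
      ring
  · -- A2Inj
    intro x hx hxy
    obtain ⟨u, l, w, rfl⟩ := span x hx
    have hu : u = 0 := by
      apply hu0
      intro y hy hly
      have := hxy y hy
      rw [map_add, map_add, LinearMap.add_apply, LinearMap.add_apply, compat l y hy, hly,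
        map_zero, P.b21_dA1 w hy, add_zero, add_zero] at this
      exact this
    subst hu
    have hl : l ∈ haqb_lorth lam I := by
      rw [haqb_mem_lorth]
      rintro _ ⟨y, rfl⟩
      have := hxy y (hZ y)
      rw [map_zero, zero_add, map_add, LinearMap.add_apply, compat l y (hZ y),
        P.b21_dA1 w (hZ y), add_zero] at this
      exact this
    rw [horth] at hl
    obtain ⟨y₀, rfl⟩ := hl
    obtain ⟨w', hw'⟩ := glob y₀ (hZ y₀)
    refine ⟨w' + w, ?_⟩
    rw [map_add, hw', map_zero, zero_add]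
    rfl

end Base

end Fermat.Agent.S55
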