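import Fermat.Agent.S55.IndCoind

/-!
# S55, block IND (module-theoretic dévissage), part 3: the induction principle

`ind_induction`: a predicate `P` on `ZMod p`-representations of `Γ` that is closed under retracts
and extensions and holds for the base modules `indBase p U` (functions on `U \ Γ`), `U` running
over the subgroups containing a level and contained in `W`, holds for every admissible module.
-/

set_option autoImplicit false

open CategoryTheory

namespace Fermat.Agent.S55

variable {Γ : Type} [Group Γ] {p : ℕ} [Fact p.Prime]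

/-- The coinduction of the zero module is a retract of anything. -/
theorem ind_coind_of_subsingleton (U : Subgroup Γ) (Y : Rep.{0} (ZMod p) U) [Subsingleton Y]
    (P : Rep.{0} (ZMod p) Γ → Prop)
    (h_retract : ∀ (X Z : Rep.{0} (ZMod p) Γ) (i : X ⟶ Z) (r : Z ⟶ X), i ≫ r = 𝟙 X → P Z → P X)
    (Z : Rep.{0} (ZMod p) Γ) (hZ : P Z) : P (Rep.coind U.subtype Y) := by
  have hsub : Subsingleton (Rep.coind U.subtype Y) := by
    refine ⟨fun f f' => ?_⟩
    apply Subtype.ext
    funext g
    exact Subsingleton.elim _ _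
  refine h_retract _ Z 0 0 ?_ hZ
  apply Rep.hom_ext
  apply Representation.IntertwiningMap.ext
  apply LinearMap.ext
  intro x
  exact Subsingleton.elim _ _

section Filtration

variable (Lev : Set (Subgroup Γ)) (U N : Subgroup Γ) [N.Normal] [N.FiniteIndex]

/-- Unipotent filtration: if every element of `U` has a `p`-power in `N`, then the coinduction of
every finite-dimensional `U`-module on which `N` acts trivially satisfies `P`. -/
theorem ind_coind_of_unipotent (hN : N ∈ Lev) (hNU : N ≤ U)
    (hU : ∀ u ∈ U, ∃ m : ℕ, u ^ (p ^ m) ∈ N)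
    (P : Rep.{0} (ZMod p) Γ → Prop)
    (h_retract : ∀ (X Z : Rep.{0} (ZMod p) Γ) (i : X ⟶ Z) (r : Z ⟶ X), i ≫ r = 𝟙 X → P Z → P X)
    (h_ext : ∀ (A B C : Rep.{0} (ZMod p) Γ) (i : A ⟶ B) (q : B ⟶ C),
      Function.Injective i.hom → Function.Surjective q.hom → Function.Exact i.hom q.hom →
      IndAdm Lev A → IndAdm Lev B → IndAdm Lev C → P A → P C → P B)
    (h_base : P (indBase p U)) :
    ∀ (n : ℕ) (Y : Rep.{0} (ZMod p) U), Module.Finite (ZMod p) Y →
      Module.finrank (ZMod p) Y = n → (∀ u : U, (u : Γ) ∈ N → Y.ρ u = 1) →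
      P (Rep.coind U.subtype Y) := by
  intro n
  induction n with
  | zero =>
    intro Y hfin hrank htriv
    have : Subsingleton Y := Module.finrank_zero_iff.mp hrank
    exact ind_coind_of_subsingleton U Y P h_retract _ h_base
  | succ n ih =>
    intro Y hfin hrank htriv
    have hnt : Nontrivial Y := Module.nontrivial_of_finrank_pos (R := ZMod p) (by omega)
    have hpow : ∀ u : U, ∃ m : ℕ, Y.ρ (u ^ (p ^ m)) = 1 := by
      intro u
      obtain ⟨m, hm⟩ := hU u u.2
      exact ⟨m, htriv _ (by simpa using hm)⟩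
    obtain ⟨y₀, hy₀, hfix⟩ := ind_exists_fixed Y.ρ hpow
    -- the line spanned by `y₀`
    set L : Submodule (ZMod p) Y := Submodule.span (ZMod p) {y₀} with hL
    have hLinv : ∀ g : U, L ≤ L.comap (Y.ρ g) := by
      intro g y hy
      rw [Submodule.mem_comap]
      obtain ⟨c, rfl⟩ := Submodule.mem_span_singleton.mp hy
      rw [map_smul, hfix]
      exact Submodule.smul_mem _ _ (Submodule.mem_span_singleton_self y₀)
    -- the sub, `A = trivial`
    let A : Rep.{0} (ZMod p) U := Rep.trivial (ZMod p) U (ZMod p)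
    let i : A ⟶ Y := Rep.ofHom (X := ZMod p) (Y := Y.V)
      (ρ := Representation.trivial (ZMod p) U (ZMod p)) (σ := Y.ρ)
      ⟨LinearMap.toSpanSingleton (ZMod p) Y y₀, fun g => by
        apply LinearMap.ext
        intro c
        simp only [LinearMap.comp_apply, LinearMap.toSpanSingleton_apply, map_smul, hfix]
        rfl⟩
    have hi_apply : ∀ c : ZMod p, i.hom c = c • y₀ := fun c => rfl
    -- the quotient
    let C : Rep.{0} (ZMod p) U := Rep.of (Y.ρ.quotient L hLinv)
    let q : Y ⟶ C := Rep.ofHom (X := Y.V) (Y := Y ⧸ L) (ρ := Y.ρ) (σ := Y.ρ.quotient L hLinv)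
      ⟨L.mkQ, fun g => by
        apply LinearMap.ext
        intro y
        rfl⟩
    have hq_apply : ∀ y : Y, q.hom y = L.mkQ y := fun y => rfl
    have hi_inj : Function.Injective i.hom := by
      intro c c' hcc
      rw [hi_apply, hi_apply] at hcc
      exact smul_left_injective (ZMod p) hy₀ hcc
    have hq_surj : Function.Surjective q.hom := by
      intro c
      obtain ⟨y, rfl⟩ := L.mkQ_surjective c
      exact ⟨y, rfl⟩
    have hex : Function.Exact i.hom q.hom := by
      intro y
      rw [hq_apply, Submodule.mkQ_apply, Submodule.Quotient.mk_eq_zero, hL,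
        Submodule.mem_span_singleton]
      constructor
      · rintro ⟨c, rfl⟩
        exact ⟨c, rfl⟩
      · rintro ⟨c, rfl⟩
        exact ⟨c, rfl⟩
    have hCfin : Module.Finite (ZMod p) C := by
      change Module.Finite (ZMod p) (Y ⧸ L)
      infer_instance
    have hCrank : Module.finrank (ZMod p) C = n := by
      change Module.finrank (ZMod p) (Y ⧸ L) = n
      have h1 := Submodule.finrank_quotient_add_finrank L
      have h2 : Module.finrank (ZMod p) L = 1 := finrank_span_singleton hy₀
      omega
    have hCtriv : ∀ u : U, (u : Γ) ∈ N → C.ρ u = 1 := by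
      intro u hu
      apply LinearMap.ext
      intro c
      obtain ⟨y, rfl⟩ := L.mkQ_surjective c
      change L.mkQ (Y.ρ u y) = L.mkQ y
      rw [htriv u hu]
      rfl
    have hAtriv : ∀ u : U, (u : Γ) ∈ N → A.ρ u = 1 := fun u _ => rfl
    have hAfin : Module.Finite (ZMod p) A := by
      change Module.Finite (ZMod p) (ZMod p)
      infer_instance
    have hPC : P (Rep.coind U.subtype C) := ih C hCfin hCrank hCtriv
    exact h_ext _ _ _ (Rep.coindMap U.subtype i) (Rep.coindMap U.subtype q)
      (ind_coindMap_injective U i hi_inj) (ind_coindMap_surjective U q hq_surj)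
      (ind_coindMap_exact U i q hi_inj hex)
      (ind_coind_adm U N A Lev hN hNU hAtriv) (ind_coind_adm U N Y Lev hN hNU htriv)
      (ind_coind_adm U N C Lev hN hNU hCtriv) h_base hPC

end Filtration

/-- **Module-theoretic dévissage.**  Let `Lev` be a down-directed family of normal subgroups of
finite index of `Γ` and `W` a normal subgroup containing a level, of index prime to `p`.  A
predicate on `ZMod p`-representations of `Γ` that is closed under retracts and under extensions
(of admissible modules) and holds for the modules `indBase p U` of functions on `U \ Γ`, for all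
subgroups `U` with `N ≤ U ≤ W` for some level `N`, holds for all admissible modules. -/
theorem ind_induction (Lev : Set (Subgroup Γ))
    (hnormal : ∀ N ∈ Lev, N.Normal) (hfin : ∀ N ∈ Lev, N.FiniteIndex)
    (hdir : ∀ N₁ ∈ Lev, ∀ N₂ ∈ Lev, ∃ N ∈ Lev, N ≤ N₁ ⊓ N₂)
    (W : Subgroup Γ) [W.Normal] (hW : ∃ N ∈ Lev, N ≤ W) (hWp : ¬ p ∣ W.index)
    (P : Rep.{0} (ZMod p) Γ → Prop)
    (h_retract : ∀ (X Z : Rep.{0} (ZMod p) Γ) (i : X ⟶ Z) (r : Z ⟶ X), i ≫ r = 𝟙 X → P Z → P X)
    (h_ext : ∀ (A B C : Rep.{0} (ZMod p) Γ) (i : A ⟶ B) (q : B ⟶ C),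
      Function.Injective i.hom → Function.Surjective q.hom → Function.Exact i.hom q.hom →
      IndAdm Lev A → IndAdm Lev B → IndAdm Lev C → P A → P C → P B)
    (h_base : ∀ U : Subgroup Γ, (∃ N ∈ Lev, N ≤ U) → U ≤ W → P (indBase p U))
    (X : Rep.{0} (ZMod p) Γ) (hX : IndAdm Lev X) : P X := by
  obtain ⟨hXfin, N₁, hN₁, hN₁triv⟩ := hX
  obtain ⟨N₂, hN₂, hN₂W⟩ := hW
  obtain ⟨N, hN, hNle⟩ := hdir N₁ hN₁ N₂ hN₂
  have hNnormal : N.Normal := hnormal N hN
  have hNfin : N.FiniteIndex := hfin N hN
  obtain ⟨U, hNU, hUidx, hUpow⟩ := ind_exists_sylow p N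
  have hUW : U ≤ W := ind_le_of_pow p N W U (hNle.trans (inf_le_right.trans hN₂W)) hWp hUpow
  have hUfin : U.FiniteIndex := Subgroup.finiteIndex_of_le hNU
  have hbase : P (indBase p U) := h_base U ⟨N, hN, hNU⟩ hUW
  have htriv : ∀ u : U, (u : Γ) ∈ N → (Rep.res U.subtype X).ρ u = 1 := by
    intro u hu
    exact hN₁triv _ (hNle hu).1
  have hresfin : Module.Finite (ZMod p) (Rep.res U.subtype X) := hXfin
  have hP : P (Rep.coind U.subtype (Rep.res U.subtype X)) :=
    ind_coind_of_unipotent Lev U N hN hNU hUpow P h_retract h_ext hbase _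
      (Rep.res U.subtype X) hresfin rfl htriv
  exact h_retract X _ (indUnit U X) (indCounit U X) (ind_unit_counit U X hUidx) hP

end Fermat.Agent.S55
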