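import Fermat.Agent.S55.IndMain

/-!
# S55, block IND (module-theoretic dévissage), part 4: the embedding principle

`ind_induction_sub`: every admissible module `X` embeds into `coind_N (res_N X)` for a level `N`
acting trivially on `X`; the latter is an iterated *split* extension of copies of the base module
`indBase p N`, and the cokernel is again admissible.  Hence a predicate `E` which holds for the
base modules `indBase p N`, is closed under split extensions, and passes from the middle term
of a short exact sequence to the sub as soon as the quotient satisfies an auxiliary predicate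
`Q` (which holds for all admissible modules), holds for all admissible modules.

Application: `Q = (α¹ surjective ∧ α² injective)`, `E = (α² surjective)`.
-/

set_option autoImplicit false

open CategoryTheory

namespace Fermat.Agent.S55

variable {Γ : Type} [Group Γ] {p : ℕ} [Fact p.Prime]

section Pointwise

variable (U : Subgroup Γ) {A B C : Rep.{0} (ZMod p) U}

/-- Pointwise identities of composites pass to coinduced modules. -/
theorem ind_coindMap_comp_eq_id (f : A ⟶ B) (g : B ⟶ A) (h : ∀ a, g.hom (f.hom a) = a) :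
    Rep.coindMap U.subtype f ≫ Rep.coindMap U.subtype g = 𝟙 _ := by
  apply Rep.hom_ext
  apply Representation.IntertwiningMap.ext
  apply LinearMap.ext
  intro x
  apply Subtype.ext
  funext γ
  exact h (x.1 γ)

theorem ind_coindMap_comp_eq_zero (f : A ⟶ B) (g : B ⟶ C) (h : ∀ a, g.hom (f.hom a) = 0) :
    Rep.coindMap U.subtype f ≫ Rep.coindMap U.subtype g = 0 := by
  apply Rep.hom_ext
  apply Representation.IntertwiningMap.ext
  apply LinearMap.ext
  intro x
  apply Subtype.ext
  funext γ
  exact h (x.1 γ)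

theorem ind_coindMap_add_eq_id (r : B ⟶ A) (i : A ⟶ B) (q : B ⟶ C) (s : C ⟶ B)
    (h : ∀ b, i.hom (r.hom b) + s.hom (q.hom b) = b) :
    Rep.coindMap U.subtype r ≫ Rep.coindMap U.subtype i +
      Rep.coindMap U.subtype q ≫ Rep.coindMap U.subtype s = 𝟙 _ := by
  apply Rep.hom_ext
  apply Representation.IntertwiningMap.ext
  apply LinearMap.ext
  intro x
  apply Subtype.ext
  funext γ
  exact h (x.1 γ)

end Pointwise

section Split

variable (Lev : Set (Subgroup Γ)) (N : Subgroup Γ) [N.Normal] [N.FiniteIndex]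

/-- Split filtration: the coinduction of a finite-dimensional module with trivial action from a
level `N` satisfies `E`. -/
theorem ind_coind_of_trivial (hN : N ∈ Lev)
    (Q E : Rep.{0} (ZMod p) Γ → Prop)
    (hQ : ∀ X : Rep.{0} (ZMod p) Γ, IndAdm Lev X → Q X)
    (h_sub : ∀ (A B C : Rep.{0} (ZMod p) Γ) (i : A ⟶ B) (q : B ⟶ C),
      Function.Injective i.hom → Function.Surjective q.hom → Function.Exact i.hom q.hom →
      IndAdm Lev A → IndAdm Lev B → IndAdm Lev C → E B → Q C → E A)
    (h_split : ∀ (A B C : Rep.{0} (ZMod p) Γ) (i : A ⟶ B) (r : B ⟶ A) (q : B ⟶ C) (s : C ⟶ B),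
      i ≫ r = 𝟙 A → s ≫ q = 𝟙 C → i ≫ q = 0 → s ≫ r = 0 → r ≫ i + q ≫ s = 𝟙 B →
      IndAdm Lev A → IndAdm Lev B → IndAdm Lev C → E A → E C → E B)
    (h_base : E (indBase p N)) :
    ∀ (n : ℕ) (Y : Rep.{0} (ZMod p) N), Module.Finite (ZMod p) Y →
      Module.finrank (ZMod p) Y = n → (∀ u : N, Y.ρ u = 1) →
      E (Rep.coind N.subtype Y) := by
  have hbaseAdm : IndAdm Lev (indBase p N) := by
    have hAfin : Module.Finite (ZMod p) (Rep.trivial (ZMod p) N (ZMod p)) := by
      change Module.Finite (ZMod p) (ZMod p)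
      infer_instance
    exact ind_coind_adm N N (Rep.trivial (ZMod p) N (ZMod p)) Lev hN le_rfl (fun u _ => rfl)
  intro n
  induction n with
  | zero =>
    intro Y hfin hrank htriv
    have hsubY : Subsingleton Y := Module.finrank_zero_iff.mp hrank
    have hsub : Subsingleton (Rep.coind N.subtype Y) := by
      refine ⟨fun f f' => ?_⟩
      apply Subtype.ext
      funext g
      exact Subsingleton.elim _ _
    refine h_sub (Rep.coind N.subtype Y) (indBase p N) (indBase p N) 0 (𝟙 _) ?_ ?_ ?_
      (ind_coind_adm N N Y Lev hN le_rfl (fun u _ => htriv u)) hbaseAdm hbaseAdm h_base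
      (hQ _ hbaseAdm)
    · intro x x' _
      exact Subsingleton.elim _ _
    · intro y
      exact ⟨y, rfl⟩
    · intro y
      constructor
      · intro hy
        exact ⟨0, hy.symm⟩
      · rintro ⟨x, rfl⟩
        rfl
  | succ n ih =>
    intro Y hfin hrank htriv
    have hnt : Nontrivial Y := Module.nontrivial_of_finrank_pos (R := ZMod p) (by omega)
    obtain ⟨y₀, hy₀⟩ := exists_ne (0 : Y)
    set L : Submodule (ZMod p) Y := Submodule.span (ZMod p) {y₀} with hL
    have hLinv : ∀ g : N, L ≤ L.comap (Y.ρ g) := by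
      intro g y hy
      rw [Submodule.mem_comap, htriv g]
      exact hy
    -- a linear functional with value `1` at `y₀`
    have hinj0 : Function.Injective (LinearMap.toSpanSingleton (ZMod p) Y y₀) := by
      intro c c' hcc
      simp only [LinearMap.toSpanSingleton_apply] at hcc
      exact smul_left_injective (ZMod p) hy₀ hcc
    obtain ⟨φ, hφ⟩ := LinearMap.exists_leftInverse_of_injective
      (LinearMap.toSpanSingleton (ZMod p) Y y₀) (LinearMap.ker_eq_bot.mpr hinj0)
    have hφ₀ : φ y₀ = 1 := by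
      have := LinearMap.congr_fun hφ (1 : ZMod p)
      simpa using this
    let A : Rep.{0} (ZMod p) N := Rep.trivial (ZMod p) N (ZMod p)
    let i : A ⟶ Y := Rep.ofHom (X := ZMod p) (Y := Y.V)
      (ρ := Representation.trivial (ZMod p) N (ZMod p)) (σ := Y.ρ)
      ⟨LinearMap.toSpanSingleton (ZMod p) Y y₀, fun g => by
        apply LinearMap.ext
        intro c
        simp only [LinearMap.comp_apply, htriv g]
        rfl⟩
    have hi_apply : ∀ c : ZMod p, i.hom c = c • y₀ := fun c => rfl
    let r : Y ⟶ A := Rep.ofHom (X := Y.V) (Y := ZMod p)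
      (ρ := Y.ρ) (σ := Representation.trivial (ZMod p) N (ZMod p))
      ⟨φ, fun g => by
        apply LinearMap.ext
        intro y
        simp only [LinearMap.comp_apply, htriv g]
        rfl⟩
    have hr_apply : ∀ y : Y, r.hom y = φ y := fun y => rfl
    let C : Rep.{0} (ZMod p) N := Rep.of (Y.ρ.quotient L hLinv)
    let q : Y ⟶ C := Rep.ofHom (X := Y.V) (Y := Y ⧸ L) (ρ := Y.ρ) (σ := Y.ρ.quotient L hLinv)
      ⟨L.mkQ, fun g => by
        apply LinearMap.ext
        intro y
        rfl⟩
    have hq_apply : ∀ y : Y, q.hom y = L.mkQ y := fun y => rfl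
    have hCtriv : ∀ u : N, C.ρ u = 1 := by
      intro u
      apply LinearMap.ext
      intro c
      obtain ⟨y, rfl⟩ := L.mkQ_surjective c
      change L.mkQ (Y.ρ u y) = L.mkQ y
      rw [htriv u]
      rfl
    -- the section `y ↦ y - φ(y) y₀`
    let σ₀ : Y →ₗ[ZMod p] Y := LinearMap.id - (LinearMap.toSpanSingleton (ZMod p) Y y₀) ∘ₗ φ
    have hσ₀_apply : ∀ y : Y, σ₀ y = y - φ y • y₀ := fun y => rfl
    have hσ₀L : L ≤ LinearMap.ker σ₀ := by
      intro y hy
      obtain ⟨c, rfl⟩ := Submodule.mem_span_singleton.mp hy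
      rw [LinearMap.mem_ker, hσ₀_apply, map_smul, hφ₀, smul_eq_mul, mul_one, sub_self]
    let s : C ⟶ Y := Rep.ofHom (X := Y ⧸ L) (Y := Y.V) (ρ := Y.ρ.quotient L hLinv) (σ := Y.ρ)
      ⟨L.liftQ σ₀ hσ₀L, fun g => by
        apply LinearMap.ext
        intro c
        simp only [LinearMap.comp_apply, htriv g]
        have := congrArg (fun f : (Y ⧸ L) →ₗ[ZMod p] (Y ⧸ L) => f c) (hCtriv g)
        change (Y.ρ.quotient L hLinv g) c = c at this
        rw [this]
        rfl⟩
    have hs_apply : ∀ y : Y, s.hom (L.mkQ y) = y - φ y • y₀ := fun y => rfl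
    -- the five identities, pointwise
    have h1 : ∀ c, r.hom (i.hom c) = c := by
      intro c
      rw [hi_apply, hr_apply, map_smul, hφ₀, smul_eq_mul, mul_one]
    have h2 : ∀ c, q.hom (s.hom c) = c := by
      intro c
      obtain ⟨y, rfl⟩ := L.mkQ_surjective c
      rw [hs_apply, hq_apply, map_sub, sub_eq_self, Submodule.mkQ_apply,
        Submodule.Quotient.mk_eq_zero]
      exact Submodule.smul_mem _ _ (Submodule.mem_span_singleton_self y₀)
    have h3 : ∀ c, q.hom (i.hom c) = 0 := by
      intro c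
      rw [hi_apply, hq_apply, Submodule.mkQ_apply, Submodule.Quotient.mk_eq_zero]
      exact Submodule.smul_mem _ _ (Submodule.mem_span_singleton_self y₀)
    have h4 : ∀ c, r.hom (s.hom c) = 0 := by
      intro c
      obtain ⟨y, rfl⟩ := L.mkQ_surjective c
      rw [hs_apply, hr_apply, map_sub, map_smul, hφ₀, smul_eq_mul, mul_one, sub_self]
    have h5 : ∀ y, i.hom (r.hom y) + s.hom (q.hom y) = y := by
      intro y
      rw [hq_apply, hs_apply, hr_apply, hi_apply]
      abel
    have hCfin : Module.Finite (ZMod p) C := by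
      change Module.Finite (ZMod p) (Y ⧸ L)
      infer_instance
    have hCrank : Module.finrank (ZMod p) C = n := by
      change Module.finrank (ZMod p) (Y ⧸ L) = n
      have h1 := Submodule.finrank_quotient_add_finrank L
      have h2 : Module.finrank (ZMod p) L = 1 := finrank_span_singleton hy₀
      omega
    have hEC : E (Rep.coind N.subtype C) := ih C hCfin hCrank hCtriv
    exact h_split _ _ _ (Rep.coindMap N.subtype i) (Rep.coindMap N.subtype r)
      (Rep.coindMap N.subtype q) (Rep.coindMap N.subtype s)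
      (ind_coindMap_comp_eq_id N i r h1) (ind_coindMap_comp_eq_id N s q h2)
      (ind_coindMap_comp_eq_zero N i q h3) (ind_coindMap_comp_eq_zero N s r h4)
      (ind_coindMap_add_eq_id N r i q s h5)
      hbaseAdm (ind_coind_adm N N Y Lev hN le_rfl (fun u _ => htriv u))
      (ind_coind_adm N N C Lev hN le_rfl (fun u _ => hCtriv u)) h_base hEC

end Split

/-- **Embedding principle.**  Let `Lev` be a down-directed family of normal subgroups of finite
index of `Γ` and `W` a subgroup containing a level.  Let `Q` hold for all admissible modules.  A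
predicate `E` which holds for the base modules `indBase p N` (`N` a level contained in `W`), is
closed under split extensions, and passes from the middle term `B` of a short exact sequence
`0 → A → B → C → 0` to `A` when `Q C` holds, holds for all admissible modules. -/
theorem ind_induction_sub (Lev : Set (Subgroup Γ))
    (hnormal : ∀ N ∈ Lev, N.Normal) (hfin : ∀ N ∈ Lev, N.FiniteIndex)
    (hdir : ∀ N₁ ∈ Lev, ∀ N₂ ∈ Lev, ∃ N ∈ Lev, N ≤ N₁ ⊓ N₂)
    (W : Subgroup Γ) (hW : ∃ N ∈ Lev, N ≤ W)
    (Q E : Rep.{0} (ZMod p) Γ → Prop)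
    (hQ : ∀ X : Rep.{0} (ZMod p) Γ, IndAdm Lev X → Q X)
    (h_sub : ∀ (A B C : Rep.{0} (ZMod p) Γ) (i : A ⟶ B) (q : B ⟶ C),
      Function.Injective i.hom → Function.Surjective q.hom → Function.Exact i.hom q.hom →
      IndAdm Lev A → IndAdm Lev B → IndAdm Lev C → E B → Q C → E A)
    (h_split : ∀ (A B C : Rep.{0} (ZMod p) Γ) (i : A ⟶ B) (r : B ⟶ A) (q : B ⟶ C) (s : C ⟶ B),
      i ≫ r = 𝟙 A → s ≫ q = 𝟙 C → i ≫ q = 0 → s ≫ r = 0 → r ≫ i + q ≫ s = 𝟙 B →
      IndAdm Lev A → IndAdm Lev B → IndAdm Lev C → E A → E C → E B)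
    (h_base : ∀ N ∈ Lev, N ≤ W → E (indBase p N))
    (X : Rep.{0} (ZMod p) Γ) (hX : IndAdm Lev X) : E X := by
  have hX' := hX
  obtain ⟨hXfin, N₁, hN₁, hN₁triv⟩ := hX
  obtain ⟨N₂, hN₂, hN₂W⟩ := hW
  obtain ⟨N, hN, hNle⟩ := hdir N₁ hN₁ N₂ hN₂
  have hNnormal : N.Normal := hnormal N hN
  have hNfin : N.FiniteIndex := hfin N hN
  have hNW : N ≤ W := hNle.trans (inf_le_right.trans hN₂W)
  have htriv : ∀ u : N, (Rep.res N.subtype X).ρ u = 1 := fun u => hN₁triv _ (hNle u.2).1
  have hresfin : Module.Finite (ZMod p) (Rep.res N.subtype X) := hXfin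
  -- the induced module
  have hEI : E (Rep.coind N.subtype (Rep.res N.subtype X)) :=
    ind_coind_of_trivial Lev N hN Q E hQ h_sub h_split (h_base N hN hNW) _
      (Rep.res N.subtype X) hresfin rfl htriv
  have hIadm : IndAdm Lev (Rep.coind N.subtype (Rep.res N.subtype X)) :=
    ind_coind_adm N N (Rep.res N.subtype X) Lev hN le_rfl (fun u _ => htriv u)
  -- the embedding
  have hinj : Function.Injective (indUnit N X).hom := by
    intro x x' hxx
    have h1 := congrArg (fun f : Rep.coind N.subtype (Rep.res N.subtype X) => f.1 1) hxx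
    have h2 : X.ρ 1 x = X.ρ 1 x' := h1
    simpa using h2
  -- the cokernel
  set I : Rep.{0} (ZMod p) Γ := Rep.coind N.subtype (Rep.res N.subtype X) with hI
  let R : Submodule (ZMod p) I := LinearMap.range (indUnit N X).hom.toLinearMap
  have hRinv : ∀ g : Γ, R ≤ R.comap (I.ρ g) := by
    intro g y hy
    obtain ⟨x, rfl⟩ := hy
    rw [Submodule.mem_comap]
    exact ⟨X.ρ g x, Representation.IntertwiningMap.isIntertwining _ _ (indUnit N X).hom g x⟩
  let C : Rep.{0} (ZMod p) Γ := Rep.of (I.ρ.quotient R hRinv)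
  let q : I ⟶ C := Rep.ofHom (X := I.V) (Y := I ⧸ R) (ρ := I.ρ) (σ := I.ρ.quotient R hRinv)
    ⟨R.mkQ, fun g => by
      apply LinearMap.ext
      intro y
      rfl⟩
  have hq_apply : ∀ y : I, q.hom y = R.mkQ y := fun y => rfl
  have hq_surj : Function.Surjective q.hom := by
    intro c
    obtain ⟨y, rfl⟩ := R.mkQ_surjective c
    exact ⟨y, rfl⟩
  have hex : Function.Exact (indUnit N X).hom q.hom := by
    intro y
    rw [hq_apply, Submodule.mkQ_apply, Submodule.Quotient.mk_eq_zero]
    constructor
    · rintro ⟨x, rfl⟩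
      exact ⟨x, rfl⟩
    · rintro ⟨x, rfl⟩
      exact ⟨x, rfl⟩
  have hCadm : IndAdm Lev C := by
    obtain ⟨hIfin, N', hN', hN'triv⟩ := hIadm
    refine ⟨?_, N', hN', ?_⟩
    · change Module.Finite (ZMod p) (I ⧸ R)
      infer_instance
    · intro n hn
      apply LinearMap.ext
      intro c
      obtain ⟨y, rfl⟩ := R.mkQ_surjective c
      change R.mkQ (I.ρ n y) = R.mkQ y
      rw [hN'triv n hn]
      rfl
  exact h_sub X I C (indUnit N X) q hinj hq_surj hex hX' hIadm hCadm hEI (hQ C hCadm)

end Fermat.Agent.S55
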