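import Fermat.Agent.S55.HcQC
import Fermat.Agent.S55.Dual
import Fermat.Agent.S55.IndMain
import Fermat.Agent.S55.IndSub

/-!
# S55 homological layer (HC), part 5: the devissage for the cone model

For a leveled group `Γ` with local data `D`, a character `χ` and a trace functional `τ` on
`C_c^3(k(χ))`, let `hc_PX χ D τ hτ X` be the paired complex of `(X, X.dualTwist χ)` with the
evaluation pairing.  If `α¹` is surjective and `α²` is bijective for the base modules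
`indBase p U`, then the same holds for every admissible `X` (`hc_dev_Q`, `hc_dev_E`, `hc_dev`).
-/

set_option autoImplicit false
set_option linter.unusedSectionVars false
set_option linter.unusedVariables false

open CategoryTheory

namespace Fermat.Agent.S55

universe u w

/-! ### explicit forms of the three properties for the cone model -/

section unfold

variable {k : Type w} [Field k] {G : Type u} [Group G] {L : hc_Lev G} (D : hc_Loc.{u, u, u} L)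
variable {T : Type*} [AddCommGroup T] [Module k T] {ρT : Representation k G T}
  (τ : hc_Cc3 D ρT →ₗ[k] k) (hτ : ∀ x, τ (hc_dc2 D ρT x) = 0)
variable {A B : Type u} [AddCommGroup A] [Module k A] [AddCommGroup B] [Module k B]
  {φ : A →ₗ[k] B →ₗ[k] T} {ρA : Representation k G A} {ρB : Representation k G B}
  (hφ : ∀ g a b, φ (ρA g a) (ρB g b) = ρT g (φ a b))

/-- `α¹ : H_c^1(A) → H^2(B)^*` surjective, in explicit cochain terms. -/
lemma hc_QC_a1Surj_iff : (hc_QC D τ hτ hφ).A1Surj ↔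
    ∀ ψ : hc_C2 L ρB →ₗ[k] k, (∀ y : hc_C1 L ρB, ψ (hc_d12 L ρB y) = 0) →
      ∃ x : hc_Cc1 D ρA, hc_dc1 D ρA x = 0 ∧
        ∀ y : hc_C2 L ρB, hc_d23 L ρB y = 0 → ψ y = hc_b12 hφ τ x y := Iff.rfl

/-- `α² : H_c^2(A) → H^1(B)^*` injective, in explicit cochain terms. -/
lemma hc_QC_a2Inj_iff : (hc_QC D τ hτ hφ).A2Inj ↔
    ∀ x : hc_Cc2 D ρA, hc_dc2 D ρA x = 0 →
      (∀ y : hc_C1 L ρB, hc_d12 L ρB y = 0 → hc_b21 hφ τ x y = 0) →
        ∃ z : hc_Cc1 D ρA, hc_dc1 D ρA z = x := Iff.rfl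

/-- `α² : H_c^2(A) → H^1(B)^*` surjective, in explicit cochain terms. -/
lemma hc_QC_a2Surj_iff : (hc_QC D τ hτ hφ).A2Surj ↔
    ∀ ψ : hc_C1 L ρB →ₗ[k] k, (∀ y : hc_C0 L ρB, ψ (hc_d01 L ρB y) = 0) →
      ∃ x : hc_Cc2 D ρA, hc_dc2 D ρA x = 0 ∧
        ∀ y : hc_C1 L ρB, hc_d12 L ρB y = 0 → ψ y = hc_b21 hφ τ x y := by
  constructor
  · intro h ψ hψ
    exact h ψ (by rintro _ ⟨y, rfl⟩; exact hψ y)
  · intro h ψ hψ
    exact h ψ (fun y => hψ _ ⟨y, rfl⟩)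

end unfold

/-! ### binary direct sums (unbundled) -/

section sum₂

variable {k : Type w} [Field k] {G : Type u} [Group G] {L : hc_Lev G} (D : hc_Loc.{u, u, u} L)
variable {T : Type*} [AddCommGroup T] [Module k T] {ρT : Representation k G T}
  (τ : hc_Cc3 D ρT →ₗ[k] k) (hτ : ∀ x, τ (hc_dc2 D ρT x) = 0)
variable {A₁ B₁ A₂ B₂ A B : Type u}
  [AddCommGroup A₁] [Module k A₁] [AddCommGroup B₁] [Module k B₁]
  [AddCommGroup A₂] [Module k A₂] [AddCommGroup B₂] [Module k B₂]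
  [AddCommGroup A] [Module k A] [AddCommGroup B] [Module k B]
  {φ₁ : A₁ →ₗ[k] B₁ →ₗ[k] T} {ρA₁ : Representation k G A₁} {ρB₁ : Representation k G B₁}
  (hφ₁ : ∀ g a b, φ₁ (ρA₁ g a) (ρB₁ g b) = ρT g (φ₁ a b))
  {φ₂ : A₂ →ₗ[k] B₂ →ₗ[k] T} {ρA₂ : Representation k G A₂} {ρB₂ : Representation k G B₂}
  (hφ₂ : ∀ g a b, φ₂ (ρA₂ g a) (ρB₂ g b) = ρT g (φ₂ a b))
  {φ : A →ₗ[k] B →ₗ[k] T} {ρA : Representation k G A} {ρB : Representation k G B}
  (hφ : ∀ g a b, φ (ρA g a) (ρB g b) = ρT g (φ a b))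

/-- `A2Surj` passes to a binary direct sum (given on the dual side by `b = j₁ (p₁ b) + j₂ (p₂ b)`). -/
theorem hc_a2Surj_sum₂
    {i₁ : A₁ →ₗ[k] A} (hi₁ : ∀ g a, i₁ (ρA₁ g a) = ρA g (i₁ a))
    {i₂ : A₂ →ₗ[k] A} (hi₂ : ∀ g a, i₂ (ρA₂ g a) = ρA g (i₂ a))
    {p₁ : B →ₗ[k] B₁} (hp₁ : ∀ g b, p₁ (ρB g b) = ρB₁ g (p₁ b))
    {p₂ : B →ₗ[k] B₂} (hp₂ : ∀ g b, p₂ (ρB g b) = ρB₂ g (p₂ b))
    {j₁ : B₁ →ₗ[k] B} (hj₁ : ∀ g b, j₁ (ρB₁ g b) = ρB g (j₁ b))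
    {j₂ : B₂ →ₗ[k] B} (hj₂ : ∀ g b, j₂ (ρB₂ g b) = ρB g (j₂ b))
    (hdec : ∀ b, b = j₁ (p₁ b) + j₂ (p₂ b))
    (hadj₁ : ∀ a b, φ (i₁ a) b = φ₁ a (p₁ b)) (hadj₂ : ∀ a b, φ (i₂ a) b = φ₂ a (p₂ b))
    (h₁ : (hc_QC D τ hτ hφ₁).A2Surj) (h₂ : (hc_QC D τ hτ hφ₂).A2Surj) :
    (hc_QC D τ hτ hφ).A2Surj := by
  rw [hc_QC_a2Surj_iff] at h₁ h₂ ⊢
  intro ψ hψ
  obtain ⟨x₁, hx₁, hx₁ψ⟩ := h₁ (ψ ∘ₗ hc_map1 L j₁ hj₁) (fun y => by
    rw [LinearMap.comp_apply, hc_map1_d01]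
    exact hψ _)
  obtain ⟨x₂, hx₂, hx₂ψ⟩ := h₂ (ψ ∘ₗ hc_map1 L j₂ hj₂) (fun y => by
    rw [LinearMap.comp_apply, hc_map1_d01]
    exact hψ _)
  refine ⟨hc_cmap2 D i₁ hi₁ x₁ + hc_cmap2 D i₂ hi₂ x₂, ?_, fun y hy => ?_⟩
  · rw [map_add, ← hc_cmap3_dc2, ← hc_cmap3_dc2, hx₁, hx₂, map_zero, map_zero, add_zero]
  · have hy' : y = hc_map1 L j₁ hj₁ (hc_map1 L p₁ hp₁ y)
        + hc_map1 L j₂ hj₂ (hc_map1 L p₂ hp₂ y) := by
      apply Subtype.ext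
      funext x
      exact hdec _
    have e₁ := hx₁ψ (hc_map1 L p₁ hp₁ y) (hc_map1_mem_ker hp₁ hy)
    have e₂ := hx₂ψ (hc_map1 L p₂ hp₂ y) (hc_map1_mem_ker hp₂ hy)
    rw [LinearMap.comp_apply] at e₁ e₂
    have e₃ : ψ y = ψ (hc_map1 L j₁ hj₁ (hc_map1 L p₁ hp₁ y))
        + ψ (hc_map1 L j₂ hj₂ (hc_map1 L p₂ hp₂ y)) := by
      rw [← map_add]
      exact congrArg ψ hy'
    have e₄ := hc_b21_adj D τ hφ₁ hφ hi₁ hp₁ hadj₁ x₁ y
    have e₅ := hc_b21_adj D τ hφ₂ hφ hi₂ hp₂ hadj₂ x₂ y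
    rw [e₃, e₁, e₂, map_add, LinearMap.add_apply, e₄, e₅]

end sum₂

/-! ### the devissage on `Rep (ZMod p) Γ` -/

section dev

variable {Γ : Type} [Group Γ] {p : ℕ} [Fact p.Prime] (χ : Γ →* (ZMod p)ˣ)
variable {L : hc_Lev Γ} (D : hc_Loc.{0, 0, 0} L)
  (τ : hc_Cc3 D (dual_rhoT χ) →ₗ[ZMod p] ZMod p) (hτ : ∀ x, τ (hc_dc2 D (dual_rhoT χ) x) = 0)

/-- the paired complex of `(X, X.dualTwist χ)` in the cone model. -/
noncomputable def hc_PX (X : Rep.{0} (ZMod p) Γ) : HaQC.{0, 0} (ZMod p) :=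
  hc_QC D τ hτ (A := X) (B := Module.Dual (ZMod p) X) (φ := dual_pair X) (ρA := X.ρ)
    (ρB := (X.dualTwist χ).ρ) (dual_pair_equivariant χ X)

/-- a short exact sequence of representations gives a short exact sequence of paired
complexes. -/
noncomputable def hc_PX_ses (A B C : Rep.{0} (ZMod p) Γ) (i : A ⟶ B) (q : B ⟶ C)
    (hi : Function.Injective i.hom) (hq : Function.Surjective q.hom)
    (hex : Function.Exact i.hom q.hom)
    (hB : hc_Adm L B.ρ) (hB' : hc_Adm L (B.dualTwist χ).ρ) :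
    HaQSES (hc_PX χ D τ hτ A) (hc_PX χ D τ hτ B) (hc_PX χ D τ hτ C) :=
  hc_QSES D τ hτ (dual_pair_equivariant χ A) (dual_pair_equivariant χ B)
    (dual_pair_equivariant χ C)
    (f := i.hom.toLinearMap) (Rep.hom_comm_apply i)
    (g := q.hom.toLinearMap) (Rep.hom_comm_apply q)
    (f' := (dual_map χ i).hom.toLinearMap) (Rep.hom_comm_apply (dual_map χ i))
    (g' := (dual_map χ q).hom.toLinearMap) (Rep.hom_comm_apply (dual_map χ q))
    hi hq (fun a => (hex (i.hom a)).2 ⟨a, rfl⟩) (fun b hb => (hex b).1 hb)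
    (dual_map_surjective χ i hi) (dual_map_injective χ q hq)
    (fun c => ((dual_map_exact χ i q hex) _).2 ⟨c, rfl⟩)
    (fun b hb => ((dual_map_exact χ i q hex) b).1 hb)
    (fun a b => rfl) (fun a b => rfl) hB hB'

/-- a retract of representations gives a retract of paired complexes. -/
noncomputable def hc_PX_retract (X Z : Rep.{0} (ZMod p) Γ) (i : X ⟶ Z) (r : Z ⟶ X)
    (hir : i ≫ r = 𝟙 X) :
    HaQRetract (hc_PX χ D τ hτ X) (hc_PX χ D τ hτ Z) :=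
  hc_QRetract D τ hτ (dual_pair_equivariant χ X) (dual_pair_equivariant χ Z)
    (i := i.hom.toLinearMap) (Rep.hom_comm_apply i)
    (r := r.hom.toLinearMap) (Rep.hom_comm_apply r)
    (i' := (dual_map χ i).hom.toLinearMap) (Rep.hom_comm_apply (dual_map χ i))
    (r' := (dual_map χ r).hom.toLinearMap) (Rep.hom_comm_apply (dual_map χ r))
    (fun a => by
      have h := congrArg (fun f : X ⟶ X => f.hom a) hir
      simpa using h)
    (fun b => by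
      apply LinearMap.ext
      intro x
      have h := congrArg (fun f : X ⟶ X => f.hom x) hir
      have h' : r.hom (i.hom x) = x := by simpa using h
      change b (r.hom (i.hom x)) = b x
      rw [h'])
    (fun a b => rfl) (fun a b => rfl)

variable (hfin : ∀ N ∈ L.S, N.FiniteIndex) (hχ : ∃ N ∈ L.S, ∀ n ∈ N, χ n = 1)

include hfin hχ in
/-- **Devissage, part 1**: `α¹` surjective and `α²` injective for all admissible modules,
given the base modules. -/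
theorem hc_dev_Q (W : Subgroup Γ) [W.Normal] (hW : ∃ N ∈ L.S, N ≤ W) (hWp : ¬ p ∣ W.index)
    (h_base : ∀ U : Subgroup Γ, (∃ N ∈ L.S, N ≤ U) → U ≤ W →
      (hc_PX χ D τ hτ (indBase p U)).A1Surj ∧ (hc_PX χ D τ hτ (indBase p U)).A2Inj)
    (X : Rep.{0} (ZMod p) Γ) (hX : IndAdm L.S X) :
    (hc_PX χ D τ hτ X).A1Surj ∧ (hc_PX χ D τ hτ X).A2Inj := by
  have hdir : ∀ N₁ ∈ L.S, ∀ N₂ ∈ L.S, ∃ N ∈ L.S, N ≤ N₁ ⊓ N₂ := fun N₁ h₁ N₂ h₂ => by
    obtain ⟨N, hN, h1, h2⟩ := L.dir N₁ h₁ N₂ h₂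
    exact ⟨N, hN, le_inf h1 h2⟩
  refine ind_induction L.S L.nor hfin hdir W hW hWp
    (fun X => (hc_PX χ D τ hτ X).A1Surj ∧ (hc_PX χ D τ hτ X).A2Inj) ?_ ?_ h_base X hX
  · rintro X Z i r hir ⟨h1, h2⟩
    exact ⟨(hc_PX_retract χ D τ hτ X Z i r hir).a1Surj h1,
      (hc_PX_retract χ D τ hτ X Z i r hir).a2Inj h2⟩
  · rintro A B C i q hi hq hex hA hB hC ⟨a1, a2⟩ ⟨c1, c2⟩
    have hB' := dual_adm χ L.S hdir hχ B hB
    exact ⟨(hc_PX_ses χ D τ hτ A B C i q hi hq hex hB.2 hB'.2).a1Surj a1 a2 c1,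
      (hc_PX_ses χ D τ hτ A B C i q hi hq hex hB.2 hB'.2).a2Inj a2 c1 c2⟩

include hfin hχ in
/-- **Devissage, part 2**: `α²` surjective for all admissible modules, given part 1 and the
base modules `indBase p N` for levels `N`. -/
theorem hc_dev_E (W : Subgroup Γ) (hW : ∃ N ∈ L.S, N ≤ W)
    (hQ : ∀ X : Rep.{0} (ZMod p) Γ, IndAdm L.S X →
      (hc_PX χ D τ hτ X).A1Surj ∧ (hc_PX χ D τ hτ X).A2Inj)
    (h_base : ∀ N ∈ L.S, N ≤ W → (hc_PX χ D τ hτ (indBase p N)).A2Surj)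
    (X : Rep.{0} (ZMod p) Γ) (hX : IndAdm L.S X) :
    (hc_PX χ D τ hτ X).A2Surj := by
  have hdir : ∀ N₁ ∈ L.S, ∀ N₂ ∈ L.S, ∃ N ∈ L.S, N ≤ N₁ ⊓ N₂ := fun N₁ h₁ N₂ h₂ => by
    obtain ⟨N, hN, h1, h2⟩ := L.dir N₁ h₁ N₂ h₂
    exact ⟨N, hN, le_inf h1 h2⟩
  refine ind_induction_sub L.S L.nor hfin hdir W hW
    (fun X => (hc_PX χ D τ hτ X).A1Surj ∧ (hc_PX χ D τ hτ X).A2Inj)
    (fun X => (hc_PX χ D τ hτ X).A2Surj) hQ ?_ ?_ h_base X hX
  · rintro A B C i q hi hq hex hA hB hC hE ⟨c1, c2⟩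
    have hB' := dual_adm χ L.S hdir hχ B hB
    exact (hc_PX_ses χ D τ hτ A B C i q hi hq hex hB.2 hB'.2).a2Surj_left hE c1 c2
  · rintro A B C i r q s hir hsq hiq hsr hsum hA hB hC hEA hEC
    refine hc_a2Surj_sum₂ D τ hτ (dual_pair_equivariant χ A) (dual_pair_equivariant χ C)
      (dual_pair_equivariant χ B)
      (i₁ := i.hom.toLinearMap) (Rep.hom_comm_apply i)
      (i₂ := s.hom.toLinearMap) (Rep.hom_comm_apply s)
      (p₁ := (dual_map χ i).hom.toLinearMap) (Rep.hom_comm_apply (dual_map χ i))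
      (p₂ := (dual_map χ s).hom.toLinearMap) (Rep.hom_comm_apply (dual_map χ s))
      (j₁ := (dual_map χ r).hom.toLinearMap) (Rep.hom_comm_apply (dual_map χ r))
      (j₂ := (dual_map χ q).hom.toLinearMap) (Rep.hom_comm_apply (dual_map χ q))
      ?_ (fun a b => rfl) (fun a b => rfl) hEA hEC
    intro b
    apply LinearMap.ext
    intro x
    have h := congrArg (fun f : B ⟶ B => f.hom x) hsum
    have h' : i.hom (r.hom x) + s.hom (q.hom x) = x := h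
    change b x = b (i.hom (r.hom x)) + b (s.hom (q.hom x))
    rw [← map_add, h']

include hfin hχ in
/-- **Devissage**: if `α¹` is surjective and `α²` is bijective for the base modules
`indBase p U` (`U` a subgroup containing a level and contained in `W`), then the same holds for
every admissible module. -/
theorem hc_dev (W : Subgroup Γ) [W.Normal] (hW : ∃ N ∈ L.S, N ≤ W) (hWp : ¬ p ∣ W.index)
    (h_base : ∀ U : Subgroup Γ, (∃ N ∈ L.S, N ≤ U) → U ≤ W →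
      (hc_PX χ D τ hτ (indBase p U)).A1Surj ∧ (hc_PX χ D τ hτ (indBase p U)).A2Inj ∧
        (hc_PX χ D τ hτ (indBase p U)).A2Surj)
    (X : Rep.{0} (ZMod p) Γ) (hX : IndAdm L.S X) :
    (hc_PX χ D τ hτ X).A1Surj ∧ (hc_PX χ D τ hτ X).A2Inj ∧ (hc_PX χ D τ hτ X).A2Surj := by
  have hQ := hc_dev_Q χ D τ hτ hfin hχ W hW hWp (fun U h1 h2 =>
    ⟨(h_base U h1 h2).1, (h_base U h1 h2).2.1⟩)
  have hE := hc_dev_E χ D τ hτ hfin hχ W hW hQ (fun N hN hNW =>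
    (h_base N ⟨N, hN, le_rfl⟩ hNW).2.2) X hX
  exact ⟨(hQ X hX).1, (hQ X hX).2, hE⟩

end dev

end Fermat.Agent.S55
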