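import Fermat.Agent.S55.HcCochain

/-!
# S55 homological layer (HC), part 6: finite levels and inflation

For a normal subgroup `N` of `G` and a representation `ρ` of `G` on `M`, the `N`-level cochains
of `G` (see `HcCochain.lean`) are exactly the inflations of the cochains of `G ⧸ N` with values
in the invariants `M^N` (with Mathlib's representation `ρ.quotientToInvariants N`).

Main results:
* `hc_inf1, hc_inf2, hc_inf3`: inflation of cochains; they are `N`-level, every `N`-level cochain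
  is an inflation, inflation is injective and commutes with the differentials;
* `hc_level_descent`: **inflation is injective on `H²` at cochain level**: if Hilbert 90 holds for
  the layer `N' ≤ N` (every `N'`-level 1-cocycle of `N` is the coboundary of an `N'`-fixed vector)
  and `b` is an `N'`-level 1-cochain whose coboundary is an `N`-level 2-cocycle, then `b` differs
  from an `N`-level 1-cochain by the coboundary of an `N'`-fixed vector;
* `hc_coboundary_iff`: under Hilbert 90 for all levels below `N`, the inflation of a 2-cocycle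
  `c` of `G ⧸ N` is a level coboundary iff `c` is a coboundary.
-/

set_option autoImplicit false
set_option linter.unusedSectionVars false

namespace Fermat.Agent.S55

section descent

variable {k G M : Type*} [CommRing k] [Group G] [AddCommGroup M] [Module k M]
  {ρ : Representation k G M}

/-- an `N`-level 2-cocycle satisfies `f (n, g) = f (1, 1)` for `n ∈ N`. -/
lemma hc_cocycle_left {N : Subgroup G} {f : G × G → M} (hf : hc_IsLev2 ρ N f)
    (hd : hc_d23f ρ f = 0) (n : G) (hn : n ∈ N) (g : G) : f (n, g) = f (1, 1) := by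
  have h1 := congrFun hd (1, 1, g)
  simp only [hc_d23f_apply, map_one, Module.End.one_apply, one_mul, Pi.zero_apply] at h1
  have h2 := hf.1 1 g n hn 1 (one_mem N)
  simp only [one_mul, mul_one] at h2
  rw [h2]
  have h3 : f (1, g) - f (1, 1) = 0 := by rw [← h1]; abel
  exact sub_eq_zero.1 h3

/-- an `N`-level 2-cocycle satisfies `f (g, n) = g • f (1, 1)` for `n ∈ N`. -/
lemma hc_cocycle_right {N : Subgroup G} {f : G × G → M} (hf : hc_IsLev2 ρ N f)
    (hd : hc_d23f ρ f = 0) (g : G) (n : G) (hn : n ∈ N) : f (g, n) = ρ g (f (1, 1)) := by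
  have h1 := congrFun hd (g, 1, 1)
  simp only [hc_d23f_apply, mul_one, Pi.zero_apply] at h1
  have h2 := hf.1 g 1 1 (one_mem N) n hn
  simp only [one_mul, mul_one] at h2
  rw [h2]
  have h3 : ρ g (f (1, 1)) - f (g, 1) = 0 := by rw [← h1]; abel
  exact (sub_eq_zero.1 h3).symm

/-- **Descent of a bounding cochain to a higher level.**  Let `N' ≤ N` be normal subgroups, `f`
an `N`-level 2-cocycle and `b` an `N'`-level 1-cochain with `d b = f`.  If every `N'`-level
1-cocycle of `N` is the coboundary of an `N'`-fixed vector (Hilbert 90 for the layer), then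
there is an `N'`-fixed vector `a` such that `b - d a` is an `N`-level cochain. -/
theorem hc_level_descent {N N' : Subgroup G} (hN : N.Normal)
    (h90 : ∀ β : G → M, hc_IsLev1 ρ N' β →
      (∀ n ∈ N, ∀ n' ∈ N, β (n * n') = ρ n (β n') + β n) →
      ∃ a, hc_IsLev0 ρ N' a ∧ ∀ n ∈ N, β n = ρ n a - a)
    {f : G × G → M} (hf : hc_IsLev2 ρ N f) (hd : hc_d23f ρ f = 0)
    {b : G → M} (hb : hc_IsLev1 ρ N' b) (hbf : hc_d12f ρ b = f) (hle : N' ≤ N) :
    ∃ a, hc_IsLev0 ρ N' a ∧ hc_IsLev1 ρ N (fun g => b g - (ρ g a - a)) := by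
  set a₀ := f (1, 1) with ha₀
  have ha₀fix : hc_IsLev0 ρ N a₀ := hf.2 (1, 1)
  have hL := hc_cocycle_left hf hd
  have hR := hc_cocycle_right hf hd
  -- the cocycle identities for `b`
  have hb1 : ∀ g h, ρ g (b h) - b (g * h) + b g = f (g, h) := fun g h => by
    rw [← hbf]; rfl
  -- `β = b - a₀` is a cocycle on `N`
  obtain ⟨a, ha, haβ⟩ := h90 (fun g => b g - a₀)
    ⟨fun g s hs => by simp only [hb.1 g s hs],
      fun x => (hb.2 x).sub (ha₀fix.mono hle)⟩
    (fun n hn n' hn' => by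
      have h := hb1 n n'
      rw [hL n hn n', ← ha₀] at h
      have h' : b (n * n') = ρ n (b n') + b n - a₀ := by rw [← h]; abel
      rw [h', map_sub, ha₀fix n hn]
      abel)
  refine ⟨a, ha, ?_⟩
  -- right invariance
  have hright : ∀ g, ∀ n ∈ N, b (g * n) - (ρ (g * n) a - a) = b g - (ρ g a - a) := by
    intro g n hn
    have h := hb1 g n
    rw [hR g n hn, ← ha₀] at h
    have h' : b (g * n) = ρ g (b n - a₀) + b g := by
      rw [map_sub, ← h]; abel
    rw [h', haβ n hn, map_mul, Module.End.mul_apply, map_sub]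
    abel
  refine ⟨hright, fun g n hn => ?_⟩
  -- the values are fixed by `N`
  have h := hb1 n g
  rw [hL n hn g, ← ha₀] at h
  have h' : ρ n (b g) = b (n * g) - (b n - a₀) := by rw [← h]; abel
  have e1 : n * g = g * (g⁻¹ * n * g) := by group
  have h3 := hright g (g⁻¹ * n * g) (hN.conj_mem' n hn g)
  rw [← e1] at h3
  show ρ n (b g - (ρ g a - a)) = b g - (ρ g a - a)
  rw [map_sub, map_sub, h', haβ n hn, ← Module.End.mul_apply, ← map_mul, ← h3]
  abel

end descent

/-! ### Inflation from `G ⧸ N` -/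

section inflation

variable {k G M : Type*} [CommRing k] [Group G] [AddCommGroup M] [Module k M]
  (ρ : Representation k G M) (N : Subgroup G) [N.Normal]

/-- inflation of 1-cochains from `G ⧸ N` (values in the `N`-invariants). -/
def hc_inf1 (c : G ⧸ N → Representation.invariants (ρ.comp N.subtype)) : G → M :=
  fun g => (c (g : G ⧸ N) : M)

/-- inflation of 2-cochains from `G ⧸ N`. -/
def hc_inf2 (c : (G ⧸ N) × (G ⧸ N) → Representation.invariants (ρ.comp N.subtype)) :
    G × G → M :=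
  fun x => (c ((x.1 : G ⧸ N), (x.2 : G ⧸ N)) : M)

/-- inflation of 3-cochains from `G ⧸ N`. -/
def hc_inf3
    (c : (G ⧸ N) × (G ⧸ N) × (G ⧸ N) → Representation.invariants (ρ.comp N.subtype)) :
    G × G × G → M :=
  fun x => (c ((x.1 : G ⧸ N), (x.2.1 : G ⧸ N), (x.2.2 : G ⧸ N)) : M)

variable {ρ N}

@[simp] lemma hc_inf1_apply (c : G ⧸ N → Representation.invariants (ρ.comp N.subtype)) (g : G) :
    hc_inf1 ρ N c g = (c (g : G ⧸ N) : M) := rfl

@[simp] lemma hc_inf2_apply
    (c : (G ⧸ N) × (G ⧸ N) → Representation.invariants (ρ.comp N.subtype)) (g h : G) :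
    hc_inf2 ρ N c (g, h) = (c ((g : G ⧸ N), (h : G ⧸ N)) : M) := rfl

@[simp] lemma hc_inf3_apply
    (c : (G ⧸ N) × (G ⧸ N) × (G ⧸ N) → Representation.invariants (ρ.comp N.subtype))
    (g h j : G) :
    hc_inf3 ρ N c (g, h, j) = (c ((g : G ⧸ N), (h : G ⧸ N), (j : G ⧸ N)) : M) := rfl

lemma hc_mk_mul_of_mem (g s : G) (hs : s ∈ N) : ((g * s : G) : G ⧸ N) = (g : G ⧸ N) := by
  rw [QuotientGroup.mk_mul, (QuotientGroup.eq_one_iff s).2 hs, mul_one]

lemma hc_isLev0_inv (x : Representation.invariants (ρ.comp N.subtype)) :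
    hc_IsLev0 ρ N (x : M) := fun s hs => x.2 ⟨s, hs⟩

lemma hc_isLev1_inf1 (c : G ⧸ N → Representation.invariants (ρ.comp N.subtype)) :
    hc_IsLev1 ρ N (hc_inf1 ρ N c) :=
  ⟨fun g s hs => by simp only [hc_inf1_apply, hc_mk_mul_of_mem g s hs],
    fun x => hc_isLev0_inv _⟩

lemma hc_isLev2_inf2
    (c : (G ⧸ N) × (G ⧸ N) → Representation.invariants (ρ.comp N.subtype)) :
    hc_IsLev2 ρ N (hc_inf2 ρ N c) :=
  ⟨fun g h s hs t ht => by
      simp only [hc_inf2_apply, hc_mk_mul_of_mem g s hs, hc_mk_mul_of_mem h t ht],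
    fun x => hc_isLev0_inv _⟩

lemma hc_isLev3_inf3
    (c : (G ⧸ N) × (G ⧸ N) × (G ⧸ N) → Representation.invariants (ρ.comp N.subtype)) :
    hc_IsLev3 ρ N (hc_inf3 ρ N c) :=
  ⟨fun g h j s hs t ht r hr => by
      simp only [hc_inf3_apply, hc_mk_mul_of_mem g s hs, hc_mk_mul_of_mem h t ht,
        hc_mk_mul_of_mem j r hr],
    fun x => hc_isLev0_inv _⟩

lemma hc_inf1_injective : Function.Injective (hc_inf1 ρ N) := by
  intro c c' h
  funext q
  induction q using QuotientGroup.induction_on with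
  | H g => exact Subtype.ext (congrFun h g)

lemma hc_inf2_injective : Function.Injective (hc_inf2 ρ N) := by
  intro c c' h
  funext ⟨q, q'⟩
  induction q using QuotientGroup.induction_on with
  | H g =>
    induction q' using QuotientGroup.induction_on with
    | H g' => exact Subtype.ext (congrFun h (g, g'))

lemma hc_inf3_injective : Function.Injective (hc_inf3 ρ N) := by
  intro c c' h
  funext ⟨q, q', q''⟩
  induction q using QuotientGroup.induction_on with
  | H g =>
    induction q' using QuotientGroup.induction_on with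
    | H g' =>
      induction q'' using QuotientGroup.induction_on with
      | H g'' => exact Subtype.ext (congrFun h (g, g', g''))

/-- the representative `q.out` differs from `g` by an element of `N`. -/
lemma hc_out_eq (g : G) : ∃ s ∈ N, ((g : G ⧸ N)).out = g * s := by
  refine ⟨g⁻¹ * ((g : G ⧸ N)).out, ?_, by group⟩
  have h : ((((g : G ⧸ N)).out : G) : G ⧸ N) = (g : G ⧸ N) := QuotientGroup.out_eq' _
  exact QuotientGroup.eq.1 h.symm

/-- every `N`-level 1-cochain is an inflation. -/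
lemma hc_exists_inf1 {f : G → M} (hf : hc_IsLev1 ρ N f) : ∃ c, hc_inf1 ρ N c = f := by
  refine ⟨fun q => ⟨f q.out, fun s => hf.2 _ s.1 s.2⟩, funext fun g => ?_⟩
  obtain ⟨s, hs, h⟩ := hc_out_eq (N := N) g
  simp only [hc_inf1_apply, h, hf.1 g s hs]

/-- every `N`-level 2-cochain is an inflation. -/
lemma hc_exists_inf2 {f : G × G → M} (hf : hc_IsLev2 ρ N f) : ∃ c, hc_inf2 ρ N c = f := by
  refine ⟨fun q => ⟨f (q.1.out, q.2.out), fun s => hf.2 _ s.1 s.2⟩, funext fun ⟨g, h⟩ => ?_⟩
  obtain ⟨s, hs, e⟩ := hc_out_eq (N := N) g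
  obtain ⟨t, ht, e'⟩ := hc_out_eq (N := N) h
  simp only [hc_inf2_apply, e, e', hf.1 g h s hs t ht]

/-- every `N`-level 3-cochain is an inflation. -/
lemma hc_exists_inf3 {f : G × G × G → M} (hf : hc_IsLev3 ρ N f) : ∃ c, hc_inf3 ρ N c = f := by
  refine ⟨fun q => ⟨f (q.1.out, q.2.1.out, q.2.2.out), fun s => hf.2 _ s.1 s.2⟩,
    funext fun ⟨g, h, j⟩ => ?_⟩
  obtain ⟨s, hs, e⟩ := hc_out_eq (N := N) g
  obtain ⟨t, ht, e'⟩ := hc_out_eq (N := N) h
  obtain ⟨r, hr, e''⟩ := hc_out_eq (N := N) j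
  simp only [hc_inf3_apply, e, e', e'', hf.1 g h j s hs t ht r hr]

/-- inflation commutes with `d⁰`. -/
lemma hc_d01f_inv (x : Representation.invariants (ρ.comp N.subtype)) :
    hc_d01f ρ (x : M) = hc_inf1 ρ N (hc_d01f (ρ.quotientToInvariants N) x) := by
  funext g
  rfl

/-- inflation commutes with `d¹`. -/
lemma hc_d12f_inf1 (c : G ⧸ N → Representation.invariants (ρ.comp N.subtype)) :
    hc_d12f ρ (hc_inf1 ρ N c) = hc_inf2 ρ N (hc_d12f (ρ.quotientToInvariants N) c) := by
  funext ⟨g, h⟩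
  rfl

/-- inflation commutes with `d²`. -/
lemma hc_d23f_inf2
    (c : (G ⧸ N) × (G ⧸ N) → Representation.invariants (ρ.comp N.subtype)) :
    hc_d23f ρ (hc_inf2 ρ N c) = hc_inf3 ρ N (hc_d23f (ρ.quotientToInvariants N) c) := by
  funext ⟨g, h, j⟩
  rfl

/-- `c` is a 2-cocycle of `G ⧸ N` iff its inflation is a 2-cocycle of `G`. -/
lemma hc_d23f_inf2_eq_zero_iff
    (c : (G ⧸ N) × (G ⧸ N) → Representation.invariants (ρ.comp N.subtype)) :
    hc_d23f ρ (hc_inf2 ρ N c) = 0 ↔ hc_d23f (ρ.quotientToInvariants N) c = 0 := by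
  rw [hc_d23f_inf2]
  constructor
  · intro h
    exact hc_inf3_injective (ρ := ρ) (N := N) (by rw [h]; rfl)
  · intro h
    rw [h]; rfl

/-- `c` is a 1-cocycle of `G ⧸ N` iff its inflation is a 1-cocycle of `G`. -/
lemma hc_d12f_inf1_eq_zero_iff (c : G ⧸ N → Representation.invariants (ρ.comp N.subtype)) :
    hc_d12f ρ (hc_inf1 ρ N c) = 0 ↔ hc_d12f (ρ.quotientToInvariants N) c = 0 := by
  rw [hc_d12f_inf1]
  constructor
  · intro h
    exact hc_inf2_injective (ρ := ρ) (N := N) (by rw [h]; rfl)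
  · intro h
    rw [h]; rfl

end inflation

/-! ### Level cocycles and coboundaries in terms of finite levels -/

section levels

variable {k G M : Type*} [CommRing k] [Group G] [AddCommGroup M] [Module k M]
  (L : hc_Lev G) (ρ : Representation k G M)

/-- every level 2-cocycle is the inflation of a 2-cocycle of some `G ⧸ N`, `N` a level. -/
theorem hc_exists_level_cocycle₂ (f : hc_C2 L ρ) (hf : hc_d23 L ρ f = 0) :
    ∃ (N : Subgroup G) (_ : N ∈ L.S) (_ : N.Normal)
      (c : (G ⧸ N) × (G ⧸ N) → Representation.invariants (ρ.comp N.subtype)),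
      hc_d23f (ρ.quotientToInvariants N) c = 0 ∧ hc_inf2 ρ N c = (f : G × G → M) := by
  obtain ⟨N, hN, hfN⟩ := f.2
  have : N.Normal := L.nor N hN
  obtain ⟨c, hc⟩ := hc_exists_inf2 hfN
  refine ⟨N, hN, L.nor N hN, c, ?_, hc⟩
  rw [← hc_d23f_inf2_eq_zero_iff, hc]
  exact congrArg Subtype.val hf

/-- every level 1-cocycle is the inflation of a 1-cocycle of some `G ⧸ N`, `N` a level. -/
theorem hc_exists_level_cocycle₁ (f : hc_C1 L ρ) (hf : hc_d12 L ρ f = 0) :
    ∃ (N : Subgroup G) (_ : N ∈ L.S) (_ : N.Normal)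
      (c : G ⧸ N → Representation.invariants (ρ.comp N.subtype)),
      hc_d12f (ρ.quotientToInvariants N) c = 0 ∧ hc_inf1 ρ N c = (f : G → M) := by
  obtain ⟨N, hN, hfN⟩ := f.2
  have : N.Normal := L.nor N hN
  obtain ⟨c, hc⟩ := hc_exists_inf1 hfN
  refine ⟨N, hN, L.nor N hN, c, ?_, hc⟩
  rw [← hc_d12f_inf1_eq_zero_iff, hc]
  exact congrArg Subtype.val hf

variable {L ρ}

/-- the inflation of a cochain of `G ⧸ N` (`N` a level) is a level cochain. -/
lemma hc_inf1_mem {N : Subgroup G} [N.Normal] (hN : N ∈ L.S)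
    (c : G ⧸ N → Representation.invariants (ρ.comp N.subtype)) : hc_inf1 ρ N c ∈ hc_C1 L ρ :=
  ⟨N, hN, hc_isLev1_inf1 c⟩

lemma hc_inf2_mem {N : Subgroup G} [N.Normal] (hN : N ∈ L.S)
    (c : (G ⧸ N) × (G ⧸ N) → Representation.invariants (ρ.comp N.subtype)) :
    hc_inf2 ρ N c ∈ hc_C2 L ρ :=
  ⟨N, hN, hc_isLev2_inf2 c⟩

/-- **Inflation is injective on `H²` (cochain form).**  Let `N` be a level such that Hilbert 90
holds for all levels `N' ≤ N`.  Then the inflation of a 2-cocycle `c` of `G ⧸ N` is the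
coboundary of a level 1-cochain iff `c` is a coboundary. -/
theorem hc_coboundary_iff {N : Subgroup G} [N.Normal] (hN : N ∈ L.S)
    (h90 : ∀ N' ∈ L.S, N' ≤ N → ∀ β : G → M, hc_IsLev1 ρ N' β →
      (∀ n ∈ N, ∀ n' ∈ N, β (n * n') = ρ n (β n') + β n) →
      ∃ a, hc_IsLev0 ρ N' a ∧ ∀ n ∈ N, β n = ρ n a - a)
    (c : (G ⧸ N) × (G ⧸ N) → Representation.invariants (ρ.comp N.subtype))
    (hc : hc_d23f (ρ.quotientToInvariants N) c = 0) :
    (∃ b : hc_C1 L ρ, hc_d12f ρ (b : G → M) = hc_inf2 ρ N c) ↔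
      ∃ β : G ⧸ N → Representation.invariants (ρ.comp N.subtype),
        hc_d12f (ρ.quotientToInvariants N) β = c := by
  constructor
  · rintro ⟨⟨b, N₁, hN₁, hb⟩, hbc⟩
    obtain ⟨N', hN', h1, h2⟩ := L.dir N₁ hN₁ N hN
    have hd : hc_d23f ρ (hc_inf2 ρ N c) = 0 := (hc_d23f_inf2_eq_zero_iff c).2 hc
    obtain ⟨a, -, hlev⟩ := hc_level_descent (inferInstance : N.Normal) (h90 N' hN' h2)
      (hc_isLev2_inf2 c) hd (hb.mono h1) hbc h2
    obtain ⟨β, hβ⟩ := hc_exists_inf1 hlev
    refine ⟨β, hc_inf2_injective (ρ := ρ) (N := N) ?_⟩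
    rw [← hc_d12f_inf1, hβ, ← hbc]
    have e : (fun g => b g - (ρ g a - a)) = b - hc_d01f ρ a := rfl
    rw [e, map_sub, hc_d12f_d01f, sub_zero]
  · rintro ⟨β, rfl⟩
    exact ⟨⟨hc_inf1 ρ N β, hc_inf1_mem hN β⟩, hc_d12f_inf1 β⟩

end levels

end Fermat.Agent.S55
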