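import Fermat.Agent.S55.HcInf

/-!
# S55 homological layer (HC), part 7: the dictionary with Mathlib's low-degree cohomology

* `hc_d01f_eq`, `hc_d12f_eq`, `hc_d23f_eq`: the raw differentials are Mathlib's `d₀₁, d₁₂, d₂₃`;
* `hc_h90_of_quot`: the Hilbert 90 hypothesis of `hc_level_descent` / `hc_coboundary_iff` for a
  layer `N' ≤ N` follows from the vanishing of the 1-cocycles of `N ⧸ N'` with values in the
  `N'`-invariants (elementwise form);
* `hc_H2π_eq_zero_iff`: for `A : Rep k G`, a level `N` and a 2-cocycle `c` of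
  `A.quotientToInvariants N`, the inflation of `c` to `G` is a level coboundary iff
  `H2π c = 0` (under Hilbert 90 for the layers below `N`).
-/

set_option autoImplicit false
set_option linter.unusedSectionVars false

open groupCohomology

namespace Fermat.Agent.S55

section h90

variable {k G M : Type*} [CommRing k] [Group G] [AddCommGroup M] [Module k M]
  (ρ : Representation k G M)

/-- Hilbert 90 for the layer `N' ≤ N` in the form used by `hc_level_descent`, from the vanishing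
of `H¹(N ⧸ N', M^{N'})` in elementwise form. -/
theorem hc_h90_of_quot (N N' : Subgroup G) [hN' : N'.Normal] (hle : N' ≤ N)
    (h : ∀ c : (N ⧸ N'.subgroupOf N) →
        Representation.invariants ((ρ.comp N.subtype).comp (N'.subgroupOf N).subtype),
      hc_d12f (Representation.quotientToInvariants (ρ.comp N.subtype) (N'.subgroupOf N)) c = 0 →
        ∃ a, hc_d01f (Representation.quotientToInvariants (ρ.comp N.subtype) (N'.subgroupOf N)) a = c) :
    ∀ β : G → M, hc_IsLev1 ρ N' β →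
      (∀ n ∈ N, ∀ n' ∈ N, β (n * n') = ρ n (β n') + β n) →
      ∃ a, hc_IsLev0 ρ N' a ∧ ∀ n ∈ N, β n = ρ n a - a := by
  intro β hβ hcoc
  -- restrict to `N`
  have hlev : hc_IsLev1 (ρ.comp N.subtype) (N'.subgroupOf N) (fun n : N => β n) :=
    ⟨fun g s hs => by
        have := hβ.1 (g : G) (s : G) (Subgroup.mem_subgroupOf.1 hs)
        simpa using this,
      fun x s hs => hβ.2 (x : G) (s : G) (Subgroup.mem_subgroupOf.1 hs)⟩
  obtain ⟨c, hc⟩ := hc_exists_inf1 hlev
  have hc0 : hc_d12f (Representation.quotientToInvariants (ρ.comp N.subtype) (N'.subgroupOf N)) c = 0 := by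
    rw [← hc_d12f_inf1_eq_zero_iff, hc]
    funext ⟨n, n'⟩
    have := hcoc n n.2 n' n'.2
    simp only [hc_d12f_apply, MonoidHom.comp_apply, Subgroup.coe_subtype, Subgroup.coe_mul,
      Pi.zero_apply, this]
    abel
  obtain ⟨a, ha⟩ := h c hc0
  refine ⟨(a : M), fun s hs => ?_, fun n hn => ?_⟩
  · exact a.2 ⟨⟨s, hle hs⟩, Subgroup.mem_subgroupOf.2 hs⟩
  · have h1 := congrFun hc ⟨n, hn⟩
    rw [← ha] at h1
    exact h1.symm

end h90

/-! ### Mathlib's low-degree cochains -/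

section mathlib

universe u

variable {k G : Type u} [CommRing k] [Group G] (A : Rep.{u} k G)

lemma hc_d01f_eq : hc_d01f A.ρ = (d₀₁ A).hom := rfl

lemma hc_d12f_eq : hc_d12f A.ρ = (d₁₂ A).hom := rfl

lemma hc_d23f_eq : hc_d23f A.ρ = (d₂₃ A).hom := rfl

lemma hc_mem_cocycles₁_iff (f : G → A) : f ∈ cocycles₁ A ↔ hc_d12f A.ρ f = 0 := Iff.rfl

lemma hc_mem_cocycles₂_iff (f : G × G → A) : f ∈ cocycles₂ A ↔ hc_d23f A.ρ f = 0 := Iff.rfl

lemma hc_mem_coboundaries₁_iff (f : G → A) :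
    f ∈ coboundaries₁ A ↔ ∃ a : A, hc_d01f A.ρ a = f := Iff.rfl

lemma hc_mem_coboundaries₂_iff (f : G × G → A) :
    f ∈ coboundaries₂ A ↔ ∃ b : G → A, hc_d12f A.ρ b = f := Iff.rfl

variable (L : hc_Lev G)

/-- **Dictionary in degree 2.**  Let `N` be a level such that Hilbert 90 holds for all levels
`N' ≤ N`.  For a 2-cocycle `c` of the `G ⧸ N`-representation `A^N` (Mathlib's
`A.quotientToInvariants N`): the inflation of `c` to `G` is the coboundary of a level 1-cochain
iff the class of `c` in `H²(G ⧸ N, A^N)` vanishes. -/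
theorem hc_H2π_eq_zero_iff {N : Subgroup G} [N.Normal] (hN : N ∈ L.S)
    (h90 : ∀ N' ∈ L.S, N' ≤ N → ∀ β : G → A, hc_IsLev1 A.ρ N' β →
      (∀ n ∈ N, ∀ n' ∈ N, β (n * n') = A.ρ n (β n') + β n) →
      ∃ a, hc_IsLev0 A.ρ N' a ∧ ∀ n ∈ N, β n = A.ρ n a - a)
    (c : cocycles₂ (A.quotientToInvariants N)) :
    (∃ b : hc_C1 L A.ρ, hc_d12f A.ρ (b : G → A) = hc_inf2 A.ρ N c) ↔
      H2π (A.quotientToInvariants N) c = 0 := by
  rw [H2π_eq_zero_iff]
  exact hc_coboundary_iff hN h90 c c.2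

/-- the inflation of a 2-cocycle of `A.quotientToInvariants N` is a level 2-cocycle. -/
lemma hc_inf2_cocycle {N : Subgroup G} [N.Normal] (hN : N ∈ L.S)
    (c : cocycles₂ (A.quotientToInvariants N)) :
    ∃ f : hc_C2 L A.ρ, (f : G × G → A) = hc_inf2 A.ρ N c ∧ hc_d23 L A.ρ f = 0 :=
  ⟨⟨hc_inf2 A.ρ N c, hc_inf2_mem hN c⟩, rfl,
    Subtype.ext ((hc_d23f_inf2_eq_zero_iff (ρ := A.ρ) (N := N) c).2 c.2)⟩

/-- every level 2-cocycle is the inflation of a 2-cocycle of some `A.quotientToInvariants N`. -/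
theorem hc_exists_cocycles₂ (f : hc_C2 L A.ρ) (hf : hc_d23 L A.ρ f = 0) :
    ∃ (N : Subgroup G) (_ : N ∈ L.S) (_ : N.Normal) (c : cocycles₂ (A.quotientToInvariants N)),
      hc_inf2 A.ρ N c = (f : G × G → A) := by
  obtain ⟨N, hN, hNn, c, hc, hcf⟩ := hc_exists_level_cocycle₂ L A.ρ f hf
  exact ⟨N, hN, hNn, ⟨c, hc⟩, hcf⟩

end mathlib

end Fermat.Agent.S55
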