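import Mathlib
import Fermat.Agent.S55.HpbUnr

/-!
# S55, block HPB: the unramified places for `μ_p`-valued cocycles (`ZMod p`-form)

`hpbU_triv_zmod`: for an `S`-level additive 2-cocycle `A : U × U → ZMod p` of `U = Gal(ℚ̄/k)`
(`ζ_p ∈ k`, `k` unramified outside `S`) and a prime `q ∉ S`, the multiplicative cocycle
`ζ ^ A` is locally trivial at `(q, g)` for every `g` (consumer shape of SHA2, helper2).
-/

set_option autoImplicit false
set_option linter.style.haveILetI false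

namespace Fermat.Agent.S55

open groupCohomology

local notation "Qb" => AlgebraicClosure ℚ
local notation "Γ" => (AlgebraicClosure ℚ ≃ₐ[ℚ] AlgebraicClosure ℚ)

attribute [local instance] pt_qbar_isAlgebraic pt_qbar_isAlgClosure pt_qbar_isGalois

/-- `ζ ^ a.val * ζ ^ b.val = ζ ^ (a + b).val` for `ζ ^ p = 1`. -/
theorem hpbU_pow_val_add {M : Type*} [Monoid M] {p : ℕ} [NeZero p] {ζ : M} (hζ : ζ ^ p = 1)
    (a b : ZMod p) : ζ ^ a.val * ζ ^ b.val = ζ ^ (a + b).val := by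
  rw [← pow_add, ZMod.val_add, ← pow_eq_pow_mod _ hζ]

theorem hpbU_triv_zmod (p : ℕ) [Fact p.Prime] (S : Finset Nat.Primes)
    (k : IntermediateField ℚ Qb) (hk : k.IsUnramifiedOutside S) (ζ : Qbˣ)
    (hζk : (ζ : Qb) ∈ k) (hζ : IsPrimitiveRoot ζ p)
    (A : k.fixingSubgroup × k.fixingSubgroup → ZMod p)
    (hcoc : ∀ x y z : k.fixingSubgroup, A (y, z) - A (x * y, z) + A (x, y * z) - A (x, y) = 0)
    (hlev : ∃ K : IntermediateField ℚ Qb, K.IsUnramifiedOutside S ∧ IsGalois ℚ K ∧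
      ∀ x x' s s' : k.fixingSubgroup, (s : Γ) ∈ K.fixingSubgroup → (s' : Γ) ∈ K.fixingSubgroup →
        A (x * s, x' * s') = A (x, x'))
    (q : ℕ) [Fact q.Prime] (hq : (⟨q, Fact.out⟩ : Nat.Primes) ∉ S) (g : Γ) :
    hpbQTriv k q (fun x => ζ ^ (A x).val) g := by
  obtain ⟨K, hK, hKg, hAlev⟩ := hlev
  obtain ⟨F, hF, hFg, hle⟩ := pt_exists_galois_level S (k ⊔ K) (hk.sup hK)
  haveI := hF.1
  haveI := hFg
  have hkF : k ≤ F := le_sup_left.trans hle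
  have hKF : K ≤ F := le_sup_right.trans hle
  have hp : p.Prime := Fact.out
  have hζp : ζ ^ p = 1 := hζ.pow_eq_one
  have hfix : ∀ (u : k.fixingSubgroup) (n : ℕ), (u : Γ) • ζ ^ n = ζ ^ n := by
    intro u n
    apply Units.ext
    show (u : Γ) ((ζ ^ n : Qbˣ) : Qb) = ((ζ ^ n : Qbˣ) : Qb)
    rw [Units.val_pow_eq_pow_val, map_pow,
      (IntermediateField.mem_fixingSubgroup_iff k _).1 u.2 _ hζk]
  refine hpbU_triv_of_tors q k F hkF
    (hF.2 ⟨q, Fact.out⟩ hq (padicPlace q) (pl_natCast_mem_nonunits_padicPlace q))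
    (fun x => ζ ^ (A x).val) ?_ ?_ ?_ p hp.ne_zero ?_ g
  · intro u₁ u₂ u₃
    show ζ ^ (A (u₁ * u₂, u₃)).val * ζ ^ (A (u₁, u₂)).val =
      (u₁ : Γ) • ζ ^ (A (u₂, u₃)).val * ζ ^ (A (u₁, u₂ * u₃)).val
    rw [hfix, hpbU_pow_val_add hζp, hpbU_pow_val_add hζp]
    congr 2
    linear_combination -(hcoc u₁ u₂ u₃)
  · intro u₁ u₂ n₁ n₂ h₁ h₂
    show ζ ^ (A (u₁ * n₁, u₂ * n₂)).val = ζ ^ (A (u₁, u₂)).val
    rw [hAlev u₁ u₂ n₁ n₂ (IntermediateField.fixingSubgroup_antitone hKF h₁)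
      (IntermediateField.fixingSubgroup_antitone hKF h₂)]
  · intro u₁ u₂
    show ((ζ ^ (A (u₁, u₂)).val : Qbˣ) : Qb) ∈ F
    rw [Units.val_pow_eq_pow_val]
    exact pow_mem (hkF hζk) _
  · intro u₁ u₂
    show (ζ ^ (A (u₁, u₂)).val) ^ p = 1
    rw [← pow_mul, mul_comm, pow_mul, hζp, one_pow]

end Fermat.Agent.S55
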