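import Fermat.Agent.S55.Herbrand

/-!
# Herbrand indices of finite products

* `hq_relIndex_pi`: relative indices of product subgroups (dependent families).
* `hq_pi`: `hq` of a componentwise pair of endomorphisms on a finite product is the product.
* `hq_prod`: the binary version.
-/

set_option autoImplicit false

namespace Fermat.Agent.S55

section Pi

variable {ι : Type*} [Fintype ι] {A : ι → Type*} [∀ i, AddCommGroup (A i)]

/-- Index of a product subgroup, for dependent families. -/
theorem hq_index_pi (H : ∀ i, AddSubgroup (A i)) :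
    (AddSubgroup.pi Set.univ H).index = ∏ i, (H i).index := by
  simp_rw [AddSubgroup.index, ← Nat.card_pi]
  refine Nat.card_congr
    ((Quotient.congrRight (fun x y ↦ ?_)).trans (Setoid.piQuotientEquiv _).symm)
  rw [QuotientAddGroup.leftRel_pi]

/-- Relative index of product subgroups, for dependent families. -/
theorem hq_relIndex_pi (H K : ∀ i, AddSubgroup (A i)) :
    (AddSubgroup.pi Set.univ H).relIndex (AddSubgroup.pi Set.univ K) =
      ∏ i, (H i).relIndex (K i) := by
  -- the product of the inclusions
  let φ : (∀ i, K i) →+ (∀ i, A i) :=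
    { toFun := fun x i => (x i : A i)
      map_zero' := rfl
      map_add' := fun _ _ => rfl }
  have hφ : φ.range = AddSubgroup.pi Set.univ K := by
    ext x
    constructor
    · rintro ⟨y, rfl⟩ i _
      exact (y i).2
    · intro hx
      exact ⟨fun i => ⟨x i, hx i (Set.mem_univ i)⟩, rfl⟩
  have hc : (AddSubgroup.pi Set.univ H).comap φ =
      AddSubgroup.pi Set.univ (fun i => (H i).addSubgroupOf (K i)) := by
    ext x
    constructor
    · intro hx i hi
      exact hx i hi
    · intro hx i hi
      exact hx i hi
  rw [← hφ, ← AddSubgroup.index_comap, hc, hq_index_pi]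
  rfl

/-- The Herbrand index of a componentwise pair of endomorphisms of a finite product. -/
theorem hq_pi (f g : ∀ i, A i →+ A i) (F G : (∀ i, A i) →+ (∀ i, A i))
    (hF : ∀ x i, F x i = f i (x i)) (hG : ∀ x i, G x i = g i (x i)) :
    hq F G = ∏ i, hq (f i) (g i) := by
  classical
  have hk : F.ker = AddSubgroup.pi Set.univ (fun i => (f i).ker) := by
    ext x
    rw [AddMonoidHom.mem_ker, AddSubgroup.mem_pi]
    constructor
    · intro h i _
      rw [AddMonoidHom.mem_ker, ← hF, h]
      rfl
    · intro h
      ext i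
      rw [hF]
      exact AddMonoidHom.mem_ker.mp (h i (Set.mem_univ i))
  have hr : G.range = AddSubgroup.pi Set.univ (fun i => (g i).range) := by
    ext x
    rw [AddSubgroup.mem_pi]
    constructor
    · rintro ⟨y, rfl⟩ i _
      exact ⟨y i, (hG y i).symm⟩
    · intro h
      choose y hy using fun i => h i (Set.mem_univ i)
      refine ⟨y, ?_⟩
      ext i
      rw [hG, hy]
  unfold hq
  rw [hk, hr, hq_relIndex_pi]

end Pi

section Prod

variable {A B : Type*} [AddCommGroup A] [AddCommGroup B]

/-- Relative index of product subgroups. -/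
theorem hq_relIndex_prod (H K : AddSubgroup A) (H' K' : AddSubgroup B) :
    (H.prod H').relIndex (K.prod K') = H.relIndex K * H'.relIndex K' := by
  let φ : K × K' →+ A × B := AddMonoidHom.prodMap K.subtype K'.subtype
  have hφ : φ.range = K.prod K' := by
    ext x
    constructor
    · rintro ⟨y, rfl⟩
      exact ⟨y.1.2, y.2.2⟩
    · intro hx
      exact ⟨(⟨x.1, hx.1⟩, ⟨x.2, hx.2⟩), rfl⟩
  have hc : (H.prod H').comap φ = (H.addSubgroupOf K).prod (H'.addSubgroupOf K') := by
    ext x
    constructor
    · intro hx
      exact ⟨hx.1, hx.2⟩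
    · intro hx
      exact ⟨hx.1, hx.2⟩
  rw [← hφ, ← AddSubgroup.index_comap, hc, AddSubgroup.index_prod]
  rfl

/-- The Herbrand index of a componentwise pair of endomorphisms of a binary product. -/
theorem hq_prod (f g : A →+ A) (f' g' : B →+ B) (F G : A × B →+ A × B)
    (hF : ∀ x, F x = (f x.1, f' x.2)) (hG : ∀ x, G x = (g x.1, g' x.2)) :
    hq F G = hq f g * hq f' g' := by
  have hk : F.ker = f.ker.prod f'.ker := by
    ext x
    rw [AddMonoidHom.mem_ker, AddSubgroup.mem_prod, hF, Prod.mk_eq_zero]
    rfl
  have hr : G.range = g.range.prod g'.range := by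
    ext x
    rw [AddSubgroup.mem_prod]
    constructor
    · rintro ⟨y, rfl⟩
      rw [hG]
      exact ⟨⟨y.1, rfl⟩, ⟨y.2, rfl⟩⟩
    · rintro ⟨⟨a, ha⟩, ⟨b, hb⟩⟩
      refine ⟨(a, b), ?_⟩
      rw [hG]
      exact Prod.ext ha hb
  unfold hq
  rw [hk, hr, hq_relIndex_prod]

end Prod

end Fermat.Agent.S55
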