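import Fermat.Agent.S55.Herbrand

/-!
# Herbrand quotients of induced (semilocal) modules

* `hq_congr`: invariance of `hq` under equivariant isomorphisms.
* `hq_eq_of_diag_sum`: an abstract criterion comparing the indices `hq` of two modules.
* `hq_shapiro`: for an abelian group `B` with an endomorphism `τ`, `τ ^ d = 1`, the induced module
  `Fin (k + 1) → B` with the shift `σ` (`(σ x)₀ = τ x_k`, `(σ x)_{i+1} = x_i`, so that
  `σ ^ (k + 1) = τ` componentwise) has the same indices as `(B, τ)`: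
  `[ker (σ - 1) : im N_σ] = [ker (τ - 1) : im N_τ]` and `[ker N_σ : im (σ - 1)] =
  [ker N_τ : im (τ - 1)]`, where `N_σ = ∑_{j < (k+1) d} σ^j` and `N_τ = ∑_{l < d} τ^l`.
-/

set_option autoImplicit false

namespace Fermat.Agent.S55

open Finset

section Congr

variable {A A' : Type*} [AddCommGroup A] [AddCommGroup A']

/-- `hq` is invariant under equivariant isomorphisms. -/
theorem hq_congr (e : A ≃+ A') (f g : A →+ A) (f' g' : A' →+ A')
    (hf : ∀ a, e (f a) = f' (e a)) (hg : ∀ a, e (g a) = g' (e a)) : hq f g = hq f' g' := by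
  have e1 : g.range.map e.toAddMonoidHom = g'.range := by
    ext x
    constructor
    · rintro ⟨_, ⟨a, rfl⟩, rfl⟩
      exact ⟨e a, (hg a).symm⟩
    · rintro ⟨a', rfl⟩
      refine ⟨g (e.symm a'), ⟨_, rfl⟩, ?_⟩
      change e (g (e.symm a')) = _
      rw [hg, e.apply_symm_apply]
  have e2 : f.ker.map e.toAddMonoidHom = f'.ker := by
    ext x
    constructor
    · rintro ⟨a, ha, rfl⟩
      change f' (e a) = 0
      rw [← hf, AddMonoidHom.mem_ker.mp ha, map_zero]
    · intro hx
      refine ⟨e.symm x, ?_, e.apply_symm_apply x⟩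
      change f (e.symm x) = 0
      apply e.injective
      rw [hf, e.apply_symm_apply, map_zero]
      exact hx
  rw [hq, hq, ← e1, ← e2, AddSubgroup.relIndex_map_map_of_injective _ _ e.injective]

end Congr

section Criterion

variable {A B : Type*} [AddCommGroup A] [AddCommGroup B]

/-- Abstract comparison: if `ker fA = Δ (ker fB)`, `gA = Δ ∘ gB ∘ s` and `im fA = s⁻¹ (im fB)`
with `Δ` injective and `s` surjective, then the indices of `(A, fA, gA)` and `(B, fB, gB)`
agree. -/
theorem hq_eq_of_diag_sum (Δ : B →+ A) (s : A →+ B) (hΔ : Function.Injective Δ)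
    (hs : Function.Surjective s) (fA gA : A →+ A) (fB gB : B →+ B)
    (h1 : fA.ker = fB.ker.map Δ) (h2 : ∀ a, gA a = Δ (gB (s a)))
    (h3 : fA.range = fB.range.comap s) :
    hq fA gA = hq fB gB ∧ hq gA fA = hq gB fB := by
  have r1 : gA.range = gB.range.map Δ := by
    ext x
    constructor
    · rintro ⟨a, rfl⟩
      exact ⟨gB (s a), ⟨_, rfl⟩, (h2 a).symm⟩
    · rintro ⟨_, ⟨b, rfl⟩, rfl⟩
      obtain ⟨a, rfl⟩ := hs b
      exact ⟨a, h2 a⟩
  have r2 : gA.ker = gB.ker.comap s := by
    ext x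
    rw [AddMonoidHom.mem_ker, AddSubgroup.mem_comap, AddMonoidHom.mem_ker, h2]
    constructor
    · intro h
      apply hΔ
      rw [h, map_zero]
    · intro h
      rw [h, map_zero]
  constructor
  · rw [hq, hq, h1, r1, AddSubgroup.relIndex_map_map_of_injective _ _ hΔ]
  · rw [hq, hq, h3, r2, AddSubgroup.relIndex_comap,
      AddSubgroup.map_comap_eq_self_of_surjective hs]

end Criterion

section Model

variable {B : Type*} [AddCommGroup B]

/-- An endomorphism in the ring `AddMonoid.End M`, as a bundled additive map. -/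
def hqEndHom {M : Type*} [AddCommGroup M] (f : AddMonoid.End M) : M →+ M := f

theorem hqEndHom_apply {M : Type*} [AddCommGroup M] (f : AddMonoid.End M) (x : M) :
    hqEndHom f x = f x := rfl

theorem hq_end_mul_apply {M : Type*} [AddCommGroup M] (f g : AddMonoid.End M) (x : M) :
    (f * g) x = f (g x) := rfl

theorem hq_end_sub_apply {M : Type*} [AddCommGroup M] (f g : AddMonoid.End M) (x : M) :
    (f - g) x = f x - g x := rfl

theorem hq_end_one_apply {M : Type*} [AddCommGroup M] (x : M) :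
    (1 : AddMonoid.End M) x = x := rfl

theorem hq_end_sum_apply {M : Type*} [AddCommGroup M] {ι : Type*} (s : Finset ι)
    (f : ι → AddMonoid.End M) (x : M) : (∑ i ∈ s, f i) x = ∑ i ∈ s, f i x := by
  classical
  induction s using Finset.induction_on with
  | empty => rfl
  | insert a s ha ih =>
    rw [Finset.sum_insert ha, Finset.sum_insert ha, ← ih]
    rfl

/-- The shift on `Fin (k + 1) → B` twisted by `τ`: `(σ x)₀ = τ x_k`, `(σ x)_{i+1} = x_i`. -/
def hqShift (k : ℕ) (τ : AddMonoid.End B) : AddMonoid.End (Fin (k + 1) → B) where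
  toFun x := Fin.cons (τ (x (Fin.last k))) (fun i : Fin k => x i.castSucc)
  map_zero' := by
    ext i
    refine Fin.cases ?_ (fun j => ?_) i <;> simp
  map_add' x y := by
    ext i
    refine Fin.cases ?_ (fun j => ?_) i <;> simp

theorem hqShift_apply_zero (k : ℕ) (τ : AddMonoid.End B) (x : Fin (k + 1) → B) :
    hqShift k τ x 0 = τ (x (Fin.last k)) := rfl

theorem hqShift_apply_succ (k : ℕ) (τ : AddMonoid.End B) (x : Fin (k + 1) → B) (i : Fin k) :
    hqShift k τ x i.succ = x i.castSucc := by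
  change (Fin.cons (τ (x (Fin.last k))) (fun i : Fin k => x i.castSucc) : Fin (k + 1) → B)
    i.succ = _
  rw [Fin.cons_succ]

/-- The diagonal embedding. -/
def hqDiag (k : ℕ) : B →+ (Fin (k + 1) → B) where
  toFun b := fun _ => b
  map_zero' := rfl
  map_add' _ _ := rfl

/-- The sum of the coordinates. -/
def hqSum (k : ℕ) : (Fin (k + 1) → B) →+ B where
  toFun x := ∑ i, x i
  map_zero' := by simp
  map_add' x y := by simp [Finset.sum_add_distrib]

theorem hqDiag_injective (k : ℕ) : Function.Injective (hqDiag (B := B) k) := by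
  intro a b h
  exact congrFun h 0

theorem hqSum_single (k : ℕ) (i : Fin (k + 1)) (b : B) :
    hqSum k (Pi.single i b) = b := by
  change ∑ j, (Pi.single i b : Fin (k + 1) → B) j = b
  rw [Finset.sum_pi_single']
  simp

theorem hqSum_surjective (k : ℕ) : Function.Surjective (hqSum (B := B) k) :=
  fun b => ⟨Pi.single 0 b, hqSum_single k 0 b⟩

theorem hqShift_single_castSucc (k : ℕ) (τ : AddMonoid.End B) (i : Fin k) (b : B) :
    hqShift k τ (Pi.single i.castSucc b) = Pi.single i.succ b := by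
  ext j
  refine Fin.cases ?_ (fun l => ?_) j
  · rw [hqShift_apply_zero, Pi.single_eq_of_ne (Fin.castSucc_lt_last i).ne',
      Pi.single_eq_of_ne (Fin.succ_ne_zero i).symm, map_zero]
  · rw [hqShift_apply_succ]
    by_cases h : l = i
    · subst h
      rw [Pi.single_eq_same, Pi.single_eq_same]
    · rw [Pi.single_eq_of_ne (fun h' => h (Fin.castSucc_injective _ h')),
        Pi.single_eq_of_ne (fun h' => h (Fin.succ_injective _ h'))]

theorem hqShift_single_last (k : ℕ) (τ : AddMonoid.End B) (b : B) :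
    hqShift k τ (Pi.single (Fin.last k) b) = Pi.single 0 (τ b) := by
  ext j
  refine Fin.cases ?_ (fun l => ?_) j
  · rw [hqShift_apply_zero, Pi.single_eq_same, Pi.single_eq_same]
  · rw [hqShift_apply_succ, Pi.single_eq_of_ne (Fin.castSucc_lt_last l).ne,
      Pi.single_eq_of_ne (Fin.succ_ne_zero l)]

/-- `σ^i (single 0 b) = single i b` for `i ≤ k`. -/
theorem hqShift_pow_single_zero (k : ℕ) (τ : AddMonoid.End B) (i : Fin (k + 1)) (b : B) :
    (hqShift k τ ^ (i : ℕ)) (Pi.single 0 b) = Pi.single i b := by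
  induction i using Fin.induction with
  | zero => simp
  | succ i ih =>
    rw [Fin.val_succ, pow_succ', hq_end_mul_apply]
    have := ih
    rw [Fin.val_castSucc] at this
    rw [this, hqShift_single_castSucc]

/-- `σ^(k+1) (single 0 b) = single 0 (τ b)`. -/
theorem hqShift_pow_succ_single_zero (k : ℕ) (τ : AddMonoid.End B) (b : B) :
    (hqShift k τ ^ (k + 1)) (Pi.single 0 b) = Pi.single 0 (τ b) := by
  rw [pow_succ', hq_end_mul_apply]
  have := hqShift_pow_single_zero k τ (Fin.last k) b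
  rw [Fin.val_last] at this
  rw [this, hqShift_single_last]

/-- `(σ^(k+1))^l (single 0 b) = single 0 (τ^l b)`. -/
theorem hqShift_pow_mul_single_zero (k : ℕ) (τ : AddMonoid.End B) (l : ℕ) (b : B) :
    (hqShift k τ ^ ((k + 1) * l)) (Pi.single 0 b) = Pi.single 0 ((τ ^ l) b) := by
  induction l generalizing b with
  | zero => simp
  | succ l ih =>
    rw [mul_add, mul_one, pow_add, hq_end_mul_apply, hqShift_pow_succ_single_zero, ih,
      pow_succ, hq_end_mul_apply]

/-- `σ^((k+1) d) = 1` if `τ^d = 1`. -/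
theorem hqShift_pow_eq_one (k d : ℕ) (τ : AddMonoid.End B) (hτ : τ ^ d = 1) :
    hqShift k τ ^ ((k + 1) * d) = 1 := by
  have key : ∀ (i : Fin (k + 1)) (b : B),
      (hqShift k τ ^ ((k + 1) * d)) (Pi.single i b) = Pi.single i b := by
    intro i b
    have h1 : (Pi.single i b : Fin (k + 1) → B) = (hqShift k τ ^ (i : ℕ)) (Pi.single 0 b) :=
      (hqShift_pow_single_zero k τ i b).symm
    have h2 : (hqShift k τ ^ ((k + 1) * d)) ((hqShift k τ ^ (i : ℕ)) (Pi.single 0 b)) =
        (hqShift k τ ^ (i : ℕ)) ((hqShift k τ ^ ((k + 1) * d)) (Pi.single 0 b)) := by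
      rw [← hq_end_mul_apply, ← hq_end_mul_apply, ← pow_add, ← pow_add,
        Nat.add_comm ((k + 1) * d) (i : ℕ)]
    rw [h1, h2, hqShift_pow_mul_single_zero, hτ, hq_end_one_apply]
  exact AddMonoidHom.functions_ext _ (hqShift k τ ^ ((k + 1) * d))
    (1 : AddMonoid.End (Fin (k + 1) → B)) (fun i b => key i b)

/-- The norm of `σ` on the induced module. -/
def hqShiftNorm (k d : ℕ) (τ : AddMonoid.End B) : AddMonoid.End (Fin (k + 1) → B) :=
  ∑ j ∈ range ((k + 1) * d), hqShift k τ ^ j

/-- The norm of `τ`. -/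
def hqNormEnd (d : ℕ) (τ : AddMonoid.End B) : AddMonoid.End B :=
  ∑ l ∈ range d, τ ^ l

theorem hqShiftNorm_mul_shift (k d : ℕ) (τ : AddMonoid.End B) (hτ : τ ^ d = 1) :
    hqShiftNorm k d τ * hqShift k τ = hqShiftNorm k d τ := by
  have h := geom_sum_mul (hqShift k τ) ((k + 1) * d)
  rw [hqShift_pow_eq_one k d τ hτ, sub_self, mul_sub, mul_one, sub_eq_zero] at h
  exact h

theorem hqShiftNorm_mul_shift_pow (k d : ℕ) (τ : AddMonoid.End B) (hτ : τ ^ d = 1) (i : ℕ) :
    hqShiftNorm k d τ * hqShift k τ ^ i = hqShiftNorm k d τ := by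
  induction i with
  | zero => simp
  | succ i ih => rw [pow_succ, ← mul_assoc, ih, hqShiftNorm_mul_shift k d τ hτ]

theorem hqShiftNorm_eq_sum (k d : ℕ) (τ : AddMonoid.End B) :
    hqShiftNorm k d τ =
      ∑ l ∈ range d, ∑ i ∈ range (k + 1), hqShift k τ ^ i * hqShift k τ ^ ((k + 1) * l) := by
  unfold hqShiftNorm
  induction d with
  | zero => simp
  | succ d ih =>
    rw [mul_add, mul_one, Finset.sum_range_add, ih, Finset.sum_range_succ (n := d)]
    congr 1
    refine Finset.sum_congr rfl (fun i _ => ?_)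
    rw [← pow_add, Nat.add_comm i ((k + 1) * d)]

theorem hqShiftNorm_single_zero (k d : ℕ) (τ : AddMonoid.End B) (b : B) :
    hqShiftNorm k d τ (Pi.single 0 b) = hqDiag k (hqNormEnd d τ b) := by
  rw [hqShiftNorm_eq_sum, hqNormEnd, hq_end_sum_apply, hq_end_sum_apply, map_sum]
  refine Finset.sum_congr rfl (fun l _ => ?_)
  rw [hq_end_sum_apply]
  have h : ∀ i ∈ range (k + 1), (hqShift k τ ^ i * hqShift k τ ^ ((k + 1) * l)) (Pi.single 0 b) =
      (hqShift k τ ^ i) (Pi.single 0 ((τ ^ l) b)) := by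
    intro i _
    rw [hq_end_mul_apply, hqShift_pow_mul_single_zero]
  rw [Finset.sum_congr rfl h, Finset.sum_range (fun i => (hqShift k τ ^ i) (Pi.single 0 ((τ ^ l) b)))]
  have h' : ∀ i : Fin (k + 1), (hqShift k τ ^ (i : ℕ)) (Pi.single 0 ((τ ^ l) b)) =
      Pi.single i ((τ ^ l) b) := fun i => hqShift_pow_single_zero k τ i _
  rw [Finset.sum_congr rfl (fun i _ => h' i)]
  ext j
  rw [Finset.sum_apply, Finset.sum_pi_single]
  simp [hqDiag]

theorem hqShiftNorm_apply (k d : ℕ) (τ : AddMonoid.End B) (hτ : τ ^ d = 1)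
    (x : Fin (k + 1) → B) :
    hqShiftNorm k d τ x = hqDiag k (hqNormEnd d τ (hqSum k x)) := by
  have key1 : ∀ (i : Fin (k + 1)) (b : B),
      hqShiftNorm k d τ (Pi.single i b) = hqDiag k (hqNormEnd d τ b) := by
    intro i b
    rw [← hqShiftNorm_single_zero, ← hqShift_pow_single_zero k τ i b, ← hq_end_mul_apply,
      hqShiftNorm_mul_shift_pow k d τ hτ]
  have key : hqEndHom (hqShiftNorm k d τ) =
      ((hqDiag k).comp ((hqEndHom (hqNormEnd d τ)).comp (hqSum k))) := by
    refine AddMonoidHom.functions_ext _ _ _ (fun i b => ?_)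
    rw [AddMonoidHom.comp_apply, AddMonoidHom.comp_apply, hqSum_single, hqEndHom_apply,
      hqEndHom_apply]
    exact key1 i b
  exact DFunLike.congr_fun key x

/-- Fixed points of the shift are the diagonal images of fixed points of `τ`. -/
theorem hqShift_ker (k : ℕ) (τ : AddMonoid.End B) :
    (hqEndHom (hqShift k τ - 1)).ker = (hqEndHom (τ - 1)).ker.map (hqDiag k) := by
  ext x
  rw [AddMonoidHom.mem_ker, hqEndHom_apply, hq_end_sub_apply, hq_end_one_apply, sub_eq_zero]
  constructor
  · intro h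
    have hc : ∀ i : Fin (k + 1), x i = x 0 := by
      intro i
      induction i using Fin.induction with
      | zero => rfl
      | succ i ih =>
        rw [← ih, ← hqShift_apply_succ k τ x i, h]
    refine ⟨x 0, ?_, ?_⟩
    · rw [SetLike.mem_coe, AddMonoidHom.mem_ker, hqEndHom_apply, hq_end_sub_apply,
        hq_end_one_apply, sub_eq_zero]
      have h0 := congrFun h 0
      rw [hqShift_apply_zero, hc (Fin.last k)] at h0
      exact h0
    · ext i
      exact (hc i).symm
  · rintro ⟨b, hb, rfl⟩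
    rw [SetLike.mem_coe, AddMonoidHom.mem_ker, hqEndHom_apply, hq_end_sub_apply,
      hq_end_one_apply, sub_eq_zero] at hb
    ext i
    refine Fin.cases ?_ (fun j => ?_) i
    · rw [hqShift_apply_zero]
      exact hb
    · rw [hqShift_apply_succ]
      rfl

theorem hqSum_shift_sub (k : ℕ) (τ : AddMonoid.End B) (x : Fin (k + 1) → B) :
    hqSum k ((hqShift k τ - 1) x) = (τ - 1) (x (Fin.last k)) := by
  rw [hq_end_sub_apply, hq_end_one_apply, map_sub, hq_end_sub_apply, hq_end_one_apply]
  change ∑ i, hqShift k τ x i - ∑ i, x i = _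
  rw [Fin.sum_univ_succ, Fin.sum_univ_castSucc (f := x), hqShift_apply_zero]
  simp only [hqShift_apply_succ]
  abel

theorem hqShift_range (k : ℕ) (τ : AddMonoid.End B) :
    (hqEndHom (hqShift k τ - 1)).range = (hqEndHom (τ - 1)).range.comap (hqSum k) := by
  set R := (hqEndHom (hqShift k τ - 1)).range with hR
  have hmem : ∀ y : Fin (k + 1) → B, (hqShift k τ - 1) y ∈ R := fun y => ⟨y, rfl⟩
  -- `single i c ≡ single 0 c`
  have h1 : ∀ (i : Fin (k + 1)) (c : B),
      (Pi.single i c - Pi.single 0 c : Fin (k + 1) → B) ∈ R := by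
    intro i c
    induction i using Fin.induction with
    | zero => rw [sub_self]; exact R.zero_mem
    | succ i ih =>
      have h := hmem (Pi.single i.castSucc c)
      rw [hq_end_sub_apply, hq_end_one_apply, hqShift_single_castSucc] at h
      have := R.add_mem h ih
      rwa [sub_add_sub_cancel] at this
  have h2 : ∀ b : B, (Pi.single 0 ((τ - 1) b) : Fin (k + 1) → B) ∈ R := by
    intro b
    have h := hmem (Pi.single (Fin.last k) b)
    rw [hq_end_sub_apply, hq_end_one_apply, hqShift_single_last] at h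
    have := R.add_mem h (h1 (Fin.last k) b)
    rw [sub_add_sub_cancel] at this
    rw [hq_end_sub_apply, hq_end_one_apply, Pi.single_sub]
    exact this
  ext x
  rw [AddSubgroup.mem_comap]
  constructor
  · rintro ⟨y, rfl⟩
    exact ⟨y (Fin.last k), (hqSum_shift_sub k τ y).symm⟩
  · rintro ⟨b, hb⟩
    have hx : x - Pi.single 0 (hqSum k x) ∈ R := by
      have e1 : x = ∑ i, Pi.single i (x i) := (Finset.univ_sum_single x).symm
      have e2 : (Pi.single 0 (hqSum k x) : Fin (k + 1) → B) =
          ∑ i : Fin (k + 1), (Pi.single 0 (x i) : Fin (k + 1) → B) := by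
        change (Pi.single 0 (∑ i, x i) : Fin (k + 1) → B) = _
        exact map_sum (AddMonoidHom.single (fun _ : Fin (k + 1) => B) 0) _ _
      have e3 : x - Pi.single 0 (hqSum k x) =
          ∑ i : Fin (k + 1), ((Pi.single i (x i) : Fin (k + 1) → B) - Pi.single 0 (x i)) := by
        rw [Finset.sum_sub_distrib, ← e2, ← e1]
      rw [e3]
      exact R.sum_mem (fun i _ => h1 i (x i))
    have h3 := h2 b
    rw [← hqEndHom_apply (τ - 1), hb] at h3
    have := R.add_mem hx h3
    rwa [sub_add_cancel] at this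

/-- **Shapiro's lemma for Herbrand indices** (model form). -/
theorem hq_shapiro_model (k d : ℕ) (τ : AddMonoid.End B) (hτ : τ ^ d = 1) :
    hq (hqEndHom (hqShift k τ - 1)) (hqEndHom (hqShiftNorm k d τ)) =
        hq (hqEndHom (τ - 1)) (hqEndHom (hqNormEnd d τ)) ∧
      hq (hqEndHom (hqShiftNorm k d τ)) (hqEndHom (hqShift k τ - 1)) =
        hq (hqEndHom (hqNormEnd d τ)) (hqEndHom (τ - 1)) :=
  hq_eq_of_diag_sum (hqDiag (B := B) k) (hqSum (B := B) k) (hqDiag_injective k)
    (hqSum_surjective k) (hqEndHom (hqShift k τ - 1)) (hqEndHom (hqShiftNorm k d τ))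
    (hqEndHom (τ - 1)) (hqEndHom (hqNormEnd d τ))
    (hqShift_ker k τ) (fun x => hqShiftNorm_apply k d τ hτ x) (hqShift_range k τ)

end Model

section General

variable {A B : Type*} [AddCommGroup A] [AddCommGroup B]

theorem hq_end_pow_apply {M : Type*} [AddCommGroup M] (f : AddMonoid.End M) (n : ℕ) (x : M) :
    (f ^ n) x = (⇑f)^[n] x := by
  induction n generalizing x with
  | zero => rfl
  | succ n ih => rw [pow_succ, hq_end_mul_apply, ih, Function.iterate_succ_apply]

/-- **Shapiro's lemma for Herbrand indices.**  Let `σ` be an endomorphism of `A`, `ι : B → A`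
additive and `τ` an endomorphism of `B` with `σ^(k+1) ∘ ι = ι ∘ τ`, `τ^d = 1`, such that
`A = ⨁_{i ≤ k} σ^i (ι B)`.  Then the Herbrand indices of `(A, σ - 1, ∑_{j < (k+1) d} σ^j)` and
`(B, τ - 1, ∑_{l < d} τ^l)` agree. -/
theorem hq_shapiro (k d : ℕ) (σ : A →+ A) (τ : B →+ B) (ι : B →+ A)
    (hστ : ∀ b, (⇑σ)^[k + 1] (ι b) = ι (τ b)) (hτ : ∀ b, (⇑τ)^[d] b = b)
    (hdec : Function.Bijective
      (fun x : Fin (k + 1) → B => ∑ i : Fin (k + 1), (⇑σ)^[(i : ℕ)] (ι (x i))))
    (DA NA : A →+ A) (DB NB : B →+ B)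
    (hDA : ∀ a, DA a = σ a - a) (hNA : ∀ a, NA a = ∑ j ∈ range ((k + 1) * d), (⇑σ)^[j] a)
    (hDB : ∀ b, DB b = τ b - b) (hNB : ∀ b, NB b = ∑ l ∈ range d, (⇑τ)^[l] b) :
    hq DA NA = hq DB NB ∧ hq NA DA = hq NB DB := by
  -- the comparison isomorphism
  let e₀ : (Fin (k + 1) → B) →+ A :=
    { toFun := fun x => ∑ i : Fin (k + 1), (⇑σ)^[(i : ℕ)] (ι (x i))
      map_zero' := by simp
      map_add' := fun x y => by simp [Finset.sum_add_distrib] }
  let e : (Fin (k + 1) → B) ≃+ A := AddEquiv.ofBijective e₀ hdec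
  have he : ∀ x, e x = ∑ i : Fin (k + 1), (⇑σ)^[(i : ℕ)] (ι (x i)) := fun x => rfl
  let τ' : AddMonoid.End B := τ
  have hτ'app : ∀ b, τ' b = τ b := fun b => rfl
  have hτ' : τ' ^ d = 1 := by
    refine AddMonoidHom.ext (fun b => ?_)
    exact (hq_end_pow_apply τ' d b).trans (hτ b)
  -- equivariance
  have hshift : ∀ x, e (hqShift k τ' x) = σ (e x) := by
    intro x
    rw [he, he, Fin.sum_univ_succ, map_sum, Fin.sum_univ_castSucc (n := k)]
    rw [hqShift_apply_zero, Fin.val_zero, Function.iterate_zero_apply, hτ'app, ← hστ,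
      Fin.val_last, ← Function.iterate_succ_apply' (⇑σ) k, add_comm]
    congr 1
    refine Finset.sum_congr rfl (fun i _ => ?_)
    rw [hqShift_apply_succ, Fin.val_succ, Fin.val_castSucc, Function.iterate_succ_apply']
  have hshiftpow : ∀ (j : ℕ) x, e ((hqShift k τ' ^ j) x) = (⇑σ)^[j] (e x) := by
    intro j
    induction j with
    | zero => intro x; rfl
    | succ j ih =>
      intro x
      rw [pow_succ', hq_end_mul_apply, hshift, ih, Function.iterate_succ_apply']
  have hD : ∀ x, e (hqEndHom (hqShift k τ' - 1) x) = DA (e x) := by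
    intro x
    rw [hqEndHom_apply, hq_end_sub_apply, hq_end_one_apply, map_sub, hshift, hDA]
  have hN : ∀ x, e (hqEndHom (hqShiftNorm k d τ') x) = NA (e x) := by
    intro x
    rw [hqEndHom_apply, hqShiftNorm, hq_end_sum_apply, map_sum, hNA]
    exact Finset.sum_congr rfl (fun j _ => hshiftpow j x)
  have hDB' : hqEndHom (τ' - 1) = DB := by
    refine AddMonoidHom.ext (fun b => ?_)
    rw [hqEndHom_apply, hq_end_sub_apply, hq_end_one_apply, hDB]
    rfl
  have hNB' : hqEndHom (hqNormEnd d τ') = NB := by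
    refine AddMonoidHom.ext (fun b => ?_)
    rw [hqEndHom_apply, hqNormEnd, hq_end_sum_apply, hNB]
    exact Finset.sum_congr rfl (fun l _ => hq_end_pow_apply τ' l b)
  have hm := hq_shapiro_model k d τ' hτ'
  rw [hDB', hNB'] at hm
  rw [← hm.1, ← hm.2]
  exact ⟨(hq_congr e _ _ _ _ hD hN).symm, (hq_congr e _ _ _ _ hN hD).symm⟩

/-- Trivial action on `ℤ`: `[ker 0 : im d] = d`. -/
theorem hq_int_zero_mul (d : ℕ) :
    hq (0 : ℤ →+ ℤ) (AddMonoidHom.mulLeft (d : ℤ)) = d := by
  unfold hq
  rw [AddMonoidHom.ker_zero, AddSubgroup.relIndex_top_right]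
  have h : (AddMonoidHom.mulLeft (d : ℤ)).range = AddSubgroup.zmultiples (d : ℤ) := by
    ext x
    rw [AddMonoidHom.mem_range, Int.mem_zmultiples_iff]
    constructor
    · rintro ⟨y, rfl⟩
      exact ⟨y, rfl⟩
    · rintro ⟨y, rfl⟩
      exact ⟨y, rfl⟩
  rw [h, Int.index_zmultiples, Int.natAbs_natCast]

/-- Trivial action on `ℤ`: `[ker d : im 0] = 1` for `d ≠ 0`. -/
theorem hq_int_mul_zero (d : ℕ) (hd : d ≠ 0) :
    hq (AddMonoidHom.mulLeft (d : ℤ)) (0 : ℤ →+ ℤ) = 1 := by
  unfold hq
  rw [AddMonoidHom.range_zero, AddSubgroup.relIndex_bot_left]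
  have h : (AddMonoidHom.mulLeft (d : ℤ)).ker = ⊥ := by
    rw [eq_bot_iff]
    intro x hx
    rw [AddMonoidHom.mem_ker] at hx
    change (d : ℤ) * x = 0 at hx
    rcases mul_eq_zero.mp hx with h | h
    · exact absurd (Int.natCast_eq_zero.mp h) hd
    · exact h
  rw [h]
  simp

end General

end Fermat.Agent.S55
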