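import Mathlib
import Fermat.Prelude.Def_GroupCohomology_ContinuousUnramified

/-!
# S55: unfolding `sha₁` and `sha₂` to cocycle level

* the archimedean local conditions are vacuous for odd `p` (finite group of order prime to `p`);
* cocycle-level characterisations of membership in `sha₁ S A` and `sha₂ S M`.
-/

set_option autoImplicit false
set_option maxHeartbeats 400000

open CategoryTheory groupCohomology ExtCitation

namespace Fermat.Agent.S55

/-- On a finite group whose order is invertible in `k`, every 1-cocycle is a coboundary. -/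
theorem cocycle₁_coboundary_of_finite {k G : Type} [Field k] [Group G] [Finite G]
    (A : Rep k G) (hG : (Nat.card G : k) ≠ 0) (c : G → A)
    (hc : ∀ g h, c (g * h) = A.ρ g (c h) + c g) :
    ∃ a : A, ∀ g, c g = A.ρ g a - a := by
  classical
  have : Fintype G := Fintype.ofFinite G
  refine ⟨-((Nat.card G : k)⁻¹ • ∑ h : G, c h), fun g => ?_⟩
  have hsum : ∑ h : G, c (g * h) = ∑ h : G, c h :=
    Fintype.sum_equiv (Equiv.mulLeft g) _ _ (fun h => rfl)
  have h2 : ∑ h : G, c h = A.ρ g (∑ h : G, c h) + (Nat.card G : k) • c g := by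
    calc ∑ h : G, c h = ∑ h : G, c (g * h) := hsum.symm
      _ = ∑ h : G, (A.ρ g (c h) + c g) := Finset.sum_congr rfl (fun h _ => hc g h)
      _ = A.ρ g (∑ h : G, c h) + (Nat.card G : k) • c g := by
          rw [Finset.sum_add_distrib, map_sum, Finset.sum_const, Finset.card_univ,
            Nat.card_eq_fintype_card, Nat.cast_smul_eq_nsmul]
  have h3 : c g = (Nat.card G : k)⁻¹ • (∑ h : G, c h - A.ρ g (∑ h : G, c h)) := by
    rw [eq_inv_smul_iff₀ hG, eq_sub_iff_add_eq, add_comm]
    exact h2.symm
  rw [h3, map_neg, map_smul, smul_sub]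
  abel

/-- On a finite group whose order is invertible in `k`, every 2-cocycle is a coboundary. -/
theorem cocycle₂_coboundary_of_finite {k G : Type} [Field k] [Group G] [Finite G]
    (A : Rep k G) (hG : (Nat.card G : k) ≠ 0) (f : G × G → A)
    (hf : ∀ g h j, f (g * h, j) + f (g, h) = A.ρ g (f (h, j)) + f (g, h * j)) :
    ∃ y : G → A, ∀ g h, f (g, h) = A.ρ g (y h) - y (g * h) + y g := by
  classical
  have : Fintype G := Fintype.ofFinite G
  refine ⟨fun g => (Nat.card G : k)⁻¹ • ∑ j : G, f (g, j), fun g h => ?_⟩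
  have hsum : ∑ j : G, f (g, h * j) = ∑ j : G, f (g, j) :=
    Fintype.sum_equiv (Equiv.mulLeft h) _ _ (fun j => rfl)
  have h2 : ∑ j : G, f (g * h, j) + (Nat.card G : k) • f (g, h)
      = A.ρ g (∑ j : G, f (h, j)) + ∑ j : G, f (g, j) := by
    calc ∑ j : G, f (g * h, j) + (Nat.card G : k) • f (g, h)
        = ∑ j : G, (f (g * h, j) + f (g, h)) := by
          rw [Finset.sum_add_distrib, Finset.sum_const, Finset.card_univ,
            Nat.card_eq_fintype_card, Nat.cast_smul_eq_nsmul]
      _ = ∑ j : G, (A.ρ g (f (h, j)) + f (g, h * j)) :=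
          Finset.sum_congr rfl (fun j _ => hf g h j)
      _ = A.ρ g (∑ j : G, f (h, j)) + ∑ j : G, f (g, j) := by
          rw [Finset.sum_add_distrib, map_sum, hsum]
  have h3 : f (g, h) = (Nat.card G : k)⁻¹ •
      (A.ρ g (∑ j : G, f (h, j)) + ∑ j : G, f (g, j) - ∑ j : G, f (g * h, j)) := by
    rw [eq_inv_smul_iff₀ hG, eq_sub_iff_add_eq, add_comm]
    exact h2
  simp only
  rw [h3, map_smul, smul_sub, smul_add]
  abel

/-- Complex conjugation is not the identity of `Gal(ℚ̄/ℚ)`: it moves a square root of `-1`. -/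
theorem exists_complexConjugation_ne :
    ∃ x : AlgebraicClosure ℚ, complexConjugation x ≠ x := by
  obtain ⟨x, hx⟩ := IsAlgClosed.exists_pow_nat_eq (-1 : AlgebraicClosure ℚ) (n := 2) (by norm_num)
  refine ⟨x, fun h => ?_⟩
  have h1 := complexEmbedding_complexConjugation x
  rw [h] at h1
  have h2 : (complexEmbedding x) ^ 2 = -1 := by
    rw [← map_pow, hx, map_neg, map_one]
  have h3 : (complexEmbedding x).im = 0 := Complex.conj_eq_iff_im.1 h1.symm
  have h4 : ((complexEmbedding x) ^ 2).re = -1 := by rw [h2]; simp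
  rw [sq, Complex.mul_re, h3] at h4
  nlinarith [mul_self_nonneg (complexEmbedding x).re]

theorem finite_archimedeanDecomposition : Finite ↥archimedeanDecomposition := by
  have h : IsOfFinOrder complexConjugation :=
    isOfFinOrder_iff_pow_eq_one.2 ⟨2, by norm_num, complexConjugation_sq⟩
  exact (Set.finite_coe_iff.2 h.finite_zpowers)

theorem natCard_archimedeanDecomposition_dvd : Nat.card ↥archimedeanDecomposition ∣ 2 := by
  have : Nat.card ↥archimedeanDecomposition = orderOf complexConjugation :=
    Nat.card_zpowers complexConjugation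
  rw [this]
  exact orderOf_dvd_of_pow_eq_one complexConjugation_sq

theorem natCard_archimedeanDecomposition_ne_zero {p : ℕ} [Fact p.Prime] (hp2 : p ≠ 2) :
    (Nat.card ↥archimedeanDecomposition : ZMod p) ≠ 0 := by
  intro h
  rw [ZMod.natCast_eq_zero_iff] at h
  have h2 : p ∣ 2 := h.trans natCard_archimedeanDecomposition_dvd
  have hp : p.Prime := Fact.out
  exact hp2 ((Nat.prime_dvd_prime_iff_eq hp Nat.prime_two).1 h2)

/-- Every function on the archimedean decomposition group is level-constant. -/
theorem isLevelConstant₁_archimedean {X : Type*} (y : ↥archimedeanDecomposition → X) :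
    IsLevelConstant₁ archimedeanLoc y := by
  obtain ⟨x, hx⟩ := exists_complexConjugation_ne
  have hint : IsIntegral ℚ x := (AlgebraicClosure.isAlgebraic ℚ).isIntegral.isIntegral x
  refine ⟨IntermediateField.adjoin ℚ {x}, IntermediateField.adjoin.finiteDimensional hint,
    fun g s hs => ?_⟩
  suffices hs1 : s = 1 by rw [hs1, mul_one]
  obtain ⟨s, hsmem⟩ := s
  obtain ⟨n, rfl⟩ := Subgroup.mem_zpowers_iff.1 hsmem
  have hfix : (complexConjugation ^ n) x = x := by
    have := (IntermediateField.mem_fixingSubgroup_iff _ _).1 hs x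
      (IntermediateField.mem_adjoin_simple_self ℚ x)
    simpa [archimedeanLoc] using this
  apply Subtype.ext
  change complexConjugation ^ n = 1
  rcases Int.even_or_odd n with ⟨m, rfl⟩ | ⟨m, rfl⟩
  · rw [← two_mul, zpow_mul, zpow_ofNat, complexConjugation_sq, one_zpow]
  · exfalso
    apply hx
    have h1 : complexConjugation ^ (2 * m + 1) = complexConjugation := by
      rw [zpow_add, zpow_mul, zpow_ofNat, complexConjugation_sq, one_zpow, one_mul, zpow_one]
    rw [h1] at hfix
    exact hfix

/-- The archimedean local `H¹` vanishes for odd `p`. -/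
theorem locRes_archimedean_eq_zero {p : ℕ} [Fact p.Prime] (hp2 : p ≠ 2)
    (A : Rep (ZMod p) (AlgebraicClosure ℚ ≃ₐ[ℚ] AlgebraicClosure ℚ))
    (x : H1 (Rep.res archimedeanLoc A)) : x = 0 := by
  have := finite_archimedeanDecomposition
  induction x using H1_induction_on with | @h c =>
  rw [H1π_eq_zero_iff]
  obtain ⟨a, ha⟩ := cocycle₁_coboundary_of_finite (Rep.res archimedeanLoc A)
    (natCard_archimedeanDecomposition_ne_zero hp2) c
    (fun g h => (mem_cocycles₁_iff (A := Rep.res archimedeanLoc A) c).1 c.2 g h)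
  exact ⟨a, funext fun g => (ha g).symm⟩

/-- The archimedean local continuous `H²` vanishes for odd `p`. -/
theorem continuousH2_archimedean_eq_zero {p : ℕ} [Fact p.Prime] (hp2 : p ≠ 2)
    (M : Rep (ZMod p) (AlgebraicClosure ℚ ≃ₐ[ℚ] AlgebraicClosure ℚ))
    (x : continuousH2 archimedeanLoc (Rep.res archimedeanLoc M)) : x = 0 := by
  have := finite_archimedeanDecomposition
  obtain ⟨f, rfl⟩ := Submodule.mkQ_surjective _ x
  change continuousH2π archimedeanLoc (Rep.res archimedeanLoc M) f = 0
  rw [continuousH2π_eq_zero_iff, mem_levelCoboundaries₂_iff]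
  obtain ⟨y, hy⟩ := cocycle₂_coboundary_of_finite (Rep.res archimedeanLoc M)
    (natCard_archimedeanDecomposition_ne_zero hp2) (f : _ → _)
    (fun g h j => (mem_cocycles₂_iff (A := Rep.res archimedeanLoc M) _).1 f.2.1 g h j)
  refine ⟨y, isLevelConstant₁_archimedean y, funext fun ⟨g, h⟩ => ?_⟩
  rw [d₁₂_hom_apply]
  exact (hy g h).symm

/-- Cocycle-level description of `sha₁` (odd `p`): a class is in `sha₁ S A` iff it is
represented by an `S`-level-constant cocycle whose restriction to every local Galois group at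
`q ∈ S` is the coboundary of an element of `A`. -/
theorem mem_sha₁_iff {p : ℕ} [Fact p.Prime] (hp2 : p ≠ 2) (S : Finset Nat.Primes)
    (A : Rep (ZMod p) (AlgebraicClosure ℚ ≃ₐ[ℚ] AlgebraicClosure ℚ)) (x : H1 A) :
    x ∈ sha₁ S A ↔ ∃ c : cocycles₁ A, IsLevelConstantS₁ S c ∧ (H1π A).hom c = x ∧
      ∀ q : ↥S, ∃ a : A, ∀ g : primeLocalGaloisGroup q.1,
        c (primeLocalToGlobal q.1 g) = A.ρ (primeLocalToGlobal q.1 g) a - a := by
  have key : ∀ (c : cocycles₁ A) (q : ↥S),
      (locRes (extArithLoc S) A (Sum.inr q)).hom ((H1π A).hom c) = 0 ↔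
        ∃ a : A, ∀ g : primeLocalGaloisGroup q.1,
          c (primeLocalToGlobal q.1 g) = A.ρ (primeLocalToGlobal q.1 g) a - a := by
    intro c q
    have h1 : (locRes (extArithLoc S) A (Sum.inr q)).hom ((H1π A).hom c)
        = (H1π (Rep.res (primeLocalToGlobal q.1) A)).hom
            (mapCocycles₁ (primeLocalToGlobal q.1) (𝟙 (Rep.res (primeLocalToGlobal q.1) A)) c) :=
      H1π_comp_map_apply (primeLocalToGlobal q.1) (𝟙 (Rep.res (primeLocalToGlobal q.1) A)) c
    rw [h1]
    erw [H1π_eq_zero_iff]
    constructor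
    · rintro ⟨a, ha⟩
      refine ⟨a, fun g => ?_⟩
      have := congrFun ha g
      rw [coe_mapCocycles₁] at this
      exact this.symm
    · rintro ⟨a, ha⟩
      refine ⟨a, funext fun g => ?_⟩
      rw [coe_mapCocycles₁]
      exact (ha g).symm
  constructor
  · intro hx
    obtain ⟨hx1, hx2⟩ := hx
    obtain ⟨c, hc, rfl⟩ := (mem_continuousH1S_iff S A x).1 hx1
    refine ⟨c, hc, rfl, fun q => ?_⟩
    have hx2' : locTotal (extArithLoc S) A ((H1π A).hom c) = 0 := hx2
    have := congrFun hx2' (Sum.inr q)
    exact (key c q).1 this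
  · rintro ⟨c, hc, rfl, hq⟩
    refine ⟨(mem_continuousH1S_iff S A _).2 ⟨c, hc, rfl⟩, ?_⟩
    change locTotal (extArithLoc S) A ((H1π A).hom c) = 0
    funext v
    rcases v with u | q
    · exact locRes_archimedean_eq_zero hp2 A _
    · exact (key c q).2 (hq q)

/-- Cocycle-level description of `sha₂` (odd `p`): the class of an `S`-level-constant
2-cocycle `f` lies in `sha₂ S M` iff for every `q ∈ S` the restriction of `f` to the local
Galois group at `q` is the coboundary of a level-constant 1-cochain. -/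
theorem mk_mem_sha₂_iff {p : ℕ} [Fact p.Prime] (hp2 : p ≠ 2) (S : Finset Nat.Primes)
    (M : Rep (ZMod p) (AlgebraicClosure ℚ ≃ₐ[ℚ] AlgebraicClosure ℚ))
    (f : ↥(levelCocyclesS₂ S M)) :
    continuousH2Sπ S M f ∈ sha₂ S M ↔
      ∀ q : ↥S, ∃ y : primeLocalGaloisGroup q.1 → M,
        IsLevelConstant₁ (primeLocalToGlobal q.1) y ∧
        ∀ g h : primeLocalGaloisGroup q.1,
          (f : _ → M) (primeLocalToGlobal q.1 g, primeLocalToGlobal q.1 h)
            = M.ρ (primeLocalToGlobal q.1 g) (y h) - y (g * h) + y g := by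
  have key : ∀ q : ↥S, locRes₂S S M (primeLocalToGlobal q.1) (continuousH2Sπ S M f) = 0 ↔
      ∃ y : primeLocalGaloisGroup q.1 → M,
        IsLevelConstant₁ (primeLocalToGlobal q.1) y ∧
        ∀ g h : primeLocalGaloisGroup q.1,
          (f : _ → M) (primeLocalToGlobal q.1 g, primeLocalToGlobal q.1 h)
            = M.ρ (primeLocalToGlobal q.1 g) (y h) - y (g * h) + y g := by
    intro q
    change continuousH2π (primeLocalToGlobal q.1) (Rep.res (primeLocalToGlobal q.1) M) _ = 0 ↔ _
    rw [continuousH2π_eq_zero_iff, mem_levelCoboundaries₂_iff]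
    constructor
    · rintro ⟨y, hy, hd⟩
      refine ⟨y, hy, fun g h => ?_⟩
      have := congrFun hd (g, h)
      rw [d₁₂_hom_apply] at this
      exact this.symm
    · rintro ⟨y, hy, hd⟩
      refine ⟨y, hy, funext fun ⟨g, h⟩ => ?_⟩
      rw [d₁₂_hom_apply]
      exact (hd g h).symm
  constructor
  · intro h q
    have h' : locTotal₂S S M (continuousH2Sπ S M f) = 0 := h
    have := congrFun h' (Sum.inr q)
    exact (key q).1 this
  · intro h
    change locTotal₂S S M (continuousH2Sπ S M f) = 0
    funext v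
    rcases v with u | q
    · exact continuousH2_archimedean_eq_zero hp2 M _
    · exact (key q).2 (h q)

/-- Every element of `continuousH2S S M` is the class of an `S`-level-constant 2-cocycle. -/
theorem continuousH2Sπ_surjective (S : Finset Nat.Primes) {k : Type} [CommRing k]
    (M : Rep k (AlgebraicClosure ℚ ≃ₐ[ℚ] AlgebraicClosure ℚ)) :
    Function.Surjective (continuousH2Sπ S M) :=
  Submodule.mkQ_surjective _

end Fermat.Agent.S55
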