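/-
S55 interface, part 4 (helper26): the boundary theorem.

* `pt_endgame` : abstract linear algebra — two "compact support" pairings which agree, kill
  coboundaries and are surjective onto duals give a pairing `sha1 × sha2 → k` nondegenerate on
  both sides (no finite-dimensionality needed).
* `pt_Z1`, `pt_Zc1`, `pt_Zc2` : (cone) cocycle spaces in the frozen Prelude conventions.
* `pt_boundary` : the conclusion of S55 for `(M', M)` from pairings
  `β : Z_c²(M) × Z¹(M') → 𝔽_p`, `β' : Z_c¹(M') × Z²(M) → 𝔽_p` with five formal properties.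
-/
import Mathlib
import Fermat.Agent.S55.Unfold

set_option autoImplicit false

namespace Fermat.Agent.S55

/-- Abstract endgame of the Poitou–Tate argument: from two "compact support" pairings
`β : X2 × V1 → k`, `β' : X1 × V2 → k` which agree on `X2 × X1` (`hsym`), kill coboundaries in the
second variable and are "surjective onto the duals" of `V1 / ker π1`, `V2 / ker π2`, one gets a
pairing between `sha1 = π1 (j1 X1)` and `sha2 = π2 (j2 X2)` which is nondegenerate on both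
sides. -/
theorem pt_endgame {k : Type*} [Field k] {H1 H2 V1 V2 X1 X2 : Type*}
    [AddCommGroup H1] [Module k H1] [AddCommGroup H2] [Module k H2]
    [AddCommGroup V1] [Module k V1] [AddCommGroup V2] [Module k V2]
    [AddCommGroup X1] [Module k X1] [AddCommGroup X2] [Module k X2]
    (π1 : V1 →ₗ[k] H1) (π2 : V2 →ₗ[k] H2) (j1 : X1 →ₗ[k] V1) (j2 : X2 →ₗ[k] V2)
    (sha1 : Submodule k H1) (sha2 : Submodule k H2)
    (hsha1 : ∀ y, y ∈ sha1 ↔ ∃ x : X1, π1 (j1 x) = y)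
    (hsha2 : ∀ y, y ∈ sha2 ↔ ∃ x : X2, π2 (j2 x) = y)
    (β : X2 →ₗ[k] V1 →ₗ[k] k) (β' : X1 →ₗ[k] V2 →ₗ[k] k)
    (hβ : ∀ x a, π1 a = 0 → β x a = 0) (hβ' : ∀ x a, π2 a = 0 → β' x a = 0)
    (hsym : ∀ x x', β x (j1 x') = β' x' (j2 x))
    (hsurj2 : ∀ φ : V1 →ₗ[k] k, (∀ a, π1 a = 0 → φ a = 0) → ∃ x : X2, ∀ a, φ a = β x a)
    (hsurj1 : ∀ ψ : V2 →ₗ[k] k, (∀ a, π2 a = 0 → ψ a = 0) → ∃ x : X1, ∀ a, ψ a = β' x a) :
    ∃ B : sha1 →ₗ[k] sha2 →ₗ[k] k,
      (∀ y, (∀ x, B y x = 0) → y = 0) ∧ (∀ x, (∀ y, B y x = 0) → x = 0) := by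
  classical
  -- linear sections of the two surjections onto `sha1`, `sha2`
  let f1 : X1 →ₗ[k] sha1 := (π1 ∘ₗ j1).codRestrict sha1 (fun x => (hsha1 _).mpr ⟨x, rfl⟩)
  let f2 : X2 →ₗ[k] sha2 := (π2 ∘ₗ j2).codRestrict sha2 (fun x => (hsha2 _).mpr ⟨x, rfl⟩)
  have hf1 : Function.Surjective f1 := by
    rintro ⟨y, hy⟩
    obtain ⟨x, hx⟩ := (hsha1 y).mp hy
    exact ⟨x, Subtype.ext hx⟩
  have hf2 : Function.Surjective f2 := by
    rintro ⟨y, hy⟩
    obtain ⟨x, hx⟩ := (hsha2 y).mp hy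
    exact ⟨x, Subtype.ext hx⟩
  obtain ⟨s1, hs1⟩ := f1.exists_rightInverse_of_surjective (LinearMap.range_eq_top.mpr hf1)
  obtain ⟨s2, hs2⟩ := f2.exists_rightInverse_of_surjective (LinearMap.range_eq_top.mpr hf2)
  have hs1' : ∀ y : sha1, π1 (j1 (s1 y)) = (y : H1) := fun y => by
    have := congrArg (fun g : sha1 →ₗ[k] sha1 => ((g y : sha1) : H1)) hs1
    simpa [f1] using this
  have hs2' : ∀ x : sha2, π2 (j2 (s2 x)) = (x : H2) := fun x => by
    have := congrArg (fun g : sha2 →ₗ[k] sha2 => ((g x : sha2) : H2)) hs2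
    simpa [f2] using this
  -- the pairing
  let B : sha1 →ₗ[k] sha2 →ₗ[k] k := (β.compl₁₂ s2 (j1 ∘ₗ s1)).flip
  have hB : ∀ y x, B y x = β (s2 x) (j1 (s1 y)) := fun y x => rfl
  -- independence of the choices
  have key1 : ∀ (x : X2) (x' x'' : X1), π1 (j1 x') = π1 (j1 x'') → β x (j1 x') = β x (j1 x'') := by
    intro x x' x'' h
    have h0 : β x (j1 x' - j1 x'') = 0 := hβ x _ (by rw [map_sub, h, sub_self])
    rw [map_sub, sub_eq_zero] at h0
    exact h0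
  have key2 : ∀ (x' : X1) (x x₀ : X2), π2 (j2 x) = π2 (j2 x₀) → β' x' (j2 x) = β' x' (j2 x₀) := by
    intro x' x x₀ h
    have h0 : β' x' (j2 x - j2 x₀) = 0 := hβ' x' _ (by rw [map_sub, h, sub_self])
    rw [map_sub, sub_eq_zero] at h0
    exact h0
  refine ⟨B, ?_, ?_⟩
  · intro y hy
    by_contra hne
    have hne' : (y : H1) ≠ 0 := fun h => hne (Subtype.ext h)
    obtain ⟨ψ, hψ⟩ : ∃ ψ : Module.Dual k H1, ψ (y : H1) ≠ 0 := by
      by_contra hcon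
      push Not at hcon
      exact hne' ((Module.forall_dual_apply_eq_zero_iff k (y : H1)).mp hcon)
    obtain ⟨x₀, hx₀⟩ := hsurj2 (ψ ∘ₗ π1) (fun a ha => by
      rw [LinearMap.comp_apply, ha, map_zero])
    have h1 := hy (f2 x₀)
    rw [hB, hsym] at h1
    have h2 : π2 (j2 (s2 (f2 x₀))) = π2 (j2 x₀) := by
      rw [hs2']
      rfl
    rw [key2 _ _ _ h2, ← hsym, ← hx₀, LinearMap.comp_apply, hs1'] at h1
    exact hψ h1
  · intro x hx
    by_contra hne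
    have hne' : (x : H2) ≠ 0 := fun h => hne (Subtype.ext h)
    obtain ⟨ψ, hψ⟩ : ∃ ψ : Module.Dual k H2, ψ (x : H2) ≠ 0 := by
      by_contra hcon
      push Not at hcon
      exact hne' ((Module.forall_dual_apply_eq_zero_iff k (x : H2)).mp hcon)
    obtain ⟨x₀, hx₀⟩ := hsurj1 (ψ ∘ₗ π2) (fun a ha => by
      rw [LinearMap.comp_apply, ha, map_zero])
    have h1 := hx (f1 x₀)
    rw [hB] at h1
    have h2 : π1 (j1 (s1 (f1 x₀))) = π1 (j1 x₀) := by
      rw [hs1']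
      rfl
    rw [key1 _ _ _ h2, hsym, ← hx₀, LinearMap.comp_apply, hs2'] at h1
    exact hψ h1

open CategoryTheory groupCohomology ExtCitation

local notation "Γ" => (AlgebraicClosure ℚ ≃ₐ[ℚ] AlgebraicClosure ℚ)

noncomputable section Boundary

variable (S : Finset Nat.Primes) {k : Type} [CommRing k]

/-- `S`-level-constant 1-cocycles of `A`, as a submodule of `Γ → A`. -/
def pt_Z1 (A : Rep k Γ) : Submodule k (Γ → A) := cocycles₁ A ⊓ levelCochainsS₁ S A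

/-- The class of an `S`-level-constant 1-cocycle in `H1 A`. -/
def pt_Z1π (A : Rep k Γ) : ↥(pt_Z1 S A) →ₗ[k] H1 A :=
  (H1π A).hom ∘ₗ Submodule.inclusion inf_le_left

/-- Cone 1-cocycles: an `S`-level-constant 1-cocycle `c` together with, for every `q ∈ S`, an
element `a q` of `A` whose coboundary is the restriction of `c` to the local group at `q`. -/
def pt_Zc1 (A : Rep k Γ) : Submodule k ((Γ → A) × (↥S → A)) where
  carrier := {x | x.1 ∈ pt_Z1 S A ∧ ∀ (q : ↥S) (g : primeLocalGaloisGroup q.1),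
    x.1 (primeLocalToGlobal q.1 g) = A.ρ (primeLocalToGlobal q.1 g) (x.2 q) - x.2 q}
  add_mem' := by
    rintro x y ⟨hx1, hx2⟩ ⟨hy1, hy2⟩
    refine ⟨add_mem hx1 hy1, fun q g => ?_⟩
    simp only [Prod.fst_add, Prod.snd_add, Pi.add_apply, hx2 q g, hy2 q g, map_add]
    abel
  zero_mem' := by
    refine ⟨zero_mem _, fun q g => ?_⟩
    simp
  smul_mem' := by
    rintro c x ⟨hx1, hx2⟩
    refine ⟨Submodule.smul_mem _ c hx1, fun q g => ?_⟩
    simp only [Prod.smul_fst, Prod.smul_snd, Pi.smul_apply, hx2 q g, map_smul, smul_sub]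

/-- The global component of a cone 1-cocycle. -/
def pt_Zc1fst (A : Rep k Γ) : ↥(pt_Zc1 S A) →ₗ[k] ↥(pt_Z1 S A) :=
  (LinearMap.fst k (Γ → A) (↥S → A) ∘ₗ (pt_Zc1 S A).subtype).codRestrict (pt_Z1 S A)
    (fun x => x.2.1)

/-- Cone 2-cocycles: an `S`-level-constant 2-cocycle `f` together with, for every `q ∈ S`, a
level-constant 1-cochain `y q` on the local group at `q` whose coboundary is the restriction of
`f`. -/
def pt_Zc2 (M : Rep k Γ) :
    Submodule k ((Γ × Γ → M) × (∀ q : ↥S, primeLocalGaloisGroup q.1 → M)) where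
  carrier := {x | x.1 ∈ levelCocyclesS₂ S M ∧ ∀ q : ↥S,
    IsLevelConstant₁ (primeLocalToGlobal q.1) (x.2 q) ∧
    ∀ g h : primeLocalGaloisGroup q.1,
      x.1 (primeLocalToGlobal q.1 g, primeLocalToGlobal q.1 h) =
        M.ρ (primeLocalToGlobal q.1 g) (x.2 q h) - x.2 q (g * h) + x.2 q g}
  add_mem' := by
    rintro x y ⟨hx1, hx2⟩ ⟨hy1, hy2⟩
    refine ⟨add_mem hx1 hy1, fun q => ⟨(hx2 q).1.add (hy2 q).1, fun g h => ?_⟩⟩
    show x.1 (primeLocalToGlobal q.1 g, primeLocalToGlobal q.1 h) +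
        y.1 (primeLocalToGlobal q.1 g, primeLocalToGlobal q.1 h) =
      M.ρ (primeLocalToGlobal q.1 g) (x.2 q h + y.2 q h) - (x.2 q (g * h) + y.2 q (g * h)) +
        (x.2 q g + y.2 q g)
    rw [(hx2 q).2 g h, (hy2 q).2 g h, map_add]
    abel
  zero_mem' := by
    refine ⟨zero_mem _, fun q => ⟨isLevelConstant₁_const _ (0 : M), fun g h => ?_⟩⟩
    simp
  smul_mem' := by
    rintro c x ⟨hx1, hx2⟩
    refine ⟨Submodule.smul_mem _ c hx1, fun q => ⟨(hx2 q).1.comp (c • ·), fun g h => ?_⟩⟩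
    show c • x.1 (primeLocalToGlobal q.1 g, primeLocalToGlobal q.1 h) =
      M.ρ (primeLocalToGlobal q.1 g) (c • x.2 q h) - c • x.2 q (g * h) + c • x.2 q g
    rw [(hx2 q).2 g h, map_smul, smul_add, smul_sub]

/-- The global component of a cone 2-cocycle. -/
def pt_Zc2fst (M : Rep k Γ) : ↥(pt_Zc2 S M) →ₗ[k] ↥(levelCocyclesS₂ S M) :=
  (LinearMap.fst k (Γ × Γ → M) (∀ q : ↥S, primeLocalGaloisGroup q.1 → M) ∘ₗ
    (pt_Zc2 S M).subtype).codRestrict (levelCocyclesS₂ S M) (fun x => x.2.1)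

end Boundary

/-- **Boundary theorem for S55.**  To prove the conclusion of S55 for the pair `(M', M)` it
suffices to construct two pairings `β : Z_c²(M) × Z¹(M') → 𝔽_p` and `β' : Z_c¹(M') × Z²(M) → 𝔽_p`
on (cone) cocycles which
* vanish on coboundaries in the second variable (`hβ`, `hβ'`),
* agree on `Z_c²(M) × Z_c¹(M')` (`hsym`),
* induce surjections `H_c²(M) → H¹(M')^*` (`hsurj2`) and `H_c¹(M') → H²(M)^*` (`hsurj1`). -/
theorem pt_boundary {p : ℕ} [Fact p.Prime] (hp2 : p ≠ 2) (S : Finset Nat.Primes)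
    (M M' : Rep (ZMod p) Γ)
    (β : ↥(pt_Zc2 S M) →ₗ[ZMod p] ↥(pt_Z1 S M') →ₗ[ZMod p] ZMod p)
    (β' : ↥(pt_Zc1 S M') →ₗ[ZMod p] ↥(levelCocyclesS₂ S M) →ₗ[ZMod p] ZMod p)
    (hβ : ∀ (x : ↥(pt_Zc2 S M)) (a : ↥(pt_Z1 S M')) (m : M'),
      (∀ g : Γ, (a : Γ → M') g = M'.ρ g m - m) → β x a = 0)
    (hβ' : ∀ (x : ↥(pt_Zc1 S M')) (a : ↥(levelCocyclesS₂ S M)) (y : Γ → M),
      IsLevelConstantS₁ S y →
      (∀ g h : Γ, (a : Γ × Γ → M) (g, h) = M.ρ g (y h) - y (g * h) + y g) → β' x a = 0)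
    (hsym : ∀ (x : ↥(pt_Zc2 S M)) (x' : ↥(pt_Zc1 S M')),
      β x (pt_Zc1fst S M' x') = β' x' (pt_Zc2fst S M x))
    (hsurj2 : ∀ φ : ↥(pt_Z1 S M') →ₗ[ZMod p] ZMod p,
      (∀ (a : ↥(pt_Z1 S M')) (m : M'), (∀ g : Γ, (a : Γ → M') g = M'.ρ g m - m) → φ a = 0) →
      ∃ x : ↥(pt_Zc2 S M), ∀ a, φ a = β x a)
    (hsurj1 : ∀ ψ : ↥(levelCocyclesS₂ S M) →ₗ[ZMod p] ZMod p,
      (∀ (a : ↥(levelCocyclesS₂ S M)) (y : Γ → M), IsLevelConstantS₁ S y →
        (∀ g h : Γ, (a : Γ × Γ → M) (g, h) = M.ρ g (y h) - y (g * h) + y g) → ψ a = 0) →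
      ∃ x : ↥(pt_Zc1 S M'), ∀ a, ψ a = β' x a) :
    ∃ B : sha₁ S M' →ₗ[ZMod p] sha₂ S M →ₗ[ZMod p] ZMod p,
      (∀ y, (∀ x, B y x = 0) → y = 0) ∧ (∀ x, (∀ y, B y x = 0) → x = 0) := by
  -- kernels of the class maps
  have hker1 : ∀ a : ↥(pt_Z1 S M'), pt_Z1π S M' a = 0 →
      ∃ m : M', ∀ g : Γ, (a : Γ → M') g = M'.ρ g m - m := by
    intro a ha
    have h1 : (H1π M').hom (⟨a.1, a.2.1⟩ : cocycles₁ M') = 0 := ha
    erw [H1π_eq_zero_iff] at h1
    obtain ⟨m, hm⟩ := h1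
    refine ⟨m, fun g => ?_⟩
    have := congrFun hm g
    rw [d₀₁_hom_apply] at this
    exact this.symm
  have hker2 : ∀ a : ↥(levelCocyclesS₂ S M), continuousH2Sπ S M a = 0 →
      ∃ y : Γ → M, IsLevelConstantS₁ S y ∧
        ∀ g h : Γ, (a : Γ × Γ → M) (g, h) = M.ρ g (y h) - y (g * h) + y g := by
    intro a ha
    rw [continuousH2Sπ_eq_zero_iff, mem_levelCoboundariesS₂_iff] at ha
    obtain ⟨y, hy, hd⟩ := ha
    refine ⟨y, hy, fun g h => ?_⟩
    have := congrFun hd (g, h)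
    rw [d₁₂_hom_apply] at this
    exact this.symm
  refine pt_endgame (pt_Z1π S M') (continuousH2Sπ S M) (pt_Zc1fst S M') (pt_Zc2fst S M)
    (sha₁ S M') (sha₂ S M) ?_ ?_ β β' ?_ ?_ hsym ?_ ?_
  · intro y
    rw [mem_sha₁_iff hp2]
    constructor
    · rintro ⟨c, hc, rfl, hq⟩
      choose a ha using hq
      exact ⟨⟨(c.1, a), ⟨c.2, hc⟩, ha⟩, rfl⟩
    · rintro ⟨x, rfl⟩
      exact ⟨⟨x.1.1, x.2.1.1⟩, x.2.1.2, rfl, fun q => ⟨x.1.2 q, x.2.2 q⟩⟩
  · intro y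
    constructor
    · intro hy
      obtain ⟨f, rfl⟩ := continuousH2Sπ_surjective S M y
      have h := (mk_mem_sha₂_iff hp2 S M f).mp hy
      choose z hz1 hz2 using h
      exact ⟨⟨(f.1, z), f.2, fun q => ⟨hz1 q, hz2 q⟩⟩, rfl⟩
    · rintro ⟨x, rfl⟩
      exact (mk_mem_sha₂_iff hp2 S M _).mpr fun q => ⟨x.1.2 q, (x.2.2 q).1, (x.2.2 q).2⟩
  · intro x a ha
    obtain ⟨m, hm⟩ := hker1 a ha
    exact hβ x a m hm
  · intro x a ha
    obtain ⟨y, hy, hd⟩ := hker2 a ha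
    exact hβ' x a y hy hd
  · intro φ hφ
    exact hsurj2 φ fun a m hm => hφ a (by
      show (H1π M').hom (⟨a.1, a.2.1⟩ : cocycles₁ M') = 0
      erw [H1π_eq_zero_iff]
      exact ⟨m, funext fun g => by rw [d₀₁_hom_apply]; exact (hm g).symm⟩)
  · intro ψ hψ
    exact hsurj1 ψ fun a y hy hd => hψ a (by
      rw [continuousH2Sπ_eq_zero_iff, mem_levelCoboundariesS₂_iff]
      exact ⟨y, hy, funext fun ⟨g, h⟩ => by rw [d₁₂_hom_apply]; exact (hd g h).symm⟩)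

end Fermat.Agent.S55
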