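import Fermat.Agent.S55.IfaceBoundary
import Fermat.Agent.S55.IfaceHc

/-!
# S55 interface, part 7: Prelude (cone) cocycles in the `hc_` conventions

For an admissible representation the spaces `pt_Z1`, `levelCocyclesS₂`, `pt_Zc1`, `pt_Zc2` of
`IfaceBoundary.lean` are exactly the (cone) cocycles of helper4's level cochain complex for
the level structure `pt_globalLev S` with local data `(primeLocalGaloisGroup q,
pt_localLev (primeLocalToGlobal q), primeLocalToGlobal q)`, `q ∈ S`: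
`d_c (a, (a_q)) = (d a, (res_q a - d a_q))`.
-/

set_option autoImplicit false

open CategoryTheory groupCohomology ExtCitation

namespace Fermat.Agent.S55

local notation "Γ" => (AlgebraicClosure ℚ ≃ₐ[ℚ] AlgebraicClosure ℚ)

variable (S : Finset Nat.Primes) {k : Type} [CommRing k]

/-- Mathlib 1-cocycles = kernel of `hc_d12f`. -/
theorem pt_mem_cocycles₁_iff (A : Rep k Γ) (f : Γ → A) :
    f ∈ cocycles₁ A ↔ hc_d12f A.ρ f = 0 := by
  rw [mem_cocycles₁_iff]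
  constructor
  · intro h
    funext ⟨g, j⟩
    rw [hc_d12f_apply, h g j]
    simp
  · intro h g j
    have h0 := congrFun h (g, j)
    rw [hc_d12f_apply, Pi.zero_apply] at h0
    exact sub_eq_zero.mp ((by abel :
      f (g * j) - (A.ρ g (f j) + f g) = -(A.ρ g (f j) - f (g * j) + f g)).trans
        (by rw [h0, neg_zero]))

/-- Mathlib 2-cocycles = kernel of `hc_d23f`. -/
theorem pt_mem_cocycles₂_iff (A : Rep k Γ) (f : Γ × Γ → A) :
    f ∈ cocycles₂ A ↔ hc_d23f A.ρ f = 0 := by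
  rw [mem_cocycles₂_iff]
  constructor
  · intro h
    funext ⟨g, j, l⟩
    rw [hc_d23f_apply, Pi.zero_apply]
    have h0 := h g j l
    exact (by abel : A.ρ g (f (j, l)) - f (g * j, l) + f (g, j * l) - f (g, j) =
      (A.ρ g (f (j, l)) + f (g, j * l)) - (f (g * j, l) + f (g, j))).trans (by rw [h0, sub_self])
  · intro h g j l
    have h0 := congrFun h (g, j, l)
    rw [hc_d23f_apply, Pi.zero_apply] at h0
    exact (sub_eq_zero.mp ((by abel :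
      (A.ρ g (f (j, l)) + f (g, j * l)) - (f (g * j, l) + f (g, j)) =
        A.ρ g (f (j, l)) - f (g * j, l) + f (g, j * l) - f (g, j)).trans h0)).symm

/-- `pt_Z1` in `hc_` terms. -/
theorem pt_mem_Z1_iff (A : Rep k Γ) (hadm : hc_Adm (pt_globalLev S) A.ρ) (f : Γ → A) :
    f ∈ pt_Z1 S A ↔ f ∈ hc_C1 (pt_globalLev S) A.ρ ∧ hc_d12f A.ρ f = 0 := by
  rw [pt_Z1, Submodule.mem_inf, pt_mem_cocycles₁_iff, mem_levelCochainsS₁_iff,
    pt_mem_hc_C1_iff S A.ρ hadm, and_comm]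

/-- `levelCocyclesS₂` in `hc_` terms. -/
theorem pt_mem_levelCocyclesS₂_iff (M : Rep k Γ) (hadm : hc_Adm (pt_globalLev S) M.ρ)
    (f : Γ × Γ → M) :
    f ∈ levelCocyclesS₂ S M ↔ f ∈ hc_C2 (pt_globalLev S) M.ρ ∧ hc_d23f M.ρ f = 0 := by
  rw [mem_levelCocyclesS₂_iff, pt_mem_cocycles₂_iff, pt_mem_hc_C2_iff S M.ρ hadm, and_comm]

/-- `levelCoboundariesS₂` in `hc_` terms. -/
theorem pt_mem_levelCoboundariesS₂_iff (M : Rep k Γ) (hadm : hc_Adm (pt_globalLev S) M.ρ)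
    (f : Γ × Γ → M) :
    f ∈ levelCoboundariesS₂ S M ↔ ∃ y ∈ hc_C1 (pt_globalLev S) M.ρ, hc_d12f M.ρ y = f := by
  rw [mem_levelCoboundariesS₂_iff]
  constructor
  · rintro ⟨y, hy, rfl⟩
    refine ⟨y, (pt_mem_hc_C1_iff S M.ρ hadm y).mpr hy, ?_⟩
    funext ⟨g, j⟩
    rw [hc_d12f_apply, d₁₂_hom_apply]
  · rintro ⟨y, hy, rfl⟩
    refine ⟨y, (pt_mem_hc_C1_iff S M.ρ hadm y).mp hy, ?_⟩
    funext ⟨g, j⟩
    rw [hc_d12f_apply, d₁₂_hom_apply]

/-- Cone 1-cocycles in `hc_` terms: `d a = 0` and `res_q a = d (a_q)`. -/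
theorem pt_mem_Zc1_iff (A : Rep k Γ) (hadm : hc_Adm (pt_globalLev S) A.ρ)
    (x : (Γ → A) × (↥S → A)) :
    x ∈ pt_Zc1 S A ↔ x.1 ∈ hc_C1 (pt_globalLev S) A.ρ ∧ hc_d12f A.ρ x.1 = 0 ∧
      ∀ q : ↥S, (fun g : primeLocalGaloisGroup q.1 => x.1 (primeLocalToGlobal q.1 g)) =
        hc_d01f (A.ρ.comp (primeLocalToGlobal q.1)) (x.2 q) := by
  constructor
  · rintro ⟨h1, h2⟩
    obtain ⟨h3, h4⟩ := (pt_mem_Z1_iff S A hadm x.1).mp h1
    exact ⟨h3, h4, fun q => funext fun g => h2 q g⟩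
  · rintro ⟨h1, h2, h3⟩
    exact ⟨(pt_mem_Z1_iff S A hadm x.1).mpr ⟨h1, h2⟩, fun q g => congrFun (h3 q) g⟩

/-- Cone 2-cocycles in `hc_` terms: `d a = 0`, `a_q` a local level 1-cochain and
`res_q a = d (a_q)`. -/
theorem pt_mem_Zc2_iff (M : Rep k Γ) (hadm : hc_Adm (pt_globalLev S) M.ρ)
    (x : (Γ × Γ → M) × (∀ q : ↥S, primeLocalGaloisGroup q.1 → M)) :
    x ∈ pt_Zc2 S M ↔ x.1 ∈ hc_C2 (pt_globalLev S) M.ρ ∧ hc_d23f M.ρ x.1 = 0 ∧
      ∀ q : ↥S, x.2 q ∈ hc_C1 (pt_localLev (primeLocalToGlobal q.1))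
          (M.ρ.comp (primeLocalToGlobal q.1)) ∧
        (fun y : primeLocalGaloisGroup q.1 × primeLocalGaloisGroup q.1 =>
          x.1 (primeLocalToGlobal q.1 y.1, primeLocalToGlobal q.1 y.2)) =
          hc_d12f (M.ρ.comp (primeLocalToGlobal q.1)) (x.2 q) := by
  have hloc : ∀ q : ↥S, hc_Adm (pt_localLev (primeLocalToGlobal q.1))
      (M.ρ.comp (primeLocalToGlobal q.1)) := fun q => pt_adm_local S M.ρ hadm _
  constructor
  · rintro ⟨h1, h2⟩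
    obtain ⟨h3, h4⟩ := (pt_mem_levelCocyclesS₂_iff S M hadm x.1).mp h1
    refine ⟨h3, h4, fun q => ⟨(pt_mem_hc_C1_local_iff _ _ (hloc q) _).mpr (h2 q).1, ?_⟩⟩
    funext ⟨g, j⟩
    exact (h2 q).2 g j
  · rintro ⟨h1, h2, h3⟩
    refine ⟨(pt_mem_levelCocyclesS₂_iff S M hadm x.1).mpr ⟨h1, h2⟩, fun q =>
      ⟨(pt_mem_hc_C1_local_iff _ _ (hloc q) _).mp (h3 q).1, fun g j => ?_⟩⟩
    exact congrFun (h3 q).2 (g, j)

end Fermat.Agent.S55
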