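import Fermat.Agent.S55.IfaceLoc
import Fermat.Agent.S55.IfaceSymCone
import Fermat.Agent.S55.HcQC
import Fermat.Agent.S55.Dual

/-!
# S55 interface, part 10: the final assembly

`pt_final` : the conclusion of S55 for `M` from

* a trace functional `τ` on `C_c³(Γ, S; 𝔽_p(χ))` (cone cochains of `pt_loc S`, coefficients
  `dual_rhoT χ`) killing cone coboundaries,
* `A2Surj` for the paired complex `hc_QC` of `(M, M')` (`M' = M.dualTwist χ`, evaluation pairing),
* `A1Surj` for the paired complex `hc_QC` of `(M', M'')`.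

The two pairings of `pt_boundary` are `β x a = τ (x ∪ a)` on `Z_c²(M) × Z¹(M')` and
`β' x' a = τ (x' ∪ a)` on `Z_c¹(M') × Z²(M)` (flipped evaluation pairing); their symmetry is
`pt_b21_eq_b12`, and `M ≅ M''` (`dual_dd`) transports `A1Surj`.
-/

set_option autoImplicit false

open CategoryTheory groupCohomology ExtCitation

namespace Fermat.Agent.S55

local notation "Γ" => (AlgebraicClosure ℚ ≃ₐ[ℚ] AlgebraicClosure ℚ)

/-- Extension of a functional along an injective linear map (over `ZMod p`, with the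
`CommRing`-instance path used by `Rep (ZMod p) Γ`). -/
lemma pt_extend {p : ℕ} [Fact p.Prime] {V W : Type*} [AddCommGroup V] [Module (ZMod p) V]
    [AddCommGroup W] [Module (ZMod p) W] (f : V →ₗ[ZMod p] W) (hf : Function.Injective f)
    (ψ : V →ₗ[ZMod p] ZMod p) :
    ∃ Ψ : W →ₗ[ZMod p] ZMod p, ∀ v, Ψ (f v) = ψ v := by
  obtain ⟨g, hg⟩ := f.exists_leftInverse_of_injective (LinearMap.ker_eq_bot.mpr hf)
  refine ⟨ψ ∘ₗ g, fun v => ?_⟩
  have h : g (f v) = v := LinearMap.congr_fun hg v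
  rw [LinearMap.comp_apply, h]

section final

variable {p : ℕ} [Fact p.Prime] (S : Finset Nat.Primes) (χ : Γ →* (ZMod p)ˣ)
  (M : Rep.{0} (ZMod p) Γ)

/-- Equivariance of the flipped evaluation pairing `M' × M → 𝔽_p(χ)` in the `hc_` shape. -/
theorem pt_pairFlip_equivariant (g : Γ) (b : Module.Dual (ZMod p) M) (a : M) :
    dual_pairFlip M ((M.dualTwist χ).ρ g b) (M.ρ g a) = dual_rhoT χ g (dual_pairFlip M b a) :=
  dual_pairFlip_equivariant χ M g a b

/-- `dual_dd` is equivariant (in the `hc_` shape). -/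
theorem pt_dd_equivariant (g : Γ) (a : M) :
    (dual_dd χ M).hom.toLinearMap (M.ρ g a) =
      ((M.dualTwist χ).dualTwist χ).ρ g ((dual_dd χ M).hom.toLinearMap a) :=
  LinearMap.congr_fun ((dual_dd χ M).hom.isIntertwining' g) a

/-- `dual_ddInv` is equivariant (in the `hc_` shape). -/
theorem pt_ddInv_equivariant [FiniteDimensional (ZMod p) M] (g : Γ)
    (a : Module.Dual (ZMod p) (Module.Dual (ZMod p) M)) :
    (dual_ddInv χ M).hom.toLinearMap (((M.dualTwist χ).dualTwist χ).ρ g a) =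
      M.ρ g ((dual_ddInv χ M).hom.toLinearMap a) :=
  LinearMap.congr_fun ((dual_ddInv χ M).hom.isIntertwining' g) a

variable {S} in
/-- The pairing of `C_c¹(M')` with `C²(M'')` restricted along `dual_dd` is the pairing with
`C²(M)` for the flipped evaluation pairing. -/
theorem pt_b12_dd (τ : hc_Cc3 (pt_loc S) (dual_rhoT χ) →ₗ[ZMod p] ZMod p)
    (X' : hc_Cc1 (pt_loc S) (M.dualTwist χ).ρ) (y : hc_C2 (pt_globalLev S) M.ρ) :
    hc_b12 (dual_pair_equivariant χ (M.dualTwist χ)) τ X'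
        (hc_map2 (pt_globalLev S) (dual_dd χ M).hom.toLinearMap (pt_dd_equivariant χ M) y) =
      hc_b12 (pt_pairFlip_equivariant χ M) τ X' y := by
  rw [hc_b12_apply, hc_b12_apply]
  congr 1
  refine Prod.ext (Subtype.ext (funext fun ⟨g, h, j⟩ => ?_))
    (funext fun v => Subtype.ext (funext fun ⟨g, h⟩ => ?_))
  · simp only [hc_ccup12_fst, hc_cup12_coe, hc_cup12f_apply, hc_map2_coe]
    rw [← pt_dd_equivariant χ M g]
    rfl
  · rfl

/-- **Final assembly (admissible form).** -/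
theorem pt_final_adm (hp2 : p ≠ 2) [FiniteDimensional (ZMod p) M]
    (hadm : hc_Adm (pt_globalLev S) M.ρ)
    (hadm' : hc_Adm (pt_globalLev S) (M.dualTwist χ).ρ)
    (τ : hc_Cc3 (pt_loc S) (dual_rhoT χ) →ₗ[ZMod p] ZMod p)
    (hτ : ∀ x, τ (hc_dc2 (pt_loc S) (dual_rhoT χ) x) = 0)
    (h2 : (hc_QC (pt_loc S) τ hτ (dual_pair_equivariant χ M)).A2Surj)
    (h1 : (hc_QC (pt_loc S) τ hτ (dual_pair_equivariant χ (M.dualTwist χ))).A1Surj) :
    ∃ B : sha₁ S (M.dualTwist χ) →ₗ[ZMod p] sha₂ S M →ₗ[ZMod p] ZMod p,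
      (∀ y, (∀ x, B y x = 0) → y = 0) ∧ (∀ x, (∀ y, B y x = 0) → x = 0) := by
  have hφ := dual_pair_equivariant χ M
  have hψ := pt_pairFlip_equivariant χ M
  refine pt_boundary hp2 S M (M.dualTwist χ)
    ((hc_b21 hφ τ).compl₁₂ (pt_toCc2 S M hadm) (pt_toC1 S (M.dualTwist χ) hadm'))
    ((hc_b12 hψ τ).compl₁₂ (pt_toCc1 S (M.dualTwist χ) hadm') (pt_toC2 S M hadm))
    ?_ ?_ ?_ ?_ ?_
  · -- hβ
    intro x a m ha
    have hm : m ∈ hc_C0 (pt_globalLev S) (M.dualTwist χ).ρ := by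
      rw [hc_C0_eq_top hadm']
      exact Submodule.mem_top
    have e : pt_toC1 S (M.dualTwist χ) hadm' a =
        hc_d01 (pt_globalLev S) (M.dualTwist χ).ρ ⟨m, hm⟩ :=
      Subtype.ext (funext fun g => ha g)
    have h := hc_rel2 hφ hτ (pt_toCc2 S M hadm x) ⟨m, hm⟩
    rw [pt_toCc2_dc2, map_zero, LinearMap.zero_apply] at h
    show hc_b21 hφ τ (pt_toCc2 S M hadm x) (pt_toC1 S (M.dualTwist χ) hadm' a) = 0
    rw [e]
    exact neg_eq_zero.mp h.symm
  · -- hβ'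
    intro x a y hy ha
    have hy' : y ∈ hc_C1 (pt_globalLev S) M.ρ := (pt_mem_hc_C1_iff S M.ρ hadm y).mpr hy
    have e : pt_toC2 S M hadm a = hc_d12 (pt_globalLev S) M.ρ ⟨y, hy'⟩ :=
      Subtype.ext (funext fun ⟨g, h⟩ => by
        rw [pt_toC2_coe, ha g h]
        rfl)
    have h := hc_rel1 hψ hτ (pt_toCc1 S (M.dualTwist χ) hadm' x) ⟨y, hy'⟩
    rw [pt_toCc1_dc1, map_zero, LinearMap.zero_apply] at h
    show hc_b12 hψ τ (pt_toCc1 S (M.dualTwist χ) hadm' x) (pt_toC2 S M hadm a) = 0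
    rw [e]
    exact h.symm
  · -- hsym
    intro x x'
    exact pt_b21_eq_b12 (pt_loc S) hφ hψ (fun _ _ => rfl) hτ (pt_toCc2 S M hadm x)
      (pt_toCc1 S (M.dualTwist χ) hadm' x') (pt_toCc2_dc2 S M hadm x)
      (pt_toCc1_dc1 S (M.dualTwist χ) hadm' x')
  · -- hsurj2
    intro φ0 hφ0
    obtain ⟨Φ, hΦ⟩ := pt_extend (p := p) (V := ↥(pt_Z1 S (M.dualTwist χ)))
      (W := ↥(hc_C1 (pt_globalLev S) (M.dualTwist χ).ρ)) (pt_toC1 S (M.dualTwist χ) hadm')
      (pt_toC1_injective S (M.dualTwist χ) hadm') φ0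
    have hΦ0 : ∀ y ∈ LinearMap.range (hc_d01 (pt_globalLev S) (M.dualTwist χ).ρ), Φ y = 0 := by
      rintro _ ⟨m, rfl⟩
      obtain ⟨a, ha⟩ := pt_toC1_surj S (M.dualTwist χ) hadm'
        (hc_d01 (pt_globalLev S) (M.dualTwist χ).ρ m)
        (hc_d12_d01 (pt_globalLev S) (M.dualTwist χ).ρ m)
      rw [← ha, hΦ]
      refine hφ0 a m.1 (fun g => ?_)
      rw [← pt_toC1_coe S (M.dualTwist χ) hadm' a, ha]
      rfl
    obtain ⟨X, hX, hXΦ⟩ := h2 Φ hΦ0
    obtain ⟨x, rfl⟩ := pt_toCc2_surj S M hadm X (LinearMap.mem_ker.1 hX)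
    refine ⟨x, fun a => ?_⟩
    have key : Φ (pt_toC1 S (M.dualTwist χ) hadm' a) =
        hc_b21 hφ τ (pt_toCc2 S M hadm x) (pt_toC1 S (M.dualTwist χ) hadm' a) :=
      hXΦ _ (pt_toC1_d12 S (M.dualTwist χ) hadm' a)
    rw [hΦ] at key
    exact key
  · -- hsurj1
    intro ψ0 hψ0
    obtain ⟨Ψ, hΨ⟩ := pt_extend (p := p) (V := ↥(levelCocyclesS₂ S M))
      (W := ↥(hc_C2 (pt_globalLev S) M.ρ)) (pt_toC2 S M hadm)
      (pt_toC2_injective S M hadm) ψ0
    have hΨ0 : ∀ y : hc_C1 (pt_globalLev S) ((M.dualTwist χ).dualTwist χ).ρ,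
        (Ψ ∘ₗ hc_map2 (pt_globalLev S) (dual_ddInv χ M).hom.toLinearMap
          (pt_ddInv_equivariant χ M))
          (hc_d12 (pt_globalLev S) ((M.dualTwist χ).dualTwist χ).ρ y) = 0 := by
      intro y
      rw [LinearMap.comp_apply, hc_map2_d12]
      obtain ⟨a, ha⟩ := pt_toC2_surj S M hadm _ (hc_d23_d12 (pt_globalLev S) M.ρ
        (hc_map1 (pt_globalLev S) (dual_ddInv χ M).hom.toLinearMap
          (pt_ddInv_equivariant χ M) y))
      rw [← ha, hΨ]
      refine hψ0 a _ ((pt_mem_hc_C1_iff S M.ρ hadm _).mp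
        (hc_map1 (pt_globalLev S) (dual_ddInv χ M).hom.toLinearMap
          (pt_ddInv_equivariant χ M) y).2) (fun g h => ?_)
      rw [← pt_toC2_coe S M hadm a, ha]
      rfl
    obtain ⟨X, hX, hXΦ⟩ := h1 _ hΨ0
    obtain ⟨x, rfl⟩ := pt_toCc1_surj S (M.dualTwist χ) hadm' X hX
    refine ⟨x, fun a => ?_⟩
    have hker : hc_map2 (pt_globalLev S) (dual_dd χ M).hom.toLinearMap (pt_dd_equivariant χ M)
        (pt_toC2 S M hadm a) ∈
          LinearMap.ker (hc_d23 (pt_globalLev S) ((M.dualTwist χ).dualTwist χ).ρ) :=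
      hc_map2_mem_ker (pt_dd_equivariant χ M) (LinearMap.mem_ker.2 (pt_toC2_d23 S M hadm a))
    have key : Ψ (hc_map2 (pt_globalLev S) (dual_ddInv χ M).hom.toLinearMap
        (pt_ddInv_equivariant χ M)
        (hc_map2 (pt_globalLev S) (dual_dd χ M).hom.toLinearMap (pt_dd_equivariant χ M)
          (pt_toC2 S M hadm a))) =
        hc_b12 (dual_pair_equivariant χ (M.dualTwist χ)) τ (pt_toCc1 S (M.dualTwist χ) hadm' x)
          (hc_map2 (pt_globalLev S) (dual_dd χ M).hom.toLinearMap (pt_dd_equivariant χ M)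
            (pt_toC2 S M hadm a)) := hXΦ _ hker
    have e : hc_map2 (pt_globalLev S) (dual_ddInv χ M).hom.toLinearMap
        (pt_ddInv_equivariant χ M)
        (hc_map2 (pt_globalLev S) (dual_dd χ M).hom.toLinearMap (pt_dd_equivariant χ M)
          (pt_toC2 S M hadm a)) = pt_toC2 S M hadm a :=
      Subtype.ext (funext fun x => dual_ddInv_dd χ M _)
    rw [e, hΨ, pt_b12_dd] at key
    exact key

end final

/-- **Final assembly for S55.**  Under the hypotheses of S55, a trace functional `τ` on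
`C_c³(Γ, S; 𝔽_p(1))` killing cone coboundaries together with `A2Surj` for the paired complex of
`(M, M')` and `A1Surj` for the paired complex of `(M', M'')` (`M' = M.dualTwist (cycloChar p)`)
gives the conclusion of S55. -/
theorem pt_final {p : ℕ} [Fact p.Prime] (hp2 : p ≠ 2) (S : Finset Nat.Primes)
    (hpS : pPrime p ∈ S) (M : Rep (ZMod p) Γ) [FiniteDimensional (ZMod p) M]
    (hsm : ∀ m : M, ∃ F : IntermediateField ℚ (AlgebraicClosure ℚ), FiniteDimensional ℚ F ∧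
      ∀ s ∈ F.fixingSubgroup, M.ρ s m = m)
    (hMur : ∀ q : Nat.Primes, q ∉ S → ∀ A : ValuationSubring (AlgebraicClosure ℚ),
      A.LiesOverPrime (q : ℕ) → ∀ g ∈ A.inertiaSubgroupIn ℚ, M.ρ g = 1)
    (τ : hc_Cc3 (pt_loc S) (dual_rhoT (cycloChar p)) →ₗ[ZMod p] ZMod p)
    (hτ : ∀ x, τ (hc_dc2 (pt_loc S) (dual_rhoT (cycloChar p)) x) = 0)
    (h2 : (hc_QC (pt_loc S) τ hτ (dual_pair_equivariant (cycloChar p) M)).A2Surj)
    (h1 : (hc_QC (pt_loc S) τ hτ
      (dual_pair_equivariant (cycloChar p) (M.dualTwist (cycloChar p)))).A1Surj) :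
    ∃ B : sha₁ S (M.dualTwist (cycloChar p)) →ₗ[ZMod p] sha₂ S M →ₗ[ZMod p] ZMod p,
      (∀ y, (∀ x, B y x = 0) → y = 0) ∧ (∀ x, (∀ y, B y x = 0) → x = 0) := by
  obtain ⟨hadm, hadm', -⟩ := pt_adm_S55 p S hpS M hsm hMur
  exact pt_final_adm S (cycloChar p) M hp2 hadm hadm' τ hτ h2 h1

end Fermat.Agent.S55
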