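import Fermat.Agent.S55.IfaceFinal
import Fermat.Agent.S55.HcDev

/-!
# S55 interface, part 11: S55 from the base case

`pt_main` : the conclusion of S55 from a trace functional `τ` on `C_c³(Γ, S; 𝔽_p(1))` killing
cone coboundaries and the **base case** `pt_BaseCase p S τ hτ`: `α¹` surjective and `α²`
bijective for the paired complexes of the modules `indBase p U`, `U` a subgroup containing an
`S`-level and contained in the kernel of the mod `p` cyclotomic character (i.e. `U = G_k` for a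
finite extension `k ∋ ζ_p` of `ℚ` unramified outside `S`).

Chain: base case → `hc_dev` (dévissage, helper4) → `pt_final` (→ `pt_boundary`).
-/

set_option autoImplicit false

open CategoryTheory groupCohomology ExtCitation

namespace Fermat.Agent.S55

local notation "Γ" => (AlgebraicClosure ℚ ≃ₐ[ℚ] AlgebraicClosure ℚ)

/-- The kernel of the mod `p` cyclotomic character has index prime to `p`. -/
theorem pt_cycloChar_ker_index (p : ℕ) [Fact p.Prime] : ¬ p ∣ (cycloChar p).ker.index := by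
  intro h
  have hp : p.Prime := Fact.out
  have h1 : (cycloChar p).ker.index = Nat.card (cycloChar p).range := Subgroup.index_ker _
  have h2 : Nat.card (cycloChar p).range ∣ Nat.card (ZMod p)ˣ :=
    Subgroup.card_subgroup_dvd_card _
  have h3 : Nat.card (ZMod p)ˣ = p - 1 := by
    rw [Nat.card_eq_fintype_card, ZMod.card_units]
  rw [h1] at h
  have h4 : p ∣ p - 1 := by
    rw [← h3]
    exact h.trans h2
  have h5 : p ≤ p - 1 := Nat.le_of_dvd (Nat.sub_pos_of_lt hp.one_lt) h4
  have h6 := hp.pos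
  omega

/-- **The base case of S55** (for a given trace `τ`): `α¹` surjective and `α²` bijective for
the paired complexes of `indBase p U`, for all subgroups `U` containing an `S`-level and
contained in the kernel of the mod `p` cyclotomic character. -/
def pt_BaseCase (p : ℕ) [Fact p.Prime] (S : Finset Nat.Primes)
    (τ : hc_Cc3 (pt_loc S) (dual_rhoT (cycloChar p)) →ₗ[ZMod p] ZMod p)
    (hτ : ∀ x, τ (hc_dc2 (pt_loc S) (dual_rhoT (cycloChar p)) x) = 0) : Prop :=
  ∀ U : Subgroup Γ, (∃ N ∈ (pt_globalLev S).S, N ≤ U) → U ≤ (cycloChar p).ker →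
    (hc_PX (cycloChar p) (pt_loc S) τ hτ (indBase p U)).A1Surj ∧
      (hc_PX (cycloChar p) (pt_loc S) τ hτ (indBase p U)).A2Inj ∧
        (hc_PX (cycloChar p) (pt_loc S) τ hτ (indBase p U)).A2Surj

/-- **S55 from the base case.** -/
theorem pt_main {p : ℕ} [Fact p.Prime] (hp2 : p ≠ 2) (S : Finset Nat.Primes)
    (hpS : pPrime p ∈ S) (M : Rep (ZMod p) Γ) [FiniteDimensional (ZMod p) M]
    (hsm : ∀ m : M, ∃ F : IntermediateField ℚ (AlgebraicClosure ℚ), FiniteDimensional ℚ F ∧
      ∀ s ∈ F.fixingSubgroup, M.ρ s m = m)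
    (hMur : ∀ q : Nat.Primes, q ∉ S → ∀ A : ValuationSubring (AlgebraicClosure ℚ),
      A.LiesOverPrime (q : ℕ) → ∀ g ∈ A.inertiaSubgroupIn ℚ, M.ρ g = 1)
    (τ : hc_Cc3 (pt_loc S) (dual_rhoT (cycloChar p)) →ₗ[ZMod p] ZMod p)
    (hτ : ∀ x, τ (hc_dc2 (pt_loc S) (dual_rhoT (cycloChar p)) x) = 0)
    (hbase : pt_BaseCase p S τ hτ) :
    ∃ B : sha₁ S (M.dualTwist (cycloChar p)) →ₗ[ZMod p] sha₂ S M →ₗ[ZMod p] ZMod p,
      (∀ y, (∀ x, B y x = 0) → y = 0) ∧ (∀ x, (∀ y, B y x = 0) → x = 0) := by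
  obtain ⟨hadm, hadm', N, hN, -, hNχ, -⟩ := pt_adm_S55 p S hpS M hsm hMur
  have hfin : ∀ N ∈ (pt_globalLev S).S, N.FiniteIndex := pt_globalLevels_finiteIndex S
  have hχ : ∃ N ∈ (pt_globalLev S).S, ∀ n ∈ N, cycloChar p n = 1 := ⟨N, hN, hNχ⟩
  have hW : ∃ N ∈ (pt_globalLev S).S, N ≤ (cycloChar p).ker :=
    ⟨N, hN, fun n hn => MonoidHom.mem_ker.mpr (hNχ n hn)⟩
  have hMfin : Module.Finite (ZMod p) M := inferInstance
  have hMfin' : Module.Finite (ZMod p) (M.dualTwist (cycloChar p)) := by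
    change Module.Finite (ZMod p) (Module.Dual (ZMod p) M)
    infer_instance
  have hM : IndAdm (pt_globalLev S).S M := ⟨hMfin, hadm⟩
  have hM' : IndAdm (pt_globalLev S).S (M.dualTwist (cycloChar p)) := ⟨hMfin', hadm'⟩
  have key := hc_dev (cycloChar p) (pt_loc S) τ hτ hfin hχ (cycloChar p).ker hW
    (pt_cycloChar_ker_index p) hbase
  have h2 : (hc_QC (pt_loc S) τ hτ (dual_pair_equivariant (cycloChar p) M)).A2Surj :=
    (key M hM).2.2
  have h1 : (hc_QC (pt_loc S) τ hτ
      (dual_pair_equivariant (cycloChar p) (M.dualTwist (cycloChar p)))).A1Surj :=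
    (key (M.dualTwist (cycloChar p)) hM').1
  exact pt_final hp2 S hpS M hsm hMur τ hτ h2 h1

end Fermat.Agent.S55
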