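import Mathlib

/-!
# S55, block IND (module-theoretic dévissage), part 1

* `ind_exists_sylow`: for a normal subgroup `N` of finite index in `Γ`, the preimage `U` of a
  `p`-Sylow subgroup of `Γ ⧸ N` contains `N`, has index prime to `p`, and every element of `U`
  has a `p`-power in `N`.
* `ind_le_of_pow`: such a `U` is contained in every normal subgroup `W ⊇ N` of index prime to `p`.
* `ind_exists_fixed`: a nonzero finite-dimensional `ZMod p`-representation on which every group
  element acts with `p`-power order has a nonzero fixed vector.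
-/

set_option autoImplicit false

open CategoryTheory

namespace Fermat.Agent.S55

variable {Γ : Type} [Group Γ] {p : ℕ} [Fact p.Prime]

/-- The preimage of a `p`-Sylow subgroup of the finite quotient `Γ ⧸ N`. -/
theorem ind_exists_sylow (p : ℕ) [Fact p.Prime] (N : Subgroup Γ) [N.Normal] [N.FiniteIndex] :
    ∃ U : Subgroup Γ, N ≤ U ∧ ¬ p ∣ U.index ∧ ∀ u ∈ U, ∃ m : ℕ, u ^ (p ^ m) ∈ N := by
  classical
  obtain ⟨P⟩ : Nonempty (Sylow p (Γ ⧸ N)) := inferInstance
  refine ⟨(P : Subgroup (Γ ⧸ N)).comap (QuotientGroup.mk' N), ?_, ?_, ?_⟩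
  · intro n hn
    rw [Subgroup.mem_comap, QuotientGroup.mk'_apply, (QuotientGroup.eq_one_iff n).mpr hn]
    exact Subgroup.one_mem _
  · rw [Subgroup.index_comap_of_surjective _ (QuotientGroup.mk'_surjective N)]
    exact P.not_dvd_index
  · intro u hu
    rw [Subgroup.mem_comap] at hu
    obtain ⟨m, hm⟩ := P.isPGroup' ⟨QuotientGroup.mk' N u, hu⟩
    refine ⟨m, ?_⟩
    have h1 : (QuotientGroup.mk' N u) ^ (p ^ m) = 1 := by
      have := congrArg Subtype.val hm
      simpa using this
    rw [← QuotientGroup.eq_one_iff, ← QuotientGroup.mk'_apply, map_pow]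
    exact h1

/-- A subgroup all of whose elements have a `p`-power in `N ≤ W` is contained in `W` when `W` is
normal of index prime to `p`. -/
theorem ind_le_of_pow (p : ℕ) [Fact p.Prime] (N W U : Subgroup Γ) [W.Normal] (hNW : N ≤ W)
    (hW : ¬ p ∣ W.index) (hU : ∀ u ∈ U, ∃ m : ℕ, u ^ (p ^ m) ∈ N) : U ≤ W := by
  intro u hu
  obtain ⟨m, hm⟩ := hU u hu
  have h1 : u ^ (p ^ m) ∈ W := hNW hm
  have h2 : u ^ W.index ∈ W := W.pow_index_mem u
  have hp : p.Prime := Fact.out
  have hcop : Nat.Coprime (p ^ m) W.index :=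
    Nat.Coprime.pow_left m ((Nat.Prime.coprime_iff_not_dvd hp).mpr hW)
  have hb := Nat.gcd_eq_gcd_ab (p ^ m) W.index
  rw [hcop] at hb
  have hu1 : u = (u ^ (p ^ m)) ^ (Nat.gcdA (p ^ m) W.index) *
      (u ^ W.index) ^ (Nat.gcdB (p ^ m) W.index) := by
    rw [← zpow_natCast u (p ^ m), ← zpow_natCast u W.index, ← zpow_mul, ← zpow_mul, ← zpow_add,
      ← hb]
    simp
  rw [hu1]
  exact W.mul_mem (W.zpow_mem h1 _) (W.zpow_mem h2 _)

/-- A nonzero finite-dimensional `ZMod p`-representation on which every element acts with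
`p`-power order has a nonzero fixed vector. -/
theorem ind_exists_fixed {U : Type} [Group U] {V : Type} [AddCommGroup V] [Module (ZMod p) V]
    [FiniteDimensional (ZMod p) V] [Nontrivial V] (ρ : Representation (ZMod p) U V)
    (hpow : ∀ u : U, ∃ m : ℕ, ρ (u ^ (p ^ m)) = 1) :
    ∃ y : V, y ≠ 0 ∧ ∀ u : U, ρ u y = y := by
  classical
  have hp : p.Prime := Fact.out
  have : Finite V := Module.finite_of_finite (ZMod p)
  set G' : Subgroup (Units (V →ₗ[ZMod p] V)) := (Representation.asGroupHom ρ).range with hG'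
  have hPG : IsPGroup p G' := by
    rintro ⟨g, u, rfl⟩
    obtain ⟨m, hm⟩ := hpow u
    refine ⟨m, ?_⟩
    apply Subtype.ext
    apply Units.ext
    simp only [SubmonoidClass.coe_pow, Units.val_pow_eq_pow_val, Representation.asGroupHom_apply,
      OneMemClass.coe_one, Units.val_one]
    rw [← map_pow, hm]
  have h0 : (0 : V) ∈ MulAction.fixedPoints G' V := by
    intro g
    rcases g with ⟨g, hg⟩
    change (g : V →ₗ[ZMod p] V) 0 = 0
    simp
  have hcard : p ∣ Nat.card V := by
    have hpos : 0 < Module.finrank (ZMod p) V := Module.finrank_pos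
    rw [Module.natCard_eq_pow_finrank (K := ZMod p) (V := V), Nat.card_zmod]
    exact dvd_pow_self p hpos.ne'
  obtain ⟨y, hy, hy0⟩ := hPG.exists_fixed_point_of_prime_dvd_card_of_fixed_point V hcard h0
  refine ⟨y, fun h => hy0 h.symm, fun u => ?_⟩
  have h := hy ⟨Representation.asGroupHom ρ u, u, rfl⟩
  have h' : ((Representation.asGroupHom ρ u : Units (V →ₗ[ZMod p] V)) : V →ₗ[ZMod p] V) y = y := h
  rwa [Representation.asGroupHom_apply] at h'

end Fermat.Agent.S55
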