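import Fermat.Agent.S55.Dual
import Fermat.Agent.S55.ShapPair

/-!
# S55, block DI: the dual of the induced base module

For `U ≤ Γ` of finite index and `χ : Γ →* (ZMod p)ˣ`, the pairing of coinduced modules
`shapPair : Coind_U k × Coind_U k(χ|U) → k(χ)` (block SHAP, `ShapPair.lean`) is perfect, hence
identifies `Coind_U k(χ|U)` with the dual twist `(indBase p U).dualTwist χ`:

* `idual_pair χ U` : the pairing, `idual_pair_delta`, `idual_pair_deltaTw` (evaluation on delta
  functions), `idual_pair_left_nondeg`, `idual_pair_right_nondeg`;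
* `idual_beta χ U : Coind_U k(χ|U) →ₗ Dual (indBase p U)`, `f' ↦ (x ↦ ⟨x, f'⟩)`, equivariant
  (`idual_beta_equivariant`) and bijective (`idual_beta_bijective`); `idual_equiv`, the inverse
  `idual_betaInv` with its equivariance and the two adjointness formulas
  `idual_pair_beta`, `idual_pair_betaInv`.
-/

set_option autoImplicit false

open CategoryTheory

namespace Fermat.Agent.S55

variable {Γ : Type} [Group Γ] {p : ℕ} [Fact p.Prime] (χ : Γ →* (ZMod p)ˣ) (U : Subgroup Γ)

/-- The `U`-representation `k(χ|U)` on `ZMod p`. -/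
def idual_rhoN : Representation (ZMod p) U (ZMod p) := (dual_rhoT χ).comp U.subtype

theorem idual_rhoN_apply (u : U) (c : ZMod p) :
    idual_rhoN χ U u c = ((χ (u : Γ) : (ZMod p)ˣ) : ZMod p) * c := rfl

/-- Multiplication `k × k(χ|U) → k(χ)` is `U`-equivariant. -/
theorem idual_hφ (u : U) (a b : ZMod p) :
    LinearMap.mul (ZMod p) (ZMod p) (Representation.trivial (ZMod p) U (ZMod p) u a)
        (idual_rhoN χ U u b) =
      dual_rhoT χ (u : Γ) (LinearMap.mul (ZMod p) (ZMod p) a b) := by
  change a * (((χ (u : Γ) : (ZMod p)ˣ) : ZMod p) * b) =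
    ((χ (u : Γ) : (ZMod p)ˣ) : ZMod p) * (a * b)
  ring

/-- The carrier of `indBase p U`. -/
abbrev idualA : Submodule (ZMod p) (Γ → ZMod p) :=
  Representation.coindV U.subtype (Representation.trivial (ZMod p) U (ZMod p))

/-- The carrier of `Coind_U k(χ|U)`. -/
abbrev idualB : Submodule (ZMod p) (Γ → ZMod p) :=
  Representation.coindV U.subtype (idual_rhoN χ U)

section Delta

/-- The delta function of the coset `U g₀`. -/
noncomputable def idual_delta (g₀ : Γ) : idualA (p := p) U := by
  classical
  exact ⟨fun g => if g * g₀⁻¹ ∈ U then 1 else 0, fun u g => by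
    have h : (U.subtype u * g) * g₀⁻¹ ∈ U ↔ g * g₀⁻¹ ∈ U := by
      rw [mul_assoc]
      exact U.mul_mem_cancel_left u.2
    change (if (U.subtype u * g) * g₀⁻¹ ∈ U then (1 : ZMod p) else 0) =
      if g * g₀⁻¹ ∈ U then 1 else 0
    simp only [h]⟩

theorem idual_delta_apply (g₀ g : Γ) [Decidable (g * g₀⁻¹ ∈ U)] :
    (idual_delta (p := p) U g₀).1 g = if g * g₀⁻¹ ∈ U then 1 else 0 := by
  classical
  unfold idual_delta
  simp only
  congr

theorem idual_delta_self (g₀ : Γ) : (idual_delta (p := p) U g₀).1 g₀ = 1 := by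
  classical
  rw [idual_delta_apply, if_pos (by simp)]

theorem idual_delta_of_notMem (g₀ g : Γ) (h : g * g₀⁻¹ ∉ U) :
    (idual_delta (p := p) U g₀).1 g = 0 := by
  classical
  rw [idual_delta_apply, if_neg h]

/-- The twisted delta function of the coset `U g₀`. -/
noncomputable def idual_deltaTw (g₀ : Γ) : idualB χ U := by
  classical
  exact ⟨fun g => if g * g₀⁻¹ ∈ U then ((χ (g * g₀⁻¹) : (ZMod p)ˣ) : ZMod p) else 0, fun u g => by
    have h : (U.subtype u * g) * g₀⁻¹ ∈ U ↔ g * g₀⁻¹ ∈ U := by
      rw [mul_assoc]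
      exact U.mul_mem_cancel_left u.2
    change (if (U.subtype u * g) * g₀⁻¹ ∈ U then
        ((χ ((U.subtype u * g) * g₀⁻¹) : (ZMod p)ˣ) : ZMod p) else 0) =
      ((χ (u : Γ) : (ZMod p)ˣ) : ZMod p) *
        (if g * g₀⁻¹ ∈ U then ((χ (g * g₀⁻¹) : (ZMod p)ˣ) : ZMod p) else 0)
    by_cases hg : g * g₀⁻¹ ∈ U
    · rw [if_pos (h.mpr hg), if_pos hg, mul_assoc, map_mul, Units.val_mul]
      rfl
    · rw [if_neg (fun h' => hg (h.mp h')), if_neg hg, mul_zero]⟩

theorem idual_deltaTw_apply (g₀ g : Γ) [Decidable (g * g₀⁻¹ ∈ U)] :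
    (idual_deltaTw χ U g₀).1 g =
      if g * g₀⁻¹ ∈ U then ((χ (g * g₀⁻¹) : (ZMod p)ˣ) : ZMod p) else 0 := by
  classical
  unfold idual_deltaTw
  simp only
  congr

theorem idual_deltaTw_self (g₀ : Γ) : (idual_deltaTw χ U g₀).1 g₀ = 1 := by
  classical
  rw [idual_deltaTw_apply, if_pos (by simp)]
  simp

theorem idual_deltaTw_of_notMem (g₀ g : Γ) (h : g * g₀⁻¹ ∉ U) :
    (idual_deltaTw χ U g₀).1 g = 0 := by
  classical
  rw [idual_deltaTw_apply, if_neg h]

end Delta

variable [U.FiniteIndex]

/-- The pairing `Coind_U k × Coind_U k(χ|U) → k(χ)`. -/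
noncomputable def idual_pair : idualA (p := p) U →ₗ[ZMod p] idualB χ U →ₗ[ZMod p] ZMod p :=
  shapPair U (dual_rhoT χ) (LinearMap.mul (ZMod p) (ZMod p)) (idual_hφ χ U)

/-- The pairing of two functions whose product is supported on the coset `U g₀`. -/
theorem idual_pair_supp (x : idualA (p := p) U) (f' : idualB χ U) (g₀ : Γ)
    (h : ∀ g, g * g₀⁻¹ ∉ U → x.1 g * f'.1 g = 0) :
    idual_pair χ U x f' = ((χ g₀⁻¹ : (ZMod p)ˣ) : ZMod p) * (x.1 g₀ * f'.1 g₀) := by
  unfold idual_pair
  rw [shapPair_apply, shapSigma_apply]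
  rw [finsum_eq_single _ ((g₀⁻¹ : Γ) : Γ ⧸ U)]
  · rw [shapSigmaFun_mk, inv_inv]
    rfl
  · intro q hq
    induction q using QuotientGroup.induction_on with
    | H y =>
      rw [shapSigmaFun_mk]
      have hy : y⁻¹ * g₀⁻¹ ∉ U := by
        intro hmem
        apply hq
        rw [QuotientGroup.eq]
        exact hmem
      have h0 : (shapMul U (dual_rhoT χ) (LinearMap.mul (ZMod p) (ZMod p)) (idual_hφ χ U)
          x f').1 y⁻¹ = 0 := h y⁻¹ hy
      rw [h0, map_zero]

theorem idual_pair_delta (g₀ : Γ) (f' : idualB χ U) :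
    idual_pair χ U (idual_delta U g₀) f' = ((χ g₀⁻¹ : (ZMod p)ˣ) : ZMod p) * f'.1 g₀ := by
  rw [idual_pair_supp χ U _ f' g₀ (fun g hg => by rw [idual_delta_of_notMem U g₀ g hg, zero_mul]),
    idual_delta_self, one_mul]

theorem idual_pair_deltaTw (x : idualA (p := p) U) (g₀ : Γ) :
    idual_pair χ U x (idual_deltaTw χ U g₀) = ((χ g₀⁻¹ : (ZMod p)ˣ) : ZMod p) * x.1 g₀ := by
  rw [idual_pair_supp χ U x _ g₀
    (fun g hg => by rw [idual_deltaTw_of_notMem χ U g₀ g hg, mul_zero]),
    idual_deltaTw_self, mul_one]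

theorem idual_pair_left_nondeg (x : idualA (p := p) U) (h : ∀ f', idual_pair χ U x f' = 0) :
    x = 0 := by
  apply Subtype.ext
  funext g₀
  have h1 := h (idual_deltaTw χ U g₀)
  rw [idual_pair_deltaTw] at h1
  exact (Units.mul_right_eq_zero _).mp h1

theorem idual_pair_right_nondeg (f' : idualB χ U) (h : ∀ x, idual_pair χ U x f' = 0) :
    f' = 0 := by
  apply Subtype.ext
  funext g₀
  have h1 := h (idual_delta U g₀)
  rw [idual_pair_delta] at h1
  exact (Units.mul_right_eq_zero _).mp h1

/-- The pairing is `Γ`-equivariant. -/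
theorem idual_pair_equivariant (g : Γ) (x : idualA (p := p) U) (f' : idualB χ U) :
    idual_pair χ U
        (Representation.coind U.subtype (Representation.trivial (ZMod p) U (ZMod p)) g x)
        (Representation.coind U.subtype (idual_rhoN χ U) g f') =
      dual_rhoT χ g (idual_pair χ U x f') :=
  shapPair_equivariant U (dual_rhoT χ) (LinearMap.mul (ZMod p) (ZMod p)) (idual_hφ χ U) g x f'

/-- The comparison map `Coind_U k(χ|U) → Dual (indBase p U)`. -/
noncomputable def idual_beta : idualB χ U →ₗ[ZMod p] Module.Dual (ZMod p) (indBase p U) :=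
  (idual_pair χ U).flip

theorem idual_beta_apply (f' : idualB χ U) (x : indBase p U) :
    idual_beta χ U f' x = idual_pair χ U x f' := rfl

/-- Adjointness: the evaluation pairing of `indBase p U` with its dual corresponds to
`idual_pair`. -/
theorem idual_pair_beta (x : indBase p U) (f' : idualB χ U) :
    dual_pair (indBase p U) x (idual_beta χ U f') = idual_pair χ U x f' := rfl

theorem idual_beta_injective : Function.Injective (idual_beta χ U) := by
  rw [← LinearMap.ker_eq_bot, LinearMap.ker_eq_bot']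
  intro f' hf'
  apply idual_pair_right_nondeg χ U f'
  intro x
  exact congrArg (fun θ : Module.Dual (ZMod p) (indBase p U) => θ x) hf'

/-- `idual_beta` is `Γ`-equivariant. -/
theorem idual_beta_equivariant (g : Γ) (f' : idualB χ U) :
    idual_beta χ U (Representation.coind U.subtype (idual_rhoN χ U) g f') =
      ((indBase p U).dualTwist χ).ρ g (idual_beta χ U f') := by
  apply LinearMap.ext
  intro x
  rw [dual_rho_apply, idual_beta_apply, idual_beta_apply]
  have hx : x = (indBase p U).ρ g ((indBase p U).ρ g⁻¹ x) := by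
    rw [← Module.End.mul_apply, ← map_mul, mul_inv_cancel, map_one, Module.End.one_apply]
  conv_lhs => rw [hx]
  exact idual_pair_equivariant χ U g ((indBase p U).ρ g⁻¹ x) f'

theorem idual_finite_A : Module.Finite (ZMod p) (indBase p U) :=
  ind_coind_finite U U.normalCore (Rep.trivial (ZMod p) U (ZMod p)) (Subgroup.normalCore_le U)
    (fun _ _ => rfl)

theorem idual_beta_bijective : Function.Bijective (idual_beta χ U) := by
  have hA : Module.Finite (ZMod p) (indBase p U) := idual_finite_A U
  have hB : Module.Finite (ZMod p) (idualB χ U) :=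
    Module.Finite.of_injective (idual_beta χ U) (idual_beta_injective χ U)
  have hγ : Function.Injective (idual_pair χ U) := by
    rw [← LinearMap.ker_eq_bot, LinearMap.ker_eq_bot']
    intro x hx
    apply idual_pair_left_nondeg χ U x
    intro f'
    exact congrArg (fun θ : idualB χ U →ₗ[ZMod p] ZMod p => θ f') hx
  have h1 : Module.finrank (ZMod p) (idualB χ U) ≤
      Module.finrank (ZMod p) (Module.Dual (ZMod p) (indBase p U)) :=
    LinearMap.finrank_le_finrank_of_injective (idual_beta_injective χ U)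
  have h2 : Module.finrank (ZMod p) (idualA (p := p) U) ≤
      Module.finrank (ZMod p) (Module.Dual (ZMod p) (idualB χ U)) :=
    LinearMap.finrank_le_finrank_of_injective hγ
  have h3 : Module.finrank (ZMod p) (Module.Dual (ZMod p) (indBase p U)) =
      Module.finrank (ZMod p) (indBase p U) := Subspace.dual_finrank_eq
  have h4 : Module.finrank (ZMod p) (Module.Dual (ZMod p) (idualB χ U)) =
      Module.finrank (ZMod p) (idualB χ U) := Subspace.dual_finrank_eq
  have h5 : Module.finrank (ZMod p) (idualA (p := p) U) =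
      Module.finrank (ZMod p) (indBase p U) := rfl
  have heq : Module.finrank (ZMod p) (idualB χ U) =
      Module.finrank (ZMod p) (Module.Dual (ZMod p) (indBase p U)) := by omega
  exact ⟨idual_beta_injective χ U,
    (LinearMap.injective_iff_surjective_of_finrank_eq_finrank heq).mp (idual_beta_injective χ U)⟩

/-- `Coind_U k(χ|U) ≃ Dual (indBase p U)`. -/
noncomputable def idual_equiv : idualB χ U ≃ₗ[ZMod p] Module.Dual (ZMod p) (indBase p U) :=
  LinearEquiv.ofBijective (idual_beta χ U) (idual_beta_bijective χ U)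

theorem idual_equiv_apply (f' : idualB χ U) : idual_equiv χ U f' = idual_beta χ U f' := rfl

/-- The inverse comparison map. -/
noncomputable def idual_betaInv : Module.Dual (ZMod p) (indBase p U) →ₗ[ZMod p] idualB χ U :=
  ((idual_equiv χ U).symm : Module.Dual (ZMod p) (indBase p U) →ₗ[ZMod p] idualB χ U)

theorem idual_beta_betaInv (θ : Module.Dual (ZMod p) (indBase p U)) :
    idual_beta χ U (idual_betaInv χ U θ) = θ := (idual_equiv χ U).apply_symm_apply θ

theorem idual_betaInv_beta (f' : idualB χ U) : idual_betaInv χ U (idual_beta χ U f') = f' :=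
  (idual_equiv χ U).symm_apply_apply f'

/-- `idual_betaInv` is `Γ`-equivariant. -/
theorem idual_betaInv_equivariant (g : Γ) (θ : Module.Dual (ZMod p) (indBase p U)) :
    idual_betaInv χ U (((indBase p U).dualTwist χ).ρ g θ) =
      Representation.coind U.subtype (idual_rhoN χ U) g (idual_betaInv χ U θ) := by
  apply idual_beta_injective χ U
  rw [idual_beta_betaInv, idual_beta_equivariant, idual_beta_betaInv]

/-- Adjointness for the inverse. -/
theorem idual_pair_betaInv (x : indBase p U) (θ : Module.Dual (ZMod p) (indBase p U)) :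
    idual_pair χ U x (idual_betaInv χ U θ) = dual_pair (indBase p U) x θ := by
  rw [← idual_pair_beta, idual_beta_betaInv]

end Fermat.Agent.S55
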