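import Mathlib

set_option autoImplicit false

/-!
# S55 block KSI: abstract greedy lemma and an index lemma
-/

namespace Fermat.Agent.S55

/-- Greedy choice of separating subgroups. -/
theorem ksi_greedy {A : Type*} [CommGroup A] (p : ℕ) (hp : p.Prime) {ι : Type*} [DecidableEq ι]
    (R : ι → Subgroup A) (N : Subgroup A) (hN : ∀ v, N ≤ R v) :
    ∀ (r : ℕ) (E : Subgroup A), N ≤ E → N.relIndex E ∣ p ^ r →
      (∀ g ∈ E, g ∉ N → ∀ T : Finset ι, ∃ v, v ∉ T ∧ g ∉ R v) →
      ∀ T : Finset ι, ∃ s : Finset ι, Disjoint s T ∧ s.card ≤ r ∧ E ⊓ ⨅ v ∈ s, R v ≤ N := by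
  intro r
  induction r with
  | zero =>
    intro E _ hdvd _ T
    have h1 : N.relIndex E = 1 := by simpa using hdvd
    rw [Subgroup.relIndex_eq_one] at h1
    exact ⟨∅, Finset.disjoint_empty_left T, le_rfl, inf_le_left.trans h1⟩
  | succ r ih =>
    intro E hNE hdvd hsep T
    by_cases hEN : E ≤ N
    · exact ⟨∅, Finset.disjoint_empty_left T, Nat.zero_le _, inf_le_left.trans hEN⟩
    · obtain ⟨g, hgE, hgN⟩ := SetLike.not_le_iff_exists.mp hEN
      obtain ⟨v, hvT, hgv⟩ := hsep g hgE hgN T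
      set E' := E ⊓ R v with hE'
      have hNE' : N ≤ E' := le_inf hNE (hN v)
      have hmul := Subgroup.relIndex_mul_relIndex N E' E hNE' inf_le_left
      have hne1 : E'.relIndex E ≠ 1 := by
        intro h
        rw [Subgroup.relIndex_eq_one] at h
        exact hgv (h hgE).2
      rw [← hmul] at hdvd
      obtain ⟨m, hm, hprod⟩ := (Nat.dvd_prime_pow hp).mp hdvd
      obtain ⟨i, hi, hNi⟩ := (Nat.dvd_prime_pow hp).mp (Dvd.intro _ hprod)
      obtain ⟨j, hj, hEj⟩ := (Nat.dvd_prime_pow hp).mp (Dvd.intro_left _ hprod)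
      have hj0 : j ≠ 0 := by
        rintro rfl
        exact hne1 (by rw [hEj, pow_zero])
      have hij : i + j = m := by
        rw [hNi, hEj, ← pow_add] at hprod
        exact Nat.pow_right_injective hp.two_le hprod
      have hir : N.relIndex E' ∣ p ^ r := by
        rw [hNi]
        exact pow_dvd_pow p (by omega)
      obtain ⟨s', hs'T, hs'card, hs'⟩ := ih E' hNE' hir
        (fun g hg hgN T => hsep g hg.1 hgN T) (insert v T)
      have hvs' : v ∉ s' := fun h =>
        (Finset.disjoint_left.mp hs'T h) (Finset.mem_insert_self v T)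
      refine ⟨insert v s', ?_, ?_, ?_⟩
      · rw [Finset.disjoint_insert_left]
        exact ⟨hvT, hs'T.mono_right (Finset.subset_insert v T)⟩
      · rw [Finset.card_insert_of_notMem hvs']
        omega
      · rw [Finset.iInf_insert, ← inf_assoc]
        exact hs'

/-- If `E ≤ W` and `[E : E ∩ H] = [W : W ∩ H] < ∞` then `W ≤ E · H`. -/
theorem ksi_le_sup_of_relIndex_eq {A : Type*} [CommGroup A] (H E W : Subgroup A) (hEW : E ≤ W)
    (h : H.relIndex E = H.relIndex W) (h0 : H.relIndex W ≠ 0) : W ≤ E ⊔ H := by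
  set M := E ⊔ (H ⊓ W) with hM
  have hMW : M ≤ W := sup_le hEW inf_le_right
  have h1 := Subgroup.relIndex_mul_relIndex (H ⊓ W) M W le_sup_right hMW
  have h2 : (H ⊓ W).relIndex W = H.relIndex W := Subgroup.inf_relIndex_right H W
  have h3 : (H ⊓ W).relIndex M = H.relIndex E := by
    rw [hM, Subgroup.relIndex_sup_right]
    unfold Subgroup.relIndex
    congr 1
    ext x
    simp only [Subgroup.mem_subgroupOf, Subgroup.mem_inf]
    exact ⟨fun hx => hx.1, fun hx => ⟨hx, hEW x.2⟩⟩
  rw [h2, h3, h] at h1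
  have h4 : M.relIndex W = 1 := by
    have : H.relIndex W * M.relIndex W = H.relIndex W * 1 := by rw [h1, mul_one]
    exact Nat.eq_of_mul_eq_mul_left (Nat.pos_of_ne_zero h0) this
  rw [Subgroup.relIndex_eq_one] at h4
  exact h4.trans (sup_le_sup_left inf_le_left _)

end Fermat.Agent.S55
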