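import Fermat.Agent.S55.SUnitRank
import Fermat.Agent.S55.HerbrandPrime

/-!
# The index of `p`-th powers in the group of `S`-units

For a number field `K` containing a primitive `p`-th root of unity (`p` prime) and a finite set
`S` of primes, `[E_S : E_S ^ p] = p ^ (#S + rank (𝓞 K)ˣ + 1)`.

* `su_index_pow`: the statement for the subgroup of `p`-th powers of the group `E_S`.
* `su_relIndex_pow`: the same as a relative index inside `Kˣ`.
-/

set_option autoImplicit false

namespace Fermat.Agent.S55

open IsDedekindDomain NumberField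

section Pow

variable (K : Type*) [Field K] [NumberField K]

/-- A root of unity is a unit at every prime. -/
theorem su_valuation_eq_one_of_pow (v : HeightOneSpectrum (𝓞 K)) (x : K) (n : ℕ) (hn : n ≠ 0)
    (hx : x ^ n = 1) : v.valuation K x = 1 := by
  have h : v.valuation K x ^ n = 1 := by rw [← map_pow, hx, map_one]
  have hx0 : v.valuation K x ≠ 0 := by
    intro h0
    rw [h0, zero_pow hn] at h
    exact zero_ne_one h
  have h2 := congrArg WithZero.log h
  rw [WithZero.log_pow, WithZero.log_one, smul_eq_zero] at h2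
  rcases h2 with h2 | h2
  · exact absurd h2 hn
  · rw [← WithZero.exp_log hx0, h2, WithZero.exp_zero]

/-- `[E_S : E_S ^ p] = p ^ (#S + rank + 1)` when `μ_p ⊂ K`. -/
theorem su_index_pow (p : ℕ) (hp : p.Prime) {ζ : K} (hζ : IsPrimitiveRoot ζ p)
    (S : Finset (HeightOneSpectrum (𝓞 K))) :
    (powMonoidHom p : (S : Set (HeightOneSpectrum (𝓞 K))).unit K →* _).range.index =
      p ^ (S.card + NumberField.Units.rank K + 1) := by
  classical
  obtain ⟨hfin, hrank⟩ := su_finrank K S
  set E := (S : Set (HeightOneSpectrum (𝓞 K))).unit K with hE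
  let P : AddMonoid.End (Additive E) := nsmulAddMonoidHom p
  obtain ⟨h1, h2, h3⟩ := hqp_triv p hp.ne_zero P (fun x => rfl)
  -- the index of `p`-th powers
  have e1 : hq (0 : AddMonoid.End (Additive E)) P = (powMonoidHom p : E →* E).range.index := by
    change AddSubgroup.relIndex (AddMonoidHom.range (nsmulAddMonoidHom p : Additive E →+ Additive E))
      (AddMonoidHom.ker (0 : Additive E →+ Additive E)) = _
    rw [AddMonoidHom.ker_zero, AddSubgroup.relIndex_top_right]
    rfl
  -- the `p`-torsion
  have e2 : hq P (0 : AddMonoid.End (Additive E)) = p := by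
    change AddSubgroup.relIndex (AddMonoidHom.range (0 : Additive E →+ Additive E))
      (AddMonoidHom.ker (nsmulAddMonoidHom p : Additive E →+ Additive E)) = _
    rw [AddMonoidHom.range_zero, AddSubgroup.relIndex_bot_left]
    have : NeZero p := ⟨hp.ne_zero⟩
    have hcard : Nat.card (rootsOfUnity p K) = p := hζ.card_rootsOfUnity
    have hmemE : ∀ y : rootsOfUnity p K, (y : Kˣ) ∈ E := by
      intro y v _
      have hy := (mem_rootsOfUnity' p (y : Kˣ)).mp y.2
      exact su_valuation_eq_one_of_pow K v _ p hp.ne_zero hy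
    have hker : ∀ y : rootsOfUnity p K, Additive.ofMul (⟨(y : Kˣ), hmemE y⟩ : E) ∈
        AddMonoidHom.ker (nsmulAddMonoidHom p : Additive E →+ Additive E) := by
      intro y
      rw [AddMonoidHom.mem_ker]
      change Additive.ofMul ((⟨(y : Kˣ), hmemE y⟩ : E) ^ p) = 0
      have : (⟨(y : Kˣ), hmemE y⟩ : E) ^ p = 1 := by
        apply Subtype.ext
        exact (mem_rootsOfUnity p (y : Kˣ)).mp y.2
      rw [this]
      rfl
    refine (Nat.card_congr ?_).trans hcard
    refine
      { toFun := fun x => ⟨((Additive.toMul (x : Additive E) : E) : Kˣ), ?_⟩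
        invFun := fun y => ⟨Additive.ofMul ⟨(y : Kˣ), hmemE y⟩, hker y⟩
        left_inv := fun x => rfl
        right_inv := fun y => rfl }
    have hx := x.2
    rw [AddMonoidHom.mem_ker] at hx
    rw [mem_rootsOfUnity]
    have hx' : (Additive.toMul (x : Additive E) : E) ^ p = 1 := hx
    exact congrArg (Subtype.val) hx'
  rw [← e1, h3, e2, hrank, pow_succ, mul_comm]

/-- The same as a relative index inside `Kˣ`. -/
theorem su_relIndex_pow (p : ℕ) (hp : p.Prime) {ζ : K} (hζ : IsPrimitiveRoot ζ p)
    (S : Finset (HeightOneSpectrum (𝓞 K))) :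
    (((S : Set (HeightOneSpectrum (𝓞 K))).unit K).map (powMonoidHom p : Kˣ →* Kˣ)).relIndex
      ((S : Set (HeightOneSpectrum (𝓞 K))).unit K) =
      p ^ (S.card + NumberField.Units.rank K + 1) := by
  rw [← su_index_pow K p hp hζ S, Subgroup.relIndex]
  congr 1
  ext x
  rw [Subgroup.mem_subgroupOf, Subgroup.mem_map, MonoidHom.mem_range]
  constructor
  · rintro ⟨y, hy, hyx⟩
    exact ⟨⟨y, hy⟩, Subtype.ext hyx⟩
  · rintro ⟨y, hy⟩
    exact ⟨(y : Kˣ), y.2, congrArg Subtype.val hy⟩

end Pow

end Fermat.Agent.S55
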