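import Fermat.Agent.S55.KsiSep
import Fermat.Agent.S55.KsiCount
import Fermat.Agent.S55.KsiGreedy
import Fermat.Agent.S55.SUnitPow

set_option autoImplicit false

/-!
# S55 block KSI: the auxiliary primes `T` and the surjectivity of `E_S → ∏_{w ∈ T} U_w / U_w^p`
-/

namespace Fermat.Agent.S55

open IsDedekindDomain NumberField WithZero

variable {K : Type} [Field K] [NumberField K]

theorem ksiD_eq_zero (p : ℕ) [hp : Fact p.Prime] {ζ : K} (hζ : IsPrimitiveRoot ζ p)
    (w : HeightOneSpectrum (𝓞 K)) (hw : (p : 𝓞 K) ∉ w.asIdeal) : ksiD ζ w = 0 := by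
  have h1 := ksi_val_p p hζ w
  have h2 : w.valuation K (p : K) = 1 := by
    have : (p : K) = algebraMap (𝓞 K) K (p : 𝓞 K) := by simp
    rw [this, HeightOneSpectrum.valuation_of_algebraMap, HeightOneSpectrum.intValuation_eq_one_iff]
    exact hw
  rw [h2, ← exp_zero, exp_inj] at h1
  have h3 : (p - 1) * ksiD ζ w = 0 := by
    have : (((p - 1) * ksiD ζ w : ℕ) : ℤ) = 0 := by linarith
    exact_mod_cast this
  rcases Nat.mul_eq_zero.mp h3 with h | h
  · have := hp.out.one_lt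
    omega
  · exact h

theorem ksi_mem_sunit_iff (S : Finset (HeightOneSpectrum (𝓞 K))) (x : Kˣ) :
    x ∈ (S : Set (HeightOneSpectrum (𝓞 K))).unit K ↔
      ∀ v : HeightOneSpectrum (𝓞 K), v ∉ S → v.valuation K (x : K) = 1 := by
  constructor
  · intro h v hv
    exact h v (by simpa using hv)
  · intro h v hv
    exact h v (by simpa using hv)

/-- `p`-th roots of `S`-units are `S`-units. -/
theorem ksi_sunit_of_pow (p : ℕ) (hp : p ≠ 0) (S : Finset (HeightOneSpectrum (𝓞 K))) (b : Kˣ)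
    (h : b ^ p ∈ (S : Set (HeightOneSpectrum (𝓞 K))).unit K) :
    b ∈ (S : Set (HeightOneSpectrum (𝓞 K))).unit K := by
  rw [ksi_mem_sunit_iff] at h ⊢
  intro v hv
  have := h v hv
  rw [Units.val_pow_eq_pow_val] at this
  exact ksi_val_eq_one_of_pow hp this

/-- Existence of the auxiliary primes. -/
theorem ksi_exists_aux_primes (p : ℕ) [hp : Fact p.Prime] [DecidableEq (HeightOneSpectrum (𝓞 K))]
    {ζ : K} (hζ : IsPrimitiveRoot ζ p) (S : Finset (HeightOneSpectrum (𝓞 K)))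
    (a : Kˣ) (ha : a ∈ (S : Set (HeightOneSpectrum (𝓞 K))).unit K)
    (hap : a ∉ (powMonoidHom p : Kˣ →* Kˣ).range)
    (L : Type) [Field L] [NumberField L] [Algebra K L] [IsGalois K L]
    (hL : Module.finrank K L = p) (θ : L) (hθ : θ ^ p = algebraMap K L (a : K)) :
    ∃ T : Finset (HeightOneSpectrum (𝓞 K)),
      (∀ w ∈ T, w ∉ S ∧ a ∈ ksiPow K p w 1) ∧ T.card ≤ S.card + NumberField.Units.rank K ∧
      (S : Set (HeightOneSpectrum (𝓞 K))).unit K ⊓ ⨅ w ∈ T, ksiPow K p w 1 ≤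
        Subgroup.zpowers a ⊔
          ((S : Set (HeightOneSpectrum (𝓞 K))).unit K).map (powMonoidHom p : Kˣ →* Kˣ) := by
  classical
  have hp0 : p ≠ 0 := hp.out.ne_zero
  set E := (S : Set (HeightOneSpectrum (𝓞 K))).unit K with hE
  set P := E.map (powMonoidHom p : Kˣ →* Kˣ) with hP
  set N := Subgroup.zpowers a ⊔ P with hN
  set r := S.card + NumberField.Units.rank K with hr
  let ι := {w : HeightOneSpectrum (𝓞 K) // w ∉ S ∧ a ∈ ksiPow K p w 1}
  let R : ι → Subgroup Kˣ := fun w => ksiPow K p w.1 1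
  have hPle : P ≤ (powMonoidHom p : Kˣ →* Kˣ).range := by
    rintro _ ⟨y, -, rfl⟩
    exact ⟨y, rfl⟩
  have hNR : ∀ v : ι, N ≤ R v := by
    intro v
    refine sup_le ?_ (hPle.trans le_sup_left)
    rw [Subgroup.zpowers_le]
    exact v.2.2
  have hPE : P ≤ E := by
    rintro _ ⟨y, hy, rfl⟩
    exact E.pow_mem hy p
  have hNE : N ≤ E := sup_le (by rw [Subgroup.zpowers_le]; exact ha) hPE
  have hPN : P ≤ N := le_sup_right
  have hidx : P.relIndex E = p ^ (r + 1) := su_relIndex_pow K p hp.out hζ S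
  have hmul := Subgroup.relIndex_mul_relIndex P N E hPN hNE
  have hne1 : P.relIndex N ≠ 1 := by
    intro h
    rw [Subgroup.relIndex_eq_one] at h
    exact hap (hPle (h (Subgroup.mem_sup_left (Subgroup.mem_zpowers a))))
  have hdvd : N.relIndex E ∣ p ^ r := by
    rw [hidx] at hmul
    obtain ⟨i, hi, hNi⟩ := (Nat.dvd_prime_pow hp.out).mp (Dvd.intro_left _ hmul)
    obtain ⟨j, hj, hPj⟩ := (Nat.dvd_prime_pow hp.out).mp (Dvd.intro _ hmul)
    have hj0 : j ≠ 0 := by
      rintro rfl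
      exact hne1 (by rw [hPj, pow_zero])
    have hij : j + i = r + 1 := by
      rw [hNi, hPj, ← pow_add] at hmul
      exact Nat.pow_right_injective hp.out.two_le hmul
    rw [hNi]
    exact pow_dvd_pow p (by omega)
  -- separation
  have hsep : ∀ g ∈ E, g ∉ N → ∀ T : Finset ι, ∃ v, v ∉ T ∧ g ∉ R v := by
    intro g hgE hgN T
    have hg' : ∀ (b : Kˣ) (i : ℕ), g ≠ b ^ p * a ^ i := by
      intro b i hgb
      apply hgN
      have hbE : b ^ p ∈ E := by
        have : b ^ p = g * (a ^ i)⁻¹ := by rw [hgb]; group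
        rw [this]
        exact E.mul_mem hgE (E.inv_mem (E.pow_mem ha i))
      have hb : b ∈ E := ksi_sunit_of_pow p hp0 S b hbE
      rw [hgb, mul_comm]
      exact Subgroup.mul_mem _ (Subgroup.mem_sup_left (Subgroup.pow_mem _
        (Subgroup.mem_zpowers a) i)) (Subgroup.mem_sup_right ⟨b, hb, rfl⟩)
    -- an element divisible by all primes of `S` and `T`
    have hex : ∀ v : HeightOneSpectrum (𝓞 K), ∃ x : 𝓞 K, x ∈ v.asIdeal ∧ x ≠ 0 :=
      fun v => Submodule.exists_mem_ne_zero_of_ne_bot v.ne_bot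
    choose m hm hm0 using hex
    set F : Finset (HeightOneSpectrum (𝓞 K)) := S ∪ T.image Subtype.val with hF
    set β : 𝓞 K := ∏ v ∈ F, m v with hβ
    have hβ0 : β ≠ 0 := Finset.prod_ne_zero_iff.mpr (fun v _ => hm0 v)
    have hβmem : ∀ v ∈ F, β ∈ v.asIdeal := by
      intro v hv
      obtain ⟨c, hc⟩ := Finset.dvd_prod_of_mem m hv
      rw [hβ, hc]
      exact v.asIdeal.mul_mem_right _ (hm v)
    obtain ⟨w, hβw, haw, hgw⟩ := ksi_exists_sep_prime p K hζ L hL a θ hθ hap g hg' β hβ0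
    have hwS : w ∉ S := fun h => hβw (hβmem w (Finset.mem_union_left _ h))
    refine ⟨⟨w, hwS, haw⟩, ?_, hgw⟩
    intro hT
    exact hβw (hβmem w (Finset.mem_union_right _ (Finset.mem_image_of_mem _ hT)))
  obtain ⟨s, -, hscard, hs⟩ := ksi_greedy p hp.out R N hNR r E hNE hdvd hsep ∅
  refine ⟨s.image Subtype.val, ?_, (Finset.card_image_le).trans hscard, ?_⟩
  · intro w hw
    obtain ⟨v, -, rfl⟩ := Finset.mem_image.mp hw
    exact v.2
  · rw [Finset.iInf_finset_image]
    exact hs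

end Fermat.Agent.S55
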