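import Mathlib

set_option autoImplicit false

/-!
# S55 block KSI: abstract index lemmas
-/

namespace Fermat.Agent.S55

open Subgroup

/-- If a map `c` to a finite type separates the cosets of `H` inside `K`, then `[K : H ∩ K]` is
bounded by the cardinality of the target. -/
theorem ksi_relIndex_le_of_inj {G : Type*} [Group G] (H K : Subgroup G) {T : Type*} [Finite T]
    (c : G → T) (hc : ∀ x ∈ K, ∀ y ∈ K, c x = c y → x⁻¹ * y ∈ H) :
    H.relIndex K ≤ Nat.card T ∧ H.relIndex K ≠ 0 := by
  let g : (K ⧸ H.subgroupOf K) → T := fun q => c (q.out : K)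
  have hg : Function.Injective g := by
    intro q q' h
    have h1 := hc _ (q.out : K).2 _ (q'.out : K).2 h
    have h2 : (QuotientGroup.mk q.out : K ⧸ H.subgroupOf K) = QuotientGroup.mk q'.out := by
      rw [QuotientGroup.eq]
      exact h1
    simpa using h2
  have hfin : Finite (K ⧸ H.subgroupOf K) := Finite.of_injective g hg
  refine ⟨?_, ?_⟩
  · rw [Subgroup.relIndex, Subgroup.index_eq_card]
    exact Nat.card_le_card_of_injective g hg
  · rw [Subgroup.relIndex]
    exact Subgroup.index_ne_zero_of_finite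

/-- If finitely many cosets `f i * H` cover `K`, then `[K : H ∩ K] ≤ n`. -/
theorem ksi_relIndex_le_of_cover {G : Type*} [Group G] (H K : Subgroup G) (n : ℕ)
    (f : Fin n → G) (hf : ∀ x ∈ K, ∃ i, (f i)⁻¹ * x ∈ H) :
    H.relIndex K ≤ n ∧ H.relIndex K ≠ 0 := by
  classical
  have hn : 0 < n := by
    obtain ⟨i, -⟩ := hf 1 K.one_mem
    exact Fin.pos i
  let c : G → Fin n := fun x => if h : ∃ i, (f i)⁻¹ * x ∈ H then h.choose else ⟨0, hn⟩
  have h := ksi_relIndex_le_of_inj H K c (by
    intro x hx y hy hxy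
    have h1 : (f (c x))⁻¹ * x ∈ H := by
      simp only [c, dif_pos (hf x hx)]
      exact (hf x hx).choose_spec
    have h2 : (f (c y))⁻¹ * y ∈ H := by
      simp only [c, dif_pos (hf y hy)]
      exact (hf y hy).choose_spec
    rw [hxy] at h1
    have : x⁻¹ * y = ((f (c y))⁻¹ * x)⁻¹ * ((f (c y))⁻¹ * y) := by group
    rw [this]
    exact H.mul_mem (H.inv_mem h1) h2)
  simpa using h

theorem ksi_index_le_of_cover {G : Type*} [Group G] (H : Subgroup G) (n : ℕ)
    (f : Fin n → G) (hf : ∀ x, ∃ i, (f i)⁻¹ * x ∈ H) :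
    H.index ≤ n ∧ H.index ≠ 0 := by
  have := ksi_relIndex_le_of_cover H ⊤ n f (fun x _ => hf x)
  simpa using this

/-- In a finite commutative group, the index of the `p`-th powers equals the number of elements
killed by `p`. -/
theorem ksi_index_pow_range_eq_card_ker {Q : Type*} [CommGroup Q] [Finite Q] (p : ℕ) :
    (powMonoidHom p : Q →* Q).range.index = Nat.card (powMonoidHom p : Q →* Q).ker := by
  have h1 := Subgroup.card_mul_index (powMonoidHom p : Q →* Q).range
  have h2 := Subgroup.card_mul_index (powMonoidHom p : Q →* Q).ker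
  rw [Subgroup.index_ker] at h2
  have h3 : Nat.card (powMonoidHom p : Q →* Q).range ≠ 0 := Nat.card_pos.ne'
  have : Nat.card (powMonoidHom p : Q →* Q).range * (powMonoidHom p : Q →* Q).range.index
      = Nat.card (powMonoidHom p : Q →* Q).range * Nat.card (powMonoidHom p : Q →* Q).ker := by
    rw [h1, mul_comm, h2]
  exact Nat.eq_of_mul_eq_mul_left (Nat.pos_of_ne_zero h3) this

/-- Key finite-group count: for subgroups `U ≤ W` of a commutative group with `[W : U]` finite,
`[W : W^p U] = [T : U]` where `T = {w ∈ W | w^p ∈ U}`. -/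
theorem ksi_relIndex_pow {A : Type*} [CommGroup A] (p : ℕ) (U W : Subgroup A) (hUW : U ≤ W)
    (hfin : U.relIndex W ≠ 0) :
    (W.map (powMonoidHom p : A →* A) ⊔ U).relIndex W
      = U.relIndex (W ⊓ U.comap (powMonoidHom p : A →* A)) := by
  have : Finite (W ⧸ U.subgroupOf W) := by
    apply Nat.finite_of_card_ne_zero
    rw [← Subgroup.index_eq_card]; exact hfin
  have key := ksi_index_pow_range_eq_card_ker (Q := W ⧸ U.subgroupOf W) p
  set f : (W ⧸ U.subgroupOf W) →* (W ⧸ U.subgroupOf W) := powMonoidHom p with hf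
  have hsurj : Function.Surjective (QuotientGroup.mk' (U.subgroupOf W)) :=
    QuotientGroup.mk'_surjective _
  -- range side
  have e1 : (W.map (powMonoidHom p : A →* A) ⊔ U).subgroupOf W
      = f.range.comap (QuotientGroup.mk' (U.subgroupOf W)) := by
    ext x
    simp only [Subgroup.mem_subgroupOf, Subgroup.mem_comap, MonoidHom.mem_range,
      QuotientGroup.mk'_apply]
    constructor
    · intro hx
      rw [Subgroup.mem_sup] at hx
      obtain ⟨y, ⟨w, hw, rfl⟩, u, hu, hyu⟩ := hx
      refine ⟨QuotientGroup.mk ⟨w, hw⟩, ?_⟩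
      rw [hf, powMonoidHom_apply, ← QuotientGroup.mk_pow, QuotientGroup.eq]
      rw [Subgroup.mem_subgroupOf]
      have : ((⟨w, hw⟩ ^ p : W)⁻¹ * x : W) = ((⟨w, hw⟩ ^ p : W)⁻¹ * x : W) := rfl
      have h2 : (((⟨w, hw⟩ ^ p : W)⁻¹ * x : W) : A) = u := by
        push_cast
        rw [← hyu]
        simp
      rw [h2]; exact hu
    · rintro ⟨q, hq⟩
      obtain ⟨w, rfl⟩ := hsurj q
      rw [hf, powMonoidHom_apply, QuotientGroup.mk'_apply, ← QuotientGroup.mk_pow,
        QuotientGroup.eq, Subgroup.mem_subgroupOf] at hq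
      rw [Subgroup.mem_sup]
      refine ⟨(w : A) ^ p, ⟨w, w.2, rfl⟩, ((w ^ p : W)⁻¹ * x : W), hq, ?_⟩
      push_cast
      simp
  -- kernel side
  have e2 : (W ⊓ U.comap (powMonoidHom p : A →* A)).subgroupOf W
      = f.ker.comap (QuotientGroup.mk' (U.subgroupOf W)) := by
    ext x
    rw [Subgroup.mem_subgroupOf, Subgroup.mem_comap, MonoidHom.mem_ker, Subgroup.mem_inf,
      QuotientGroup.mk'_apply, hf, powMonoidHom_apply, ← QuotientGroup.mk_pow,
      QuotientGroup.eq_one_iff, Subgroup.mem_subgroupOf, Subgroup.mem_comap, powMonoidHom_apply]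
    constructor
    · rintro ⟨-, hx⟩
      simpa using hx
    · intro hx
      exact ⟨x.2, by simpa using hx⟩
  have hle : U ≤ W ⊓ U.comap (powMonoidHom p : A →* A) := by
    intro u hu
    exact ⟨hUW hu, by simpa using U.pow_mem hu p⟩
  calc (W.map (powMonoidHom p : A →* A) ⊔ U).relIndex W
      = (f.range.comap (QuotientGroup.mk' (U.subgroupOf W))).index := by
        rw [Subgroup.relIndex, e1]
    _ = f.range.index := Subgroup.index_comap_of_surjective _ hsurj
    _ = Nat.card f.ker := key
    _ = (⊥ : Subgroup (W ⧸ U.subgroupOf W)).relIndex f.ker := (Subgroup.relIndex_bot_left _).symm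
    _ = ((⊥ : Subgroup (W ⧸ U.subgroupOf W)).comap (QuotientGroup.mk' (U.subgroupOf W))).relIndex
          (f.ker.comap (QuotientGroup.mk' (U.subgroupOf W))) := by
        rw [Subgroup.relIndex_comap, Subgroup.map_comap_eq_self_of_surjective hsurj]
    _ = (U.subgroupOf W).relIndex ((W ⊓ U.comap (powMonoidHom p : A →* A)).subgroupOf W) := by
        rw [e2]
        congr 1
        rw [MonoidHom.comap_bot, QuotientGroup.ker_mk']
    _ = U.relIndex (W ⊓ U.comap (powMonoidHom p : A →* A)) :=
        Subgroup.relIndex_subgroupOf inf_le_left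

end Fermat.Agent.S55
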