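import Mathlib

set_option autoImplicit false

/-!
# S55 block KSI: the Kummer-theory lemma `K ∩ L^p = ⟨a⟩ K^p` for `L = K(a^{1/p})`
-/

namespace Fermat.Agent.S55

/-- Kummer theory: if `g ∈ K` is a `p`-th power in `L ∋ θ`, `θ^p = a`, `[L:K] = p`, `μ_p ⊂ K`,
then `g ∈ ⟨a⟩ K^p`. -/
theorem ksi_kummer_pow {K L : Type*} [Field K] [Field L] [Algebra K L] [FiniteDimensional K L]
    [IsGalois K L] (p : ℕ) [hp : Fact p.Prime] (hL : Module.finrank K L = p) {ζ : K}
    (hζ : IsPrimitiveRoot ζ p) (a : K) (θ : L) (hθ : θ ^ p = algebraMap K L a)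
    (ha : ∀ t : K, t ^ p ≠ a) (g : K) (c : L) (hc : c ^ p = algebraMap K L g) :
    ∃ b : K, ∃ i : ℕ, g = b ^ p * a ^ i := by
  have hp0 : p ≠ 0 := hp.out.ne_zero
  have : NeZero p := ⟨hp0⟩
  have hinj : Function.Injective (algebraMap K L) := (algebraMap K L).injective
  have hθ0 : θ ≠ 0 := by
    rintro rfl
    rw [zero_pow hp0] at hθ
    have : a = 0 := by
      apply hinj
      rw [← hθ, map_zero]
    exact ha 0 (by rw [zero_pow hp0, this])
  have hθK : θ ∉ Set.range (algebraMap K L) := by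
    rintro ⟨t, rfl⟩
    rw [← map_pow] at hθ
    exact ha t (hinj hθ)
  obtain ⟨σ, hσ⟩ : ∃ σ : L ≃ₐ[K] L, σ θ ≠ θ := by
    by_contra h
    push Not at h
    exact hθK ((IsGalois.mem_range_algebraMap_iff_fixed θ).mpr h)
  have hζL : IsPrimitiveRoot (algebraMap K L ζ) p := hζ.map_of_injective hinj
  have h1 : (σ θ / θ) ^ p = 1 := by
    rw [div_pow, ← map_pow, hθ, AlgEquiv.commutes, div_self]
    rw [← hθ]
    exact pow_ne_zero p hθ0
  obtain ⟨k, hk, hkξ⟩ := hζL.eq_pow_of_pow_eq_one h1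
  have hk0 : k ≠ 0 := by
    rintro rfl
    rw [pow_zero] at hkξ
    apply hσ
    have := hkξ.symm
    rwa [div_eq_one_iff_eq hθ0] at this
  have hσθ : σ θ = algebraMap K L ζ ^ k * θ := by
    rw [hkξ]; field_simp
  by_cases hc0 : c = 0
  · refine ⟨0, 0, ?_⟩
    apply hinj
    rw [← hc, hc0, zero_pow hp0, zero_pow hp0, zero_mul, map_zero]
  have h2 : (σ c / c) ^ p = 1 := by
    rw [div_pow, ← map_pow, hc, AlgEquiv.commutes, div_self]
    rw [← hc]
    exact pow_ne_zero p hc0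
  obtain ⟨j, hj, hjξ⟩ := hζL.eq_pow_of_pow_eq_one h2
  have hσc : σ c = algebraMap K L ζ ^ j * c := by
    rw [hjξ]; field_simp
  have hcop : Nat.Coprime k p := by
    rw [Nat.coprime_comm, Nat.Prime.coprime_iff_not_dvd hp.out]
    intro hdvd
    exact absurd (Nat.le_of_dvd (Nat.pos_of_ne_zero hk0) hdvd) (by omega)
  obtain ⟨i, -, hki⟩ := Nat.exists_mul_mod_eq_of_coprime j hcop hp0
  have hpow : algebraMap K L ζ ^ (k * i) = algebraMap K L ζ ^ j := by
    rw [pow_eq_pow_mod (k * i) hζL.pow_eq_one, hki, ← pow_eq_pow_mod j hζL.pow_eq_one]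
  set c' : L := c / θ ^ i with hc'
  have hζL0 : algebraMap K L ζ ≠ 0 := hζL.ne_zero hp0
  have hσc' : σ c' = c' := by
    rw [hc', map_div₀, map_pow, hσc, hσθ, mul_pow, ← pow_mul, hpow]
    field_simp
  have hσ1 : σ ≠ 1 := by
    rintro rfl
    exact hσ rfl
  have hcard : Nat.card (L ≃ₐ[K] L) = p := by
    rw [IsGalois.card_aut_eq_finrank, hL]
  have htop : Subgroup.zpowers σ = ⊤ := zpowers_eq_top_of_prime_card hcard hσ1
  have hall : ∀ τ : L ≃ₐ[K] L, τ c' = c' := by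
    intro τ
    have hτ : τ ∈ Subgroup.zpowers σ := by rw [htop]; exact Subgroup.mem_top τ
    have hle : Subgroup.zpowers σ ≤ MulAction.stabilizer (L ≃ₐ[K] L) c' := by
      rw [Subgroup.zpowers_le]
      exact hσc'
    exact hle hτ
  obtain ⟨b, hb⟩ := (IsGalois.mem_range_algebraMap_iff_fixed c').mpr hall
  refine ⟨b, i, ?_⟩
  apply hinj
  have hcb : c = algebraMap K L b * θ ^ i := by
    rw [hb, hc']
    field_simp
  rw [← hc, hcb, mul_pow, ← pow_mul, mul_comm i p, pow_mul, hθ, map_mul, map_pow, map_pow]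

end Fermat.Agent.S55
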