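import Fermat.Agent.S55.KsiDefs
import Fermat.Agent.S55.KsiGroup

set_option autoImplicit false

/-!
# S55 block KSI: the local `p`-power index (finite level, completions-free)
-/

namespace Fermat.Agent.S55

open IsDedekindDomain NumberField WithZero

variable {K : Type*} [Field K] [NumberField K]

theorem ksi_lt_exp_iff (a : ℤᵐ⁰) (m : ℤ) : a < exp m ↔ a ≤ exp (m - 1) := by
  rcases eq_or_ne a 0 with rfl | ha
  · simp [zero_lt_iff]
  · rw [← exp_log ha, exp_lt_exp, exp_le_exp]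
    omega

theorem ksi_val_eq_one_of_pow {v : HeightOneSpectrum (𝓞 K)} {x : K} {n : ℕ} (hn : n ≠ 0)
    (h : v.valuation K (x ^ n) = 1) : v.valuation K x = 1 := by
  rw [map_pow] at h
  rcases lt_trichotomy (v.valuation K x) 1 with h1 | h1 | h1
  · exact absurd h (pow_lt_one' h1 hn).ne
  · exact h1
  · exact absurd h (one_lt_pow' h1 hn).ne'

/-- `[Kˣ : U_v · Kˣ^p] ≤ p`. -/
theorem ksi_index_units_sup_pow (p : ℕ) (hp : 0 < p) (v : HeightOneSpectrum (𝓞 K)) :
    (ksiU K v 0 ⊔ (powMonoidHom p : Kˣ →* Kˣ).range).index ≤ p ∧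
      (ksiU K v 0 ⊔ (powMonoidHom p : Kˣ →* Kˣ).range).index ≠ 0 := by
  obtain ⟨π, hπ⟩ := v.valuation_exists_uniformizer K
  have hπ0 : π ≠ 0 := by
    rintro rfl
    rw [map_zero] at hπ
    exact exp_ne_zero hπ.symm
  set πu : Kˣ := Units.mk0 π hπ0 with hπu
  refine ksi_index_le_of_cover _ p (fun r => πu ^ (r : ℕ)) ?_
  intro x
  set k : ℤ := log (v.valuation K (x : K)) with hk'
  have hk : v.valuation K (x : K) = exp k := (exp_log (by simp)).symm
  have hp' : (p : ℤ) ≠ 0 := by exact_mod_cast hp.ne'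
  have hr0 : 0 ≤ (-k) % (p : ℤ) := Int.emod_nonneg _ hp'
  have hr1 : (-k) % (p : ℤ) < p := Int.emod_lt_of_pos _ (by exact_mod_cast hp)
  refine ⟨⟨((-k) % (p : ℤ)).toNat, by omega⟩, ?_⟩
  have hw : x * πu ^ k ∈ ksiU K v 0 := by
    rw [mem_ksiU_zero_iff]
    push_cast
    rw [map_mul, map_zpow₀, hk, hπu, Units.val_mk0, hπ, ← exp_zsmul, ← exp_add]
    simp
  have heq : (πu ^ (((-k) % (p : ℤ)).toNat))⁻¹ * x
      = (x * πu ^ k) * (πu ^ ((-k) / (p : ℤ))) ^ p := by
    have h1 : (πu ^ (((-k) % (p : ℤ)).toNat))⁻¹ = πu ^ (-((-k) % (p : ℤ))) := by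
      rw [zpow_neg, ← zpow_natCast, Int.toNat_of_nonneg hr0]
    have h2 : (πu ^ ((-k) / (p : ℤ))) ^ p = πu ^ (((-k) / (p : ℤ)) * p) := by
      rw [zpow_mul, zpow_natCast]
    rw [h1, h2, mul_assoc, ← zpow_add, mul_comm x]
    congr 2
    have := Int.emod_add_mul_ediv (-k) (p : ℤ)
    linarith
  simp only
  rw [heq]
  exact Subgroup.mul_mem _ (Subgroup.mem_sup_left hw) (Subgroup.mem_sup_right ⟨_, rfl⟩)

/-- `[U^{(m)} : U^{(m+1)}] ≤ N(v)`. -/
theorem ksi_relIndex_succ (v : HeightOneSpectrum (𝓞 K)) (m : ℕ) :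
    (ksiU K v (m + 1)).relIndex (ksiU K v m) ≤ Nat.card (𝓞 K ⧸ v.asIdeal) ∧
      (ksiU K v (m + 1)).relIndex (ksiU K v m) ≠ 0 := by
  classical
  obtain ⟨π, hπ⟩ := v.valuation_exists_uniformizer K
  have hπ0 : π ≠ 0 := by
    rintro rfl
    rw [map_zero] at hπ
    exact exp_ne_zero hπ.symm
  have : Finite (𝓞 K ⧸ v.asIdeal) := v.asIdeal.finiteQuotientOfFreeOfNeBot v.ne_bot
  let c : Kˣ → 𝓞 K ⧸ v.asIdeal := fun x =>
    if h : v.valuation K (((x : K) - 1) / π ^ m) ≤ 1 then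
      Ideal.Quotient.mk v.asIdeal
        (v.exists_valuation_sub_lt_of_integer (K := K) h 1).choose
    else 0
  refine ksi_relIndex_le_of_inj _ _ c ?_
  intro x hx y hy hxy
  rw [mem_ksiU_iff] at hx hy
  have hπm : v.valuation K (π ^ m) = exp (-(m : ℤ)) := by
    rw [map_pow, hπ, ← exp_nsmul]; simp
  have hzx : v.valuation K (((x : K) - 1) / π ^ m) ≤ 1 := by
    rw [map_div₀, hπm]
    exact div_le_one_of_le₀ hx.2 zero_le
  have hzy : v.valuation K (((y : K) - 1) / π ^ m) ≤ 1 := by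
    rw [map_div₀, hπm]
    exact div_le_one_of_le₀ hy.2 zero_le
  have hax := (v.exists_valuation_sub_lt_of_integer (K := K) hzx 1).choose_spec
  have hay := (v.exists_valuation_sub_lt_of_integer (K := K) hzy 1).choose_spec
  set ax := (v.exists_valuation_sub_lt_of_integer (K := K) hzx 1).choose with hax'
  set ay := (v.exists_valuation_sub_lt_of_integer (K := K) hzy 1).choose with hay'
  have hc : Ideal.Quotient.mk v.asIdeal ax = Ideal.Quotient.mk v.asIdeal ay := by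
    have h1 : c x = Ideal.Quotient.mk v.asIdeal ax := by simp only [c, dif_pos hzx, hax']
    have h2 : c y = Ideal.Quotient.mk v.asIdeal ay := by simp only [c, dif_pos hzy, hay']
    rw [← h1, ← h2, hxy]
  rw [Ideal.Quotient.eq] at hc
  have h3 : v.valuation K (algebraMap (𝓞 K) K (ax - ay)) < 1 :=
    (v.valuation_lt_one_iff_mem (K := K) _).mpr hc
  simp only [Units.val_one] at hax hay
  have h4 : v.valuation K ((((y : K) - 1) / π ^ m) - (((x : K) - 1) / π ^ m)) < 1 := by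
    have e : (((y : K) - 1) / π ^ m) - (((x : K) - 1) / π ^ m)
        = (algebraMap (𝓞 K) K ax - ((x : K) - 1) / π ^ m)
          + (-(algebraMap (𝓞 K) K ay - ((y : K) - 1) / π ^ m)
              + -(algebraMap (𝓞 K) K (ax - ay))) := by
      rw [map_sub]; ring
    rw [e]
    refine Valuation.map_add_lt _ hax (Valuation.map_add_lt _ ?_ ?_)
    · rwa [Valuation.map_neg]
    · rwa [Valuation.map_neg]
  have h5 : v.valuation K ((y : K) - x) ≤ exp (-((m + 1 : ℕ) : ℤ)) := by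
    have e : (((y : K) - 1) / π ^ m) - (((x : K) - 1) / π ^ m) = ((y : K) - x) / π ^ m := by
      field_simp; ring
    rw [e, map_div₀, hπm, div_lt_one₀ (by simp [zero_lt_iff])] at h4
    rw [ksi_lt_exp_iff] at h4
    convert h4 using 2
    push_cast; ring
  rw [mem_ksiU_iff]
  have hx0 : (x : K) ≠ 0 := x.ne_zero
  refine ⟨by simp [hx.1, hy.1], ?_⟩
  have e : ((x⁻¹ * y : Kˣ) : K) - 1 = ((y : K) - x) * (x : K)⁻¹ := by
    push_cast; field_simp
  rw [e, map_mul, map_inv₀, hx.1, inv_one, mul_one]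
  exact h5

/-- `[U^{(m)} : U^{(m+j)}] ≤ N(v)^j`. -/
theorem ksi_relIndex_add (v : HeightOneSpectrum (𝓞 K)) (m j : ℕ) :
    (ksiU K v (m + j)).relIndex (ksiU K v m) ≤ Nat.card (𝓞 K ⧸ v.asIdeal) ^ j ∧
      (ksiU K v (m + j)).relIndex (ksiU K v m) ≠ 0 := by
  induction j with
  | zero => simp [Subgroup.relIndex_self]
  | succ j ih =>
    have h1 := ksi_relIndex_succ v (m + j)
    have h2 := Subgroup.relIndex_mul_relIndex (ksiU K v (m + j + 1)) (ksiU K v (m + j))
      (ksiU K v m) (ksiU_anti v (by omega)) (ksiU_anti v (by omega))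
    rw [← add_assoc, ← h2]
    refine ⟨?_, mul_ne_zero h1.2 ih.2⟩
    rw [pow_succ, mul_comm]
    exact Nat.mul_le_mul ih.1 h1.1

end Fermat.Agent.S55
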