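import Fermat.Agent.S55.KsiSurj
import Fermat.Agent.S55.KsiSplit
import Fermat.Agent.S55.SUnitPid

set_option autoImplicit false

/-!
# S55 block KSI: the second inequality (assembly, with three auxiliary inputs as hypotheses)
-/

namespace Fermat.Agent.S55

open IsDedekindDomain NumberField WithZero

variable {K : Type} [Field K] [NumberField K]

theorem ksi_sunit_mono {S S' : Finset (HeightOneSpectrum (𝓞 K))} (h : S ⊆ S') :
    (S : Set (HeightOneSpectrum (𝓞 K))).unit K ≤ (S' : Set (HeightOneSpectrum (𝓞 K))).unit K := by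
  intro x hx
  rw [ksi_mem_sunit_iff] at hx ⊢
  exact fun v hv => hx v (fun hv' => hv (h hv'))

/-- The key claim: an `S ∪ T`-unit which is a local `p`-th power at all `v ∈ S` is a `p`-th
power. Uses the weak first inequality `hFI`. -/
theorem ksi_claim (p : ℕ) [hp : Fact p.Prime] [DecidableEq (HeightOneSpectrum (𝓞 K))]
    {ζ : K} (hζ : IsPrimitiveRoot ζ p) (S : Finset (HeightOneSpectrum (𝓞 K)))
    (hpS : ∀ v : HeightOneSpectrum (𝓞 K), (p : 𝓞 K) ∈ v.asIdeal → v ∈ S) (hPID : suPid K S)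
    (T : Finset (HeightOneSpectrum (𝓞 K)))
    (hsurj : (⨅ w ∈ T, ksiU K w 0) ≤
        (S : Set (HeightOneSpectrum (𝓞 K))).unit K ⊔ ⨅ w ∈ T, ksiPow K p w 1)
    (hTop : (⨅ w ∈ T, ksiU K w 0) ⊔
        ((↑(S ∪ T) : Set (HeightOneSpectrum (𝓞 K))).unit K) = ⊤)
    (hExt : ∀ x : K, (∀ t : K, t ^ p ≠ x) →
      ∃ (M : Type) (_ : Field M) (_ : NumberField M) (_ : Algebra K M) (_ : IsGalois K M),
        Module.finrank K M = p ∧ ∃ θ : M, θ ^ p = algebraMap K M x)
    (hFI : ∀ (S' : Finset (HeightOneSpectrum (𝓞 K))),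
      (∀ v : HeightOneSpectrum (𝓞 K), (p : 𝓞 K) ∈ v.asIdeal → v ∈ S') → suPid K S' →
      ∀ x : Kˣ, x ∈ (S' : Set (HeightOneSpectrum (𝓞 K))).unit K →
      x ∉ (powMonoidHom p : Kˣ →* Kˣ).range →
      ∀ (M : Type) [Field M] [NumberField M] [Algebra K M] [IsGalois K M],
      Module.finrank K M = p → ∀ θ : M, θ ^ p = algebraMap K M (x : K) →
      (∀ v : HeightOneSpectrum (𝓞 K), (p : 𝓞 K) ∈ v.asIdeal → ¬ suNonsplit K M v) →
      ((S' : Set (HeightOneSpectrum (𝓞 K))).unit K ⊔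
        ⨅ v ∈ S', ⨅ (_ : suNonsplit K M v), ksiNorm K M v 1) ≠ ⊤)
    (n' : HeightOneSpectrum (𝓞 K) → ℕ) (hn' : ∀ v ∈ S, p * ksiD ζ v < n' v) :
    ((↑(S ∪ T) : Set (HeightOneSpectrum (𝓞 K))).unit K) ⊓ ⨅ v ∈ S, ksiPow K p v (n' v) ≤
      (powMonoidHom p : Kˣ →* Kˣ).range := by
  have hp0 : p ≠ 0 := hp.out.ne_zero
  intro x hx
  rw [Subgroup.mem_inf] at hx
  obtain ⟨hxE, hxD⟩ := hx
  by_contra hxp
  have hx' : ∀ t : K, t ^ p ≠ (x : K) := by
    intro t ht
    have ht0 : t ≠ 0 := by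
      rintro rfl
      rw [zero_pow hp0] at ht
      exact x.ne_zero ht.symm
    apply hxp
    refine ⟨Units.mk0 t ht0, ?_⟩
    ext
    simpa using ht
  obtain ⟨M, iF, iN, iA, iG, hM, θ, hθ⟩ := hExt (x : K) hx'
  have hxv : ∀ v ∈ S, x ∈ ksiPow K p v (n' v) := by
    intro v hv
    exact Subgroup.mem_iInf.mp (Subgroup.mem_iInf.mp hxD v) hv
  have hns : ∀ v ∈ S, ¬ suNonsplit K M v := fun v hv =>
    ksi_not_nonsplit p hζ hM θ x hθ hxp v (ksiD ζ v) (ksiD_spec p hζ v) (n' v) (hn' v hv)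
      (hxv v hv)
  have hfi := hFI (S ∪ T) (fun v hv => Finset.mem_union_left _ (hpS v hv))
    (suPid_mono Finset.subset_union_left hPID) x hxE hxp M hM θ hθ
    (fun v hv => hns v (hpS v hv))
  apply hfi
  rw [eq_top_iff, ← hTop]
  refine sup_le (hsurj.trans (sup_le ?_ ?_)) le_sup_left
  · exact (ksi_sunit_mono Finset.subset_union_left).trans le_sup_left
  · refine le_trans ?_ le_sup_right
    refine le_iInf (fun v => le_iInf (fun hv => le_iInf (fun hnsv => ?_)))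
    rcases Finset.mem_union.mp hv with hvS | hvT
    · exact absurd hnsv (hns v hvS)
    · exact (iInf_le_of_le v (iInf_le _ hvT)).trans (ksiPow_le_ksiNorm p M hM v 1)

/-- The second inequality, with the three auxiliary inputs (`hExt`, `hTop`, `hNormAdj`) as
hypotheses. -/
theorem ksi_second_inequality_aux (p : ℕ) [hp : Fact p.Prime]
    {ζ : K} (hζ : IsPrimitiveRoot ζ p) (S : Finset (HeightOneSpectrum (𝓞 K)))
    (hpS : ∀ v : HeightOneSpectrum (𝓞 K), (p : 𝓞 K) ∈ v.asIdeal → v ∈ S) (hPID : suPid K S)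
    (a : Kˣ) (ha : a ∈ (S : Set (HeightOneSpectrum (𝓞 K))).unit K)
    (hap : a ∉ (powMonoidHom p : Kˣ →* Kˣ).range)
    (L : Type) [Field L] [NumberField L] [Algebra K L] [IsGalois K L]
    (hL : Module.finrank K L = p) (θ : L) (hθ : θ ^ p = algebraMap K L (a : K))
    (hExt : ∀ x : K, (∀ t : K, t ^ p ≠ x) →
      ∃ (M : Type) (_ : Field M) (_ : NumberField M) (_ : Algebra K M) (_ : IsGalois K M),
        Module.finrank K M = p ∧ ∃ θ : M, θ ^ p = algebraMap K M x)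
    (hTop : ∀ [DecidableEq (HeightOneSpectrum (𝓞 K))] (T : Finset (HeightOneSpectrum (𝓞 K))),
      (∀ w ∈ T, w ∉ S) → (⨅ w ∈ T, ksiU K w 0) ⊔
        ((↑(S ∪ T) : Set (HeightOneSpectrum (𝓞 K))).unit K) = ⊤)
    (hNormAdj : ∀ [DecidableEq (HeightOneSpectrum (𝓞 K))] (T : Finset (HeightOneSpectrum (𝓞 K))),
      (∀ w ∈ T, w ∉ S ∧ a ∈ ksiPow K p w 1) →
      ((↑(S ∪ T) : Set (HeightOneSpectrum (𝓞 K))).unit K) ≤
        ((S : Set (HeightOneSpectrum (𝓞 K))).unit K) ⊔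
          (Units.map (Algebra.norm K : L →* K)).range)
    (hFI : ∀ (S' : Finset (HeightOneSpectrum (𝓞 K))),
      (∀ v : HeightOneSpectrum (𝓞 K), (p : 𝓞 K) ∈ v.asIdeal → v ∈ S') → suPid K S' →
      ∀ x : Kˣ, x ∈ (S' : Set (HeightOneSpectrum (𝓞 K))).unit K →
      x ∉ (powMonoidHom p : Kˣ →* Kˣ).range →
      ∀ (M : Type) [Field M] [NumberField M] [Algebra K M] [IsGalois K M],
      Module.finrank K M = p → ∀ θ : M, θ ^ p = algebraMap K M (x : K) →
      (∀ v : HeightOneSpectrum (𝓞 K), (p : 𝓞 K) ∈ v.asIdeal → ¬ suNonsplit K M v) →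
      ((S' : Set (HeightOneSpectrum (𝓞 K))).unit K ⊔
        ⨅ v ∈ S', ⨅ (_ : suNonsplit K M v), ksiNorm K M v 1) ≠ ⊤)
    (n : HeightOneSpectrum (𝓞 K) → ℕ) :
    ((S : Set (HeightOneSpectrum (𝓞 K))).unit K ⊔ ⨅ v ∈ S, ksiNorm K L v (n v)).index ≤ p ∧
      ((S : Set (HeightOneSpectrum (𝓞 K))).unit K ⊔ ⨅ v ∈ S, ksiNorm K L v (n v)).index ≠ 0 := by
  classical
  have hp0 : p ≠ 0 := hp.out.ne_zero
  obtain ⟨T, hT, hTcard, hsep⟩ := ksi_exists_aux_primes p hζ S a ha hap L hL θ hθ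
  obtain ⟨hTr, hsurj⟩ := ksi_aux_surj p hζ S hpS a ha hap T hT hTcard hsep
  set n' : HeightOneSpectrum (𝓞 K) → ℕ := fun v => max (n v) (p * ksiD ζ v + 1) with hn'def
  have hn' : ∀ v ∈ S, p * ksiD ζ v < n' v := fun v _ => by
    simp only [hn'def]
    exact lt_of_lt_of_le (Nat.lt_succ_self _) (le_max_right _ _)
  set E := (S : Set (HeightOneSpectrum (𝓞 K))).unit K with hE
  set E' := (↑(S ∪ T) : Set (HeightOneSpectrum (𝓞 K))).unit K with hE'
  set D := ⨅ v ∈ S, ksiPow K p v (n' v) with hD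
  have hDidx := ksi_index_iInf_ksiPow_le p hζ S n' hn'
  rw [← hD] at hDidx
  have hclaim : E' ⊓ D ≤ (powMonoidHom p : Kˣ →* Kˣ).range :=
    ksi_claim p hζ S hpS hPID T hsurj (hTop T (fun w hw => (hT w hw).1)) hExt hFI n' hn'
  have hrangeD : (powMonoidHom p : Kˣ →* Kˣ).range ≤ D := by
    rw [hD]
    exact le_iInf (fun v => le_iInf (fun _ => le_sup_left))
  have hDE : D ⊓ E' = E'.map (powMonoidHom p : Kˣ →* Kˣ) := by
    apply le_antisymm
    · intro x hx
      obtain ⟨y, rfl⟩ := hclaim ⟨hx.2, hx.1⟩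
      have hy : y ∈ E' := ksi_sunit_of_pow p hp0 (S ∪ T) y hx.2
      exact ⟨y, hy, rfl⟩
    · refine le_inf ?_ ?_
      · rintro _ ⟨y, -, rfl⟩
        exact hrangeD ⟨y, rfl⟩
      · rintro _ ⟨y, hy, rfl⟩
        exact E'.pow_mem hy p
  have hdisj : Disjoint S T := by
    rw [Finset.disjoint_left]
    intro v hvS hvT
    exact (hT v hvT).1 hvS
  have hcardST : (S ∪ T).card = S.card + (S.card + NumberField.Units.rank K) := by
    rw [Finset.card_union_of_disjoint hdisj, hTr]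
  have hrel : D.relIndex E' = p ^ (2 * S.card + 2 * NumberField.Units.rank K + 1) := by
    rw [← Subgroup.inf_relIndex_right, hDE, hE', su_relIndex_pow K p hp.out hζ (S ∪ T),
      hcardST]
    congr 1
    ring
  have hmul := Subgroup.relIndex_mul_index (show D ≤ D ⊔ E' from le_sup_left)
  rw [Subgroup.relIndex_sup_left, hrel] at hmul
  have hfin := ksi_finrank_le K
  have hidx : (D ⊔ E').index ≤ p ∧ (D ⊔ E').index ≠ 0 := by
    have h0 : (D ⊔ E').index ≠ 0 := by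
      intro h
      rw [h, mul_zero] at hmul
      exact hDidx.2 hmul.symm
    refine ⟨?_, h0⟩
    have h1 : p ^ (2 * S.card + 2 * NumberField.Units.rank K + 1) * (D ⊔ E').index
        ≤ p ^ (2 * S.card + 2 * NumberField.Units.rank K + 1) * p := by
      rw [hmul, ← pow_succ]
      exact hDidx.1.trans (Nat.pow_le_pow_right hp.out.pos (by omega))
    exact Nat.le_of_mul_le_mul_left h1 (pow_pos hp.out.pos _)
  have hle : D ⊔ E' ≤ E ⊔ ⨅ v ∈ S, ksiNorm K L v (n v) := by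
    have hNle : (Units.map (Algebra.norm K : L →* K)).range ≤ ⨅ v ∈ S, ksiNorm K L v (n v) :=
      le_iInf (fun v => le_iInf (fun _ => le_sup_left))
    refine sup_le ?_ ?_
    · refine le_trans ?_ le_sup_right
      refine le_iInf (fun v => le_iInf (fun hv => ?_))
      refine (iInf_le_of_le v (iInf_le _ hv)).trans ?_
      exact (ksiPow_anti p v (le_max_left _ _)).trans (ksiPow_le_ksiNorm p L hL v (n v))
    · exact (hNormAdj T hT).trans (sup_le_sup_left hNle _)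
  have hdvd := Subgroup.index_dvd_of_le hle
  refine ⟨(Nat.le_of_dvd (Nat.pos_of_ne_zero hidx.2) hdvd).trans hidx.1, ?_⟩
  intro h
  rw [h] at hdvd
  exact hidx.2 (Nat.eq_zero_of_zero_dvd hdvd)

end Fermat.Agent.S55
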