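import Fermat.Agent.S55.KsiLocal

set_option autoImplicit false

/-!
# S55 block KSI: `p`-th power residues versus `ksiPow K p w 1`, and degree-one primes
-/

namespace Fermat.Agent.S55

open IsDedekindDomain NumberField WithZero

variable {K : Type*} [Field K] [NumberField K]

theorem ksi_val_pow_sub_pow_lt (w : HeightOneSpectrum (𝓞 K)) (y T : K)
    (hy : w.valuation K y ≤ 1) (hT : w.valuation K T ≤ 1) (h : w.valuation K (y - T) < 1)
    (n : ℕ) : w.valuation K (y ^ n - T ^ n) < 1 := by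
  induction n with
  | zero => simp
  | succ k ih =>
    have e : y ^ (k + 1) - T ^ (k + 1) = y * (y ^ k - T ^ k) + (y - T) * T ^ k := by ring
    rw [e]
    refine Valuation.map_add_lt _ ?_ ?_
    · rw [map_mul]
      exact lt_of_le_of_lt (mul_le_of_le_one_left' hy) ih
    · rw [map_mul, map_pow]
      exact lt_of_le_of_lt (mul_le_of_le_one_right' (pow_le_one' hT k)) h

/-- If `m ≡ t^p mod w` with `m ∉ w`, then `m` is a local `p`-th power at `w` to precision `1`. -/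
theorem ksi_mem_ksiPow_of_res (p : ℕ) (hp : p ≠ 0) (w : HeightOneSpectrum (𝓞 K)) (m t : 𝓞 K)
    (hm : m ∉ w.asIdeal) (h : m - t ^ p ∈ w.asIdeal) (u : Kˣ)
    (hu : (u : K) = algebraMap (𝓞 K) K m) : u ∈ ksiPow K p w 1 := by
  have := w.isPrime
  have ht : t ∉ w.asIdeal := by
    intro ht
    apply hm
    have : m = (m - t ^ p) + t ^ p := by ring
    rw [this]
    exact w.asIdeal.add_mem h (w.asIdeal.pow_mem_of_mem ht p (Nat.pos_of_ne_zero hp))
  have hvm : w.valuation K (algebraMap (𝓞 K) K m) = 1 := by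
    rw [HeightOneSpectrum.valuation_of_algebraMap, HeightOneSpectrum.intValuation_eq_one_iff]
    exact hm
  have hvt : w.valuation K (algebraMap (𝓞 K) K t) = 1 := by
    rw [HeightOneSpectrum.valuation_of_algebraMap, HeightOneSpectrum.intValuation_eq_one_iff]
    exact ht
  have ht0 : algebraMap (𝓞 K) K t ≠ 0 := by
    intro h0
    rw [h0, map_zero] at hvt
    exact zero_ne_one hvt
  set tu : Kˣ := Units.mk0 _ ht0 with htu
  rw [mem_ksiPow_iff]
  refine ⟨tu, u * (tu ^ p)⁻¹, ?_, by rw [mul_comm u, ← mul_assoc, mul_inv_cancel, one_mul]⟩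
  rw [mem_ksiU_iff]
  have e0 : ((u * (tu ^ p)⁻¹ : Kˣ) : K)
      = algebraMap (𝓞 K) K m * ((algebraMap (𝓞 K) K t) ^ p)⁻¹ := by
    push_cast
    rw [hu, htu, Units.val_mk0]
  refine ⟨by rw [e0, map_mul, map_inv₀, map_pow, hvm, hvt]; simp, ?_⟩
  have e1 : ((u * (tu ^ p)⁻¹ : Kˣ) : K) - 1
      = algebraMap (𝓞 K) K (m - t ^ p) * ((algebraMap (𝓞 K) K t) ^ p)⁻¹ := by
    rw [e0, map_sub, map_pow]
    field_simp
  rw [e1, map_mul, map_inv₀, map_pow, hvt, one_pow, inv_one, mul_one]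
  have h2 : w.valuation K (algebraMap (𝓞 K) K (m - t ^ p)) < 1 :=
    (w.valuation_lt_one_iff_mem (K := K) _).mpr h
  have h3 := (ksi_lt_exp_iff _ 0).mp (by simpa using h2)
  simpa using h3

/-- If the `w`-unit `m` is a local `p`-th power at `w` to precision `1`, then it is a `p`-th
power residue modulo `w`. -/
theorem ksi_res_of_mem_ksiPow (p : ℕ) (hp : p ≠ 0) (w : HeightOneSpectrum (𝓞 K)) (m : 𝓞 K)
    (hm : m ∉ w.asIdeal) (u : Kˣ) (hu : (u : K) = algebraMap (𝓞 K) K m)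
    (h : u ∈ ksiPow K p w 1) : ∃ t : 𝓞 K, m - t ^ p ∈ w.asIdeal := by
  obtain ⟨y, u₁, hu₁, hyu⟩ := mem_ksiPow_iff.mp h
  rw [mem_ksiU_iff] at hu₁
  have hvm : w.valuation K (algebraMap (𝓞 K) K m) = 1 := by
    rw [HeightOneSpectrum.valuation_of_algebraMap, HeightOneSpectrum.intValuation_eq_one_iff]
    exact hm
  have hval : (u : K) = (y : K) ^ p * (u₁ : K) := by
    rw [← hyu]; push_cast; rfl
  have hvy : w.valuation K (y : K) = 1 := by
    apply ksi_val_eq_one_of_pow hp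
    have := hvm
    rw [← hu, hval, map_mul, hu₁.1, mul_one] at this
    exact this
  obtain ⟨t, ht⟩ := w.exists_valuation_sub_lt_of_integer (K := K) hvy.le 1
  simp only [Units.val_one] at ht
  refine ⟨t, ?_⟩
  suffices key : w.valuation K (algebraMap (𝓞 K) K (m - t ^ p)) < 1 from
    (w.valuation_lt_one_iff_mem (K := K) _).mp key
  have e : algebraMap (𝓞 K) K (m - t ^ p)
      = (y : K) ^ p * ((u₁ : K) - 1) + ((y : K) ^ p - (algebraMap (𝓞 K) K t) ^ p) := by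
    rw [map_sub, map_pow, ← hu, hval]; ring
  rw [e]
  refine Valuation.map_add_lt _ ?_ ?_
  · rw [map_mul, map_pow, hvy, one_pow, one_mul]
    refine lt_of_le_of_lt hu₁.2 ?_
    rw [← exp_zero, exp_lt_exp]
    norm_num
  · refine ksi_val_pow_sub_pow_lt w _ _ hvy.le (w.valuation_le_one t) ?_ p
    rw [← Valuation.map_neg]
    simpa using ht

omit [NumberField K] in
/-- At a prime `𝔚` of `L` of absolute degree one, every integer of `L` is congruent to an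
integer of `K`. -/
theorem ksi_exists_res_of_degree_one {L : Type*} [Field L] [NumberField L] [Algebra K L]
    (𝔚 : HeightOneSpectrum (𝓞 L)) (hdeg : (Ideal.absNorm 𝔚.asIdeal).Prime) (b : 𝓞 L) :
    ∃ b' : 𝓞 K, b - algebraMap (𝓞 K) (𝓞 L) b' ∈ 𝔚.asIdeal := by
  let φ : 𝓞 K →+* 𝓞 L ⧸ 𝔚.asIdeal :=
    (Ideal.Quotient.mk 𝔚.asIdeal).comp (algebraMap (𝓞 K) (𝓞 L))
  have hcard : Nat.card (𝓞 L ⧸ 𝔚.asIdeal) = Ideal.absNorm 𝔚.asIdeal := by
    rw [Ideal.absNorm_apply, Submodule.cardQuot_apply]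
  have : Fact (Nat.card (𝓞 L ⧸ 𝔚.asIdeal)).Prime := ⟨by rw [hcard]; exact hdeg⟩
  have hne : (φ : 𝓞 K →+ 𝓞 L ⧸ 𝔚.asIdeal).range ≠ ⊥ := by
    intro h
    have h1 : (1 : 𝓞 L ⧸ 𝔚.asIdeal) ∈ (φ : 𝓞 K →+ 𝓞 L ⧸ 𝔚.asIdeal).range := ⟨1, by simp⟩
    rw [h, AddSubgroup.mem_bot] at h1
    have h2 : (1 : 𝓞 L) ∈ 𝔚.asIdeal := by
      rw [← Ideal.Quotient.eq_zero_iff_mem]
      exact h1
    exact 𝔚.isPrime.ne_top ((Ideal.eq_top_iff_one _).mpr h2)
  have htop := (AddSubgroup.eq_bot_or_eq_top_of_prime_card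
    (φ : 𝓞 K →+ 𝓞 L ⧸ 𝔚.asIdeal).range).resolve_left hne
  have hb : Ideal.Quotient.mk 𝔚.asIdeal b ∈ (φ : 𝓞 K →+ 𝓞 L ⧸ 𝔚.asIdeal).range := by
    rw [htop]; exact AddSubgroup.mem_top _
  obtain ⟨b', hb'⟩ := hb
  refine ⟨b', ?_⟩
  rw [← Ideal.Quotient.eq]
  exact hb'.symm

end Fermat.Agent.S55
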