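import Fermat.Agent.S55.KsiRes
import Fermat.Agent.S55.KsiKummer
import Fermat.Agent.S55.Density

set_option autoImplicit false

/-!
# S55 block KSI: separating primes for the Kummer extension `L = K(a^{1/p})`
-/

namespace Fermat.Agent.S55

open IsDedekindDomain NumberField WithZero

/-- For `g ∉ ⟨a⟩ Kˣ^p` there is a prime `w` of `K` (avoiding the primes dividing `β`) at which
`a` is a local `p`-th power but `g` is not. -/
theorem ksi_exists_sep_prime (p : ℕ) [hp : Fact p.Prime] (K : Type) [Field K] [NumberField K]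
    {ζ : K} (hζ : IsPrimitiveRoot ζ p)
    (L : Type) [Field L] [NumberField L] [Algebra K L] [IsGalois K L]
    (hL : Module.finrank K L = p)
    (a : Kˣ) (θ : L) (hθ : θ ^ p = algebraMap K L (a : K))
    (hap : a ∉ (powMonoidHom p : Kˣ →* Kˣ).range)
    (g : Kˣ) (hg : ∀ (b : Kˣ) (i : ℕ), g ≠ b ^ p * a ^ i)
    (β : 𝓞 K) (hβ : β ≠ 0) :
    ∃ w : HeightOneSpectrum (𝓞 K), β ∉ w.asIdeal ∧ a ∈ ksiPow K p w 1 ∧
      g ∉ ksiPow K p w 1 := by
  have hp0 : p ≠ 0 := hp.out.ne_zero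
  have hp1 : p - 1 + 1 = p := Nat.sub_add_cancel hp.out.pos
  have hfd : FiniteDimensional K L := Module.finite_of_finrank_pos (by rw [hL]; exact hp.out.pos)
  have hinjKL : Function.Injective (algebraMap K L) := (algebraMap K L).injective
  have hinjO : Function.Injective (algebraMap (𝓞 K) K) := IsFractionRing.injective (𝓞 K) K
  -- numerators and denominators
  obtain ⟨na, da, hda, hnda⟩ := IsFractionRing.div_surjective (A := 𝓞 K) (a : K)
  obtain ⟨ng, dg, hdg, hndg⟩ := IsFractionRing.div_surjective (A := 𝓞 K) (g : K)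
  have hda0 : da ≠ 0 := nonZeroDivisors.ne_zero hda
  have hdg0 : dg ≠ 0 := nonZeroDivisors.ne_zero hdg
  have hDa0 : algebraMap (𝓞 K) K da ≠ 0 := fun h => hda0 (hinjO (by rw [h, map_zero]))
  have hDg0 : algebraMap (𝓞 K) K dg ≠ 0 := fun h => hdg0 (hinjO (by rw [h, map_zero]))
  have hna : algebraMap (𝓞 K) K na = (a : K) * algebraMap (𝓞 K) K da := by
    rw [← hnda]; field_simp
  have hng : algebraMap (𝓞 K) K ng = (g : K) * algebraMap (𝓞 K) K dg := by
    rw [← hndg]; field_simp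
  have hna0 : na ≠ 0 := by
    rintro rfl
    rw [map_zero] at hna
    exact mul_ne_zero a.ne_zero hDa0 hna.symm
  set ma : 𝓞 K := na * da ^ (p - 1) with hma
  set mg : 𝓞 K := ng * dg ^ (p - 1) with hmg
  have hmaK : algebraMap (𝓞 K) K ma = (a : K) * (algebraMap (𝓞 K) K da) ^ p := by
    rw [hma, map_mul, map_pow, hna, mul_assoc, ← pow_succ', hp1]
  have hmgK : algebraMap (𝓞 K) K mg = (g : K) * (algebraMap (𝓞 K) K dg) ^ p := by
    rw [hmg, map_mul, map_pow, hng, mul_assoc, ← pow_succ', hp1]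
  -- the element of `𝓞 L`
  set e : 𝓞 L := algebraMap (𝓞 K) (𝓞 L) mg with he
  have heL : (e : L) = algebraMap K L (algebraMap (𝓞 K) K mg) := by
    rw [he]
    rw [← IsScalarTower.algebraMap_apply (𝓞 K) K L, IsScalarTower.algebraMap_apply (𝓞 K) (𝓞 L) L]
  have ha' : ∀ t : K, t ^ p ≠ (a : K) := by
    intro t ht
    have ht0 : t ≠ 0 := by
      rintro rfl
      rw [zero_pow hp0] at ht
      exact a.ne_zero ht.symm
    apply hap
    refine ⟨Units.mk0 t ht0, ?_⟩
    ext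
    simpa using ht
  have hepow : ∀ c : L, (e : L) ≠ c ^ p := by
    intro c hc
    obtain ⟨b, i, hbi⟩ := ksi_kummer_pow p hL hζ (a : K) θ hθ ha' _ c (by rw [← hc, heL])
    rw [hmgK] at hbi
    have hb0 : b ≠ 0 := by
      rintro rfl
      rw [zero_pow hp0, zero_mul] at hbi
      exact mul_ne_zero g.ne_zero (pow_ne_zero p hDg0) hbi
    apply hg (Units.mk0 (b / algebraMap (𝓞 K) K dg) (div_ne_zero hb0 hDg0)) i
    ext
    push_cast
    rw [Units.val_mk0, div_pow]
    field_simp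
    rw [hbi]
  have hζL : IsPrimitiveRoot (algebraMap K L ζ) p := hζ.map_of_injective hinjKL
  -- the finite set to avoid
  set γ : 𝓞 K := β * na * da * dg with hγ
  have hγ0 : γ ≠ 0 := by
    rw [hγ]
    exact mul_ne_zero (mul_ne_zero (mul_ne_zero hβ hna0) hda0) hdg0
  have hγL : algebraMap (𝓞 K) (𝓞 L) γ ≠ 0 := by
    intro h
    apply hγ0
    have hinj : Function.Injective (algebraMap (𝓞 K) (𝓞 L)) :=
      FaithfulSMul.algebraMap_injective (𝓞 K) (𝓞 L)
    exact hinj (by rw [h, map_zero])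
  have hT' := den_finite_primes_of_mem L (algebraMap (𝓞 K) (𝓞 L) γ) hγL
  obtain ⟨𝔚, h𝔚T, hdeg, -, he𝔚, hres⟩ := den_exists_nonres L p hζL e hepow _ hT'
  set w : HeightOneSpectrum (𝓞 K) := 𝔚.under (𝓞 K) with hw
  have hmem : ∀ x : 𝓞 K, x ∈ w.asIdeal ↔ algebraMap (𝓞 K) (𝓞 L) x ∈ 𝔚.asIdeal := fun x => Iff.rfl
  have hwprime := w.isPrime
  have hγw : γ ∉ w.asIdeal := by
    rw [hmem]
    exact h𝔚T
  have hβw : β ∉ w.asIdeal := fun h => hγw (by
    rw [hγ, mul_assoc, mul_assoc]; exact w.asIdeal.mul_mem_right _ h)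
  have hnaw : na ∉ w.asIdeal := fun h => hγw (by
    rw [hγ, mul_comm β na, mul_assoc, mul_assoc]; exact w.asIdeal.mul_mem_right _ h)
  have hdaw : da ∉ w.asIdeal := fun h => hγw (by
    rw [hγ, mul_assoc]; exact w.asIdeal.mul_mem_left _ (w.asIdeal.mul_mem_right _ h))
  have hdgw : dg ∉ w.asIdeal := fun h => hγw (by
    rw [hγ]; exact w.asIdeal.mul_mem_left _ h)
  have hmaw : ma ∉ w.asIdeal := by
    intro h
    rcases hwprime.mem_or_mem h with h1 | h1
    · exact hnaw h1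
    · exact hdaw (hwprime.mem_of_pow_mem _ h1)
  have hmgw : mg ∉ w.asIdeal := by
    rw [hmem]
    exact he𝔚
  refine ⟨w, hβw, ?_, ?_⟩
  · -- `a` is a local `p`-th power at `w`
    set t : L := θ * algebraMap K L (algebraMap (𝓞 K) K da) with ht
    have htp : t ^ p = algebraMap K L (algebraMap (𝓞 K) K ma) := by
      rw [ht, mul_pow, hθ, hmaK, map_mul, map_pow]
    have htint : IsIntegral ℤ t := by
      apply IsIntegral.of_pow hp.out.pos
      rw [htp, ← IsScalarTower.algebraMap_apply (𝓞 K) K L]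
      have := (algebraMap (𝓞 K) (𝓞 L) ma).2
      rw [IsScalarTower.algebraMap_apply (𝓞 K) (𝓞 L) L]
      exact (algebraMap (𝓞 K) (𝓞 L) ma).isIntegral_coe
    set tO : 𝓞 L := ⟨t, htint⟩ with htO
    have htOp : tO ^ p = algebraMap (𝓞 K) (𝓞 L) ma := by
      apply RingOfIntegers.ext
      change t ^ p = _
      rw [htp, ← IsScalarTower.algebraMap_apply (𝓞 K) K L,
        IsScalarTower.algebraMap_apply (𝓞 K) (𝓞 L) L]
    obtain ⟨t', ht'⟩ := ksi_exists_res_of_degree_one (K := K) 𝔚 hdeg tO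
    have hres' : ma - t' ^ p ∈ w.asIdeal := by
      rw [hmem, map_sub, map_pow, ← htOp]
      obtain ⟨c, hc⟩ := sub_dvd_pow_sub_pow tO (algebraMap (𝓞 K) (𝓞 L) t') p
      rw [hc]
      exact 𝔚.asIdeal.mul_mem_right _ ht'
    set Da : Kˣ := Units.mk0 _ hDa0 with hDa
    have h1 : a * Da ^ p ∈ ksiPow K p w 1 :=
      ksi_mem_ksiPow_of_res p hp0 w ma t' hmaw hres' (a * Da ^ p) (by
        push_cast; rw [hDa, Units.val_mk0, hmaK])
    have h2 : (Da ^ p)⁻¹ ∈ ksiPow K p w 1 :=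
      Subgroup.inv_mem _ (Subgroup.mem_sup_left ⟨Da, rfl⟩)
    have := Subgroup.mul_mem _ h1 h2
    simpa using this
  · -- `g` is not
    intro hgmem
    set Dg : Kˣ := Units.mk0 _ hDg0 with hDg
    have h1 : g * Dg ^ p ∈ ksiPow K p w 1 :=
      Subgroup.mul_mem _ hgmem (Subgroup.mem_sup_left ⟨Dg, rfl⟩)
    obtain ⟨t, ht⟩ := ksi_res_of_mem_ksiPow p hp0 w mg hmgw (g * Dg ^ p) (by
      push_cast; rw [hDg, Units.val_mk0, hmgK]) h1
    apply hres
    refine ⟨algebraMap (𝓞 K) (𝓞 L) t, ?_⟩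
    rw [he, ← map_pow, ← map_sub, ← hmem]
    exact ht

end Fermat.Agent.S55
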