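import Fermat.Agent.S55.KsiAux

set_option autoImplicit false

/-!
# S55 block KSI: surjectivity of `E_S → ∏_{w ∈ T} U_w / U_w^p`
-/

namespace Fermat.Agent.S55

open IsDedekindDomain NumberField WithZero

variable {K : Type} [Field K] [NumberField K]

/-- `[∏_{w ∈ T} U_w : ∏ U_w ∩ p-th powers] ≤ p^{#T}` for primes `w ∤ p`. -/
theorem ksi_relIndex_aux (p : ℕ) [hp : Fact p.Prime] [DecidableEq (HeightOneSpectrum (𝓞 K))]
    {ζ : K} (hζ : IsPrimitiveRoot ζ p) (T : Finset (HeightOneSpectrum (𝓞 K)))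
    (hT : ∀ w ∈ T, (p : 𝓞 K) ∉ w.asIdeal) :
    (⨅ w ∈ T, ksiPow K p w 1).relIndex (⨅ w ∈ T, ksiU K w 0) ≤ p ^ T.card ∧
      (⨅ w ∈ T, ksiPow K p w 1).relIndex (⨅ w ∈ T, ksiU K w 0) ≠ 0 := by
  induction T using Finset.induction_on with
  | empty => simp
  | insert w T' hw ih =>
    have ih' := ih (fun v hv => hT v (Finset.mem_insert_of_mem hv))
    have hd : ksiD ζ w = 0 := ksiD_eq_zero p hζ w (hT w (Finset.mem_insert_self w T'))
    have h1 := ksi_relIndex_ksiPow_units p hζ w 0 (by rw [← hd]; exact ksiD_spec p hζ w) 1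
      (by simp)
    simp only [mul_zero, pow_zero, mul_one] at h1
    rw [Finset.iInf_insert, Finset.iInf_insert, Finset.card_insert_of_notMem hw]
    set A := ksiPow K p w 1
    set B := ⨅ v ∈ T', ksiPow K p v 1
    set W1 := ksiU K w 0
    set W2 := ⨅ v ∈ T', ksiU K v 0
    have hA : A.relIndex (W1 ⊓ W2) ≤ p ∧ A.relIndex (W1 ⊓ W2) ≠ 0 :=
      ⟨(Subgroup.relIndex_le_of_le_right inf_le_left h1.2).trans h1.1,
        fun h => h1.2 (Subgroup.relIndex_eq_zero_of_le_right inf_le_left h)⟩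
    have hB : B.relIndex (W1 ⊓ W2) ≤ p ^ T'.card ∧ B.relIndex (W1 ⊓ W2) ≠ 0 :=
      ⟨(Subgroup.relIndex_le_of_le_right inf_le_right ih'.2).trans ih'.1,
        fun h => ih'.2 (Subgroup.relIndex_eq_zero_of_le_right inf_le_right h)⟩
    refine ⟨Subgroup.relIndex_inf_le.trans ?_, Subgroup.relIndex_inf_ne_zero hA.2 hB.2⟩
    rw [pow_succ, mul_comm (p ^ T'.card) p]
    exact Nat.mul_le_mul hA.1 hB.1

/-- The surjectivity statement: every element which is a unit at all `w ∈ T` is an `S`-unit times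
an element which is a local `p`-th power at all `w ∈ T`; moreover `#T = #S + rank`. -/
theorem ksi_aux_surj (p : ℕ) [hp : Fact p.Prime] [DecidableEq (HeightOneSpectrum (𝓞 K))]
    {ζ : K} (hζ : IsPrimitiveRoot ζ p) (S : Finset (HeightOneSpectrum (𝓞 K)))
    (hpS : ∀ v : HeightOneSpectrum (𝓞 K), (p : 𝓞 K) ∈ v.asIdeal → v ∈ S)
    (a : Kˣ) (ha : a ∈ (S : Set (HeightOneSpectrum (𝓞 K))).unit K)
    (hap : a ∉ (powMonoidHom p : Kˣ →* Kˣ).range)
    (T : Finset (HeightOneSpectrum (𝓞 K)))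
    (hT : ∀ w ∈ T, w ∉ S ∧ a ∈ ksiPow K p w 1)
    (hcard : T.card ≤ S.card + NumberField.Units.rank K)
    (hsep : (S : Set (HeightOneSpectrum (𝓞 K))).unit K ⊓ ⨅ w ∈ T, ksiPow K p w 1 ≤
        Subgroup.zpowers a ⊔
          ((S : Set (HeightOneSpectrum (𝓞 K))).unit K).map (powMonoidHom p : Kˣ →* Kˣ)) :
    T.card = S.card + NumberField.Units.rank K ∧
      (⨅ w ∈ T, ksiU K w 0) ≤
        (S : Set (HeightOneSpectrum (𝓞 K))).unit K ⊔ ⨅ w ∈ T, ksiPow K p w 1 := by
  have hp0 : p ≠ 0 := hp.out.ne_zero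
  set E := (S : Set (HeightOneSpectrum (𝓞 K))).unit K with hE
  set P := E.map (powMonoidHom p : Kˣ →* Kˣ) with hP
  set N := Subgroup.zpowers a ⊔ P with hN
  set r := S.card + NumberField.Units.rank K with hr
  set HT := ⨅ w ∈ T, ksiPow K p w 1 with hHT
  set WT := ⨅ w ∈ T, ksiU K w 0 with hWT
  have hPle : P ≤ (powMonoidHom p : Kˣ →* Kˣ).range := by
    rintro _ ⟨y, -, rfl⟩
    exact ⟨y, rfl⟩
  have hPE : P ≤ E := by
    rintro _ ⟨y, hy, rfl⟩
    exact E.pow_mem hy p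
  have hNE : N ≤ E := sup_le (by rw [Subgroup.zpowers_le]; exact ha) hPE
  have hPN : P ≤ N := le_sup_right
  have hidx : P.relIndex E = p ^ (r + 1) := su_relIndex_pow K p hp.out hζ S
  have hmul := Subgroup.relIndex_mul_relIndex P N E hPN hNE
  have hne1 : P.relIndex N ≠ 1 := by
    intro h
    rw [Subgroup.relIndex_eq_one] at h
    exact hap (hPle (h (Subgroup.mem_sup_left (Subgroup.mem_zpowers a))))
  -- `[N : P] ≤ p`
  have hle : P.relIndex N ≤ p := by
    refine (ksi_relIndex_le_of_cover P N p (fun i => a ^ (i : ℕ)) ?_).1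
    intro x hx
    rw [hN, Subgroup.mem_sup] at hx
    obtain ⟨y, hy, q, hq, rfl⟩ := hx
    obtain ⟨k, rfl⟩ := Subgroup.mem_zpowers_iff.mp hy
    have hp' : (p : ℤ) ≠ 0 := by exact_mod_cast hp0
    have hr0 : 0 ≤ k % (p : ℤ) := Int.emod_nonneg _ hp'
    have hr1 : k % (p : ℤ) < p := Int.emod_lt_of_pos _ (by exact_mod_cast hp.out.pos)
    refine ⟨⟨(k % (p : ℤ)).toNat, by omega⟩, ?_⟩
    have heq : (a ^ ((k % (p : ℤ)).toNat))⁻¹ * (a ^ k * q) = (a ^ (k / (p : ℤ))) ^ p * q := by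
      have h1 : (a ^ ((k % (p : ℤ)).toNat))⁻¹ = a ^ (-(k % (p : ℤ))) := by
        rw [zpow_neg, ← zpow_natCast, Int.toNat_of_nonneg hr0]
      have h2 : (a ^ (k / (p : ℤ))) ^ p = a ^ ((k / (p : ℤ)) * p) := by
        rw [zpow_mul, zpow_natCast]
      rw [h1, h2, ← mul_assoc, ← zpow_add]
      congr 2
      have := Int.emod_add_mul_ediv k (p : ℤ)
      linarith
    simp only
    rw [heq]
    exact P.mul_mem ⟨a ^ (k / (p : ℤ)), E.zpow_mem ha _, rfl⟩ hq
  have hPNp : P.relIndex N = p := by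
    rw [hidx] at hmul
    obtain ⟨j, hj, hPj⟩ := (Nat.dvd_prime_pow hp.out).mp (Dvd.intro _ hmul)
    have hj0 : j ≠ 0 := by
      rintro rfl
      exact hne1 (by rw [hPj, pow_zero])
    have hj1 : j ≤ 1 := by
      by_contra hcon
      have h2 : p ^ 2 ≤ p ^ j := Nat.pow_le_pow_right hp.out.pos (by omega)
      rw [← hPj] at h2
      have h3 : p ^ 2 ≤ p := h2.trans hle
      have h4 : p < p ^ 2 := by
        rw [pow_two]
        exact lt_mul_of_one_lt_left hp.out.pos hp.out.one_lt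
      omega
    have : j = 1 := by omega
    rw [hPj, this, pow_one]
  have hNEr : N.relIndex E = p ^ r := by
    rw [hPNp, hidx, pow_succ, mul_comm] at hmul
    exact Nat.eq_of_mul_eq_mul_right hp.out.pos hmul
  -- `E ≤ W_T`
  have hEW : E ≤ WT := by
    intro x hx
    rw [hWT, Subgroup.mem_iInf]
    intro w
    rw [Subgroup.mem_iInf]
    intro hw
    rw [mem_ksiU_zero_iff]
    exact (ksi_mem_sunit_iff S x).mp hx w (hT w hw).1
  -- `H_T ⊓ E = N`
  have hNHT : N ≤ HT := by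
    rw [hHT]
    refine le_iInf (fun w => le_iInf (fun hw => ?_))
    refine sup_le ?_ (hPle.trans le_sup_left)
    rw [Subgroup.zpowers_le]
    exact (hT w hw).2
  have hinf : HT ⊓ E = N := by
    apply le_antisymm
    · rw [inf_comm]; exact hsep
    · exact le_inf hNHT hNE
  have hHTE : HT.relIndex E = p ^ r := by
    rw [← Subgroup.inf_relIndex_right, hinf, hNEr]
  have haux := ksi_relIndex_aux p hζ T (fun w hw hpw => (hT w hw).1 (hpS w hpw))
  rw [← hHT, ← hWT] at haux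
  have h1 : HT.relIndex E ≤ HT.relIndex WT := Subgroup.relIndex_le_of_le_right hEW haux.2
  have h2 : p ^ r ≤ p ^ T.card := by rw [← hHTE]; exact h1.trans haux.1
  have h3 : r ≤ T.card := (Nat.pow_le_pow_iff_right hp.out.one_lt).mp h2
  have hTr : T.card = r := le_antisymm hcard h3
  refine ⟨hTr, ?_⟩
  have h4 : HT.relIndex E = HT.relIndex WT := by
    apply le_antisymm h1
    rw [hHTE, ← hTr]
    exact haux.1
  exact ksi_le_sup_of_relIndex_eq HT E WT hEW h4 haux.2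

end Fermat.Agent.S55
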