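import Fermat.Agent.S55.KsiLocal

set_option autoImplicit false

/-!
# S55 block KSI: `p`-torsion at finite level and the local `p`-power index bound
-/

namespace Fermat.Agent.S55

open IsDedekindDomain NumberField WithZero

variable {K : Type*} [Field K] [NumberField K]

theorem ksi_val_one_sub_pow_le (v : HeightOneSpectrum (𝓞 K)) (x : K)
    (hx : v.valuation K x ≤ 1) (m : ℕ) :
    v.valuation K (1 - x ^ m) ≤ v.valuation K (1 - x) := by
  have h : 1 - x ^ m = (1 - x) * ∑ i ∈ Finset.range m, x ^ i := by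
    have := mul_neg_geom_sum x m
    rw [this]
  rw [h, map_mul]
  have h2 : v.valuation K (∑ i ∈ Finset.range m, x ^ i) ≤ 1 := by
    apply Valuation.map_sum_le
    intro i _
    rw [map_pow]; exact pow_le_one' hx i
  calc v.valuation K (1 - x) * v.valuation K (∑ i ∈ Finset.range m, x ^ i)
      ≤ v.valuation K (1 - x) * 1 := mul_le_mul_right h2 _
    _ = _ := mul_one _

theorem ksi_val_root_sub_root (p : ℕ) [hp : Fact p.Prime] {ζ : K} (hζ : IsPrimitiveRoot ζ p)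
    (v : HeightOneSpectrum (𝓞 K)) {μ μ' : K} (hμ : μ ^ p = 1) (hμ' : μ' ^ p = 1)
    (hne : μ ≠ μ') :
    v.valuation K (μ - μ') = v.valuation K (1 - ζ) := by
  have hp0 : p ≠ 0 := hp.out.ne_zero
  have : NeZero p := ⟨hp0⟩
  have hμ0 : μ ≠ 0 := by
    rintro rfl
    rw [zero_pow hp0] at hμ
    exact zero_ne_one hμ
  have hvμ : v.valuation K μ = 1 := ksi_val_eq_one_of_pow hp0 (by rw [hμ, map_one])
  have hvζ : v.valuation K ζ = 1 :=
    ksi_val_eq_one_of_pow hp0 (by rw [hζ.pow_eq_one, map_one])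
  set ξ : K := μ' / μ with hξ
  have hξp : ξ ^ p = 1 := by rw [hξ, div_pow, hμ, hμ', div_one]
  have hξ1 : ξ ≠ 1 := by
    intro h
    rw [hξ, div_eq_one_iff_eq hμ0] at h
    exact hne h.symm
  obtain ⟨i, hi, hiξ⟩ := hζ.eq_pow_of_pow_eq_one hξp
  have hi0 : i ≠ 0 := by
    rintro rfl
    rw [pow_zero] at hiξ
    exact hξ1 hiξ.symm
  have hcop : Nat.Coprime i p := by
    rw [Nat.coprime_comm, Nat.Prime.coprime_iff_not_dvd hp.out]
    intro hdvd
    exact absurd (Nat.le_of_dvd (Nat.pos_of_ne_zero hi0) hdvd) (by omega)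
  obtain ⟨j, -, hj⟩ := Nat.exists_mul_mod_eq_one_of_coprime hcop hp.out.one_lt
  have hζξ : ξ ^ j = ζ := by
    rw [← hiξ, ← pow_mul, pow_eq_pow_mod _ hζ.pow_eq_one, hj, pow_one]
  have hvξ : v.valuation K ξ = 1 := ksi_val_eq_one_of_pow hp0 (by rw [hξp, map_one])
  have h1 : v.valuation K (1 - ζ) ≤ v.valuation K (1 - ξ) := by
    rw [← hζξ]; exact ksi_val_one_sub_pow_le v ξ hvξ.le j
  have h2 : v.valuation K (1 - ξ) ≤ v.valuation K (1 - ζ) := by
    rw [← hiξ]; exact ksi_val_one_sub_pow_le v ζ hvζ.le i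
  have e : μ - μ' = μ * (1 - ξ) := by rw [hξ]; field_simp
  rw [e, map_mul, hvμ, one_mul]
  exact le_antisymm h2 h1

/-- If `w^p ≡ 1 mod v^n` with `n > p·d`, `d = ord_v(1 - ζ)`, then `w ≡ ζ^i mod v^(n - (p-1) d)`
for some `i`. -/
theorem ksi_torsion (p : ℕ) [hp : Fact p.Prime] {ζ : K} (hζ : IsPrimitiveRoot ζ p)
    (v : HeightOneSpectrum (𝓞 K)) (d : ℕ) (hd : v.valuation K (1 - ζ) = exp (-(d : ℤ)))
    (n : ℕ) (hn : p * d < n) (w : Kˣ) (hw : w ^ p ∈ ksiU K v n) :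
    ∃ i < p, ∃ u ∈ ksiU K v (n - (p - 1) * d), (w : K) = ζ ^ i * u := by
  classical
  have hp0 : p ≠ 0 := hp.out.ne_zero
  have : NeZero p := ⟨hp0⟩
  rw [mem_ksiU_iff] at hw
  have hw' : v.valuation K ((w : K) ^ p - 1) ≤ exp (-(n : ℤ)) := by
    have := hw.2
    rwa [Units.val_pow_eq_pow_val] at this
  have hw1 : v.valuation K (w : K) = 1 :=
    ksi_val_eq_one_of_pow hp0 (by have := hw.1; rwa [Units.val_pow_eq_pow_val] at this)
  have hprod : (w : K) ^ p - 1 = ∏ μ ∈ Polynomial.nthRootsFinset p (1 : K), ((w : K) - μ) := by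
    have := hζ.pow_sub_pow_eq_prod_sub_mul (w : K) 1 hp.out.pos
    simpa using this
  rw [hprod, map_prod] at hw'
  have hcard : (Polynomial.nthRootsFinset p (1 : K)).card = p := hζ.card_nthRootsFinset
  -- some root is close to w
  have hex : ∃ μ₀ ∈ Polynomial.nthRootsFinset p (1 : K),
      v.valuation K ((w : K) - μ₀) < exp (-(d : ℤ)) := by
    by_contra h
    push Not at h
    have h1 := Finset.pow_card_le_prod (Polynomial.nthRootsFinset p (1 : K))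
      (fun μ => v.valuation K ((w : K) - μ)) (exp (-(d : ℤ))) h
    rw [hcard, ← exp_nsmul] at h1
    have h2 := h1.trans hw'
    rw [exp_le_exp] at h2
    simp only [nsmul_eq_mul] at h2
    have : (n : ℤ) ≤ (p : ℤ) * d := by linarith
    have : n ≤ p * d := by exact_mod_cast this
    omega
  obtain ⟨μ₀, hμ₀, hlt⟩ := hex
  have hμ₀p : μ₀ ^ p = 1 := (Polynomial.mem_nthRootsFinset hp.out.pos (1 : K)).mp hμ₀
  have hμ₀0 : μ₀ ≠ 0 := by
    rintro rfl
    rw [zero_pow hp0] at hμ₀p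
    exact zero_ne_one hμ₀p
  have hvμ₀ : v.valuation K μ₀ = 1 := ksi_val_eq_one_of_pow hp0 (by rw [hμ₀p, map_one])
  have hother : ∀ μ ∈ (Polynomial.nthRootsFinset p (1 : K)).erase μ₀,
      v.valuation K ((w : K) - μ) = exp (-(d : ℤ)) := by
    intro μ hμ
    rw [Finset.mem_erase] at hμ
    have hμp : μ ^ p = 1 := (Polynomial.mem_nthRootsFinset hp.out.pos (1 : K)).mp hμ.2
    have h1 : v.valuation K (μ₀ - μ) = exp (-(d : ℤ)) := by
      rw [ksi_val_root_sub_root p hζ v hμ₀p hμp (Ne.symm hμ.1), hd]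
    have e : (w : K) - μ = ((w : K) - μ₀) + (μ₀ - μ) := by ring
    rw [e, Valuation.map_add_eq_of_lt_right _ (by rw [h1]; exact hlt), h1]
  rw [← Finset.mul_prod_erase _ _ hμ₀, Finset.prod_congr rfl hother, Finset.prod_const,
    Finset.card_erase_of_mem hμ₀, hcard, ← exp_nsmul] at hw'
  have hk : (p - 1) * d ≤ n := by
    calc (p - 1) * d ≤ p * d := Nat.mul_le_mul_right d (Nat.sub_le p 1)
      _ ≤ n := hn.le
  have hfin : v.valuation K ((w : K) - μ₀) ≤ exp (-((n - (p - 1) * d : ℕ) : ℤ)) := by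
    have h3 : v.valuation K ((w : K) - μ₀) ≤ exp (-(n : ℤ)) * (exp ((p - 1) • (-(d : ℤ))))⁻¹ := by
      rw [le_mul_inv_iff₀ (by simp [zero_lt_iff])]
      exact hw'
    refine h3.trans (le_of_eq ?_)
    rw [← exp_neg, ← exp_add, exp_inj]
    push_cast [hk]
    simp only [nsmul_eq_mul]
    ring
  obtain ⟨i, hi, hiμ⟩ := hζ.eq_pow_of_pow_eq_one hμ₀p
  refine ⟨i, hi, w * (Units.mk0 μ₀ hμ₀0)⁻¹, ?_, ?_⟩
  · rw [mem_ksiU_iff]
    have e0 : ((w * (Units.mk0 μ₀ hμ₀0)⁻¹ : Kˣ) : K) = (w : K) * μ₀⁻¹ := by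
      push_cast; rfl
    refine ⟨by rw [e0, map_mul, map_inv₀, hw1, hvμ₀]; simp, ?_⟩
    have e : ((w * (Units.mk0 μ₀ hμ₀0)⁻¹ : Kˣ) : K) - 1 = ((w : K) - μ₀) * μ₀⁻¹ := by
      rw [e0]; field_simp
    rw [e, map_mul, map_inv₀, hvμ₀, inv_one, mul_one]
    exact hfin
  · rw [hiμ]
    push_cast
    rw [Units.val_mk0]
    field_simp

/-- `[U_v : U_v ∩ Kˣ^p U_v^{(n)}] ≤ p · N(v)^((p-1) d)` for `n > p d`. -/
theorem ksi_relIndex_ksiPow_units (p : ℕ) [hp : Fact p.Prime] {ζ : K} (hζ : IsPrimitiveRoot ζ p)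
    (v : HeightOneSpectrum (𝓞 K)) (d : ℕ) (hd : v.valuation K (1 - ζ) = exp (-(d : ℤ)))
    (n : ℕ) (hn : p * d < n) :
    (ksiPow K p v n).relIndex (ksiU K v 0) ≤ p * Nat.card (𝓞 K ⧸ v.asIdeal) ^ ((p - 1) * d) ∧
      (ksiPow K p v n).relIndex (ksiU K v 0) ≠ 0 := by
  have hp0 : p ≠ 0 := hp.out.ne_zero
  set W := ksiU K v 0 with hW
  set U := ksiU K v n with hU
  set P := (powMonoidHom p : Kˣ →* Kˣ).range with hP
  set k := (p - 1) * d with hk
  have hkn : k ≤ n := by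
    calc (p - 1) * d ≤ p * d := Nat.mul_le_mul_right d (Nat.sub_le p 1)
      _ ≤ n := hn.le
  set U' := ksiU K v (n - k) with hU'
  have hUW : U ≤ W := ksiU_anti v (Nat.zero_le n)
  have hUU' : U ≤ U' := ksiU_anti v (Nat.sub_le n k)
  have hH : ksiPow K p v n = P ⊔ U := rfl
  -- finiteness of [W : U]
  have hWU := ksi_relIndex_add (K := K) v 0 n
  rw [zero_add, ← hU, ← hW] at hWU
  have hU'U := ksi_relIndex_add (K := K) v (n - k) k
  rw [Nat.sub_add_cancel hkn, ← hU, ← hU'] at hU'U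
  -- the torsion subgroup
  set T := W ⊓ U.comap (powMonoidHom p : Kˣ →* Kˣ) with hT
  have hζ0 : ζ ≠ 0 := hζ.ne_zero hp0
  set ζu : Kˣ := Units.mk0 ζ hζ0 with hζu
  set Z := Subgroup.zpowers ζu with hZ
  have hTle : T ≤ Z ⊔ U' := by
    intro w hw
    rw [hT, Subgroup.mem_inf, Subgroup.mem_comap, powMonoidHom_apply] at hw
    obtain ⟨i, -, u, hu, hwu⟩ := ksi_torsion p hζ v d hd n hn w hw.2
    have : w = ζu ^ i * u := by
      ext
      rw [hwu]; push_cast; rw [hζu, Units.val_mk0]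
    rw [this]
    exact Subgroup.mul_mem _ (Subgroup.mem_sup_left (Subgroup.pow_mem _
      (Subgroup.mem_zpowers ζu) i)) (Subgroup.mem_sup_right hu)
  have hcardZ : Nat.card Z = p := by
    rw [hZ, Nat.card_zpowers, ← orderOf_units, hζu, Units.val_mk0, ← hζ.eq_orderOf]
  have hZ1 : U'.relIndex (Z ⊔ U') ∣ p := by
    rw [Subgroup.relIndex_sup_right, ← hcardZ]
    exact Subgroup.relIndex_dvd_card _ _
  have hZ2 : U'.relIndex (Z ⊔ U') ≤ p := Nat.le_of_dvd hp.out.pos hZ1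
  have hZ3 : U'.relIndex (Z ⊔ U') ≠ 0 := by
    intro h
    rw [h] at hZ1
    exact hp0 (Nat.eq_zero_of_zero_dvd hZ1)
  have hmul := Subgroup.relIndex_mul_relIndex U U' (Z ⊔ U') hUU' le_sup_right
  have hbig : U.relIndex (Z ⊔ U') ≤ Nat.card (𝓞 K ⧸ v.asIdeal) ^ k * p ∧
      U.relIndex (Z ⊔ U') ≠ 0 := by
    rw [← hmul]
    exact ⟨Nat.mul_le_mul hU'U.1 hZ2, mul_ne_zero hU'U.2 hZ3⟩
  have hT1 : U.relIndex T ≤ U.relIndex (Z ⊔ U') :=
    Subgroup.relIndex_le_of_le_right hTle hbig.2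
  have hT2 : U.relIndex T ≠ 0 := fun h =>
    hbig.2 (Subgroup.relIndex_eq_zero_of_le_right hTle h)
  have hpow := ksi_relIndex_pow p U W hUW hWU.2
  rw [← hT] at hpow
  have hle : W.map (powMonoidHom p : Kˣ →* Kˣ) ⊔ U ≤ P ⊔ U := by
    refine sup_le_sup_right ?_ _
    rintro _ ⟨y, -, rfl⟩
    exact ⟨y, rfl⟩
  have h1 : (P ⊔ U).relIndex W ≤ U.relIndex T := by
    rw [← hpow]
    exact Subgroup.relIndex_le_of_le_left hle (by rw [hpow]; exact hT2)
  have h1' : (P ⊔ U).relIndex W ≠ 0 := by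
    have := Subgroup.relIndex_dvd_of_le_left W hle
    intro h
    rw [h, hpow] at this
    exact hT2 (Nat.eq_zero_of_zero_dvd this)
  rw [hH]
  refine ⟨?_, h1'⟩
  calc (P ⊔ U).relIndex W ≤ Nat.card (𝓞 K ⧸ v.asIdeal) ^ k * p := h1.trans (hT1.trans hbig.1)
    _ = p * Nat.card (𝓞 K ⧸ v.asIdeal) ^ k := by ring

/-- The local index bound: `[Kˣ : Kˣ^p · U_v^{(n)}] ≤ p · p · N(v)^((p-1) d)` for `n > p d`. -/
theorem ksi_index_ksiPow (p : ℕ) [hp : Fact p.Prime] {ζ : K} (hζ : IsPrimitiveRoot ζ p)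
    (v : HeightOneSpectrum (𝓞 K)) (d : ℕ) (hd : v.valuation K (1 - ζ) = exp (-(d : ℤ)))
    (n : ℕ) (hn : p * d < n) :
    (ksiPow K p v n).index ≤ p * (p * Nat.card (𝓞 K ⧸ v.asIdeal) ^ ((p - 1) * d)) ∧
      (ksiPow K p v n).index ≠ 0 := by
  set W := ksiU K v 0 with hW
  set U := ksiU K v n with hU
  set P := (powMonoidHom p : Kˣ →* Kˣ).range with hP
  have hUW : U ≤ W := ksiU_anti v (Nat.zero_le n)
  have hH : ksiPow K p v n = P ⊔ U := rfl
  have hM := ksi_index_units_sup_pow (K := K) p hp.out.pos v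
  rw [← hW, ← hP] at hM
  have hHM : P ⊔ U ≤ W ⊔ P := sup_le le_sup_right (le_sup_of_le_left hUW)
  have hMeq : W ⊔ P = (P ⊔ U) ⊔ W := by
    apply le_antisymm
    · exact sup_le le_sup_right (le_sup_of_le_left le_sup_left)
    · exact sup_le hHM le_sup_left
  have h1 := ksi_relIndex_ksiPow_units p hζ v d hd n hn
  rw [hH, ← hW] at h1
  have h2 : (P ⊔ U).relIndex (W ⊔ P) = (P ⊔ U).relIndex W := by
    rw [hMeq, Subgroup.relIndex_sup_left]
  have h3 := Subgroup.relIndex_mul_index hHM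
  rw [hH, ← h3, h2]
  refine ⟨?_, mul_ne_zero h1.2 hM.2⟩
  calc (P ⊔ U).relIndex W * (W ⊔ P).index
      ≤ (p * Nat.card (𝓞 K ⧸ v.asIdeal) ^ ((p - 1) * d)) * p := Nat.mul_le_mul h1.1 hM.1
    _ = p * (p * Nat.card (𝓞 K ⧸ v.asIdeal) ^ ((p - 1) * d)) := by ring

end Fermat.Agent.S55
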