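import Fermat.Agent.S55.SUnitPow
import Fermat.Agent.S55.SUnitPid

set_option autoImplicit false

/-!
# S55 block [G1]: the numeric Kummer count

`K` a number field, `p` a prime, `S` a finite set of primes of `K`.

* `kumV K p S` : the subgroup `V_S = {a ∈ Kˣ | p ∣ ord_w a for all w ∉ S}`.
* `kumRho K p S` : the number `ρ` with `[V_S : Kˣ^p] = p ^ (#S + rank + 1 + ρ)`; when `ζ_p ∈ K`
  this is `dim_{F_p} Cl_S(K)[p] = dim_{F_p} Cl_S(K)/p` (exact sequence
  `1 → E_S/E_S^p → V_S/Kˣ^p → Cl_S[p] → 1`).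
* `kum_relIndex` : `[V_S : Kˣ^p] = p ^ (#S + rank + 1 + ρ)` for `ζ_p ∈ K`.
* `kum_exists_indep` : a `p`-independent family of that size in `V_S`.
* `kum_rank` : `2 * (rank + 1) = [K : ℚ]` when `ζ_p ∈ K`, `p` odd.
-/

namespace Fermat.Agent.S55

open IsDedekindDomain NumberField WithZero

variable (K : Type*) [Field K] [NumberField K]

/-- `V_S`: the elements of `Kˣ` whose valuations outside `S` are divisible by `p`. -/
def kumV (p : ℕ) (S : Finset (HeightOneSpectrum (𝓞 K))) : Subgroup Kˣ where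
  carrier := {a | ∀ w : HeightOneSpectrum (𝓞 K), w ∉ S →
    (p : ℤ) ∣ log (w.valuation K (a : K))}
  mul_mem' := by
    intro a b ha hb w hw
    have h : log (w.valuation K ((a * b : Kˣ) : K)) =
        suOrd K w (Additive.ofMul a + Additive.ofMul b) := rfl
    rw [h, map_add]
    exact dvd_add (ha w hw) (hb w hw)
  one_mem' := by
    intro w _
    have h : log (w.valuation K ((1 : Kˣ) : K)) = suOrd K w 0 := rfl
    rw [h, map_zero]
    exact dvd_zero _
  inv_mem' := by
    intro a ha w hw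
    have h : log (w.valuation K ((a⁻¹ : Kˣ) : K)) = suOrd K w (-Additive.ofMul a) := rfl
    rw [h, map_neg]
    exact (dvd_neg).mpr (ha w hw)

theorem mem_kumV (p : ℕ) (S : Finset (HeightOneSpectrum (𝓞 K))) (a : Kˣ) :
    a ∈ kumV K p S ↔ ∀ w : HeightOneSpectrum (𝓞 K), w ∉ S →
      (p : ℤ) ∣ log (w.valuation K (a : K)) := Iff.rfl

/-- The order map at a finite set `T` of primes. -/
noncomputable def kumOrd (T : Finset (HeightOneSpectrum (𝓞 K))) : Additive Kˣ →+ (T → ℤ) :=
  AddMonoidHom.pi (fun w : T => suOrd K w.1)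

theorem kumOrd_apply (T : Finset (HeightOneSpectrum (𝓞 K))) (x : Additive Kˣ) (w : T) :
    kumOrd K T x w = suOrd K w.1 x := rfl

/-- The valuations of an element are trivial at almost all primes. -/
theorem kum_suOrd_finite (x : Additive Kˣ) :
    (Function.support (fun w : HeightOneSpectrum (𝓞 K) => suOrd K w x)).Finite := by
  obtain ⟨a, rfl⟩ := Additive.ofMul.surjective x
  refine ((HeightOneSpectrum.Support.finite (𝓞 K) (a : K)).union
    (HeightOneSpectrum.Support.finite (𝓞 K) ((a⁻¹ : Kˣ) : K))).subset ?_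
  intro w hw
  rw [Function.mem_support, Ne, suOrd_eq_zero_iff] at hw
  have hpos : 0 < w.valuation K (a : K) :=
    zero_lt_iff.mpr ((Valuation.ne_zero_iff _).mpr a.ne_zero)
  rcases lt_or_gt_of_ne hw with h | h
  · right
    change 1 < w.valuation K ((a⁻¹ : Kˣ) : K)
    rw [Units.val_inv_eq_inv_val, map_inv₀]
    exact (one_lt_inv₀ hpos).mpr h
  · left
    exact h

variable {K}

/-- If the `S'`-class group is trivial, every finitely supported divisor outside `S'` is
principal. -/
theorem kum_exists_ord {S' : Finset (HeightOneSpectrum (𝓞 K))} (hPID : suPid K S')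
    (f : HeightOneSpectrum (𝓞 K) → ℤ) (hf : (Function.support f).Finite) :
    ∃ b : Kˣ, ∀ w : HeightOneSpectrum (𝓞 K), w ∉ S' →
      suOrd K w (Additive.ofMul b) = f w := by
  classical
  choose! π hπ using hPID
  set T₀ := hf.toFinset.filter (fun w => w ∉ S') with hT₀
  refine ⟨∏ w ∈ T₀, π w ^ (-(f w)), ?_⟩
  intro w hw
  have h1 : suOrd K w (Additive.ofMul (∏ w' ∈ T₀, π w' ^ (-(f w')))) =
      ∑ w' ∈ T₀, (-(f w')) * suOrd K w (Additive.ofMul (π w')) := by
    rw [ofMul_prod, map_sum]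
    refine Finset.sum_congr rfl (fun w' _ => ?_)
    rw [ofMul_zpow, map_zsmul, smul_eq_mul]
  rw [h1]
  have h2 : ∀ w' ∈ T₀, w' ≠ w → (-(f w')) * suOrd K w (Additive.ofMul (π w')) = 0 := by
    intro w' hw' hne
    have hw'S : w' ∉ S' := (Finset.mem_filter.mp hw').2
    rw [(suOrd_eq_zero_iff K w (π w')).mpr ((hπ w' hw'S).2 w hw (Ne.symm hne)), mul_zero]
  by_cases hwT : w ∈ T₀
  · rw [Finset.sum_eq_single_of_mem w hwT h2]
    have h3 : suOrd K w (Additive.ofMul (π w)) = -1 := by
      rw [suOrd_apply, (hπ w hw).1, log_exp]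
    rw [h3]
    ring
  · rw [Finset.sum_eq_zero (fun w' hw' => h2 w' hw' (fun h => hwT (h ▸ hw')))]
    by_contra hne
    exact hwT (Finset.mem_filter.mpr ⟨hf.mem_toFinset.mpr (Ne.symm hne), hw⟩)

variable (K)

/-- The index of `p ℤ^T` in `ℤ^T`. -/
theorem kum_index_nsmul_pi (p : ℕ) (hp : p ≠ 0) (T : Type*) [Fintype T] :
    (nsmulAddMonoidHom p : (T → ℤ) →+ (T → ℤ)).range.index = p ^ Fintype.card T := by
  have h := hqp_index_smul (C := T → ℤ) p hp
  rw [Module.finrank_pi] at h
  rw [← h]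
  rfl

/-- The index computation: for `S ⊆ S'` with trivial `S'`-class group,
`[V_S : Kˣ^p] = p ^ (#S + rank + 1 + r)` where `p ^ r = [ℤ^T : ord_T(E_{S'}) + p ℤ^T]`,
`T = S' \ S`. -/
theorem kum_relIndex_aux [DecidableEq (HeightOneSpectrum (𝓞 K))] (p : ℕ) (hp : p.Prime) {ζ : K}
    (hζ : IsPrimitiveRoot ζ p)
    (S S' : Finset (HeightOneSpectrum (𝓞 K))) (hSS' : S ⊆ S') (hPID : suPid K S') :
    ∃ r : ℕ, (powMonoidHom p : Kˣ →* Kˣ).range.relIndex (kumV K p S) =
        p ^ (S.card + NumberField.Units.rank K + 1 + r) ∧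
      (((Subgroup.toAddSubgroup ((S' : Set (HeightOneSpectrum (𝓞 K))).unit K)).map
        (kumOrd K (S' \ S))) ⊔
        (nsmulAddMonoidHom p : ((S' \ S : Finset (HeightOneSpectrum (𝓞 K))) → ℤ) →+ _).range).index
        = p ^ r := by
  set T := S' \ S with hT
  set E' : AddSubgroup (Additive Kˣ) :=
    Subgroup.toAddSubgroup ((S' : Set (HeightOneSpectrum (𝓞 K))).unit K) with hE'
  set V : AddSubgroup (Additive Kˣ) := Subgroup.toAddSubgroup (kumV K p S) with hV
  set P : AddSubgroup (Additive Kˣ) :=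
    (nsmulAddMonoidHom p : Additive Kˣ →+ Additive Kˣ).range with hP
  set o := kumOrd K T with ho
  set Pp : AddSubgroup (T → ℤ) := (nsmulAddMonoidHom p : (T → ℤ) →+ (T → ℤ)).range with hPp
  set Λ := E'.map o with hΛ
  set E'p := E' ⊓ Pp.comap o with hE'p
  set Q := E'.map (nsmulAddMonoidHom p : Additive Kˣ →+ Additive Kˣ) with hQ
  have hp0 : (p : ℤ) ≠ 0 := by exact_mod_cast hp.ne_zero
  -- membership lemmas
  have memE' : ∀ x : Additive Kˣ, x ∈ E' ↔
      ∀ w : HeightOneSpectrum (𝓞 K), w ∉ S' → suOrd K w x = 0 := by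
    intro x
    obtain ⟨a, rfl⟩ := Additive.ofMul.surjective x
    constructor
    · intro h w hw
      exact (suOrd_eq_zero_iff K w a).mpr (h w hw)
    · intro h w hw
      exact (suOrd_eq_zero_iff K w a).mp (h w hw)
  have memV : ∀ x : Additive Kˣ, x ∈ V ↔
      ∀ w : HeightOneSpectrum (𝓞 K), w ∉ S → (p : ℤ) ∣ suOrd K w x := fun x => Iff.rfl
  have memP : ∀ x : Additive Kˣ, x ∈ P ↔ ∃ y : Additive Kˣ, p • y = x := fun x => Iff.rfl
  have memPp : ∀ f : T → ℤ, f ∈ Pp ↔ ∀ w, (p : ℤ) ∣ f w := by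
    intro f
    constructor
    · rintro ⟨g, rfl⟩ w
      refine ⟨g w, ?_⟩
      change (p • g) w = _
      rw [Pi.smul_apply, nsmul_eq_mul]
    · intro h
      choose g hg using h
      refine ⟨g, funext fun w => ?_⟩
      change (p • g) w = _
      rw [Pi.smul_apply, nsmul_eq_mul, hg w]
  have ord_nsmul : ∀ (w : HeightOneSpectrum (𝓞 K)) (y : Additive Kˣ),
      suOrd K w (p • y) = (p : ℤ) * suOrd K w y := by
    intro w y
    rw [map_nsmul, nsmul_eq_mul]
  -- (F1)
  have hPV : P ≤ V := by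
    rintro x ⟨y, rfl⟩
    rw [memV]
    intro w _
    change (p : ℤ) ∣ suOrd K w (p • y)
    rw [ord_nsmul]
    exact dvd_mul_right _ _
  have hE'pV : E'p ≤ V := by
    intro x hx
    obtain ⟨hx1, hx2⟩ := AddSubgroup.mem_inf.mp hx
    rw [memV]
    intro w hw
    by_cases hwS' : w ∈ S'
    · have hwT : w ∈ T := Finset.mem_sdiff.mpr ⟨hwS', hw⟩
      have := (memPp (o x)).mp hx2 ⟨w, hwT⟩
      exact this
    · rw [(memE' x).mp hx1 w hwS']
      exact dvd_zero _
  have F1 : V = E'p ⊔ P := by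
    apply le_antisymm
    · intro x hx
      rw [memV] at hx
      -- the divisor outside `S'`
      have hfin : (Function.support (fun w : HeightOneSpectrum (𝓞 K) =>
          suOrd K w x / (p : ℤ))).Finite := by
        refine (kum_suOrd_finite K x).subset ?_
        intro w hw
        rw [Function.mem_support] at hw ⊢
        intro h0
        apply hw
        change suOrd K w x / (p : ℤ) = 0
        rw [h0, Int.zero_ediv]
      obtain ⟨b, hb⟩ := kum_exists_ord hPID _ hfin
      have hsub : x - p • Additive.ofMul b ∈ E'p := by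
        apply AddSubgroup.mem_inf.mpr
        constructor
        · rw [memE']
          intro w hw
          rw [map_sub, ord_nsmul, hb w hw,
            Int.mul_ediv_cancel' (hx w (fun h => hw (hSS' h))), sub_self]
        · change o (x - p • Additive.ofMul b) ∈ Pp
          rw [memPp]
          intro w
          have hwS : (w : HeightOneSpectrum (𝓞 K)) ∉ S := (Finset.mem_sdiff.mp w.2).2
          change (p : ℤ) ∣ suOrd K w.1 (x - p • Additive.ofMul b)
          rw [map_sub, ord_nsmul]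
          exact dvd_sub (hx w.1 hwS) (dvd_mul_right _ _)
      refine AddSubgroup.mem_sup.mpr ⟨x - p • Additive.ofMul b, hsub, p • Additive.ofMul b,
        ⟨Additive.ofMul b, rfl⟩, by abel⟩
    · exact sup_le hE'pV hPV
  -- (F2)
  have hQE'p : Q ≤ E'p := by
    rintro x ⟨y, hy, rfl⟩
    apply AddSubgroup.mem_inf.mpr
    constructor
    · rw [memE']
      intro w hw
      change suOrd K w (p • y) = 0
      rw [ord_nsmul, (memE' y).mp hy w hw, mul_zero]
    · change o (p • y) ∈ Pp
      rw [memPp]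
      intro w
      change (p : ℤ) ∣ suOrd K w.1 (p • y)
      rw [ord_nsmul]
      exact dvd_mul_right _ _
  have F2 : P ⊓ E'p = Q := by
    apply le_antisymm
    · intro x hx
      obtain ⟨⟨y, rfl⟩, hx2⟩ := AddSubgroup.mem_inf.mp hx
      have hx1 := (AddSubgroup.mem_inf.mp hx2).1
      rw [memE'] at hx1
      refine ⟨y, (memE' y).mpr ?_, rfl⟩
      intro w hw
      have := hx1 w hw
      change suOrd K w (p • y) = 0 at this
      rw [ord_nsmul] at this
      exact (mul_eq_zero.mp this).resolve_left hp0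
    · intro x hx
      refine AddSubgroup.mem_inf.mpr ⟨?_, hQE'p hx⟩
      obtain ⟨y, _, rfl⟩ := hx
      exact ⟨y, rfl⟩
  -- the index chain
  have h1 : P.relIndex V = Q.relIndex E'p := by
    rw [F1, AddSubgroup.relIndex_sup_right, ← AddSubgroup.inf_relIndex_right, F2]
  have h2 : Q.relIndex E'p * E'p.relIndex E' = Q.relIndex E' :=
    AddSubgroup.relIndex_mul_relIndex _ _ _ hQE'p inf_le_left
  have h3 : E'p.relIndex E' = Pp.relIndex Λ := by
    rw [hE'p, AddSubgroup.inf_relIndex_left, AddSubgroup.relIndex_comap]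
  have h4 : Pp.relIndex Λ * (Λ ⊔ Pp).index = Pp.index := by
    rw [← AddSubgroup.relIndex_sup_right (H := Λ) (K := Pp)]
    exact AddSubgroup.relIndex_mul_index le_sup_right
  have h5 : Q.relIndex E' = p ^ (S'.card + NumberField.Units.rank K + 1) := by
    rw [← su_relIndex_pow K p hp hζ S', ← Subgroup.relIndex_toAddSubgroup]
    rfl
  have h6 : Pp.index = p ^ T.card := by
    rw [hPp, kum_index_nsmul_pi p hp.ne_zero, Fintype.card_coe]
  have h7 : (powMonoidHom p : Kˣ →* Kˣ).range.relIndex (kumV K p S) = P.relIndex V := by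
    rw [← Subgroup.relIndex_toAddSubgroup]
    rfl
  have hcard : T.card + S.card = S'.card := Finset.card_sdiff_add_card_eq_card hSS'
  -- arithmetic
  have hZ : (Λ ⊔ Pp).index ∣ p ^ T.card := by
    rw [← h6, ← h4]
    exact dvd_mul_left _ _
  obtain ⟨r, hr, hZr⟩ := (Nat.dvd_prime_pow hp).mp hZ
  refine ⟨r, ?_, hZr⟩
  rw [h7, h1]
  have hY : Pp.relIndex Λ = p ^ (T.card - r) := by
    have : Pp.relIndex Λ * p ^ r = p ^ (T.card - r) * p ^ r := by
      rw [← pow_add, Nat.sub_add_cancel hr, ← h6, ← h4, hZr]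
    exact Nat.eq_of_mul_eq_mul_right (pow_pos hp.pos r) this
  have hX : Q.relIndex E'p * p ^ (T.card - r) =
      p ^ (S.card + NumberField.Units.rank K + 1 + r) * p ^ (T.card - r) := by
    calc Q.relIndex E'p * p ^ (T.card - r) = Q.relIndex E'p * E'p.relIndex E' := by rw [h3, hY]
      _ = p ^ (S'.card + NumberField.Units.rank K + 1) := by rw [h2, h5]
      _ = p ^ (S.card + NumberField.Units.rank K + 1 + r) * p ^ (T.card - r) := by
        rw [← pow_add, ← hcard]
        congr 1
        omega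
  exact Nat.eq_of_mul_eq_mul_right (pow_pos hp.pos _) hX

/-- `ρ`: defined by `[V_S : Kˣ^p] = p ^ (#S + rank + 1 + ρ)`.  When `ζ_p ∈ K` this is
`dim_{F_p} Cl_S(K)[p] = dim_{F_p} Cl_S(K)/p` (see `kum_relIndex`, `kum_index_sup`). -/
noncomputable def kumRho (p : ℕ) (S : Finset (HeightOneSpectrum (𝓞 K))) : ℕ :=
  Nat.log p ((powMonoidHom p : Kˣ →* Kˣ).range.relIndex (kumV K p S)) -
    (S.card + NumberField.Units.rank K + 1)

/-- **The Kummer count**: `[V_S : Kˣ^p] = p ^ (#S + rank + 1 + ρ)`. -/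
theorem kum_relIndex (p : ℕ) (hp : p.Prime) {ζ : K} (hζ : IsPrimitiveRoot ζ p)
    (S : Finset (HeightOneSpectrum (𝓞 K))) :
    (powMonoidHom p : Kˣ →* Kˣ).range.relIndex (kumV K p S) =
      p ^ (S.card + NumberField.Units.rank K + 1 + kumRho K p S) := by
  classical
  obtain ⟨S', hSS', hPID⟩ := su_exists_pid K S
  obtain ⟨r, hr, _⟩ := kum_relIndex_aux K p hp hζ S S' hSS' hPID
  have : kumRho K p S = r := by
    rw [kumRho, hr, Nat.log_pow hp.one_lt]
    omega
  rw [this, hr]

/-- For every `S' ⊇ S` with trivial `S'`-class group, `T = S' \ S`: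
`[ℤ^T : ord_T(E_{S'}) + p ℤ^T] = p ^ ρ`  (the left side is `#(Cl_S / p)`). -/
theorem kum_index_sup [DecidableEq (HeightOneSpectrum (𝓞 K))] (p : ℕ) (hp : p.Prime) {ζ : K}
    (hζ : IsPrimitiveRoot ζ p)
    (S S' : Finset (HeightOneSpectrum (𝓞 K))) (hSS' : S ⊆ S') (hPID : suPid K S') :
    (((Subgroup.toAddSubgroup ((S' : Set (HeightOneSpectrum (𝓞 K))).unit K)).map
        (kumOrd K (S' \ S))) ⊔
        (nsmulAddMonoidHom p : ((S' \ S : Finset (HeightOneSpectrum (𝓞 K))) → ℤ) →+ _).range).index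
        = p ^ kumRho K p S := by
  obtain ⟨r, hr, hr'⟩ := kum_relIndex_aux K p hp hζ S S' hSS' hPID
  have : kumRho K p S = r := by
    rw [kumRho, hr, Nat.log_pow hp.one_lt]
    omega
  rw [this, hr']

/-- A finite `ZMod p`-module of order `p ^ N` has a basis of `N` elements: independence and
generation in elementwise form (integer coefficients). -/
theorem kum_exists_basis_zmod {M : Type*} [AddCommGroup M] (p : ℕ) [hp : Fact p.Prime]
    [Module (ZMod p) M] (N : ℕ) (hN : Nat.card M = p ^ N) :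
    ∃ a : Fin N → M,
      (∀ e : Fin N → ℤ, ∑ i, e i • a i = 0 → ∀ i, (p : ℤ) ∣ e i) ∧
      ∀ g : M, ∃ e : Fin N → ℤ, g = ∑ i, e i • a i := by
  have hfin : Finite M :=
    Nat.finite_of_card_ne_zero (by rw [hN]; exact pow_ne_zero _ hp.out.ne_zero)
  have hfr : Module.finrank (ZMod p) M = N := by
    have h1 : Nat.card M = Nat.card (ZMod p) ^ Module.finrank (ZMod p) M :=
      Module.natCard_eq_pow_finrank
    rw [hN, Nat.card_zmod] at h1
    exact (Nat.pow_right_injective hp.out.two_le h1).symm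
  let b : Module.Basis (Fin N) (ZMod p) M := Module.finBasisOfFinrankEq (ZMod p) M hfr
  have hsum : ∀ e : Fin N → ℤ, ∑ i, e i • b i = ∑ i, (e i : ZMod p) • b i := by
    intro e
    refine Finset.sum_congr rfl (fun i _ => ?_)
    rw [Int.cast_smul_eq_zsmul]
  refine ⟨fun i => b i, ?_, ?_⟩
  · intro e he i
    rw [hsum] at he
    have := Fintype.linearIndependent_iff.mp b.linearIndependent (fun i => (e i : ZMod p)) he i
    exact (ZMod.intCast_zmod_eq_zero_iff_dvd (e i) p).mp this
  · intro g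
    refine ⟨fun i => ((b.repr g i : ZMod p).cast : ℤ), ?_⟩
    rw [hsum]
    simp only [ZMod.intCast_cast, ZMod.cast_id', id_eq]
    rw [b.sum_repr]

/-- An elementary abelian quotient of order `p ^ N` has a basis of `N` elements: independence
and generation, in elementwise form. -/
theorem kum_exists_basis {G : Type*} [AddCommGroup G] (p : ℕ) [hp : Fact p.Prime]
    (H : AddSubgroup G) (hH : ∀ x : G, p • x ∈ H) (N : ℕ) (hN : H.index = p ^ N) :
    ∃ a : Fin N → G,
      (∀ e : Fin N → ℤ, ∑ i, e i • a i ∈ H → ∀ i, (p : ℤ) ∣ e i) ∧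
      ∀ g : G, ∃ e : Fin N → ℤ, g - ∑ i, e i • a i ∈ H := by
  obtain ⟨b, hb1, hb2⟩ := @kum_exists_basis_zmod (G ⧸ H) _ p _
    (QuotientAddGroup.zmodModule hH) N hN
  have hsurj : ∀ i, ∃ a : G, (QuotientAddGroup.mk a : G ⧸ H) = b i :=
    fun i => QuotientAddGroup.mk_surjective (b i)
  choose a ha using hsurj
  have hmk : ∀ e : Fin N → ℤ, (QuotientAddGroup.mk (∑ i, e i • a i) : G ⧸ H) =
      ∑ i, e i • b i := by
    intro e
    rw [QuotientAddGroup.mk_sum]
    refine Finset.sum_congr rfl (fun i _ => ?_)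
    rw [QuotientAddGroup.mk_zsmul, ha i]
  refine ⟨a, ?_, ?_⟩
  · intro e he i
    apply hb1 e
    rw [← hmk e]
    exact (QuotientAddGroup.eq_zero_iff _).mpr he
  · intro g
    obtain ⟨e, he⟩ := hb2 (QuotientAddGroup.mk g)
    refine ⟨e, ?_⟩
    apply (QuotientAddGroup.eq_zero_iff _).mp
    rw [QuotientAddGroup.mk_sub, hmk, he, sub_self]

/-- **[G1]**: a `p`-independent family of `#S + rank + 1 + ρ` elements of `V_S`. -/
theorem kum_exists_indep (p : ℕ) [hp : Fact p.Prime] {ζ : K} (hζ : IsPrimitiveRoot ζ p)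
    (S : Finset (HeightOneSpectrum (𝓞 K))) :
    ∃ a : Fin (S.card + NumberField.Units.rank K + 1 + kumRho K p S) → Kˣ,
      (∀ i, a i ∈ kumV K p S) ∧
      ∀ e : Fin (S.card + NumberField.Units.rank K + 1 + kumRho K p S) → ℤ,
        (∏ i, a i ^ e i) ∈ (powMonoidHom p : Kˣ →* Kˣ).range → ∀ i, (p : ℤ) ∣ e i := by
  set N := S.card + NumberField.Units.rank K + 1 + kumRho K p S with hN
  set V := kumV K p S with hV
  set P := (powMonoidHom p : Kˣ →* Kˣ).range with hP
  have hidx : (Subgroup.toAddSubgroup (P.subgroupOf V)).index = p ^ N := by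
    rw [Subgroup.index_toAddSubgroup]
    exact kum_relIndex K p hp.out hζ S
  have hH : ∀ x : Additive V, p • x ∈ Subgroup.toAddSubgroup (P.subgroupOf V) := by
    intro x
    obtain ⟨v, rfl⟩ := Additive.ofMul.surjective x
    change v ^ p ∈ P.subgroupOf V
    rw [Subgroup.mem_subgroupOf]
    exact ⟨(v : Kˣ), rfl⟩
  obtain ⟨a, ha, _⟩ := kum_exists_basis p (Subgroup.toAddSubgroup (P.subgroupOf V)) hH N hidx
  refine ⟨fun i => ((Additive.toMul (a i) : V) : Kˣ), fun i => (Additive.toMul (a i) : V).2, ?_⟩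
  intro e he
  apply ha e
  change Additive.toMul (∑ i, e i • a i) ∈ P.subgroupOf V
  rw [Subgroup.mem_subgroupOf, toMul_sum, Subgroup.val_finsetProd]
  exact he

/-- For `ζ_p ∈ K`, `p > 2`, the field `K` is totally complex: `2 * (rank + 1) = [K : ℚ]`. -/
theorem kum_rank (p : ℕ) (hp2 : 2 < p) {ζ : K} (hζ : IsPrimitiveRoot ζ p) :
    2 * (NumberField.Units.rank K + 1) = Module.finrank ℚ K := by
  have h0 : NumberField.InfinitePlace.nrRealPlaces K = 0 :=
    NumberField.InfinitePlace.IsPrimitiveRoot.nrRealPlaces_eq_zero_of_two_lt hp2 hζ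
  have h1 := NumberField.InfinitePlace.card_eq_nrRealPlaces_add_nrComplexPlaces (K := K)
  have h2 := NumberField.InfinitePlace.card_add_two_mul_card_eq_rank (K := K)
  have h3 : 0 < Fintype.card (NumberField.InfinitePlace K) := Fintype.card_pos
  rw [NumberField.Units.rank]
  rw [h0, zero_add] at h1 h2
  omega

end Fermat.Agent.S55
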