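import Mathlib

/-!
# Integer matrices conjugate over `ℝ` are intertwined over `ℤ`

If `A₁, A₂` are integer matrices and `P` is an invertible real matrix with `P A₁ = A₂ P`, then
there is an integer matrix `Q` with nonzero determinant and `Q A₁ = A₂ Q`.  This is the linear
algebra behind "two `G`-stable full lattices in the same real representation have the same
Herbrand quotient".
-/

set_option autoImplicit false

namespace Fermat.Agent.S55

open Matrix

variable {n : Type*} [Fintype n] [DecidableEq n]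

omit [DecidableEq n] in
/-- A real matrix is a real linear combination of rational matrices with `ℚ`-linearly
independent coefficients. -/
theorem li_exists_decomp (P : Matrix n n ℝ) :
    ∃ (m : ℕ) (r : Fin m → ℝ) (Pj : Fin m → Matrix n n ℚ), LinearIndependent ℚ r ∧
      P = ∑ j, r j • (Pj j).map (Rat.cast : ℚ → ℝ) := by
  classical
  let E : Submodule ℚ ℝ := Submodule.span ℚ (Set.range fun ab : n × n => P ab.1 ab.2)
  have : Module.Finite ℚ E := Module.Finite.span_of_finite ℚ (Set.finite_range _)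
  let b := Module.finBasis ℚ E
  have hmem : ∀ a c, P a c ∈ E := fun a c => Submodule.subset_span ⟨(a, c), rfl⟩
  refine ⟨Module.finrank ℚ E, fun j => (b j : ℝ), fun j => Matrix.of fun a c =>
    b.repr ⟨P a c, hmem a c⟩ j, ?_, ?_⟩
  · exact b.linearIndependent.map' E.subtype (Submodule.ker_subtype E)
  · ext a c
    have h := b.sum_repr ⟨P a c, hmem a c⟩
    have h2 := congrArg (Subtype.val : E → ℝ) h
    rw [Matrix.sum_apply]
    simp only [Matrix.smul_apply, Matrix.map_apply, Matrix.of_apply, smul_eq_mul]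
    refine h2.symm.trans ?_
    rw [AddSubmonoidClass.coe_finsetSum]
    refine Finset.sum_congr rfl fun j _ => ?_
    rw [Submodule.coe_smul, Rat.smul_def, mul_comm]

theorem li_dense_rat (m : ℕ) : DenseRange (fun q : Fin m → ℚ => fun j => (q j : ℝ)) :=
  DenseRange.piMap fun _ => Rat.denseRange_cast

/-- **Main lemma.** Integer matrices that are conjugate over `ℝ` are intertwined by an integer
matrix with nonzero determinant. -/
theorem li_exists_int_intertwiner (A₁ A₂ : Matrix n n ℤ) (P : Matrix n n ℝ) (hP : P.det ≠ 0)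
    (h : P * A₁.map (Int.cast : ℤ → ℝ) = A₂.map (Int.cast : ℤ → ℝ) * P) :
    ∃ Q : Matrix n n ℤ, Q.det ≠ 0 ∧ Q * A₁ = A₂ * Q := by
  classical
  obtain ⟨m, r, Pj, hli, hdec⟩ := li_exists_decomp P
  -- rational versions of `A₁`, `A₂`
  set B₁ : Matrix n n ℚ := A₁.map (Int.cast : ℤ → ℚ) with hB₁
  set B₂ : Matrix n n ℚ := A₂.map (Int.cast : ℤ → ℚ) with hB₂
  have hB₁r : B₁.map (Rat.cast : ℚ → ℝ) = A₁.map (Int.cast : ℤ → ℝ) := by
    ext a c; simp [hB₁]
  have hB₂r : B₂.map (Rat.cast : ℚ → ℝ) = A₂.map (Int.cast : ℤ → ℝ) := by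
    ext a c; simp [hB₂]
  -- each `Pj` intertwines
  have hPj : ∀ j, Pj j * B₁ = B₂ * Pj j := by
    have key : ∑ j, r j • ((Pj j * B₁ - B₂ * Pj j).map (Rat.cast : ℚ → ℝ)) = 0 := by
      have e : ∀ j, (Pj j * B₁ - B₂ * Pj j).map (Rat.cast : ℚ → ℝ) =
          (Pj j).map (Rat.cast : ℚ → ℝ) * A₁.map (Int.cast : ℤ → ℝ) -
            A₂.map (Int.cast : ℤ → ℝ) * (Pj j).map (Rat.cast : ℚ → ℝ) := by
        intro j
        rw [← hB₁r, ← hB₂r]
        ext a c
        simp [Matrix.mul_apply, Matrix.sub_apply]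
      simp only [e, smul_sub, Finset.sum_sub_distrib]
      rw [sub_eq_zero]
      calc ∑ j, r j • ((Pj j).map (Rat.cast : ℚ → ℝ) * A₁.map (Int.cast : ℤ → ℝ))
          = (∑ j, r j • (Pj j).map (Rat.cast : ℚ → ℝ)) * A₁.map (Int.cast : ℤ → ℝ) := by
            rw [Finset.sum_mul]
            exact Finset.sum_congr rfl fun j _ => (Matrix.smul_mul _ _ _).symm
        _ = A₂.map (Int.cast : ℤ → ℝ) * (∑ j, r j • (Pj j).map (Rat.cast : ℚ → ℝ)) := by
            rw [← hdec, h]
        _ = ∑ j, r j • (A₂.map (Int.cast : ℤ → ℝ) * (Pj j).map (Rat.cast : ℚ → ℝ)) := by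
            rw [Finset.mul_sum]
            exact Finset.sum_congr rfl fun j _ => Matrix.mul_smul _ _ _
    intro j
    rw [← sub_eq_zero]
    ext a c
    have hac := congrFun (congrFun key a) c
    rw [Matrix.sum_apply] at hac
    simp only [Matrix.smul_apply, Matrix.map_apply, smul_eq_mul, Matrix.zero_apply] at hac
    have hli' := Fintype.linearIndependent_iff.mp hli
      (fun j => (Pj j * B₁ - B₂ * Pj j) a c) (by
        rw [← hac]
        refine Finset.sum_congr rfl fun j _ => ?_
        rw [Rat.smul_def, mul_comm])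
    exact hli' j
  -- the determinant function on real combinations
  let F : (Fin m → ℝ) → ℝ := fun t => (∑ j, t j • (Pj j).map (Rat.cast : ℚ → ℝ)).det
  have hFc : Continuous F := by
    apply Continuous.matrix_det
    apply continuous_finsetSum
    intro j _
    exact (continuous_apply j).smul continuous_const
  have hFr : F r ≠ 0 := by
    change (∑ j, r j • (Pj j).map (Rat.cast : ℚ → ℝ)).det ≠ 0
    rw [← hdec]
    exact hP
  have hopen : IsOpen {t | F t ≠ 0} := isOpen_ne_fun hFc continuous_const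
  obtain ⟨q, hq⟩ := (li_dense_rat m).exists_mem_open hopen ⟨r, hFr⟩
  -- the rational intertwiner
  set Qr : Matrix n n ℚ := ∑ j, q j • Pj j with hQr
  have hQr_map : Qr.map (Rat.cast : ℚ → ℝ) =
      ∑ j, (q j : ℝ) • (Pj j).map (Rat.cast : ℚ → ℝ) := by
    ext a c
    simp [hQr, Matrix.sum_apply]
  have hQr_det : Qr.det ≠ 0 := by
    intro h0
    apply hq
    change (∑ j, (q j : ℝ) • (Pj j).map (Rat.cast : ℚ → ℝ)).det = 0
    rw [← hQr_map]
    have := congrArg (Rat.cast : ℚ → ℝ) h0
    rw [Rat.cast_zero] at this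
    rw [← this]
    exact (RingHom.map_det (Rat.castHom ℝ) Qr).symm
  have hQr_comm : Qr * B₁ = B₂ * Qr := by
    rw [hQr, Finset.sum_mul, Finset.mul_sum]
    refine Finset.sum_congr rfl fun j _ => ?_
    rw [Matrix.smul_mul, Matrix.mul_smul, hPj j]
  -- clear denominators
  obtain ⟨d, hd⟩ := IsLocalization.exist_integer_multiples_of_finite (nonZeroDivisors ℤ)
    (fun ab : n × n => Qr ab.1 ab.2)
  choose z hz using hd
  have hd0 : ((d : ℤ) : ℚ) ≠ 0 := by
    exact_mod_cast nonZeroDivisors.ne_zero d.2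
  let Q : Matrix n n ℤ := Matrix.of fun a c => z (a, c)
  have hQ : Q.map (Int.cast : ℤ → ℚ) = ((d : ℤ) : ℚ) • Qr := by
    ext a c
    have := hz (a, c)
    simp only [Algebra.smul_def, eq_intCast] at this
    simpa [Q] using this
  refine ⟨Q, ?_, ?_⟩
  · intro h0
    have h1 : (Q.map (Int.cast : ℤ → ℚ)).det = 0 := by
      have := (RingHom.map_det (Int.castRingHom ℚ) Q).symm
      rw [h0] at this
      simpa using this
    rw [hQ, Matrix.det_smul] at h1
    rcases mul_eq_zero.mp h1 with h2 | h2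
    · exact pow_ne_zero _ hd0 h2
    · exact hQr_det h2
  · have hinj : Function.Injective (fun M : Matrix n n ℤ => M.map (Int.cast : ℤ → ℚ)) :=
      Matrix.map_injective Int.cast_injective
    apply hinj
    change (Q * A₁).map (Int.cast : ℤ → ℚ) = (A₂ * Q).map (Int.cast : ℤ → ℚ)
    have e1 : (Q * A₁).map (Int.cast : ℤ → ℚ) = Q.map (Int.cast : ℤ → ℚ) * B₁ := by
      ext a c; simp [Matrix.mul_apply, hB₁]
    have e2 : (A₂ * Q).map (Int.cast : ℤ → ℚ) = B₂ * Q.map (Int.cast : ℤ → ℚ) := by
      ext a c; simp [Matrix.mul_apply, hB₂]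
    rw [e1, e2, hQ, Matrix.smul_mul, Matrix.mul_smul, hQr_comm]

end Fermat.Agent.S55
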