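import Fermat.Agent.S55.LcgMup
import Fermat.Agent.S55.Lc3Cor

/-!
# S55, block LC3: the hc-level assembly of [LC3] (generic form)

`T` a `ZMod p`-representation of `G` (think `μ_p`), `M` a `ℤ`-representation (think
`Additive Ωˣ`), `E : T →+ M` equivariant (think `c ↦ ζ ^ c`), `H ≤ G` of finite index containing
a level.  Given invariants `invG`, `invH` on `M`-valued level cocycles of `G` and `H` which are
class functions, with `res` surjective on `p`-torsion classes and `invG (index • y) = invH (res y)`,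
we get `invG (E ∘ cor x) = invH (E ∘ x)` for `T`-valued level 2-cocycles `x` of `H`
(`lc3_generic`), where `cor = lc3_cor`.
-/

set_option autoImplicit false

namespace Fermat.Agent.S55

theorem lc3_generic {p : ℕ} [Fact p.Prime] {G : Type*} [Group G] (L : hc_Lev G)
    (H : Subgroup G) [H.FiniteIndex]
    {T : Type*} [AddCommGroup T] [Module (ZMod p) T] (ρT : Representation (ZMod p) G T)
    {M : Type*} [AddCommGroup M] (ρM : Representation ℤ G M)
    (r : G → H) (hr : ∀ (u : H) (x : G), r ((u : G) * x) = u * r x) (h1 : r 1 = 1)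
    (hK : ∃ N ∈ L.S, N ≤ H)
    (E : T →+ M) (hE : ∀ g t, E (ρT g t) = ρM g (E t))
    (invG : (G × G → M) → ZMod p) (invH : (H × H → M) → ZMod p)
    (hGcl : ∀ c ∈ hc_C2 L ρM, hc_d23f ρM c = 0 → ∀ y ∈ hc_C1 L ρM,
      invG (c + hc_d12f ρM y) = invG c)
    (hHcl : ∀ c ∈ hc_C2 (shapLevSub L H) (ρM.comp H.subtype),
      hc_d23f (ρM.comp H.subtype) c = 0 →
      ∀ y ∈ hc_C1 (shapLevSub L H) (ρM.comp H.subtype),
        invH (c + hc_d12f (ρM.comp H.subtype) y) = invH c)
    (hsurj : ∀ c ∈ lcg_Z2p (shapLevSub L H) (ρM.comp H.subtype) p,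
      ∃ y : hc_C2 L ρM, hc_d23 L ρM y = 0 ∧
        ∃ β ∈ hc_C1 (shapLevSub L H) (ρM.comp H.subtype),
          c = (hc_res2 (shap_levSub_compat L H) ρM y).1 + hc_d12f (ρM.comp H.subtype) β)
    (hrespow : ∀ y : hc_C2 L ρM, hc_d23 L ρM y = 0 →
      (hc_res2 (shap_levSub_compat L H) ρM y).1 ∈
        lcg_Z2p (shapLevSub L H) (ρM.comp H.subtype) p →
      invG ((H.index : ℤ) • y.1) = invH (hc_res2 (shap_levSub_compat L H) ρM y).1)
    (x : hc_C2 (shapLevSub L H) (ρT.comp H.subtype))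
    (hx : hc_d23 (shapLevSub L H) (ρT.comp H.subtype) x = 0) :
    invG (fun z => E ((lc3_cor L H ρT r hr hK x).1 z)) = invH (fun z => E (x.1 z)) := by
  have hE' : ∀ (h : H) (t : T), E ((ρT.comp H.subtype) h t) = (ρM.comp H.subtype) h (E t) :=
    fun h t => hE h t
  -- `c = E ∘ x` is a `p`-torsion level cocycle
  have hcZ : (fun z => E (x.1 z)) ∈ lcg_Z2p (shapLevSub L H) (ρM.comp H.subtype) p :=
    lcg_comp_mem_Z2p (shapLevSub L H) (ρT.comp H.subtype) (ρM.comp H.subtype) E hE' x hx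
  set c' : hc_C2 (shapLevSub L H) (ρM.comp H.subtype) := ⟨fun z => E (x.1 z), hcZ.1⟩ with hc'
  obtain ⟨y, hy, β, hβ, hc⟩ := hsurj _ hcZ
  obtain ⟨y0, hy0, hpc⟩ := hcZ.2.2
  set β' : hc_C1 (shapLevSub L H) (ρM.comp H.subtype) := ⟨β, hβ⟩ with hβ'
  set ry := hc_res2 (shap_levSub_compat L H) ρM y with hry
  -- naturality of `cor`
  have hnat : (fun z => E ((lc3_cor L H ρT r hr hK x).1 z)) = (lc3_cor L H ρM r hr hK c').1 :=
    funext fun z => (lc3_cor_natural L H ρT r hr hK ρM E hE x c' (fun _ => rfl) z).symm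
  -- decomposition of `c'`
  have hdec : c' = ry + hc_d12 (shapLevSub L H) (ρM.comp H.subtype) β' := Subtype.ext hc
  obtain ⟨t, ht⟩ := lc3_cor_res L H ρM r hr hK h1 y hy
  have hcor : lc3_cor L H ρM r hr hK c' =
      (H.index : ℤ) • y + hc_d12 L ρM (t + lc3_cor1 L H ρM r hr hK β') := by
    rw [hdec, map_add, ht, lc3_cor_d12, map_add]
    abel
  have hcorv : (lc3_cor L H ρM r hr hK c').1 =
      (H.index : ℤ) • y.1 + hc_d12f ρM (t + lc3_cor1 L H ρM r hr hK β').1 := by
    rw [hcor]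
    rfl
  -- the restriction of `y` is a `p`-torsion level cocycle
  have hryc : hc_d23f (ρM.comp H.subtype) ry.1 = 0 := by
    have h3 := hc_res3_d23 (shap_levSub_compat L H) ρM y
    rw [hy, map_zero] at h3
    exact (congrArg Subtype.val h3).symm
  have hryZ : ry.1 ∈ lcg_Z2p (shapLevSub L H) (ρM.comp H.subtype) p := by
    refine ⟨ry.2, hryc, y0 - (p : ℤ) • β, Submodule.sub_mem _ hy0 (Submodule.smul_mem _ _ hβ), ?_⟩
    have h4 : ry.1 = (fun z => E (x.1 z)) - hc_d12f (ρM.comp H.subtype) β := by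
      rw [hc]
      abel
    rw [h4, smul_sub, hpc, map_sub, map_smul]
  -- the chain of equalities
  have hyc : hc_d23f ρM ((H.index : ℤ) • y.1) = 0 := by
    have h5 : hc_d23f ρM y.1 = 0 := congrArg Subtype.val hy
    rw [map_smul, h5, smul_zero]
  rw [hnat, hcorv, hGcl _ (Submodule.smul_mem _ _ y.2) hyc _ (Submodule.coe_mem _),
    hrespow y hy hryZ]
  have h6 : (fun z => E (x.1 z)) = ry.1 + hc_d12f (ρM.comp H.subtype) β := hc
  rw [h6, hHcl _ ry.2 hryc β hβ]

end Fermat.Agent.S55
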