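import Fermat.Agent.S55.HcCup
import Fermat.Agent.S55.LocCarry

/-!
# S55, block LC-GLUE, part 1: exponential transport and the cup-carry identity

Pure algebra, no arithmetic.

* `lcg_exp ζ t = ζ ^ t.val` for `t : ZMod p` and `ζ ^ p = 1` : an additive map `ZMod p → A`
  (`lcg_exp_add`, `lcg_exp_mul`, `lcg_exp_injective`), equivariant for the twisted action
  (`lcg_exp_smul`).
* generic transport along an additive equivariant map `e : T → A` from an (additive)
  representation `(T, ρ)` of `G` to a multiplicative `G`-module `A` : `e` turns the additive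
  differentials `hc_d01f`, `hc_d12f`, `hc_d23f` into the multiplicative ones
  (`lcg_e_d01`, `lcg_e_d12`, `lcg_e_d23`), cocycles into Mathlib's `IsMulCocycle₁/₂`
  (`lcg_isMulCocycle₁`, `lcg_isMulCocycle₂`), and level cochains into level cochains
  (`lcg_e_lev1`, `lcg_e_lev2`); if `e` is injective, everything is reflected.
* `lcg_cup_carry` : the cup-carry identity.  For `θ : A`, `χ : G → ZMod n` additive,
  `(g • θ / θ) ^ (χ h).val = (loc_ucoc n χ (θ ^ n) (g, h))⁻¹ * dβ (g, h)` with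
  `β g = θ ^ (χ g).val`; i.e. the cup product of the Kummer character of `b = θ ^ n` with `χ`
  is the inverse of the carry cocycle of `b`, up to an explicit coboundary.
* `lcg_exp_cup_carry` : the same for `lcg_exp ζ (κ g * χ h)`, `κ` the `ZMod p`-valued Kummer
  character.
-/

set_option autoImplicit false

namespace Fermat.Agent.S55

section exp

variable {p : ℕ} [Fact p.Prime] {A : Type*} [CommGroup A]

/-- `ζ ^ t` for `t : ZMod p`. -/
def lcg_exp (ζ : A) (t : ZMod p) : A := ζ ^ t.val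

lemma lcg_exp_zero (ζ : A) : lcg_exp ζ (0 : ZMod p) = 1 := by
  simp [lcg_exp]

lemma lcg_exp_one (ζ : A) : lcg_exp ζ (1 : ZMod p) = ζ := by
  have : Fact (1 < p) := ⟨(Fact.out : p.Prime).one_lt⟩
  simp [lcg_exp, ZMod.val_one]

lemma lcg_exp_natCast {ζ : A} (hζ : ζ ^ p = 1) (n : ℕ) : lcg_exp ζ (n : ZMod p) = ζ ^ n := by
  unfold lcg_exp
  rw [ZMod.val_natCast]
  conv_rhs => rw [← Nat.mod_add_div n p, pow_add, pow_mul, hζ, one_pow, mul_one]

lemma lcg_exp_add {ζ : A} (hζ : ζ ^ p = 1) (s t : ZMod p) :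
    lcg_exp ζ (s + t) = lcg_exp ζ s * lcg_exp ζ t := by
  have h : s + t = ((s.val + t.val : ℕ) : ZMod p) := by
    push_cast
    rw [ZMod.natCast_zmod_val, ZMod.natCast_zmod_val]
  rw [h, lcg_exp_natCast hζ, pow_add]
  rfl

lemma lcg_exp_mul {ζ : A} (hζ : ζ ^ p = 1) (s t : ZMod p) :
    lcg_exp ζ (s * t) = lcg_exp ζ t ^ s.val := by
  have h : s * t = ((t.val * s.val : ℕ) : ZMod p) := by
    push_cast
    rw [ZMod.natCast_zmod_val, ZMod.natCast_zmod_val, mul_comm]
  rw [h, lcg_exp_natCast hζ, pow_mul]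
  rfl

lemma lcg_exp_neg {ζ : A} (hζ : ζ ^ p = 1) (t : ZMod p) :
    lcg_exp ζ (-t) = (lcg_exp ζ t)⁻¹ := by
  rw [eq_inv_iff_mul_eq_one, ← lcg_exp_add hζ, neg_add_cancel, lcg_exp_zero]

lemma lcg_exp_sub {ζ : A} (hζ : ζ ^ p = 1) (s t : ZMod p) :
    lcg_exp ζ (s - t) = lcg_exp ζ s / lcg_exp ζ t := by
  rw [sub_eq_add_neg, lcg_exp_add hζ, lcg_exp_neg hζ, div_eq_mul_inv]

omit [Fact p.Prime] in
lemma lcg_exp_pow_p {ζ : A} (hζ : ζ ^ p = 1) (t : ZMod p) : lcg_exp ζ t ^ p = 1 := by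
  unfold lcg_exp
  rw [← pow_mul, mul_comm, pow_mul, hζ, one_pow]

lemma lcg_exp_injective {ζ : A} (hζ : orderOf ζ = p) :
    Function.Injective (lcg_exp ζ : ZMod p → A) := by
  intro s t h
  have h1 : s.val < orderOf ζ := hζ ▸ ZMod.val_lt s
  have h2 : t.val < orderOf ζ := hζ ▸ ZMod.val_lt t
  exact ZMod.val_injective p (pow_injOn_Iio_orderOf h1 h2 h)

lemma lcg_exp_eq_one_iff {ζ : A} (hζ : orderOf ζ = p) (t : ZMod p) :
    lcg_exp ζ t = 1 ↔ t = 0 := by
  rw [← lcg_exp_zero (p := p) ζ]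
  exact (lcg_exp_injective hζ).eq_iff

/-- equivariance of `lcg_exp` for the twisted action. -/
lemma lcg_exp_smul {G : Type*} [Group G] [MulDistribMulAction G A] {ζ : A} (hζ : ζ ^ p = 1)
    (χ : G → ZMod p) (hχ : ∀ g, g • ζ = lcg_exp ζ (χ g)) (g : G) (t : ZMod p) :
    lcg_exp ζ (χ g * t) = g • lcg_exp ζ t := by
  rw [mul_comm, lcg_exp_mul hζ, ← hχ]
  unfold lcg_exp
  rw [smul_pow']

end exp

section transport

variable {k : Type*} [CommRing k] {G : Type*} [Group G] {T : Type*} [AddCommGroup T] [Module k T]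
  (ρ : Representation k G T) {A : Type*} [CommGroup A] [MulDistribMulAction G A]
  {e : T → A}

lemma lcg_e_zero (he : ∀ s t, e (s + t) = e s * e t) : e 0 = 1 := by
  have := he 0 0
  rw [add_zero] at this
  exact left_eq_mul.mp this

lemma lcg_e_neg (he : ∀ s t, e (s + t) = e s * e t) (t : T) : e (-t) = (e t)⁻¹ := by
  rw [eq_inv_iff_mul_eq_one, ← he, neg_add_cancel, lcg_e_zero he]

lemma lcg_e_sub (he : ∀ s t, e (s + t) = e s * e t) (s t : T) : e (s - t) = e s / e t := by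
  rw [sub_eq_add_neg, he, lcg_e_neg he, div_eq_mul_inv]

lemma lcg_e_d01 (he : ∀ s t, e (s + t) = e s * e t) (hρ : ∀ g t, e (ρ g t) = g • e t)
    (t : T) (g : G) : e (hc_d01f ρ t g) = g • e t / e t := by
  change e (ρ g t - t) = _
  rw [lcg_e_sub he, hρ]

lemma lcg_e_d12 (he : ∀ s t, e (s + t) = e s * e t) (hρ : ∀ g t, e (ρ g t) = g • e t)
    (b : G → T) (g h : G) :
    e (hc_d12f ρ b (g, h)) = g • e (b h) / e (b (g * h)) * e (b g) := by
  change e (ρ g (b h) - b (g * h) + b g) = _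
  rw [he, lcg_e_sub he, hρ]

lemma lcg_e_d23 (he : ∀ s t, e (s + t) = e s * e t) (hρ : ∀ g t, e (ρ g t) = g • e t)
    (c : G × G → T) (g h j : G) :
    e (hc_d23f ρ c (g, h, j)) =
      g • e (c (h, j)) / e (c (g * h, j)) * e (c (g, h * j)) / e (c (g, h)) := by
  change e (ρ g (c (h, j)) - c (g * h, j) + c (g, h * j) - c (g, h)) = _
  rw [lcg_e_sub he, he, lcg_e_sub he, hρ]

/-- additive 1-cocycles become multiplicative 1-cocycles. -/
lemma lcg_isMulCocycle₁ (he : ∀ s t, e (s + t) = e s * e t) (hρ : ∀ g t, e (ρ g t) = g • e t)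
    {b : G → T} (hb : hc_d12f ρ b = 0) :
    groupCohomology.IsMulCocycle₁ (fun g => e (b g)) := by
  intro g h
  have h1 := lcg_e_d12 ρ he hρ b g h
  rw [hb, Pi.zero_apply, lcg_e_zero he] at h1
  have hcomm : ∀ x y z : A, 1 = x / y * z → y = x * z := by
    intro x y z hxyz
    have h2 : y = x / y * z * y := by rw [← hxyz, one_mul]
    rw [h2]
    apply Additive.ofMul.injective
    simp only [ofMul_mul, ofMul_div]
    abel
  exact hcomm _ _ _ h1

/-- additive 2-cocycles become multiplicative 2-cocycles. -/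
lemma lcg_isMulCocycle₂ (he : ∀ s t, e (s + t) = e s * e t) (hρ : ∀ g t, e (ρ g t) = g • e t)
    {c : G × G → T} (hc : hc_d23f ρ c = 0) :
    groupCohomology.IsMulCocycle₂ (fun x => e (c x)) := by
  intro g h j
  have h1 := lcg_e_d23 ρ he hρ c g h j
  rw [hc, Pi.zero_apply, lcg_e_zero he] at h1
  have hcomm : ∀ x y z w : A, 1 = x / y * z / w → y * w = x * z := by
    intro x y z w hxyz
    have h2 : y * w = x / y * z / w * (y * w) := by rw [← hxyz, one_mul]
    rw [h2]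
    apply Additive.ofMul.injective
    simp only [ofMul_mul, ofMul_div]
    abel
  exact hcomm _ _ _ _ h1

/-- if `e` is injective, multiplicative 2-cocycles come from additive 2-cocycles only. -/
lemma lcg_d23_eq_zero_of_isMulCocycle₂ (he : ∀ s t, e (s + t) = e s * e t)
    (hρ : ∀ g t, e (ρ g t) = g • e t) (hinj : Function.Injective e)
    {c : G × G → T} (hc : groupCohomology.IsMulCocycle₂ (fun x => e (c x))) :
    hc_d23f ρ c = 0 := by
  funext x
  obtain ⟨g, h, j⟩ := x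
  apply hinj
  rw [lcg_e_d23 ρ he hρ, Pi.zero_apply, lcg_e_zero he]
  have h1 := hc g h j
  simp only at h1
  rw [div_mul_eq_mul_div, div_div, ← h1, div_self']

/-- if `e` is injective, `e ∘ c = d (e ∘ b)` multiplicatively forces `c = d b`. -/
lemma lcg_d12_eq_of_mul (he : ∀ s t, e (s + t) = e s * e t)
    (hρ : ∀ g t, e (ρ g t) = g • e t) (hinj : Function.Injective e)
    {c : G × G → T} {b : G → T}
    (h : ∀ g h, g • e (b h) / e (b (g * h)) * e (b g) = e (c (g, h))) :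
    hc_d12f ρ b = c := by
  funext x
  obtain ⟨g, h'⟩ := x
  apply hinj
  rw [lcg_e_d12 ρ he hρ, h]

/-- level 1-cochains stay level. -/
lemma lcg_e_lev1 (hρ : ∀ g t, e (ρ g t) = g • e t) {N : Subgroup G} {b : G → T}
    (hb : hc_IsLev1 ρ N b) :
    (∀ g, ∀ s ∈ N, e (b (g * s)) = e (b g)) ∧ ∀ g, ∀ s ∈ N, s • e (b g) = e (b g) :=
  ⟨fun g s hs => by rw [hb.1 g s hs], fun g s hs => by rw [← hρ, hb.2 g s hs]⟩

/-- level 2-cochains stay level. -/
lemma lcg_e_lev2 (hρ : ∀ g t, e (ρ g t) = g • e t) {N : Subgroup G} {c : G × G → T}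
    (hc : hc_IsLev2 ρ N c) :
    (∀ g h, ∀ s ∈ N, ∀ t ∈ N, e (c (g * s, h * t)) = e (c (g, h))) ∧
      ∀ x, ∀ s ∈ N, s • e (c x) = e (c x) :=
  ⟨fun g h s hs t ht => by rw [hc.1 g h s hs t ht], fun x s hs => by rw [← hρ, hc.2 x s hs]⟩

/-- if `e` is injective, level-ness is reflected (degree 1). -/
lemma lcg_lev1_of_e (hρ : ∀ g t, e (ρ g t) = g • e t) (hinj : Function.Injective e)
    {N : Subgroup G} {b : G → T}
    (h1 : ∀ g, ∀ s ∈ N, e (b (g * s)) = e (b g)) (h2 : ∀ g, ∀ s ∈ N, s • e (b g) = e (b g)) :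
    hc_IsLev1 ρ N b :=
  ⟨fun g s hs => hinj (h1 g s hs), fun g s hs => hinj (by rw [hρ, h2 g s hs])⟩

/-- if `e` is injective, level-ness is reflected (degree 2). -/
lemma lcg_lev2_of_e (hρ : ∀ g t, e (ρ g t) = g • e t) (hinj : Function.Injective e)
    {N : Subgroup G} {c : G × G → T}
    (h1 : ∀ g h, ∀ s ∈ N, ∀ t ∈ N, e (c (g * s, h * t)) = e (c (g, h)))
    (h2 : ∀ x, ∀ s ∈ N, s • e (c x) = e (c x)) :
    hc_IsLev2 ρ N c :=
  ⟨fun g h s hs t ht => hinj (h1 g h s hs t ht), fun x s hs => hinj (by rw [hρ, h2 x s hs])⟩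

end transport

section cupcarry

variable {G A : Type*} [Group G] [CommGroup A] [MulDistribMulAction G A]

/-- **Cup-carry identity.**  The cup product of the Kummer cochain `g ↦ g • θ / θ` with an
additive `χ : G → ZMod n` equals the inverse carry cocycle of `θ ^ n`, up to the coboundary of
`g ↦ θ ^ (χ g).val`. -/
theorem lcg_cup_carry {n : ℕ} [NeZero n] (χ : G → ZMod n)
    (hχ : ∀ g h, χ (g * h) = χ g + χ h) (θ : A) (g h : G) :
    (g • θ / θ) ^ (χ h).val =
      (loc_ucoc n χ (θ ^ n) (g, h))⁻¹ *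
        (g • (θ ^ (χ h).val) / θ ^ (χ (g * h)).val * θ ^ (χ g).val) := by
  have hs := loc_carry_spec n (χ g) (χ h)
  rw [loc_ucoc_apply, hχ, smul_pow', div_pow, ← pow_mul]
  have key : θ ^ (χ g).val * θ ^ (χ h).val =
      θ ^ (χ g + χ h).val * θ ^ (n * loc_carry n (χ g) (χ h)) := by
    rw [← pow_add, ← pow_add, hs]
  have key2 : θ ^ (χ g).val =
      θ ^ (χ g + χ h).val * θ ^ (n * loc_carry n (χ g) (χ h)) / θ ^ (χ h).val := by
    rw [← key, mul_div_assoc, div_self', mul_one]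
  rw [key2]
  have hcomm : ∀ x y z w : A, x / y = w⁻¹ * (x / z * (z * w / y)) := by
    intro x y z w
    apply Additive.ofMul.injective
    simp only [ofMul_mul, ofMul_div, ofMul_inv]
    abel
  exact hcomm _ _ _ _

variable {p : ℕ} [Fact p.Prime]

/-- The cup-carry identity for `ZMod p`-valued Kummer characters: if
`g • θ / θ = ζ ^ κ g` then `ζ ^ (κ g * χ h)` is the inverse carry cocycle of `θ ^ p` times
the coboundary of `g ↦ θ ^ (χ g).val`. -/
theorem lcg_exp_cup_carry {ζ : A} (hζ : ζ ^ p = 1) (χ : G → ZMod p)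
    (hχ : ∀ g h, χ (g * h) = χ g + χ h) (θ : A) (κ : G → ZMod p)
    (hκ : ∀ g, g • θ / θ = lcg_exp ζ (κ g)) (g h : G) :
    lcg_exp ζ (κ g * χ h) =
      (loc_ucoc p χ (θ ^ p) (g, h))⁻¹ *
        (g • (θ ^ (χ h).val) / θ ^ (χ (g * h)).val * θ ^ (χ g).val) := by
  rw [← lcg_cup_carry χ hχ θ g h, hκ, mul_comm, lcg_exp_mul hζ]

end cupcarry

end Fermat.Agent.S55
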