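/-
S55 block LOC-3, "(GCB) ⟹": the general cyclic criterion in the limit.

* `linf_descent_subgroup` : Hilbert 90 "in the limit" for an arbitrary subgroup `H ≤ G`
                            (`G → Gal(Ω/k)`): a finite-level 1-cochain which is a 1-cocycle on `H`
                            is a coboundary on `H`.
* `linf_ucoc_norm_of_h90` : `loc_ucoc_coboundary_norm` with Hilbert 90 only required for the given
                            cochain `β`.
* `linf_gcb`              : if the carry cocycle `loc_ucoc n χ a` (`χ : Gal(Ω/K) → ZMod n` additive,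
                            `χ σ = 1`, `a` Galois-fixed) is the coboundary of a finite-level
                            1-cochain `β : Gal(Ω/K) → Ωˣ`, then `a = ∏_{k<n} σ^k b` with `b` fixed
                            by `ker χ`.
-/
import Fermat.Agent.S55.LocInf
import Fermat.Agent.S55.LocCarry

namespace Fermat.Agent.S55

section Descent

variable {k Ω : Type*} [Field k] [Field Ω] [Algebra k Ω]
variable {G : Type*} [Group G] (ι : G →* (Ω ≃ₐ[k] Ω))
variable [IsGalois k Ω]

/-- Hilbert 90 in the limit, for an arbitrary subgroup `H` of `G`. -/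
theorem linf_descent_subgroup (H : Subgroup G) (θ : G → Ωˣ)
    (hlev : ∃ M : IntermediateField k Ω, FiniteDimensional k M ∧
      ∀ g s, ι s ∈ M.fixingSubgroup → θ (g * s) = θ g)
    (hcoc : ∀ g h, g ∈ H → h ∈ H →
      θ (g * h) = θ g * Units.map ((ι g : Ω ≃ₐ[k] Ω) : Ω →* Ω) (θ h)) :
    ∃ α : Ωˣ, ∀ h, h ∈ H →
      θ h = Units.map ((ι h : Ω ≃ₐ[k] Ω) : Ω →* Ω) α / α := by
  classical
  obtain ⟨M, hMfin, hM⟩ := hlev
  have hVfin : (Set.range fun g => (θ g : Ω)).Finite :=
    linf_finite_range ι (fun g => (θ g : Ω)) M (fun g s hs => by rw [hM g s hs])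
  set V : Set Ω := Set.range fun g => (θ g : Ω) with hV
  have : Finite V := hVfin
  have : FiniteDimensional k (IntermediateField.adjoin k V) :=
    IntermediateField.finiteDimensional_adjoin (fun x _ => (Algebra.IsIntegral.isIntegral x))
  let M₀ : IntermediateField k Ω := M ⊔ IntermediateField.adjoin k V
  let N : IntermediateField k Ω := IntermediateField.normalClosure k M₀ Ω
  have hMN : M ≤ N := le_sup_left.trans (IntermediateField.le_normalClosure M₀)
  have hVN : ∀ g, (θ g : Ω) ∈ N := fun g =>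
    (le_sup_right.trans (IntermediateField.le_normalClosure M₀) :
      IntermediateField.adjoin k V ≤ N) (IntermediateField.subset_adjoin k V ⟨g, rfl⟩)
  have : FiniteDimensional k N := inferInstance
  have : Normal k N := inferInstance
  let res : G →* (N ≃ₐ[k] N) := (AlgEquiv.restrictNormalHom N).comp ι
  have hres : ∀ g (x : N), ((res g x : N) : Ω) = ι g x := fun g x =>
    AlgEquiv.restrictNormal_commutes (ι g) N x
  let Γ : Subgroup (N ≃ₐ[k] N) := H.map res
  let a : Γ →* (N ≃+* N) :=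
    { toFun := fun σ => (σ.1 : N ≃ₐ[k] N).toRingEquiv
      map_one' := rfl
      map_mul' := fun _ _ => rfl }
  have ha : Function.Injective a := by
    intro σ σ' h
    apply Subtype.ext
    apply AlgEquiv.ext
    intro x
    exact DFunLike.congr_fun h x
  have hlift : ∀ σ : Γ, ∃ h : G, h ∈ H ∧ res h = σ.1 := by
    rintro ⟨σ, h, hh, rfl⟩
    exact ⟨h, hh, rfl⟩
  choose lift hliftE hliftres using hlift
  -- θ only depends on the restriction to N
  have hθres : ∀ g g' : G, res g = res g' → θ g = θ g' := by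
    intro g g' hgg
    apply linf_eq_of_restrict_eq ι θ M hM
    intro m hm
    have := congrArg (fun σ : N ≃ₐ[k] N => ((σ ⟨m, hMN hm⟩ : N) : Ω)) hgg
    simpa only [hres] using this
  let f : Γ → Nˣ := fun σ =>
    Units.mk0 ⟨(θ (lift σ) : Ω), hVN _⟩ (fun h0 => Units.ne_zero (θ (lift σ))
      (congrArg Subtype.val h0))
  have hfval : ∀ σ : Γ, ((f σ : N) : Ω) = θ (lift σ) := fun σ => rfl
  have hf : ∀ σ σ' : Γ, f (σ * σ') = f σ * Units.map (a σ : N →* N) (f σ') := by
    intro σ σ'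
    apply Units.ext
    apply Subtype.ext
    rw [hfval]
    have h1 : θ (lift (σ * σ')) = θ (lift σ * lift σ') := by
      apply hθres
      rw [hliftres, map_mul, hliftres, hliftres]
      rfl
    rw [h1, hcoc _ _ (hliftE σ) (hliftE σ')]
    simp only [Units.val_mul, Units.coe_map, MonoidHom.coe_coe, MulMemClass.coe_mul, hfval]
    congr 1
    have h2 : ((a σ (f σ' : N) : N) : Ω) = ι (lift σ) ((f σ' : N) : Ω) := by
      rw [← hres, hliftres]
      rfl
    rw [h2, hfval]
  obtain ⟨β, hβ⟩ := linf_hilbert90 a ha f hf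
  refine ⟨Units.map (algebraMap N Ω : N →* Ω) β, fun h hh => ?_⟩
  have hmem : res h ∈ Γ := ⟨h, hh, rfl⟩
  have h1 : θ h = θ (lift ⟨res h, hmem⟩) := hθres _ _ (hliftres ⟨res h, hmem⟩).symm
  rw [h1]
  apply Units.ext
  rw [← hfval, hβ ⟨res h, hmem⟩]
  simp only [Units.val_div_eq_div_val, Units.coe_map, MonoidHom.coe_coe]
  have h2 : ((a ⟨res h, hmem⟩ (β : N) : N) : Ω) = ι h ((β : N) : Ω) := by
    rw [← hres]
    rfl
  have h3 : algebraMap N Ω (β : N) = ((β : N) : Ω) := rfl
  rw [h3, ← h2]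
  rfl

end Descent

section Carry

variable {G A : Type*} [Group G] [CommGroup A] [MulDistribMulAction G A]

/-- `loc_ucoc_coboundary_norm`, with Hilbert 90 only assumed for the given cochain `β`. -/
theorem linf_ucoc_norm_of_h90 {n : ℕ} [NeZero n] (χ : G → ZMod n)
    (hχ : ∀ g h, χ (g * h) = χ g + χ h) (σ : G) (hσ : χ σ = 1)
    (a : A) (ha : ∀ g : G, g • a = a)
    (β : G → A) (hβ : ∀ g h, g • β h / β (g * h) * β g = loc_ucoc n χ a (g, h))
    (h90 : ∃ c : A, ∀ s, χ s = 0 → β s = s • c / c) :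
    ∃ b : A, (∀ s, χ s = 0 → s • b = b) ∧ a = loc_pnorm σ b n := by
  have hχ1 := loc_chi_one χ hχ
  by_cases hn1 : n = 1
  · subst hn1
    refine ⟨a, fun s _ => ha s, ?_⟩
    simp [loc_pnorm]
  have hn2 : 2 ≤ n := by
    have := NeZero.ne n
    omega
  have : Fact (1 < n) := ⟨by omega⟩
  obtain ⟨c, hc⟩ := h90
  -- the corrected cochain
  set β' : G → A := fun g => β g * (c / g • c) with hβ'
  have hβ'd : ∀ g h, g • β' h / β' (g * h) * β' g = loc_ucoc n χ a (g, h) := by
    intro g h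
    rw [← hβ g h]
    simp only [hβ', smul_mul', smul_div', mul_smul]
    rw [div_mul_eq_mul_div, div_mul_eq_mul_div, div_eq_div_iff_mul_eq_mul]
    have e1 : c / (g • h • c) = c * (g • h • c)⁻¹ := div_eq_mul_inv _ _
    have e2 : c / (g • c) = c * (g • c)⁻¹ := div_eq_mul_inv _ _
    have e3 : g • c / (g • h • c) = g • c * (g • h • c)⁻¹ := div_eq_mul_inv _ _
    rw [e1, e2, e3]
    have : g • β h * (g • c * (g • h • c)⁻¹) * (β g * (c * (g • c)⁻¹)) * β (g * h) =
        g • β h * β g * (β (g * h) * (c * (g • h • c)⁻¹)) * (g • c * (g • c)⁻¹) := by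
      simp only [mul_assoc, mul_comm, mul_left_comm]
    rw [this, mul_inv_cancel, mul_one]
  have hβ'1 : ∀ s, χ s = 0 → β' s = 1 := by
    intro s hs
    show β s * (c / s • c) = 1
    rw [hc s hs]
    simp
  have hr : ∀ g s, χ s = 0 → β' (g * s) = β' g := by
    intro g s hs
    have := hβ'd g s
    rw [loc_ucoc_apply, hs, loc_carry_zero_right, pow_zero, hβ'1 s hs, smul_one, one_div,
      inv_mul_eq_one] at this
    exact this
  have hl : ∀ g s, χ s = 0 → β' (s * g) = s • β' g := by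
    intro g s hs
    have := hβ'd s g
    rw [loc_ucoc_apply, hs, loc_carry_zero_left, pow_zero, hβ'1 s hs, mul_one, div_eq_one] at this
    exact this.symm
  have hfix : ∀ g s, χ s = 0 → s • β' g = β' g := by
    intro g s hs
    rw [← hl g s hs]
    have h1 : s * g = g * (g⁻¹ * s * g) := by group
    rw [h1]
    apply hr
    rw [hχ, hχ, loc_chi_inv χ hχ, hs]
    ring
  refine ⟨β' σ, fun s hs => hfix σ s hs, ?_⟩
  -- induction along powers of σ
  have hind : ∀ k : ℕ, k < n → β' (σ ^ k) = loc_pnorm σ (β' σ) k := by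
    intro k
    induction k with
    | zero =>
      intro _
      rw [pow_zero, hβ'1 1 hχ1]
      simp [loc_pnorm]
    | succ k ih =>
      intro hk
      have hk' : k < n := by omega
      have := hβ'd (σ ^ k) σ
      rw [loc_ucoc_apply, loc_chi_pow χ hχ, hσ, mul_one] at this
      have hcz : loc_carry n (k : ZMod n) 1 = 0 := by
        unfold loc_carry
        rw [if_neg]
        rw [ZMod.val_natCast, Nat.mod_eq_of_lt hk', ZMod.val_one]
        omega
      rw [hcz, pow_zero, div_mul_eq_mul_div, div_eq_one, ih hk', ← pow_succ] at this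
      rw [← this, loc_pnorm, loc_pnorm, Finset.prod_range_succ, mul_comm]
  obtain ⟨m, rfl⟩ : ∃ m, n = m + 1 := ⟨n - 1, by omega⟩
  have := hβ'd (σ ^ m) σ
  rw [loc_ucoc_apply, loc_chi_pow χ hχ, hσ, mul_one] at this
  have hcz : loc_carry (m + 1) (m : ZMod (m + 1)) 1 = 1 := by
    unfold loc_carry
    rw [if_pos]
    rw [ZMod.val_natCast, Nat.mod_eq_of_lt (by omega), ZMod.val_one]
  rw [hcz, pow_one, ← pow_succ, hind m (by omega)] at this
  have h0 : β' (σ ^ (m + 1)) = 1 := hβ'1 _ (by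
    rw [loc_chi_pow χ hχ, hσ, mul_one]
    exact ZMod.natCast_self (m + 1))
  rw [h0, div_one] at this
  rw [← this, loc_pnorm, loc_pnorm, Finset.prod_range_succ, mul_comm]

end Carry

section GCB

variable {K Ω : Type*} [Field K] [Field Ω] [Algebra K Ω] [IsGalois K Ω]

/-- Hilbert 90 in the limit on the kernel of an additive character, in the `•`-shape. -/
theorem linf_h90_ker {n : ℕ} (χ : (Ω ≃ₐ[K] Ω) → ZMod n)
    (hχ : ∀ g h, χ (g * h) = χ g + χ h)
    (β : (Ω ≃ₐ[K] Ω) → Ωˣ)
    (hβlev : ∃ M : IntermediateField K Ω, FiniteDimensional K M ∧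
      ∀ g s, s ∈ M.fixingSubgroup → β (g * s) = β g)
    (hβ : ∀ s t, χ s = 0 → χ t = 0 → β (s * t) = s • β t * β s) :
    ∃ c : Ωˣ, ∀ s, χ s = 0 → β s = s • c / c := by
  let H : Subgroup (Ω ≃ₐ[K] Ω) :=
    { carrier := {g | χ g = 0}
      one_mem' := loc_chi_one χ hχ
      mul_mem' := fun {g h} hg hh => by
        show χ (g * h) = 0
        rw [hχ, show χ g = 0 from hg, show χ h = 0 from hh, add_zero]
      inv_mem' := fun {g} hg => by
        show χ g⁻¹ = 0
        rw [loc_chi_inv χ hχ, show χ g = 0 from hg, neg_zero] }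
  obtain ⟨α, hα⟩ := linf_descent_subgroup (MonoidHom.id (Ω ≃ₐ[K] Ω)) H β hβlev
    (fun g h hg hh => by
      rw [hβ g h hg hh, mul_comm, AlgEquiv.smul_units_def]
      rfl)
  refine ⟨α, fun s hs => ?_⟩
  rw [hα s hs, AlgEquiv.smul_units_def]
  rfl

/-- **(GCB) ⟹**: if the carry cocycle of a Galois-fixed `a` is the coboundary of a finite-level
1-cochain, then `a` is the `σ`-norm of an element fixed by `ker χ`. -/
theorem linf_gcb {n : ℕ} [NeZero n] (χ : (Ω ≃ₐ[K] Ω) → ZMod n)
    (hχ : ∀ g h, χ (g * h) = χ g + χ h) (σ : Ω ≃ₐ[K] Ω) (hσ : χ σ = 1)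
    (a : Ωˣ) (ha : ∀ g : Ω ≃ₐ[K] Ω, g • a = a)
    (β : (Ω ≃ₐ[K] Ω) → Ωˣ)
    (hβlev : ∃ M : IntermediateField K Ω, FiniteDimensional K M ∧
      ∀ g s, s ∈ M.fixingSubgroup → β (g * s) = β g)
    (hβ : ∀ g h, g • β h / β (g * h) * β g = loc_ucoc n χ a (g, h)) :
    ∃ b : Ωˣ, (∀ s, χ s = 0 → s • b = b) ∧ a = loc_pnorm σ b n := by
  refine linf_ucoc_norm_of_h90 χ hχ σ hσ a ha β hβ (linf_h90_ker χ hχ β hβlev ?_)
  intro s t hs ht
  have := hβ s t
  rw [loc_ucoc_apply, hs, ht, loc_carry_zero_left, pow_zero] at this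
  rw [div_mul_eq_mul_div, div_eq_one] at this
  exact this.symm

/-- **(GCB)** as an equivalence-ready corollary for `a ∈ Kˣ`. -/
theorem linf_gcb_base {n : ℕ} [NeZero n] (χ : (Ω ≃ₐ[K] Ω) → ZMod n)
    (hχ : ∀ g h, χ (g * h) = χ g + χ h) (σ : Ω ≃ₐ[K] Ω) (hσ : χ σ = 1)
    (a : Kˣ)
    (β : (Ω ≃ₐ[K] Ω) → Ωˣ)
    (hβlev : ∃ M : IntermediateField K Ω, FiniteDimensional K M ∧
      ∀ g s, s ∈ M.fixingSubgroup → β (g * s) = β g)
    (hβ : ∀ g h, g • β h / β (g * h) * β g =
      loc_ucoc n χ (Units.map (algebraMap K Ω : K →* Ω) a) (g, h)) :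
    ∃ b : Ωˣ, (∀ s, χ s = 0 → s • b = b) ∧
      Units.map (algebraMap K Ω : K →* Ω) a = loc_pnorm σ b n := by
  refine linf_gcb χ hχ σ hσ _ (fun g => ?_) β hβlev hβ
  rw [AlgEquiv.smul_units_def]
  apply Units.ext
  simp

end GCB

end Fermat.Agent.S55
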