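import Fermat.Agent.S55.LcgMup
import Fermat.Agent.S55.LcgExp
import Fermat.Agent.S55.LocLimCoc
import Fermat.Agent.S55.LocInfGen

/-!
# S55, block LC-GLUE, part 4: the dictionary between the `hc_` model and the `loc_` model

The `hc_` model: a leveled group `(G, L)` acting on `Additive Ωˣ` through a representation `ρ`
over `ℤ`; cochains are functions `G → Additive Ωˣ`, `G × G → Additive Ωˣ`; level cochains are
`hc_C1 L ρ`, `hc_C2 L ρ`.

The `loc_` model (LOC owner): `Γ = Ω ≃ₐ[K] Ω`, cochains are functions `Γ → Ωˣ`, `Γ × Γ → Ωˣ`;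
level cochains are `loc_Lev₁`, `loc_Lev₂`; level coboundaries `loc_IsLevCob`.

A dictionary `lcg_Dict L e ρ` consists of an isomorphism `e : G ≃* Γ` compatible with the
actions such that the levels of `L` and the subgroups `Gal(Ω/M)`, `M/K` finite, are mutually
cofinal.  Under a dictionary:

* `lcg_lev1_iff`, `lcg_lev2_iff` : level cochains correspond;
* `lcg_toLoc₂_d12f`, `lcg_cocycle_iff`, `lcg_cob_iff` : coboundaries, cocycles and level
  coboundaries correspond;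
* `lcg_dict_h90`, `lcg_dict_C0`, `lcg_dict_div`, `lcg_dict_tors` : the hypotheses of
  `lcg_mup_coboundary` (Hilbert 90 in the limit, divisibility, torsion);
* `lcg_dict_inv` : an invariant on the `loc_` side (additive on `p`-torsion level classes, with
  kernel the level coboundaries) gives an invariant on the `hc_` side in the shape consumed by
  `lcg_invT_exists` / `lcg_invT_inj`;
* `lcg_dict_invT` : the resulting `ZMod p`-linear local functional on `μ_p`-valued level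
  2-cochains: kills coboundaries, equals the invariant of `ζ ^ c` on cocycles, and a cocycle
  with invariant `0` is a level coboundary.
-/

set_option autoImplicit false
set_option linter.unusedSectionVars false

namespace Fermat.Agent.S55

open IntermediateField

section dict

variable {K Ω : Type} [Field K] [Field Ω] [Algebra K Ω] {G : Type*} [Group G]

/-- A dictionary between a leveled group `(G, L)` acting on `Additive Ωˣ` and the absolute Galois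
group `Ω ≃ₐ[K] Ω` with its finite levels. -/
structure lcg_Dict (L : hc_Lev G) (e : G ≃* (Ω ≃ₐ[K] Ω))
    (ρ : Representation ℤ G (Additive Ωˣ)) : Prop where
  act : ∀ g a, ρ g a = Additive.ofMul (e g • Additive.toMul a)
  lv1 : ∀ N ∈ L.S, ∃ M : IntermediateField K Ω, FiniteDimensional K M ∧
    ∀ s, e s ∈ M.fixingSubgroup → s ∈ N
  lv2 : ∀ M : IntermediateField K Ω, FiniteDimensional K M →
    ∃ N ∈ L.S, ∀ s ∈ N, e s ∈ M.fixingSubgroup

/-- transport of 1-cochains to the `loc_` model. -/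
def lcg_toLoc₁ (e : G ≃* (Ω ≃ₐ[K] Ω)) (b : G → Additive Ωˣ) : (Ω ≃ₐ[K] Ω) → Ωˣ :=
  fun γ => Additive.toMul (b (e.symm γ))

/-- transport of 2-cochains to the `loc_` model. -/
def lcg_toLoc₂ (e : G ≃* (Ω ≃ₐ[K] Ω)) (c : G × G → Additive Ωˣ) :
    (Ω ≃ₐ[K] Ω) × (Ω ≃ₐ[K] Ω) → Ωˣ :=
  fun p => Additive.toMul (c (e.symm p.1, e.symm p.2))

/-- transport of 1-cochains to the `hc_` model. -/
def lcg_ofLoc₁ (e : G ≃* (Ω ≃ₐ[K] Ω)) (β : (Ω ≃ₐ[K] Ω) → Ωˣ) : G → Additive Ωˣ :=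
  fun g => Additive.ofMul (β (e g))

/-- transport of 2-cochains to the `hc_` model. -/
def lcg_ofLoc₂ (e : G ≃* (Ω ≃ₐ[K] Ω)) (x : (Ω ≃ₐ[K] Ω) × (Ω ≃ₐ[K] Ω) → Ωˣ) :
    G × G → Additive Ωˣ :=
  fun p => Additive.ofMul (x (e p.1, e p.2))

variable (e : G ≃* (Ω ≃ₐ[K] Ω))

@[simp] lemma lcg_toLoc₁_ofLoc₁ (β : (Ω ≃ₐ[K] Ω) → Ωˣ) : lcg_toLoc₁ e (lcg_ofLoc₁ e β) = β := by
  funext γ
  simp [lcg_toLoc₁, lcg_ofLoc₁]

@[simp] lemma lcg_ofLoc₁_toLoc₁ (b : G → Additive Ωˣ) : lcg_ofLoc₁ e (lcg_toLoc₁ e b) = b := by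
  funext g
  simp [lcg_toLoc₁, lcg_ofLoc₁]

@[simp] lemma lcg_toLoc₂_ofLoc₂ (x : (Ω ≃ₐ[K] Ω) × (Ω ≃ₐ[K] Ω) → Ωˣ) :
    lcg_toLoc₂ e (lcg_ofLoc₂ e x) = x := by
  funext p
  simp [lcg_toLoc₂, lcg_ofLoc₂]

@[simp] lemma lcg_ofLoc₂_toLoc₂ (c : G × G → Additive Ωˣ) :
    lcg_ofLoc₂ e (lcg_toLoc₂ e c) = c := by
  funext p
  simp [lcg_toLoc₂, lcg_ofLoc₂]

lemma lcg_toLoc₂_injective : Function.Injective (lcg_toLoc₂ e) := fun c c' h => by
  rw [← lcg_ofLoc₂_toLoc₂ e c, h, lcg_ofLoc₂_toLoc₂]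

lemma lcg_toLoc₂_add (c c' : G × G → Additive Ωˣ) :
    lcg_toLoc₂ e (c + c') = lcg_toLoc₂ e c * lcg_toLoc₂ e c' := rfl

lemma lcg_toLoc₂_zero : lcg_toLoc₂ e (0 : G × G → Additive Ωˣ) = 1 := rfl

lemma lcg_toLoc₂_nsmul (n : ℕ) (c : G × G → Additive Ωˣ) :
    lcg_toLoc₂ e (n • c) = lcg_toLoc₂ e c ^ n := rfl

lemma lcg_toLoc₂_zsmul (n : ℤ) (c : G × G → Additive Ωˣ) :
    lcg_toLoc₂ e (n • c) = lcg_toLoc₂ e c ^ n := rfl

variable {e} {L : hc_Lev G} {ρ : Representation ℤ G (Additive Ωˣ)}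

lemma lcg_toLoc₂_d12f (D : lcg_Dict L e ρ) (b : G → Additive Ωˣ) :
    lcg_toLoc₂ e (hc_d12f ρ b) = loc_d₁ (lcg_toLoc₁ e b) := by
  funext ⟨γ, γ'⟩
  simp only [lcg_toLoc₂, lcg_toLoc₁, loc_d₁, hc_d12f_apply, D.act, map_mul,
    MulEquiv.apply_symm_apply]
  rfl

lemma lcg_cocycle_iff (D : lcg_Dict L e ρ) (c : G × G → Additive Ωˣ) :
    hc_d23f ρ c = 0 ↔ groupCohomology.IsMulCocycle₂ (lcg_toLoc₂ e c) := by
  constructor
  · intro h γ γ' γ''
    have h1 := congrFun h (e.symm γ, e.symm γ', e.symm γ'')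
    simp only [hc_d23f_apply, D.act, MulEquiv.apply_symm_apply, Pi.zero_apply] at h1
    have h2 := congrArg Additive.toMul h1
    simp only [lcg_toLoc₂, map_mul]
    have h3 : γ • Additive.toMul (c (e.symm γ', e.symm γ'')) /
        Additive.toMul (c (e.symm γ * e.symm γ', e.symm γ'')) *
        Additive.toMul (c (e.symm γ, e.symm γ' * e.symm γ'')) /
        Additive.toMul (c (e.symm γ, e.symm γ')) = 1 := h2
    rw [div_eq_one, div_mul_eq_mul_div, div_eq_iff_eq_mul] at h3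
    rw [h3, mul_comm]
  · intro h
    funext ⟨g, g', g''⟩
    have h1 := h (e g) (e g') (e g'')
    simp only [lcg_toLoc₂, ← map_mul, MulEquiv.symm_apply_apply] at h1
    simp only [hc_d23f_apply, D.act, Pi.zero_apply]
    apply Additive.toMul.injective
    show e g • Additive.toMul (c (g', g'')) / Additive.toMul (c (g * g', g'')) *
      Additive.toMul (c (g, g' * g'')) / Additive.toMul (c (g, g')) = 1
    rw [div_eq_one, div_mul_eq_mul_div, div_eq_iff_eq_mul, ← h1, mul_comm]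

variable [IsGalois K Ω]

lemma lcg_mem_of_fixed (M : IntermediateField K Ω) (x : Ω)
    (h : ∀ σ ∈ M.fixingSubgroup, σ x = x) : x ∈ M := by
  rw [← InfiniteGalois.fixedField_fixingSubgroup M]
  exact fun σ => h σ.1 σ.2

lemma lcg_lev1_iff (D : lcg_Dict L e ρ) (b : G → Additive Ωˣ) :
    b ∈ hc_C1 L ρ ↔ loc_Lev₁ (lcg_toLoc₁ e b) := by
  constructor
  · rintro ⟨N, hN, h1, h2⟩
    obtain ⟨M, hM, hMN⟩ := D.lv1 N hN
    refine ⟨M, hM, fun γ σ hσ => ?_, fun γ => ?_⟩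
    · simp only [lcg_toLoc₁, map_mul]
      rw [h1 _ _ (hMN _ (by rw [MulEquiv.apply_symm_apply]; exact hσ))]
    · refine lcg_mem_of_fixed M _ fun σ hσ => ?_
      have h3 := h2 (e.symm γ) (e.symm σ) (hMN _ (by rw [MulEquiv.apply_symm_apply]; exact hσ))
      rw [D.act, MulEquiv.apply_symm_apply] at h3
      have h4 := congrArg (fun a => ((Additive.toMul a : Ωˣ) : Ω)) h3
      exact h4
  · rintro ⟨M, hM, h1, h2⟩
    obtain ⟨N, hN, hNM⟩ := D.lv2 M hM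
    refine ⟨N, hN, fun g s hs => ?_, fun g s hs => ?_⟩
    · have h3 := h1 (e g) (e s) (hNM s hs)
      simp only [lcg_toLoc₁, ← map_mul, MulEquiv.symm_apply_apply] at h3
      exact Additive.toMul.injective h3
    · rw [D.act]
      apply Additive.toMul.injective
      apply Units.ext
      have h3 := h2 (e g)
      simp only [lcg_toLoc₁, MulEquiv.symm_apply_apply] at h3
      exact (IntermediateField.mem_fixingSubgroup_iff M (e s)).mp (hNM s hs) _ h3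

lemma lcg_lev2_iff (D : lcg_Dict L e ρ) (c : G × G → Additive Ωˣ) :
    c ∈ hc_C2 L ρ ↔ loc_Lev₂ (lcg_toLoc₂ e c) := by
  constructor
  · rintro ⟨N, hN, h1, h2⟩
    obtain ⟨M, hM, hMN⟩ := D.lv1 N hN
    refine ⟨M, hM, fun γ γ' σ hσ τ hτ => ?_, fun p => ?_⟩
    · simp only [lcg_toLoc₂, map_mul]
      rw [h1 _ _ _ (hMN _ (by rw [MulEquiv.apply_symm_apply]; exact hσ)) _
        (hMN _ (by rw [MulEquiv.apply_symm_apply]; exact hτ))]
    · refine lcg_mem_of_fixed M _ fun σ hσ => ?_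
      have h3 := h2 (e.symm p.1, e.symm p.2) (e.symm σ)
        (hMN _ (by rw [MulEquiv.apply_symm_apply]; exact hσ))
      rw [D.act, MulEquiv.apply_symm_apply] at h3
      have h4 := congrArg (fun a => ((Additive.toMul a : Ωˣ) : Ω)) h3
      exact h4
  · rintro ⟨M, hM, h1, h2⟩
    obtain ⟨N, hN, hNM⟩ := D.lv2 M hM
    refine ⟨N, hN, fun g g' s hs t ht => ?_, fun p s hs => ?_⟩
    · have h3 := h1 (e g) (e g') (e s) (hNM s hs) (e t) (hNM t ht)
      simp only [lcg_toLoc₂, ← map_mul, MulEquiv.symm_apply_apply] at h3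
      exact Additive.toMul.injective h3
    · rw [D.act]
      apply Additive.toMul.injective
      apply Units.ext
      have h3 := h2 (e p.1, e p.2)
      simp only [lcg_toLoc₂, MulEquiv.symm_apply_apply] at h3
      exact (IntermediateField.mem_fixingSubgroup_iff M (e s)).mp (hNM s hs) _ h3

lemma lcg_cob_iff (D : lcg_Dict L e ρ) (c : G × G → Additive Ωˣ) :
    (∃ y ∈ hc_C1 L ρ, c = hc_d12f ρ y) ↔ loc_IsLevCob (lcg_toLoc₂ e c) := by
  constructor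
  · rintro ⟨y, hy, rfl⟩
    exact ⟨lcg_toLoc₁ e y, (lcg_lev1_iff D y).1 hy, lcg_toLoc₂_d12f D y⟩
  · rintro ⟨β, hβ, h⟩
    refine ⟨lcg_ofLoc₁ e β, (lcg_lev1_iff D _).2 (by rw [lcg_toLoc₁_ofLoc₁]; exact hβ), ?_⟩
    apply lcg_toLoc₂_injective e
    rw [h, lcg_toLoc₂_d12f D, lcg_toLoc₁_ofLoc₁]

/-- every element of `Ωˣ` is fixed by a level. -/
lemma lcg_dict_C0 [Algebra.IsAlgebraic K Ω] (D : lcg_Dict L e ρ) (a : Additive Ωˣ) :
    a ∈ hc_C0 L ρ := by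
  have hfin : FiniteDimensional K K⟮((Additive.toMul a : Ωˣ) : Ω)⟯ :=
    IntermediateField.adjoin.finiteDimensional (Algebra.IsIntegral.isIntegral _)
  obtain ⟨N, hN, hNM⟩ := D.lv2 _ hfin
  refine ⟨N, hN, fun s hs => ?_⟩
  rw [D.act]
  apply Additive.toMul.injective
  apply Units.ext
  exact (IntermediateField.mem_fixingSubgroup_iff _ (e s)).mp (hNM s hs) _
    (mem_adjoin_simple_self K _)

/-- Hilbert 90 in the limit, in the `hc_` model. -/
lemma lcg_dict_h90 [Algebra.IsAlgebraic K Ω] (D : lcg_Dict L e ρ) :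
    ∀ f ∈ hc_C1 L ρ, hc_d12f ρ f = 0 → ∃ γ ∈ hc_C0 L ρ, f = hc_d01f ρ γ := by
  intro f hf hcoc
  obtain ⟨N, hN, h1, -⟩ := hf
  obtain ⟨M, hM, hMN⟩ := D.lv1 N hN
  obtain ⟨α, hα⟩ := linf_descent_subgroup (e : G →* (Ω ≃ₐ[K] Ω)) ⊤
    (fun g => Additive.toMul (f g))
    ⟨M, hM, fun g s hs => by
      show Additive.toMul (f (g * s)) = Additive.toMul (f g)
      rw [h1 g s (hMN s hs)]⟩
    (fun g h _ _ => by
      have h2 := congrFun hcoc (g, h)
      simp only [hc_d12f_apply, D.act, Pi.zero_apply] at h2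
      have h3 : f (g * h) = Additive.ofMul (e g • Additive.toMul (f h)) + f g := by
        rw [sub_add_eq_add_sub, sub_eq_zero] at h2
        exact h2.symm
      show Additive.toMul (f (g * h)) = Additive.toMul (f g) * e g • Additive.toMul (f h)
      rw [h3, mul_comm]
      rfl)
  refine ⟨Additive.ofMul α, lcg_dict_C0 D _, ?_⟩
  funext g
  rw [hc_d01f_apply, D.act]
  have := hα g (Subgroup.mem_top g)
  apply Additive.toMul.injective
  exact this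

/-- `p`-divisibility of `Ωˣ`. -/
lemma lcg_dict_div [IsAlgClosed Ω] [Algebra.IsAlgebraic K Ω] (D : lcg_Dict L e ρ) {p : ℕ}
    (hp : 0 < p) : ∀ γ ∈ hc_C0 L ρ, ∃ δ ∈ hc_C0 L ρ, p • δ = γ := by
  intro γ _
  obtain ⟨z, hz⟩ := IsAlgClosed.exists_pow_nat_eq ((Additive.toMul γ : Ωˣ) : Ω) hp
  have hz0 : z ≠ 0 := by
    rintro rfl
    rw [zero_pow hp.ne'] at hz
    exact Units.ne_zero _ hz.symm
  refine ⟨Additive.ofMul (Units.mk0 z hz0), lcg_dict_C0 D _, ?_⟩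
  apply Additive.toMul.injective
  apply Units.ext
  exact hz

/-- the `p`-torsion of `Ωˣ` is `μ_p`. -/
lemma lcg_dict_tors {p : ℕ} [Fact p.Prime] {ζ : Ωˣ} (hζ : IsPrimitiveRoot ζ p)
    (a : Additive Ωˣ) (ha : p • a = 0) : ∃ t : ZMod p, Additive.ofMul (lcg_exp ζ t) = a := by
  have hp : 0 < p := (Fact.out : p.Prime).pos
  have : NeZero p := ⟨hp.ne'⟩
  have h1 : (Additive.toMul a) ^ p = 1 := ha
  have hζ' : IsPrimitiveRoot (ζ : Ω) p := hζ.map_of_injective (f := Units.coeHom Ω) (fun _ _ h => Units.ext h)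
  have h1' : ((Additive.toMul a : Ωˣ) : Ω) ^ p = 1 := by
    rw [← Units.val_pow_eq_pow_val, h1, Units.val_one]
  obtain ⟨i, _, hi⟩ := hζ'.eq_pow_of_pow_eq_one h1'
  refine ⟨(i : ZMod p), ?_⟩
  rw [lcg_exp_natCast hζ.pow_eq_one]
  apply Additive.toMul.injective
  apply Units.ext
  rw [toMul_ofMul, Units.val_pow_eq_pow_val, hi]

/-- **Transport of an invariant** from the `loc_` model to the `hc_` model. -/
theorem lcg_dict_inv (D : lcg_Dict L e ρ) (p : ℕ)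
    (inv : ((Ω ≃ₐ[K] Ω) × (Ω ≃ₐ[K] Ω) → Ωˣ) → ZMod p)
    (hmul : ∀ x y, groupCohomology.IsMulCocycle₂ x → loc_Lev₂ x → loc_IsLevCob (x ^ p) →
      groupCohomology.IsMulCocycle₂ y → loc_Lev₂ y → loc_IsLevCob (y ^ p) →
      inv (x * y) = inv x + inv y)
    (hker : ∀ x, groupCohomology.IsMulCocycle₂ x → loc_Lev₂ x → loc_IsLevCob (x ^ p) →
      (inv x = 0 ↔ loc_IsLevCob x)) :
    (∀ c c', c ∈ lcg_Z2p L ρ p → c' ∈ lcg_Z2p L ρ p →
      inv (lcg_toLoc₂ e (c + c')) = inv (lcg_toLoc₂ e c) + inv (lcg_toLoc₂ e c')) ∧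
    (∀ y ∈ hc_C1 L ρ, inv (lcg_toLoc₂ e (hc_d12f ρ y)) = 0) ∧
    (∀ c ∈ lcg_Z2p L ρ p, inv (lcg_toLoc₂ e c) = 0 → ∃ y ∈ hc_C1 L ρ, c = hc_d12f ρ y) := by
  have key : ∀ c ∈ lcg_Z2p L ρ p, groupCohomology.IsMulCocycle₂ (lcg_toLoc₂ e c) ∧
      loc_Lev₂ (lcg_toLoc₂ e c) ∧ loc_IsLevCob (lcg_toLoc₂ e c ^ p) := by
    rintro c ⟨h1, h2, y, hy, h3⟩
    refine ⟨(lcg_cocycle_iff D c).1 h2, (lcg_lev2_iff D c).1 h1, ?_⟩
    rw [← lcg_toLoc₂_nsmul, ← natCast_zsmul]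
    exact (lcg_cob_iff D _).1 ⟨y, hy, h3⟩
  refine ⟨fun c c' hc hc' => ?_, fun y hy => ?_, fun c hc h0 => ?_⟩
  · obtain ⟨a1, a2, a3⟩ := key c hc
    obtain ⟨b1, b2, b3⟩ := key c' hc'
    rw [lcg_toLoc₂_add]
    exact hmul _ _ a1 a2 a3 b1 b2 b3
  · have hcob : loc_IsLevCob (lcg_toLoc₂ e (hc_d12f ρ y)) := (lcg_cob_iff D _).1 ⟨y, hy, rfl⟩
    have hcoc : groupCohomology.IsMulCocycle₂ (lcg_toLoc₂ e (hc_d12f ρ y)) :=
      (lcg_cocycle_iff D _).1 (hc_d23f_d12f ρ y)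
    have hlev : loc_Lev₂ (lcg_toLoc₂ e (hc_d12f ρ y)) :=
      (lcg_lev2_iff D _).1 (hc_d12 L ρ ⟨y, hy⟩).2
    have hpow : loc_IsLevCob (lcg_toLoc₂ e (hc_d12f ρ y) ^ p) := by
      rw [← lcg_toLoc₂_nsmul, ← map_nsmul]
      exact (lcg_cob_iff D _).1 ⟨p • y, nsmul_mem hy p, rfl⟩
    exact (hker _ hcoc hlev hpow).2 hcob
  · obtain ⟨a1, a2, a3⟩ := key c hc
    exact (lcg_cob_iff D c).2 ((hker _ a1 a2 a3).1 h0)

/-- **The local functional on `μ_p`-valued level 2-cochains** obtained from an invariant on the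
`loc_` side: it is `ZMod p`-linear, it is the invariant of `E ∘ c` on cocycles, it kills
coboundaries, and a cocycle with invariant `0` is a level coboundary. -/
theorem lcg_dict_invT [IsAlgClosed Ω] (D : lcg_Dict L e ρ) {p : ℕ} [Fact p.Prime]
    {T : Type*} [AddCommGroup T] [Module (ZMod p) T] (ρT : Representation (ZMod p) G T)
    (E : T →+ Additive Ωˣ) (hE : ∀ g t, E (ρT g t) = ρ g (E t)) (hinj : Function.Injective E)
    (htors : ∀ a : Additive Ωˣ, p • a = 0 → ∃ t, E t = a)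
    (inv : ((Ω ≃ₐ[K] Ω) × (Ω ≃ₐ[K] Ω) → Ωˣ) → ZMod p)
    (hmul : ∀ x y, groupCohomology.IsMulCocycle₂ x → loc_Lev₂ x → loc_IsLevCob (x ^ p) →
      groupCohomology.IsMulCocycle₂ y → loc_Lev₂ y → loc_IsLevCob (y ^ p) →
      inv (x * y) = inv x + inv y)
    (hker : ∀ x, groupCohomology.IsMulCocycle₂ x → loc_Lev₂ x → loc_IsLevCob (x ^ p) →
      (inv x = 0 ↔ loc_IsLevCob x)) :
    ∃ invT : hc_C2 L ρT →ₗ[ZMod p] ZMod p,
      (∀ c : hc_C2 L ρT, hc_d23 L ρT c = 0 →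
        invT c = inv (lcg_toLoc₂ e (fun x => E (c.1 x)))) ∧
      (∀ b : hc_C1 L ρT, invT (hc_d12 L ρT b) = 0) ∧
      (∀ c : hc_C2 L ρT, hc_d23 L ρT c = 0 → invT c = 0 →
        ∃ b : hc_C1 L ρT, hc_d12 L ρT b = c) := by
  have hp : 0 < p := (Fact.out : p.Prime).pos
  obtain ⟨hadd, hcob, hinj0⟩ := lcg_dict_inv D p inv hmul hker
  obtain ⟨invT, h1, h2⟩ := lcg_invT_exists L ρT ρ E hE (fun c => inv (lcg_toLoc₂ e c)) hadd hcob
  refine ⟨invT, h1, h2, fun c hc h0 => ?_⟩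
  rw [h1 c hc] at h0
  exact lcg_invT_inj L ρT ρ E hE hinj htors (lcg_dict_h90 D) (lcg_dict_div D hp)
    (fun c => inv (lcg_toLoc₂ e c)) hinj0 c hc h0

end dict

end Fermat.Agent.S55
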