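import Fermat.Agent.S55.HcCone
import Fermat.Agent.S55.IfaceHc
import Fermat.Agent.S55.Dual

/-!
# S55, block TR (trace), part 1: definitions and the exact shape of the arithmetic inputs

Conventions (additive, in helper4's `hc_` model):

* `tr_rhoQ : Representation ℤ Γ (Additive Qbˣ)` — the Galois module `Qbar^×`;
* `tr_rhoL q : Representation ℤ (primeLocalGaloisGroup q) (Additive (PadicAlgCl q)ˣ)`;
* `tr_emb q : Additive Qbˣ →+ Additive (PadicAlgCl q)ˣ` — the `q`-adic embedding;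
* `tr_zp p ζ hζ : ZMod p →+ Additive Qbˣ`, `c ↦ ζ ^ c`;
* `tr_loc2 q z` — restriction of a global `Qbar^×`-valued 2-cochain to the local group at `q`,
  composed with the embedding;
* `tr_cone S : hc_Loc (pt_globalLev S)` — the local data of the Prelude (`q ∈ S`);
* `tr_LocInv p` — the arithmetic input: local invariants on `p`-torsion Brauer classes of `ℚ_q`
  (all primes `q`), triviality of unramified unit classes, and reciprocity over `ℚ`.
-/

set_option autoImplicit false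

open ExtCitation

namespace Fermat.Agent.S55

local notation "Qb" => AlgebraicClosure ℚ
local notation "Γ" => (AlgebraicClosure ℚ ≃ₐ[ℚ] AlgebraicClosure ℚ)

/-- All finite Galois levels of `Γ`. -/
noncomputable def tr_fullLev : hc_Lev Γ := pt_localLev (MonoidHom.id Γ)

/-- The Galois module `Qbar^×` (additively). -/
noncomputable def tr_rhoQ : Representation ℤ Γ (Additive Qbˣ) :=
  Representation.ofMulDistribMulAction Γ Qbˣ

theorem tr_rhoQ_apply (σ : Γ) (a : Additive Qbˣ) :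
    tr_rhoQ σ a = Additive.ofMul (σ • Additive.toMul a) := rfl

theorem tr_rhoQ_val (σ : Γ) (a : Additive Qbˣ) :
    ((Additive.toMul (tr_rhoQ σ a) : Qbˣ) : Qb) = σ ((Additive.toMul a : Qbˣ) : Qb) := rfl

/-- The local field `Ω_q = PadicAlgCl q` for `q : Nat.Primes`. -/
def tr_Om (q : Nat.Primes) : Type :=
  letI : Fact (q : ℕ).Prime := ⟨q.2⟩
  PadicAlgCl (q : ℕ)

noncomputable instance tr_instField (q : Nat.Primes) : Field (tr_Om q) :=
  letI : Fact (q : ℕ).Prime := ⟨q.2⟩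
  inferInstanceAs (Field (PadicAlgCl (q : ℕ)))

noncomputable instance tr_instNorm (q : Nat.Primes) : NormedField (tr_Om q) :=
  letI : Fact (q : ℕ).Prime := ⟨q.2⟩
  inferInstanceAs (NormedField (PadicAlgCl (q : ℕ)))

/-- The action of the local Galois group on `Ω_q`. -/
noncomputable instance tr_instAction (q : Nat.Primes) :
    MulSemiringAction (primeLocalGaloisGroup q) (tr_Om q) :=
  letI : Fact (q : ℕ).Prime := ⟨q.2⟩
  inferInstanceAs (MulSemiringAction (PadicAlgCl (q : ℕ) ≃ₐ[ℚ_[(q : ℕ)]] PadicAlgCl (q : ℕ))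
    (PadicAlgCl (q : ℕ)))

/-- The action of the local Galois group on `Ω_q^×`. -/
noncomputable instance tr_instActionUnits (q : Nat.Primes) :
    MulDistribMulAction (primeLocalGaloisGroup q) (tr_Om q)ˣ :=
  letI : Fact (q : ℕ).Prime := ⟨q.2⟩
  inferInstanceAs (MulDistribMulAction (PadicAlgCl (q : ℕ) ≃ₐ[ℚ_[(q : ℕ)]] PadicAlgCl (q : ℕ))
    (PadicAlgCl (q : ℕ))ˣ)

/-- The local Galois module `Ω_q^×` (additively). -/
noncomputable def tr_rhoL (q : Nat.Primes) :
    Representation ℤ (primeLocalGaloisGroup q) (Additive (tr_Om q)ˣ) :=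
  Representation.ofMulDistribMulAction (primeLocalGaloisGroup q) (tr_Om q)ˣ

/-- The `q`-adic embedding `Qbar → Ω_q`. -/
noncomputable def tr_embRing (q : Nat.Primes) : Qb →+* tr_Om q :=
  letI : Fact (q : ℕ).Prime := ⟨q.2⟩
  (padicEmbedding (q : ℕ)).toRingHom

/-- The `q`-adic embedding on units (additively). -/
noncomputable def tr_emb (q : Nat.Primes) : Additive Qbˣ →+ Additive (tr_Om q)ˣ :=
  MonoidHom.toAdditive (Units.map (tr_embRing q).toMonoidHom)

theorem tr_emb_val (q : Nat.Primes) (a : Additive Qbˣ) :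
    ((Additive.toMul (tr_emb q a) : (tr_Om q)ˣ) : tr_Om q)
      = tr_embRing q ((Additive.toMul a : Qbˣ) : Qb) := rfl

theorem tr_emb_equivariant (q : Nat.Primes) (τ : primeLocalGaloisGroup q) (a : Additive Qbˣ) :
    tr_emb q (tr_rhoQ (primeLocalToGlobal q τ) a) = tr_rhoL q τ (tr_emb q a) := by
  have : Fact (q : ℕ).Prime := ⟨q.2⟩
  apply Additive.toMul.injective
  apply Units.ext
  exact padicEmbedding_localGaloisToGlobal (q : ℕ) τ ((Additive.toMul a : Qbˣ) : Qb)

/-- The `ℤ`-linear version of `tr_emb`. -/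
noncomputable def tr_embL (q : Nat.Primes) : Additive Qbˣ →ₗ[ℤ] Additive (tr_Om q)ˣ :=
  (tr_emb q).toIntLinearMap

theorem tr_embL_apply (q : Nat.Primes) (a : Additive Qbˣ) : tr_embL q a = tr_emb q a := rfl

/-- `c ↦ ζ ^ c`, from `𝔽_p` to `Qbar^×` (additively), for a `p`-th root of unity `ζ`. -/
noncomputable def tr_zp (p : ℕ) (ζ : Qbˣ) (hζ : ζ ^ p = 1) : ZMod p →+ Additive Qbˣ :=
  ZMod.lift p ⟨zmultiplesHom (Additive Qbˣ) (Additive.ofMul ζ), by
    rw [zmultiplesHom_apply, natCast_zsmul, ← ofMul_pow, hζ, ofMul_one]⟩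

theorem tr_zp_intCast (p : ℕ) (ζ : Qbˣ) (hζ : ζ ^ p = 1) (n : ℤ) :
    tr_zp p ζ hζ (n : ZMod p) = n • Additive.ofMul ζ := by
  rw [tr_zp, ZMod.lift_coe]
  rfl

/-- A `p`-th root of unity is moved by `σ` to its `cycloExp`-th power. -/
theorem tr_smul_zeta (p : ℕ) [Fact p.Prime] (ζ : Qbˣ) (hζ : ζ ^ p = 1) (σ : Γ) :
    σ • ζ = ζ ^ cycloExp p σ := by
  have : NeZero p := ⟨(Fact.out : p.Prime).ne_zero⟩
  apply Units.ext
  have h := modularCyclotomicCharacter.spec (L := Qb) (card_rootsOfUnity_eq_self p)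
    (σ : Qb ≃+* Qb) (t := ζ) ((mem_rootsOfUnity p ζ).mpr hζ)
  rw [Units.val_pow_eq_pow_val]
  exact h

/-- `tr_zp` intertwines the cyclotomic twist `𝔽_p(1)` with the Galois action on `Qbar^×`. -/
theorem tr_zp_equivariant (p : ℕ) [Fact p.Prime] (ζ : Qbˣ) (hζ : ζ ^ p = 1) (σ : Γ)
    (c : ZMod p) :
    tr_zp p ζ hζ (dual_rhoT (cycloChar p) σ c) = tr_rhoQ σ (tr_zp p ζ hζ c) := by
  obtain ⟨n, rfl⟩ := ZMod.intCast_surjective c
  rw [dual_rhoT_apply, coe_cycloChar, tr_zp_intCast]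
  have h1 : ((cycloExp p σ : ZMod p)) * (n : ZMod p) = (((cycloExp p σ : ℤ) * n : ℤ) : ZMod p) := by
    push_cast; ring
  rw [h1, tr_zp_intCast, map_zsmul, tr_rhoQ_apply, toMul_ofMul, tr_smul_zeta p ζ hζ σ, ofMul_pow,
    ← natCast_zsmul, ← mul_smul, mul_comm]

/-- Restriction of a global 1-cochain to the local group at `q`, composed with the embedding. -/
noncomputable def tr_loc1 (q : Nat.Primes) (y : Γ → Additive Qbˣ) :
    primeLocalGaloisGroup q → Additive (tr_Om q)ˣ :=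
  fun g => tr_emb q (y (primeLocalToGlobal q g))

/-- Restriction of a global 2-cochain to the local group at `q`, composed with the embedding. -/
noncomputable def tr_loc2 (q : Nat.Primes) (z : Γ × Γ → Additive Qbˣ) :
    primeLocalGaloisGroup q × primeLocalGaloisGroup q → Additive (tr_Om q)ˣ :=
  fun g => tr_emb q (z (primeLocalToGlobal q g.1, primeLocalToGlobal q g.2))

/-- Restriction of a global 3-cochain to the local group at `q`, composed with the embedding. -/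
noncomputable def tr_loc3 (q : Nat.Primes) (z : Γ × Γ × Γ → Additive Qbˣ) :
    primeLocalGaloisGroup q × primeLocalGaloisGroup q × primeLocalGaloisGroup q →
      Additive (tr_Om q)ˣ :=
  fun g => tr_emb q (z (primeLocalToGlobal q g.1, primeLocalToGlobal q g.2.1,
    primeLocalToGlobal q g.2.2))

theorem tr_loc2_d12f (q : Nat.Primes) (y : Γ → Additive Qbˣ) :
    tr_loc2 q (hc_d12f tr_rhoQ y) = hc_d12f (tr_rhoL q) (tr_loc1 q y) := by
  funext ⟨g, h⟩
  simp only [tr_loc2, tr_loc1, hc_d12f_apply, map_add, map_sub, tr_emb_equivariant, map_mul]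

theorem tr_loc3_d23f (q : Nat.Primes) (z : Γ × Γ → Additive Qbˣ) :
    tr_loc3 q (hc_d23f tr_rhoQ z) = hc_d23f (tr_rhoL q) (tr_loc2 q z) := by
  funext ⟨g, h, j⟩
  simp only [tr_loc3, tr_loc2, hc_d23f_apply, map_add, map_sub, tr_emb_equivariant, map_mul]

/-- The local data of the Prelude: the local Galois groups at the primes of `S`. -/
noncomputable def tr_cone (S : Finset Nat.Primes) : hc_Loc (pt_globalLev S) where
  V := ↥S
  Gv := fun q => primeLocalGaloisGroup q.1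
  Lv := fun q => pt_localLev (primeLocalToGlobal q.1)
  ι := fun q => primeLocalToGlobal q.1
  compat := fun q => pt_levCompat S (primeLocalToGlobal q.1)

noncomputable instance tr_cone_fintype (S : Finset Nat.Primes) : Fintype (tr_cone S).V :=
  inferInstanceAs (Fintype ↥S)

/-- An element of the local Galois group at `q` acting trivially on the residue field. -/
def tr_IsInertial (q : Nat.Primes) (s : primeLocalGaloisGroup q) : Prop :=
  ∀ x : tr_Om q, ‖x‖ ≤ 1 → ‖s • x - x‖ < 1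

/-- Unramified unit-valued local 2-cochains (with values in `Ω_q^×`). -/
def tr_IsUnramUnit (q : Nat.Primes)
    (c : primeLocalGaloisGroup q × primeLocalGaloisGroup q → Additive (tr_Om q)ˣ) : Prop :=
  (∀ g h s t, tr_IsInertial q s → tr_IsInertial q t → c (g * s, h * t) = c (g, h)) ∧
  (∀ x s, tr_IsInertial q s → tr_rhoL q s (c x) = c x) ∧
  (∀ x, ‖((Additive.toMul (c x) : (tr_Om q)ˣ) : tr_Om q)‖ = 1)

/-- A `Qbar^×`-valued cochain all of whose values (and their conjugates) are units at every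
place above every prime outside `T`. -/
def tr_IsUnitOutside (T : Finset Nat.Primes) {X : Type*} (z : X → Additive Qbˣ) : Prop :=
  ∀ q : Nat.Primes, q ∉ T → ∀ (x : X) (σ : Γ),
    ‖tr_embRing q (σ ((Additive.toMul (z x) : Qbˣ) : Qb))‖ = 1

/-- Level 2-cocycles of the local group at `q` with values in `Ω_q^×` whose class is killed by
`p`. -/
def tr_Z2p (p : ℕ) (q : Nat.Primes) :
    Set (primeLocalGaloisGroup q × primeLocalGaloisGroup q → Additive (tr_Om q)ˣ) :=
  {c | c ∈ hc_C2 (pt_localLev (primeLocalToGlobal q)) (tr_rhoL q) ∧ hc_d23f (tr_rhoL q) c = 0 ∧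
    ∃ y ∈ hc_C1 (pt_localLev (primeLocalToGlobal q)) (tr_rhoL q),
      (p : ℤ) • c = hc_d12f (tr_rhoL q) y}

/-- THE ARITHMETIC INPUT OF THE TRACE: local invariants on `p`-torsion Brauer classes of `ℚ_q`
(for all primes `q`; only the values on `tr_Z2p p q` matter), which are additive, vanish exactly
on coboundaries, such that unramified unit-valued classes are trivial, and which satisfy the
reciprocity law over `ℚ`. -/
structure tr_LocInv (p : ℕ) where
  /-- the local invariant at `q` -/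
  inv : ∀ q : Nat.Primes,
    (primeLocalGaloisGroup q × primeLocalGaloisGroup q → Additive (tr_Om q)ˣ) → ZMod p
  inv_add : ∀ q c c', c ∈ tr_Z2p p q → c' ∈ tr_Z2p p q → inv q (c + c') = inv q c + inv q c'
  inv_cob : ∀ q, ∀ y ∈ hc_C1 (pt_localLev (primeLocalToGlobal q)) (tr_rhoL q),
    inv q (hc_d12f (tr_rhoL q) y) = 0
  inv_inj : ∀ q c, c ∈ tr_Z2p p q → inv q c = 0 →
    ∃ y ∈ hc_C1 (pt_localLev (primeLocalToGlobal q)) (tr_rhoL q), c = hc_d12f (tr_rhoL q) y
  unram : ∀ q c, c ∈ hc_C2 (pt_localLev (primeLocalToGlobal q)) (tr_rhoL q) →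
    hc_d23f (tr_rhoL q) c = 0 → tr_IsUnramUnit q c →
    ∃ y ∈ hc_C1 (pt_localLev (primeLocalToGlobal q)) (tr_rhoL q), c = hc_d12f (tr_rhoL q) y
  recip : ∀ (T : Finset Nat.Primes) (c : Γ × Γ → Additive Qbˣ),
    c ∈ hc_C2 (pt_globalLev T) tr_rhoQ → hc_d23f tr_rhoQ c = 0 →
    (∃ y ∈ hc_C1 tr_fullLev tr_rhoQ, (p : ℤ) • c = hc_d12f tr_rhoQ y) →
    tr_IsUnitOutside T c → ∑ q ∈ T, inv q (tr_loc2 q c) = 0

/-- `c ↦ ζ ^ c` followed by the `q`-adic embedding. -/
noncomputable def tr_zpL (p : ℕ) (ζ : Qbˣ) (hζ : ζ ^ p = 1) (q : Nat.Primes) :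
    ZMod p →+ Additive (tr_Om q)ˣ :=
  (tr_emb q).comp (tr_zp p ζ hζ)

theorem tr_zpL_apply (p : ℕ) (ζ : Qbˣ) (hζ : ζ ^ p = 1) (q : Nat.Primes) (c : ZMod p) :
    tr_zpL p ζ hζ q c = tr_emb q (tr_zp p ζ hζ c) := rfl

/-- The local class `ζ^{b} / res_q z` (additively: `ζ^b - res_q z`). -/
noncomputable def tr_beta (p : ℕ) (ζ : Qbˣ) (hζ : ζ ^ p = 1) (q : Nat.Primes)
    (b : primeLocalGaloisGroup q × primeLocalGaloisGroup q → ZMod p)
    (z : Γ × Γ → Additive Qbˣ) :
    primeLocalGaloisGroup q × primeLocalGaloisGroup q → Additive (tr_Om q)ˣ :=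
  (fun g => tr_zpL p ζ hζ q (b g)) - tr_loc2 q z

/-- `(x, t)` is `T`-related: the cone 3-cochain `x = (a, (b_q)_{q ∈ S})` with `res_q a = d b_q`
has a witness `z` (a `T`-level 2-cochain with values `T`-units of `Qbar`, `ζ^a = d z`,
`z^p = d y`) and unramified unit-valued primitives `e_q` of `ζ^{res_q a}` for `q ∈ T \ S`, and
`t` is the sum of the local invariants of `ζ^{b_q} / res_q z` (`q ∈ S`) and `e_q / res_q z`
(`q ∈ T \ S`). -/
def tr_Rel (p : ℕ) [Fact p.Prime] (S : Finset Nat.Primes) (ζ : Qbˣ) (hζ : ζ ^ p = 1)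
    (I : tr_LocInv p) (T : Finset Nat.Primes)
    (x : hc_Cc3 (tr_cone S) (dual_rhoT (cycloChar p))) (t : ZMod p) : Prop :=
  S ⊆ T ∧
  (∀ q : (tr_cone S).V, hc_res3 ((tr_cone S).compat q) (dual_rhoT (cycloChar p)) x.1 =
    hc_d23 ((tr_cone S).Lv q) ((dual_rhoT (cycloChar p)).comp ((tr_cone S).ι q)) (x.2 q)) ∧
  ∃ (z : Γ × Γ → Additive Qbˣ) (y : Γ → Additive Qbˣ)
    (e : ∀ q : Nat.Primes,
      primeLocalGaloisGroup q × primeLocalGaloisGroup q → Additive (tr_Om q)ˣ),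
    z ∈ hc_C2 (pt_globalLev T) tr_rhoQ ∧ y ∈ hc_C1 tr_fullLev tr_rhoQ ∧ tr_IsUnitOutside T z ∧
    (∀ g : Γ × Γ × Γ, tr_zp p ζ hζ ((x.1 : Γ × Γ × Γ → ZMod p) g) = hc_d23f tr_rhoQ z g) ∧
    (p : ℤ) • z = hc_d12f tr_rhoQ y ∧
    (∀ q ∈ T, q ∉ S → e q ∈ hc_C2 (pt_localLev (primeLocalToGlobal q)) (tr_rhoL q) ∧
      tr_IsUnramUnit q (e q) ∧
      hc_d23f (tr_rhoL q) (e q) = tr_loc3 q (fun g => tr_zp p ζ hζ
        ((x.1 : Γ × Γ × Γ → ZMod p) g))) ∧
    t = ∑ q : (tr_cone S).V, I.inv q.1 (tr_beta p ζ hζ q.1 (x.2 q).1 z)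
      + ∑ q ∈ T \ S, I.inv q (e q - tr_loc2 q z)

end Fermat.Agent.S55
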