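/-
S55 block LC-GLUE: the concrete base dictionary (D1).

The local Galois group `G_q = Gal(PadicAlgCl q / ℚ_q)` with the level structure
`pt_localLev (localGaloisToGlobal q)` (pull-backs of the finite Galois levels of `Gal(Q̄/ℚ)`)
and the Galois module `Additive (PadicAlgCl q)ˣ` is an `lcg_Dict` for
`(K, Ω) = (ℚ_[q], PadicAlgCl q)` with `e = MulEquiv.refl`:

* `lcgi_exists_global` : (Krasner) every finite extension of `ℚ_q` inside `PadicAlgCl q` is
  contained in `ℚ_q · K` for a finite Galois `K/ℚ`;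
* `lcgi_dict`          : the dictionary, `q : ℕ` with `[Fact q.Prime]`;
* `lcgi_dict_prime`    : the same for `q : Nat.Primes`, `primeLocalGaloisGroup q`,
  `primeLocalToGlobal q`, `tr_rhoL q`.
-/
import Mathlib
import Fermat.Agent.S55.LcgDict
import Fermat.Agent.S55.LocBridge
import Fermat.Agent.S55.IfaceHc
import Fermat.Agent.S55.TrDefs

set_option autoImplicit false

open ExtCitation

namespace Fermat.Agent.S55

local notation "Qb" => AlgebraicClosure ℚ

section base

variable (q : ℕ) [Fact q.Prime]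

/-- **Krasner**: every finite extension of `ℚ_q` inside `PadicAlgCl q` is contained in
`ℚ_q · K` for some finite Galois extension `K/ℚ`. -/
theorem lcgi_exists_global (M : IntermediateField ℚ_[q] (PadicAlgCl q))
    [FiniteDimensional ℚ_[q] M] :
    ∃ K : IntermediateField ℚ Qb, FiniteDimensional ℚ K ∧ IsGalois ℚ K ∧
      M ≤ brl_locField q K := by
  classical
  obtain ⟨t, ht⟩ := brl_fg M
  choose b hb using fun α : PadicAlgCl q => brl_krasner_dense q α
  have hfin : Finite (↑(t.image b) : Set Qb) := (t.image b).finite_toSet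
  have : FiniteDimensional ℚ (IntermediateField.adjoin ℚ (↑(t.image b) : Set Qb)) :=
    IntermediateField.finiteDimensional_adjoin
      (fun x _ => ((AlgebraicClosure.isAlgebraic ℚ).isAlgebraic x).isIntegral)
  obtain ⟨K, hK, hKg, hle⟩ :=
    brl_exists_galois_ge (IntermediateField.adjoin ℚ (↑(t.image b) : Set Qb))
  refine ⟨K, hK, hKg, ?_⟩
  rw [← ht, IntermediateField.adjoin_le_iff]
  intro α hα
  have h1 : IntermediateField.adjoin ℚ_[q] {padicEmbedding q (b α)} ≤ brl_locField q K := by
    rw [IntermediateField.adjoin_le_iff]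
    intro x hx
    rw [Set.mem_singleton_iff] at hx
    subst hx
    exact brl_mem_locField q (hle (IntermediateField.subset_adjoin ℚ _
      (Finset.mem_coe.2 (Finset.mem_image_of_mem b (Finset.mem_coe.1 hα)))))
  exact h1 (hb α)

/-- **(D1)** the base dictionary for `G_q`. -/
theorem lcgi_dict :
    lcg_Dict (K := ℚ_[q]) (Ω := PadicAlgCl q) (pt_localLev (localGaloisToGlobal q))
      (MulEquiv.refl (PadicAlgCl q ≃ₐ[ℚ_[q]] PadicAlgCl q))
      (Representation.ofMulDistribMulAction (PadicAlgCl q ≃ₐ[ℚ_[q]] PadicAlgCl q)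
        (PadicAlgCl q)ˣ) where
  act := fun _ _ => rfl
  lv1 := by
    rintro N ⟨K, hK, -, rfl⟩
    exact ⟨brl_locField q K, brl_finiteDimensional_locField q K, fun s hs =>
      (brl_mem_fixingSubgroup_iff q K s).2 hs⟩
  lv2 := by
    intro M hM
    obtain ⟨K, hK, hKg, hle⟩ := lcgi_exists_global q M
    refine ⟨K.fixingSubgroup.comap (localGaloisToGlobal q), ⟨K, hK, hKg, rfl⟩, fun s hs => ?_⟩
    exact IntermediateField.fixingSubgroup_antitone hle
      ((brl_mem_fixingSubgroup_iff q K s).1 hs)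

end base

/-- **(D1)** for `q : Nat.Primes` in the Prelude's notation. -/
theorem lcgi_dict_prime (q : Nat.Primes) :
    letI : Fact (q : ℕ).Prime := ⟨q.2⟩
    lcg_Dict (K := ℚ_[(q : ℕ)]) (Ω := PadicAlgCl (q : ℕ)) (G := primeLocalGaloisGroup q)
      (pt_localLev (primeLocalToGlobal q))
      (MulEquiv.refl (PadicAlgCl (q : ℕ) ≃ₐ[ℚ_[(q : ℕ)]] PadicAlgCl (q : ℕ)))
      (tr_rhoL q) :=
  letI : Fact (q : ℕ).Prime := ⟨q.2⟩
  lcgi_dict (q : ℕ)

end Fermat.Agent.S55
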