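import Mathlib
import Fermat.Agent.S55.LcgDict
import Fermat.Agent.S55.ShapLevel
import Fermat.Agent.S55.LocRes

/-!
# S55, block LC-GLUE: the dictionary for open subgroups (DICT-SUB)

A dictionary `lcg_Dict L e ρ` between a leveled group `(G, L)` and the absolute Galois group
`Ω ≃ₐ[K] Ω` restricts, for a subgroup `H` containing a level, to a dictionary between
`(H, shapLevSub L H)` and `Ω ≃ₐ[F] Ω`, `F` the fixed field of `H`; `[F : K] = [G : H]`.
-/

set_option autoImplicit false

namespace Fermat.Agent.S55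

open IntermediateField

theorem lds_dict_sub {K Ω : Type} [Field K] [Field Ω] [Algebra K Ω] [IsGalois K Ω]
    {G : Type*} [Group G] {L : hc_Lev G} {e : G ≃* (Ω ≃ₐ[K] Ω)}
    {ρ : Representation ℤ G (Additive Ωˣ)} (D : lcg_Dict L e ρ) (H : Subgroup G)
    (hH : ∃ N ∈ L.S, N ≤ H) :
    ∃ (F : IntermediateField K Ω) (_ : FiniteDimensional K F) (eH : H ≃* (Ω ≃ₐ[F] Ω)),
      (∀ h : H, (eH h).restrictScalars K = e h) ∧ Module.finrank K F = H.index ∧
      lcg_Dict (shapLevSub L H) eH (ρ.comp H.subtype) := by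
  obtain ⟨N, hN, hNH⟩ := hH
  obtain ⟨M, hM, hMN⟩ := D.lv1 N hN
  set H' : Subgroup (Ω ≃ₐ[K] Ω) := H.map (e : G →* (Ω ≃ₐ[K] Ω)) with hH'
  have hMH' : M.fixingSubgroup ≤ H' := by
    intro γ hγ
    exact ⟨e.symm γ, hNH (hMN _ (by rw [MulEquiv.apply_symm_apply]; exact hγ)),
      e.apply_symm_apply γ⟩
  have hopen : IsOpen (H' : Set (Ω ≃ₐ[K] Ω)) :=
    Subgroup.isOpen_mono hMH' M.fixingSubgroup_isOpen
  have hclosed : IsClosed (H' : Set (Ω ≃ₐ[K] Ω)) := Subgroup.isClosed_of_isOpen H' hopen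
  set F : IntermediateField K Ω := IntermediateField.fixedField H' with hF
  have hFfix : F.fixingSubgroup = H' :=
    InfiniteGalois.fixingSubgroup_fixedField ⟨H', hclosed⟩
  have hFM : F ≤ M := by
    intro x hx
    rw [← InfiniteGalois.fixedField_fixingSubgroup M]
    rw [hF, IntermediateField.mem_fixedField_iff] at hx
    rw [IntermediateField.mem_fixedField_iff]
    exact fun γ hγ => hx γ (hMH' hγ)
  have hFfd : FiniteDimensional K F :=
    Module.Finite.of_injective (IntermediateField.inclusion hFM).toLinearMap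
      (IntermediateField.inclusion_injective hFM)
  let e1 : H ≃* H' := e.subgroupMap H
  let e2 : H' ≃* F.fixingSubgroup := MulEquiv.subgroupCongr hFfix.symm
  let eH : H ≃* (Ω ≃ₐ[F] Ω) := (e1.trans e2).trans (IntermediateField.fixingSubgroupEquiv F)
  have heH : ∀ h : H, (eH h).restrictScalars K = e h := fun h => by
    ext x
    rfl
  have heHx : ∀ (h : H) (x : Ω), eH h x = e h x := fun h x => rfl
  refine ⟨F, hFfd, eH, heH, ?_, ?_, ?_, ?_⟩
  · rw [IntermediateField.finrank_eq_fixingSubgroup_index, hFfix]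
    exact Subgroup.index_map_equiv H e
  · intro g a
    show ρ (g : G) a = _
    rw [D.act]
    congr 1
  · rintro _ ⟨N₁, hN₁, rfl⟩
    obtain ⟨M₁, hM₁, hMN₁⟩ := D.lv1 N₁ hN₁
    obtain ⟨M', hM', hMM'⟩ := lres_exists_level K F M₁
    refine ⟨M', hM', fun s hs => ?_⟩
    rw [Subgroup.mem_subgroupOf]
    apply hMN₁
    rw [← heH s]
    exact lres_mem_fixingSubgroup K F hMM' hs
  · intro M' hM'
    have hfd : FiniteDimensional K (M'.restrictScalars K) := by
      have : FiniteDimensional K M' := FiniteDimensional.trans K F M'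
      exact this
    obtain ⟨N₁, hN₁, hNM⟩ := D.lv2 (M'.restrictScalars K) hfd
    refine ⟨N₁.subgroupOf H, shap_mem_levSub hN₁, fun s hs => ?_⟩
    have h1 := hNM (s : G) (Subgroup.mem_subgroupOf.mp hs)
    rw [IntermediateField.mem_fixingSubgroup_iff] at h1 ⊢
    intro x hx
    rw [heHx]
    exact h1 x hx

end Fermat.Agent.S55
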