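import Mathlib

/-!
# S55, block LC-GLUE, part 2: the abstract local invariant

Pure algebra.  A *normal-form system* `lcg_NF Z E` consists of an abelian group `Z` (cochains),
subgroups `B ≤ Zc` (level coboundaries, level cocycles), a valuation `v : E → ℤ` on a
commutative group `E` (the multiplicative group of the local field) and classes `u N a ∈ Zc`
(`N ≥ 1`, `a : E`; the unramified cyclic cocycles) such that

* `u N (a * b) ≡ u N a + u N b` mod `B`;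
* (CB) `u N a ∈ B ↔ N ∣ v a`;
* (CM) `u (N * t) (a ^ t) ≡ u N a` mod `B`;
* (NF) every `x ∈ Zc` is `≡ u N a` mod `B` for some `N ≥ 1`, `a`.

Then, for a prime `p`, there is an invariant `S.inv p : Z → ZMod p` which on
`{x ∈ Zc | p • x ∈ B}` is additive, vanishes exactly on `B`, and is computed by any normal form:
`x ≡ u N a`, `N * m = p * v a` ⟹ `inv x = m` (`lcg_NF.inv_eval`).

`lcg_inv_cor` : for two normal-form systems related by restriction/corestriction maps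
(`cor ∘ res ≡ n`, `res (u_K (N * f) b) ≡ u_L N (j b)`, `v_L (j b) = e * v_K b`, `n = e * f`),
`inv_K (cor x) = inv_L x` on `p`-torsion classes; in particular `inv_K ∘ cor` is injective
mod `B_L` on them.
-/

set_option autoImplicit false

namespace Fermat.Agent.S55

/-- A normal-form system for the Brauer classes of a local field (abstract form). -/
structure lcg_NF (Z E : Type*) [AddCommGroup Z] [CommGroup E] where
  /-- level cocycles -/
  Zc : AddSubgroup Z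
  /-- level coboundaries -/
  B : AddSubgroup Z
  hBZ : B ≤ Zc
  /-- the valuation -/
  v : E → ℤ
  hv : ∀ a b, v (a * b) = v a + v b
  /-- the unramified cyclic classes -/
  u : ℕ → E → Z
  hu : ∀ N, 0 < N → ∀ a, u N a ∈ Zc
  hadd : ∀ N, 0 < N → ∀ a b, u N (a * b) - (u N a + u N b) ∈ B
  hCB : ∀ N, 0 < N → ∀ a, u N a ∈ B ↔ (N : ℤ) ∣ v a
  hCM : ∀ N t, 0 < N → 0 < t → ∀ a, u (N * t) (a ^ t) - u N a ∈ B
  hNF : ∀ x ∈ Zc, ∃ N, 0 < N ∧ ∃ a, x - u N a ∈ B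

namespace lcg_NF

variable {Z E : Type*} [AddCommGroup Z] [CommGroup E] (S : lcg_NF Z E)

/-- `x` has normal form `(N, a)`. -/
def Rel (x : Z) (N : ℕ) (a : E) : Prop := 0 < N ∧ x - S.u N a ∈ S.B

lemma v_one : S.v 1 = 0 := by
  have := S.hv 1 1
  rw [mul_one] at this
  linarith

lemma v_inv (a : E) : S.v a⁻¹ = - S.v a := by
  have := S.hv a a⁻¹
  rw [mul_inv_cancel, S.v_one] at this
  linarith

lemma v_pow (a : E) (n : ℕ) : S.v (a ^ n) = n * S.v a := by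
  induction n with
  | zero => simp [S.v_one]
  | succ n ih => rw [pow_succ, S.hv, ih]; push_cast; ring

lemma v_zpow (a : E) (n : ℤ) : S.v (a ^ n) = n * S.v a := by
  cases n with
  | ofNat n => simp [S.v_pow]
  | negSucc n =>
    rw [zpow_negSucc, S.v_inv, S.v_pow, Int.negSucc_eq]
    push_cast
    ring

lemma v_div (a b : E) : S.v (a / b) = S.v a - S.v b := by
  rw [div_eq_mul_inv, S.hv, S.v_inv]; ring

lemma rel_self {N : ℕ} (hN : 0 < N) (a : E) : S.Rel (S.u N a) N a :=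
  ⟨hN, by rw [sub_self]; exact S.B.zero_mem⟩

lemma u_one_mem {N : ℕ} (hN : 0 < N) : S.u N 1 ∈ S.B :=
  (S.hCB N hN 1).2 (by rw [S.v_one]; exact dvd_zero _)

lemma rel_zero {N : ℕ} (hN : 0 < N) : S.Rel 0 N 1 :=
  ⟨hN, by rw [zero_sub]; exact S.B.neg_mem (S.u_one_mem hN)⟩

lemma rel_of_sub_mem {x y : Z} {N : ℕ} {a : E} (h : S.Rel x N a) (hxy : y - x ∈ S.B) :
    S.Rel y N a :=
  ⟨h.1, by
    have : y - S.u N a = (y - x) + (x - S.u N a) := by abel
    rw [this]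
    exact S.B.add_mem hxy h.2⟩

lemma rel_scale {x : Z} {N : ℕ} {a : E} (h : S.Rel x N a) {t : ℕ} (ht : 0 < t) :
    S.Rel x (N * t) (a ^ t) :=
  ⟨Nat.mul_pos h.1 ht, by
    have : x - S.u (N * t) (a ^ t) = (x - S.u N a) - (S.u (N * t) (a ^ t) - S.u N a) := by abel
    rw [this]
    exact S.B.sub_mem h.2 (S.hCM N t h.1 ht a)⟩

lemma rel_add {x y : Z} {N : ℕ} {a b : E} (hx : S.Rel x N a) (hy : S.Rel y N b) :
    S.Rel (x + y) N (a * b) :=
  ⟨hx.1, by
    have : x + y - S.u N (a * b) =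
        (x - S.u N a) + (y - S.u N b) - (S.u N (a * b) - (S.u N a + S.u N b)) := by abel
    rw [this]
    exact S.B.sub_mem (S.B.add_mem hx.2 hy.2) (S.hadd N hx.1 a b)⟩

lemma rel_neg {x : Z} {N : ℕ} {a : E} (hx : S.Rel x N a) : S.Rel (-x) N a⁻¹ :=
  ⟨hx.1, by
    have h1 := S.hadd N hx.1 a a⁻¹
    rw [mul_inv_cancel] at h1
    have h2 : S.u N a + S.u N a⁻¹ ∈ S.B := by
      have : S.u N a + S.u N a⁻¹ = S.u N 1 - (S.u N 1 - (S.u N a + S.u N a⁻¹)) := by abel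
      rw [this]
      exact S.B.sub_mem (S.u_one_mem hx.1) h1
    have : -x - S.u N a⁻¹ = -(x - S.u N a) - (S.u N a + S.u N a⁻¹) := by abel
    rw [this]
    exact S.B.sub_mem (S.B.neg_mem hx.2) h2⟩

lemma rel_nsmul {x : Z} {N : ℕ} {a : E} (h : S.Rel x N a) (n : ℕ) : S.Rel (n • x) N (a ^ n) := by
  induction n with
  | zero => rw [zero_smul, pow_zero]; exact S.rel_zero h.1
  | succ n ih => rw [succ_nsmul, pow_succ]; exact S.rel_add ih h

lemma rel_mem_iff {x : Z} {N : ℕ} {a : E} (h : S.Rel x N a) : x ∈ S.B ↔ (N : ℤ) ∣ S.v a := by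
  rw [← S.hCB N h.1 a]
  constructor
  · intro hx
    have : S.u N a = x - (x - S.u N a) := by abel
    rw [this]
    exact S.B.sub_mem hx h.2
  · intro hu
    have : x = (x - S.u N a) + S.u N a := by abel
    rw [this]
    exact S.B.add_mem h.2 hu

lemma rel_mem_Zc {x : Z} {N : ℕ} {a : E} (h : S.Rel x N a) : x ∈ S.Zc := by
  have : x = (x - S.u N a) + S.u N a := by abel
  rw [this]
  exact S.Zc.add_mem (S.hBZ h.2) (S.hu N h.1 a)

/-- the class `u N a` only depends on `v a` mod `N`. -/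
lemma u_congr {N : ℕ} (hN : 0 < N) {a a' : E} (h : (N : ℤ) ∣ S.v a - S.v a') :
    S.u N a - S.u N a' ∈ S.B := by
  have h1 : S.u N (a / a') ∈ S.B := (S.hCB N hN _).2 (by rw [S.v_div]; exact h)
  have h2 := S.hadd N hN a' (a / a')
  rw [mul_div_cancel] at h2
  have : S.u N a - S.u N a' = (S.u N a - (S.u N a' + S.u N (a / a'))) + S.u N (a / a') := by
    abel
  rw [this]
  exact S.B.add_mem h2 h1

lemma rel_congr {x : Z} {N : ℕ} {a a' : E} (h : S.Rel x N a)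
    (hv : (N : ℤ) ∣ S.v a - S.v a') : S.Rel x N a' :=
  ⟨h.1, by
    have : x - S.u N a' = (x - S.u N a) + (S.u N a - S.u N a') := by abel
    rw [this]
    exact S.B.add_mem h.2 (S.u_congr h.1 hv)⟩

/-- uniqueness of the normal form. -/
lemma rel_unique {x : Z} {N N' : ℕ} {a a' : E} (h : S.Rel x N a) (h' : S.Rel x N' a') :
    ((N : ℤ) * N') ∣ N' * S.v a - N * S.v a' := by
  have h1 := S.rel_scale h h'.1
  have h2 := S.rel_scale h' h.1
  rw [mul_comm N' N] at h2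
  have h3 := S.rel_add h1 (S.rel_neg h2)
  rw [add_neg_cancel] at h3
  have h4 := (S.rel_mem_iff h3).1 S.B.zero_mem
  rw [S.hv, S.v_inv, S.v_pow, S.v_pow] at h4
  push_cast at h4
  have : (N' : ℤ) * S.v a - N * S.v a' = N' * S.v a + -(N * S.v a') := by ring
  rw [this]
  exact h4

section tors

variable (p : ℕ) [Fact p.Prime]

omit [Fact p.Prime] in
lemma rel_tors {x : Z} {N : ℕ} {a : E} (h : S.Rel x N a) (hx : p • x ∈ S.B) :
    (N : ℤ) ∣ p * S.v a := by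
  have := (S.rel_mem_iff (S.rel_nsmul h p)).1 hx
  rwa [S.v_pow] at this

open Classical in
/-- **The local invariant** on `p`-torsion classes. -/
noncomputable def inv (x : Z) : ZMod p :=
  if h : x ∈ S.Zc ∧ p • x ∈ S.B then
    ((((p : ℤ) * S.v (S.hNF x h.1).choose_spec.2.choose) / ((S.hNF x h.1).choose : ℤ) : ℤ) :
      ZMod p)
  else 0

/-- evaluation of the invariant through any normal form. -/
theorem inv_eval {x : Z} (hp : p • x ∈ S.B) {N : ℕ} {a : E} (h : S.Rel x N a) {m : ℤ}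
    (hm : (N : ℤ) * m = p * S.v a) : S.inv p x = (m : ZMod p) := by
  have hx : x ∈ S.Zc := S.rel_mem_Zc h
  unfold inv
  rw [dif_pos ⟨hx, hp⟩]
  set N₀ := (S.hNF x hx).choose with hN₀
  set a₀ := (S.hNF x hx).choose_spec.2.choose with ha₀
  have h₀ : S.Rel x N₀ a₀ := ⟨(S.hNF x hx).choose_spec.1, (S.hNF x hx).choose_spec.2.choose_spec⟩
  obtain ⟨m₀, hm₀⟩ := S.rel_tors p h₀ hp
  have hN₀pos : (N₀ : ℤ) ≠ 0 := by exact_mod_cast h₀.1.ne'
  have hNpos : (N : ℤ) ≠ 0 := by exact_mod_cast h.1.ne'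
  rw [hm₀, Int.mul_ediv_cancel_left _ hN₀pos, ZMod.intCast_eq_intCast_iff_dvd_sub]
  obtain ⟨k, hk⟩ := S.rel_unique h₀ h
  refine ⟨-k, ?_⟩
  have h5 : (N₀ : ℤ) * N * (m - m₀) = (N₀ : ℤ) * N * (p * -k) := by
    have e1 : (N₀ : ℤ) * N * (m - m₀) = N₀ * (N * m) - N * (N₀ * m₀) := by ring
    rw [e1, hm, ← hm₀]
    have e2 : (N₀ : ℤ) * (p * S.v a) - N * (p * S.v a₀) = -(p * (N * S.v a₀ - N₀ * S.v a)) := by
      ring
    rw [e2, hk]
    ring
  exact mul_left_cancel₀ (mul_ne_zero hN₀pos hNpos) h5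

theorem inv_add {x y : Z} (hx : x ∈ S.Zc) (hy : y ∈ S.Zc) (hpx : p • x ∈ S.B)
    (hpy : p • y ∈ S.B) : S.inv p (x + y) = S.inv p x + S.inv p y := by
  obtain ⟨N, hN, a, ha⟩ := S.hNF x hx
  obtain ⟨N', hN', b, hb⟩ := S.hNF y hy
  have hrx : S.Rel x N a := ⟨hN, ha⟩
  have hry : S.Rel y N' b := ⟨hN', hb⟩
  obtain ⟨m, hm⟩ := S.rel_tors p hrx hpx
  obtain ⟨m', hm'⟩ := S.rel_tors p hry hpy
  have h1 := S.rel_scale hrx hN'
  have h2 := S.rel_scale hry hN
  rw [mul_comm N' N] at h2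
  have h3 := S.rel_add h1 h2
  have hpxy : p • (x + y) ∈ S.B := by rw [smul_add]; exact S.B.add_mem hpx hpy
  have hm3 : ((N * N' : ℕ) : ℤ) * (m + m') = p * S.v (a ^ N' * b ^ N) := by
    rw [S.hv, S.v_pow, S.v_pow]
    push_cast
    have e1 : (N : ℤ) * N' * (m + m') = N' * (N * m) + N * (N' * m') := by ring
    rw [e1, ← hm, ← hm']
    ring
  rw [S.inv_eval p hpxy h3 hm3, S.inv_eval p hpx hrx hm.symm, S.inv_eval p hpy hry hm'.symm]
  push_cast
  rfl

theorem inv_of_mem {x : Z} (hx : x ∈ S.B) : S.inv p x = 0 := by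
  obtain ⟨N, hN, a, ha⟩ := S.hNF x (S.hBZ hx)
  have hrx : S.Rel x N a := ⟨hN, ha⟩
  obtain ⟨k, hk⟩ := (S.rel_mem_iff hrx).1 hx
  have hm : (N : ℤ) * (p * k) = p * S.v a := by rw [hk]; ring
  rw [S.inv_eval p (S.B.nsmul_mem hx p) hrx hm]
  push_cast
  simp

theorem inv_eq_zero {x : Z} (hx : x ∈ S.Zc) (hpx : p • x ∈ S.B) (h0 : S.inv p x = 0) :
    x ∈ S.B := by
  obtain ⟨N, hN, a, ha⟩ := S.hNF x hx
  have hrx : S.Rel x N a := ⟨hN, ha⟩
  obtain ⟨m, hm⟩ := S.rel_tors p hrx hpx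
  rw [S.inv_eval p hpx hrx hm.symm, ZMod.intCast_zmod_eq_zero_iff_dvd] at h0
  obtain ⟨k, rfl⟩ := h0
  refine (S.rel_mem_iff hrx).2 ⟨k, ?_⟩
  have hp0 : (p : ℤ) ≠ 0 := by exact_mod_cast (Fact.out : p.Prime).ne_zero
  have : (p : ℤ) * S.v a = p * (N * k) := by rw [hm]; ring
  exact mul_left_cancel₀ hp0 this

theorem inv_eq_zero_iff {x : Z} (hx : x ∈ S.Zc) (hpx : p • x ∈ S.B) :
    S.inv p x = 0 ↔ x ∈ S.B :=
  ⟨S.inv_eq_zero p hx hpx, S.inv_of_mem p⟩

omit [Fact p.Prime] in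
lemma nsmul_u_mem {N : ℕ} (hN : 0 < N) (a : E) (h : (N : ℤ) ∣ p * S.v a) :
    p • S.u N a ∈ S.B := by
  refine (S.rel_mem_iff (S.rel_nsmul (S.rel_self hN a) p)).2 ?_
  rwa [S.v_pow]

/-- normalisation: the invariant of `u N a`. -/
theorem inv_u {N : ℕ} (hN : 0 < N) (a : E) {m : ℤ} (hm : (N : ℤ) * m = p * S.v a) :
    S.inv p (S.u N a) = (m : ZMod p) :=
  S.inv_eval p (S.nsmul_u_mem p hN a ⟨m, hm.symm⟩) (S.rel_self hN a) hm

/-- normalisation: `inv (u p a) = v a`. -/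
theorem inv_u_p (a : E) : S.inv p (S.u p a) = (S.v a : ZMod p) :=
  S.inv_u p (Fact.out : p.Prime).pos a rfl

theorem inv_sub_mem {x y : Z} (hx : x ∈ S.Zc) (hpx : p • x ∈ S.B) (hxy : y - x ∈ S.B) :
    S.inv p y = S.inv p x := by
  have hy : y = x + (y - x) := by abel
  rw [hy, S.inv_add p hx (S.hBZ hxy) hpx (S.B.nsmul_mem hxy p), S.inv_of_mem p hxy, add_zero]

theorem inv_zero : S.inv p (0 : Z) = 0 := S.inv_of_mem p S.B.zero_mem

theorem inv_neg {x : Z} (hx : x ∈ S.Zc) (hpx : p • x ∈ S.B) : S.inv p (-x) = - S.inv p x := by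
  have h := S.inv_add p hx (S.Zc.neg_mem hx) hpx (by rw [smul_neg]; exact S.B.neg_mem hpx)
  rw [add_neg_cancel, S.inv_zero] at h
  exact eq_neg_of_add_eq_zero_right h.symm

theorem inv_nsmul {x : Z} (hx : x ∈ S.Zc) (hpx : p • x ∈ S.B) (n : ℕ) :
    S.inv p (n • x) = n * S.inv p x := by
  induction n with
  | zero => simp [S.inv_zero]
  | succ n ih =>
    rw [succ_nsmul, S.inv_add p (S.Zc.nsmul_mem hx n) hx
      (by rw [smul_comm]; exact S.B.nsmul_mem hpx n) hpx, ih]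
    push_cast
    ring

theorem inv_sub {x y : Z} (hx : x ∈ S.Zc) (hy : y ∈ S.Zc) (hpx : p • x ∈ S.B)
    (hpy : p • y ∈ S.B) : S.inv p (x - y) = S.inv p x - S.inv p y := by
  rw [sub_eq_add_neg, S.inv_add p hx (S.Zc.neg_mem hy) hpx
    (by rw [smul_neg]; exact S.B.neg_mem hpy), S.inv_neg p hy hpy, sub_eq_add_neg]

end tors

end lcg_NF

section cor

variable {ZK EK ZL EL : Type*} [AddCommGroup ZK] [CommGroup EK] [AddCommGroup ZL] [CommGroup EL]

/-- **Invariants and corestriction.**  If `cor ∘ res ≡ n`, restriction maps the classes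
`u_K (N * f) b` to `u_L N (j b)`, `v_L ∘ j = e * v_K`, `n = e * f`, and `K` has a uniformiser,
then `inv_K (cor x) = inv_L x` for `p`-torsion classes `x` of `L`. -/
theorem lcg_inv_cor (SK : lcg_NF ZK EK) (SL : lcg_NF ZL EL) (p : ℕ) [Fact p.Prime]
    (res : ZK →+ ZL) (cor : ZL →+ ZK) (j : EK → EL) (e f : ℕ) (he : 0 < e) (hf : 0 < f)
    (hcorB : ∀ x ∈ SL.B, cor x ∈ SK.B)
    (hcorres : ∀ z ∈ SK.Zc, cor (res z) - (e * f) • z ∈ SK.B)
    (hRES : ∀ N, 0 < N → ∀ b : EK, res (SK.u (N * f) b) - SL.u N (j b) ∈ SL.B)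
    (hval : ∀ b : EK, SL.v (j b) = e * SK.v b)
    (ϖ : EK) (hϖ : SK.v ϖ = 1)
    {x : ZL} (hx : x ∈ SL.Zc) (hpx : p • x ∈ SL.B) :
    SK.inv p (cor x) = SL.inv p x := by
  obtain ⟨N, hN, a, ha⟩ := SL.hNF x hx
  have hrx : SL.Rel x N a := ⟨hN, ha⟩
  obtain ⟨m, hm⟩ := SL.rel_tors p hrx hpx
  rw [SL.inv_eval p hpx hrx hm.symm]
  -- pass to modulus `N * e` and replace `a ^ e` by `j (ϖ ^ v a)`
  set b : EK := ϖ ^ (SL.v a) with hb
  have hvb : SK.v b = SL.v a := by rw [hb, SK.v_zpow, hϖ, mul_one]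
  have h1 : SL.Rel x (N * e) (j b) := by
    refine SL.rel_congr (SL.rel_scale hrx he) ?_
    rw [SL.v_pow, hval, hvb, sub_self]
    exact dvd_zero _
  -- `x ≡ res y`, `y = u_K (N * e * f) b`
  set y : ZK := SK.u (N * e * f) b with hy
  have hNe : 0 < N * e := Nat.mul_pos hN he
  have hNef : 0 < N * e * f := Nat.mul_pos hNe hf
  have hyZ : y ∈ SK.Zc := SK.hu _ hNef b
  have h2 : x - res y ∈ SL.B := by
    have : x - res y = (x - SL.u (N * e) (j b)) - (res y - SL.u (N * e) (j b)) := by abel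
    rw [this]
    exact SL.B.sub_mem h1.2 (hRES (N * e) hNe b)
  -- `cor x ≡ n • y`
  have h3 : cor x - (e * f) • y ∈ SK.B := by
    have : cor x - (e * f) • y = cor (x - res y) + (cor (res y) - (e * f) • y) := by
      rw [map_sub]; abel
    rw [this]
    exact SK.B.add_mem (hcorB _ h2) (hcorres y hyZ)
  have h4 : SK.Rel ((e * f) • y) (N * e * f) (b ^ (e * f)) :=
    SK.rel_nsmul (SK.rel_self hNef b) (e * f)
  have h5 : SK.Rel (cor x) (N * e * f) (b ^ (e * f)) := SK.rel_of_sub_mem h4 h3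
  have hpc : p • cor x ∈ SK.B := by
    rw [← map_nsmul]
    exact hcorB _ hpx
  refine SK.inv_eval p hpc h5 ?_
  rw [SK.v_pow, hvb]
  push_cast
  have : (N : ℤ) * e * f * m = e * f * (N * m) := by ring
  rw [this, ← hm]
  ring

/-- `inv_K ∘ cor` is injective modulo coboundaries on `p`-torsion classes of `L`. -/
theorem lcg_inv_cor_injective (SK : lcg_NF ZK EK) (SL : lcg_NF ZL EL) (p : ℕ) [Fact p.Prime]
    (res : ZK →+ ZL) (cor : ZL →+ ZK) (j : EK → EL) (e f : ℕ) (he : 0 < e) (hf : 0 < f)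
    (hcorB : ∀ x ∈ SL.B, cor x ∈ SK.B)
    (hcorres : ∀ z ∈ SK.Zc, cor (res z) - (e * f) • z ∈ SK.B)
    (hRES : ∀ N, 0 < N → ∀ b : EK, res (SK.u (N * f) b) - SL.u N (j b) ∈ SL.B)
    (hval : ∀ b : EK, SL.v (j b) = e * SK.v b)
    (ϖ : EK) (hϖ : SK.v ϖ = 1)
    {x : ZL} (hx : x ∈ SL.Zc) (hpx : p • x ∈ SL.B) (h0 : SK.inv p (cor x) = 0) :
    x ∈ SL.B := by
  rw [lcg_inv_cor SK SL p res cor j e f he hf hcorB hcorres hRES hval ϖ hϖ hx hpx] at h0
  exact SL.inv_eq_zero p hx hpx h0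

end cor

end Fermat.Agent.S55
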