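import Mathlib
import Fermat.Agent.S55.LcgDict
import Fermat.Agent.S55.ShapLevel
import Fermat.Agent.S55.LocLimInvMain

/-!
# S55, block LC-GLUE: the loc-side hypotheses of the [LC3] assembly (LC3-LOC)

Under dictionaries `D : lcg_Dict L e ρ` (for `G ≃ Γ_K`) and `DH` (for an open subgroup
`H ≃ Γ_F`, `F/K` finite, `[F : K] = [G : H]`), the invariants
`invG c := loc_inv K Ω p (lcg_toLoc₂ e c)` and `invH c := loc_inv F Ω p (lcg_toLoc₂ eH c)`
satisfy the four hypotheses of the generic [LC3] statement: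

* both are class functions on level 2-cocycles;
* every level 2-cocycle of `H` (killed by `p` in cohomology) is, up to a level coboundary, the
  restriction of a level 2-cocycle of `G`;
* `invG ([G : H] • y) = invH (res y)` whenever `res y` is killed by `p` in cohomology.

Auxiliary: `lcl_toLoc₂_res` (the dictionary commutes with restriction), `lcl_inv_cl`.
-/

set_option autoImplicit false
set_option linter.unusedSectionVars false

namespace Fermat.Agent.S55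

open IntermediateField

/-- the dictionaries commute with restriction of 2-cochains. -/
lemma lcl_toLoc₂_res {K Ω : Type} [Field K] [Field Ω] [Algebra K Ω] {G : Type*} [Group G]
    (e : G ≃* (Ω ≃ₐ[K] Ω)) (H : Subgroup G) (F : IntermediateField K Ω)
    (eH : H ≃* (Ω ≃ₐ[F] Ω)) (hcompat : ∀ h : H, (eH h).restrictScalars K = e h)
    (c : G × G → Additive Ωˣ) :
    lcg_toLoc₂ eH (fun x : H × H => c (x.1, x.2)) = lres₂ K F (lcg_toLoc₂ e c) := by
  have h1 : ∀ γ : Ω ≃ₐ[F] Ω, e.symm (γ.restrictScalars K) = (eH.symm γ : G) := fun γ => by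
    rw [MulEquiv.symm_apply_eq, ← hcompat, MulEquiv.apply_symm_apply]
  funext ⟨γ, γ'⟩
  simp only [lcg_toLoc₂, lres₂_apply, h1]

/-- the invariant transported through a dictionary is a class function. -/
lemma lcl_inv_cl {K Ω : Type} [NontriviallyNormedField K] [IsUltrametricDist K]
    [ProperSpace K] [NormedField Ω] [NormedAlgebra K Ω] [IsAlgClosed Ω]
    [Algebra.IsAlgebraic K Ω] [IsGalois K Ω]
    {G : Type*} [Group G] {L : hc_Lev G} {e : G ≃* (Ω ≃ₐ[K] Ω)}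
    {ρ : Representation ℤ G (Additive Ωˣ)} (D : lcg_Dict L e ρ) (p : ℕ) [Fact p.Prime]
    (c : G × G → Additive Ωˣ) (hc : c ∈ hc_C2 L ρ) (hcoc : hc_d23f ρ c = 0)
    (y : G → Additive Ωˣ) (hy : y ∈ hc_C1 L ρ) :
    loc_inv K Ω p (lcg_toLoc₂ e (c + hc_d12f ρ y)) = loc_inv K Ω p (lcg_toLoc₂ e c) := by
  have hcoc' : hc_d23f ρ (c + hc_d12f ρ y) = 0 := by
    rw [map_add, hcoc, hc_d23f_d12f, add_zero]
  have hlev : c + hc_d12f ρ y ∈ hc_C2 L ρ :=
    Submodule.add_mem _ hc (hc_d12 L ρ ⟨y, hy⟩).2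
  refine loc_inv_congr p ((lcg_cocycle_iff D _).1 hcoc') ((lcg_lev2_iff D _).1 hlev) ?_
  have h1 : lcg_toLoc₂ e (c + hc_d12f ρ y) / lcg_toLoc₂ e c = lcg_toLoc₂ e (hc_d12f ρ y) := by
    rw [lcg_toLoc₂_add, mul_div_cancel_left]
  rw [h1]
  exact (lcg_cob_iff D _).1 ⟨y, hy, rfl⟩

attribute [local instance] loc_normedAlgebraIF loc_isUltrametricDistIF loc_properSpaceIF'

/-- **(LC3-LOC)**: the loc-side hypotheses of the [LC3] assembly. -/
theorem lcl_lc3_loc (K Ω : Type) [NontriviallyNormedField K] [IsUltrametricDist K]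
    [ProperSpace K] [NormedField Ω] [NormedAlgebra K Ω] [IsAlgClosed Ω]
    [Algebra.IsAlgebraic K Ω] [IsGalois K Ω]
    {G : Type*} [Group G] {L : hc_Lev G} {e : G ≃* (Ω ≃ₐ[K] Ω)}
    {ρ : Representation ℤ G (Additive Ωˣ)} (D : lcg_Dict L e ρ) (H : Subgroup G)
    (F : IntermediateField K Ω) [FiniteDimensional K F]
    (eH : H ≃* (Ω ≃ₐ[F] Ω)) (hcompat : ∀ h : H, (eH h).restrictScalars K = e h)
    (hidx : Module.finrank K F = H.index)
    (DH : lcg_Dict (shapLevSub L H) eH (ρ.comp H.subtype)) (p : ℕ) [Fact p.Prime] :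
    (∀ c ∈ hc_C2 L ρ, hc_d23f ρ c = 0 → ∀ y ∈ hc_C1 L ρ,
      loc_inv K Ω p (lcg_toLoc₂ e (c + hc_d12f ρ y)) = loc_inv K Ω p (lcg_toLoc₂ e c)) ∧
    (∀ c ∈ hc_C2 (shapLevSub L H) (ρ.comp H.subtype),
      hc_d23f (ρ.comp H.subtype) c = 0 →
      ∀ y ∈ hc_C1 (shapLevSub L H) (ρ.comp H.subtype),
        loc_inv F Ω p (lcg_toLoc₂ eH (c + hc_d12f (ρ.comp H.subtype) y)) =
          loc_inv F Ω p (lcg_toLoc₂ eH c)) ∧
    (∀ c ∈ lcg_Z2p (shapLevSub L H) (ρ.comp H.subtype) p,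
      ∃ y : hc_C2 L ρ, hc_d23 L ρ y = 0 ∧
        ∃ β ∈ hc_C1 (shapLevSub L H) (ρ.comp H.subtype),
          c = (hc_res2 (shap_levSub_compat L H) ρ y).1 + hc_d12f (ρ.comp H.subtype) β) ∧
    (∀ y : hc_C2 L ρ, hc_d23 L ρ y = 0 →
      (hc_res2 (shap_levSub_compat L H) ρ y).1 ∈
        lcg_Z2p (shapLevSub L H) (ρ.comp H.subtype) p →
      loc_inv K Ω p (lcg_toLoc₂ e ((H.index : ℤ) • y.1)) =
        loc_inv F Ω p (lcg_toLoc₂ eH (hc_res2 (shap_levSub_compat L H) ρ y).1)) := by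
  have hres : ∀ y : hc_C2 L ρ,
      lcg_toLoc₂ eH (hc_res2 (shap_levSub_compat L H) ρ y).1 = lres₂ K F (lcg_toLoc₂ e y.1) :=
    fun y => lcl_toLoc₂_res e H F eH hcompat y.1
  refine ⟨fun c hc hcoc y hy => lcl_inv_cl D p c hc hcoc y hy,
    fun c hc hcoc y hy => lcl_inv_cl DH p c hc hcoc y hy, ?_, ?_⟩
  · -- surjectivity of restriction up to level coboundaries
    rintro c ⟨hc, hcoc, -⟩
    obtain ⟨N, hN, a, hcob⟩ := loc_lres_surjIF K Ω F (lcg_toLoc₂ eH c)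
      ((lcg_cocycle_iff DH c).1 hcoc) ((lcg_lev2_iff DH c).1 hc)
    have hfd : FiniteDimensional K K⟮loc_zeta K Ω N⟯ :=
      IntermediateField.adjoin.finiteDimensional (Algebra.IsIntegral.isIntegral _)
    have hy2 : lcg_ofLoc₂ e (loc_u K Ω N a) ∈ hc_C2 L ρ := by
      rw [lcg_lev2_iff D, lcg_toLoc₂_ofLoc₂]
      exact ⟨_, hfd, loc_u_isLvl K Ω N a⟩
    have hycoc : hc_d23f ρ (lcg_ofLoc₂ e (loc_u K Ω N a)) = 0 := by
      rw [lcg_cocycle_iff D, lcg_toLoc₂_ofLoc₂]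
      exact loc_u_isMulCocycle₂ K Ω N a
    set y : hc_C2 L ρ := ⟨lcg_ofLoc₂ e (loc_u K Ω N a), hy2⟩ with hydef
    have h1 : lcg_toLoc₂ eH (c - (hc_res2 (shap_levSub_compat L H) ρ y).1) =
        lcg_toLoc₂ eH c / lres₂ K F (loc_u K Ω N a) := by
      rw [← lcg_toLoc₂_ofLoc₂ e (loc_u K Ω N a), ← hres y]
      rfl
    rw [← h1] at hcob
    obtain ⟨β, hβ, hβ2⟩ := (lcg_cob_iff DH _).2 hcob
    refine ⟨y, Subtype.ext hycoc, β, hβ, ?_⟩
    rw [← hβ2]
    abel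
  · -- the invariant of `[G:H] • y`
    rintro y hycoc ⟨-, -, β, hβ, hβ2⟩
    have hycoc' : hc_d23f ρ y.1 = 0 := congrArg Subtype.val hycoc
    have hyp : loc_IsLevCob (lres₂ K F (lcg_toLoc₂ e y.1) ^ p) := by
      rw [← hres y, ← zpow_natCast, ← lcg_toLoc₂_zsmul]
      exact (lcg_cob_iff DH _).1 ⟨β, hβ, hβ2⟩
    obtain ⟨-, h2⟩ := loc_inv_lres_powIF K Ω F p (lcg_toLoc₂ e y.1)
      ((lcg_cocycle_iff D _).1 hycoc') ((lcg_lev2_iff D _).1 y.2) hyp
    rw [hres y, ← h2, hidx, lcg_toLoc₂_zsmul, zpow_natCast]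

end Fermat.Agent.S55
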