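import Fermat.Agent.S55.TrInst
import Fermat.Agent.S55.Lc3Cor

/-!
# S55: the arithmetic contract `[LC3]` for the local invariants

`tri_LC3 A` : for every prime `q` and every open subgroup `K` of the local Galois group at `q`
which acts trivially on `μ_p`, the functional `A.inv q ∘ cor_K` is injective on the `μ_p`-valued
level cohomology `H²(K; 𝔽_p(1))` (`cor_K = lc3_cor`, the cochain corestriction of `Lc3Cor.lean`
for any retraction `r` with `r 1 = 1`).

The arithmetic providers (LOC + REC + LC-GLUE) deliver `∃ A : tri_Arith p, tri_LC3 A`.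
-/

set_option autoImplicit false

open ExtCitation groupCohomology

namespace Fermat.Agent.S55

/-- **`[LC3]`**: `inv_q ∘ cor_K` is injective on `H²(K; 𝔽_p(1))` for every open subgroup `K` of
the local Galois group at `q` acting trivially on `μ_p`. -/
def tri_LC3 {p : ℕ} [Fact p.Prime] (A : tri_Arith p) : Prop :=
  ∀ (q : Nat.Primes) (K : Subgroup (primeLocalGaloisGroup q)) [K.FiniteIndex]
    (r : primeLocalGaloisGroup q → K)
    (hr : ∀ (u : K) (x : primeLocalGaloisGroup q), r ((u : primeLocalGaloisGroup q) * x) = u * r x)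
    (_ : r 1 = 1)
    (hK : ∃ M ∈ (pt_localLev (primeLocalToGlobal q)).S, M ≤ K)
    (_ : ∀ h ∈ K, cycloChar p (primeLocalToGlobal q h) = 1)
    (x : hc_C2 (shapLevSub (pt_localLev (primeLocalToGlobal q)) K)
      (((dual_rhoT (cycloChar p)).comp (primeLocalToGlobal q)).comp K.subtype)),
    hc_d23 (shapLevSub (pt_localLev (primeLocalToGlobal q)) K)
      (((dual_rhoT (cycloChar p)).comp (primeLocalToGlobal q)).comp K.subtype) x = 0 →
    A.inv q (lc3_cor (pt_localLev (primeLocalToGlobal q)) K
      ((dual_rhoT (cycloChar p)).comp (primeLocalToGlobal q)) r hr hK x) = 0 →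
    x ∈ LinearMap.range (hc_d12 (shapLevSub (pt_localLev (primeLocalToGlobal q)) K)
      (((dual_rhoT (cycloChar p)).comp (primeLocalToGlobal q)).comp K.subtype))

end Fermat.Agent.S55
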