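import Fermat.Agent.S55.LcgDq
import Fermat.Agent.S55.LcgDictSub
import Fermat.Agent.S55.LcgLc3Loc
import Fermat.Agent.S55.Lc3Generic
import Fermat.Agent.S55.LocLimInvQ
import Fermat.Agent.S55.TrLc3

/-!
# S55, block LC-GLUE, part 6: the contract `[LC3]` for the local invariants `lcg_invq`

`lcg_lc3_abs` (abstract local model `(K, Ω)` with a dictionary `D : lcg_Dict L e ρ`): for a
subgroup `H` of `G` containing a level (= the absolute Galois group of a finite extension `F` of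
`K`) and a `μ_p`-valued level 2-cocycle `x` of `H`: if the Brauer invariant over `K` of
`ζ ^ (cor x)` vanishes then `x` is a level coboundary.  (Formal corestriction assembly
`lc3_generic`, restriction package `lcl_lc3_loc`, sub-dictionary `lds_dict_sub`, Hilbert 90.)

`lcg_lc3_core` : `lcg_invq ∘ cor_K` is injective on `H²(K; 𝔽_p(1))` for every open subgroup `K`
of the local Galois group at `q`.

`lcg_lc3` : `tri_LC3 (lcg_arith p ζ hζ hrecip)`.
-/

set_option autoImplicit false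
set_option linter.unusedSectionVars false

open ExtCitation groupCohomology

namespace Fermat.Agent.S55

local notation "Qb" => AlgebraicClosure ℚ

section abs

attribute [local instance] loc_normedAlgebraIF loc_isUltrametricDistIF loc_properSpaceIF'

/-- **`[LC3]`, abstract form.** -/
theorem lcg_lc3_abs (K Ω : Type) [NontriviallyNormedField K] [IsUltrametricDist K]
    [ProperSpace K] [NormedField Ω] [NormedAlgebra K Ω] [IsAlgClosed Ω]
    [Algebra.IsAlgebraic K Ω] [IsGalois K Ω]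
    {G : Type*} [Group G] {L : hc_Lev G} {e : G ≃* (Ω ≃ₐ[K] Ω)}
    {ρ : Representation ℤ G (Additive Ωˣ)} (D : lcg_Dict L e ρ)
    {p : ℕ} [Fact p.Prime] {T : Type*} [AddCommGroup T] [Module (ZMod p) T]
    (ρT : Representation (ZMod p) G T)
    (E : T →+ Additive Ωˣ) (hE : ∀ g t, E (ρT g t) = ρ g (E t)) (hinj : Function.Injective E)
    (htors : ∀ a : Additive Ωˣ, p • a = 0 → ∃ t, E t = a)
    (H : Subgroup G) [H.FiniteIndex] (r : G → H)
    (hr : ∀ (u : H) (x : G), r ((u : G) * x) = u * r x) (h1 : r 1 = 1)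
    (hH : ∃ N ∈ L.S, N ≤ H)
    (x : hc_C2 (shapLevSub L H) (ρT.comp H.subtype))
    (hx : hc_d23 (shapLevSub L H) (ρT.comp H.subtype) x = 0)
    (h0 : loc_inv K Ω p (lcg_toLoc₂ e (fun z => E ((lc3_cor L H ρT r hr hH x).1 z))) = 0) :
    ∃ b : hc_C1 (shapLevSub L H) (ρT.comp H.subtype),
      hc_d12 (shapLevSub L H) (ρT.comp H.subtype) b = x := by
  have hp : 0 < p := (Fact.out : p.Prime).pos
  obtain ⟨F, hF, eH, hcompat, hidx, DH⟩ := lds_dict_sub D H hH
  obtain ⟨hGcl, hHcl, hsurj, hrespow⟩ := lcl_lc3_loc K Ω D H F eH hcompat hidx DH p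
  have key := lc3_generic L H ρT ρ r hr h1 hH E hE
    (fun c => loc_inv K Ω p (lcg_toLoc₂ e c))
    (fun c => loc_inv F Ω p (lcg_toLoc₂ eH c)) hGcl hHcl hsurj hrespow x hx
  have h0' : loc_inv F Ω p (lcg_toLoc₂ eH (fun z => E (x.1 z))) = 0 := by
    rw [← key]
    exact h0
  have hinj0 := (lcg_dict_inv DH p (loc_inv F Ω p) (loc_inv_hmul F Ω p)
    (loc_inv_hker F Ω p)).2.2
  exact lcg_invT_inj (shapLevSub L H) (ρT.comp H.subtype) (ρ.comp H.subtype) E
    (fun g t => hE g t) hinj htors (lcg_dict_h90 DH) (lcg_dict_div DH hp)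
    (fun c => loc_inv F Ω p (lcg_toLoc₂ eH c)) hinj0 x hx h0'

end abs

/-- primality of `q : Nat.Primes` as a `Fact` (local instance). -/
local instance lcg_factq' (q : Nat.Primes) : Fact ((q : ℕ).Prime) := ⟨q.2⟩

section lc3

variable (p : ℕ) [Fact p.Prime] (ζ : Qbˣ) (hζ : IsPrimitiveRoot ζ p) (q : Nat.Primes)

local notation "Lq" => pt_localLev (primeLocalToGlobal q)
set_option quotPrecheck false in
local notation "ρTq" => (dual_rhoT (cycloChar p)).comp (primeLocalToGlobal q)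

/-- **`[LC3]` core**: `lcg_invq ∘ cor_K` is injective on `H²(K; 𝔽_p(1))` for every open subgroup
`K` of the local Galois group at `q`. -/
theorem lcg_lc3_core (K : Subgroup (primeLocalGaloisGroup q)) [K.FiniteIndex]
    (r : primeLocalGaloisGroup q → K)
    (hr : ∀ (u : K) (x : primeLocalGaloisGroup q), r ((u : primeLocalGaloisGroup q) * x) = u * r x)
    (h1 : r 1 = 1) (hK : ∃ M ∈ (Lq).S, M ≤ K)
    (x : hc_C2 (shapLevSub Lq K) ((ρTq).comp K.subtype))
    (hx : hc_d23 (shapLevSub Lq K) ((ρTq).comp K.subtype) x = 0)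
    (h0 : lcg_invq p ζ hζ q (lc3_cor Lq K (ρTq) r hr hK x) = 0) :
    ∃ b : hc_C1 (shapLevSub Lq K) ((ρTq).comp K.subtype),
      hc_d12 (shapLevSub Lq K) ((ρTq).comp K.subtype) b = x := by
  have hcoc := lc3_cor_cocycle Lq K (ρTq) r hr hK x hx
  rw [lcg_invq_eq p ζ hζ q _ hcoc] at h0
  exact lcg_lc3_abs ℚ_[(q : ℕ)] (PadicAlgCl (q : ℕ)) (lcg_dict_q q) (ρTq) (lcg_Eq p ζ hζ q)
    (lcg_Eq_equivariant p ζ hζ q) (lcg_Eq_injective p ζ hζ q) (lcg_Eq_tors p ζ hζ q)
    K r hr h1 hK x hx h0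

end lc3

/-- **`[LC3]`** for the arithmetic input built from `lcg_invq`. -/
theorem lcg_lc3 (p : ℕ) [Fact p.Prime] (ζ : Qbˣ) (hζ : IsPrimitiveRoot ζ p)
    (hrecip : ∀ z : hc_C2 tr_fullLev (dual_rhoT (cycloChar p)),
      hc_d23 tr_fullLev (dual_rhoT (cycloChar p)) z = 0 →
      ∑ᶠ q : Nat.Primes, lcg_invq p ζ hζ q (hc_res2 (tri_compat (primeLocalToGlobal q))
        (dual_rhoT (cycloChar p)) z) = 0) :
    tri_LC3 (lcg_arith p ζ hζ hrecip) := by
  intro q K _ r hr h1 hK _ x hx h0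
  obtain ⟨b, hb⟩ := lcg_lc3_core p ζ hζ q K r hr h1 hK x hx h0
  exact ⟨b, hb⟩

end Fermat.Agent.S55
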