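import Fermat.Agent.S55.LcgDq
import Fermat.Agent.S55.LcgDictSub
import Fermat.Agent.S55.LcgLc3Loc
import Fermat.Agent.S55.Lc3Generic
import Fermat.Agent.S55.TrLc3
import Fermat.Agent.S55.RecArith

/-!
# S55, block LC-GLUE: `[LC3]` for the local invariants `lcg_invq`

`lcb_LC3` : `tri_LC3 (lcg_arith p ζ hζ hrecip)` — for every open subgroup `K` of the local Galois
group at `q`, a `μ_p`-valued level 2-cocycle `x` of `K` with `lcg_invq (cor x) = 0` is a level
coboundary.  Assembly of `lds_dict_sub` (the dictionary of `K`), `lcl_lc3_loc` (the invariants of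
`K` and of the full group), `lc3_generic` (`inv_G ∘ cor = inv_K`) and `lcg_dict_invT` (a cocycle
of `K` with invariant `0` is a level coboundary).
-/

set_option autoImplicit false
set_option linter.unusedSectionVars false

open ExtCitation groupCohomology

namespace Fermat.Agent.S55

local notation "Qb" => AlgebraicClosure ℚ

attribute [local instance] loc_normedAlgebraIF loc_isUltrametricDistIF loc_properSpaceIF'

/-- **`[LC3]` for an open subgroup, generic form**: under a dictionary `D` between a leveled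
group `(G, L)` and the absolute Galois group of a local field `K`, a `T`-valued (`T ≅ μ_p`) level
2-cocycle `x` of an open subgroup `H` whose corestriction has invariant `0` is a level
coboundary. -/
theorem lcb_generic (K Ω : Type) [NontriviallyNormedField K] [IsUltrametricDist K]
    [ProperSpace K] [NormedField Ω] [NormedAlgebra K Ω] [IsAlgClosed Ω]
    [Algebra.IsAlgebraic K Ω] [IsGalois K Ω]
    {G : Type*} [Group G] {L : hc_Lev G} {e : G ≃* (Ω ≃ₐ[K] Ω)}
    {ρ : Representation ℤ G (Additive Ωˣ)} (D : lcg_Dict L e ρ) (p : ℕ) [Fact p.Prime]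
    {T : Type*} [AddCommGroup T] [Module (ZMod p) T] (ρT : Representation (ZMod p) G T)
    (E : T →+ Additive Ωˣ) (hE : ∀ g t, E (ρT g t) = ρ g (E t)) (hinj : Function.Injective E)
    (htors : ∀ a : Additive Ωˣ, p • a = 0 → ∃ t, E t = a)
    (H : Subgroup G) [H.FiniteIndex] (r : G → H)
    (hr : ∀ (u : H) (x : G), r ((u : G) * x) = u * r x) (h1 : r 1 = 1)
    (hK : ∃ N ∈ L.S, N ≤ H)
    (x : hc_C2 (shapLevSub L H) (ρT.comp H.subtype))
    (hx : hc_d23 (shapLevSub L H) (ρT.comp H.subtype) x = 0)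
    (h0 : loc_inv K Ω p (lcg_toLoc₂ e (fun z => E ((lc3_cor L H ρT r hr hK x).1 z))) = 0) :
    x ∈ LinearMap.range (hc_d12 (shapLevSub L H) (ρT.comp H.subtype)) := by
  obtain ⟨F, hFfd, eH, hcompat, hidx, DH⟩ := lds_dict_sub D H hK
  obtain ⟨hGcl, hHcl, hsurj, hrespow⟩ := lcl_lc3_loc K Ω D H F eH hcompat hidx DH p
  have hgen := lc3_generic L H ρT ρ r hr h1 hK E hE
    (fun c => loc_inv K Ω p (lcg_toLoc₂ e c))
    (fun c => loc_inv F Ω p (lcg_toLoc₂ eH c)) hGcl hHcl hsurj hrespow x hx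
  have h2 : loc_inv F Ω p (lcg_toLoc₂ eH (fun z => E (x.1 z))) = 0 := hgen.symm.trans h0
  obtain ⟨invT, hinvT, -, hinj'⟩ := lcg_dict_invT DH (ρT.comp H.subtype) E
    (fun g t => hE (g : G) t) hinj htors (loc_inv F Ω p)
    (fun _ _ hx hxl hxp hy hyl hyp => loc_inv_mul p hx hxl hy hyl hxp hyp)
    (fun _ hx hxl hxp => loc_inv_eq_zero_iff p hx hxl hxp)
  obtain ⟨b, hb⟩ := hinj' x hx (by rw [hinvT x hx]; exact h2)
  exact ⟨b, hb⟩

/-- primality of `q : Nat.Primes` as a `Fact` (local instance). -/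
local instance lcb_factq (q : Nat.Primes) : Fact ((q : ℕ).Prime) := ⟨q.2⟩

section main

variable (p : ℕ) [Fact p.Prime] (ζ : Qbˣ) (hζ : IsPrimitiveRoot ζ p) (q : Nat.Primes)

local notation "Lq" => pt_localLev (primeLocalToGlobal q)
set_option quotPrecheck false in
local notation "ρTq" => (dual_rhoT (cycloChar p)).comp (primeLocalToGlobal q)

/-- **`[LC3]` at `q` for an open subgroup `K`**: a `μ_p`-valued level 2-cocycle of `K` whose
corestriction has invariant `0` is a level coboundary. -/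
theorem lcb_LC3_at (K : Subgroup (primeLocalGaloisGroup q)) [K.FiniteIndex]
    (r : primeLocalGaloisGroup q → K)
    (hr : ∀ (u : K) (x : primeLocalGaloisGroup q), r ((u : primeLocalGaloisGroup q) * x) = u * r x)
    (h1 : r 1 = 1) (hK : ∃ M ∈ (Lq).S, M ≤ K)
    (x : hc_C2 (shapLevSub Lq K) ((ρTq).comp K.subtype))
    (hx : hc_d23 (shapLevSub Lq K) ((ρTq).comp K.subtype) x = 0)
    (h0 : lcg_invq p ζ hζ q (lc3_cor Lq K (ρTq) r hr hK x) = 0) :
    x ∈ LinearMap.range (hc_d12 (shapLevSub Lq K) ((ρTq).comp K.subtype)) := by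
  rw [lcg_invq_eq p ζ hζ q _ (lc3_cor_cocycle Lq K (ρTq) r hr hK x hx)] at h0
  exact lcb_generic ℚ_[(q : ℕ)] (PadicAlgCl (q : ℕ)) (lcg_dict_q q) p (ρTq) (lcg_Eq p ζ hζ q)
    (lcg_Eq_equivariant p ζ hζ q) (lcg_Eq_injective p ζ hζ q) (lcg_Eq_tors p ζ hζ q)
    K r hr h1 hK x hx h0

end main

/-- **`[LC3]`** for the arithmetic datum `lcg_arith p ζ hζ hrecip`. -/
theorem lcb_LC3 (p : ℕ) [Fact p.Prime] (ζ : Qbˣ) (hζ : IsPrimitiveRoot ζ p)
    (hrecip : ∀ z : hc_C2 tr_fullLev (dual_rhoT (cycloChar p)),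
      hc_d23 tr_fullLev (dual_rhoT (cycloChar p)) z = 0 →
      ∑ᶠ q : Nat.Primes, lcg_invq p ζ hζ q (hc_res2 (tri_compat (primeLocalToGlobal q))
        (dual_rhoT (cycloChar p)) z) = 0) :
    tri_LC3 (lcg_arith p ζ hζ hrecip) := by
  intro q K _ r hr h1 hK _ x hx h0
  exact lcb_LC3_at p ζ hζ q K r hr h1 hK x hx h0

/-- **ARITH**: the arithmetic input of the base case — a datum `A : tri_Arith p` (local
invariants with reciprocity) satisfying `[LC3]`. -/
theorem lcb_arith (p : ℕ) [Fact p.Prime] (hp2 : p ≠ 2) : ∃ A : tri_Arith p, tri_LC3 A := by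
  have hp0 : (p : Qb) ≠ 0 := by exact_mod_cast (Fact.out : p.Prime).ne_zero
  have : NeZero (p : Qb) := ⟨hp0⟩
  obtain ⟨ζ0, hζ0⟩ : ∃ ζ : Qb, IsPrimitiveRoot ζ p :=
    HasEnoughRootsOfUnity.exists_primitiveRoot Qb p
  have hp1 : p ≠ 0 := (Fact.out : p.Prime).ne_zero
  obtain ⟨ζ, hζ⟩ : ∃ ζ : Qbˣ, IsPrimitiveRoot ζ p :=
    ⟨(hζ0.isUnit hp1).unit, (IsPrimitiveRoot.coe_units_iff (ζ := (hζ0.isUnit hp1).unit)).mp
      (by rw [IsUnit.unit_spec]; exact hζ0)⟩
  exact ⟨rec_arith p hp2 ζ hζ, lcb_LC3 p ζ hζ (rec_hrecip p hp2 ζ hζ)⟩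

end Fermat.Agent.S55
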