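import Fermat.Agent.S55.HcCochain

/-!
# S55, block LC-GLUE, part 3: `μ_p`-valued versus `Ω^×`-valued level cochains

Setting: a leveled group `(G, L)`, a `ZMod p`-representation `(T, ρT)` (think `μ_p = 𝔽_p(1)`),
a representation `(M, ρM)` over any ring (think `Additive Ωˣ` over `ℤ`) and an additive
equivariant map `e : T →+ M` (think `c ↦ ζ ^ c`).

* `lcg_comp_d12f`, `lcg_comp_d23f`, `lcg_comp_mem_C1`, `lcg_comp_mem_C2` : composing cochains
  with `e` commutes with the differentials and preserves level cochains.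
* `lcg_mup_coboundary` (Hilbert 90 in the limit): if `e` is injective with image the `p`-torsion
  of `M`, every level 1-cocycle with values in `M` is the coboundary of a level element, and
  level elements of `M` are `p`-divisible among level elements, then a `T`-valued 2-cochain `c`
  with `e ∘ c = d β`, `β` a level `M`-valued 1-cochain, is the coboundary of a level `T`-valued
  1-cochain.
* `lcg_Z2p` : level 2-cocycles with values in `M` whose class is killed by `p`.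
* `lcg_invT_exists` : an invariant `inv0` on `M`-valued cochains (additive on `lcg_Z2p`, zero on
  level coboundaries) induces a `ZMod p`-linear functional on the level `T`-valued 2-cochains
  which is `inv0 (e ∘ c)` on cocycles and kills coboundaries.
* `lcg_invT_inj` : if moreover `inv0` vanishes only on level coboundaries (within `lcg_Z2p`),
  then a `T`-valued level 2-cocycle `c` with `inv0 (e ∘ c) = 0` is a level coboundary.
-/

set_option autoImplicit false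
set_option linter.unusedSectionVars false

namespace Fermat.Agent.S55

section mup

variable {p : ℕ} [Fact p.Prime] {G : Type*} [Group G] (L : hc_Lev G)
  {T : Type*} [AddCommGroup T] [Module (ZMod p) T] (ρT : Representation (ZMod p) G T)
  {k' : Type*} [CommRing k'] {M : Type*} [AddCommGroup M] [Module k' M]
  (ρM : Representation k' G M) (e : T →+ M)

lemma lcg_comp_d01f (he : ∀ g t, e (ρT g t) = ρM g (e t)) (t : T) (g : G) :
    e (hc_d01f ρT t g) = hc_d01f ρM (e t) g := by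
  simp only [hc_d01f_apply, map_sub, he]

lemma lcg_comp_d12f (he : ∀ g t, e (ρT g t) = ρM g (e t)) (b : G → T) (x : G × G) :
    e (hc_d12f ρT b x) = hc_d12f ρM (fun g => e (b g)) x := by
  obtain ⟨g, h⟩ := x
  simp only [hc_d12f_apply, map_sub, map_add, he]

lemma lcg_comp_d23f (he : ∀ g t, e (ρT g t) = ρM g (e t)) (c : G × G → T) (x : G × G × G) :
    e (hc_d23f ρT c x) = hc_d23f ρM (fun y => e (c y)) x := by
  obtain ⟨g, h, j⟩ := x
  simp only [hc_d23f_apply, map_sub, map_add, he]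

lemma lcg_comp_lev0 (he : ∀ g t, e (ρT g t) = ρM g (e t)) {N : Subgroup G} {t : T}
    (ht : hc_IsLev0 ρT N t) : hc_IsLev0 ρM N (e t) :=
  fun s hs => by rw [← he, ht s hs]

lemma lcg_comp_lev1 (he : ∀ g t, e (ρT g t) = ρM g (e t)) {N : Subgroup G} {b : G → T}
    (hb : hc_IsLev1 ρT N b) : hc_IsLev1 ρM N (fun g => e (b g)) :=
  ⟨fun g s hs => congrArg e (hb.1 g s hs), fun g => lcg_comp_lev0 ρT ρM e he (hb.2 g)⟩

lemma lcg_comp_lev2 (he : ∀ g t, e (ρT g t) = ρM g (e t)) {N : Subgroup G} {c : G × G → T}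
    (hc : hc_IsLev2 ρT N c) : hc_IsLev2 ρM N (fun x => e (c x)) :=
  ⟨fun g h s hs t ht => congrArg e (hc.1 g h s hs t ht),
    fun x => lcg_comp_lev0 ρT ρM e he (hc.2 x)⟩

lemma lcg_comp_mem_C1 (he : ∀ g t, e (ρT g t) = ρM g (e t)) {b : G → T}
    (hb : b ∈ hc_C1 L ρT) : (fun g => e (b g)) ∈ hc_C1 L ρM := by
  obtain ⟨N, hN, h⟩ := hb
  exact ⟨N, hN, lcg_comp_lev1 ρT ρM e he h⟩

lemma lcg_comp_mem_C2 (he : ∀ g t, e (ρT g t) = ρM g (e t)) {c : G × G → T}
    (hc : c ∈ hc_C2 L ρT) : (fun x => e (c x)) ∈ hc_C2 L ρM := by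
  obtain ⟨N, hN, h⟩ := hc
  exact ⟨N, hN, lcg_comp_lev2 ρT ρM e he h⟩

lemma lcg_lev1_of_comp (he : ∀ g t, e (ρT g t) = ρM g (e t)) (hinj : Function.Injective e)
    {N : Subgroup G} {b : G → T} (hb : hc_IsLev1 ρM N (fun g => e (b g))) :
    hc_IsLev1 ρT N b :=
  ⟨fun g s hs => hinj (hb.1 g s hs), fun g s hs => hinj (by rw [he]; exact hb.2 g s hs)⟩

lemma lcg_lev2_of_comp (he : ∀ g t, e (ρT g t) = ρM g (e t)) (hinj : Function.Injective e)
    {N : Subgroup G} {c : G × G → T} (hc : hc_IsLev2 ρM N (fun x => e (c x))) :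
    hc_IsLev2 ρT N c :=
  ⟨fun g h s hs t ht => hinj (hc.1 g h s hs t ht),
    fun x s hs => hinj (by rw [he]; exact hc.2 x s hs)⟩

/-- **Hilbert 90 in the limit, `μ_p` versus `Ω^×`.**  A `T`-valued 2-cochain which becomes the
coboundary of a level `M`-valued 1-cochain is the coboundary of a level `T`-valued 1-cochain. -/
theorem lcg_mup_coboundary (he : ∀ g t, e (ρT g t) = ρM g (e t)) (hinj : Function.Injective e)
    (htors : ∀ a : M, p • a = 0 → ∃ t, e t = a)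
    (h90 : ∀ f ∈ hc_C1 L ρM, hc_d12f ρM f = 0 → ∃ γ ∈ hc_C0 L ρM, f = hc_d01f ρM γ)
    (hdiv : ∀ γ ∈ hc_C0 L ρM, ∃ δ ∈ hc_C0 L ρM, p • δ = γ)
    (c : G × G → T) (β : G → M) (hβ : β ∈ hc_C1 L ρM)
    (h : ∀ x, e (c x) = hc_d12f ρM β x) :
    ∃ b ∈ hc_C1 L ρT, hc_d12f ρT b = c := by
  have hpT : ∀ t : T, p • t = 0 := fun t => by
    rw [← Nat.cast_smul_eq_nsmul (ZMod p), ZMod.natCast_self, zero_smul]
  have h1 : hc_d12f ρM (p • β) = 0 := by
    rw [map_nsmul]
    funext x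
    rw [Pi.smul_apply, ← h x, ← map_nsmul, hpT, map_zero]
    rfl
  obtain ⟨γ, hγ, hγ2⟩ := h90 (p • β) (nsmul_mem hβ p) h1
  obtain ⟨δ, hδ, hδ2⟩ := hdiv γ hγ
  set β' : G → M := β - hc_d01f ρM δ with hβ'def
  have hβ' : β' ∈ hc_C1 L ρM := Submodule.sub_mem _ hβ (hc_d01 L ρM ⟨δ, hδ⟩).2
  have hp : ∀ g, p • β' g = 0 := by
    intro g
    have e1 : p • β' = 0 := by
      rw [hβ'def, smul_sub, hγ2, ← map_nsmul, hδ2, sub_self]
    have := congrFun e1 g
    rwa [Pi.smul_apply] at this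
  choose b hb using fun g => htors (β' g) (hp g)
  have hbfun : (fun g => e (b g)) = β' := funext hb
  refine ⟨b, ?_, ?_⟩
  · obtain ⟨N, hN, hlev⟩ := hβ'
    exact ⟨N, hN, lcg_lev1_of_comp ρT ρM e he hinj (by rw [hbfun]; exact hlev)⟩
  · funext x
    apply hinj
    rw [lcg_comp_d12f ρT ρM e he, hbfun, h x, hβ'def, map_sub, hc_d12f_d01f, sub_zero]

/-- level 2-cocycles with values in `M` whose class is killed by `p`. -/
def lcg_Z2p (p : ℕ) : Set (G × G → M) :=
  {c | c ∈ hc_C2 L ρM ∧ hc_d23f ρM c = 0 ∧ ∃ y ∈ hc_C1 L ρM, (p : ℤ) • c = hc_d12f ρM y}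

lemma lcg_comp_mem_Z2p (he : ∀ g t, e (ρT g t) = ρM g (e t)) (c : hc_C2 L ρT)
    (hc : hc_d23 L ρT c = 0) : (fun x => e (c.1 x)) ∈ lcg_Z2p L ρM p := by
  have hpT : ∀ t : T, p • t = 0 := fun t => by
    rw [← Nat.cast_smul_eq_nsmul (ZMod p), ZMod.natCast_self, zero_smul]
  refine ⟨lcg_comp_mem_C2 L ρT ρM e he c.2, ?_, 0, Submodule.zero_mem _, ?_⟩
  · funext x
    rw [← lcg_comp_d23f ρT ρM e he]
    have : hc_d23f ρT c.1 = 0 := congrArg Subtype.val hc
    rw [this, Pi.zero_apply, map_zero, Pi.zero_apply]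
  · rw [map_zero]
    funext x
    rw [Pi.smul_apply, natCast_zsmul, ← map_nsmul, hpT, map_zero, Pi.zero_apply]

/-- **The local functional on `μ_p`-valued level cochains** induced by an invariant on
`Ω^×`-valued level cocycles. -/
theorem lcg_invT_exists (he : ∀ g t, e (ρT g t) = ρM g (e t))
    (inv0 : (G × G → M) → ZMod p)
    (hadd : ∀ c c', c ∈ lcg_Z2p L ρM p → c' ∈ lcg_Z2p L ρM p →
      inv0 (c + c') = inv0 c + inv0 c')
    (hcob : ∀ y ∈ hc_C1 L ρM, inv0 (hc_d12f ρM y) = 0) :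
    ∃ invT : hc_C2 L ρT →ₗ[ZMod p] ZMod p,
      (∀ c : hc_C2 L ρT, hc_d23 L ρT c = 0 → invT c = inv0 (fun x => e (c.1 x))) ∧
      (∀ b : hc_C1 L ρT, invT (hc_d12 L ρT b) = 0) := by
  set Z : Submodule (ZMod p) (hc_C2 L ρT) := LinearMap.ker (hc_d23 L ρT) with hZ
  let φ0 : Z →+ ZMod p := AddMonoidHom.mk' (fun c => inv0 (fun x => e (c.1.1 x))) (by
    intro c c'
    have e1 : (fun x => e ((c + c').1.1 x)) =
        (fun x => e (c.1.1 x)) + (fun x => e (c'.1.1 x)) := by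
      funext x
      simp only [Submodule.coe_add, Pi.add_apply, map_add]
    show inv0 (fun x => e ((c + c').1.1 x)) = _
    rw [e1]
    exact hadd _ _ (lcg_comp_mem_Z2p L ρT ρM e he c.1 c.2)
      (lcg_comp_mem_Z2p L ρT ρM e he c'.1 c'.2))
  let φ : Z →ₗ[ZMod p] ZMod p := φ0.toZModLinearMap p
  obtain ⟨invT, hinvT⟩ := LinearMap.exists_extend φ
  have key : ∀ c : hc_C2 L ρT, hc_d23 L ρT c = 0 → invT c = inv0 (fun x => e (c.1 x)) := by
    intro c hc
    have := LinearMap.congr_fun hinvT ⟨c, hc⟩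
    exact this
  refine ⟨invT, key, fun b => ?_⟩
  rw [key _ (hc_d23_d12 L ρT b)]
  have e2 : (fun x => e ((hc_d12 L ρT b).1 x)) = hc_d12f ρM (fun g => e (b.1 g)) := by
    funext x
    exact lcg_comp_d12f ρT ρM e he b.1 x
  rw [e2]
  exact hcob _ (lcg_comp_mem_C1 L ρT ρM e he b.2)

/-- **Injectivity of the local functional** on `μ_p`-valued level classes. -/
theorem lcg_invT_inj (he : ∀ g t, e (ρT g t) = ρM g (e t)) (hinj : Function.Injective e)
    (htors : ∀ a : M, p • a = 0 → ∃ t, e t = a)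
    (h90 : ∀ f ∈ hc_C1 L ρM, hc_d12f ρM f = 0 → ∃ γ ∈ hc_C0 L ρM, f = hc_d01f ρM γ)
    (hdiv : ∀ γ ∈ hc_C0 L ρM, ∃ δ ∈ hc_C0 L ρM, p • δ = γ)
    (inv0 : (G × G → M) → ZMod p)
    (hinj0 : ∀ c ∈ lcg_Z2p L ρM p, inv0 c = 0 → ∃ y ∈ hc_C1 L ρM, c = hc_d12f ρM y)
    (c : hc_C2 L ρT) (hc : hc_d23 L ρT c = 0) (h0 : inv0 (fun x => e (c.1 x)) = 0) :
    ∃ b : hc_C1 L ρT, hc_d12 L ρT b = c := by
  obtain ⟨y, hy, hy2⟩ := hinj0 _ (lcg_comp_mem_Z2p L ρT ρM e he c hc) h0
  obtain ⟨b, hb, hb2⟩ := lcg_mup_coboundary L ρT ρM e he hinj htors h90 hdiv c.1 y hy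
    (fun x => congrFun hy2 x)
  exact ⟨⟨b, hb⟩, Subtype.ext hb2⟩

end mup

end Fermat.Agent.S55
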