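/-
S55 block REC, assembly step (v): local norms are in `ksiNorm`, for an arbitrary decomposition
group (the partially split case).

* `linf_decGroup`         : the image of the local Galois group `Gal(PadicAlgCl q / K_τ)` in
                            `Gal(L/K)` (the decomposition group of `τ`).
* `linf_decomp`           : every `s ∈ Gal(L/K)` with `linf_prime q (τ ∘ s) = linf_prime q τ` lies
                            in `linf_decGroup`.
* `linf_exists_norm_sub_one_lt` : `x ∈ ksiU K v m` (m large) ⟹ `‖σ x - 1‖ < δ`.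
* `linf_mem_ksiNorm_dec`  : if `τ b = ∏_{s ∈ D} g_s y` with `y ∈ ℚ_q(τ F)`, `D` containing the
                            decomposition group and `g_s` extending `s ∈ D`, then
                            `b ∈ ksiNorm K F v n` for all `n`.
-/
import Mathlib
import Fermat.Agent.S55.LocInfHpb
import Fermat.Agent.S55.SUnitApprox

namespace Fermat.Agent.S55

open NumberField IsDedekindDomain

section DecGroup

variable (q : ℕ) [Fact q.Prime] (K : Type) {L : Type} [Field K] [Field L] [Algebra K L]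
  [Normal K L] (τ : L →+* PadicAlgCl q)

theorem linf_rho_mul' (g h : (hpbKloc K τ).fixingSubgroup) :
    linf_rho K τ (g * h) = linf_rho K τ g * linf_rho K τ h := by
  ext y
  apply τ.injective
  rw [AlgEquiv.mul_apply, linf_rho_spec, linf_rho_spec, linf_rho_spec]
  rfl

theorem linf_rho_one' : linf_rho K τ (1 : (hpbKloc K τ).fixingSubgroup) = 1 := by
  ext y
  apply τ.injective
  rw [linf_rho_spec]
  rfl

theorem linf_rho_inv' (g : (hpbKloc K τ).fixingSubgroup) :
    linf_rho K τ g⁻¹ = (linf_rho K τ g)⁻¹ := by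
  rw [eq_inv_iff_mul_eq_one, ← linf_rho_mul', inv_mul_cancel, linf_rho_one']

/-- The decomposition group of `τ`: the image of the local Galois group in `Gal(L/K)`. -/
noncomputable def linf_decGroup : Subgroup (L ≃ₐ[K] L) where
  carrier := Set.range (linf_rho K τ)
  one_mem' := ⟨1, linf_rho_one' q K τ⟩
  mul_mem' := by
    rintro _ _ ⟨g, rfl⟩ ⟨h, rfl⟩
    exact ⟨g * h, linf_rho_mul' q K τ g h⟩
  inv_mem' := by
    rintro _ ⟨g, rfl⟩
    exact ⟨g⁻¹, linf_rho_inv' q K τ g⟩

theorem linf_mem_decGroup_iff (s : L ≃ₐ[K] L) :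
    s ∈ linf_decGroup q K τ ↔ ∃ g : (hpbKloc K τ).fixingSubgroup, linf_rho K τ g = s := Iff.rfl

end DecGroup

section Decomp

variable (q : ℕ) [Fact q.Prime] {K L : Type} [Field K] [NumberField K] [Field L] [NumberField L]
  [Algebra K L] [IsGalois K L] (τ : L →+* PadicAlgCl q)

/-- **(A)** The decomposition group is the image of the local Galois group: an automorphism `s`
with `linf_prime q (τ ∘ s) = linf_prime q τ` is induced by an element of `Gal(PadicAlgCl q/K_τ)`. -/
theorem linf_decomp (s : L ≃ₐ[K] L)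
    (hs : linf_prime q (τ.comp (s : L →+* L)) = linf_prime q τ) :
    ∃ g : (hpbKloc K τ).fixingSubgroup, linf_rho K τ g = s := by
  rw [← linf_mem_decGroup_iff]
  by_contra hcon
  rw [← IntermediateField.fixingSubgroup_fixedField (linf_decGroup q K τ),
    IntermediateField.mem_fixingSubgroup_iff] at hcon
  push Not at hcon
  obtain ⟨z, hz, hsz⟩ := hcon
  -- `τ z ∈ K_τ`
  have hτz : τ z ∈ hpbKloc K τ := by
    rw [← InfiniteGalois.fixedField_fixingSubgroup (hpbKloc K τ),
      IntermediateField.mem_fixedField_iff]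
    intro g hg
    have h1 := linf_rho_spec K τ ⟨g, hg⟩ z
    have h2 : linf_rho K τ ⟨g, hg⟩ z = z := by
      rw [IntermediateField.mem_fixedField_iff] at hz
      exact hz _ ⟨⟨g, hg⟩, rfl⟩
    rw [h2] at h1
    exact h1.symm
  have hiso : ∀ x : L, ‖τ (s x)‖ = ‖τ x‖ := fun x =>
    linf_norm_eq_of_prime_eq q (τ.comp (s : L →+* L)) τ hs x
  apply hsz
  apply τ.injective
  by_contra hne
  have hpos : 0 < ‖τ (s z) - τ z‖ := norm_pos_iff.2 (sub_ne_zero.2 hne)
  obtain ⟨c, hc⟩ := linf_dense q (τ.comp (algebraMap K L)) hτz (half_pos hpos)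
  rw [RingHom.comp_apply] at hc
  have h1 : ‖τ (s z) - τ (algebraMap K L c)‖ = ‖τ z - τ (algebraMap K L c)‖ := by
    rw [← map_sub, ← map_sub]
    conv_lhs => rw [← s.commutes c, ← map_sub]
    exact hiso _
  have h2 : ‖τ (s z) - τ z‖ ≤
      ‖τ (s z) - τ (algebraMap K L c)‖ + ‖τ (algebraMap K L c) - τ z‖ :=
    norm_sub_le_norm_sub_add_norm_sub _ _ _
  rw [h1, norm_sub_rev (τ z)] at h2
  linarith

end Decomp

section Approx

variable (q : ℕ) [Fact q.Prime] {K : Type*} [Field K] [NumberField K] (σ : K →+* PadicAlgCl q)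

/-- Elements of `ksiU K v m` are `σ`-adically close to `1` for `m` large. -/
theorem linf_exists_norm_sub_one_lt {δ : ℝ} (hδ : 0 < δ) :
    ∃ m : ℕ, ∀ x : Kˣ, x ∈ ksiU K (linf_prime q σ) m → ‖σ (x : K) - 1‖ < δ := by
  obtain ⟨c, hc0, hc1, hc⟩ := linf_exists_norm_le_pow q σ
  obtain ⟨m, hm⟩ := exists_pow_lt_of_lt_one hδ hc1
  refine ⟨m, fun x hx => ?_⟩
  rw [mem_ksiU_iff] at hx
  have := hc ((x : K) - 1) m hx.2
  rw [map_sub, map_one] at this
  exact lt_of_le_of_lt this hm

end Approx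

section Main

/-- **(B)** Local norms are in `ksiNorm`, for an arbitrary decomposition group. -/
theorem linf_mem_ksiNorm_dec (q : ℕ) [Fact q.Prime] {K F : Type*} [Field K] [NumberField K]
    [Field F] [NumberField F] [Algebra K F] [IsGalois K F]
    (τ : F →+* PadicAlgCl q) (D : Finset (F ≃ₐ[K] F))
    (hD : ∀ s : F ≃ₐ[K] F, s ∉ D → linf_prime q (τ.comp (s : F →+* F)) ≠ linf_prime q τ)
    (g : (F ≃ₐ[K] F) → (PadicAlgCl q ≃ₐ[ℚ_[q]] PadicAlgCl q))
    (hg : ∀ s ∈ D, ∀ x, g s (τ x) = τ (s x))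
    (b : Kˣ) (y : PadicAlgCl q) (hy : y ∈ IntermediateField.adjoin ℚ_[q] (Set.range τ))
    (hby : τ (algebraMap K F b) = ∏ s ∈ D, g s y) (n : ℕ) :
    b ∈ ksiNorm K F (linf_prime q (τ.comp (algebraMap K F))) n := by
  classical
  have hb0 : (b : K) ≠ 0 := b.ne_zero
  have hτb : τ (algebraMap K F b) ≠ 0 := (map_ne_zero _).2 ((map_ne_zero _).2 hb0)
  have h1D : (1 : F ≃ₐ[K] F) ∈ D := by
    by_contra h
    exact hD 1 h rfl
  have hy0 : y ≠ 0 := by
    rintro rfl
    apply hτb
    rw [hby]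
    exact Finset.prod_eq_zero h1D (by simp)
  -- the continuous function
  set P : PadicAlgCl q × ((F ≃ₐ[K] F) → PadicAlgCl q) → PadicAlgCl q :=
    fun zw => (∏ s ∈ D, g s zw.1) * ∏ s ∈ Dᶜ, zw.2 s with hP
  have hPcont : Continuous P := by
    refine Continuous.mul ?_ ?_
    · exact continuous_finsetProd _ (fun s _ =>
        (linf_continuous_algEquiv q (g s)).comp continuous_fst)
    · exact continuous_finsetProd _ (fun s _ => (continuous_apply s).comp continuous_snd)
  have hP1 : P (y, fun _ => 1) = τ (algebraMap K F b) := by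
    simp only [hP, Finset.prod_const_one, mul_one]
    exact hby.symm
  have hPτ : ∀ (y' : F) (w : (F ≃ₐ[K] F) → PadicAlgCl q), (∀ s, s ∉ D → w s = τ (s y')) →
      P (τ y', w) = τ (algebraMap K F (Algebra.norm K y')) := by
    intro y' w hw
    rw [Algebra.norm_eq_prod_automorphisms, map_prod, ← Finset.prod_mul_prod_compl D]
    simp only [hP]
    congr 1
    · exact Finset.prod_congr rfl (fun s hs => hg s hs y')
    · exact Finset.prod_congr rfl (fun s hs => hw s (Finset.mem_compl.1 hs))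
  -- precision
  have hq1 : (1 : ℝ) < q := by exact_mod_cast (Fact.out : q.Prime).one_lt
  have hq0 : (0 : ℝ) < q := by linarith
  set ε : ℝ := (q : ℝ) ^ (-((n + 1 : ℕ) : ℤ)) with hε
  have hεpos : 0 < ε := zpow_pos hq0 _
  have hεlt : ε < 1 := by
    rw [hε, zpow_neg, zpow_natCast]
    exact inv_lt_one_of_one_lt₀ (one_lt_pow₀ hq1 (Nat.succ_ne_zero n))
  set B : ℝ := ‖τ (algebraMap K F b)‖ with hB
  have hBpos : 0 < B := norm_pos_iff.2 hτb
  set ε' : ℝ := ε * B / 2 with hε'
  have hε'pos : 0 < ε' := by positivity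
  obtain ⟨δ, hδ, hcont⟩ := (Metric.continuous_iff.1 hPcont) (y, fun _ => 1) ε' hε'pos
  -- first approximation of `y` in `F`
  obtain ⟨y₀, hy₀⟩ := linf_dense q τ hy (lt_min hδ (norm_pos_iff.2 hy0))
  have hy₀0 : y₀ ≠ 0 := by
    rintro rfl
    rw [map_zero, zero_sub, norm_neg] at hy₀
    exact absurd (lt_of_lt_of_le hy₀ (min_le_right _ _)) (lt_irrefl _)
  have hτy₀ : 0 < ‖τ y₀‖ := norm_pos_iff.2 ((map_ne_zero τ).2 hy₀0)
  -- the precisions
  obtain ⟨m₁, hm₁⟩ := linf_exists_norm_sub_one_lt q τ (div_pos hδ hτy₀)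
  have hms : ∀ s : F ≃ₐ[K] F, ∃ m : ℕ, ∀ x : Fˣ,
      x ∈ ksiU F (linf_prime q (τ.comp (s : F →+* F))) m →
        ‖(τ.comp (s : F →+* F)) (x : F) - 1‖ < δ :=
    fun s => linf_exists_norm_sub_one_lt q (τ.comp (s : F →+* F)) hδ
  choose ms hms using hms
  set M : ℕ := m₁ + ∑ s : F ≃ₐ[K] F, ms s with hM
  have hM₁ : m₁ ≤ M := Nat.le_add_right _ _
  have hMs : ∀ s : F ≃ₐ[K] F, ms s ≤ M := fun s =>
    (Finset.single_le_sum (f := ms) (fun _ _ => Nat.zero_le _) (Finset.mem_univ s)).trans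
      (Nat.le_add_left _ _)
  -- weak approximation
  set v₁ : HeightOneSpectrum (𝓞 F) := linf_prime q τ with hv₁
  set S : Finset (HeightOneSpectrum (𝓞 F)) :=
    insert v₁ (Finset.univ.image (fun s : F ≃ₐ[K] F => linf_prime q (τ.comp (s : F →+* F))))
    with hS
  obtain ⟨y', hy'⟩ := su_weak_approx F S (fun _ => M)
    (fun v => if v = v₁ then Units.mk0 y₀ hy₀0 else 1)
  have hy'1 : ‖τ (y' : F) - y‖ < δ := by
    have h1 := hy' v₁ (Finset.mem_insert_self _ _)
    rw [if_pos rfl] at h1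
    have h2 := hm₁ _ (ksiU_anti v₁ hM₁ h1)
    have h3 : ((y' / Units.mk0 y₀ hy₀0 : Fˣ) : F) = (y' : F) / y₀ := by
      rw [Units.val_div_eq_div_val, Units.val_mk0]
    rw [h3, map_div₀, div_sub_one ((map_ne_zero τ).2 hy₀0), norm_div,
      div_lt_div_iff_of_pos_right hτy₀] at h2
    have h4 := IsUltrametricDist.norm_add_le_max (τ (y' : F) - τ y₀) (τ y₀ - y)
    rw [sub_add_sub_cancel] at h4
    exact lt_of_le_of_lt h4 (max_lt h2 (lt_of_lt_of_le hy₀ (min_le_left _ _)))
  have hy's : ∀ s : F ≃ₐ[K] F, s ∉ D → ‖τ (s (y' : F)) - 1‖ < δ := by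
    intro s hs
    have hmem : linf_prime q (τ.comp (s : F →+* F)) ∈ S :=
      Finset.mem_insert_of_mem (Finset.mem_image_of_mem _ (Finset.mem_univ s))
    have h1 := hy' _ hmem
    rw [if_neg (hD s hs), div_one] at h1
    exact hms s _ (ksiU_anti _ (hMs s) h1)
  set w : (F ≃ₐ[K] F) → PadicAlgCl q := fun s => if s ∈ D then 1 else τ (s (y' : F)) with hw
  have hdist : dist (τ (y' : F), w) (y, fun _ => 1) < δ := by
    rw [Prod.dist_eq]
    refine max_lt ?_ ?_
    · rw [dist_eq_norm]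
      exact hy'1
    · rw [dist_pi_lt_iff hδ]
      intro s
      rw [dist_eq_norm]
      by_cases hs : s ∈ D
      · simp only [hw, if_pos hs, sub_self, norm_zero]
        exact hδ
      · simp only [hw, if_neg hs]
        exact hy's s hs
  have h1 := hcont _ hdist
  rw [dist_eq_norm, hP1, hPτ (y' : F) w (fun s hs => by simp only [hw, if_neg hs])] at h1
  -- conclusion as in the nonsplit case
  set Nv := τ (algebraMap K F (Algebra.norm K (y' : F))) with hNv
  have hNvB : B / 2 ≤ ‖Nv‖ := by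
    have h2 : B ≤ ‖Nv‖ + ‖Nv - τ (algebraMap K F b)‖ := by
      have := norm_sub_le Nv (Nv - τ (algebraMap K F b))
      rwa [sub_sub_cancel] at this
    have h3 : ε' ≤ B / 2 := by
      rw [hε']
      nlinarith
    linarith
  have hNv0 : Nv ≠ 0 := norm_pos_iff.1 (lt_of_lt_of_le (by positivity) hNvB)
  have hnorm0 : Algebra.norm K (y' : F) ≠ 0 := by
    intro h0
    apply hNv0
    rw [hNv, h0, map_zero, map_zero]
  set u : K := (b : K) / Algebra.norm K (y' : F) with hu
  have hu0 : u ≠ 0 := div_ne_zero hb0 hnorm0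
  set σ : K →+* PadicAlgCl q := τ.comp (algebraMap K F) with hσ
  have h4 : σ u - 1 = (τ (algebraMap K F b) - Nv) / Nv := by
    rw [hσ, RingHom.comp_apply, hu, map_div₀, map_div₀, sub_div, div_self hNv0]
  have h5 : ‖σ u - 1‖ < ε := by
    rw [h4, norm_div, norm_sub_rev, div_lt_iff₀ (norm_pos_iff.2 hNv0)]
    calc ‖Nv - τ (algebraMap K F b)‖ < ε' := h1
      _ = ε * (B / 2) := by rw [hε']; ring
      _ ≤ ε * ‖Nv‖ := mul_le_mul_of_nonneg_left hNvB hεpos.le
  have h6 : ‖σ u‖ = 1 := by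
    have h7 : ‖σ u - 1‖ < 1 := h5.trans hεlt
    apply le_antisymm
    · have := IsUltrametricDist.norm_add_le_max (σ u - 1) 1
      rw [sub_add_cancel, norm_one] at this
      exact this.trans (max_le h7.le le_rfl)
    · by_contra hlt
      push Not at hlt
      have := IsUltrametricDist.norm_add_le_max (σ u) (-(σ u - 1))
      have h9 : σ u + -(σ u - 1) = 1 := by ring
      rw [norm_neg, h9, norm_one] at this
      exact absurd this (not_le.2 (max_lt hlt h7))
  rw [mem_ksiNorm_iff]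
  refine ⟨y', Units.mk0 u hu0, ?_, ?_⟩
  · rw [mem_ksiU_iff]
    refine ⟨linf_valuation_eq_one_of_norm_eq_one q σ u h6, ?_⟩
    have h8 := linf_valuation_le q σ (u - 1) (n + 1) (by rw [map_sub, map_one]; exact h5.le)
    refine h8.trans ?_
    rw [WithZero.exp_le_exp]
    push_cast
    omega
  · apply Units.ext
    simp only [Units.val_mul, Units.coe_map, Units.val_mk0]
    rw [hu]
    exact mul_div_cancel₀ _ hnorm0

end Main

end Fermat.Agent.S55
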