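/-
S55 block REC, assembly step (v) / (RA4), consumer form (C): for a cyclic extension `F/k` of
number fields with injective additive character `χ : Gal(F/k) → ZMod n`, an embedding
`τ : F → PadicAlgCl q` and `b ∈ kˣ`: if the carry cocycle `loc_ucoc n (χ ∘ ρ) (τ b)` on the local
Galois group `Γ_loc = Gal(PadicAlgCl q / ℚ_q(τ k))` is the coboundary of a finite-level cochain,
then `b ∈ ksiNorm k F v_τ m` for all `m` (i.e. `b` is a local norm at the prime of `τ`).

* `linf_ucoc_norm_of_h90_gen`, `linf_gcb_gen` : (GCB) ⟹ for a character which is not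
  necessarily surjective (`χ σ = d`, `d * m = n`): `a = ∏_{k<m} σ^k b`.
* `linf_exists_gen`        : Euclid: the image of an additive map to `ZMod n` is `d·ZMod n`.
* `linf_carry_mem_ksiNorm` : the consumer form, explicit `β`.
* `linf_carry_mem_ksiNorm'`: the same for `loc_IsLevCob`.
-/
import Mathlib
import Fermat.Agent.S55.LocInfDec
import Fermat.Agent.S55.LocInfGen
import Fermat.Agent.S55.LocLimCoc

namespace Fermat.Agent.S55

open NumberField IsDedekindDomain

section Carry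

variable {G A : Type*} [Group G] [CommGroup A] [MulDistribMulAction G A]

/-- `linf_ucoc_norm_of_h90` for a character with `χ σ = d`, `d * m = n`. -/
theorem linf_ucoc_norm_of_h90_gen {n : ℕ} [NeZero n] (χ : G → ZMod n)
    (hχ : ∀ g h, χ (g * h) = χ g + χ h) (σ : G) (d m : ℕ) (hdm : d * m = n)
    (hσ : χ σ = (d : ZMod n))
    (a : A) (ha : ∀ g : G, g • a = a)
    (β : G → A) (hβ : ∀ g h, g • β h / β (g * h) * β g = loc_ucoc n χ a (g, h))
    (h90 : ∃ c : A, ∀ s, χ s = 0 → β s = s • c / c) :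
    ∃ b : A, (∀ s, χ s = 0 → s • b = b) ∧ a = loc_pnorm σ b m := by
  have hχ1 := loc_chi_one χ hχ
  have hn0 : n ≠ 0 := NeZero.ne n
  by_cases hm1 : m = 1
  · subst hm1
    refine ⟨a, fun s _ => ha s, ?_⟩
    simp [loc_pnorm]
  have hm0 : m ≠ 0 := by
    rintro rfl
    rw [mul_zero] at hdm
    exact hn0 hdm.symm
  have hd0 : d ≠ 0 := by
    rintro rfl
    rw [zero_mul] at hdm
    exact hn0 hdm.symm
  have hm2 : 2 ≤ m := by omega
  have hdn : d < n := by
    rw [← hdm]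
    nlinarith [Nat.pos_of_ne_zero hd0]
  obtain ⟨c, hc⟩ := h90
  -- the corrected cochain
  set β' : G → A := fun g => β g * (c / g • c) with hβ'
  have hβ'd : ∀ g h, g • β' h / β' (g * h) * β' g = loc_ucoc n χ a (g, h) := by
    intro g h
    rw [← hβ g h]
    simp only [hβ', smul_mul', smul_div', mul_smul]
    rw [div_mul_eq_mul_div, div_mul_eq_mul_div, div_eq_div_iff_mul_eq_mul]
    have e1 : c / (g • h • c) = c * (g • h • c)⁻¹ := div_eq_mul_inv _ _
    have e2 : c / (g • c) = c * (g • c)⁻¹ := div_eq_mul_inv _ _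
    have e3 : g • c / (g • h • c) = g • c * (g • h • c)⁻¹ := div_eq_mul_inv _ _
    rw [e1, e2, e3]
    have : g • β h * (g • c * (g • h • c)⁻¹) * (β g * (c * (g • c)⁻¹)) * β (g * h) =
        g • β h * β g * (β (g * h) * (c * (g • h • c)⁻¹)) * (g • c * (g • c)⁻¹) := by
      simp only [mul_assoc, mul_comm, mul_left_comm]
    rw [this, mul_inv_cancel, mul_one]
  have hβ'1 : ∀ s, χ s = 0 → β' s = 1 := by
    intro s hs
    show β s * (c / s • c) = 1
    rw [hc s hs]
    simp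
  have hr : ∀ g s, χ s = 0 → β' (g * s) = β' g := by
    intro g s hs
    have := hβ'd g s
    rw [loc_ucoc_apply, hs, loc_carry_zero_right, pow_zero, hβ'1 s hs, smul_one, one_div,
      inv_mul_eq_one] at this
    exact this
  have hl : ∀ g s, χ s = 0 → β' (s * g) = s • β' g := by
    intro g s hs
    have := hβ'd s g
    rw [loc_ucoc_apply, hs, loc_carry_zero_left, pow_zero, hβ'1 s hs, mul_one, div_eq_one] at this
    exact this.symm
  have hfix : ∀ g s, χ s = 0 → s • β' g = β' g := by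
    intro g s hs
    rw [← hl g s hs]
    have h1 : s * g = g * (g⁻¹ * s * g) := by group
    rw [h1]
    apply hr
    rw [hχ, hχ, loc_chi_inv χ hχ, hs]
    ring
  refine ⟨β' σ, fun s hs => hfix σ s hs, ?_⟩
  have hχpow : ∀ k : ℕ, χ (σ ^ k) = ((k * d : ℕ) : ZMod n) := by
    intro k
    rw [loc_chi_pow χ hχ, hσ]
    push_cast
    ring
  have hvald : (d : ZMod n).val = d := by
    rw [ZMod.val_natCast, Nat.mod_eq_of_lt hdn]
  have hvalk : ∀ k : ℕ, k < m → ((k * d : ℕ) : ZMod n).val = k * d := by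
    intro k hk
    rw [ZMod.val_natCast, Nat.mod_eq_of_lt]
    rw [← hdm, mul_comm d m]
    exact Nat.mul_lt_mul_of_pos_right hk (Nat.pos_of_ne_zero hd0)
  -- induction along powers of σ
  have hind : ∀ k : ℕ, k < m → β' (σ ^ k) = loc_pnorm σ (β' σ) k := by
    intro k
    induction k with
    | zero =>
      intro _
      rw [pow_zero, hβ'1 1 hχ1]
      simp [loc_pnorm]
    | succ k ih =>
      intro hk
      have hk' : k < m := by omega
      have := hβ'd (σ ^ k) σ
      rw [loc_ucoc_apply, hχpow, hσ] at this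
      have hcz : loc_carry n ((k * d : ℕ) : ZMod n) (d : ZMod n) = 0 := by
        unfold loc_carry
        rw [if_neg]
        rw [hvalk k hk', hvald, not_le, ← hdm, mul_comm d m]
        calc k * d + d = (k + 1) * d := by ring
          _ < m * d := Nat.mul_lt_mul_of_pos_right hk (Nat.pos_of_ne_zero hd0)
      rw [hcz, pow_zero, div_mul_eq_mul_div, div_eq_one, ih hk', ← pow_succ] at this
      rw [← this, loc_pnorm, loc_pnorm, Finset.prod_range_succ, mul_comm]
  obtain ⟨m', rfl⟩ : ∃ m', m = m' + 1 := ⟨m - 1, by omega⟩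
  have := hβ'd (σ ^ m') σ
  rw [loc_ucoc_apply, hχpow, hσ] at this
  have hcz : loc_carry n ((m' * d : ℕ) : ZMod n) (d : ZMod n) = 1 := by
    unfold loc_carry
    rw [if_pos]
    rw [hvalk m' (by omega), hvald, ← hdm]
    exact le_of_eq (by ring)
  rw [hcz, pow_one, ← pow_succ, hind m' (by omega)] at this
  have h0 : β' (σ ^ (m' + 1)) = 1 := hβ'1 _ (by
    rw [hχpow, mul_comm, hdm]
    exact ZMod.natCast_self n)
  rw [h0, div_one] at this
  rw [← this, loc_pnorm, loc_pnorm, Finset.prod_range_succ, mul_comm]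

/-- Euclid: the image of an additive map `χ : G → ZMod n` is `d·ZMod n` for some `d ∣ n`, and
`d` itself is a value. -/
theorem linf_exists_gen {n : ℕ} [NeZero n] (χ : G → ZMod n)
    (hχ : ∀ g h, χ (g * h) = χ g + χ h) :
    ∃ (σ : G) (d m : ℕ), d * m = n ∧ χ σ = (d : ZMod n) ∧
      ∀ g, ∃ t : ℕ, t < m ∧ χ g = ((t * d : ℕ) : ZMod n) := by
  classical
  have hn0 : n ≠ 0 := NeZero.ne n
  by_cases hV : ∃ v : ℕ, 0 < v ∧ ∃ g, (χ g).val = v
  · obtain ⟨d, ⟨hdpos, g₀, hg₀⟩, hmin⟩ : ∃ d : ℕ, (0 < d ∧ ∃ g, (χ g).val = d) ∧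
        ∀ v : ℕ, v < d → ¬ (0 < v ∧ ∃ g, (χ g).val = v) :=
      ⟨Nat.find hV, Nat.find_spec hV, fun v hv => Nat.find_min hV hv⟩
    have hdn : d < n := by
      rw [← hg₀]
      exact ZMod.val_lt _
    have hχg₀ : χ g₀ = (d : ZMod n) := by
      rw [← hg₀, ZMod.natCast_zmod_val]
    -- key: subtracting multiples
    have key : ∀ (g : G) (t r : ℕ), (χ g : ZMod n) = ((t * d + r : ℕ) : ZMod n) → r < d → r = 0 := by
      intro g t r hg hr
      by_contra hr0
      apply hmin r hr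
      refine ⟨Nat.pos_of_ne_zero hr0, g * (g₀ ^ t)⁻¹, ?_⟩
      rw [hχ, loc_chi_inv χ hχ, loc_chi_pow χ hχ, hg, hχg₀]
      push_cast
      have e : ((t : ZMod n) * (d : ZMod n) + (r : ZMod n) + -((t : ZMod n) * (d : ZMod n))) =
          (r : ZMod n) := by ring
      rw [e, ZMod.val_natCast, Nat.mod_eq_of_lt (hr.trans hdn)]
    have hdvd : d ∣ n := by
      rw [Nat.dvd_iff_mod_eq_zero]
      apply key 1 (n / d) (n % d) _ (Nat.mod_lt _ hdpos)
      rw [mul_comm, Nat.div_add_mod, loc_chi_one χ hχ, ZMod.natCast_self]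
    obtain ⟨m, hm⟩ := hdvd
    refine ⟨g₀, d, m, hm.symm, hχg₀, fun g => ?_⟩
    have h1 := key g ((χ g).val / d) ((χ g).val % d) (by
      rw [mul_comm, Nat.div_add_mod, ZMod.natCast_zmod_val]) (Nat.mod_lt _ hdpos)
    have h2 : (χ g).val = (χ g).val / d * d := by
      have := Nat.div_add_mod (χ g).val d
      rw [h1, add_zero, mul_comm] at this
      exact this.symm
    refine ⟨(χ g).val / d, ?_, ?_⟩
    · have h3 : (χ g).val < d * m := by
        rw [← hm]
        exact ZMod.val_lt _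
      rw [h2, mul_comm d m] at h3
      exact lt_of_mul_lt_mul_right h3 (Nat.zero_le d)
    · rw [← h2, ZMod.natCast_zmod_val]
  · push Not at hV
    have h0 : ∀ g, χ g = 0 := by
      intro g
      by_contra hne
      have h1 : (χ g).val ≠ 0 := by
        rw [Ne, ZMod.val_eq_zero]
        exact hne
      exact hV (χ g).val (Nat.pos_of_ne_zero h1) g rfl
    refine ⟨1, n, 1, mul_one n, ?_, fun g => ⟨0, Nat.one_pos, ?_⟩⟩
    · rw [h0, ZMod.natCast_self]
    · rw [h0]
      simp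

end Carry

section GCB

variable {K Ω : Type*} [Field K] [Field Ω] [Algebra K Ω] [IsGalois K Ω]

/-- **(GCB) ⟹**, for a character which need not be surjective. -/
theorem linf_gcb_gen {n : ℕ} [NeZero n] (χ : (Ω ≃ₐ[K] Ω) → ZMod n)
    (hχ : ∀ g h, χ (g * h) = χ g + χ h) (σ : Ω ≃ₐ[K] Ω) (d m : ℕ) (hdm : d * m = n)
    (hσ : χ σ = (d : ZMod n))
    (a : Ωˣ) (ha : ∀ g : Ω ≃ₐ[K] Ω, g • a = a)
    (β : (Ω ≃ₐ[K] Ω) → Ωˣ)
    (hβlev : ∃ M : IntermediateField K Ω, FiniteDimensional K M ∧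
      ∀ g s, s ∈ M.fixingSubgroup → β (g * s) = β g)
    (hβ : ∀ g h, g • β h / β (g * h) * β g = loc_ucoc n χ a (g, h)) :
    ∃ b : Ωˣ, (∀ s, χ s = 0 → s • b = b) ∧ a = loc_pnorm σ b m := by
  refine linf_ucoc_norm_of_h90_gen χ hχ σ d m hdm hσ a ha β hβ (linf_h90_ker χ hχ β hβlev ?_)
  intro s t hs ht
  have := hβ s t
  rw [loc_ucoc_apply, hs, ht, loc_carry_zero_left, pow_zero] at this
  rw [div_mul_eq_mul_div, div_eq_one] at this
  exact this.symm

end GCB

section Consumer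

variable (q : ℕ) [Fact q.Prime] {k F : Type} [Field k] [NumberField k] [Field F] [NumberField F]
  [Algebra k F] [IsGalois k F] (τ : F →+* PadicAlgCl q)

/-- **(C)** Consumer form of REC step (v): if the pulled-back carry cocycle of `b ∈ kˣ` for the
cyclic extension `F/k` is the coboundary of a finite-level 1-cochain on the local Galois group
`Gal(PadicAlgCl q / ℚ_q(τ k))`, then `b` is a local norm at the prime of `τ`, in the `ksiNorm`
form. -/
theorem linf_carry_mem_ksiNorm {n : ℕ} [NeZero n] (χ : (F ≃ₐ[k] F) → ZMod n)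
    (hχ : ∀ s t, χ (s * t) = χ s + χ t) (hχinj : ∀ s, χ s = 0 → s = 1)
    (ρ : (PadicAlgCl q ≃ₐ[hpbKloc k τ] PadicAlgCl q) → (F ≃ₐ[k] F))
    (hρ : ∀ g y, τ (ρ g y) = g (τ y)) (b : kˣ)
    (β : (PadicAlgCl q ≃ₐ[hpbKloc k τ] PadicAlgCl q) → (PadicAlgCl q)ˣ)
    (hβlev : ∃ M : IntermediateField (hpbKloc k τ) (PadicAlgCl q),
      FiniteDimensional (hpbKloc k τ) M ∧ ∀ g s, s ∈ M.fixingSubgroup → β (g * s) = β g)
    (hβ : ∀ g h, g • β h / β (g * h) * β g =
      loc_ucoc n (fun g => χ (ρ g))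
        (Units.map ((τ.comp (algebraMap k F) : k →+* PadicAlgCl q) : k →* PadicAlgCl q) b) (g, h))
    (m : ℕ) : b ∈ ksiNorm k F (linf_prime q (τ.comp (algebraMap k F))) m := by
  classical
  have hn0 : n ≠ 0 := NeZero.ne n
  have hρmul : ∀ g h : (PadicAlgCl q ≃ₐ[hpbKloc k τ] PadicAlgCl q), ρ (g * h) = ρ g * ρ h := by
    intro g h
    ext y
    apply τ.injective
    rw [AlgEquiv.mul_apply, hρ, hρ, hρ]
    rfl
  have hρone : ρ 1 = 1 := by
    ext y
    apply τ.injective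
    rw [hρ]
    rfl
  have hρpow : ∀ (g : (PadicAlgCl q ≃ₐ[hpbKloc k τ] PadicAlgCl q)) (j : ℕ),
      ρ (g ^ j) = ρ g ^ j := by
    intro g j
    induction j with
    | zero => rw [pow_zero, pow_zero, hρone]
    | succ j ih => rw [pow_succ, pow_succ, hρmul, ih]
  set χ' : (PadicAlgCl q ≃ₐ[hpbKloc k τ] PadicAlgCl q) → ZMod n := fun g => χ (ρ g) with hχ'
  have hχ'add : ∀ g h, χ' (g * h) = χ' g + χ' h := fun g h => by
    simp only [hχ', hρmul, hχ]
  set a : (PadicAlgCl q)ˣ :=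
    Units.map ((τ.comp (algebraMap k F) : k →+* PadicAlgCl q) : k →* PadicAlgCl q) b with ha_def
  have haval : (a : PadicAlgCl q) = τ (algebraMap k F (b : k)) := rfl
  have ha : ∀ g : (PadicAlgCl q ≃ₐ[hpbKloc k τ] PadicAlgCl q), g • a = a := by
    intro g
    rw [AlgEquiv.smul_units_def]
    apply Units.ext
    have hmem : τ (algebraMap k F (b : k)) ∈ hpbKloc k τ :=
      IntermediateField.subset_adjoin _ _ ⟨(b : k), rfl⟩
    exact g.commutes ⟨_, hmem⟩
  obtain ⟨σ, d, m', hdm, hσ, hall⟩ := linf_exists_gen χ' hχ'add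
  obtain ⟨y, hyfix, hay⟩ := linf_gcb_gen χ' hχ'add σ d m' hdm hσ a ha β hβlev hβ
  have hd0 : d ≠ 0 := by
    rintro rfl
    rw [zero_mul] at hdm
    exact hn0 hdm.symm
  -- `y ∈ ℚ_q(τ F)`
  have hy : (y : PadicAlgCl q) ∈ IntermediateField.adjoin ℚ_[q] (Set.range τ) := by
    rw [← linf_mem_hpbLloc_iff (K := k) q τ,
      ← InfiniteGalois.fixedField_fixingSubgroup (hpbLloc k τ),
      IntermediateField.mem_fixedField_iff]
    intro g hg
    have h1 : ρ g = 1 := by
      ext x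
      apply τ.injective
      rw [hρ]
      exact (IntermediateField.mem_fixingSubgroup_iff _ _).1 hg _
        (IntermediateField.subset_adjoin _ _ ⟨x, rfl⟩)
    have h2 := hyfix g (by simp only [hχ', h1]; exact loc_chi_one χ hχ)
    rw [AlgEquiv.smul_units_def] at h2
    exact congrArg (fun u : (PadicAlgCl q)ˣ => (u : PadicAlgCl q)) h2
  set s₀ : F ≃ₐ[k] F := ρ σ with hs₀
  have hχs₀ : ∀ j : ℕ, χ (s₀ ^ j) = ((j * d : ℕ) : ZMod n) := by
    intro j
    have h1 : χ (s₀ ^ j) = χ' (σ ^ j) := by simp only [hχ', hρpow, hs₀]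
    rw [h1, loc_chi_pow χ' hχ'add, hσ]
    push_cast
    ring
  have hlt : ∀ j : ℕ, j < m' → j * d < n := by
    intro j hj
    rw [← hdm, mul_comm d m']
    exact Nat.mul_lt_mul_of_pos_right hj (Nat.pos_of_ne_zero hd0)
  have hinj : Set.InjOn (fun j : ℕ => s₀ ^ j) (Finset.range m' : Set ℕ) := by
    intro i hi j hj hij
    have hi' := hlt i (Finset.mem_range.1 (Finset.mem_coe.1 hi))
    have hj' := hlt j (Finset.mem_range.1 (Finset.mem_coe.1 hj))
    have h1 : ((i * d : ℕ) : ZMod n) = ((j * d : ℕ) : ZMod n) := by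
      rw [← hχs₀, ← hχs₀]
      exact congrArg χ hij
    rw [ZMod.natCast_eq_natCast_iff'] at h1
    rw [Nat.mod_eq_of_lt hi', Nat.mod_eq_of_lt hj'] at h1
    exact Nat.eq_of_mul_eq_mul_right (Nat.pos_of_ne_zero hd0) h1
  let gfun : (F ≃ₐ[k] F) → (PadicAlgCl q ≃ₐ[ℚ_[q]] PadicAlgCl q) := fun s =>
    if h : ∃ j, j < m' ∧ s₀ ^ j = s then (σ ^ h.choose).restrictScalars ℚ_[q] else 1
  have hgfun : ∀ j, j < m' → gfun (s₀ ^ j) = (σ ^ j).restrictScalars ℚ_[q] := by
    intro j hj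
    have h : ∃ j', j' < m' ∧ s₀ ^ j' = s₀ ^ j := ⟨j, hj, rfl⟩
    simp only [gfun, dif_pos h]
    have := hinj (Finset.mem_coe.2 (Finset.mem_range.2 h.choose_spec.1))
      (Finset.mem_coe.2 (Finset.mem_range.2 hj)) h.choose_spec.2
    rw [this]
  refine linf_mem_ksiNorm_dec q τ ((Finset.range m').image (fun j => s₀ ^ j)) ?_ gfun ?_ b
    (y : PadicAlgCl q) hy ?_ m
  · intro s hs hprime
    apply hs
    obtain ⟨g₁, hg₁⟩ := linf_decomp q τ s hprime
    have hργ : ρ (IntermediateField.fixingSubgroupEquiv (hpbKloc k τ) g₁) = s := by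
      rw [← hg₁]
      ext x
      apply τ.injective
      rw [hρ, linf_rho_spec]
      rfl
    obtain ⟨t, ht, hχt⟩ := hall (IntermediateField.fixingSubgroupEquiv (hpbKloc k τ) g₁)
    have h1 : χ (s * (s₀ ^ t)⁻¹) = 0 := by
      rw [hχ, loc_chi_inv χ hχ, hχs₀, ← hργ]
      change χ' _ + _ = 0
      rw [hχt, add_neg_cancel]
    have h2 := hχinj _ h1
    rw [Finset.mem_image]
    exact ⟨t, Finset.mem_range.2 ht, (mul_inv_eq_one.1 h2).symm⟩
  · intro s hs x
    obtain ⟨j, hj, rfl⟩ := Finset.mem_image.1 hs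
    rw [hgfun j (Finset.mem_range.1 hj)]
    change (σ ^ j) (τ x) = _
    rw [← hρ, hρpow]
  · rw [Finset.prod_image hinj, ← haval, hay]
    unfold loc_pnorm
    rw [Units.coe_prod]
    refine Finset.prod_congr rfl (fun j hj => ?_)
    rw [hgfun j (Finset.mem_range.1 hj), AlgEquiv.smul_units_def]
    rfl

/-- **(C)**, in helper11's `loc_IsLevCob` language (`K := ↥(hpbKloc k τ)`, `Ω := PadicAlgCl q`). -/
theorem linf_carry_mem_ksiNorm' {n : ℕ} [NeZero n] (χ : (F ≃ₐ[k] F) → ZMod n)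
    (hχ : ∀ s t, χ (s * t) = χ s + χ t) (hχinj : ∀ s, χ s = 0 → s = 1)
    (ρ : (PadicAlgCl q ≃ₐ[hpbKloc k τ] PadicAlgCl q) → (F ≃ₐ[k] F))
    (hρ : ∀ g y, τ (ρ g y) = g (τ y)) (b : kˣ)
    (h : loc_IsLevCob (K := hpbKloc k τ) (loc_ucoc n (fun g => χ (ρ g))
        (Units.map ((τ.comp (algebraMap k F) : k →+* PadicAlgCl q) : k →* PadicAlgCl q) b)))
    (m : ℕ) : b ∈ ksiNorm k F (linf_prime q (τ.comp (algebraMap k F))) m := by
  obtain ⟨β, ⟨M, hM, hβM⟩, hβ⟩ := h
  refine linf_carry_mem_ksiNorm q τ χ hχ hχinj ρ hρ b β ⟨M, hM, fun g s hs => hβM.1 g s hs⟩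
    (fun g h => ?_) m
  rw [hβ]
  rfl

/-- The canonical restriction map `Gal(PadicAlgCl q / ℚ_q(τ k)) → Gal(F/k)`. -/
noncomputable def linf_rhoA (g : PadicAlgCl q ≃ₐ[hpbKloc k τ] PadicAlgCl q) : F ≃ₐ[k] F :=
  linf_rho k τ ((IntermediateField.fixingSubgroupEquiv (hpbKloc k τ)).symm g)

omit [NumberField k] [NumberField F] in
theorem linf_rhoA_spec (g : PadicAlgCl q ≃ₐ[hpbKloc k τ] PadicAlgCl q) (y : F) :
    τ (linf_rhoA q τ g y) = g (τ y) := by
  unfold linf_rhoA
  rw [linf_rho_spec]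
  rfl

end Consumer

end Fermat.Agent.S55
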