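/-
S55 block REC, step (v) / R2, model-independent consumer form: the local-norm criterion
`linf_carry_mem_ksiNorm` for an ARBITRARY group `G` with a homomorphism
`ι : G →* Gal(PadicAlgCl q / ℚ_q)` whose image is the local Galois group of `ℚ_q(τ k)`.

* `linf_carry_mem_ksiNorm_gen` : general `(G, ι)`, explicit finite-level cochain `β`.
* `linf_carry_mem_ksiNorm_rat` : `k = ℚ`, `G = Gal(PadicAlgCl q / ℚ_q)`, in helper11's
  `loc_IsLevCob` language for `(K, Ω) = (ℚ_[q], PadicAlgCl q)`.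
-/
import Mathlib
import Fermat.Agent.S55.LocInfDecCyc

namespace Fermat.Agent.S55

open NumberField IsDedekindDomain

section Gen

variable (q : ℕ) [Fact q.Prime] {k F : Type} [Field k] [NumberField k] [Field F] [NumberField F]
  [Algebra k F] [IsGalois k F] (τ : F →+* PadicAlgCl q)

/-- **R2, general form.**  `G` any group with `ι : G →* Gal(PadicAlgCl q/ℚ_q)` whose image is the
fixing subgroup of `ℚ_q(τ k)`; `ρ : G → Gal(F/k)` the induced action; `χ` an injective additive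
character of `Gal(F/k)`; `b ∈ kˣ`.  If the carry cocycle `loc_ucoc n (χ ∘ ρ) (τ b)` on `G` is the
coboundary of a finite-level cochain `β : G → (PadicAlgCl q)ˣ`, then `b ∈ ksiNorm k F v_τ m` for
all `m`. -/
theorem linf_carry_mem_ksiNorm_gen {G : Type*} [Group G]
    (ι : G →* (PadicAlgCl q ≃ₐ[ℚ_[q]] PadicAlgCl q))
    (hι : ∀ g, ι g ∈ (hpbKloc k τ).fixingSubgroup)
    (hsurj : ∀ s ∈ (hpbKloc k τ).fixingSubgroup, ∃ g, ι g = s)
    {n : ℕ} [NeZero n] (χ : (F ≃ₐ[k] F) → ZMod n)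
    (hχ : ∀ s t, χ (s * t) = χ s + χ t) (hχinj : ∀ s, χ s = 0 → s = 1)
    (ρ : G → (F ≃ₐ[k] F)) (hρ : ∀ g y, τ (ρ g y) = ι g (τ y)) (b : kˣ)
    (a : (PadicAlgCl q)ˣ) (haval : (a : PadicAlgCl q) = τ (algebraMap k F (b : k)))
    (β : G → (PadicAlgCl q)ˣ)
    (hβlev : ∃ M : IntermediateField ℚ_[q] (PadicAlgCl q),
      FiniteDimensional ℚ_[q] M ∧ ∀ g s, ι s ∈ M.fixingSubgroup → β (g * s) = β g)
    (hβ : ∀ g h, Units.map ((ι g : PadicAlgCl q ≃ₐ[ℚ_[q]] PadicAlgCl q) :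
        PadicAlgCl q →* PadicAlgCl q) (β h) / β (g * h) * β g =
      loc_ucoc n (fun g => χ (ρ g)) a (g, h))
    (m : ℕ) : b ∈ ksiNorm k F (linf_prime q (τ.comp (algebraMap k F))) m := by
  classical
  let act : MulDistribMulAction G (PadicAlgCl q)ˣ := MulDistribMulAction.compHom _ ι
  have hsmul : ∀ (g : G) (u : (PadicAlgCl q)ˣ), g • u =
      Units.map ((ι g : PadicAlgCl q ≃ₐ[ℚ_[q]] PadicAlgCl q) : PadicAlgCl q →* PadicAlgCl q) u :=
    fun g u => rfl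
  have hn0 : n ≠ 0 := NeZero.ne n
  have hρmul : ∀ g h : G, ρ (g * h) = ρ g * ρ h := by
    intro g h
    ext y
    apply τ.injective
    rw [AlgEquiv.mul_apply, hρ, hρ, hρ, map_mul]
    rfl
  have hρone : ρ 1 = 1 := by
    ext y
    apply τ.injective
    rw [hρ, map_one]
    rfl
  have hρpow : ∀ (g : G) (j : ℕ), ρ (g ^ j) = ρ g ^ j := by
    intro g j
    induction j with
    | zero => rw [pow_zero, pow_zero, hρone]
    | succ j ih => rw [pow_succ, pow_succ, hρmul, ih]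
  set χ' : G → ZMod n := fun g => χ (ρ g) with hχ'
  have hχ'add : ∀ g h, χ' (g * h) = χ' g + χ' h := fun g h => by
    simp only [hχ', hρmul, hχ]
  have ha : ∀ g : G, g • a = a := by
    intro g
    rw [hsmul]
    apply Units.ext
    have hmem : τ (algebraMap k F (b : k)) ∈ hpbKloc k τ :=
      IntermediateField.subset_adjoin _ _ ⟨(b : k), rfl⟩
    rw [Units.coe_map, haval]
    exact (IntermediateField.mem_fixingSubgroup_iff _ _).1 (hι g) _ hmem
  have hβ' : ∀ g h, g • β h / β (g * h) * β g = loc_ucoc n χ' a (g, h) := hβ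
  -- Hilbert 90 on the kernel of χ'
  have h90 : ∃ c : (PadicAlgCl q)ˣ, ∀ s, χ' s = 0 → β s = s • c / c := by
    let H : Subgroup G :=
      { carrier := {g | χ' g = 0}
        one_mem' := loc_chi_one χ' hχ'add
        mul_mem' := fun {g h} hg hh => by
          show χ' (g * h) = 0
          rw [hχ'add, show χ' g = 0 from hg, show χ' h = 0 from hh, add_zero]
        inv_mem' := fun {g} hg => by
          show χ' g⁻¹ = 0
          rw [loc_chi_inv χ' hχ'add, show χ' g = 0 from hg, neg_zero] }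
    obtain ⟨α, hα⟩ := linf_descent_subgroup ι H β hβlev (fun g h hg hh => by
      have h1 := hβ' g h
      rw [loc_ucoc_apply, show χ' g = 0 from hg, show χ' h = 0 from hh, loc_carry_zero_left,
        pow_zero, div_mul_eq_mul_div, div_eq_one] at h1
      rw [← h1, mul_comm]
      rfl)
    exact ⟨α, fun s hs => hα s hs⟩
  obtain ⟨σ, d, m', hdm, hσ, hall⟩ := linf_exists_gen χ' hχ'add
  obtain ⟨y, hyfix, hay⟩ :=
    linf_ucoc_norm_of_h90_gen χ' hχ'add σ d m' hdm hσ a ha β hβ' h90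
  have hd0 : d ≠ 0 := by
    rintro rfl
    rw [zero_mul] at hdm
    exact hn0 hdm.symm
  -- `y ∈ ℚ_q(τ F)`
  have hy : (y : PadicAlgCl q) ∈ IntermediateField.adjoin ℚ_[q] (Set.range τ) := by
    rw [← InfiniteGalois.fixedField_fixingSubgroup
      (IntermediateField.adjoin ℚ_[q] (Set.range τ)), IntermediateField.mem_fixedField_iff]
    intro s hs
    have hs' : s ∈ (hpbKloc k τ).fixingSubgroup := by
      rw [IntermediateField.mem_fixingSubgroup_iff]
      intro x hx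
      refine (IntermediateField.mem_fixingSubgroup_iff _ _).1 hs x ?_
      have hle : hpbKloc k τ ≤ IntermediateField.adjoin ℚ_[q] (Set.range τ) := by
        unfold hpbKloc
        apply IntermediateField.adjoin.mono
        rintro _ ⟨c, rfl⟩
        exact ⟨algebraMap k F c, rfl⟩
      exact hle hx
    obtain ⟨g, rfl⟩ := hsurj s hs'
    have h1 : ρ g = 1 := by
      ext x
      apply τ.injective
      rw [hρ]
      exact (IntermediateField.mem_fixingSubgroup_iff _ _).1 hs _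
        (IntermediateField.subset_adjoin _ _ ⟨x, rfl⟩)
    have h2 := hyfix g (by simp only [hχ', h1]; exact loc_chi_one χ hχ)
    rw [hsmul] at h2
    exact congrArg (fun u : (PadicAlgCl q)ˣ => (u : PadicAlgCl q)) h2
  set s₀ : F ≃ₐ[k] F := ρ σ with hs₀
  have hχs₀ : ∀ j : ℕ, χ (s₀ ^ j) = ((j * d : ℕ) : ZMod n) := by
    intro j
    have h1 : χ (s₀ ^ j) = χ' (σ ^ j) := by simp only [hχ', hρpow, hs₀]
    rw [h1, loc_chi_pow χ' hχ'add, hσ]
    push_cast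
    ring
  have hlt : ∀ j : ℕ, j < m' → j * d < n := by
    intro j hj
    rw [← hdm, mul_comm d m']
    exact Nat.mul_lt_mul_of_pos_right hj (Nat.pos_of_ne_zero hd0)
  have hinj : Set.InjOn (fun j : ℕ => s₀ ^ j) (Finset.range m' : Set ℕ) := by
    intro i hi j hj hij
    have hi' := hlt i (Finset.mem_range.1 (Finset.mem_coe.1 hi))
    have hj' := hlt j (Finset.mem_range.1 (Finset.mem_coe.1 hj))
    have h1 : ((i * d : ℕ) : ZMod n) = ((j * d : ℕ) : ZMod n) := by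
      rw [← hχs₀, ← hχs₀]
      exact congrArg χ hij
    rw [ZMod.natCast_eq_natCast_iff'] at h1
    rw [Nat.mod_eq_of_lt hi', Nat.mod_eq_of_lt hj'] at h1
    exact Nat.eq_of_mul_eq_mul_right (Nat.pos_of_ne_zero hd0) h1
  let gfun : (F ≃ₐ[k] F) → (PadicAlgCl q ≃ₐ[ℚ_[q]] PadicAlgCl q) := fun s =>
    if h : ∃ j, j < m' ∧ s₀ ^ j = s then ι (σ ^ h.choose) else 1
  have hgfun : ∀ j, j < m' → gfun (s₀ ^ j) = ι (σ ^ j) := by
    intro j hj
    have h : ∃ j', j' < m' ∧ s₀ ^ j' = s₀ ^ j := ⟨j, hj, rfl⟩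
    simp only [gfun, dif_pos h]
    have := hinj (Finset.mem_coe.2 (Finset.mem_range.2 h.choose_spec.1))
      (Finset.mem_coe.2 (Finset.mem_range.2 hj)) h.choose_spec.2
    rw [this]
  refine linf_mem_ksiNorm_dec q τ ((Finset.range m').image (fun j => s₀ ^ j)) ?_ gfun ?_ b
    (y : PadicAlgCl q) hy ?_ m
  · intro s hs hprime
    apply hs
    obtain ⟨g₁, hg₁⟩ := linf_decomp q τ s hprime
    obtain ⟨γ, hγ⟩ := hsurj g₁.1 g₁.2
    have hργ : ρ γ = s := by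
      rw [← hg₁]
      ext x
      apply τ.injective
      rw [hρ, linf_rho_spec, hγ]
    obtain ⟨t, ht, hχt⟩ := hall γ
    have h1 : χ (s * (s₀ ^ t)⁻¹) = 0 := by
      rw [hχ, loc_chi_inv χ hχ, hχs₀, ← hργ]
      change χ' _ + _ = 0
      rw [hχt, add_neg_cancel]
    have h2 := hχinj _ h1
    rw [Finset.mem_image]
    exact ⟨t, Finset.mem_range.2 ht, (mul_inv_eq_one.1 h2).symm⟩
  · intro s hs x
    obtain ⟨j, hj, rfl⟩ := Finset.mem_image.1 hs
    rw [hgfun j (Finset.mem_range.1 hj), ← hρ, hρpow]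
  · rw [Finset.prod_image hinj, ← haval, hay]
    unfold loc_pnorm
    rw [Units.coe_prod]
    refine Finset.prod_congr rfl (fun j hj => ?_)
    rw [hgfun j (Finset.mem_range.1 hj), hsmul]
    rfl

end Gen

section Rat

variable (q : ℕ) [Fact q.Prime] {F : Type} [Field F] [NumberField F] [IsGalois ℚ F]
  (τ : F →+* PadicAlgCl q)

omit [IsGalois ℚ F] in
/-- Over `ℚ`, `ℚ_q(τ ℚ) = ℚ_q`: every `ℚ_q`-automorphism fixes `hpbKloc ℚ τ`. -/
theorem linf_mem_fixingSubgroup_hpbKloc_rat (g : PadicAlgCl q ≃ₐ[ℚ_[q]] PadicAlgCl q) :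
    g ∈ (hpbKloc ℚ τ).fixingSubgroup := by
  rw [IntermediateField.mem_fixingSubgroup_iff]
  intro x hx
  unfold hpbKloc at hx
  induction hx using IntermediateField.adjoin_induction with
  | mem x hx =>
    obtain ⟨r, rfl⟩ := hx
    rw [RingHom.comp_apply, eq_ratCast, map_ratCast, map_ratCast]
  | algebraMap x => exact g.commutes x
  | add x y _ _ hx hy => rw [map_add, hx, hy]
  | inv x _ hx => rw [map_inv₀, hx]
  | mul x y _ _ hx hy => rw [map_mul, hx, hy]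

/-- The canonical restriction map `Gal(PadicAlgCl q/ℚ_q) → Gal(F/ℚ)` along `τ`. -/
noncomputable def linf_rhoRat (g : PadicAlgCl q ≃ₐ[ℚ_[q]] PadicAlgCl q) : F ≃ₐ[ℚ] F :=
  linf_rho ℚ τ ⟨g, linf_mem_fixingSubgroup_hpbKloc_rat q τ g⟩

theorem linf_rhoRat_spec (g : PadicAlgCl q ≃ₐ[ℚ_[q]] PadicAlgCl q) (y : F) :
    τ (linf_rhoRat q τ g y) = g (τ y) :=
  linf_rho_spec ℚ τ _ y

/-- **R2 over `ℚ`**, explicit cochain: `F/ℚ` cyclic with injective additive character `χ`,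
`ρ : Gal(PadicAlgCl q/ℚ_q) → Gal(F/ℚ)` the restriction along `τ`, `b ∈ ℚˣ`, `a` its image in
`(PadicAlgCl q)ˣ`.  If `loc_ucoc n (χ ∘ ρ) a = d β` with `β` of finite level, then
`b ∈ ksiNorm ℚ F (q) m` for all `m`. -/
theorem linf_carry_mem_ksiNorm_rat {n : ℕ} [NeZero n] (χ : (F ≃ₐ[ℚ] F) → ZMod n)
    (hχ : ∀ s t, χ (s * t) = χ s + χ t) (hχinj : ∀ s, χ s = 0 → s = 1)
    (ρ : (PadicAlgCl q ≃ₐ[ℚ_[q]] PadicAlgCl q) → (F ≃ₐ[ℚ] F))
    (hρ : ∀ g y, τ (ρ g y) = g (τ y)) (b : ℚˣ)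
    (a : (PadicAlgCl q)ˣ) (ha : (a : PadicAlgCl q) = ((b : ℚ) : PadicAlgCl q))
    (β : (PadicAlgCl q ≃ₐ[ℚ_[q]] PadicAlgCl q) → (PadicAlgCl q)ˣ)
    (hβlev : ∃ M : IntermediateField ℚ_[q] (PadicAlgCl q),
      FiniteDimensional ℚ_[q] M ∧ ∀ g s, s ∈ M.fixingSubgroup → β (g * s) = β g)
    (hβ : ∀ g h, g • β h / β (g * h) * β g = loc_ucoc n (fun g => χ (ρ g)) a (g, h))
    (m : ℕ) : b ∈ ksiNorm ℚ F (linf_prime q (τ.comp (algebraMap ℚ F))) m := by
  refine linf_carry_mem_ksiNorm_gen q τ (MonoidHom.id _)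
    (fun g => linf_mem_fixingSubgroup_hpbKloc_rat q τ g) (fun s _ => ⟨s, rfl⟩) χ hχ hχinj ρ hρ b a
    ?_ β hβlev (fun g h => ?_) m
  · rw [ha, eq_ratCast, map_ratCast]
  · rw [← hβ g h, AlgEquiv.smul_units_def]
    rfl

/-- **R2 over `ℚ`**, in the `loc_IsLevCob` language for `(K, Ω) = (ℚ_[q], PadicAlgCl q)`. -/
theorem linf_carry_mem_ksiNorm_rat' {n : ℕ} [NeZero n] (χ : (F ≃ₐ[ℚ] F) → ZMod n)
    (hχ : ∀ s t, χ (s * t) = χ s + χ t) (hχinj : ∀ s, χ s = 0 → s = 1)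
    (ρ : (PadicAlgCl q ≃ₐ[ℚ_[q]] PadicAlgCl q) → (F ≃ₐ[ℚ] F))
    (hρ : ∀ g y, τ (ρ g y) = g (τ y)) (b : ℚˣ)
    (a : (PadicAlgCl q)ˣ) (ha : (a : PadicAlgCl q) = ((b : ℚ) : PadicAlgCl q))
    (h : loc_IsLevCob (K := ℚ_[q]) (loc_ucoc n (fun g => χ (ρ g)) a))
    (m : ℕ) : b ∈ ksiNorm ℚ F (linf_prime q (τ.comp (algebraMap ℚ F))) m := by
  obtain ⟨β, ⟨M, hM, hβM⟩, hβ⟩ := h
  refine linf_carry_mem_ksiNorm_rat q τ χ hχ hχinj ρ hρ b a ha β
    ⟨M, hM, fun g s hs => hβM.1 g s hs⟩ (fun g h => ?_) m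
  rw [hβ]
  rfl

end Rat

end Fermat.Agent.S55
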