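import Mathlib
import Fermat.Agent.S55.LocKum
import Fermat.Agent.S55.LocCarry

/-!
# S55, block LOC, piece LP-c (part 1): Kummer characters and the cup product identity

Setting as in `LocKum.lean`: `Ω/k` Galois, `ι : G →* Gal(Ω/k)` with image in `Gal(Ω/E)`, `ζ ∈ E`
a primitive `p`-th root of unity.

* `lkc_exists_char` : the Kummer character `κ` of `β` (`β ^ p ∈ E`): `ι g β = ζ ^ κ(g) * β`,
  a finite-level homomorphism `G → ZMod p`.
* `lkc_cup_identity` : for `χ : G → ZMod p` additive and `f g = β ^ (χ g).val`: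
  `f g * g(f h) / f (g h) = ζ ^ (κ g * χ h) * (β ^ p) ^ carry (χ g) (χ h)`, i.e.
  `κ ∪ χ` differs from the inverse of the carry cocycle of `b = β ^ p` by a coboundary.
* `lkc_ucoc_norm` : telescoping (variant of `loc_ucoc_coboundary_norm` where Hilbert 90 is only
  assumed for the given cochain).
* `lkc_norm_of_trivial` : if `ζ ^ (κ ∪ χ)` is the coboundary of a finite-level cochain `θ`, then
  `β ^ p = ∏_{k<p} σ^k y` for some `y` fixed by `ker χ` (`χ σ = 1`).
-/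

set_option autoImplicit false

namespace Fermat.Agent.S55

section Telescoping

variable {G A : Type*} [Group G] [CommGroup A] [MulDistribMulAction G A]

/-- Telescoping: if the carry cocycle of a `G`-fixed `a` is the coboundary of `β` and `β` is
a coboundary on `ker χ`, then `a` is the norm (w.r.t. any `σ` with `χ σ = 1`) of a
`ker χ`-fixed element.  (Same proof as `loc_ucoc_coboundary_norm`.) -/
theorem lkc_ucoc_norm {n : ℕ} [NeZero n] (hn : 1 < n) (χ : G → ZMod n)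
    (hχ : ∀ g h, χ (g * h) = χ g + χ h) (σ : G) (hσ : χ σ = 1)
    (a : A)
    (β : G → A) (hβ : ∀ g h, g • β h / β (g * h) * β g = loc_ucoc n χ a (g, h))
    (c : A) (hc : ∀ s, χ s = 0 → β s = s • c / c) :
    ∃ b : A, (∀ s, χ s = 0 → s • b = b) ∧ a = loc_pnorm σ b n := by
  have hχ1 := loc_chi_one χ hχ
  have hfact : Fact (1 < n) := ⟨hn⟩
  -- the corrected cochain
  set β' : G → A := fun g => β g * (c / g • c) with hβ'
  have hβ'd : ∀ g h, g • β' h / β' (g * h) * β' g = loc_ucoc n χ a (g, h) := by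
    intro g h
    rw [← hβ g h]
    simp only [hβ', smul_mul', smul_div', mul_smul]
    rw [div_mul_eq_mul_div, div_mul_eq_mul_div, div_eq_div_iff_mul_eq_mul]
    have e1 : c / (g • h • c) = c * (g • h • c)⁻¹ := div_eq_mul_inv _ _
    have e2 : c / (g • c) = c * (g • c)⁻¹ := div_eq_mul_inv _ _
    have e3 : g • c / (g • h • c) = g • c * (g • h • c)⁻¹ := div_eq_mul_inv _ _
    rw [e1, e2, e3]
    have : g • β h * (g • c * (g • h • c)⁻¹) * (β g * (c * (g • c)⁻¹)) * β (g * h) =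
        g • β h * β g * (β (g * h) * (c * (g • h • c)⁻¹)) * (g • c * (g • c)⁻¹) := by
      simp only [mul_assoc, mul_comm, mul_left_comm]
    rw [this, mul_inv_cancel, mul_one]
  have hβ'1 : ∀ s, χ s = 0 → β' s = 1 := by
    intro s hs
    show β s * (c / s • c) = 1
    rw [hc s hs]
    simp
  have hr : ∀ g s, χ s = 0 → β' (g * s) = β' g := by
    intro g s hs
    have := hβ'd g s
    rw [loc_ucoc_apply, hs, loc_carry_zero_right, pow_zero, hβ'1 s hs, smul_one, one_div,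
      inv_mul_eq_one] at this
    exact this
  have hl : ∀ g s, χ s = 0 → β' (s * g) = s • β' g := by
    intro g s hs
    have := hβ'd s g
    rw [loc_ucoc_apply, hs, loc_carry_zero_left, pow_zero, hβ'1 s hs, mul_one, div_eq_one] at this
    exact this.symm
  have hfix : ∀ g s, χ s = 0 → s • β' g = β' g := by
    intro g s hs
    rw [← hl g s hs]
    have h1 : s * g = g * (g⁻¹ * s * g) := by group
    rw [h1]
    apply hr
    rw [hχ, hχ, loc_chi_inv χ hχ, hs]
    ring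
  refine ⟨β' σ, fun s hs => hfix σ s hs, ?_⟩
  -- induction along powers of σ
  have hind : ∀ k : ℕ, k < n → β' (σ ^ k) = loc_pnorm σ (β' σ) k := by
    intro k
    induction k with
    | zero =>
      intro _
      rw [pow_zero, hβ'1 1 hχ1]
      simp [loc_pnorm]
    | succ k ih =>
      intro hk
      have hk' : k < n := by omega
      have := hβ'd (σ ^ k) σ
      rw [loc_ucoc_apply, loc_chi_pow χ hχ, hσ, mul_one] at this
      have hcz : loc_carry n (k : ZMod n) 1 = 0 := by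
        unfold loc_carry
        rw [if_neg]
        rw [ZMod.val_natCast, Nat.mod_eq_of_lt hk', ZMod.val_one]
        omega
      rw [hcz, pow_zero, div_mul_eq_mul_div, div_eq_one, ih hk', ← pow_succ] at this
      rw [← this, loc_pnorm, loc_pnorm, Finset.prod_range_succ, mul_comm]
  obtain ⟨m, rfl⟩ : ∃ m, n = m + 1 := ⟨n - 1, by have := NeZero.ne n; omega⟩
  have := hβ'd (σ ^ m) σ
  rw [loc_ucoc_apply, loc_chi_pow χ hχ, hσ, mul_one] at this
  have hcz : loc_carry (m + 1) (m : ZMod (m + 1)) 1 = 1 := by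
    unfold loc_carry
    rw [if_pos]
    rw [ZMod.val_natCast, Nat.mod_eq_of_lt (by omega), ZMod.val_one]
  rw [hcz, pow_one, ← pow_succ, hind m (by omega)] at this
  have h0 : β' (σ ^ (m + 1)) = 1 := hβ'1 _ (by
    rw [loc_chi_pow χ hχ, hσ, mul_one]
    exact ZMod.natCast_self (m + 1))
  rw [h0, div_one] at this
  rw [← this, loc_pnorm, loc_pnorm, Finset.prod_range_succ, mul_comm]

end Telescoping

section Kummer

variable {k Ω : Type*} [Field k] [Field Ω] [Algebra k Ω]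
variable {G : Type*} [Group G] (ι : G →* (Ω ≃ₐ[k] Ω))

/-- `ζ ^ a = ζ ^ b` for a primitive `p`-th root of unity forces `(a : ZMod p) = b`. -/
theorem lkc_natCast_eq_of_pow_eq {M : Type*} [CommGroup M] {p : ℕ} {ζ : M}
    (hprim : IsPrimitiveRoot ζ p) {a b : ℕ} (h : ζ ^ a = ζ ^ b) : (a : ZMod p) = (b : ZMod p) := by
  rw [ZMod.natCast_eq_natCast_iff]
  have h1 := pow_eq_pow_iff_modEq.1 h
  rwa [← hprim.eq_orderOf] at h1

/-- **The Kummer character** of `β` with `β ^ p ∈ E`: a finite-level homomorphism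
`κ : G → ZMod p` with `ι g β = ζ ^ κ(g) * β`. -/
theorem lkc_exists_char [Algebra.IsAlgebraic k Ω] (E : IntermediateField k Ω) (p : ℕ) [NeZero p]
    (ζ : Ωˣ) (hζE : (ζ : Ω) ∈ E) (hprim : IsPrimitiveRoot ζ p)
    (hι : ∀ g, ι g ∈ E.fixingSubgroup) (β : Ωˣ) (hβ : (β : Ω) ^ p ∈ E) :
    ∃ κ ∈ lkmHom ι p, ∀ g, Units.map ((ι g : Ω ≃ₐ[k] Ω) : Ω →* Ω) β = ζ ^ (κ g).val * β := by
  classical
  have hfixζ : ∀ g, Units.map ((ι g : Ω ≃ₐ[k] Ω) : Ω →* Ω) ζ = ζ := by
    intro g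
    apply Units.ext
    exact (IntermediateField.mem_fixingSubgroup_iff E (ι g)).1 (hι g) _ hζE
  have hpow : ∀ g, (Units.map ((ι g : Ω ≃ₐ[k] Ω) : Ω →* Ω) β / β) ^ p = 1 := by
    intro g
    have h1 : ι g ((β : Ω) ^ p) = (β : Ω) ^ p :=
      (IntermediateField.mem_fixingSubgroup_iff E (ι g)).1 (hι g) _ hβ
    rw [div_pow, div_eq_one]
    apply Units.ext
    simp only [Units.val_pow_eq_pow_val, Units.coe_map, MonoidHom.coe_coe]
    rw [← map_pow]
    exact h1
  have hprim' : IsPrimitiveRoot (ζ : Ω) p := IsPrimitiveRoot.coe_units_iff.2 hprim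
  have hex : ∀ g, ∃ i < p, ζ ^ i = Units.map ((ι g : Ω ≃ₐ[k] Ω) : Ω →* Ω) β / β := by
    intro g
    obtain ⟨i, hi, h⟩ := hprim'.eq_pow_of_pow_eq_one
      (ξ := ((Units.map ((ι g : Ω ≃ₐ[k] Ω) : Ω →* Ω) β / β : Ωˣ) : Ω))
      (by rw [← Units.val_pow_eq_pow_val, hpow g, Units.val_one])
    exact ⟨i, hi, Units.ext (by rw [Units.val_pow_eq_pow_val, h])⟩
  choose n hn hnζ using hex
  have hkey : ∀ g, Units.map ((ι g : Ω ≃ₐ[k] Ω) : Ω →* Ω) β = ζ ^ n g * β := by
    intro g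
    rw [hnζ g, div_mul_cancel]
  refine ⟨fun g => (n g : ZMod p), ⟨fun g h => ?_, ?_⟩, fun g => ?_⟩
  · -- additivity
    have h1 : ζ ^ n (g * h) * β = ζ ^ (n g + n h) * β := by
      rw [← hkey (g * h), map_mul]
      have : Units.map (((ι g * ι h : Ω ≃ₐ[k] Ω)) : Ω →* Ω) β =
          Units.map ((ι g : Ω ≃ₐ[k] Ω) : Ω →* Ω) (Units.map ((ι h : Ω ≃ₐ[k] Ω) : Ω →* Ω) β) := by
        apply Units.ext
        rfl
      rw [this, hkey h, map_mul, map_pow, hfixζ, hkey g, pow_add]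
      simp only [mul_assoc, mul_comm]
    have h2 := lkc_natCast_eq_of_pow_eq hprim (mul_right_cancel h1)
    show ((n (g * h) : ℕ) : ZMod p) = (n g : ZMod p) + (n h : ZMod p)
    rw [h2, Nat.cast_add]
  · -- level
    have hint : IsIntegral k (β : Ω) := Algebra.IsIntegral.isIntegral _
    refine ⟨IntermediateField.adjoin k {(β : Ω)},
      IntermediateField.adjoin.finiteDimensional hint, fun g s hs => ?_⟩
    have hsβ : ι s (β : Ω) = β :=
      (IntermediateField.mem_fixingSubgroup_iff _ (ι s)).1 hs _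
        (IntermediateField.mem_adjoin_simple_self k _)
    have h1 : ζ ^ n (g * s) * β = ζ ^ n g * β := by
      rw [← hkey (g * s), ← hkey g, map_mul]
      apply Units.ext
      show ι g (ι s (β : Ω)) = ι g β
      rw [hsβ]
    have h2 := hprim.pow_inj (hn (g * s)) (hn g) (mul_right_cancel h1)
    show ((n (g * s) : ℕ) : ZMod p) = n g
    rw [h2]
  · show Units.map ((ι g : Ω ≃ₐ[k] Ω) : Ω →* Ω) β = ζ ^ ((n g : ℕ) : ZMod p).val * β
    rw [ZMod.val_natCast_of_lt (hn g), hkey g]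

/-- **The cup product identity**: with `f g = β ^ (χ g).val`,
`g(f h) / f (g h) * f g = ζ ^ (κ g * χ h) * (β ^ p) ^ carry (χ g) (χ h)`. -/
theorem lkc_cup_identity (p : ℕ) [NeZero p] (ζ : Ωˣ) (hζ : ζ ^ p = 1)
    (χ κ : G → ZMod p) (hχ : ∀ g h, χ (g * h) = χ g + χ h) (β : Ωˣ)
    (hκ : ∀ g, Units.map ((ι g : Ω ≃ₐ[k] Ω) : Ω →* Ω) β = ζ ^ (κ g).val * β) (g h : G) :
    Units.map ((ι g : Ω ≃ₐ[k] Ω) : Ω →* Ω) (β ^ (χ h).val) / β ^ (χ (g * h)).val *
        β ^ (χ g).val = ζ ^ (κ g * χ h).val * loc_ucoc p χ (β ^ p) (g, h) := by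
  have h1 : ζ ^ (κ g * χ h).val = ζ ^ ((κ g).val * (χ h).val) := by
    rw [ZMod.val_mul]
    exact (pow_eq_pow_mod _ hζ).symm
  have h2 := loc_carry_spec p (χ g) (χ h)
  rw [map_pow, hκ g, mul_pow, ← pow_mul, h1, hχ, loc_ucoc_apply, ← pow_mul,
    div_mul_eq_mul_div, mul_assoc, ← pow_add, add_comm (χ h).val, h2, pow_add, mul_div_assoc,
    mul_div_cancel_left]

/-- **From a trivialisation of `κ ∪ χ` to a norm.**  If `ζ ^ (κ g * χ h) = θ g * g(θ h) / θ (g h)`
for a finite-level cochain `θ : G → Ωˣ`, then `β ^ p = ∏_{j<p} σ^j y` for some `y ∈ Ωˣ` fixed by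
`ker χ` (`σ` any element with `χ σ = 1`). -/
theorem lkc_norm_of_trivial [IsGalois k Ω] (p : ℕ) [NeZero p] (hp : 1 < p) (ζ : Ωˣ)
    (hζ : ζ ^ p = 1) (χ κ : G → ZMod p) (hχ : χ ∈ lkmHom ι p) (β : Ωˣ)
    (hκ : ∀ g, Units.map ((ι g : Ω ≃ₐ[k] Ω) : Ω →* Ω) β = ζ ^ (κ g).val * β)
    (σ : G) (hσ : χ σ = 1) (θ : G → Ωˣ)
    (hlev : ∃ M : IntermediateField k Ω, FiniteDimensional k M ∧
      ∀ g s, ι s ∈ M.fixingSubgroup → θ (g * s) = θ g)
    (hθ : ∀ g h, ζ ^ (κ g * χ h).val =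
      θ g * Units.map ((ι g : Ω ≃ₐ[k] Ω) : Ω →* Ω) (θ h) / θ (g * h)) :
    ∃ y : Ωˣ, (∀ s, χ s = 0 → Units.map ((ι s : Ω ≃ₐ[k] Ω) : Ω →* Ω) y = y) ∧
      β ^ p = ∏ j ∈ Finset.range p, Units.map ((ι (σ ^ j) : Ω ≃ₐ[k] Ω) : Ω →* Ω) y := by
  classical
  obtain ⟨hadd, M₁, hM₁fin, hM₁⟩ := hχ
  obtain ⟨M₂, hM₂fin, hM₂⟩ := hlev
  let _ : MulDistribMulAction G Ωˣ := MulDistribMulAction.compHom Ωˣ ι
  have hsmul : ∀ (g : G) (u : Ωˣ), g • u = Units.map ((ι g : Ω ≃ₐ[k] Ω) : Ω →* Ω) u :=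
    fun g u => rfl
  -- the cochain `β' = f / θ`
  set β' : G → Ωˣ := fun g => β ^ (χ g).val / θ g with hβ'
  have hβ'd : ∀ g h, g • β' h / β' (g * h) * β' g = loc_ucoc p χ (β ^ p) (g, h) := by
    intro g h
    have h1 := lkc_cup_identity ι p ζ hζ χ κ hadd β hκ g h
    have h2 := hθ g h
    simp only [hβ', hsmul, map_div]
    have h3 : Units.map ((ι g : Ω ≃ₐ[k] Ω) : Ω →* Ω) (β ^ (χ h).val) /
          Units.map ((ι g : Ω ≃ₐ[k] Ω) : Ω →* Ω) (θ h) /
          (β ^ (χ (g * h)).val / θ (g * h)) * (β ^ (χ g).val / θ g) =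
        (Units.map ((ι g : Ω ≃ₐ[k] Ω) : Ω →* Ω) (β ^ (χ h).val) / β ^ (χ (g * h)).val *
          β ^ (χ g).val) /
        (θ g * Units.map ((ι g : Ω ≃ₐ[k] Ω) : Ω →* Ω) (θ h) / θ (g * h)) := by
      simp only [div_eq_mul_inv, mul_inv_rev, inv_inv]
      simp only [mul_assoc, mul_comm, mul_left_comm]
    rw [h3, h1, ← h2, mul_div_cancel_left]
  -- `β'` is finite-level
  have hβ'lev : ∀ g s, ι s ∈ (M₁ ⊔ M₂).fixingSubgroup → β' (g * s) = β' g := by
    intro g s hs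
    have hs1 : ι s ∈ M₁.fixingSubgroup :=
      IntermediateField.fixingSubgroup_antitone le_sup_left hs
    have hs2 : ι s ∈ M₂.fixingSubgroup :=
      IntermediateField.fixingSubgroup_antitone le_sup_right hs
    simp only [hβ', hM₁ g s hs1, hM₂ g s hs2]
  -- Hilbert 90 on `ker χ`
  let N : Subgroup G :=
    { carrier := {s | χ s = 0}
      mul_mem' := fun {a b} ha hb => by
        show χ (a * b) = 0
        rw [hadd, show χ a = 0 from ha, show χ b = 0 from hb, add_zero]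
      one_mem' := loc_chi_one χ hadd
      inv_mem' := fun {a} ha => by
        show χ a⁻¹ = 0
        rw [loc_chi_inv χ hadd, show χ a = 0 from ha, neg_zero] }
  let E' : IntermediateField k Ω := IntermediateField.fixedField (N.map ι)
  have hE' : ∀ s : N, (ι.comp N.subtype) s ∈ E'.fixingSubgroup := by
    intro s
    rw [IntermediateField.mem_fixingSubgroup_iff]
    intro x hx
    exact (IntermediateField.mem_fixedField_iff _ x).1 hx _ ⟨s.1, s.2, rfl⟩
  have : FiniteDimensional k ↥(M₁ ⊔ M₂) := IntermediateField.finiteDimensional_sup M₁ M₂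
  obtain ⟨α, hα⟩ := linf_descent (ι.comp N.subtype) E' (fun s : N => β' s.1)
    ⟨M₁ ⊔ M₂, inferInstance, fun g s hs => hβ'lev g.1 s.1 hs⟩
    (fun s t _ _ => by
      have h1 := hβ'd s.1 t.1
      have hs0 : χ s.1 = 0 := s.2
      have ht0 : χ t.1 = 0 := t.2
      rw [loc_ucoc_apply, hs0, ht0, loc_carry_zero_left, pow_zero, div_mul_eq_mul_div,
        div_eq_one, hsmul] at h1
      show β' (s.1 * t.1) = β' s.1 * Units.map ((ι s.1 : Ω ≃ₐ[k] Ω) : Ω →* Ω) (β' t.1)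
      rw [← h1, mul_comm])
  have hc : ∀ s, χ s = 0 → β' s = s • α / α := by
    intro s hs
    exact hα ⟨s, hs⟩ (hE' ⟨s, hs⟩)
  obtain ⟨y, hy, hnorm⟩ := lkc_ucoc_norm hp χ hadd σ hσ (β ^ p) β' hβ'd α hc
  exact ⟨y, fun s hs => hy s hs, hnorm⟩

end Kummer

end Fermat.Agent.S55
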