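import Mathlib
import Fermat.Agent.S55.LocKumCup
import Fermat.Agent.S55.LocNormIndex
import Fermat.Agent.S55.LocUB
import Fermat.Agent.S55.LocInfNorm
import Fermat.Agent.S55.LocBridge

/-!
# S55, block LOC, piece LP-c (part 2): a non-norm for the cyclic extension cut out by `χ`

`E` a finite extension of `ℚ_q` inside `Ω = PadicAlgCl q`, `ι : G →* Gal(Ω/ℚ_q)` with image
`Gal(Ω/E)`, `χ : G → ZMod p` a finite-level homomorphism with `χ σ = 1`.  The fixed field `L` of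
`ker χ` is a cyclic extension of `E` of degree `p`, generated by `σ`; by the local norm index
theorem (`loc_exists_not_norm`) some `b ∈ Eˣ` is not a norm from `L`:

`lkc_exists_not_norm` : `∃ b ∈ Eˣ, ∀ y ∈ Ωˣ` fixed by `ker χ`, `b ≠ ∏_{j<p} σ^j y`.
-/

set_option autoImplicit false

namespace Fermat.Agent.S55

/-- `loc_exists_not_norm` for an intermediate field of a normed extension. -/
theorem lkc_not_norm_IF {K Ω : Type} [NontriviallyNormedField K] [IsUltrametricDist K]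
    [ProperSpace K] [NormedField Ω] [NormedAlgebra K Ω] (L : IntermediateField K Ω)
    [FiniteDimensional K L] [IsGalois K L] (σ : L ≃ₐ[K] L)
    (hσ : ∀ τ, τ ∈ Subgroup.zpowers σ) (hn : Module.finrank K L ≠ 1) :
    ∃ b : Kˣ, ∀ y : (↥L)ˣ, Algebra.norm K (y : ↥L) ≠ b :=
  loc_exists_not_norm σ hσ hn

section

variable (q : ℕ) [Fact q.Prime]

local notation "Ω" => PadicAlgCl q

set_option maxHeartbeats 1000000 in
/-- **A non-norm.** -/
theorem lkc_exists_not_norm (p : ℕ) [Fact p.Prime]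
    (E : IntermediateField ℚ_[q] Ω) [FiniteDimensional ℚ_[q] E]
    {G : Type*} [Group G] (ι : G →* (Ω ≃ₐ[ℚ_[q]] Ω))
    (hι : ∀ g, ι g ∈ E.fixingSubgroup) (hsurj : ∀ τ ∈ E.fixingSubgroup, ∃ g, ι g = τ)
    (χ : G → ZMod p) (hχ : χ ∈ lkmHom ι p) (σ : G) (hσ : χ σ = 1) :
    ∃ b : Ωˣ, (b : Ω) ∈ E ∧
      ∀ y : Ωˣ, (∀ s, χ s = 0 → Units.map ((ι s : Ω ≃ₐ[ℚ_[q]] Ω) : Ω →* Ω) y = y) →
        b ≠ ∏ j ∈ Finset.range p, Units.map ((ι (σ ^ j) : Ω ≃ₐ[ℚ_[q]] Ω) : Ω →* Ω) y := by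
  classical
  obtain ⟨hadd, M, hMfin, hM⟩ := hχ
  have hp : p.Prime := Fact.out
  -- the homomorphism to `Gal(Ω/E)`
  let ιE : G →* (Ω ≃ₐ[↥E] Ω) :=
    (E.fixingSubgroupEquiv : ↥E.fixingSubgroup →* (Ω ≃ₐ[↥E] Ω)).comp
      (ι.codRestrict E.fixingSubgroup hι)
  have hιE : ∀ g (x : Ω), ιE g x = ι g x := fun g x => rfl
  have hιEsurj : Function.Surjective ιE := by
    intro γ
    obtain ⟨g, hg⟩ := hsurj (E.fixingSubgroupEquiv.symm γ).1 (E.fixingSubgroupEquiv.symm γ).2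
    refine ⟨g, ?_⟩
    apply AlgEquiv.ext
    intro x
    rw [hιE, hg]
    rfl
  -- `χ` only depends on `ιE`
  have hχ_of_eq : ∀ g g', ιE g = ιE g' → χ g = χ g' := by
    intro g g' h
    have h1 : ι (g'⁻¹ * g) ∈ M.fixingSubgroup := by
      rw [IntermediateField.mem_fixingSubgroup_iff]
      intro x _
      rw [map_mul, map_inv, AlgEquiv.mul_apply, ← hιE g x, h, hιE]
      exact (ι g').symm_apply_apply x
    have h2 := hM g' (g'⁻¹ * g) h1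
    rw [mul_inv_cancel_left] at h2
    exact h2
  -- `N = ker χ`
  let N : Subgroup G :=
    { carrier := {s | χ s = 0}
      mul_mem' := fun {a b} ha hb => by
        show χ (a * b) = 0
        rw [hadd, show χ a = 0 from ha, show χ b = 0 from hb, add_zero]
      one_mem' := loc_chi_one χ hadd
      inv_mem' := fun {a} ha => by
        show χ a⁻¹ = 0
        rw [loc_chi_inv χ hadd, show χ a = 0 from ha, neg_zero] }
  have hNnormal : N.Normal := ⟨fun s hs g => by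
    show χ (g * s * g⁻¹) = 0
    rw [hadd, hadd, loc_chi_inv χ hadd, show χ s = 0 from hs]
    ring⟩
  let H₂ : Subgroup (Ω ≃ₐ[↥E] Ω) := N.map ιE
  have hH₂normal : H₂.Normal := hNnormal.map ιE hιEsurj
  have hmemH₂ : ∀ g, ιE g ∈ H₂ ↔ χ g = 0 := by
    intro g
    constructor
    · rintro ⟨s, hs, hsg⟩
      rw [← hχ_of_eq s g hsg]
      exact hs
    · intro h
      exact ⟨g, h, rfl⟩
  -- `H₂` is open
  obtain ⟨t, ht⟩ := brl_fg M
  let M₂ : IntermediateField ↥E Ω := IntermediateField.adjoin ↥E (t : Set Ω)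
  have hM₂fin : FiniteDimensional ↥E M₂ :=
    IntermediateField.finiteDimensional_adjoin (fun x _ => Algebra.IsIntegral.isIntegral x)
  have hM₂le : M₂.fixingSubgroup ≤ H₂ := by
    intro γ hγ
    obtain ⟨s, rfl⟩ := hιEsurj γ
    rw [hmemH₂]
    have h1 : ι s ∈ M.fixingSubgroup := by
      rw [IntermediateField.mem_fixingSubgroup_iff, ← ht]
      refine brl_fixes_adjoin (ι s) _ (fun x hx => ?_)
      exact (IntermediateField.mem_fixingSubgroup_iff M₂ (ιE s)).1 hγ x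
        (IntermediateField.subset_adjoin ↥E _ hx)
    have h2 := hM 1 s h1
    rw [one_mul, loc_chi_one χ hadd] at h2
    exact h2
  have hopen : IsOpen (H₂ : Set (Ω ≃ₐ[↥E] Ω)) :=
    Subgroup.isOpen_mono hM₂le M₂.fixingSubgroup_isOpen
  have hclosed : IsClosed (H₂ : Set (Ω ≃ₐ[↥E] Ω)) := Subgroup.isClosed_of_isOpen H₂ hopen
  let L₂ : IntermediateField ↥E Ω := IntermediateField.fixedField H₂
  have hfix : L₂.fixingSubgroup = H₂ := InfiniteGalois.fixingSubgroup_fixedField ⟨H₂, hclosed⟩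
  have hL₂fin : FiniteDimensional ↥E L₂ := by
    refine (InfiniteGalois.isOpen_iff_finite L₂).1 ?_
    rw [hfix]
    exact hopen
  have hL₂gal : IsGalois ↥E L₂ := by
    refine (InfiniteGalois.normal_iff_isGalois L₂).1 ?_
    rw [hfix]
    exact hH₂normal
  -- the Galois group of `L₂ / E`
  let res : (Ω ≃ₐ[↥E] Ω) →* (L₂ ≃ₐ[↥E] L₂) := AlgEquiv.restrictNormalHom L₂
  have hres_surj : Function.Surjective res := AlgEquiv.restrictNormalHom_surjective Ω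
  have hker : ∀ γ, res γ = 1 ↔ γ ∈ H₂ := by
    intro γ
    rw [← hfix, ← IntermediateField.restrictNormalHom_ker]
    exact MonoidHom.mem_ker.symm
  let σ₂ : L₂ ≃ₐ[↥E] L₂ := res (ιE σ)
  have hgen : ∀ τ, τ ∈ Subgroup.zpowers σ₂ := by
    intro τ
    obtain ⟨γ, rfl⟩ := hres_surj τ
    obtain ⟨g, rfl⟩ := hιEsurj γ
    have hs : χ ((σ ^ (χ g).val)⁻¹ * g) = 0 := by
      rw [hadd, loc_chi_inv χ hadd, loc_chi_pow χ hadd, hσ, mul_one, ZMod.natCast_zmod_val]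
      ring
    have h1 : res (ιE ((σ ^ (χ g).val)⁻¹ * g)) = 1 := (hker _).2 ((hmemH₂ _).2 hs)
    rw [map_mul, map_mul, map_inv, map_inv, map_pow, map_pow, inv_mul_eq_one] at h1
    rw [← h1]
    exact Subgroup.pow_mem _ (Subgroup.mem_zpowers σ₂) _
  have hσ₂ne : σ₂ ≠ 1 := by
    intro h
    have := (hmemH₂ σ).1 ((hker _).1 h)
    rw [hσ] at this
    exact one_ne_zero this
  have hσ₂pow : σ₂ ^ p = 1 := by
    show res (ιE σ) ^ p = 1
    rw [← map_pow, ← map_pow]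
    apply (hker _).2
    apply (hmemH₂ _).2
    rw [loc_chi_pow χ hadd, hσ, mul_one]
    exact ZMod.natCast_self p
  have hord : orderOf σ₂ = p := orderOf_eq_prime hσ₂pow hσ₂ne
  have hcard : Nat.card (L₂ ≃ₐ[↥E] L₂) = p := by
    rw [← orderOf_eq_card_of_forall_mem_zpowers hgen, hord]
  have hfinrank : Module.finrank ↥E L₂ ≠ 1 := by
    rw [← IsGalois.card_aut_eq_finrank, hcard]
    exact hp.ne_one
  have : ProperSpace ↥E := FiniteDimensional.proper ℚ_[q] ↥E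
  obtain ⟨b, hb⟩ :=
    @lkc_not_norm_IF ↥E Ω _ _ _ _ (loc_normedAlgebraIF E) L₂ _ _ σ₂ hgen hfinrank
  refine ⟨Units.map (algebraMap ↥E Ω : ↥E →* Ω) b, (b : ↥E).2, fun y hy hby => ?_⟩
  -- `y ∈ L₂`
  have hyL : (y : Ω) ∈ L₂ := by
    rw [IntermediateField.mem_fixedField_iff]
    rintro γ ⟨s, hs, rfl⟩
    exact congrArg Units.val (hy s hs)
  let y₂ : (↥L₂)ˣ := Units.mk0 ⟨(y : Ω), hyL⟩
    (fun h0 => Units.ne_zero y (congrArg Subtype.val h0))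
  apply hb y₂
  have h1 := Algebra.norm_eq_prod_automorphisms ↥E ((y₂ : (↥L₂)ˣ) : ↥L₂)
  rw [linf_prod_pow σ₂ hgen, ← Nat.card_eq_fintype_card, hcard] at h1
  have h2 := congrArg (fun z : ↥L₂ => (z : Ω)) h1
  have h3 := congrArg Units.val hby
  simp only [Units.coe_map, MonoidHom.coe_coe, Units.coe_prod] at h3
  apply Subtype.ext
  have h4 : ((algebraMap ↥E ↥L₂ (Algebra.norm ↥E ((y₂ : (↥L₂)ˣ) : ↥L₂)) : ↥L₂) : Ω) =
      ((Algebra.norm ↥E ((y₂ : (↥L₂)ˣ) : ↥L₂) : ↥E) : Ω) := rfl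
  have h5 : ((∏ i ∈ Finset.range p, (σ₂ ^ i) ((y₂ : (↥L₂)ˣ) : ↥L₂) : ↥L₂) : Ω) =
      ∏ i ∈ Finset.range p, ι (σ ^ i) (y : Ω) := by
    show L₂.val (∏ i ∈ Finset.range p, (σ₂ ^ i) ((y₂ : (↥L₂)ˣ) : ↥L₂)) = _
    rw [map_prod]
    refine Finset.prod_congr rfl fun i _ => ?_
    have h6 : σ₂ ^ i = res (ιE (σ ^ i)) := by
      show res (ιE σ) ^ i = res (ιE (σ ^ i))
      rw [map_pow, map_pow]
    rw [h6]
    exact AlgEquiv.restrictNormal_commutes (ιE (σ ^ i)) L₂ ((y₂ : (↥L₂)ˣ) : ↥L₂)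
  show ((Algebra.norm ↥E ((y₂ : (↥L₂)ˣ) : ↥L₂) : ↥E) : Ω) = ((b : ↥E) : Ω)
  rw [← h4]
  have h7 : ((algebraMap ↥E ↥L₂ (Algebra.norm ↥E ((y₂ : (↥L₂)ˣ) : ↥L₂)) : ↥L₂) : Ω) =
      ((∏ i ∈ Finset.range p, (σ₂ ^ i) ((y₂ : (↥L₂)ˣ) : ↥L₂) : ↥L₂) : Ω) := h2
  rw [h7, h5]
  exact h3.symm

/-- **(LP-c) Local pairing nondegeneracy.**  `E ∋ ζ_p` a finite extension of `ℚ_q`, `χ ≠ 0` a
finite-level character of `G_E`.  Then there is a finite-level (Kummer) character `κ` such that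
the cup product `κ ∪ χ : (g, h) ↦ κ(g) χ(h)`, pushed to `Ωˣ` by `ζ`, is not the coboundary of any
finite-level cochain `θ : G → Ωˣ`. -/
theorem lkc_cup_ne (p : ℕ) [Fact p.Prime]
    (E : IntermediateField ℚ_[q] Ω) [FiniteDimensional ℚ_[q] E]
    (ζ : Ωˣ) (hζE : (ζ : Ω) ∈ E) (hprim : IsPrimitiveRoot ζ p)
    {G : Type*} [Group G] (ι : G →* (Ω ≃ₐ[ℚ_[q]] Ω))
    (hι : ∀ g, ι g ∈ E.fixingSubgroup) (hsurj : ∀ τ ∈ E.fixingSubgroup, ∃ g, ι g = τ)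
    (χ : G → ZMod p) (hχ : χ ∈ lkmHom ι p) (hne : χ ≠ 0) :
    ∃ κ ∈ lkmHom ι p, ¬ ∃ θ : G → Ωˣ,
      (∃ M : IntermediateField ℚ_[q] Ω, FiniteDimensional ℚ_[q] M ∧
        ∀ g s, ι s ∈ M.fixingSubgroup → θ (g * s) = θ g) ∧
      ∀ g h, ζ ^ (κ g * χ h).val =
        θ g * Units.map ((ι g : Ω ≃ₐ[ℚ_[q]] Ω) : Ω →* Ω) (θ h) / θ (g * h) := by
  have hp : p.Prime := Fact.out
  have hadd := hχ.1
  -- an element with `χ σ = 1`
  obtain ⟨g₀, hg₀⟩ : ∃ g₀, χ g₀ ≠ 0 := by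
    by_contra hcon
    push Not at hcon
    exact hne (funext hcon)
  obtain ⟨σ, hσ⟩ : ∃ σ, χ σ = 1 := by
    refine ⟨g₀ ^ ((χ g₀)⁻¹).val, ?_⟩
    rw [loc_chi_pow χ hadd, ZMod.natCast_zmod_val, inv_mul_cancel₀ hg₀]
  obtain ⟨b, hbE, hb⟩ := lkc_exists_not_norm q p E ι hι hsurj χ hχ σ hσ
  -- a `p`-th root of `b`
  obtain ⟨β₀, hβ₀⟩ := IsAlgClosed.exists_pow_nat_eq (b : Ω) hp.pos
  have hβ₀ne : β₀ ≠ 0 := by
    intro h
    rw [h, zero_pow hp.ne_zero] at hβ₀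
    exact Units.ne_zero b hβ₀.symm
  let β : Ωˣ := Units.mk0 β₀ hβ₀ne
  have hβb : β ^ p = b := Units.ext (by rw [Units.val_pow_eq_pow_val]; exact hβ₀)
  have hβE : (β : Ω) ^ p ∈ E := by
    show β₀ ^ p ∈ E
    rw [hβ₀]
    exact hbE
  obtain ⟨κ, hκmem, hκ⟩ := lkc_exists_char ι E p ζ hζE hprim hι β hβE
  refine ⟨κ, hκmem, ?_⟩
  rintro ⟨θ, hlev, hθ⟩
  obtain ⟨y, hy, hnorm⟩ := lkc_norm_of_trivial ι p hp.one_lt ζ hprim.pow_eq_one χ κ hχ β hκ σ hσ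
    θ hlev hθ
  exact hb y hy (hβb ▸ hnorm)

end

end Fermat.Agent.S55
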