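import Fermat.Agent.S55.LocKumCupPlaces
import Fermat.Agent.S55.HcCup

/-!
# S55, block LOC, piece [LC4]: local pairing nondegeneracy for level cochains

`lkc_cup11_notin_range` : in the setting of `lkm_finrank_Z1_le` (`G` a group with
`ι : G →* Gal(ℚ̄_q/ℚ_q)` of image `Gal(ℚ̄_q/E)`, `E ∋ ζ_p`, level structure `L` on `G` equivalent to
the finite levels), for trivial representations `ρ`, `ρT` of `G` on `ZMod p` and
`φ = multiplication`: every nonzero level 1-cocycle `χ` admits a level 1-cocycle `ψ` with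
`ψ ∪ χ ∉ range (hc_d12 L ρT)` (the cup product is not a level coboundary).
-/

set_option autoImplicit false

namespace Fermat.Agent.S55

section

variable (q : ℕ) [Fact q.Prime]

local notation "Ω" => PadicAlgCl q

/-- **[LC4]** for level cochains. -/
theorem lkc_cup11_notin_range (p : ℕ) [Fact p.Prime]
    (E : IntermediateField ℚ_[q] Ω) [FiniteDimensional ℚ_[q] E]
    (ζ : Ωˣ) (hζE : (ζ : Ω) ∈ E) (hprim : IsPrimitiveRoot ζ p)
    {G : Type*} [Group G] (ι : G →* (Ω ≃ₐ[ℚ_[q]] Ω))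
    (hι : ∀ g, ι g ∈ E.fixingSubgroup) (hsurj : ∀ τ ∈ E.fixingSubgroup, ∃ g, ι g = τ)
    (L : hc_Lev G)
    (hL : ∀ N ∈ L.S, ∃ M : IntermediateField ℚ_[q] Ω,
      FiniteDimensional ℚ_[q] M ∧ M.fixingSubgroup.comap ι ≤ N)
    (hL' : ∀ M : IntermediateField ℚ_[q] Ω, FiniteDimensional ℚ_[q] M →
      ∃ N ∈ L.S, N ≤ M.fixingSubgroup.comap ι)
    (ρ ρT : Representation (ZMod p) G (ZMod p)) (hρ : ∀ g c, ρ g c = c)
    (hρT : ∀ g c, ρT g c = c)
    (hφ : ∀ g a b, LinearMap.mul (ZMod p) (ZMod p) (ρ g a) (ρ g b) =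
      ρT g (LinearMap.mul (ZMod p) (ZMod p) a b))
    (χ : hc_C1 L ρ) (hχ : hc_d12 L ρ χ = 0) (hne : χ ≠ 0) :
    ∃ ψ : hc_C1 L ρ, hc_d12 L ρ ψ = 0 ∧
      hc_cup11 L hφ ψ χ ∉ LinearMap.range (hc_d12 L ρT) := by
  classical
  have hp : p.Prime := Fact.out
  have : NeZero p := ⟨hp.ne_zero⟩
  -- `χ` is a finite-level character
  have hχadd : ∀ g h, (χ : G → ZMod p) (g * h) = (χ : G → ZMod p) g + (χ : G → ZMod p) h := by
    intro g h
    have h1 := congrFun (congrArg Subtype.val hχ) (g, h)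
    simp only [hc_d12_coe, hc_d12f, LinearMap.coe_mk, AddHom.coe_mk, hρ] at h1
    have h2 : (χ : G → ZMod p) h - (χ : G → ZMod p) (g * h) + (χ : G → ZMod p) g = 0 := h1
    rw [sub_add_eq_add_sub, sub_eq_zero] at h2
    rw [← h2, add_comm]
  have hχmem : (χ : G → ZMod p) ∈ lkmHom ι p := by
    obtain ⟨N, hN, hlev⟩ := χ.2
    obtain ⟨M, hMfin, hM⟩ := hL N hN
    exact ⟨hχadd, M, hMfin, fun g s hs => hlev.1 g s (hM hs)⟩
  have hχne : (χ : G → ZMod p) ≠ 0 := fun h => hne (Subtype.ext h)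
  obtain ⟨κ, ⟨hκadd, Mκ, hMκfin, hMκ⟩, hκ⟩ :=
    lkc_cup_ne q p E ζ hζE hprim ι hι hsurj (χ : G → ZMod p) hχmem hχne
  -- `κ` as a level cochain
  obtain ⟨Nκ, hNκ, hNκle⟩ := hL' Mκ hMκfin
  have hκlev : κ ∈ hc_C1 L ρ :=
    ⟨Nκ, hNκ, fun g s hs => hMκ g s (hNκle hs), fun x s _ => hρ s (κ x)⟩
  refine ⟨⟨κ, hκlev⟩, ?_, ?_⟩
  · apply Subtype.ext
    funext x
    show ρ x.1 (κ x.2) - κ (x.1 * x.2) + κ x.1 = 0
    rw [hρ, hκadd]
    ring
  · rintro ⟨c, hc⟩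
    apply hκ
    obtain ⟨Nc, hNc, hclev⟩ := c.2
    obtain ⟨Mc, hMcfin, hMc⟩ := hL Nc hNc
    have hfixζ : ∀ g, Units.map ((ι g : Ω ≃ₐ[ℚ_[q]] Ω) : Ω →* Ω) ζ = ζ := by
      intro g
      apply Units.ext
      exact (IntermediateField.mem_fixingSubgroup_iff E (ι g)).1 (hι g) _ hζE
    have hpt : ∀ g h, κ g * (χ : G → ZMod p) h + (c : G → ZMod p) (g * h) =
        (c : G → ZMod p) g + (c : G → ZMod p) h := by
      intro g h
      have h1 := congrFun (congrArg Subtype.val hc) (g, h)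
      have h2 : ρT g ((c : G → ZMod p) h) - (c : G → ZMod p) (g * h) + (c : G → ZMod p) g =
          κ g * ρ g ((χ : G → ZMod p) h) := h1
      rw [hρT, hρ] at h2
      rw [← h2]
      ring
    refine ⟨fun g => ζ ^ ((c : G → ZMod p) g).val, ⟨Mc, hMcfin, fun g s hs => ?_⟩, fun g h => ?_⟩
    · show ζ ^ ((c : G → ZMod p) (g * s)).val = ζ ^ ((c : G → ZMod p) g).val
      rw [hclev.1 g s (hMc hs)]
    · rw [map_pow, hfixζ, eq_div_iff_mul_eq'', ← lkm_pow_val_add hprim.pow_eq_one,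
        ← lkm_pow_val_add hprim.pow_eq_one, add_comm, hpt]

/-- The levels induced on a subgroup of the local Galois group are cofinal among the fixing
subgroups of finite extensions. -/
theorem lkc_levSub_cofinal (K : Subgroup (PadicAlgCl q ≃ₐ[ℚ_[q]] PadicAlgCl q))
    (M : IntermediateField ℚ_[q] (PadicAlgCl q)) [FiniteDimensional ℚ_[q] M] :
    ∃ N ∈ (shapLevSub (pt_localLev (localGaloisToGlobal q)) K).S,
      N ≤ M.fixingSubgroup.comap K.subtype := by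
  obtain ⟨F, hF, hFg, hle⟩ := brl_exists_le_locField q M
  refine ⟨(F.fixingSubgroup.comap (localGaloisToGlobal q)).subgroupOf K,
    ⟨_, ⟨F, hF, hFg, rfl⟩, rfl⟩, fun x hx => ?_⟩
  have h1 : (x : PadicAlgCl q ≃ₐ[ℚ_[q]] PadicAlgCl q) ∈
      F.fixingSubgroup.comap (localGaloisToGlobal q) := Subgroup.mem_subgroupOf.1 hx
  rw [brl_comap_fixingSubgroup] at h1
  exact IntermediateField.fixingSubgroup_antitone hle h1

end

section Places

local notation "Qb" => AlgebraicClosure ℚ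
local notation "Γ" => (AlgebraicClosure ℚ ≃ₐ[ℚ] AlgebraicClosure ℚ)

variable (q : ℕ) [Fact q.Prime]

/-- **[LC4] at a place of `k`.**  `k ∋ ζ_p` a number field, `D` a double coset decomposition of
`Gal(ℚ̄/k) \ Γ / ι_q(G_q)`, `a` a place of `k` above `q` with local group `D.Ha a ≤ G_q`,
`ρ`, `ρT` trivial representations of `D.Ha a` on `ZMod p`: every nonzero level 1-cocycle `χ`
admits a level 1-cocycle `ψ` with `ψ ∪ χ` not a level coboundary. -/
theorem lkc_cup11_notin_range_Ha (p : ℕ) [Fact p.Prime] (k : IntermediateField ℚ Qb)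
    [FiniteDimensional ℚ k] (ζ : Qb) (hζk : ζ ∈ k) (hprim : IsPrimitiveRoot ζ p) {W : Type*}
    (D : ShlDec (localGaloisToGlobal q) k.fixingSubgroup W) (a : W)
    (ρ ρT : Representation (ZMod p) ↥(D.Ha a) (ZMod p)) (hρ : ∀ g c, ρ g c = c)
    (hρT : ∀ g c, ρT g c = c)
    (hφ : ∀ g a b, LinearMap.mul (ZMod p) (ZMod p) (ρ g a) (ρ g b) =
      ρT g (LinearMap.mul (ZMod p) (ZMod p) a b))
    (χ : hc_C1 (shapLevSub (pt_localLev (localGaloisToGlobal q)) (D.Ha a)) ρ)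
    (hχ : hc_d12 (shapLevSub (pt_localLev (localGaloisToGlobal q)) (D.Ha a)) ρ χ = 0)
    (hne : χ ≠ 0) :
    ∃ ψ : hc_C1 (shapLevSub (pt_localLev (localGaloisToGlobal q)) (D.Ha a)) ρ,
      hc_d12 (shapLevSub (pt_localLev (localGaloisToGlobal q)) (D.Ha a)) ρ ψ = 0 ∧
      hc_cup11 (shapLevSub (pt_localLev (localGaloisToGlobal q)) (D.Ha a)) hφ ψ χ ∉
        LinearMap.range
          (hc_d12 (shapLevSub (pt_localLev (localGaloisToGlobal q)) (D.Ha a)) ρT) := by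
  have hfd := lkm_finiteDimensional_locField q k (D.g a)
  have hHa := lkm_Ha_eq q k D a
  have hζE : padicEmbedding q ((D.g a)⁻¹ ζ) ∈
      brl_locField q (k.map ((D.g a)⁻¹ : Γ).toAlgHom) :=
    brl_mem_locField q ⟨ζ, hζk, rfl⟩
  have hprim' : IsPrimitiveRoot (padicEmbedding q ((D.g a)⁻¹ ζ)) p :=
    lkc_isPrimitiveRoot_loc q hprim (D.g a)
  have hp : p.Prime := Fact.out
  have hunit : IsUnit (padicEmbedding q ((D.g a)⁻¹ ζ)) := hprim'.isUnit hp.ne_zero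
  obtain ⟨ζa, hζa⟩ := hunit
  have hprim'' : IsPrimitiveRoot ζa p := by
    rw [← IsPrimitiveRoot.coe_units_iff, hζa]
    exact hprim'
  exact lkc_cup11_notin_range q p (brl_locField q (k.map ((D.g a)⁻¹ : Γ).toAlgHom)) ζa
    (by rw [hζa]; exact hζE) hprim'' (D.Ha a).subtype
    (fun g => by rw [← hHa]; exact g.2)
    (fun σ hσ => ⟨⟨σ, by rw [hHa]; exact hσ⟩, rfl⟩)
    (shapLevSub (pt_localLev (localGaloisToGlobal q)) (D.Ha a))
    (fun N hN => lkm_levSub_open q (D.Ha a) N hN)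
    (fun M hM => lkc_levSub_cofinal q (D.Ha a) M) ρ ρT hρ hρT hφ χ hχ hne

end Places

end Fermat.Agent.S55
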