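import Mathlib
import Fermat.Agent.S55.LocKum
import Fermat.Agent.S55.HcCochain

/-!
# S55, block LOC, piece LP4 (continued): the local Kummer bound for level cocycles

`lkm_finrank_Z1_le` : let `E` be a finite extension of `ℚ_q` inside `PadicAlgCl q` containing a
primitive `p`-th root of unity, `G` a group with `ι : G →* Gal(ℚ̄_q/ℚ_q)` of image `Gal(ℚ̄_q/E)`,
`L` a level structure on `G` all of whose levels are open (contain `ι⁻¹ Gal(ℚ̄_q/M)` for a finite
`M/ℚ_q`), and `A` a finite-dimensional `𝔽_p`-vector space with trivial `G`-action `ρ`.  Then the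
space of level 1-cocycles `ker (hc_d12 L ρ)` is finite-dimensional of dimension at most
`(2 + δ) * dim A`, where `δ = [E : ℚ_q]` if `p = q` and `δ = 0` otherwise.
-/

set_option autoImplicit false

namespace Fermat.Agent.S55

/-- **Local Kummer bound for level 1-cocycles with trivial coefficients.** -/
theorem lkm_finrank_Z1_le (q : ℕ) [Fact q.Prime] (p : ℕ) [Fact p.Prime]
    (E : IntermediateField ℚ_[q] (PadicAlgCl q)) [FiniteDimensional ℚ_[q] E]
    (ζ : PadicAlgCl q) (hζE : ζ ∈ E) (hprim : IsPrimitiveRoot ζ p)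
    {G : Type*} [Group G] (ι : G →* (PadicAlgCl q ≃ₐ[ℚ_[q]] PadicAlgCl q))
    (hι : ∀ g, ι g ∈ E.fixingSubgroup) (hsurj : ∀ σ ∈ E.fixingSubgroup, ∃ g, ι g = σ)
    (L : hc_Lev G)
    (hL : ∀ N ∈ L.S, ∃ M : IntermediateField ℚ_[q] (PadicAlgCl q),
      FiniteDimensional ℚ_[q] M ∧ M.fixingSubgroup.comap ι ≤ N)
    {A : Type*} [AddCommGroup A] [Module (ZMod p) A] [Module.Finite (ZMod p) A]
    (ρ : Representation (ZMod p) G A) (hρ : ∀ g a, ρ g a = a) :
    Module.Finite (ZMod p) ↥(LinearMap.ker (hc_d12 L ρ)) ∧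
      Module.finrank (ZMod p) ↥(LinearMap.ker (hc_d12 L ρ)) ≤
        (2 + if p = q then Module.finrank ℚ_[q] E else 0) * Module.finrank (ZMod p) A := by
  classical
  have hp : p.Prime := Fact.out
  obtain ⟨hfin, hcard⟩ := lkm_card_le q p hp E ζ hζE hprim ι hι hsurj
  have hfin' : Finite ↥(lkmHom ι p) := hfin
  set n := Module.finrank (ZMod p) A with hn
  let e : Module.Basis (Fin n) (ZMod p) A := Module.finBasis (ZMod p) A
  have hmem : ∀ (f : ↥(LinearMap.ker (hc_d12 L ρ))) (i : Fin n),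
      (fun g => e.repr ((f.1 : G → A) g) i) ∈ lkmHom ι p := by
    intro f i
    have hf : hc_d12 L ρ f.1 = 0 := LinearMap.mem_ker.1 f.2
    have hadd : ∀ g h, (f.1 : G → A) (g * h) = (f.1 : G → A) g + (f.1 : G → A) h := by
      intro g h
      have h1 := congrFun (congrArg Subtype.val hf) (g, h)
      simp only [hc_d12_coe, hc_d12f, LinearMap.coe_mk, AddHom.coe_mk, hρ] at h1
      have h2 : (f.1 : G → A) h - (f.1 : G → A) (g * h) + (f.1 : G → A) g = 0 := h1
      rw [sub_add_eq_add_sub, sub_eq_zero] at h2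
      rw [← h2, add_comm]
    obtain ⟨N, hN, hlev⟩ := f.1.2
    obtain ⟨M, hMfin, hM⟩ := hL N hN
    refine ⟨fun g h => ?_, M, hMfin, fun g s hs => ?_⟩
    · simp only [hadd, map_add, Finsupp.coe_add, Pi.add_apply]
    · have h3 : (f.1 : G → A) (g * s) = (f.1 : G → A) g := hlev.1 g s (hM hs)
      simp only [h3]
  let Φ : ↥(LinearMap.ker (hc_d12 L ρ)) → (Fin n → ↥(lkmHom ι p)) :=
    fun f i => ⟨fun g => e.repr ((f.1 : G → A) g) i, hmem f i⟩
  have hΦ : Function.Injective Φ := by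
    intro f f' hff
    apply Subtype.ext
    apply Subtype.ext
    funext g
    apply e.repr.injective
    ext i
    have h1 := congrArg (fun φ : Fin n → ↥(lkmHom ι p) => (φ i : G → ZMod p) g) hff
    exact h1
  have hfinZ : Finite ↥(LinearMap.ker (hc_d12 L ρ)) := Finite.of_injective Φ hΦ
  have hmodfin : Module.Finite (ZMod p) ↥(LinearMap.ker (hc_d12 L ρ)) := Module.Finite.of_finite
  refine ⟨hmodfin, ?_⟩
  have h1 : Nat.card ↥(LinearMap.ker (hc_d12 L ρ)) ≤ Nat.card (Fin n → ↥(lkmHom ι p)) :=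
    Nat.card_le_card_of_injective Φ hΦ
  have h2 : Nat.card (Fin n → ↥(lkmHom ι p)) = (lkmHom ι p).ncard ^ n := by
    rw [Nat.card_fun, Nat.card_coe_set_eq, Nat.card_eq_fintype_card, Fintype.card_fin]
  have h3 : Nat.card ↥(LinearMap.ker (hc_d12 L ρ)) =
      p ^ Module.finrank (ZMod p) ↥(LinearMap.ker (hc_d12 L ρ)) := by
    rw [Module.natCard_eq_pow_finrank (K := ZMod p), Nat.card_zmod]
  have h4 : p ^ Module.finrank (ZMod p) ↥(LinearMap.ker (hc_d12 L ρ)) ≤
      p ^ ((2 + if p = q then Module.finrank ℚ_[q] E else 0) * n) := by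
    rw [← h3, pow_mul]
    exact h1.trans (h2.le.trans (Nat.pow_le_pow_left hcard n))
  exact (Nat.pow_le_pow_iff_right hp.one_lt).1 h4

end Fermat.Agent.S55
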