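import Fermat.Agent.S55.LocKumSum
import Fermat.Agent.S55.LocKumHc
import Fermat.Agent.S55.Places2
import Fermat.Agent.S55.IfaceHc
import Fermat.Agent.S55.ShapLevel

/-!
# S55, block LOC, piece LP4 (continued): the local Kummer bound at the places of a number field

`k ⊆ ℚ̄` a number field, `U = Gal(ℚ̄/k)`, `ι_q = localGaloisToGlobal q : G_q → Γ`, and
`D : ShlDec ι_q U W` a double coset decomposition of `U \ Γ / ι_q(G_q)` (the places of `k` above
`q`).  The local group at `a : W` is `D.Ha a = Gal(ℚ̄_q / E_a)` with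
`E_a = brl_locField q (g_a⁻¹ k)` (`lkm_Ha_eq`).

* `lkm_sum_finrank` : `∑_a [E_a : ℚ_q] = [k : ℚ]`.
* `lkm_finrank_Z1_Ha_le` : if `k` contains a primitive `p`-th root of unity, the level 1-cocycles
  of `D.Ha a` (induced level structure) with trivial coefficients `A` have dimension at most
  `(2 + δ) * dim A`, `δ = [E_a : ℚ_q]` if `p = q`, else `0`.
* `lkm_card_places` : `W` is in bijection with the primes of `𝓞 k` above `q`.
-/

set_option autoImplicit false

namespace Fermat.Agent.S55

local notation "Qb" => AlgebraicClosure ℚ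
local notation "Γ" => (AlgebraicClosure ℚ ≃ₐ[ℚ] AlgebraicClosure ℚ)

attribute [local instance] pt_qbar_isAlgebraic pt_qbar_isAlgClosure pt_qbar_isGalois

variable (q : ℕ) [Fact q.Prime]

/-- The local group at a double coset is the absolute Galois group of the local field
`ℚ_q · g_a⁻¹(k)`. -/
theorem lkm_Ha_eq (k : IntermediateField ℚ Qb) {W : Type*}
    (D : ShlDec (localGaloisToGlobal q) k.fixingSubgroup W) (a : W) :
    D.Ha a = (brl_locField q (k.map ((D.g a)⁻¹ : Γ).toAlgHom)).fixingSubgroup := by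
  ext τ
  rw [ShlDec.mem_Ha]
  exact pl_conj_mem_fixingSubgroup_iff q k (D.g a) τ

theorem lkm_finiteDimensional_locField (k : IntermediateField ℚ Qb) [FiniteDimensional ℚ k]
    (g : Γ) : FiniteDimensional ℚ_[q] (brl_locField q (k.map (g⁻¹ : Γ).toAlgHom)) :=
  brl_finiteDimensional_locField q _

/-- `[G_q : H_a] = [E_a : ℚ_q]`. -/
theorem lkm_index_Ha (k : IntermediateField ℚ Qb) {W : Type*}
    (D : ShlDec (localGaloisToGlobal q) k.fixingSubgroup W) (a : W) :
    (D.Ha a).index =
      Module.finrank ℚ_[q] (brl_locField q (k.map ((D.g a)⁻¹ : Γ).toAlgHom)) := by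
  rw [lkm_Ha_eq, IntermediateField.finrank_eq_fixingSubgroup_index]

/-- **Sum of the local degrees** (PL3): `∑_{w | q} [k_w : ℚ_q] = [k : ℚ]`. -/
theorem lkm_sum_finrank (k : IntermediateField ℚ Qb) [FiniteDimensional ℚ k] {W : Type*}
    [Fintype W] (D : ShlDec (localGaloisToGlobal q) k.fixingSubgroup W) :
    ∑ a, Module.finrank ℚ_[q] (brl_locField q (k.map ((D.g a)⁻¹ : Γ).toAlgHom)) =
      Module.finrank ℚ k := by
  have hidx : k.fixingSubgroup.index = Module.finrank ℚ k :=
    (IntermediateField.finrank_eq_fixingSubgroup_index Qb k).symm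
  have : k.fixingSubgroup.FiniteIndex := ⟨by
    rw [hidx]
    exact Module.finrank_pos.ne'⟩
  rw [← hidx, ← lkm_sum_index D]
  exact Finset.sum_congr rfl fun a _ => (lkm_index_Ha q k D a).symm

/-- The levels of the local Galois group are open. -/
theorem lkm_localLev_open (N : Subgroup (PadicAlgCl q ≃ₐ[ℚ_[q]] PadicAlgCl q))
    (hN : N ∈ (pt_localLev (localGaloisToGlobal q)).S) :
    ∃ M : IntermediateField ℚ_[q] (PadicAlgCl q), FiniteDimensional ℚ_[q] M ∧
      M.fixingSubgroup ≤ N := by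
  obtain ⟨K, hK, -, rfl⟩ := hN
  exact ⟨brl_locField q K, brl_finiteDimensional_locField q K,
    (brl_comap_fixingSubgroup q K).ge⟩

/-- The levels induced on a subgroup of the local Galois group are open. -/
theorem lkm_levSub_open (K : Subgroup (PadicAlgCl q ≃ₐ[ℚ_[q]] PadicAlgCl q))
    (N : Subgroup ↥K)
    (hN : N ∈ (shapLevSub (pt_localLev (localGaloisToGlobal q)) K).S) :
    ∃ M : IntermediateField ℚ_[q] (PadicAlgCl q), FiniteDimensional ℚ_[q] M ∧
      M.fixingSubgroup.comap K.subtype ≤ N := by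
  obtain ⟨N₀, hN₀, rfl⟩ := hN
  obtain ⟨M, hM, hle⟩ := lkm_localLev_open q N₀ hN₀
  exact ⟨M, hM, fun x hx => Subgroup.mem_subgroupOf.2 (hle hx)⟩

/-- **Local Kummer bound at a place of `k`.**  `k ∋ ζ_p`; the level 1-cocycles of the local group
`D.Ha a` with coefficients in a trivial module `A` have dimension `≤ (2 + δ_a) * dim A`. -/
theorem lkm_finrank_Z1_Ha_le (p : ℕ) [Fact p.Prime] (k : IntermediateField ℚ Qb)
    [FiniteDimensional ℚ k] (ζ : Qb) (hζk : ζ ∈ k) (hprim : IsPrimitiveRoot ζ p) {W : Type*}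
    (D : ShlDec (localGaloisToGlobal q) k.fixingSubgroup W) (a : W)
    {A : Type*} [AddCommGroup A] [Module (ZMod p) A] [Module.Finite (ZMod p) A]
    (ρ : Representation (ZMod p) ↥(D.Ha a) A) (hρ : ∀ g x, ρ g x = x) :
    Module.Finite (ZMod p)
        ↥(LinearMap.ker (hc_d12 (shapLevSub (pt_localLev (localGaloisToGlobal q)) (D.Ha a)) ρ)) ∧
      Module.finrank (ZMod p)
        ↥(LinearMap.ker (hc_d12 (shapLevSub (pt_localLev (localGaloisToGlobal q)) (D.Ha a)) ρ)) ≤
        (2 + if p = q then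
          Module.finrank ℚ_[q] (brl_locField q (k.map ((D.g a)⁻¹ : Γ).toAlgHom)) else 0) *
            Module.finrank (ZMod p) A := by
  have hfd := lkm_finiteDimensional_locField q k (D.g a)
  have hHa := lkm_Ha_eq q k D a
  have hζE : padicEmbedding q ((D.g a)⁻¹ ζ) ∈
      brl_locField q (k.map ((D.g a)⁻¹ : Γ).toAlgHom) :=
    brl_mem_locField q ⟨ζ, hζk, rfl⟩
  have hprim' : IsPrimitiveRoot (padicEmbedding q ((D.g a)⁻¹ ζ)) p :=
    (hprim.map_of_injective ((D.g a)⁻¹ : Γ).injective).map_of_injective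
      (padicEmbedding q).injective
  exact lkm_finrank_Z1_le q p (brl_locField q (k.map ((D.g a)⁻¹ : Γ).toAlgHom))
    (padicEmbedding q ((D.g a)⁻¹ ζ)) hζE hprim' (D.Ha a).subtype
    (fun g => by rw [← hHa]; exact g.2)
    (fun σ hσ => ⟨⟨σ, by rw [hHa]; exact hσ⟩, rfl⟩)
    (shapLevSub (pt_localLev (localGaloisToGlobal q)) (D.Ha a))
    (fun N hN => lkm_levSub_open q (D.Ha a) N hN) ρ hρ

/-- **Places = double cosets.**  The double coset representatives of `U \ Γ / ι_q(G_q)` are in
bijection with the primes of `𝓞 k` above `q`, via `a ↦ pl_place q k (g_a)`. -/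
theorem lkm_places_bijective (k : IntermediateField ℚ Qb) [NumberField k] {W : Type*}
    (D : ShlDec (localGaloisToGlobal q) k.fixingSubgroup W) :
    Function.Bijective (fun a : W =>
      (⟨pl_place q k (D.g a), pl_natCast_mem_place q k (D.g a)⟩ :
        {v : IsDedekindDomain.HeightOneSpectrum (NumberField.RingOfIntegers k) //
          (q : NumberField.RingOfIntegers k) ∈ v.asIdeal})) := by
  constructor
  · intro a a' h
    have h1 : pl_place q k (D.g a) = pl_place q k (D.g a') := congrArg Subtype.val h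
    obtain ⟨u, hu, τ, hτ⟩ := (pl_place_eq_iff q k (D.g a) (D.g a')).1 h1
    have h2 : D.w (D.g a) = D.w (D.g a') := by
      rw [hτ, mul_assoc]
      have := D.w_left ⟨u, hu⟩ (D.g a' * localGaloisToGlobal q τ)
      rw [this, D.w_right]
    rwa [D.w_g, D.w_g] at h2
  · rintro ⟨v, hv⟩
    obtain ⟨g, rfl⟩ := pl_exists_place q k v hv
    refine ⟨D.w g, Subtype.ext ?_⟩
    refine (pl_place_eq_iff q k (D.g (D.w g)) g).2
      ⟨((D.uu g)⁻¹ : ↥k.fixingSubgroup), ((D.uu g)⁻¹ : ↥k.fixingSubgroup).2, (D.hh g)⁻¹, ?_⟩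
    have h := D.dec g
    simp only [Subgroup.coe_inv, map_inv]
    rw [eq_mul_inv_iff_mul_eq, eq_inv_mul_iff_mul_eq, ← mul_assoc]
    exact h.symm

/-- The number of double cosets is the number of primes of `𝓞 k` above `q`. -/
theorem lkm_card_places (k : IntermediateField ℚ Qb) [NumberField k] {W : Type*}
    (D : ShlDec (localGaloisToGlobal q) k.fixingSubgroup W) :
    Nat.card W = Nat.card {v : IsDedekindDomain.HeightOneSpectrum (NumberField.RingOfIntegers k) //
      (q : NumberField.RingOfIntegers k) ∈ v.asIdeal} :=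
  Nat.card_eq_of_bijective _ (lkm_places_bijective q k D)

end Fermat.Agent.S55
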