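import Fermat.Agent.S55.LocKumCupField
import Fermat.Agent.S55.LocKumPlaces

/-!
# S55, block LOC, piece LP-c at the places of a number field

`k ⊆ ℚ̄` a number field containing a primitive `p`-th root of unity `ζ`, `D` a double coset
decomposition of `Gal(ℚ̄/k) \ Γ / ι_q(G_q)`, `a` a place of `k` above `q`, `D.Ha a ≤ G_q` the local
group.  `lkc_cup_ne_Ha` : for a nonzero finite-level character `χ` of `D.Ha a` there is a
finite-level character `κ` with `ζ_a ^ (κ ∪ χ)` not a finite-level coboundary with values in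
`(PadicAlgCl q)ˣ`, where `ζ_a = padicEmbedding q (g_a⁻¹ ζ)`.
-/

set_option autoImplicit false

namespace Fermat.Agent.S55

local notation "Qb" => AlgebraicClosure ℚ
local notation "Γ" => (AlgebraicClosure ℚ ≃ₐ[ℚ] AlgebraicClosure ℚ)

variable (q : ℕ) [Fact q.Prime]

/-- The primitive `p`-th root of unity of the local field at the place `a`. -/
theorem lkc_isPrimitiveRoot_loc {p : ℕ} {ζ : Qb} (hprim : IsPrimitiveRoot ζ p) (g : Γ) :
    IsPrimitiveRoot (padicEmbedding q (g⁻¹ ζ)) p :=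
  (hprim.map_of_injective (g⁻¹ : Γ).injective).map_of_injective (padicEmbedding q).injective

/-- **(LP-c) at a place of `k`.** -/
theorem lkc_cup_ne_Ha (p : ℕ) [Fact p.Prime] (k : IntermediateField ℚ Qb)
    [FiniteDimensional ℚ k] (ζ : Qb) (hζk : ζ ∈ k) (hprim : IsPrimitiveRoot ζ p) {W : Type*}
    (D : ShlDec (localGaloisToGlobal q) k.fixingSubgroup W) (a : W)
    (ζa : (PadicAlgCl q)ˣ) (hζa : (ζa : PadicAlgCl q) = padicEmbedding q ((D.g a)⁻¹ ζ))
    (χ : ↥(D.Ha a) → ZMod p) (hχ : χ ∈ lkmHom (D.Ha a).subtype p) (hne : χ ≠ 0) :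
    ∃ κ ∈ lkmHom (D.Ha a).subtype p, ¬ ∃ θ : ↥(D.Ha a) → (PadicAlgCl q)ˣ,
      (∃ M : IntermediateField ℚ_[q] (PadicAlgCl q), FiniteDimensional ℚ_[q] M ∧
        ∀ g s : ↥(D.Ha a), (s : PadicAlgCl q ≃ₐ[ℚ_[q]] PadicAlgCl q) ∈ M.fixingSubgroup →
          θ (g * s) = θ g) ∧
      ∀ g h : ↥(D.Ha a), ζa ^ (κ g * χ h).val =
        θ g * Units.map (((g : PadicAlgCl q ≃ₐ[ℚ_[q]] PadicAlgCl q)) : PadicAlgCl q →* PadicAlgCl q)
          (θ h) / θ (g * h) := by
  have hfd := lkm_finiteDimensional_locField q k (D.g a)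
  have hHa := lkm_Ha_eq q k D a
  have hζE : (ζa : PadicAlgCl q) ∈ brl_locField q (k.map ((D.g a)⁻¹ : Γ).toAlgHom) := by
    rw [hζa]
    exact brl_mem_locField q ⟨ζ, hζk, rfl⟩
  have hprim' : IsPrimitiveRoot ζa p := by
    rw [← IsPrimitiveRoot.coe_units_iff, hζa]
    exact lkc_isPrimitiveRoot_loc q hprim (D.g a)
  exact lkc_cup_ne q p (brl_locField q (k.map ((D.g a)⁻¹ : Γ).toAlgHom)) ζa hζE hprim'
    (D.Ha a).subtype (fun g => by rw [← hHa]; exact g.2)
    (fun σ hσ => ⟨⟨σ, by rw [hHa]; exact hσ⟩, rfl⟩) χ hχ hne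

end Fermat.Agent.S55
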