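import Fermat.Agent.S55.LocKumPlaces
import Fermat.Agent.S55.ShapCone
import Fermat.Agent.S55.HcBase
import Fermat.Agent.S55.KumDep
import Fermat.Agent.S55.IfaceLoc

/-!
# S55, base case input [L3]: the local 1-cocycles at the `U`-level have dimension `≤ 2m`

`k ⊆ ℚ̄` a number field containing `ζ_p`, `U = Gal(ℚ̄/k)`, `S ∋ p` a finite set of primes,
`Δ v` double coset data for `U \ Γ / ι_v(G_v)` (`v ∈ S`).  The local 1-cocycles
`hcb_ZL1 (shapLocU (pt_loc S) U Δ) 𝔽_p` of the `U`-level local data have dimension at most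
`2 * (#S_k + rank 𝓞_k^× + 1)`, `S_k = kumAbove k S` the primes of `k` above `S`:
`∑_{w ∈ S_k} (2 + δ_{w | p} [k_w : ℚ_p]) = 2 #S_k + [k : ℚ] ≤ 2 #S_k + 2 (rank + 1)`.
-/

set_option autoImplicit false

open ExtCitation IsDedekindDomain NumberField

namespace Fermat.Agent.S55

local notation "Qb" => AlgebraicClosure ℚ
local notation "Γ" => (AlgebraicClosure ℚ ≃ₐ[ℚ] AlgebraicClosure ℚ)

attribute [local instance] pt_qbar_isAlgebraic pt_qbar_isAlgClosure pt_qbar_isGalois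

/-- Rational primes as `Fact`s (local instance). -/
local instance lkmFactPrimes (q : Nat.Primes) : Fact ((q : ℕ).Prime) := ⟨q.2⟩

/-- A prime of `𝓞 K` contains at most one rational prime. -/
theorem lkm_prime_unique (K : Type*) [Field K] [NumberField K] (w : HeightOneSpectrum (𝓞 K))
    {q q' : ℕ} (hq : q.Prime) (hq' : q'.Prime)
    (h : (q : 𝓞 K) ∈ w.asIdeal) (h' : (q' : 𝓞 K) ∈ w.asIdeal) : q = q' := by
  by_contra hne
  have hcop : IsCoprime (q : ℤ) (q' : ℤ) :=
    Nat.isCoprime_iff_coprime.2 ((Nat.coprime_primes hq hq').2 hne)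
  obtain ⟨a, b, hab⟩ := hcop
  have h1 : (1 : 𝓞 K) ∈ w.asIdeal := by
    have h2 : ((a * q + b * q' : ℤ) : 𝓞 K) = 1 := by rw [hab]; simp
    rw [← h2]
    push_cast
    exact Ideal.add_mem _ (Ideal.mul_mem_left _ _ h) (Ideal.mul_mem_left _ _ h')
  exact w.isPrime.ne_top ((Ideal.eq_top_iff_one _).2 h1)

/-- Auxiliary form of `lkm_L3`, over the index type `Σ v : ↥S, W v`. -/
theorem lkm_L3_aux (p : ℕ) [Fact p.Prime] (S : Finset Nat.Primes) (hpS : pPrime p ∈ S)
    (k : IntermediateField ℚ Qb) [NumberField k] {ζ : Qb} (hζ : IsPrimitiveRoot ζ p)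
    (hζk : ζ ∈ k) {W : ↥S → Type}
    (Δ : ∀ v : ↥S, ShlDec (localGaloisToGlobal (v.1 : ℕ)) k.fixingSubgroup (W v)) :
    Module.Finite (ZMod p) ↥(Submodule.pi Set.univ (fun x : Σ v : ↥S, W v =>
        LinearMap.ker (hc_d12
          (shapLevSub (pt_localLev (localGaloisToGlobal (x.1.1 : ℕ))) ((Δ x.1).Ha x.2))
          ((Representation.trivial (ZMod p) ↥k.fixingSubgroup (ZMod p)).comp
            ((Δ x.1).th x.2))))) ∧
      Module.finrank (ZMod p) ↥(Submodule.pi Set.univ (fun x : Σ v : ↥S, W v =>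
        LinearMap.ker (hc_d12
          (shapLevSub (pt_localLev (localGaloisToGlobal (x.1.1 : ℕ))) ((Δ x.1).Ha x.2))
          ((Representation.trivial (ZMod p) ↥k.fixingSubgroup (ZMod p)).comp
            ((Δ x.1).th x.2))))) ≤
      2 * ((kumAbove ↥k S).card + NumberField.Units.rank ↥k + 1) := by
  classical
  -- finiteness of the index sets
  have hfinW : ∀ v : ↥S, Finite (W v) := by
    intro v
    have hfin : {w : HeightOneSpectrum (𝓞 ↥k) | ((v.1 : ℕ) : 𝓞 ↥k) ∈ w.asIdeal}.Finite :=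
      Set.Finite.subset (kumAbove ↥k S).finite_toSet
        (fun w hw => (mem_kumAbove ↥k S w).2 ⟨v.1, v.2, hw⟩)
    have : Finite {w : HeightOneSpectrum (𝓞 ↥k) // ((v.1 : ℕ) : 𝓞 ↥k) ∈ w.asIdeal} :=
      hfin.to_subtype
    exact Finite.of_injective _ (lkm_places_bijective (v.1 : ℕ) k (Δ v)).1
  have : ∀ v : ↥S, Fintype (W v) := fun v => Fintype.ofFinite _
  -- the local degrees
  let e : (v : ↥S) → W v → ℕ := fun v a =>
    Module.finrank ℚ_[(v.1 : ℕ)]
      (brl_locField (v.1 : ℕ) (k.map (((Δ v).g a)⁻¹ : Γ).toAlgHom))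
  let d : (Σ v : ↥S, W v) → ℕ := fun x => 2 + if p = (x.1.1 : ℕ) then e x.1 x.2 else 0
  -- the local bounds
  have h3 : Module.finrank (ZMod p) (ZMod p) = 1 := Module.finrank_self _
  have hloc : ∀ x : Σ v : ↥S, W v,
      Module.Finite (ZMod p) ↥(LinearMap.ker (hc_d12
          (shapLevSub (pt_localLev (localGaloisToGlobal (x.1.1 : ℕ))) ((Δ x.1).Ha x.2))
          ((Representation.trivial (ZMod p) ↥k.fixingSubgroup (ZMod p)).comp
            ((Δ x.1).th x.2)))) ∧
      Module.finrank (ZMod p) ↥(LinearMap.ker (hc_d12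
          (shapLevSub (pt_localLev (localGaloisToGlobal (x.1.1 : ℕ))) ((Δ x.1).Ha x.2))
          ((Representation.trivial (ZMod p) ↥k.fixingSubgroup (ZMod p)).comp
            ((Δ x.1).th x.2)))) ≤ d x := by
    rintro ⟨v, a⟩
    have hρ : ∀ (g : ↥((Δ v).Ha a)) (x : ZMod p),
        ((Representation.trivial (ZMod p) ↥k.fixingSubgroup (ZMod p)).comp ((Δ v).th a)) g x
          = x := fun g x => rfl
    have h := lkm_finrank_Z1_Ha_le (v.1 : ℕ) p k ζ hζk hζ (Δ v) a
      ((Representation.trivial (ZMod p) ↥k.fixingSubgroup (ZMod p)).comp ((Δ v).th a)) hρ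
    obtain ⟨h1, h2⟩ := h
    rw [h3, Nat.mul_one] at h2
    exact ⟨h1, h2⟩
  have key := lkm_finrank_pi_le (I := Σ v : ↥S, W v)
    (fun x => LinearMap.ker (hc_d12
          (shapLevSub (pt_localLev (localGaloisToGlobal (x.1.1 : ℕ))) ((Δ x.1).Ha x.2))
          ((Representation.trivial (ZMod p) ↥k.fixingSubgroup (ZMod p)).comp
            ((Δ x.1).th x.2)))) d hloc
  refine ⟨key.1, key.2.trans ?_⟩
  -- the number of places
  have hcard : Fintype.card (Σ v : ↥S, W v) ≤ (kumAbove ↥k S).card := by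
    let Φ : (Σ v : ↥S, W v) → ↥(kumAbove ↥k S) := fun x =>
      ⟨pl_place (x.1.1 : ℕ) k ((Δ x.1).g x.2), (mem_kumAbove ↥k S _).2
        ⟨x.1.1, x.1.2, pl_natCast_mem_place (x.1.1 : ℕ) k ((Δ x.1).g x.2)⟩⟩
    have hΦ : Function.Injective Φ := by
      rintro ⟨v, a⟩ ⟨v', a'⟩ h
      have h1 : pl_place (v.1 : ℕ) k ((Δ v).g a) = pl_place (v'.1 : ℕ) k ((Δ v').g a') :=
        congrArg Subtype.val h
      have hq : (v.1 : ℕ) = (v'.1 : ℕ) :=
        lkm_prime_unique ↥k (pl_place (v.1 : ℕ) k ((Δ v).g a)) v.1.2 v'.1.2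
          (pl_natCast_mem_place (v.1 : ℕ) k ((Δ v).g a))
          (by rw [h1]; exact pl_natCast_mem_place (v'.1 : ℕ) k ((Δ v').g a'))
      have hv : v = v' := Subtype.ext (Subtype.ext hq)
      subst hv
      have ha : a = a' := (lkm_places_bijective (v.1 : ℕ) k (Δ v)).1 (Subtype.ext h1)
      rw [ha]
    have := Fintype.card_le_of_injective Φ hΦ
    rwa [Fintype.card_coe] at this
  -- the sum of the local degrees above `p`
  have hsum : ∑ x : Σ v : ↥S, W v, (if p = (x.1.1 : ℕ) then e x.1 x.2 else 0) =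
      Module.finrank ℚ ↥k := by
    rw [Fintype.sum_sigma, Finset.sum_eq_single (⟨pPrime p, hpS⟩ : ↥S)]
    · refine (Finset.sum_congr rfl fun a _ => if_pos rfl).trans ?_
      exact lkm_sum_finrank p k (Δ ⟨pPrime p, hpS⟩)
    · intro v _ hv
      apply Finset.sum_eq_zero
      intro a _
      rw [if_neg]
      intro hpv
      exact hv (Subtype.ext (Subtype.ext hpv.symm))
    · intro h
      exact absurd (Finset.mem_univ _) h
  have hrank := lkm_finrank_le_two_mul_rank ↥k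
  calc ∑ x, d x = ∑ x : Σ v : ↥S, W v, 2 +
        ∑ x : Σ v : ↥S, W v, (if p = (x.1.1 : ℕ) then e x.1 x.2 else 0) :=
        Finset.sum_add_distrib
    _ = 2 * Fintype.card (Σ v : ↥S, W v) + Module.finrank ℚ ↥k := by
        rw [hsum, Finset.sum_const, Finset.card_univ, smul_eq_mul, mul_comm]
    _ ≤ _ := by omega

/-- **[L3]** for the `U`-level local data, `U = Gal(ℚ̄/k)`, `k ∋ ζ_p`. -/
theorem lkm_L3 (p : ℕ) [Fact p.Prime] (S : Finset Nat.Primes) (hpS : pPrime p ∈ S)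
    (k : IntermediateField ℚ Qb) [NumberField k] {ζ : Qb} (hζ : IsPrimitiveRoot ζ p)
    (hζk : ζ ∈ k) {W : (pt_loc S).V → Type}
    (Δ : ∀ v, ShlDec ((pt_loc S).ι v) k.fixingSubgroup (W v)) :
    Module.Finite (ZMod p) ↥(hcb_ZL1 (shapLocU (pt_loc S) k.fixingSubgroup Δ)
        (Representation.trivial (ZMod p) ↥k.fixingSubgroup (ZMod p))) ∧
      Module.finrank (ZMod p) ↥(hcb_ZL1 (shapLocU (pt_loc S) k.fixingSubgroup Δ)
        (Representation.trivial (ZMod p) ↥k.fixingSubgroup (ZMod p))) ≤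
      2 * ((kumAbove ↥k S).card + NumberField.Units.rank ↥k + 1) :=
  lkm_L3_aux p S hpS k hζ hζk (W := W) (fun v => Δ v)

/-- **[L3]**, for a subgroup `U` presented as `Gal(ℚ̄/k)`. -/
theorem lkm_L3_of_eq (p : ℕ) [Fact p.Prime] (S : Finset Nat.Primes) (hpS : pPrime p ∈ S)
    (U : Subgroup Γ) (k : IntermediateField ℚ Qb) [NumberField k] (hU : U = k.fixingSubgroup)
    {ζ : Qb} (hζ : IsPrimitiveRoot ζ p) (hζk : ζ ∈ k) {W : (pt_loc S).V → Type}
    (Δ : ∀ v, ShlDec ((pt_loc S).ι v) U (W v)) :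
    Module.Finite (ZMod p) ↥(hcb_ZL1 (shapLocU (pt_loc S) U Δ)
        (Representation.trivial (ZMod p) ↥U (ZMod p))) ∧
      Module.finrank (ZMod p) ↥(hcb_ZL1 (shapLocU (pt_loc S) U Δ)
        (Representation.trivial (ZMod p) ↥U (ZMod p))) ≤
      2 * ((kumAbove ↥k S).card + NumberField.Units.rank ↥k + 1) := by
  subst hU
  exact lkm_L3 p S hpS k hζ hζk Δ

end Fermat.Agent.S55
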