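import Fermat.Agent.S55.LocKumCupHc

/-!
# S55, block LOC, piece [LC6]: the tame formula for level cochains

Setting of `lkc_cup11_notin_range` with `q ≠ p`, `p` odd (`E ∋ ζ_p` a finite extension of `ℚ_q`,
`G → Gal(ℚ̄_q/E)` surjective, trivial coefficients `ZMod p`).

* `lkc_cup11_self_mem_range` : `χ ∪ χ` is a level coboundary (`p` odd);
* `lkc_cup11_indep_notin_range` : for linearly independent level 1-cocycles `ψ`, `χ` the cup
  product `ψ ∪ χ` is not a level coboundary (the level 1-cocycles have dimension `≤ 2`, the cup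
  product is nondegenerate by `lkc_cup11_notin_range`, and `χ ∪ χ` is a coboundary);
* `lkc_cup11_tame` : **[LC6]**, `ψ` not vanishing on a subgroup `I` (ramified), `χ ≠ 0` vanishing
  on `I` (unramified) ⇒ `ψ ∪ χ` is not a level coboundary;
* `lkc_cup11_tame_Ha` : the same at a place of a number field `k ∋ ζ_p`.
-/

set_option autoImplicit false

namespace Fermat.Agent.S55

section

/-- For `p` odd and trivial coefficients, `χ ∪ χ` is a level coboundary. -/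
theorem lkc_cup11_self_mem_range {p : ℕ} [Fact p.Prime] (hp2 : p ≠ 2)
    {G : Type*} [Group G] (L : hc_Lev G)
    (ρ ρT : Representation (ZMod p) G (ZMod p)) (hρ : ∀ g c, ρ g c = c)
    (hρT : ∀ g c, ρT g c = c)
    (hφ : ∀ g a b, LinearMap.mul (ZMod p) (ZMod p) (ρ g a) (ρ g b) =
      ρT g (LinearMap.mul (ZMod p) (ZMod p) a b))
    (χ : hc_C1 L ρ) (hχ : hc_d12 L ρ χ = 0) :
    hc_cup11 L hφ χ χ ∈ LinearMap.range (hc_d12 L ρT) := by
  have hp : p.Prime := Fact.out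
  have h2 : (2 : ZMod p) ≠ 0 := by
    intro h
    have h' : ((2 : ℕ) : ZMod p) = 0 := by exact_mod_cast h
    rw [ZMod.natCast_eq_zero_iff] at h'
    exact hp2 ((Nat.prime_dvd_prime_iff_eq hp Nat.prime_two).1 h')
  have hχadd : ∀ g h, (χ : G → ZMod p) (g * h) = (χ : G → ZMod p) g + (χ : G → ZMod p) h := by
    intro g h
    have h1 := congrFun (congrArg Subtype.val hχ) (g, h)
    simp only [hc_d12_coe, hc_d12f, LinearMap.coe_mk, AddHom.coe_mk, hρ] at h1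
    have h2 : (χ : G → ZMod p) h - (χ : G → ZMod p) (g * h) + (χ : G → ZMod p) g = 0 := h1
    rw [sub_add_eq_add_sub, sub_eq_zero] at h2
    rw [← h2, add_comm]
  obtain ⟨N, hN, hlev⟩ := χ.2
  have hc : (fun g => -(2 : ZMod p)⁻¹ * (χ : G → ZMod p) g ^ 2) ∈ hc_C1 L ρT :=
    ⟨N, hN, fun g s hs => by
      show -(2 : ZMod p)⁻¹ * (χ : G → ZMod p) (g * s) ^ 2 = -(2 : ZMod p)⁻¹ * (χ : G → ZMod p) g ^ 2
      rw [hlev.1 g s hs], fun x s _ => hρT s _⟩
  refine ⟨⟨_, hc⟩, ?_⟩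
  apply Subtype.ext
  funext x
  show ρT x.1 (-(2 : ZMod p)⁻¹ * (χ : G → ZMod p) x.2 ^ 2) -
      -(2 : ZMod p)⁻¹ * (χ : G → ZMod p) (x.1 * x.2) ^ 2 +
      -(2 : ZMod p)⁻¹ * (χ : G → ZMod p) x.1 ^ 2 =
    (χ : G → ZMod p) x.1 * ρ x.1 ((χ : G → ZMod p) x.2)
  rw [hρT, hρ, hχadd]
  field_simp
  ring

variable (q : ℕ) [Fact q.Prime]

local notation "Ω" => PadicAlgCl q

/-- Linearly independent level 1-cocycles at a place not above `p` have a cup product which is not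
a level coboundary. -/
theorem lkc_cup11_indep_notin_range (p : ℕ) [Fact p.Prime] (hp2 : p ≠ 2) (hpq : p ≠ q)
    (E : IntermediateField ℚ_[q] Ω) [FiniteDimensional ℚ_[q] E]
    (ζ : Ωˣ) (hζE : (ζ : Ω) ∈ E) (hprim : IsPrimitiveRoot ζ p)
    {G : Type*} [Group G] (ι : G →* (Ω ≃ₐ[ℚ_[q]] Ω))
    (hι : ∀ g, ι g ∈ E.fixingSubgroup) (hsurj : ∀ τ ∈ E.fixingSubgroup, ∃ g, ι g = τ)
    (L : hc_Lev G)
    (hL : ∀ N ∈ L.S, ∃ M : IntermediateField ℚ_[q] Ω,
      FiniteDimensional ℚ_[q] M ∧ M.fixingSubgroup.comap ι ≤ N)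
    (hL' : ∀ M : IntermediateField ℚ_[q] Ω, FiniteDimensional ℚ_[q] M →
      ∃ N ∈ L.S, N ≤ M.fixingSubgroup.comap ι)
    (ρ ρT : Representation (ZMod p) G (ZMod p)) (hρ : ∀ g c, ρ g c = c)
    (hρT : ∀ g c, ρT g c = c)
    (hφ : ∀ g a b, LinearMap.mul (ZMod p) (ZMod p) (ρ g a) (ρ g b) =
      ρT g (LinearMap.mul (ZMod p) (ZMod p) a b))
    (ψ χ : hc_C1 L ρ) (hψ : hc_d12 L ρ ψ = 0) (hχ : hc_d12 L ρ χ = 0)
    (hind : ∀ a b : ZMod p, a • ψ + b • χ = 0 → a = 0 ∧ b = 0) :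
    hc_cup11 L hφ ψ χ ∉ LinearMap.range (hc_d12 L ρT) := by
  classical
  intro hmem
  have hne : χ ≠ 0 := by
    intro h0
    have := (hind 0 1 (by rw [h0, zero_smul, smul_zero, add_zero])).2
    exact one_ne_zero this
  obtain ⟨κ, hκ, hκne⟩ := lkc_cup11_notin_range q p E ζ hζE hprim ι hι hsurj L hL hL' ρ ρT hρ hρT
    hφ χ hχ hne
  apply hκne
  -- the space of level 1-cocycles has dimension `≤ 2`
  have hprim' : IsPrimitiveRoot (ζ : Ω) p := IsPrimitiveRoot.coe_units_iff.2 hprim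
  obtain ⟨hfin, hrank⟩ := lkm_finrank_Z1_le q p E (ζ : Ω) hζE hprim' ι hι hsurj L hL ρ hρ
  rw [if_neg hpq, add_zero, Module.finrank_self, mul_one] at hrank
  let ψ' : ↥(LinearMap.ker (hc_d12 L ρ)) := ⟨ψ, LinearMap.mem_ker.2 hψ⟩
  let χ' : ↥(LinearMap.ker (hc_d12 L ρ)) := ⟨χ, LinearMap.mem_ker.2 hχ⟩
  let κ' : ↥(LinearMap.ker (hc_d12 L ρ)) := ⟨κ, LinearMap.mem_ker.2 hκ⟩
  have hli : LinearIndependent (ZMod p) ![ψ', χ'] := by
    rw [LinearIndependent.pair_iff]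
    intro a b hab
    apply hind a b
    have := congrArg Subtype.val hab
    exact this
  have hspan : Submodule.span (ZMod p) (Set.range ![ψ', χ']) = ⊤ := by
    apply Submodule.eq_top_of_finrank_eq
    have h1 := finrank_span_eq_card hli
    rw [Fintype.card_fin] at h1
    have h2 := Submodule.finrank_le (Submodule.span (ZMod p) (Set.range ![ψ', χ']))
    omega
  have hκ' : κ' ∈ Submodule.span (ZMod p) (Set.range ![ψ', χ']) := by
    rw [hspan]; exact Submodule.mem_top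
  rw [Matrix.range_cons_cons_empty, Submodule.mem_span_pair] at hκ'
  obtain ⟨a, b, hab⟩ := hκ'
  have hκeq : κ = a • ψ + b • χ := by
    have := congrArg Subtype.val hab
    exact this.symm
  rw [hκeq, map_add, map_smul, map_smul, LinearMap.add_apply, LinearMap.smul_apply,
    LinearMap.smul_apply]
  exact Submodule.add_mem _ (Submodule.smul_mem _ _ hmem)
    (Submodule.smul_mem _ _ (lkc_cup11_self_mem_range hp2 L ρ ρT hρ hρT hφ χ hχ))

/-- **[LC6], the tame formula.**  `ψ` ramified (nonzero on `I`), `χ ≠ 0` unramified (zero on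
`I`) ⇒ `ψ ∪ χ` is not a level coboundary.  (`I` may be any subgroup.) -/
theorem lkc_cup11_tame (p : ℕ) [Fact p.Prime] (hp2 : p ≠ 2) (hpq : p ≠ q)
    (E : IntermediateField ℚ_[q] Ω) [FiniteDimensional ℚ_[q] E]
    (ζ : Ωˣ) (hζE : (ζ : Ω) ∈ E) (hprim : IsPrimitiveRoot ζ p)
    {G : Type*} [Group G] (ι : G →* (Ω ≃ₐ[ℚ_[q]] Ω))
    (hι : ∀ g, ι g ∈ E.fixingSubgroup) (hsurj : ∀ τ ∈ E.fixingSubgroup, ∃ g, ι g = τ)
    (L : hc_Lev G)
    (hL : ∀ N ∈ L.S, ∃ M : IntermediateField ℚ_[q] Ω,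
      FiniteDimensional ℚ_[q] M ∧ M.fixingSubgroup.comap ι ≤ N)
    (hL' : ∀ M : IntermediateField ℚ_[q] Ω, FiniteDimensional ℚ_[q] M →
      ∃ N ∈ L.S, N ≤ M.fixingSubgroup.comap ι)
    (ρ ρT : Representation (ZMod p) G (ZMod p)) (hρ : ∀ g c, ρ g c = c)
    (hρT : ∀ g c, ρT g c = c)
    (hφ : ∀ g a b, LinearMap.mul (ZMod p) (ZMod p) (ρ g a) (ρ g b) =
      ρT g (LinearMap.mul (ZMod p) (ZMod p) a b))
    (I : Subgroup G)
    (ψ χ : hc_C1 L ρ) (hψ : hc_d12 L ρ ψ = 0) (hχ : hc_d12 L ρ χ = 0)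
    (hψI : ∃ s ∈ I, (ψ : G → ZMod p) s ≠ 0)
    (hχI : ∀ s ∈ I, (χ : G → ZMod p) s = 0) (hne : χ ≠ 0) :
    hc_cup11 L hφ ψ χ ∉ LinearMap.range (hc_d12 L ρT) := by
  apply lkc_cup11_indep_notin_range q p hp2 hpq E ζ hζE hprim ι hι hsurj L hL hL' ρ ρT hρ hρT
    hφ ψ χ hψ hχ
  intro a b hab
  obtain ⟨s, hs, hψs⟩ := hψI
  have h1 : a * (ψ : G → ZMod p) s + b * (χ : G → ZMod p) s = 0 :=
    congrFun (congrArg Subtype.val hab) s
  rw [hχI s hs, mul_zero, add_zero] at h1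
  have ha : a = 0 := (mul_eq_zero.1 h1).resolve_right hψs
  refine ⟨ha, ?_⟩
  rw [ha, zero_smul, zero_add] at hab
  exact (smul_eq_zero.1 hab).resolve_right hne

end

section Places

local notation "Qb" => AlgebraicClosure ℚ
local notation "Γ" => (AlgebraicClosure ℚ ≃ₐ[ℚ] AlgebraicClosure ℚ)

variable (q : ℕ) [Fact q.Prime]

/-- **[LC6] at a place of `k`.**  `k ∋ ζ_p` a number field, `p` odd, `q ≠ p`, `a` a place of `k`
above `q` with local group `D.Ha a ≤ G_q`, `I` a subgroup of `D.Ha a`: for level 1-cocycles `ψ`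
(not vanishing on `I`) and `χ ≠ 0` (vanishing on `I`) with trivial coefficients `ZMod p`,
`ψ ∪ χ` is not a level coboundary. -/
theorem lkc_cup11_tame_Ha (p : ℕ) [Fact p.Prime] (hp2 : p ≠ 2) (hpq : p ≠ q)
    (k : IntermediateField ℚ Qb)
    [FiniteDimensional ℚ k] (ζ : Qb) (hζk : ζ ∈ k) (hprim : IsPrimitiveRoot ζ p) {W : Type*}
    (D : ShlDec (localGaloisToGlobal q) k.fixingSubgroup W) (a : W)
    (ρ ρT : Representation (ZMod p) ↥(D.Ha a) (ZMod p)) (hρ : ∀ g c, ρ g c = c)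
    (hρT : ∀ g c, ρT g c = c)
    (hφ : ∀ g a b, LinearMap.mul (ZMod p) (ZMod p) (ρ g a) (ρ g b) =
      ρT g (LinearMap.mul (ZMod p) (ZMod p) a b))
    (I : Subgroup ↥(D.Ha a))
    (ψ χ : hc_C1 (shapLevSub (pt_localLev (localGaloisToGlobal q)) (D.Ha a)) ρ)
    (hψ : hc_d12 (shapLevSub (pt_localLev (localGaloisToGlobal q)) (D.Ha a)) ρ ψ = 0)
    (hχ : hc_d12 (shapLevSub (pt_localLev (localGaloisToGlobal q)) (D.Ha a)) ρ χ = 0)
    (hψI : ∃ s ∈ I, (ψ : ↥(D.Ha a) → ZMod p) s ≠ 0)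
    (hχI : ∀ s ∈ I, (χ : ↥(D.Ha a) → ZMod p) s = 0) (hne : χ ≠ 0) :
    hc_cup11 (shapLevSub (pt_localLev (localGaloisToGlobal q)) (D.Ha a)) hφ ψ χ ∉
      LinearMap.range
        (hc_d12 (shapLevSub (pt_localLev (localGaloisToGlobal q)) (D.Ha a)) ρT) := by
  have hfd := lkm_finiteDimensional_locField q k (D.g a)
  have hHa := lkm_Ha_eq q k D a
  have hζE : padicEmbedding q ((D.g a)⁻¹ ζ) ∈
      brl_locField q (k.map ((D.g a)⁻¹ : Γ).toAlgHom) :=
    brl_mem_locField q ⟨ζ, hζk, rfl⟩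
  have hprim' : IsPrimitiveRoot (padicEmbedding q ((D.g a)⁻¹ ζ)) p :=
    lkc_isPrimitiveRoot_loc q hprim (D.g a)
  have hp : p.Prime := Fact.out
  have hunit : IsUnit (padicEmbedding q ((D.g a)⁻¹ ζ)) := hprim'.isUnit hp.ne_zero
  obtain ⟨ζa, hζa⟩ := hunit
  have hprim'' : IsPrimitiveRoot ζa p := by
    rw [← IsPrimitiveRoot.coe_units_iff, hζa]
    exact hprim'
  exact lkc_cup11_tame q p hp2 hpq (brl_locField q (k.map ((D.g a)⁻¹ : Γ).toAlgHom)) ζa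
    (by rw [hζa]; exact hζE) hprim'' (D.Ha a).subtype
    (fun g => by rw [← hHa]; exact g.2)
    (fun σ hσ => ⟨⟨σ, by rw [hHa]; exact hσ⟩, rfl⟩)
    (shapLevSub (pt_localLev (localGaloisToGlobal q)) (D.Ha a))
    (fun N hN => lkm_levSub_open q (D.Ha a) N hN)
    (fun M hM => lkc_levSub_cofinal q (D.Ha a) M) ρ ρT hρ hρT hφ I ψ χ hψ hχ hψI hχI hne

end Places

end Fermat.Agent.S55
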