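import Fermat.Agent.S55.LocKumL3
import Fermat.Agent.S55.LocKumTame

/-!
# S55, block LOC: [LC4] and [LC6] at the places of the `U`-level local data

The statements of `LocKumCupHc.lean` / `LocKumTame.lean` for `q : Nat.Primes`
(`primeLocalGaloisGroup q`, `primeLocalToGlobal q`) and at the places of
`shapLocU (pt_loc S) U Δ`:

* `lkc_cup11_notin_range_prime` : **[LC4]** at a place of `k` above `q : Nat.Primes`;
* `lkc_cup11_tame_prime` : **[LC6]** at a place of `k` above `q : Nat.Primes`, `q ≠ p`;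
* `lkc_LC4_locU`, `lkc_LC4_locU_of_eq` : **[LC4]** at the places of `shapLocU (pt_loc S) U Δ`.
-/

set_option autoImplicit false

open ExtCitation IsDedekindDomain NumberField

namespace Fermat.Agent.S55

local notation "Qb" => AlgebraicClosure ℚ
local notation "Γ" => (AlgebraicClosure ℚ ≃ₐ[ℚ] AlgebraicClosure ℚ)

/-- Rational primes as `Fact`s (local instance). -/
local instance lkcFactPrimes (q : Nat.Primes) : Fact ((q : ℕ).Prime) := ⟨q.2⟩

/-- **[LC4] at a place of `k`**, for `q : Nat.Primes`. -/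
theorem lkc_cup11_notin_range_prime (p : ℕ) [Fact p.Prime] (q : Nat.Primes)
    (k : IntermediateField ℚ Qb) [FiniteDimensional ℚ k] {ζ : Qb} (hζ : IsPrimitiveRoot ζ p)
    (hζk : ζ ∈ k) {W : Type*}
    (D : ShlDec (primeLocalToGlobal q) k.fixingSubgroup W) (a : W)
    (ρ ρT : Representation (ZMod p) ↥(D.Ha a) (ZMod p)) (hρ : ∀ g c, ρ g c = c)
    (hρT : ∀ g c, ρT g c = c)
    (hφ : ∀ g a b, LinearMap.mul (ZMod p) (ZMod p) (ρ g a) (ρ g b) =
      ρT g (LinearMap.mul (ZMod p) (ZMod p) a b))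
    (χ : hc_C1 (shapLevSub (pt_localLev (primeLocalToGlobal q)) (D.Ha a)) ρ)
    (hχ : hc_d12 (shapLevSub (pt_localLev (primeLocalToGlobal q)) (D.Ha a)) ρ χ = 0)
    (hne : χ ≠ 0) :
    ∃ ψ : hc_C1 (shapLevSub (pt_localLev (primeLocalToGlobal q)) (D.Ha a)) ρ,
      hc_d12 (shapLevSub (pt_localLev (primeLocalToGlobal q)) (D.Ha a)) ρ ψ = 0 ∧
      hc_cup11 (shapLevSub (pt_localLev (primeLocalToGlobal q)) (D.Ha a)) hφ ψ χ ∉
        LinearMap.range
          (hc_d12 (shapLevSub (pt_localLev (primeLocalToGlobal q)) (D.Ha a)) ρT) :=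
  lkc_cup11_notin_range_Ha (q : ℕ) p k ζ hζk hζ
    (D : ShlDec (localGaloisToGlobal (q : ℕ)) k.fixingSubgroup W) a ρ ρT hρ hρT hφ χ hχ hne

/-- **[LC6] at a place of `k`**, for `q : Nat.Primes`, `q ≠ p`, `p` odd: `ψ` nonzero on `I`,
`χ ≠ 0` zero on `I` ⇒ `ψ ∪ χ` is not a level coboundary. -/
theorem lkc_cup11_tame_prime (p : ℕ) [Fact p.Prime] (hp2 : p ≠ 2) (q : Nat.Primes)
    (hpq : p ≠ (q : ℕ))
    (k : IntermediateField ℚ Qb) [FiniteDimensional ℚ k] {ζ : Qb} (hζ : IsPrimitiveRoot ζ p)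
    (hζk : ζ ∈ k) {W : Type*}
    (D : ShlDec (primeLocalToGlobal q) k.fixingSubgroup W) (a : W)
    (ρ ρT : Representation (ZMod p) ↥(D.Ha a) (ZMod p)) (hρ : ∀ g c, ρ g c = c)
    (hρT : ∀ g c, ρT g c = c)
    (hφ : ∀ g a b, LinearMap.mul (ZMod p) (ZMod p) (ρ g a) (ρ g b) =
      ρT g (LinearMap.mul (ZMod p) (ZMod p) a b))
    (I : Subgroup ↥(D.Ha a))
    (ψ χ : hc_C1 (shapLevSub (pt_localLev (primeLocalToGlobal q)) (D.Ha a)) ρ)
    (hψ : hc_d12 (shapLevSub (pt_localLev (primeLocalToGlobal q)) (D.Ha a)) ρ ψ = 0)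
    (hχ : hc_d12 (shapLevSub (pt_localLev (primeLocalToGlobal q)) (D.Ha a)) ρ χ = 0)
    (hψI : ∃ s ∈ I, (ψ : ↥(D.Ha a) → ZMod p) s ≠ 0)
    (hχI : ∀ s ∈ I, (χ : ↥(D.Ha a) → ZMod p) s = 0) (hne : χ ≠ 0) :
    hc_cup11 (shapLevSub (pt_localLev (primeLocalToGlobal q)) (D.Ha a)) hφ ψ χ ∉
      LinearMap.range
        (hc_d12 (shapLevSub (pt_localLev (primeLocalToGlobal q)) (D.Ha a)) ρT) :=
  lkc_cup11_tame_Ha (q : ℕ) p hp2 hpq k ζ hζk hζ
    (D : ShlDec (localGaloisToGlobal (q : ℕ)) k.fixingSubgroup W) a ρ ρT hρ hρT hφ I ψ χ hψ hχ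
    hψI hχI hne

/-- **[LC4]** at the places of the `U`-level local data, `U = Gal(ℚ̄/k)`. -/
theorem lkc_LC4_locU (p : ℕ) [Fact p.Prime] (S : Finset Nat.Primes)
    (k : IntermediateField ℚ Qb) [FiniteDimensional ℚ k] {ζ : Qb} (hζ : IsPrimitiveRoot ζ p)
    (hζk : ζ ∈ k) {W : (pt_loc S).V → Type}
    (Δ : ∀ v, ShlDec ((pt_loc S).ι v) k.fixingSubgroup (W v))
    (ρT : Representation (ZMod p) ↥k.fixingSubgroup (ZMod p)) (hρT : ∀ g c, ρT g c = c)
    (hφ : ∀ g a b, LinearMap.mul (ZMod p) (ZMod p)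
        (Representation.trivial (ZMod p) ↥k.fixingSubgroup (ZMod p) g a)
        (Representation.trivial (ZMod p) ↥k.fixingSubgroup (ZMod p) g b) =
      ρT g (LinearMap.mul (ZMod p) (ZMod p) a b))
    (x : (shapLocU (pt_loc S) k.fixingSubgroup Δ).V)
    (χ : hc_C1 ((shapLocU (pt_loc S) k.fixingSubgroup Δ).Lv x)
      ((Representation.trivial (ZMod p) ↥k.fixingSubgroup (ZMod p)).comp
        ((shapLocU (pt_loc S) k.fixingSubgroup Δ).ι x)))
    (hχ : hc_d12 ((shapLocU (pt_loc S) k.fixingSubgroup Δ).Lv x)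
      ((Representation.trivial (ZMod p) ↥k.fixingSubgroup (ZMod p)).comp
        ((shapLocU (pt_loc S) k.fixingSubgroup Δ).ι x)) χ = 0)
    (hne : χ ≠ 0) :
    ∃ ψ : hc_C1 ((shapLocU (pt_loc S) k.fixingSubgroup Δ).Lv x)
      ((Representation.trivial (ZMod p) ↥k.fixingSubgroup (ZMod p)).comp
        ((shapLocU (pt_loc S) k.fixingSubgroup Δ).ι x)),
      hc_d12 ((shapLocU (pt_loc S) k.fixingSubgroup Δ).Lv x)
        ((Representation.trivial (ZMod p) ↥k.fixingSubgroup (ZMod p)).comp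
          ((shapLocU (pt_loc S) k.fixingSubgroup Δ).ι x)) ψ = 0 ∧
      hc_cup11 ((shapLocU (pt_loc S) k.fixingSubgroup Δ).Lv x)
        (hc_equiv₂_loc (shapLocU (pt_loc S) k.fixingSubgroup Δ) hφ x) ψ χ ∉
        LinearMap.range (hc_d12 ((shapLocU (pt_loc S) k.fixingSubgroup Δ).Lv x)
          (ρT.comp ((shapLocU (pt_loc S) k.fixingSubgroup Δ).ι x))) := by
  obtain ⟨v, a⟩ := x
  exact lkc_cup11_notin_range_prime p (v : ↥S).1 k hζ hζk (Δ v) a _ _ (fun g c => rfl)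
    (fun g c => hρT _ c) _ χ hχ hne

/-- **[LC4]** at the places of the `U`-level local data, for `U` presented as `Gal(ℚ̄/k)`. -/
theorem lkc_LC4_locU_of_eq (p : ℕ) [Fact p.Prime] (S : Finset Nat.Primes)
    (U : Subgroup Γ) (k : IntermediateField ℚ Qb) [FiniteDimensional ℚ k]
    (hU : U = k.fixingSubgroup) {ζ : Qb} (hζ : IsPrimitiveRoot ζ p)
    (hζk : ζ ∈ k) {W : (pt_loc S).V → Type}
    (Δ : ∀ v, ShlDec ((pt_loc S).ι v) U (W v))
    (ρT : Representation (ZMod p) ↥U (ZMod p)) (hρT : ∀ g c, ρT g c = c)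
    (hφ : ∀ g a b, LinearMap.mul (ZMod p) (ZMod p)
        (Representation.trivial (ZMod p) ↥U (ZMod p) g a)
        (Representation.trivial (ZMod p) ↥U (ZMod p) g b) =
      ρT g (LinearMap.mul (ZMod p) (ZMod p) a b))
    (x : (shapLocU (pt_loc S) U Δ).V)
    (χ : hc_C1 ((shapLocU (pt_loc S) U Δ).Lv x)
      ((Representation.trivial (ZMod p) ↥U (ZMod p)).comp ((shapLocU (pt_loc S) U Δ).ι x)))
    (hχ : hc_d12 ((shapLocU (pt_loc S) U Δ).Lv x)
      ((Representation.trivial (ZMod p) ↥U (ZMod p)).comp ((shapLocU (pt_loc S) U Δ).ι x)) χ = 0)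
    (hne : χ ≠ 0) :
    ∃ ψ : hc_C1 ((shapLocU (pt_loc S) U Δ).Lv x)
      ((Representation.trivial (ZMod p) ↥U (ZMod p)).comp ((shapLocU (pt_loc S) U Δ).ι x)),
      hc_d12 ((shapLocU (pt_loc S) U Δ).Lv x)
        ((Representation.trivial (ZMod p) ↥U (ZMod p)).comp ((shapLocU (pt_loc S) U Δ).ι x))
          ψ = 0 ∧
      hc_cup11 ((shapLocU (pt_loc S) U Δ).Lv x)
        (hc_equiv₂_loc (shapLocU (pt_loc S) U Δ) hφ x) ψ χ ∉
        LinearMap.range (hc_d12 ((shapLocU (pt_loc S) U Δ).Lv x)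
          (ρT.comp ((shapLocU (pt_loc S) U Δ).ι x))) := by
  subst hU
  exact lkc_LC4_locU p S k hζ hζk Δ ρT hρT hφ x χ hχ hne

end Fermat.Agent.S55
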