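import Fermat.Agent.S55.LocKumLocU
import Fermat.Agent.S55.EvOut
import Fermat.Agent.S55.TrInst

/-!
# S55, block LOC: the tame formula [LC6] at the outside places of `U`

For `U = Gal(ℚ̄/k)`, `k ∋ ζ_p`, `p` odd, `p ∈ S`, and the `U`-level outside data
`ev_outU (tri_out S) U ΔO` (the places of `k` above the primes outside `S`):

* `lkc_tame_outU` : at an outside place `w0`, for level 1-cocycles `ψ` (ramified: nonzero on the
  inertia group `I_{w0}`) and `χ0 ≠ 0` (unramified: zero on `I_{w0}`) with trivial coefficients,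
  `ψ ∪ χ0` is not a level coboundary;
* `lkc_tame_invW` : hence `invW (ψ ∪ χ0) ≠ 0` for every functional `invW` on level 2-cochains
  detecting coboundaries among cocycles (`[LC3]` at `w0`) — the last input `hne` of
  `evg_G4a'`.
-/

set_option autoImplicit false

open ExtCitation IsDedekindDomain NumberField

namespace Fermat.Agent.S55

local notation "Qb" => AlgebraicClosure ℚ
local notation "Γ" => (AlgebraicClosure ℚ ≃ₐ[ℚ] AlgebraicClosure ℚ)

/-- **[LC6] at the outside places of `U`.** -/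
theorem lkc_tame_outU (p : ℕ) [Fact p.Prime] (hp2 : p ≠ 2) (S : Finset Nat.Primes)
    (hpS : pPrime p ∈ S) (U : Subgroup Γ) (k : IntermediateField ℚ Qb) [FiniteDimensional ℚ k]
    (hU : U = k.fixingSubgroup) {ζ : Qb} (hζ : IsPrimitiveRoot ζ p) (hζk : ζ ∈ k)
    {WO : (tri_out S).W → Type} (ΔO : ∀ w, ShlDec ((tri_out S).ι w) U (WO w))
    (ρT : Representation (ZMod p) ↥U (ZMod p))
    (hφ : ∀ g a b, LinearMap.mul (ZMod p) (ZMod p)
        (Representation.trivial (ZMod p) ↥U (ZMod p) g a)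
        (Representation.trivial (ZMod p) ↥U (ZMod p) g b) =
      ρT g (LinearMap.mul (ZMod p) (ZMod p) a b))
    (w0 : (ev_outU (tri_out S) U ΔO).W)
    (ψ χ0 : hc_C1 ((ev_outU (tri_out S) U ΔO).LW w0)
      ((Representation.trivial (ZMod p) ↥U (ZMod p)).comp ((ev_outU (tri_out S) U ΔO).ι w0)))
    (hψ : hc_d12 ((ev_outU (tri_out S) U ΔO).LW w0)
      ((Representation.trivial (ZMod p) ↥U (ZMod p)).comp ((ev_outU (tri_out S) U ΔO).ι w0))
        ψ = 0)
    (hχ0 : hc_d12 ((ev_outU (tri_out S) U ΔO).LW w0)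
      ((Representation.trivial (ZMod p) ↥U (ZMod p)).comp ((ev_outU (tri_out S) U ΔO).ι w0))
        χ0 = 0)
    (hψI : ∃ s ∈ (ev_outU (tri_out S) U ΔO).I w0,
      (ψ : (ev_outU (tri_out S) U ΔO).H w0 → ZMod p) s ≠ 0)
    (hχI : ∀ s ∈ (ev_outU (tri_out S) U ΔO).I w0,
      (χ0 : (ev_outU (tri_out S) U ΔO).H w0 → ZMod p) s = 0)
    (hne : χ0 ≠ 0) :
    hc_cup11 ((ev_outU (tri_out S) U ΔO).LW w0)
        (fun g a b => hφ ((ev_outU (tri_out S) U ΔO).ι w0 g) a b) ψ χ0 ∉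
      LinearMap.range (hc_d12 ((ev_outU (tri_out S) U ΔO).LW w0)
        (ρT.comp ((ev_outU (tri_out S) U ΔO).ι w0))) := by
  subst hU
  have hρT : ∀ (g : ↥k.fixingSubgroup) (c : ZMod p), ρT g c = c := by
    intro g c
    have h := hφ g c 1
    simp only [Representation.trivial_apply, LinearMap.mul_apply_apply, mul_one] at h
    exact h.symm
  obtain ⟨w, a⟩ := w0
  have hpq : p ≠ ((w : {q : Nat.Primes // q ∉ S}).1 : ℕ) := by
    intro h
    apply (w : {q : Nat.Primes // q ∉ S}).2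
    have h2 : (w : {q : Nat.Primes // q ∉ S}).1 = pPrime p := Subtype.ext h.symm
    rw [h2]
    exact hpS
  exact lkc_cup11_tame_prime p hp2 (w : {q : Nat.Primes // q ∉ S}).1 hpq k hζ hζk (ΔO w) a _ _
    (fun g c => rfl) (fun g c => hρT _ c) _
    ((tri_I (w : {q : Nat.Primes // q ∉ S}).1).subgroupOf ((ΔO w).Ha a)) ψ χ0 hψ hχ0 hψI hχI hne

/-- **[LC6] + [LC3] at the outside places of `U`**: the local functional does not vanish on
`ψ ∪ χ0` (`ψ` ramified, `χ0 ≠ 0` unramified). -/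
theorem lkc_tame_invW (p : ℕ) [Fact p.Prime] (hp2 : p ≠ 2) (S : Finset Nat.Primes)
    (hpS : pPrime p ∈ S) (U : Subgroup Γ) (k : IntermediateField ℚ Qb) [FiniteDimensional ℚ k]
    (hU : U = k.fixingSubgroup) {ζ : Qb} (hζ : IsPrimitiveRoot ζ p) (hζk : ζ ∈ k)
    {WO : (tri_out S).W → Type} (ΔO : ∀ w, ShlDec ((tri_out S).ι w) U (WO w))
    (ρT : Representation (ZMod p) ↥U (ZMod p))
    (hφ : ∀ g a b, LinearMap.mul (ZMod p) (ZMod p)
        (Representation.trivial (ZMod p) ↥U (ZMod p) g a)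
        (Representation.trivial (ZMod p) ↥U (ZMod p) g b) =
      ρT g (LinearMap.mul (ZMod p) (ZMod p) a b))
    (w0 : (ev_outU (tri_out S) U ΔO).W)
    (invW0 : hc_C2 ((ev_outU (tri_out S) U ΔO).LW w0)
      (ρT.comp ((ev_outU (tri_out S) U ΔO).ι w0)) →ₗ[ZMod p] ZMod p)
    (hLC3W : ∀ x : hc_C2 ((ev_outU (tri_out S) U ΔO).LW w0)
        (ρT.comp ((ev_outU (tri_out S) U ΔO).ι w0)),
      hc_d23 ((ev_outU (tri_out S) U ΔO).LW w0)
        (ρT.comp ((ev_outU (tri_out S) U ΔO).ι w0)) x = 0 → invW0 x = 0 →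
      x ∈ LinearMap.range (hc_d12 ((ev_outU (tri_out S) U ΔO).LW w0)
        (ρT.comp ((ev_outU (tri_out S) U ΔO).ι w0))))
    (ψ χ0 : hc_C1 ((ev_outU (tri_out S) U ΔO).LW w0)
      ((Representation.trivial (ZMod p) ↥U (ZMod p)).comp ((ev_outU (tri_out S) U ΔO).ι w0)))
    (hψ : hc_d12 ((ev_outU (tri_out S) U ΔO).LW w0)
      ((Representation.trivial (ZMod p) ↥U (ZMod p)).comp ((ev_outU (tri_out S) U ΔO).ι w0))
        ψ = 0)
    (hχ0 : hc_d12 ((ev_outU (tri_out S) U ΔO).LW w0)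
      ((Representation.trivial (ZMod p) ↥U (ZMod p)).comp ((ev_outU (tri_out S) U ΔO).ι w0))
        χ0 = 0)
    (hψI : ∃ s ∈ (ev_outU (tri_out S) U ΔO).I w0,
      (ψ : (ev_outU (tri_out S) U ΔO).H w0 → ZMod p) s ≠ 0)
    (hχI : ∀ s ∈ (ev_outU (tri_out S) U ΔO).I w0,
      (χ0 : (ev_outU (tri_out S) U ΔO).H w0 → ZMod p) s = 0)
    (hne : χ0 ≠ 0) :
    invW0 (hc_cup11 ((ev_outU (tri_out S) U ΔO).LW w0)
        (fun g a b => hφ ((ev_outU (tri_out S) U ΔO).ι w0 g) a b) ψ χ0) ≠ 0 := by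
  intro hinv
  refine lkc_tame_outU p hp2 S hpS U k hU hζ hζk ΔO ρT hφ w0 ψ χ0 hψ hχ0 hψI hχI hne
    (hLC3W _ ?_ hinv)
  rw [hc_leibniz11, hψ, hχ0, map_zero, LinearMap.zero_apply, map_zero, sub_zero]

end Fermat.Agent.S55
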