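import Mathlib
import Fermat.Agent.S55.ShapLoc

/-!
# S55, block LOC, piece LP4 (continued): two counting lemmas

* `lkm_finrank_pi_le` : a product `Submodule.pi Set.univ p` of finite-dimensional submodules is
  finite-dimensional, of dimension at most the sum of bounds for the factors.
* `lkm_sum_index` : for a double coset decomposition `D : ShlDec ι U W` (`ι : H →* G`, `U ≤ G` of
  finite index), `∑ a, [H : H_a] = [G : U]` (orbit decomposition of `U \ G` under `H`).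
-/

set_option autoImplicit false

namespace Fermat.Agent.S55

/-- The product of submodules as a product of types. -/
def lkmPiEquiv {k : Type*} [Semiring k] {I : Type*} {M : I → Type*} [∀ i, AddCommMonoid (M i)]
    [∀ i, Module k (M i)] (p : ∀ i, Submodule k (M i)) :
    ↥(Submodule.pi Set.univ p) ≃ₗ[k] (∀ i, ↥(p i)) where
  toFun x i := ⟨x.1 i, x.2 i (Set.mem_univ i)⟩
  invFun y := ⟨fun i => (y i : M i), fun i _ => (y i).2⟩
  map_add' _ _ := rfl
  map_smul' _ _ := rfl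
  left_inv _ := rfl
  right_inv _ := rfl

/-- Dimension bound for a finite product of submodules. -/
theorem lkm_finrank_pi_le {k : Type*} [Field k] {I : Type*} [Fintype I] {M : I → Type*}
    [∀ i, AddCommGroup (M i)] [∀ i, Module k (M i)] (p : ∀ i, Submodule k (M i)) (d : I → ℕ)
    (h : ∀ i, Module.Finite k ↥(p i) ∧ Module.finrank k ↥(p i) ≤ d i) :
    Module.Finite k ↥(Submodule.pi Set.univ p) ∧
      Module.finrank k ↥(Submodule.pi Set.univ p) ≤ ∑ i, d i := by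
  have hfin : ∀ i, Module.Finite k ↥(p i) := fun i => (h i).1
  have h1 : Module.Finite k (∀ i, ↥(p i)) := Module.Finite.pi
  refine ⟨Module.Finite.equiv (lkmPiEquiv p).symm, ?_⟩
  rw [(lkmPiEquiv p).finrank_eq, Module.finrank_pi_fintype]
  exact Finset.sum_le_sum fun i _ => (h i).2

/-- `[K : ℚ] ≤ 2 * (rank of the unit group + 1)` for a number field (`r₁ + 2 r₂ ≤ 2 (r₁ + r₂)`). -/
theorem lkm_finrank_le_two_mul_rank (K : Type*) [Field K] [NumberField K] :
    Module.finrank ℚ K ≤ 2 * (NumberField.Units.rank K + 1) := by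
  classical
  have h1 := NumberField.InfinitePlace.card_add_two_mul_card_eq_rank K
  have h2 := NumberField.InfinitePlace.card_eq_nrRealPlaces_add_nrComplexPlaces K
  have h3 : 0 < Fintype.card (NumberField.InfinitePlace K) := Fintype.card_pos
  unfold NumberField.Units.rank
  omega

section Orbit

variable {G H : Type*} [Group G] [Group H] {ι : H →* G} {U : Subgroup G} {W : Type*}
  (D : ShlDec ι U W)

/-- The orbit map `G → Σ a, H ⧸ H_a`, `x ↦ (w x⁻¹, (hh x⁻¹)⁻¹ H_a)`. -/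
def lkmOrb (x : G) : Σ a : W, H ⧸ D.Ha a :=
  ⟨D.w x⁻¹, QuotientGroup.mk ((D.hh x⁻¹)⁻¹ : H)⟩

theorem lkm_sigma_eq {a a' : W} {y y' : H} (ha : a = a') (hy : y⁻¹ * y' ∈ D.Ha a) :
    (⟨a, QuotientGroup.mk y⟩ : Σ a : W, H ⧸ D.Ha a) = ⟨a', QuotientGroup.mk y'⟩ := by
  subst ha
  congr 1
  exact QuotientGroup.eq.2 hy

theorem lkm_sigma_eq_iff {a a' : W} {y y' : H} :
    (⟨a, QuotientGroup.mk y⟩ : Σ a : W, H ⧸ D.Ha a) = ⟨a', QuotientGroup.mk y'⟩ ↔
      a = a' ∧ y⁻¹ * y' ∈ D.Ha a := by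
  constructor
  · intro h
    obtain ⟨rfl, h2⟩ := Sigma.mk.inj_iff.1 h
    exact ⟨rfl, QuotientGroup.eq.1 (eq_of_heq h2)⟩
  · rintro ⟨ha, hy⟩
    exact lkm_sigma_eq D ha hy

theorem lkmOrb_eq_iff (x x' : G) : lkmOrb D x = lkmOrb D x' ↔ x⁻¹ * x' ∈ U := by
  unfold lkmOrb
  rw [lkm_sigma_eq_iff]
  constructor
  · rintro ⟨ha, hy⟩
    rw [inv_inv, ShlDec.mem_Ha] at hy
    have e1 := D.dec x⁻¹
    have e2 := D.dec x'⁻¹
    have e3 : x⁻¹ * x' = (D.uu x⁻¹ : G) * (D.g (D.w x⁻¹) * ι (D.hh x⁻¹ * (D.hh x'⁻¹)⁻¹) *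
        (D.g (D.w x⁻¹))⁻¹) * ((D.uu x'⁻¹ : G))⁻¹ := by
      have e4 : x' = (x'⁻¹)⁻¹ := (inv_inv x').symm
      conv_lhs => rw [e1, e4, e2]
      rw [← ha]
      simp only [map_mul, map_inv, mul_inv_rev, mul_assoc]
    rw [e3]
    exact U.mul_mem (U.mul_mem (D.uu x⁻¹).2 hy) (U.inv_mem (D.uu x'⁻¹).2)
  · intro h
    have e1 : x'⁻¹ = ((⟨(x⁻¹ * x')⁻¹, U.inv_mem h⟩ : U) : G) * x⁻¹ := by
      simp
    refine ⟨?_, ?_⟩
    · rw [e1, D.w_left]
    · rw [e1, D.hh_left, inv_inv, mul_inv_cancel]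
      exact (D.Ha _).one_mem

theorem lkmOrb_surjective : Function.Surjective (lkmOrb D) := by
  rintro ⟨a, y⟩
  induction y using QuotientGroup.induction_on with
  | H y =>
    refine ⟨(D.g a * ι y⁻¹)⁻¹, ?_⟩
    unfold lkmOrb
    rw [inv_inv]
    refine lkm_sigma_eq D ?_ ?_
    · rw [D.w_right, D.w_g]
    · rw [inv_inv, D.w_right, D.w_g]
      have h := (D.Ha a).inv_mem (D.rr_mem a y⁻¹)
      rw [mul_inv_rev, inv_inv, inv_inv] at h
      exact h

/-- **Orbit decomposition**: `∑_a [H : H_a] = [G : U]`. -/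
theorem lkm_sum_index [Fintype W] [U.FiniteIndex] :
    ∑ a, (D.Ha a).index = U.index := by
  classical
  let Ψ : G ⧸ U → Σ a : W, H ⧸ D.Ha a :=
    Quotient.lift (lkmOrb D) (fun x x' h => (lkmOrb_eq_iff D x x').2 (QuotientGroup.leftRel_apply.1 h))
  have hinj : Function.Injective Ψ := by
    intro z z' h
    induction z using QuotientGroup.induction_on with
    | H x =>
      induction z' using QuotientGroup.induction_on with
      | H x' =>
        exact QuotientGroup.eq.2 ((lkmOrb_eq_iff D x x').1 h)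
  have hsurj : Function.Surjective Ψ := by
    intro s
    obtain ⟨x, hx⟩ := lkmOrb_surjective D s
    exact ⟨QuotientGroup.mk x, hx⟩
  have hfinQ : Finite (G ⧸ U) := Subgroup.finite_quotient_of_finiteIndex
  have hfinS : Finite (Σ a : W, H ⧸ D.Ha a) := Finite.of_surjective Ψ hsurj
  have hfin : ∀ a, Finite (H ⧸ D.Ha a) := fun a =>
    Finite.of_injective (fun y : H ⧸ D.Ha a => (⟨a, y⟩ : Σ a : W, H ⧸ D.Ha a))
      (fun y y' hyy => eq_of_heq (Sigma.mk.inj_iff.1 hyy).2)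
  have h1 : Nat.card (G ⧸ U) = Nat.card (Σ a : W, H ⧸ D.Ha a) :=
    Nat.card_eq_of_bijective Ψ ⟨hinj, hsurj⟩
  rw [Subgroup.index, h1, Nat.card_sigma]
  rfl

end Orbit

end Fermat.Agent.S55
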