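import Mathlib
import Fermat.Agent.S55.LocLimCyc
import Fermat.Agent.S55.LocNormIndex
import Fermat.Agent.S55.LocInfNorm

/-!
# S55 block LOC, multiplicative form of [LC4]: a carry cocycle which is not a level coboundary

Model: `K` a nonarchimedean local field, `Ω` an algebraic closure, `Γ = Ω ≃ₐ[K] Ω`.
For a nonzero additive level character `χ : Γ → ZMod p` the fixed field of `ker χ` is a cyclic
extension of `K` of degree `p`; by the local norm index theorem some `b ∈ Kˣ` is not a norm from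
it (`llc4_exists_not_norm`), hence by the cyclic criterion `loc_gcb_norm` the carry cocycle
`loc_ucoc p χ b` is not a level coboundary (`loc_exists_not_cob`).
-/

set_option autoImplicit false

namespace Fermat.Agent.S55

open IntermediateField

section lc4

variable (K Ω : Type) [NontriviallyNormedField K] [IsUltrametricDist K] [ProperSpace K]
  [NormedField Ω] [NormedAlgebra K Ω] [IsGalois K Ω]

set_option maxHeartbeats 1000000 in
/-- **A non-norm** for the cyclic extension of degree `p` cut out by a character `χ` with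
`χ σ = 1`: some `b ∈ Kˣ` is not of the form `∏_{j<p} σ^j y` with `y` fixed by `ker χ`. -/
theorem llc4_exists_not_norm (p : ℕ) [Fact p.Prime] (χ : (Ω ≃ₐ[K] Ω) → ZMod p)
    (hχ : ∀ g h, χ (g * h) = χ g + χ h) (M₀ : IntermediateField K Ω) [FiniteDimensional K M₀]
    (hχl : loc_IsLvlχ M₀ χ) (σ : Ω ≃ₐ[K] Ω) (hσ : χ σ = 1) :
    ∃ b : Kˣ, ∀ y : Ωˣ, (∀ s, χ s = 0 → s • y = y) →
      Units.map (algebraMap K Ω : K →* Ω) b ≠ loc_pnorm σ y p := by
  classical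
  have hp : p.Prime := Fact.out
  -- `H₂ = ker χ`
  let H₂ : Subgroup (Ω ≃ₐ[K] Ω) :=
    { carrier := {s | χ s = 0}
      mul_mem' := fun {a b} ha hb => by
        show χ (a * b) = 0
        rw [hχ, show χ a = 0 from ha, show χ b = 0 from hb, add_zero]
      one_mem' := loc_chi_one χ hχ
      inv_mem' := fun {a} ha => by
        show χ a⁻¹ = 0
        rw [loc_chi_inv χ hχ, show χ a = 0 from ha, neg_zero] }
  have hmemH₂ : ∀ g, g ∈ H₂ ↔ χ g = 0 := fun g => Iff.rfl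
  have hH₂normal : H₂.Normal := ⟨fun s hs g => by
    show χ (g * s * g⁻¹) = 0
    rw [hχ, hχ, loc_chi_inv χ hχ, show χ s = 0 from hs]
    ring⟩
  have hM₀le : M₀.fixingSubgroup ≤ H₂ := by
    intro s hs
    have h2 := hχl 1 s hs
    rw [one_mul, loc_chi_one χ hχ] at h2
    exact h2
  have hopen : IsOpen (H₂ : Set (Ω ≃ₐ[K] Ω)) :=
    Subgroup.isOpen_mono hM₀le M₀.fixingSubgroup_isOpen
  have hclosed : IsClosed (H₂ : Set (Ω ≃ₐ[K] Ω)) := Subgroup.isClosed_of_isOpen H₂ hopen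
  let L₂ : IntermediateField K Ω := IntermediateField.fixedField H₂
  have hfix : L₂.fixingSubgroup = H₂ := InfiniteGalois.fixingSubgroup_fixedField ⟨H₂, hclosed⟩
  have hL₂fin : FiniteDimensional K L₂ := by
    refine (InfiniteGalois.isOpen_iff_finite L₂).1 ?_
    rw [hfix]
    exact hopen
  have hL₂gal : IsGalois K L₂ := by
    refine (InfiniteGalois.normal_iff_isGalois L₂).1 ?_
    rw [hfix]
    exact hH₂normal
  -- the Galois group of `L₂ / K`
  let res : (Ω ≃ₐ[K] Ω) →* (L₂ ≃ₐ[K] L₂) := AlgEquiv.restrictNormalHom L₂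
  have hres_surj : Function.Surjective res := AlgEquiv.restrictNormalHom_surjective Ω
  have hker : ∀ γ, res γ = 1 ↔ γ ∈ H₂ := by
    intro γ
    rw [← hfix, ← IntermediateField.restrictNormalHom_ker]
    exact MonoidHom.mem_ker.symm
  let σ₂ : L₂ ≃ₐ[K] L₂ := res σ
  have hgen : ∀ τ, τ ∈ Subgroup.zpowers σ₂ := by
    intro τ
    obtain ⟨g, rfl⟩ := hres_surj τ
    have hs : χ ((σ ^ (χ g).val)⁻¹ * g) = 0 := by
      rw [hχ, loc_chi_inv χ hχ, loc_chi_pow χ hχ, hσ, mul_one, ZMod.natCast_zmod_val]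
      ring
    have h1 : res ((σ ^ (χ g).val)⁻¹ * g) = 1 := (hker _).2 ((hmemH₂ _).2 hs)
    rw [map_mul, map_inv, map_pow, inv_mul_eq_one] at h1
    rw [← h1]
    exact Subgroup.pow_mem _ (Subgroup.mem_zpowers σ₂) _
  have hσ₂ne : σ₂ ≠ 1 := by
    intro h
    have := (hmemH₂ σ).1 ((hker _).1 h)
    rw [hσ] at this
    exact one_ne_zero this
  have hσ₂pow : σ₂ ^ p = 1 := by
    show res σ ^ p = 1
    rw [← map_pow]
    apply (hker _).2
    apply (hmemH₂ _).2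
    rw [loc_chi_pow χ hχ, hσ, mul_one]
    exact ZMod.natCast_self p
  have hord : orderOf σ₂ = p := orderOf_eq_prime hσ₂pow hσ₂ne
  have hcard : Nat.card (L₂ ≃ₐ[K] L₂) = p := by
    rw [← orderOf_eq_card_of_forall_mem_zpowers hgen, hord]
  have hfinrank : Module.finrank K L₂ ≠ 1 := by
    rw [← IsGalois.card_aut_eq_finrank, hcard]
    exact hp.ne_one
  obtain ⟨b, hb⟩ := loc_exists_not_norm (K := K) (L := ↥L₂) σ₂ hgen hfinrank
  refine ⟨b, fun y hy hby => ?_⟩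
  -- `y ∈ L₂`
  have hyL : (y : Ω) ∈ L₂ := by
    rw [IntermediateField.mem_fixedField_iff]
    intro γ hγ
    exact congrArg Units.val (hy γ hγ)
  let y₂ : (↥L₂)ˣ := Units.mk0 ⟨(y : Ω), hyL⟩
    (fun h0 => Units.ne_zero y (congrArg Subtype.val h0))
  apply hb y₂
  have h1 := Algebra.norm_eq_prod_automorphisms K ((y₂ : (↥L₂)ˣ) : ↥L₂)
  rw [linf_prod_pow σ₂ hgen, ← Nat.card_eq_fintype_card, hcard] at h1
  have h2 := congrArg (fun z : ↥L₂ => (z : Ω)) h1
  have h3 := congrArg Units.val hby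
  simp only [loc_pnorm, Units.coe_map, MonoidHom.coe_coe, Units.coe_prod] at h3
  have h5 : ((∏ i ∈ Finset.range p, (σ₂ ^ i) ((y₂ : (↥L₂)ˣ) : ↥L₂) : ↥L₂) : Ω) =
      ∏ i ∈ Finset.range p, (σ ^ i) (y : Ω) := by
    show L₂.val (∏ i ∈ Finset.range p, (σ₂ ^ i) ((y₂ : (↥L₂)ˣ) : ↥L₂)) = _
    rw [map_prod]
    refine Finset.prod_congr rfl fun i _ => ?_
    have h6 : σ₂ ^ i = res (σ ^ i) := by
      show res σ ^ i = res (σ ^ i)
      rw [map_pow]
    rw [h6]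
    exact AlgEquiv.restrictNormal_commutes (σ ^ i) L₂ ((y₂ : (↥L₂)ˣ) : ↥L₂)
  have h7 : ((algebraMap K ↥L₂ (Algebra.norm K ((y₂ : (↥L₂)ˣ) : ↥L₂)) : ↥L₂) : Ω) =
      ((∏ i ∈ Finset.range p, (σ₂ ^ i) ((y₂ : (↥L₂)ˣ) : ↥L₂) : ↥L₂) : Ω) := h2
  have h8 : algebraMap K Ω (Algebra.norm K ((y₂ : (↥L₂)ˣ) : ↥L₂)) = algebraMap K Ω (b : K) := by
    have h9 : ((algebraMap K ↥L₂ (Algebra.norm K ((y₂ : (↥L₂)ˣ) : ↥L₂)) : ↥L₂) : Ω) =
        algebraMap K Ω (Algebra.norm K ((y₂ : (↥L₂)ˣ) : ↥L₂)) := rfl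
    rw [← h9, h7, h5, h3]
    rfl
  exact (algebraMap K Ω).injective h8

/-- **[LC4], multiplicative form.**  For a nonzero additive level character `χ : Γ → ZMod p`
there is `b ∈ Kˣ` whose carry cocycle `loc_ucoc p χ b` is not a level coboundary. -/
theorem loc_exists_not_cob (p : ℕ) [Fact p.Prime] (χ : (Ω ≃ₐ[K] Ω) → ZMod p)
    (hχ : ∀ g h, χ (g * h) = χ g + χ h) (M₀ : IntermediateField K Ω) [FiniteDimensional K M₀]
    (hχl : loc_IsLvlχ M₀ χ) (hne : ∃ g, χ g ≠ 0) :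
    ∃ b : Kˣ, ¬ loc_IsLevCob (loc_ucoc p χ (Units.map (algebraMap K Ω : K →* Ω) b)) := by
  obtain ⟨g₀, hg₀⟩ := hne
  obtain ⟨σ, hσ⟩ : ∃ σ, χ σ = 1 := by
    refine ⟨g₀ ^ ((χ g₀)⁻¹).val, ?_⟩
    rw [loc_chi_pow χ hχ, ZMod.natCast_zmod_val, inv_mul_cancel₀ hg₀]
  obtain ⟨b, hb⟩ := llc4_exists_not_norm K Ω p χ hχ M₀ hχl σ hσ
  refine ⟨b, fun hcob => ?_⟩
  obtain ⟨y, hy, hnorm⟩ := loc_gcb_norm χ hχ M₀ hχl σ hσ b hcob
  exact hb y hy hnorm

end lc4

end Fermat.Agent.S55
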