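import Mathlib
import Fermat.Agent.S55.LocLimInertia
import Fermat.Agent.S55.IfaceFields
import Fermat.Agent.S55.Places2
import Fermat.Agent.S55.LocBridge

/-!
# S55 block LOC, part 3i: norm-theoretic inertia = inertia of the `q`-adic place

For `g ∈ Gal(PadicAlgCl q / ℚ_q)`: `g ∈ loc_inertia ℚ_[q] (PadicAlgCl q)` iff its image in
`Gal(ℚ̄/ℚ)` lies in the inertia subgroup of `padicPlace q` (the Prelude's notion).
-/

set_option autoImplicit false

namespace Fermat.Agent.S55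

variable (q : ℕ) [Fact q.Prime]

theorem loc_inertia_of_place (g : PadicAlgCl q ≃ₐ[ℚ_[q]] PadicAlgCl q)
    (hg : localGaloisToGlobal q g ∈ (padicPlace q).inertiaSubgroupIn ℚ) :
    g ∈ loc_inertia ℚ_[q] (PadicAlgCl q) := by
  apply loc_mem_inertia_of_chi
  intro N hN
  rw [loc_chi_eq_zero_iff]
  have hζ := loc_zeta_spec ℚ_[q] (PadicAlgCl q) N
  set ζ := loc_zeta ℚ_[q] (PadicAlgCl q) N with hζdef
  have hr0 : loc_r ℚ_[q] N ≠ 0 := (loc_r_pos ℚ_[q] N).ne'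
  have hintZ : IsIntegral ℤ ζ := hζ.isIntegral (loc_r_pos ℚ_[q] N)
  have hint : IsIntegral ℚ ζ := hintZ.tower_top
  obtain ⟨b, hb⟩ := brl_mem_range_of_isIntegral q hint
  have hζn : ‖ζ‖ = 1 := unr_norm_eq_one_of_pow_eq_one hr0 hζ.pow_eq_one
  have hbA : b ∈ padicPlace q := by
    rw [mem_padicPlace_iff, hb]
    exact_mod_cast hζn.le
  have h1 := ((pt_mem_inertia_iff _ _).mp hg).2 b hbA
  rw [pl_mem_nonunits_padicPlace_iff, map_sub, padicEmbedding_localGaloisToGlobal, hb] at h1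
  by_contra hne
  have hrΩ : ‖(loc_r ℚ_[q] N : PadicAlgCl q)‖ = 1 := by
    have : (loc_r ℚ_[q] N : PadicAlgCl q) = algebraMap ℚ_[q] (PadicAlgCl q) (loc_r ℚ_[q] N : ℚ_[q]) := by
      simp
    rw [this, norm_algebraMap', loc_norm_r]
  have h2 : (g ζ) ^ loc_r ℚ_[q] N = 1 := by rw [← map_pow, hζ.pow_eq_one, map_one]
  have h3 := unr_norm_sub_eq_one hrΩ h2 hζ.pow_eq_one hne
  rw [h3] at h1
  exact lt_irrefl _ h1

theorem loc_place_of_inertia (g : PadicAlgCl q ≃ₐ[ℚ_[q]] PadicAlgCl q)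
    (hg : g ∈ loc_inertia ℚ_[q] (PadicAlgCl q)) :
    localGaloisToGlobal q g ∈ (padicPlace q).inertiaSubgroupIn ℚ := by
  rw [pt_mem_inertia_iff]
  refine ⟨localGaloisToGlobal_mem_decompositionSubgroup q g, fun a ha => ?_⟩
  rw [pl_mem_nonunits_padicPlace_iff, map_sub, padicEmbedding_localGaloisToGlobal]
  apply hg
  rw [mem_padicPlace_iff] at ha
  exact_mod_cast ha

theorem loc_mem_inertia_iff_place (g : PadicAlgCl q ≃ₐ[ℚ_[q]] PadicAlgCl q) :
    g ∈ loc_inertia ℚ_[q] (PadicAlgCl q) ↔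
      localGaloisToGlobal q g ∈ (padicPlace q).inertiaSubgroupIn ℚ :=
  ⟨loc_place_of_inertia q g, loc_inertia_of_place q g⟩

end Fermat.Agent.S55
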