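/-
S55 block LOC-3, lifting lemma for (NF): an automorphism of a normal layer `M/K` fixing
`L ≤ M` pointwise lifts to an element of `Gal(Ω/L)`.
-/
import Mathlib

namespace Fermat.Agent.S55

/-- Lifting: `s ∈ Gal(M/K)` fixing `L ≤ M` pointwise is the restriction of some
`g ∈ Gal(Ω/L)`. -/
theorem loc_exists_lift_fixing {K Ω : Type*} [Field K] [Field Ω] [Algebra K Ω] [Normal K Ω]
    (L M : IntermediateField K Ω) [Normal K M] (hLM : L ≤ M) (s : M ≃ₐ[K] M)
    (hs : ∀ y : M, (y : Ω) ∈ L → s y = y) :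
    ∃ g : Ω ≃ₐ[L] Ω, ∀ y : M, g (y : Ω) = (s y : Ω) := by
  have hcomm : ∀ y : M, s.liftNormal Ω (y : Ω) = (s y : Ω) := fun y =>
    AlgEquiv.liftNormal_commutes s Ω y
  have hfix : s.liftNormal Ω ∈ L.fixingSubgroup := by
    rw [IntermediateField.mem_fixingSubgroup_iff]
    intro x hx
    have h1 := hcomm ⟨x, hLM hx⟩
    rw [hs ⟨x, hLM hx⟩ hx] at h1
    exact h1
  refine ⟨IntermediateField.fixingSubgroupEquiv L ⟨s.liftNormal Ω, hfix⟩, fun y => ?_⟩
  exact hcomm y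

/-- The same, with the lift also given as an element of `Gal(Ω/K)` fixing `L`. -/
theorem loc_exists_lift_fixing' {K Ω : Type*} [Field K] [Field Ω] [Algebra K Ω] [Normal K Ω]
    (L M : IntermediateField K Ω) [Normal K M] (hLM : L ≤ M) (s : M ≃ₐ[K] M)
    (hs : ∀ y : M, (y : Ω) ∈ L → s y = y) :
    ∃ g : Ω ≃ₐ[L] Ω, (∀ y : M, g (y : Ω) = (s y : Ω)) ∧
      AlgEquiv.restrictNormalHom M (g.restrictScalars K) = s := by
  obtain ⟨g, hg⟩ := loc_exists_lift_fixing L M hLM s hs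
  refine ⟨g, hg, ?_⟩
  ext y
  have h1 : ((AlgEquiv.restrictNormalHom M (g.restrictScalars K) y : M) : Ω) =
      (g.restrictScalars K) (y : Ω) :=
    AlgEquiv.restrictNormal_commutes (g.restrictScalars K) M y
  rw [h1]
  exact hg y

end Fermat.Agent.S55
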