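import Mathlib
import Fermat.Agent.S55.LocLimUnr

/-!
# S55 block REC, step (v) at the unramified places: the carry cocycle of an unramified character

`K` a local field, `Ω` an algebraic closure with compatible norm, `Γ = Ω ≃ₐ[K] Ω`.

* `recu_ucoc_change` (pure algebra, change of character): for an additive `χ : G → ZMod n`,
  a `G`-fixed `a` and `c : ℕ`:
  `loc_ucoc n (c • χ) a · d(β) = loc_ucoc n χ (a ^ c)`, `β g = a ^ ⌊c · (χ g).val / n⌋`.
* `recu_chi_eq` : an additive `χ : Γ → ZMod n` which factors through `Gal(K(ζ_Q)/K)`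
  (`‖Q‖ = 1`) is `c · loc_chi K Ω n`, where `c = χ(Frob)` for any `Frob` with
  `Frob ζ_Q = ζ_Q ^ q_K`.
* `recu_unr_cob` : for such `χ` and `b ∈ Kˣ`, the carry cocycle `loc_ucoc n χ b` differs from
  the unramified normal form `loc_u K Ω n (b ^ c)` by a level coboundary.
-/

set_option autoImplicit false

namespace Fermat.Agent.S55

open IntermediateField

/-- numerics for the change of character. -/
lemma recu_carry_change (n : ℕ) [NeZero n] (c : ℕ) (x y : ZMod n) :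
    loc_carry n ((c : ZMod n) * x) ((c : ZMod n) * y) + c * x.val / n + c * y.val / n =
      c * loc_carry n x y + c * (x + y).val / n := by
  have h1 := loc_carry_spec n ((c : ZMod n) * x) ((c : ZMod n) * y)
  have h2 := loc_carry_spec n x y
  have hv : ∀ z : ZMod n, ((c : ZMod n) * z).val = (c * z.val) % n := by
    intro z
    rw [ZMod.val_mul, ZMod.val_natCast, Nat.mod_mul_mod]
  rw [← mul_add, hv, hv, hv] at h1
  have h3 : c * x.val + c * y.val = c * (x + y).val + n * (c * loc_carry n x y) := by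
    rw [← mul_add, h2]; ring
  have e1 := Nat.div_add_mod (c * x.val) n
  have e2 := Nat.div_add_mod (c * y.val) n
  have e3 := Nat.div_add_mod (c * (x + y).val) n
  have hn : 0 < n := Nat.pos_of_ne_zero (NeZero.ne n)
  apply Nat.eq_of_mul_eq_mul_left hn
  rw [mul_add, mul_add, mul_add]
  linarith

/-- **Change of character** for carry cocycles: `(c • χ, a) = (χ, a ^ c)` up to the coboundary
of `g ↦ a ^ ⌊c · (χ g).val / n⌋`. -/
theorem recu_ucoc_change {G A : Type*} [Group G] [CommGroup A] [MulDistribMulAction G A]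
    (n : ℕ) [NeZero n] (χ : G → ZMod n) (hχ : ∀ g h, χ (g * h) = χ g + χ h) (c : ℕ) (a : A)
    (ha : ∀ g : G, g • a = a) (g h : G) :
    loc_ucoc n (fun g => (c : ZMod n) * χ g) a (g, h) *
        (g • (a ^ (c * (χ h).val / n)) / a ^ (c * (χ (g * h)).val / n) *
          a ^ (c * (χ g).val / n)) =
      loc_ucoc n χ (a ^ c) (g, h) := by
  have key := recu_carry_change n c (χ g) (χ h)
  simp only [loc_ucoc_apply, smul_pow', ha, hχ]
  rw [div_mul_eq_mul_div, mul_div_assoc', div_eq_iff_eq_mul, ← pow_mul, ← pow_add, ← pow_add,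
    ← pow_add]
  congr 1
  linarith

section local_

variable (K Ω : Type) [NontriviallyNormedField K] [IsUltrametricDist K] [ProperSpace K]
  [NormedField Ω] [NormedAlgebra K Ω] [IsAlgClosed Ω] [Algebra.IsAlgebraic K Ω] [IsGalois K Ω]

/-- An additive character of `Gal(Ω/K)` which factors through `Gal(K(ζ_Q)/K)`, `Q` prime to the
residue characteristic, is a multiple of the unramified character of degree `n`:
`χ = c · loc_chi K Ω n` with `c = χ(Frob)`. -/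
theorem recu_chi_eq (n : ℕ) [NeZero n] (χ : (Ω ≃ₐ[K] Ω) → ZMod n)
    (hχ : ∀ g h, χ (g * h) = χ g + χ h) (Q : ℕ) (hQ : ‖(Q : K)‖ = 1) (ζ : Ω)
    (hζ : IsPrimitiveRoot ζ Q) (hker : ∀ g : Ω ≃ₐ[K] Ω, g ζ = ζ → χ g = 0)
    (c : ℕ) (hc : ∀ g : Ω ≃ₐ[K] Ω, g ζ = ζ ^ unr_q K → χ g = (c : ZMod n))
    (g : Ω ≃ₐ[K] Ω) : χ g = (c : ZMod n) * loc_chi K Ω n g := by
  have hQ0 : Q ≠ 0 := by
    rintro rfl
    simp at hQ
  obtain ⟨ℓ, a, hℓ, ha, hqa, hℓn⟩ := unr_exists_char K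
  have hcop : Nat.Coprime (unr_q K) Q := by
    rw [hqa]
    apply Nat.Coprime.pow_left
    rw [hℓ.coprime_iff_not_dvd]
    rintro ⟨d, rfl⟩
    rw [Nat.cast_mul, norm_mul] at hQ
    have hd : ‖(d : K)‖ ≤ 1 := IsUltrametricDist.norm_natCast_le_one K d
    nlinarith [norm_nonneg (ℓ : K), norm_nonneg (d : K)]
  set t := Q.totient with ht
  have : NeZero t := ⟨(Nat.totient_pos.mpr (Nat.pos_of_ne_zero hQ0)).ne'⟩
  have hdvd : Q ∣ loc_r K (n * t) := by
    have h1 : unr_q K ^ t ≡ 1 [MOD Q] := Nat.ModEq.pow_totient hcop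
    have h2 : unr_q K ^ (n * t) ≡ 1 [MOD Q] := by
      rw [mul_comm, pow_mul]
      simpa using h1.pow n
    unfold loc_r
    exact (Nat.modEq_iff_dvd' (Nat.one_le_pow _ _ (unr_q_pos K))).mp h2.symm
  have hζr : ζ ^ loc_r K (n * t) = 1 := by
    obtain ⟨d, hd⟩ := hdvd
    rw [hd, pow_mul, hζ.pow_eq_one, one_pow]
  have hact : ∀ g : Ω ≃ₐ[K] Ω, g ζ = ζ ^ (unr_q K ^ (loc_chi K Ω (n * t) g).val) :=
    fun g => loc_chi_all K Ω (n * t) g ζ hζr
  obtain ⟨σ, hσ⟩ := loc_exists_chi_eq_one K (Ω := Ω) (n * t)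
  have hσζ : σ ζ = ζ ^ unr_q K := by
    rw [hact σ, hσ]
    have h1 := loc_q_pow_modEq K (n * t) (1 : ZMod (n * t)).val 1
      (by rw [ZMod.val_one_eq_one_mod]; exact Nat.mod_modEq 1 _)
    rw [pow_one] at h1
    exact pow_eq_pow_of_modEq h1 hζr
  have hχσ : χ σ = c := hc σ hσζ
  set ν := (loc_chi K Ω (n * t) g).val with hν
  have h3 : loc_chi K Ω (n * t) (σ ^ ν) = loc_chi K Ω (n * t) g := by
    rw [loc_chi_pow _ (loc_chi_mul K Ω (n * t)), hσ, mul_one, hν, ZMod.natCast_zmod_val]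
  have h4 : ((σ ^ ν)⁻¹ * g) ζ = ζ := by
    rw [AlgEquiv.mul_apply, hact g, ← h3, ← hact (σ ^ ν)]
    exact (σ ^ ν).symm_apply_apply ζ
  have h5 := hker _ h4
  rw [hχ, loc_chi_inv χ hχ, loc_chi_pow χ hχ, hχσ] at h5
  have h6 : (ν : ZMod n) = loc_chi K Ω n g := by
    have := loc_chi_compat K Ω n t g
    rw [← ZMod.natCast_zmod_val (loc_chi K Ω n g), this, ← hν, ZMod.natCast_mod]
  rw [← h6]
  linear_combination h5

/-- **The carry cocycle of an unramified character** is the unramified normal form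
`u_{n, b ^ c}` up to a level coboundary, `c = χ(Frob)`. -/
theorem recu_unr_cob (n : ℕ) [NeZero n] (χ : (Ω ≃ₐ[K] Ω) → ZMod n)
    (hχ : ∀ g h, χ (g * h) = χ g + χ h) (Q : ℕ) (hQ : ‖(Q : K)‖ = 1) (ζ : Ω)
    (hζ : IsPrimitiveRoot ζ Q) (hker : ∀ g : Ω ≃ₐ[K] Ω, g ζ = ζ → χ g = 0)
    (c : ℕ) (hc : ∀ g : Ω ≃ₐ[K] Ω, g ζ = ζ ^ unr_q K → χ g = (c : ZMod n)) (b : Kˣ) :
    loc_IsLevCob (loc_ucoc n χ (Units.map (algebraMap K Ω : K →* Ω) b) /
      loc_u K Ω n (b ^ c)) := by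
  have hχeq : χ = fun g => (c : ZMod n) * loc_chi K Ω n g :=
    funext (recu_chi_eq K Ω n χ hχ Q hQ ζ hζ hker c hc)
  set B : Ωˣ := Units.map (algebraMap K Ω : K →* Ω) b with hB
  have hBfix : ∀ g : Ω ≃ₐ[K] Ω, g • B = B := fun g => Units.ext (g.commutes (b : K))
  refine ⟨fun g => (B ^ (c * (loc_chi K Ω n g).val / n))⁻¹,
    ⟨K⟮loc_zeta K Ω n⟯, (loc_cyc_facts K n _ (loc_zeta_spec K Ω n)).1,
      fun g s hs => ?_, fun g => ?_⟩, ?_⟩
  · show (B ^ _)⁻¹ = (B ^ _)⁻¹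
    rw [loc_chi_isLvl K Ω n g s hs]
  · simp only [hB, Units.val_inv_eq_inv_val, Units.val_pow_eq_pow_val, Units.coe_map,
      MonoidHom.coe_coe]
    exact inv_mem (pow_mem (IntermediateField.algebraMap_mem _ _) _)
  · funext ⟨g, h⟩
    have key := recu_ucoc_change n (loc_chi K Ω n) (loc_chi_mul K Ω n) c B hBfix g h
    simp only [Pi.div_apply, loc_d₁_apply, loc_u, map_pow, hχeq, smul_inv']
    rw [← hB, ← key, div_mul_cancel_left, mul_inv, inv_div, inv_div_inv]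

/-- **The invariant of the carry cocycle of an unramified character** (consumer form): for any
function `inv` on 2-cochains which is constant modulo level coboundaries and normalised on the
unramified normal forms `u_{n,a}` (`inv (u_{n,a}) = m` when `p · ord a = n · m`), the carry
cocycle `(χ, b)` of an unramified character has invariant `m` whenever
`p · (c · ord b) = n · m`, `c = χ(Frob)`. -/
theorem recu_unr_inv (n : ℕ) [NeZero n] (χ : (Ω ≃ₐ[K] Ω) → ZMod n)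
    (hχ : ∀ g h, χ (g * h) = χ g + χ h) (Q : ℕ) (hQ : ‖(Q : K)‖ = 1) (ζ : Ω)
    (hζ : IsPrimitiveRoot ζ Q) (hker : ∀ g : Ω ≃ₐ[K] Ω, g ζ = ζ → χ g = 0)
    (c : ℕ) (hc : ∀ g : Ω ≃ₐ[K] Ω, g ζ = ζ ^ unr_q K → χ g = (c : ZMod n))
    {p : ℕ} (inv : ((Ω ≃ₐ[K] Ω) × (Ω ≃ₐ[K] Ω) → Ωˣ) → ZMod p)
    (h3 : ∀ x y, loc_IsLevCob (x / y) → inv x = inv y)
    {ϖ : K} (hϖ : loc_IsUnif ϖ)
    (h4 : ∀ (a : Kˣ) (m : ℤ), (p : ℤ) * loc_ord hϖ (Additive.ofMul a) = n * m →
      inv (loc_u K Ω n a) = (m : ZMod p))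
    (b : Kˣ) (m : ℤ) (hm : (p : ℤ) * (c * loc_ord hϖ (Additive.ofMul b)) = n * m) :
    inv (loc_ucoc n χ (Units.map (algebraMap K Ω : K →* Ω) b)) = (m : ZMod p) := by
  rw [h3 _ _ (recu_unr_cob K Ω n χ hχ Q hQ ζ hζ hker c hc b)]
  apply h4
  rw [ofMul_pow, map_nsmul, nsmul_eq_mul]
  exact hm

end local_

end Fermat.Agent.S55
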