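import Mathlib
import Fermat.Agent.S55.LocLimCoc
import Fermat.Agent.S55.RecUnrLoc
import Fermat.Agent.S55.LocLimInvQ

/-!
# S55 block REC, R5: carry cocycles under change of character and change of modulus

Pure `loc_` model: `K ⊆ Ω` fields, `Γ = Ω ≃ₐ[K] Ω`, cochains are plain functions.

* `rec_ucoc_smul_char` : `loc_ucoc n (t • ψ) A / loc_ucoc n ψ (A ^ t.val)` is a level coboundary
  (`β g = (A ^ (t.val * (ψ g).val / n))⁻¹`).
* `rec_ucoc_cast` : `loc_ucoc (n * t) ψ (A ^ t) / loc_ucoc n ψ₀ A` is a level coboundary when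
  `ψ₀ = ψ mod n` (`β g = A ^ ((ψ g).val / n)`).
* `rec_unr_q` : the residue field of `ℚ_q` has `q` elements.
-/

set_option autoImplicit false

namespace Fermat.Agent.S55

open IntermediateField

section R5

variable {K Ω : Type} [Field K] [Field Ω] [Algebra K Ω]

/-- **R5a: change of character.** -/
theorem rec_ucoc_smul_char {n : ℕ} [NeZero n] (ψ : (Ω ≃ₐ[K] Ω) → ZMod n)
    (hψ : ∀ g h, ψ (g * h) = ψ g + ψ h)
    (M : IntermediateField K Ω) [FiniteDimensional K M] (hM : loc_IsLvlχ M ψ) (t : ZMod n)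
    (A : Ωˣ) (hA : ∀ g : Ω ≃ₐ[K] Ω, g • A = A) (hAM : (A : Ω) ∈ M) :
    loc_IsLevCob (loc_ucoc n (fun g => t * ψ g) A / loc_ucoc n ψ (A ^ t.val)) := by
  refine ⟨fun g => (A ^ (t.val * (ψ g).val / n))⁻¹, ⟨M, inferInstance, fun g s hs => ?_,
    fun g => ?_⟩, ?_⟩
  · show (A ^ _)⁻¹ = (A ^ _)⁻¹
    rw [hM g s hs]
  · show ((A ^ (t.val * (ψ g).val / n))⁻¹ : Ωˣ).val ∈ M
    rw [← inv_pow, Units.val_pow_eq_pow_val, Units.val_inv_eq_inv_val]
    exact pow_mem (inv_mem hAM) _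
  · funext ⟨g, h⟩
    have key := recu_ucoc_change n ψ hψ t.val A hA g h
    rw [ZMod.natCast_zmod_val] at key
    rw [Pi.div_apply, loc_d₁_apply, ← key, div_mul_cancel_left, mul_inv, inv_div, smul_inv',
      inv_div_inv]

/-- **R5b: change of modulus.** -/
theorem rec_ucoc_cast {n t : ℕ} [NeZero n] [NeZero t] (ψ : (Ω ≃ₐ[K] Ω) → ZMod (n * t))
    (hψ : ∀ g h, ψ (g * h) = ψ g + ψ h)
    (M : IntermediateField K Ω) [FiniteDimensional K M] (hM : loc_IsLvlχ M ψ)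
    (ψ₀ : (Ω ≃ₐ[K] Ω) → ZMod n) (h₀ : ∀ g, (ψ₀ g).val = (ψ g).val % n)
    (A : Ωˣ) (hA : ∀ g : Ω ≃ₐ[K] Ω, g • A = A) (hAM : (A : Ω) ∈ M) :
    loc_IsLevCob (loc_ucoc (n * t) ψ (A ^ t) / loc_ucoc n ψ₀ A) := by
  refine ⟨fun g => A ^ ((ψ g).val / n), ⟨M, inferInstance, fun g s hs => ?_, fun g => ?_⟩, ?_⟩
  · show A ^ _ = A ^ _
    rw [hM g s hs]
  · rw [Units.val_pow_eq_pow_val]
    exact pow_mem hAM _
  · funext ⟨g, h⟩
    simp only [Pi.div_apply, loc_d₁_apply, loc_ucoc_apply, smul_pow', hA]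
    have key := loc_carry_mul n t (ψ g) (ψ h) (ψ₀ g) (ψ₀ h) (h₀ g) (h₀ h)
    rw [← hψ] at key
    rw [← pow_mul, div_mul_eq_mul_div, div_eq_div_iff_mul_eq_mul, ← pow_add, ← pow_add, ← pow_add]
    congr 1
    omega

end R5

/-- **R5c**: the residue field of `ℚ_q` has `q` elements. -/
theorem rec_unr_q (q : ℕ) [Fact q.Prime] : unr_q ℚ_[q] = q := unr_q_padic q

end Fermat.Agent.S55
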