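import Mathlib
import Fermat.Agent.S55.LocLimInertia
import Fermat.Agent.S55.RecCarry
import Fermat.Agent.S55.LocBasic

/-!
# S55 block LOC, [LC6] multiplicative form: the tame formula

`K` a local field, `Ω` an algebraic closure with compatible norm, `Γ = Ω ≃ₐ[K] Ω`.

* `loc_ucoc_scale` : scaling identity for carry cocycles (pure algebra):
  `(c • χ, a) = (χ, a ^ c) · d γ`, `γ g = (a ^ ⌊c · (χ g).val / n⌋)⁻¹`.
* `loc_unr_char` : an additive level character `χ : Γ → ZMod p` which vanishes on the inertia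
  group is a multiple of the unramified character `loc_chi K Ω p`.
* `loc_tame` : **the tame formula**.  For a nonzero unramified additive level character `χ` and
  `b ∈ Kˣ` whose norm is not a `p`-th power of a norm, the carry cocycle `loc_ucoc p χ b` is
  not a level coboundary.
-/

set_option autoImplicit false

namespace Fermat.Agent.S55

open IntermediateField

/-- **Scaling identity** for carry cocycles: `(c • χ, a) = (χ, a ^ c) · d γ` with
`γ g = (a ^ ⌊c · (χ g).val / n⌋)⁻¹`. -/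
theorem loc_ucoc_scale {G A : Type*} [Group G] [CommGroup A] [MulDistribMulAction G A]
    {n : ℕ} [NeZero n] (χ : G → ZMod n) (hχ : ∀ g h, χ (g * h) = χ g + χ h) (c : ℕ) (a : A)
    (ha : ∀ g : G, g • a = a) (g h : G) :
    loc_ucoc n (fun g => (c : ZMod n) * χ g) a (g, h) =
      loc_ucoc n χ (a ^ c) (g, h) *
        (g • (a ^ ((c * (χ h).val) / n))⁻¹ / (a ^ ((c * (χ (g * h)).val) / n))⁻¹ *
          (a ^ ((c * (χ g).val) / n))⁻¹) := by
  have key := recu_ucoc_change n χ hχ c a ha g h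
  have aux : ∀ X P Q R : A, X = X * (P / Q * R) * (P⁻¹ / Q⁻¹ * R⁻¹) := by
    intro X P Q R
    apply Additive.ofMul.injective
    simp only [ofMul_mul, ofMul_div, ofMul_inv]
    abel
  rw [← key, smul_inv']
  exact aux _ _ _ _

section local_

variable (K Ω : Type) [NontriviallyNormedField K] [IsUltrametricDist K] [ProperSpace K]
  [NormedField Ω] [NormedAlgebra K Ω] [IsAlgClosed Ω] [Algebra.IsAlgebraic K Ω] [IsGalois K Ω]

/-- **Structure of unramified characters**: an additive level character with values in `ZMod p`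
which vanishes on the inertia group is a multiple of the unramified character of degree `p`. -/
theorem loc_unr_char (p : ℕ) [Fact p.Prime] (χ : (Ω ≃ₐ[K] Ω) → ZMod p)
    (hχ : ∀ g h, χ (g * h) = χ g + χ h) (M₀ : IntermediateField K Ω) [FiniteDimensional K M₀]
    (hχl : loc_IsLvlχ M₀ χ) (hχunr : ∀ g ∈ loc_inertia K Ω, χ g = 0) :
    ∃ c : ZMod p, ∀ g, χ g = c * loc_chi K Ω p g := by
  have hp : NeZero p := ⟨(Fact.out : p.Prime).ne_zero⟩
  -- the kernel of `χ` as a subgroup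
  let S : Subgroup (Ω ≃ₐ[K] Ω) :=
    { carrier := {g | χ g = 0}
      mul_mem' := fun {g h} hg hh => by
        show χ (g * h) = 0
        rw [hχ, show χ g = 0 from hg, show χ h = 0 from hh, add_zero]
      one_mem' := loc_chi_one χ hχ
      inv_mem' := fun {g} hg => by
        show χ g⁻¹ = 0
        rw [loc_chi_inv χ hχ, show χ g = 0 from hg, neg_zero] }
  have hM : M₀.fixingSubgroup ≤ S := by
    intro s hs
    show χ s = 0
    have h1 := hχl 1 s hs
    rwa [one_mul, loc_chi_one χ hχ] at h1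
  have hI : loc_inertia K Ω ≤ S := fun g hg => hχunr g hg
  obtain ⟨N, hN, hker⟩ := loc_exists_chi_ker_le K Ω S M₀ hM hI
  have hker' : ∀ g, loc_chi K Ω (p * N) g = 0 → χ g = 0 := fun g hg =>
    hker g (loc_chi_eq_zero_of_dvd K Ω N (p * N) (dvd_mul_left N p) g hg)
  obtain ⟨σ, hσ⟩ := loc_exists_chi_eq_one K (Ω := Ω) (p * N)
  refine ⟨χ σ, fun g => ?_⟩
  set ν := (loc_chi K Ω (p * N) g).val with hν
  have h3 : loc_chi K Ω (p * N) (σ ^ ν) = loc_chi K Ω (p * N) g := by
    rw [loc_chi_pow _ (loc_chi_mul K Ω (p * N)), hσ, mul_one, hν, ZMod.natCast_zmod_val]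
  have h4 : loc_chi K Ω (p * N) ((σ ^ ν)⁻¹ * g) = 0 := by
    rw [loc_chi_mul, loc_chi_inv _ (loc_chi_mul K Ω (p * N)), h3, neg_add_cancel]
  have h5 := hker' _ h4
  rw [hχ, loc_chi_inv χ hχ, loc_chi_pow χ hχ] at h5
  have h6 : (ν : ZMod p) = loc_chi K Ω p g := by
    have := loc_chi_compat K Ω p N g
    rw [← ZMod.natCast_zmod_val (loc_chi K Ω p g), this, ← hν, ZMod.natCast_mod]
  rw [← h6]
  linear_combination h5

/-- a norm which is a `p`-th power of a norm after raising to a power prime to `p` is a `p`-th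
power of a norm. -/
theorem ltm_norm_pow (p : ℕ) [Fact p.Prime] (m : ℕ) (hm : ¬ p ∣ m) (b : Kˣ)
    (h : ∃ c : K, ‖((b ^ m : Kˣ) : K)‖ = ‖c‖ ^ p) : ∃ c : K, ‖(b : K)‖ = ‖c‖ ^ p := by
  obtain ⟨c, hc⟩ := h
  obtain ⟨ϖ, hϖ⟩ := loc_exists_unif K
  have hb0 : (b : K) ≠ 0 := b.ne_zero
  have hp0 : p ≠ 0 := (Fact.out : p.Prime).ne_zero
  have hc0 : c ≠ 0 := by
    rintro rfl
    rw [norm_zero, zero_pow hp0, norm_eq_zero] at hc
    exact (b ^ m).ne_zero hc
  obtain ⟨k, hk⟩ := hϖ.exists_zpow hb0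
  obtain ⟨l, hl⟩ := hϖ.exists_zpow hc0
  rw [Units.val_pow_eq_pow_val, norm_pow, hk, hl, ← zpow_natCast, ← zpow_natCast, ← zpow_mul,
    ← zpow_mul] at hc
  have hkl : k * (m : ℤ) = l * (p : ℤ) := hϖ.zpow_inj hc
  have hpk : (p : ℤ) ∣ k := by
    have h1 : (p : ℤ) ∣ k * (m : ℤ) := ⟨l, by rw [hkl, mul_comm]⟩
    have hprime : Prime (p : ℤ) := Nat.prime_iff_prime_int.mp (Fact.out : p.Prime)
    rcases hprime.dvd_or_dvd h1 with h2 | h2
    · exact h2
    · exact absurd (Int.natCast_dvd_natCast.mp h2) hm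
  obtain ⟨k', rfl⟩ := hpk
  refine ⟨ϖ ^ k', ?_⟩
  rw [hk, norm_zpow, ← zpow_natCast, ← zpow_mul, mul_comm]

/-- **The tame formula** ([LC6], multiplicative form): for a nonzero unramified additive level
character `χ : Γ → ZMod p` and `b ∈ Kˣ` whose norm is not the `p`-th power of a norm, the carry
cocycle `loc_ucoc p χ b` is not a level coboundary. -/
theorem loc_tame (p : ℕ) [Fact p.Prime] (χ : (Ω ≃ₐ[K] Ω) → ZMod p)
    (hχ : ∀ g h, χ (g * h) = χ g + χ h) (M₀ : IntermediateField K Ω) [FiniteDimensional K M₀]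
    (hχl : loc_IsLvlχ M₀ χ) (hχunr : ∀ g ∈ loc_inertia K Ω, χ g = 0) (hne : ∃ g, χ g ≠ 0)
    (b : Kˣ) (hb : ¬ ∃ c : K, ‖(b : K)‖ = ‖c‖ ^ p) :
    ¬ loc_IsLevCob (loc_ucoc p χ (Units.map (algebraMap K Ω : K →* Ω) b)) := by
  have hp : NeZero p := ⟨(Fact.out : p.Prime).ne_zero⟩
  intro hcob
  obtain ⟨c, hc⟩ := loc_unr_char K Ω p χ hχ M₀ hχl hχunr
  have hc0 : c ≠ 0 := by
    rintro rfl
    obtain ⟨g, hg⟩ := hne
    exact hg (by rw [hc g, zero_mul])
  have hχeq : χ = fun g => c * loc_chi K Ω p g := funext hc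
  set B : Ωˣ := Units.map (algebraMap K Ω : K →* Ω) b with hB
  have hBfix : ∀ g : Ω ≃ₐ[K] Ω, g • B = B := fun g => Units.ext (g.commutes (b : K))
  have hfd : FiniteDimensional K K⟮loc_zeta K Ω p⟯ :=
    (loc_cyc_facts K p _ (loc_zeta_spec K Ω p)).1
  have hBM : (B : Ω) ∈ K⟮loc_zeta K Ω p⟯ := by
    simp only [hB, Units.coe_map, MonoidHom.coe_coe]
    exact IntermediateField.algebraMap_mem _ _
  have h1 := rec_ucoc_smul_char (loc_chi K Ω p) (loc_chi_mul K Ω p) K⟮loc_zeta K Ω p⟯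
    (loc_chi_isLvl K Ω p) c B hBfix hBM
  rw [← hχeq] at h1
  have h2 : loc_ucoc p (loc_chi K Ω p) (B ^ c.val) = loc_u K Ω p (b ^ c.val) := by
    rw [loc_u, map_pow]
  rw [h2] at h1
  have h3 : loc_IsLevCob (loc_u K Ω p (b ^ c.val)) := by
    have h4 := hcob.mul h1.inv
    rwa [inv_div, mul_div_cancel] at h4
  have h5 := (loc_u_cob_iff K Ω p (b ^ c.val)).mp h3
  have hm : ¬ p ∣ c.val := by
    intro hdvd
    have h6 := Nat.eq_zero_of_dvd_of_lt hdvd (ZMod.val_lt c)
    exact hc0 ((ZMod.val_eq_zero c).mp h6)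
  exact hb (ltm_norm_pow K p c.val hm b h5)

end local_

end Fermat.Agent.S55
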