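import Fermat.Agent.S55.RecFrob

/-!
# S55 block REC, R3: the global character attached to `(Q, H)`

For `H ≤ (ZMod Q)ˣ` with cyclic quotient of order `n`, the composite
`Γ = Gal(ℚ̄/ℚ) → Gal(ℚ(ζ_Q)/ℚ) ≅ (ZMod Q)ˣ → (ZMod Q)ˣ ⧸ H ≅ ZMod n` is an additive character
`χ : Γ → ZMod n`; its kernel is the fixing subgroup of the image `K` of `recField ℚ Q H` in
`ℚ̄`, and it is computed by `recPhi` on restrictions and by the action on `Q`-th roots of unity
(`rec_exists_char`).
-/

set_option autoImplicit false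

namespace Fermat.Agent.S55

open NumberField IsDedekindDomain

section general

variable (k : Type) [Field k] [NumberField k] (Q : ℕ) [NeZero Q]

/-- the cyclotomic character is surjective when the cyclotomic polynomial is irreducible. -/
theorem rec_chi_surjective (h : Irreducible (Polynomial.cyclotomic Q k)) :
    Function.Surjective (recChi k Q) := by
  intro t
  obtain ⟨σ, hσ⟩ := (IsCyclotomicExtension.autEquivPow (CyclotomicField Q k) h).surjective t
  exact ⟨σ, hσ⟩

/-- general form of `rec_exists_char`: base field `k`, algebraic closure `Ω`. -/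
theorem rec_exists_char_gen (Ω : Type) [Field Ω] [Algebra k Ω] [IsAlgClosed Ω] [Normal k Ω]
    (H : Subgroup (ZMod Q)ˣ) (hsurj : Function.Surjective (recChi k Q))
    (hcyc : IsCyclic ((ZMod Q)ˣ ⧸ H)) :
    ∃ (χ : (Ω ≃ₐ[k] Ω) → ZMod (Nat.card ((ZMod Q)ˣ ⧸ H)))
      (e : (ZMod Q)ˣ ⧸ H ≃* Multiplicative (ZMod (Nat.card ((ZMod Q)ˣ ⧸ H))))
      (K : IntermediateField k Ω) (j : recField k Q H →ₐ[k] Ω) (σ : Ω ≃ₐ[k] Ω),
      FiniteDimensional k K ∧ IsGalois k K ∧
      (∀ g h, χ (g * h) = χ g + χ h) ∧ χ σ = 1 ∧ (∀ g, χ g = 0 ↔ g ∈ K.fixingSubgroup) ∧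
      (∀ (g : Ω ≃ₐ[k] Ω) (s : recField k Q H ≃ₐ[k] recField k Q H), (∀ x, j (s x) = g (j x)) →
        χ g = Multiplicative.toAdd (e (recPhi k Q H s))) ∧
      (∀ (g : Ω ≃ₐ[k] Ω) (a : ℕ) (ha : a.Coprime Q), (∀ ξ : Ω, ξ ^ Q = 1 → g ξ = ξ ^ a) →
        χ g = Multiplicative.toAdd (e (QuotientGroup.mk (ZMod.unitOfCoprime a ha)))) := by
  classical
  -- an embedding of the cyclotomic field into `Ω`
  let i : CyclotomicField Q k →ₐ[k] Ω := IsAlgClosed.lift
  have hinj : Function.Injective (i : CyclotomicField Q k → Ω) := i.toRingHom.injective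
  let _ : Algebra (CyclotomicField Q k) Ω := i.toRingHom.toAlgebra
  have _ : IsScalarTower k (CyclotomicField Q k) Ω :=
    IsScalarTower.of_algebraMap_eq (fun x => (i.commutes x).symm)
  let res : (Ω ≃ₐ[k] Ω) →* (CyclotomicField Q k ≃ₐ[k] CyclotomicField Q k) :=
    AlgEquiv.restrictNormalHom (F := k) (K₁ := Ω) (CyclotomicField Q k)
  have hres : ∀ (g : Ω ≃ₐ[k] Ω) (y : CyclotomicField Q k), i (res g y) = g (i y) := fun g y =>
    AlgEquiv.restrictNormal_commutes g (CyclotomicField Q k) y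
  have hres_surj : Function.Surjective res :=
    AlgEquiv.restrictNormalHom_surjective (F := k) (K₁ := CyclotomicField Q k) Ω
  let Ψ : (Ω ≃ₐ[k] Ω) →* (ZMod Q)ˣ ⧸ H := (QuotientGroup.mk' H).comp ((recChi k Q).comp res)
  have hΨ_surj : Function.Surjective Ψ :=
    (QuotientGroup.mk'_surjective H).comp (hsurj.comp hres_surj)
  let e : (ZMod Q)ˣ ⧸ H ≃* Multiplicative (ZMod (Nat.card ((ZMod Q)ˣ ⧸ H))) :=
    (zmodCyclicMulEquiv hcyc).symm
  let χ : (Ω ≃ₐ[k] Ω) → ZMod (Nat.card ((ZMod Q)ˣ ⧸ H)) :=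
    fun g => Multiplicative.toAdd (e (Ψ g))
  let K : IntermediateField k Ω := (recField k Q H).map i
  let j : recField k Q H →ₐ[k] Ω := i.comp (recField k Q H).val
  obtain ⟨σ, hσ⟩ := hΨ_surj (e.symm (Multiplicative.ofAdd 1))
  have hχ0 : ∀ g, χ g = 0 ↔ g ∈ K.fixingSubgroup := by
    intro g
    have h1 : χ g = 0 ↔ Ψ g = 1 := by
      show Multiplicative.toAdd (e (Ψ g)) = 0 ↔ Ψ g = 1
      constructor
      · intro h
        have h2 : e (Ψ g) = 1 := h
        exact (MulEquiv.map_eq_one_iff e).1 h2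
      · intro h
        rw [h, map_one]
        rfl
    have h2 : Ψ g = 1 ↔ res g ∈ (recField k Q H).fixingSubgroup := by
      rw [rec_fixingSubgroup]
      show QuotientGroup.mk' H (recChi k Q (res g)) = 1 ↔ _
      rw [QuotientGroup.mk'_apply, QuotientGroup.eq_one_iff]
      rfl
    rw [h1, h2, IntermediateField.mem_fixingSubgroup_iff, IntermediateField.mem_fixingSubgroup_iff]
    constructor
    · intro h y hy
      obtain ⟨x, hx, rfl⟩ := hy
      show g (i x) = i x
      rw [← hres, h x hx]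
    · intro h x hx
      apply hinj
      rw [hres]
      exact h (i x) ⟨x, hx, rfl⟩
  refine ⟨χ, e, K, j, σ, ?_, ?_, ?_, ?_, hχ0, ?_, ?_⟩
  · exact (IntermediateField.equivMap (recField k Q H) i).toLinearEquiv.finiteDimensional
  · exact IsGalois.of_algEquiv (IntermediateField.equivMap (recField k Q H) i)
  · intro g h
    show Multiplicative.toAdd (e (Ψ (g * h))) = _
    rw [map_mul, map_mul]
    rfl
  · show Multiplicative.toAdd (e (Ψ σ)) = 1
    rw [hσ, MulEquiv.apply_symm_apply]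
    rfl
  · intro g s hs
    have h1 : s = AlgEquiv.restrictNormalHom (recField k Q H) (res g) := by
      apply AlgEquiv.ext
      intro x
      apply Subtype.ext
      apply hinj
      have h2 : i ((AlgEquiv.restrictNormalHom (recField k Q H) (res g) x :
          recField k Q H) : CyclotomicField Q k) = i (res g (x : CyclotomicField Q k)) :=
        congrArg i (AlgEquiv.restrictNormal_commutes (res g) (recField k Q H) x)
      rw [h2, hres]
      exact hs x
    show Multiplicative.toAdd (e (Ψ g)) = _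
    rw [h1, recPhi_restrict]
    rfl
  · intro g a ha hg
    have hζ := IsCyclotomicExtension.zeta_spec Q k (CyclotomicField Q k)
    have h1 : res g (IsCyclotomicExtension.zeta Q k (CyclotomicField Q k)) =
        IsCyclotomicExtension.zeta Q k (CyclotomicField Q k) ^ a := by
      apply hinj
      rw [hres, map_pow]
      apply hg
      rw [← map_pow, hζ.pow_eq_one, map_one]
    have h2 := recChi_eq_of_pow k Q (res g) a h1
    have h3 : recChi k Q (res g) = ZMod.unitOfCoprime a ha := Units.ext h2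
    show Multiplicative.toAdd (e (QuotientGroup.mk' H (recChi k Q (res g)))) = _
    rw [h3]
    rfl

end general

local notation "Qb" => AlgebraicClosure ℚ
local notation "Γ" => (AlgebraicClosure ℚ ≃ₐ[ℚ] AlgebraicClosure ℚ)

/-- the cyclotomic character over `ℚ` is surjective. -/
theorem rec_chi_rat_surjective (Q : ℕ) [NeZero Q] : Function.Surjective (recChi ℚ Q) :=
  rec_chi_surjective ℚ Q (Polynomial.cyclotomic.irreducible_rat (NeZero.pos Q))

/-- R3: the global character `χ : Γ → ZMod n` attached to `(Q, H)`. -/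
theorem rec_exists_char (Q : ℕ) [NeZero Q] (H : Subgroup (ZMod Q)ˣ)
    (hcyc : IsCyclic ((ZMod Q)ˣ ⧸ H)) (n : ℕ) [NeZero n] (hn : Nat.card ((ZMod Q)ˣ ⧸ H) = n) :
    ∃ (χ : Γ → ZMod n) (e : (ZMod Q)ˣ ⧸ H ≃* Multiplicative (ZMod n))
      (K : IntermediateField ℚ Qb) (j : recField ℚ Q H →ₐ[ℚ] Qb) (σ : Γ),
      FiniteDimensional ℚ K ∧ IsGalois ℚ K ∧
      (∀ g h, χ (g * h) = χ g + χ h) ∧ χ σ = 1 ∧ (∀ g, χ g = 0 ↔ g ∈ K.fixingSubgroup) ∧
      (∀ (g : Γ) (s : recField ℚ Q H ≃ₐ[ℚ] recField ℚ Q H), (∀ x, j (s x) = g (j x)) →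
        χ g = Multiplicative.toAdd (e (recPhi ℚ Q H s))) ∧
      (∀ (g : Γ) (a : ℕ) (ha : a.Coprime Q), (∀ ξ : Qb, ξ ^ Q = 1 → g ξ = ξ ^ a) →
        χ g = Multiplicative.toAdd (e (QuotientGroup.mk (ZMod.unitOfCoprime a ha)))) := by
  subst hn
  have halg : Algebra.IsAlgebraic ℚ Qb := AlgebraicClosure.isAlgebraic ℚ
  have hcl : IsAlgClosure ℚ Qb := ⟨inferInstance, halg⟩
  have hnorm : Normal ℚ Qb := IsAlgClosure.normal ℚ Qb
  exact rec_exists_char_gen ℚ Q Qb H (rec_chi_rat_surjective Q) hcyc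

end Fermat.Agent.S55
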