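import Mathlib
import Fermat.Agent.S55.LocLimUnr
import Fermat.Agent.S55.LocLimInvQ
import Fermat.Prelude.Def_GaloisRep_CompletionBridge

/-!
# S55 block REC, M1 + M2: the global cyclotomic character on the local group at `q ∤ Q`

* `rec_chi_local` (M1): `χ (ι_q y) = toAdd (f [q]) * (loc_chi ℚ_q Ω N y).val` when `Q ∣ q^N - 1`.
* `rec_chi_p_vanish` (M2): if `p ∣ orderOf (f [q])` and `χ (ι_q y) = 0` then
  `loc_chi ℚ_q Ω p y = 0`.
-/

set_option autoImplicit false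

namespace Fermat.Agent.S55

local notation "Qb" => AlgebraicClosure ℚ
local notation "Γ" => (AlgebraicClosure ℚ ≃ₐ[ℚ] AlgebraicClosure ℚ)

/-- The local Galois group at `q` acts on the `Q`-th roots of unity of `Qb` (`Q ∣ q^N - 1`)
through the unramified character. -/
theorem rec_chi_roots (q : ℕ) [Fact q.Prime] (Q : ℕ) (N : ℕ) [NeZero N] (hN : Q ∣ q ^ N - 1)
    (y : PadicAlgCl q ≃ₐ[ℚ_[q]] PadicAlgCl q) (ξ : Qb) (hξ : ξ ^ Q = 1) :
    localGaloisToGlobal q y ξ = ξ ^ (q ^ (loc_chi ℚ_[q] (PadicAlgCl q) N y).val) := by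
  have hr : loc_r ℚ_[q] N = q ^ N - 1 := by
    unfold loc_r
    rw [unr_q_padic]
  apply (padicEmbedding q).toRingHom.injective
  show padicEmbedding q (localGaloisToGlobal q y ξ) = padicEmbedding q (ξ ^ _)
  rw [padicEmbedding_localGaloisToGlobal, map_pow]
  have h := loc_chi_all ℚ_[q] (PadicAlgCl q) N y (padicEmbedding q ξ) (by
    rw [hr]
    obtain ⟨c, hc⟩ := hN
    rw [hc, pow_mul, ← map_pow, hξ, map_one, one_pow])
  rw [unr_q_padic] at h
  exact h

/-- **M1**: the global character on the local group at a prime `q ∤ Q`. -/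
theorem rec_chi_local (q : ℕ) [Fact q.Prime] (Q : ℕ) [NeZero Q] (hqQ : q.Coprime Q)
    {n : ℕ} [NeZero n] (χ : Γ → ZMod n)
    (f : (ZMod Q)ˣ →* Multiplicative (ZMod n))
    (hf : ∀ (g : Γ) (a : ℕ) (ha : a.Coprime Q), (∀ ξ : Qb, ξ ^ Q = 1 → g ξ = ξ ^ a) →
        χ g = Multiplicative.toAdd (f (ZMod.unitOfCoprime a ha)))
    (N : ℕ) [NeZero N] (hN : Q ∣ q ^ N - 1) (y : PadicAlgCl q ≃ₐ[ℚ_[q]] PadicAlgCl q) :
    χ (localGaloisToGlobal q y) =
      Multiplicative.toAdd (f (ZMod.unitOfCoprime q hqQ)) *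
        ((loc_chi ℚ_[q] (PadicAlgCl q) N y).val : ZMod n) := by
  set jj := (loc_chi ℚ_[q] (PadicAlgCl q) N y).val with hjj
  have hcop : (q ^ jj).Coprime Q := Nat.Coprime.pow_left jj hqQ
  rw [hf _ (q ^ jj) hcop (fun ξ hξ => rec_chi_roots q Q N hN y ξ hξ)]
  have hu : ZMod.unitOfCoprime (q ^ jj) hcop = ZMod.unitOfCoprime q hqQ ^ jj := by
    ext
    simp [ZMod.coe_unitOfCoprime]
  rw [hu, map_pow, toAdd_pow, nsmul_eq_mul, mul_comm]

/-- **M2**: if `p` divides the order of the image of `q`, then `loc_chi p` vanishes on the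
local elements on which the global character vanishes. -/
theorem rec_chi_p_vanish (p : ℕ) [Fact p.Prime] (q : ℕ) [Fact q.Prime] (Q : ℕ) [NeZero Q]
    (hqQ : q.Coprime Q) {n : ℕ} [NeZero n] (χ : Γ → ZMod n)
    (f : (ZMod Q)ˣ →* Multiplicative (ZMod n))
    (hf : ∀ (g : Γ) (a : ℕ) (ha : a.Coprime Q), (∀ ξ : Qb, ξ ^ Q = 1 → g ξ = ξ ^ a) →
        χ g = Multiplicative.toAdd (f (ZMod.unitOfCoprime a ha)))
    (hord : p ∣ orderOf (f (ZMod.unitOfCoprime q hqQ)))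
    (y : PadicAlgCl q ≃ₐ[ℚ_[q]] PadicAlgCl q) (hy : χ (localGaloisToGlobal q y) = 0) :
    loc_chi ℚ_[q] (PadicAlgCl q) p y = 0 := by
  set u : (ZMod Q)ˣ := ZMod.unitOfCoprime q hqQ with hu
  set d := orderOf u with hd
  have hd0 : 0 < d := orderOf_pos u
  haveI : NeZero d := ⟨hd0.ne'⟩
  -- `Q ∣ q ^ (p * d) - 1`
  have hN : Q ∣ q ^ (p * d) - 1 := by
    have h1 : u ^ (p * d) = 1 := by
      rw [mul_comm, pow_mul, hd, pow_orderOf_eq_one, one_pow]
    have h2 : ((q ^ (p * d) : ℕ) : ZMod Q) = ((1 : ℕ) : ZMod Q) := by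
      have h3 := congrArg (fun x : (ZMod Q)ˣ => (x : ZMod Q)) h1
      simp only [Units.val_pow_eq_pow_val, Units.val_one, hu, ZMod.coe_unitOfCoprime] at h3
      push_cast
      exact h3
    rw [ZMod.natCast_eq_natCast_iff] at h2
    exact (Nat.modEq_iff_dvd' (Nat.one_le_pow _ _ (Fact.out : q.Prime).pos)).1 h2.symm
  have h1 := rec_chi_local q Q hqQ χ f hf (p * d) hN y
  set jj := (loc_chi ℚ_[q] (PadicAlgCl q) (p * d) y).val with hjj
  rw [hy] at h1
  -- `(f u) ^ jj = 1`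
  have h2 : f u ^ jj = 1 := by
    apply Multiplicative.toAdd.injective
    rw [toAdd_pow, nsmul_eq_mul, toAdd_one, mul_comm]
    exact h1.symm
  have h3 : p ∣ jj := hord.trans (orderOf_dvd_of_pow_eq_one h2)
  have h4 := loc_chi_compat ℚ_[q] (PadicAlgCl q) p d y
  rw [← hjj, Nat.mod_eq_zero_of_dvd h3] at h4
  exact (ZMod.val_eq_zero _).1 h4

end Fermat.Agent.S55
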