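import Mathlib

/-!
# S55 block REC (reciprocity), model-free arithmetic core

* `rec_norm_congr` : `a ≡ b mod Q·𝓞 k` implies `N(a) ≡ N(b) mod Q`.
* `rec_absNorm_factorization` : `N(a𝓞) = ∏ᶠ_v N(v)^{v(a)}`.
* `rec_core` : for nonzero `a b : 𝓞 k` with `a ≡ b mod Q`, `b` prime to `Q`, and a character
  `ψ` of `(ZMod Q)ˣ` killing `-1`: `∏ᶠ_v ψ(N v)^{v(a) - v(b)} = 1` (product over the primes
  not dividing `Q`; the others do not divide `a`, `b`).
-/

set_option autoImplicit false

open NumberField IsDedekindDomain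

namespace Fermat.Agent.S55

variable (k : Type) [Field k] [NumberField k]

/-- `a ≡ b mod Q·𝓞 k` implies `N(a) ≡ N(b) mod Q`. -/
theorem rec_norm_congr (Q : ℕ) (a b : 𝓞 k) (h : a - b ∈ Ideal.span {(Q : 𝓞 k)}) :
    ((Algebra.norm ℤ a : ℤ) : ZMod Q) = ((Algebra.norm ℤ b : ℤ) : ZMod Q) := by
  classical
  obtain ⟨t, ht⟩ := Ideal.mem_span_singleton'.1 h
  have hab : a = b + t * (Q : 𝓞 k) := by rw [ht]; ring
  let bas := RingOfIntegers.basis k
  rw [Algebra.norm_eq_matrix_det bas, Algebra.norm_eq_matrix_det bas]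
  have hcast : ∀ M : Matrix (Module.Free.ChooseBasisIndex ℤ (𝓞 k))
      (Module.Free.ChooseBasisIndex ℤ (𝓞 k)) ℤ, ((M.det : ℤ) : ZMod Q)
      = ((Int.castRingHom (ZMod Q)).mapMatrix M).det := fun M =>
    RingHom.map_det (Int.castRingHom (ZMod Q)) M
  rw [hcast, hcast]
  congr 1
  ext i j
  simp only [RingHom.mapMatrix_apply, Matrix.map_apply, Algebra.leftMulMatrix_eq_repr_mul,
    Int.coe_castRingHom]
  rw [hab, add_mul, map_add, Finsupp.add_apply]
  have h2 : t * (Q : 𝓞 k) * bas j = (Q : ℤ) • (t * bas j) := by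
    rw [zsmul_eq_mul]; push_cast; ring
  rw [h2, map_smul, Finsupp.smul_apply, smul_eq_mul]
  push_cast
  simp

/-- The absolute norm of a nonzero principal ideal is the product of the norms of the primes
with multiplicity. -/
theorem rec_absNorm_factorization (a : 𝓞 k) (ha : a ≠ 0) :
    Ideal.absNorm (Ideal.span {a}) = ∏ᶠ v : HeightOneSpectrum (𝓞 k),
      Ideal.absNorm v.asIdeal ^
        (Associates.mk v.asIdeal).count (Associates.mk (Ideal.span {a})).factors := by
  classical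
  have hI : (Ideal.span {a} : Ideal (𝓞 k)) ≠ 0 := by
    simpa [Ideal.span_singleton_eq_bot] using ha
  conv_lhs => rw [← Ideal.finprod_heightOneSpectrum_factorization hI]
  have := MonoidHom.map_finprod (Ideal.absNorm (S := 𝓞 k)).toMonoidHom
    (Ideal.hasFiniteMulSupport hI)
  erw [this]
  refine finprod_congr fun v => ?_
  simp [HeightOneSpectrum.maxPowDividing]


/-- A character of `(ZMod Q)ˣ` extended by `1` to the natural numbers not prime to `Q`. -/
noncomputable def recPsi (Q : ℕ) {M : Type*} [CommGroup M] (ψ : (ZMod Q)ˣ →* M) (n : ℕ) : M :=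
  if h : n.Coprime Q then ψ (ZMod.unitOfCoprime n h) else 1

section recPsi

variable (Q : ℕ) {M : Type*} [CommGroup M] (ψ : (ZMod Q)ˣ →* M)

theorem recPsi_of_coprime {n : ℕ} (h : n.Coprime Q) :
    recPsi Q ψ n = ψ (ZMod.unitOfCoprime n h) := by
  rw [recPsi, dif_pos h]

theorem recPsi_one : recPsi Q ψ 1 = 1 := by
  rw [recPsi_of_coprime Q ψ (Nat.coprime_one_left Q)]
  have : ZMod.unitOfCoprime 1 (Nat.coprime_one_left Q) = 1 := by
    ext; simp
  rw [this, map_one]

theorem recPsi_mul {m n : ℕ} (hm : m.Coprime Q) (hn : n.Coprime Q) :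
    recPsi Q ψ (m * n) = recPsi Q ψ m * recPsi Q ψ n := by
  rw [recPsi_of_coprime Q ψ hm, recPsi_of_coprime Q ψ hn,
    recPsi_of_coprime Q ψ (Nat.Coprime.mul_left hm hn), ← map_mul]
  congr 1
  ext; simp

theorem recPsi_pow {n : ℕ} (hn : n.Coprime Q) (e : ℕ) :
    recPsi Q ψ (n ^ e) = recPsi Q ψ n ^ e := by
  induction e with
  | zero => simp [recPsi_one]
  | succ e ih =>
    rw [pow_succ, recPsi_mul Q ψ (Nat.Coprime.pow_left e hn) hn, ih, pow_succ]

theorem recPsi_congr {m n : ℕ} (hm : m.Coprime Q) (hn : n.Coprime Q)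
    (h : (m : ZMod Q) = (n : ZMod Q)) : recPsi Q ψ m = recPsi Q ψ n := by
  rw [recPsi_of_coprime Q ψ hm, recPsi_of_coprime Q ψ hn]
  congr 1
  ext; simpa using h

theorem recPsi_congr_neg (hψ : ψ (-1) = 1) {m n : ℕ} (hm : m.Coprime Q) (hn : n.Coprime Q)
    (h : (m : ZMod Q) = -(n : ZMod Q)) : recPsi Q ψ m = recPsi Q ψ n := by
  rw [recPsi_of_coprime Q ψ hm, recPsi_of_coprime Q ψ hn]
  have : ZMod.unitOfCoprime m hm = -1 * ZMod.unitOfCoprime n hn := by
    ext; simpa using h
  rw [this, map_mul, hψ, one_mul]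

/-- `recPsi` of the absolute value of an integer only depends on the integer mod `Q`,
when `ψ (-1) = 1`. -/
theorem recPsi_natAbs_congr (hψ : ψ (-1) = 1) {x y : ℤ} (hx : x.natAbs.Coprime Q)
    (hy : y.natAbs.Coprime Q) (h : (x : ZMod Q) = (y : ZMod Q)) :
    recPsi Q ψ x.natAbs = recPsi Q ψ y.natAbs := by
  have key : ∀ z : ℤ, ((z.natAbs : ℕ) : ZMod Q) = (z : ZMod Q) ∨
      ((z.natAbs : ℕ) : ZMod Q) = -(z : ZMod Q) := by
    intro z
    rcases Int.natAbs_eq z with hz | hz
    · left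
      conv_rhs => rw [hz]
      simp
    · right
      conv_rhs => rw [hz]
      simp
  rcases key x with h1 | h1 <;> rcases key y with h2 | h2
  · exact recPsi_congr Q ψ hx hy (by rw [h1, h2, h])
  · exact recPsi_congr_neg Q ψ hψ hx hy (by rw [h1, h2, h, neg_neg])
  · exact recPsi_congr_neg Q ψ hψ hx hy (by rw [h1, h2, h])
  · exact recPsi_congr Q ψ hx hy (by rw [h1, h2, h])

theorem recPsi_prod {ι : Type*} (s : Finset ι) (f : ι → ℕ) (hf : ∀ i ∈ s, (f i).Coprime Q) :
    recPsi Q ψ (∏ i ∈ s, f i) = ∏ i ∈ s, recPsi Q ψ (f i) := by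
  classical
  induction s using Finset.induction_on with
  | empty => simp [recPsi_one]
  | insert i s hi ih =>
    rw [Finset.prod_insert hi, Finset.prod_insert hi,
      recPsi_mul Q ψ (hf i (Finset.mem_insert_self i s))
        (Nat.Coprime.prod_left fun j hj => hf j (Finset.mem_insert_of_mem hj)),
      ih fun j hj => hf j (Finset.mem_insert_of_mem hj)]

end recPsi

/-- The norm of a prime not containing `Q` is prime to `Q`. -/
theorem rec_absNorm_coprime (Q : ℕ) (v : HeightOneSpectrum (𝓞 k))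
    (hQ : (Q : 𝓞 k) ∉ v.asIdeal) : (Ideal.absNorm v.asIdeal).Coprime Q := by
  have : v.asIdeal.IsMaximal := v.isMaximal
  let _ : Field (𝓞 k ⧸ v.asIdeal) := Ideal.Quotient.field _
  have : Fintype (𝓞 k ⧸ v.asIdeal) := Fintype.ofFinite _
  obtain ⟨n, hp, hn⟩ := FiniteField.card (𝓞 k ⧸ v.asIdeal) (ringChar (𝓞 k ⧸ v.asIdeal))
  have habs : Ideal.absNorm v.asIdeal = ringChar (𝓞 k ⧸ v.asIdeal) ^ (n : ℕ) := by
    rw [Ideal.absNorm_apply, Submodule.cardQuot_apply, Nat.card_eq_fintype_card]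
    exact hn
  rw [habs]
  apply Nat.Coprime.pow_left
  rw [Nat.Prime.coprime_iff_not_dvd hp]
  intro hdvd
  apply hQ
  rw [← Ideal.Quotient.eq_zero_iff_mem, map_natCast]
  exact (ringChar.spec (𝓞 k ⧸ v.asIdeal) Q).2 hdvd

/-- If `b` is prime to `Q` (no prime containing `Q` contains `b`), then `N(b𝓞)` is prime
to `Q`. -/
theorem rec_absNorm_span_coprime (Q : ℕ) (b : 𝓞 k) (hb : b ≠ 0)
    (hbQ : ∀ v : HeightOneSpectrum (𝓞 k), (Q : 𝓞 k) ∈ v.asIdeal → b ∉ v.asIdeal) :
    (Ideal.absNorm (Ideal.span {b})).Coprime Q := by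
  classical
  rw [rec_absNorm_factorization k b hb]
  have hI : (Ideal.span {b} : Ideal (𝓞 k)) ≠ 0 := by
    simpa [Ideal.span_singleton_eq_bot] using hb
  have hfin : (Function.mulSupport fun v : HeightOneSpectrum (𝓞 k) =>
      Ideal.absNorm v.asIdeal ^
        (Associates.mk v.asIdeal).count (Associates.mk (Ideal.span {b})).factors).Finite := by
    refine (Ideal.hasFiniteMulSupport hI).subset ?_
    intro v hv
    simp only [Function.mem_mulSupport, ne_eq] at hv ⊢
    intro h1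
    apply hv
    have : (Associates.mk v.asIdeal).count (Associates.mk (Ideal.span {b})).factors = 0 := by
      by_contra h0
      have hpow : v.maxPowDividing (Ideal.span {b}) = 1 := h1
      rw [HeightOneSpectrum.maxPowDividing] at hpow
      have hle : v.asIdeal ^ (Associates.mk v.asIdeal).count
          (Associates.mk (Ideal.span {b})).factors ≤ v.asIdeal :=
        Ideal.pow_le_self h0
      rw [hpow] at hle
      exact v.isPrime.ne_top (top_le_iff.1 (by simpa using hle))
    rw [this, pow_zero]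
  rw [finprod_eq_prod _ hfin]
  apply Nat.Coprime.prod_left
  intro v hv
  by_cases hQv : (Q : 𝓞 k) ∈ v.asIdeal
  · have hbv := hbQ v hQv
    have : (Associates.mk v.asIdeal).count (Associates.mk (Ideal.span {b})).factors = 0 := by
      by_contra h0
      apply hbv
      have hdvd : v.asIdeal ∣ Ideal.span {b} := by
        rw [← Associates.mk_le_mk_iff_dvd]
        have hirr : Irreducible (Associates.mk v.asIdeal) := v.associates_irreducible
        exact Associates.le_of_count_ne_zero (Associates.mk_ne_zero.2 hI) hirr h0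
      exact (Ideal.dvd_span_singleton.1 hdvd)
    rw [this, pow_zero]
    exact Nat.coprime_one_left Q
  · exact Nat.Coprime.pow_left _ (rec_absNorm_coprime k Q v hQv)

/-- The multiplicity of a prime in a principal ideal (as used by `maxPowDividing`). -/
noncomputable def recCount (v : HeightOneSpectrum (𝓞 k)) (x : 𝓞 k) : ℕ :=
  (Associates.mk v.asIdeal).count (Associates.mk (Ideal.span {x})).factors

theorem recCount_eq_zero_of_notMem (v : HeightOneSpectrum (𝓞 k)) (x : 𝓞 k) (hx : x ≠ 0)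
    (hxv : x ∉ v.asIdeal) : recCount k v x = 0 := by
  classical
  have hI : (Ideal.span {x} : Ideal (𝓞 k)) ≠ 0 := by
    simpa [Ideal.span_singleton_eq_bot] using hx
  by_contra h0
  apply hxv
  have hdvd : v.asIdeal ∣ Ideal.span {x} := by
    rw [← Associates.mk_le_mk_iff_dvd]
    have hirr : Irreducible (Associates.mk v.asIdeal) := v.associates_irreducible
    exact Associates.le_of_count_ne_zero (Associates.mk_ne_zero.2 hI) hirr h0
  exact (Ideal.dvd_span_singleton.1 hdvd)

theorem rec_finite_support (x : 𝓞 k) (hx : x ≠ 0) :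
    {v : HeightOneSpectrum (𝓞 k) | recCount k v x ≠ 0}.Finite := by
  classical
  have hI : (Ideal.span {x} : Ideal (𝓞 k)) ≠ 0 := by
    simpa [Ideal.span_singleton_eq_bot] using hx
  refine (Ideal.hasFiniteMulSupport hI).subset ?_
  intro v hv
  simp only [Set.mem_ofPred_eq, Function.mem_mulSupport, ne_eq] at hv ⊢
  intro h1
  apply hv
  by_contra h0
  have hpow : v.maxPowDividing (Ideal.span {x}) = 1 := h1
  rw [HeightOneSpectrum.maxPowDividing] at hpow
  have hle : v.asIdeal ^ (Associates.mk v.asIdeal).count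
      (Associates.mk (Ideal.span {x})).factors ≤ v.asIdeal :=
    Ideal.pow_le_self h0
  rw [hpow] at hle
  exact v.isPrime.ne_top (top_le_iff.1 (by simpa using hle))

/-- `ψ(N(x𝓞))` is the product of the `ψ(N v)^{v(x)}`, for `x` prime to `Q`. -/
theorem rec_psi_factorization (Q : ℕ) {M : Type*} [CommGroup M] (ψ : (ZMod Q)ˣ →* M)
    (x : 𝓞 k) (hx : x ≠ 0)
    (hxQ : ∀ v : HeightOneSpectrum (𝓞 k), (Q : 𝓞 k) ∈ v.asIdeal → x ∉ v.asIdeal) :
    recPsi Q ψ (Ideal.absNorm (Ideal.span {x})) =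
      ∏ᶠ v : HeightOneSpectrum (𝓞 k), recPsi Q ψ (Ideal.absNorm v.asIdeal) ^ recCount k v x := by
  classical
  have hfin := rec_finite_support k x hx
  rw [rec_absNorm_factorization k x hx]
  have e1 : (∏ᶠ v : HeightOneSpectrum (𝓞 k), Ideal.absNorm v.asIdeal ^
        (Associates.mk v.asIdeal).count (Associates.mk (Ideal.span {x})).factors)
      = ∏ v ∈ hfin.toFinset, Ideal.absNorm v.asIdeal ^ recCount k v x := by
    apply finprod_eq_prod_of_mulSupport_subset
    intro v hv
    simp only [Function.mem_mulSupport, ne_eq] at hv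
    simp only [Set.Finite.coe_toFinset, Set.mem_ofPred_eq]
    intro h0
    apply hv
    rw [recCount] at h0
    rw [h0, pow_zero]
  have e2 : (∏ᶠ v : HeightOneSpectrum (𝓞 k),
        recPsi Q ψ (Ideal.absNorm v.asIdeal) ^ recCount k v x)
      = ∏ v ∈ hfin.toFinset, recPsi Q ψ (Ideal.absNorm v.asIdeal) ^ recCount k v x := by
    apply finprod_eq_prod_of_mulSupport_subset
    intro v hv
    simp only [Function.mem_mulSupport, ne_eq] at hv
    simp only [Set.Finite.coe_toFinset, Set.mem_ofPred_eq]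
    intro h0
    apply hv
    rw [h0, pow_zero]
  rw [e1, e2]
  have hcop : ∀ v ∈ hfin.toFinset, (Ideal.absNorm v.asIdeal ^ recCount k v x).Coprime Q := by
    intro v hv
    simp only [Set.Finite.mem_toFinset, Set.mem_ofPred_eq] at hv
    by_cases hQv : (Q : 𝓞 k) ∈ v.asIdeal
    · exact absurd (recCount_eq_zero_of_notMem k v x hx (hxQ v hQv)) hv
    · exact Nat.Coprime.pow_left _ (rec_absNorm_coprime k Q v hQv)
  rw [recPsi_prod Q ψ _ _ hcop]
  refine Finset.prod_congr rfl fun v hv => ?_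
  simp only [Set.Finite.mem_toFinset, Set.mem_ofPred_eq] at hv
  by_cases hQv : (Q : 𝓞 k) ∈ v.asIdeal
  · exact absurd (recCount_eq_zero_of_notMem k v x hx (hxQ v hQv)) hv
  · exact recPsi_pow Q ψ (rec_absNorm_coprime k Q v hQv) _

/-- **REC core.** `a b : 𝓞 k` nonzero, `a ≡ b mod Q`, `b` prime to `Q`, `ψ` a character of
`(ZMod Q)ˣ` with `ψ(-1) = 1`: the "Artin symbols" `∏_v ψ(N v)^{v(a)}` and `∏_v ψ(N v)^{v(b)}`
agree. -/
theorem rec_core (Q : ℕ) {M : Type*} [CommGroup M] (ψ : (ZMod Q)ˣ →* M) (hψ : ψ (-1) = 1)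
    (a b : 𝓞 k) (ha : a ≠ 0) (hb : b ≠ 0) (hab : a - b ∈ Ideal.span {(Q : 𝓞 k)})
    (hbQ : ∀ v : HeightOneSpectrum (𝓞 k), (Q : 𝓞 k) ∈ v.asIdeal → b ∉ v.asIdeal) :
    ∏ᶠ v : HeightOneSpectrum (𝓞 k), recPsi Q ψ (Ideal.absNorm v.asIdeal) ^ recCount k v a =
      ∏ᶠ v : HeightOneSpectrum (𝓞 k), recPsi Q ψ (Ideal.absNorm v.asIdeal) ^ recCount k v b := by
  have haQ : ∀ v : HeightOneSpectrum (𝓞 k), (Q : 𝓞 k) ∈ v.asIdeal → a ∉ v.asIdeal := by
    intro v hQv hav
    apply hbQ v hQv
    have h1 : a - b ∈ v.asIdeal :=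
      ((Ideal.span_singleton_le_iff_mem _).2 hQv) hab
    have : b = a - (a - b) := by ring
    rw [this]
    exact v.asIdeal.sub_mem hav h1
  rw [← rec_psi_factorization k Q ψ a ha haQ, ← rec_psi_factorization k Q ψ b hb hbQ,
    Ideal.absNorm_span_singleton, Ideal.absNorm_span_singleton]
  have ca := rec_absNorm_span_coprime k Q a ha haQ
  have cb := rec_absNorm_span_coprime k Q b hb hbQ
  rw [Ideal.absNorm_span_singleton] at ca cb
  exact recPsi_natAbs_congr Q ψ hψ ca cb (rec_norm_congr k Q a b hab)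

end Fermat.Agent.S55
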