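import Fermat.Agent.S55.TrInst
import Fermat.Agent.S55.LocLimUnr

/-!
# S55, block REC: two definitions used by the reciprocity law over `ℚ`

* `rec_qUnit q` : the prime `q` as a unit of `ℚ_q`;
* `rec_locExp p ζ q e` : the `(PadicAlgCl q)ˣ`-valued local cochain `emb_q (ζ ^ e)` attached to a
  `ZMod p`-valued local cochain `e`.
-/

set_option autoImplicit false

namespace Fermat.Agent.S55

local notation "Qb" => AlgebraicClosure ℚ

/-- the prime `q` as a unit of `ℚ_q`. -/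
noncomputable def rec_qUnit (q : ℕ) [Fact q.Prime] : ℚ_[q]ˣ :=
  Units.mk0 (q : ℚ_[q]) (by exact_mod_cast (Fact.out : q.Prime).ne_zero)

theorem rec_qUnit_val (q : ℕ) [Fact q.Prime] : ((rec_qUnit q : ℚ_[q]ˣ) : ℚ_[q]) = (q : ℚ_[q]) :=
  rfl

/-- the local cocycle `emb_q (ζ ^ e)` attached to a `μ_p`-valued local cochain. -/
noncomputable def rec_locExp (p : ℕ) (ζ : Qbˣ) (q : ℕ) [Fact q.Prime]
    (e : (PadicAlgCl q ≃ₐ[ℚ_[q]] PadicAlgCl q) × (PadicAlgCl q ≃ₐ[ℚ_[q]] PadicAlgCl q) → ZMod p) :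
    (PadicAlgCl q ≃ₐ[ℚ_[q]] PadicAlgCl q) × (PadicAlgCl q ≃ₐ[ℚ_[q]] PadicAlgCl q) →
      (PadicAlgCl q)ˣ :=
  fun x => Units.map ((padicEmbedding q : Qb →+* PadicAlgCl q) : Qb →* PadicAlgCl q)
    (ζ ^ (e x).val)

end Fermat.Agent.S55
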