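import Fermat.Agent.S55.TrInst
import Fermat.Agent.S55.LocKumSum
import Fermat.Agent.S55.ShapLevel
import Fermat.Agent.S55.FinRam

/-!
# S55, block REC, sub-block (RA1) REC-DESC: descent of the reciprocity law

Formal part of the reduction of the reciprocity law over `ℚ` (field `recip` of `tri_Arith p`) to
the reciprocity law over a finite extension `k₀` (e.g. `ℚ(ζ_p)`) of degree prime to `p`.

* `recd_conj` : **conjugation invariance at cochain level**: for a 2-cocycle `z` of `G` and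
  `g : G`, `ρ(g)⁻¹ z(g s g⁻¹, g t g⁻¹) = z(s, t) + (d b_g)(s, t)` with the explicit 1-cochain
  `b_g(s) = ρ(g)⁻¹ (z(g s g⁻¹, g) − z(g, s))` (`recd_bf`; a level cochain `recd_b` when `z` is).
* `recd_tw` : the twisted pull-back of a `U`-cochain to the local group `H_a = ι⁻¹(g_a⁻¹ U g_a)`
  at the double coset `a` (`Δ : ShlDec ι U W`): `(s, t) ↦ ρ(g_a)⁻¹ z'(θ_a s, θ_a t)`.
* `recd_tw_res` : for a cocycle `z` of `G`, `recd_tw (z|_U) = (z + d b_{g_a})|_{H_a}`.
* `recd_descent` : the generic descent.  Given local functionals `inv q` killing coboundaries,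
  functionals `invU q a` at the places `(q, a)` of `U` with the *restriction rule*
  `invU q a (res x) = [H_q : H_{q,a}] • inv q x` on cocycles, and the reciprocity law at the
  `U`-level, the reciprocity law holds at the `G`-level provided `[G : U]` is invertible.
* `recd_recip`, `recd_arith` : the instance for `Γ = Gal(ℚ̄/ℚ)` in the exact shape of
  `tri_Arith.recip`.
-/

set_option autoImplicit false

open ExtCitation groupCohomology

namespace Fermat.Agent.S55

/-! ### Conjugation invariance at cochain level -/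

section conj

variable {k G M : Type*} [CommRing k] [Group G] [AddCommGroup M] [Module k M]
variable (ρ : Representation k G M)

/-- The conjugation 1-cochain of a 2-cochain `z` and `g : G`:
`b_g(s) = ρ(g)⁻¹ (z(g s g⁻¹, g) − z(g, s))`. -/
def recd_bf (z : G × G → M) (g : G) : G → M :=
  fun s => ρ g⁻¹ (z (g * s * g⁻¹, g) - z (g, s))

theorem recd_rho_inv_apply (g : G) (m : M) : ρ g (ρ g⁻¹ m) = m := by
  rw [← Module.End.mul_apply, ← map_mul, mul_inv_cancel, map_one, Module.End.one_apply]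

theorem recd_rho_inv_apply' (g : G) (m : M) : ρ g⁻¹ (ρ g m) = m := by
  rw [← Module.End.mul_apply, ← map_mul, inv_mul_cancel, map_one, Module.End.one_apply]

theorem recd_rho_conj_apply (g s : G) (m : M) : ρ g (ρ s (ρ g⁻¹ m)) = ρ (g * s * g⁻¹) m := by
  rw [map_mul, map_mul, Module.End.mul_apply, Module.End.mul_apply]

/-- **Conjugation invariance at cochain level**: for a 2-cocycle `z` and `g : G`,
`ρ(g)⁻¹ z(g s g⁻¹, g t g⁻¹) = z(s, t) + (d b_g)(s, t)`. -/
theorem recd_conj (z : G × G → M) (hz : hc_d23f ρ z = 0) (g s t : G) :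
    ρ g⁻¹ (z (g * s * g⁻¹, g * t * g⁻¹)) = z (s, t) + hc_d12f ρ (recd_bf ρ z g) (s, t) := by
  have h1 : ρ g (z (s, t)) - z (g * s, t) + z (g, s * t) - z (g, s) = 0 :=
    congrFun hz (g, s, t)
  have h2 : ρ (g * s * g⁻¹) (z (g, t)) - z (g * s * g⁻¹ * g, t) + z (g * s * g⁻¹, g * t)
      - z (g * s * g⁻¹, g) = 0 := congrFun hz (g * s * g⁻¹, g, t)
  have h3 : ρ (g * s * g⁻¹) (z (g * t * g⁻¹, g)) - z (g * s * g⁻¹ * (g * t * g⁻¹), g)
      + z (g * s * g⁻¹, g * t * g⁻¹ * g) - z (g * s * g⁻¹, g * t * g⁻¹) = 0 :=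
    congrFun hz (g * s * g⁻¹, g * t * g⁻¹, g)
  have e1 : g * s * g⁻¹ * g = g * s := by group
  have e2 : g * s * g⁻¹ * (g * t * g⁻¹) = g * (s * t) * g⁻¹ := by group
  have e3 : g * t * g⁻¹ * g = g * t := by group
  rw [e1] at h2
  rw [e2, e3] at h3
  have h4 : z (g * s, t) = ρ g (z (s, t)) + z (g, s * t) - z (g, s) := by
    rw [eq_comm, ← sub_eq_zero, ← h1]; abel
  have h5 : z (g * s * g⁻¹, g * t) =
      z (g * s * g⁻¹, g) - ρ (g * s * g⁻¹) (z (g, t)) + z (g * s, t) := by
    rw [← sub_eq_zero, ← h2]; abel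
  have h6 : z (g * s * g⁻¹, g * t * g⁻¹) =
      ρ (g * s * g⁻¹) (z (g * t * g⁻¹, g)) - z (g * (s * t) * g⁻¹, g)
        + z (g * s * g⁻¹, g * t) := by
    rw [eq_comm, ← sub_eq_zero, ← h3]
  have key : z (g * s * g⁻¹, g * t * g⁻¹) =
      ρ g (z (s, t) + hc_d12f ρ (recd_bf ρ z g) (s, t)) := by
    simp only [hc_d12f_apply, recd_bf, map_add, map_sub, recd_rho_inv_apply,
      recd_rho_conj_apply]
    rw [h6, h5, h4]
    abel
  rw [key, recd_rho_inv_apply']

variable {ρ}

/-- The conjugation 1-cochain of a level 2-cochain is a level 1-cochain. -/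
theorem recd_isLev1_bf {N : Subgroup G} (hN : N.Normal) {z : G × G → M}
    (hz : hc_IsLev2 ρ N z) (g : G) : hc_IsLev1 ρ N (recd_bf ρ z g) := by
  refine ⟨fun s n hn => ?_, fun s => ?_⟩
  · have e1 : g * (s * n) * g⁻¹ = g * s * g⁻¹ * (g * n * g⁻¹) := by group
    have h1 := hz.1 (g * s * g⁻¹) g (g * n * g⁻¹) (hN.conj_mem n hn g) 1 N.one_mem
    have h2 := hz.1 g s 1 N.one_mem n hn
    rw [mul_one] at h1 h2
    simp only [recd_bf]
    rw [e1, h1, h2]
  · exact ((hz.2 _).sub (hz.2 _)).rho hN g⁻¹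

end conj

section conjLev

variable {k G M : Type*} [CommRing k] [Group G] [AddCommGroup M] [Module k M]
variable (L : hc_Lev G) (ρ : Representation k G M)

/-- The conjugation 1-cochain of a level 2-cochain, as a level 1-cochain. -/
def recd_b (z : hc_C2 L ρ) (g : G) : hc_C1 L ρ :=
  ⟨recd_bf ρ (z : G × G → M) g, by
    obtain ⟨N, hN, h⟩ := z.2
    exact ⟨N, hN, recd_isLev1_bf (L.nor N hN) h g⟩⟩

@[simp] theorem recd_b_coe (z : hc_C2 L ρ) (g : G) :
    (recd_b L ρ z g : G → M) = recd_bf ρ (z : G × G → M) g := rfl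

end conjLev

/-! ### The twisted pull-back to the local groups of `U` -/

section tw

variable {k G H M : Type*} [CommRing k] [Group G] [Group H] [AddCommGroup M] [Module k M]
variable {LH : hc_Lev H} {L : hc_Lev G} {ι : H →* G} (hι : hc_LevCompat LH L ι)
variable {U : Subgroup G} {W : Type*} (Δ : ShlDec ι U W) (ρ : Representation k G M) (a : W)

include hι in
/-- `θ_a : H_a → U` is compatible with the induced level structures. -/
theorem recd_th_compat :
    hc_LevCompat (shapLevSub LH (Δ.Ha a)) (shapLevSub L U) (Δ.th a) :=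
  shap_levSub_compat_of hι (Δ.Ha a) U (Δ.th a) fun N hN _ hy =>
    (L.nor N hN).conj_mem _ hy (Δ.g a)

/-- `ρ(g_a)⁻¹` intertwines the `θ_a`-action and the `ι`-action of `H_a`. -/
theorem recd_tw_equiv (y : Δ.Ha a) (m : M) :
    ρ (Δ.g a)⁻¹ (((ρ.comp U.subtype).comp (Δ.th a)) y m) =
      ((ρ.comp ι).comp (Δ.Ha a).subtype) y (ρ (Δ.g a)⁻¹ m) := by
  simp only [MonoidHom.comp_apply, Subgroup.coe_subtype, ShlDec.th_coe, map_mul,
    Module.End.mul_apply, recd_rho_inv_apply']

/-- **The twisted pull-back** of a level 2-cochain of `U` to the local group `H_a` at the double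
coset `a`: `(s, t) ↦ ρ(g_a)⁻¹ z'(θ_a s, θ_a t)`. -/
noncomputable def recd_tw :
    hc_C2 (shapLevSub L U) (ρ.comp U.subtype) →ₗ[k]
      hc_C2 (shapLevSub LH (Δ.Ha a)) ((ρ.comp ι).comp (Δ.Ha a).subtype) :=
  (hc_map2 (shapLevSub LH (Δ.Ha a)) (ρ (Δ.g a)⁻¹) (recd_tw_equiv Δ ρ a)).comp
    (hc_res2 (recd_th_compat hι Δ a) (ρ.comp U.subtype))

@[simp] theorem recd_tw_apply (z' : hc_C2 (shapLevSub L U) (ρ.comp U.subtype))
    (x : (Δ.Ha a) × (Δ.Ha a)) :
    (recd_tw hι Δ ρ a z' : (Δ.Ha a) × (Δ.Ha a) → M) x =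
      ρ (Δ.g a)⁻¹ ((z' : U × U → M) (Δ.th a x.1, Δ.th a x.2)) := rfl

/-- For a 2-cocycle `z` of `G`: the twisted pull-back of `z|_U` to `H_a` is the restriction
of `z + d b_{g_a}` along `H_a → H → G`. -/
theorem recd_tw_res (z : hc_C2 L ρ) (hz : hc_d23 L ρ z = 0) :
    recd_tw hι Δ ρ a (hc_res2 (shap_levSub_compat L U) ρ z) =
      hc_res2 (shap_levSub_compat LH (Δ.Ha a)) (ρ.comp ι)
        (hc_res2 hι ρ (z + hc_d12 L ρ (recd_b L ρ z (Δ.g a)))) := by
  apply Subtype.ext
  funext ⟨s, t⟩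
  have hz' : hc_d23f ρ (z : G × G → M) = 0 := congrArg Subtype.val hz
  exact recd_conj ρ (z : G × G → M) hz' (Δ.g a) (ι (s : H)) (ι (t : H))

end tw

/-! ### The generic descent -/

section descent

variable {k G M : Type*} [CommRing k] [Group G] [AddCommGroup M] [Module k M]

/-- **Descent of the reciprocity law** from a finite-index subgroup `U` with `[G : U]`
invertible in `k`. -/
theorem recd_descent {Q : Type*} {Hq : Q → Type*} [∀ q, Group (Hq q)]
    (LH : ∀ q, hc_Lev (Hq q)) (L : hc_Lev G) (ι : ∀ q, Hq q →* G)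
    (hι : ∀ q, hc_LevCompat (LH q) L (ι q)) (ρ : Representation k G M)
    (U : Subgroup G) [U.FiniteIndex] (hidx : IsUnit (U.index : k))
    {W : Q → Type*} [∀ q, Fintype (W q)] (Δ : ∀ q, ShlDec (ι q) U (W q))
    (inv : ∀ q, hc_C2 (LH q) (ρ.comp (ι q)) →ₗ[k] k)
    (inv_d : ∀ q (c : hc_C1 (LH q) (ρ.comp (ι q))),
      inv q (hc_d12 (LH q) (ρ.comp (ι q)) c) = 0)
    (invU : ∀ q (a : W q), hc_C2 (shapLevSub (LH q) ((Δ q).Ha a))
      ((ρ.comp (ι q)).comp ((Δ q).Ha a).subtype) →ₗ[k] k)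
    (hres : ∀ q (a : W q) (x : hc_C2 (LH q) (ρ.comp (ι q))),
      hc_d23 (LH q) (ρ.comp (ι q)) x = 0 →
      invU q a (hc_res2 (shap_levSub_compat (LH q) ((Δ q).Ha a)) (ρ.comp (ι q)) x) =
        ((Δ q).Ha a).index • inv q x)
    (hU : ∀ z' : hc_C2 (shapLevSub L U) (ρ.comp U.subtype),
      hc_d23 (shapLevSub L U) (ρ.comp U.subtype) z' = 0 →
      ∑ᶠ x : (Σ q, W q), invU x.1 x.2 (recd_tw (hι x.1) (Δ x.1) ρ x.2 z') = 0)
    (z : hc_C2 L ρ) (hz : hc_d23 L ρ z = 0)
    (hfin : (Function.support fun q => inv q (hc_res2 (hι q) ρ z)).Finite) :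
    ∑ᶠ q, inv q (hc_res2 (hι q) ρ z) = 0 := by
  classical
  have hz' : hc_d23 (shapLevSub L U) (ρ.comp U.subtype)
      (hc_res2 (shap_levSub_compat L U) ρ z) = 0 := by
    rw [← hc_res3_d23, hz, map_zero]
  have key : ∀ x : (Σ q, W q),
      invU x.1 x.2 (recd_tw (hι x.1) (Δ x.1) ρ x.2 (hc_res2 (shap_levSub_compat L U) ρ z)) =
        ((Δ x.1).Ha x.2).index • inv x.1 (hc_res2 (hι x.1) ρ z) := by
    rintro ⟨q, a⟩
    have hcoc : hc_d23 (LH q) (ρ.comp (ι q))
        (hc_res2 (hι q) ρ (z + hc_d12 L ρ (recd_b L ρ z ((Δ q).g a)))) = 0 := by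
      rw [← hc_res3_d23, map_add, hz, hc_d23_d12, add_zero, map_zero]
    show invU q a (recd_tw (hι q) (Δ q) ρ a (hc_res2 (shap_levSub_compat L U) ρ z)) = _
    rw [recd_tw_res (hι q) (Δ q) ρ a z hz, hres q a _ hcoc, map_add, map_add, hc_res2_d12,
      inv_d, add_zero]
  have h := hU _ hz'
  simp only [key] at h
  set f : Q → k := fun q => inv q (hc_res2 (hι q) ρ z) with hf
  have hsum : ∑ᶠ x : (Σ q, W q), ((Δ x.1).Ha x.2).index • f x.1 = U.index • ∑ᶠ q, f q := by
    have h1 : ∑ᶠ q, f q = ∑ q ∈ hfin.toFinset, f q :=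
      finsum_eq_sum_of_support_subset _ (by simp)
    have h2 : ∑ᶠ x : (Σ q, W q), ((Δ x.1).Ha x.2).index • f x.1 =
        ∑ x ∈ hfin.toFinset.sigma (fun _ => Finset.univ), ((Δ x.1).Ha x.2).index • f x.1 := by
      refine finsum_eq_sum_of_support_subset _ ?_
      intro x hx
      rw [Finset.mem_coe, Finset.mem_sigma]
      refine ⟨?_, Finset.mem_univ _⟩
      rw [Set.Finite.mem_toFinset, Function.mem_support]
      intro h0
      refine hx ?_
      show ((Δ x.1).Ha x.2).index • f x.1 = 0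
      rw [h0, smul_zero]
    rw [h1, h2, Finset.sum_sigma, Finset.smul_sum]
    refine Finset.sum_congr rfl fun q _ => ?_
    show ∑ a : W q, ((Δ q).Ha a).index • f q = U.index • f q
    rw [← Finset.sum_smul, lkm_sum_index (Δ q)]
  rw [hsum] at h
  have h3 : (U.index : k) * ∑ᶠ q, f q = 0 := by
    rw [← nsmul_eq_mul]
    exact h
  exact (hidx.mul_right_eq_zero).mp h3

end descent

/-! ### The instance for `Γ = Gal(ℚ̄/ℚ)` -/

section inst

local notation "Qb" => AlgebraicClosure ℚ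
local notation "Γ" => (AlgebraicClosure ℚ ≃ₐ[ℚ] AlgebraicClosure ℚ)

variable {p : ℕ} [Fact p.Prime]

local notation "ρT" => dual_rhoT (cycloChar p)

/-- The local invariants of a finite-level 2-cocycle vanish at almost all primes (from the
vanishing on unramified cocycles alone; cf. `tri_support_finite`). -/
theorem recd_support_finite
    (inv : ∀ q : Nat.Primes, hc_C2 (pt_localLev (primeLocalToGlobal q))
      ((ρT).comp (primeLocalToGlobal q)) →ₗ[ZMod p] ZMod p)
    (unr0 : ∀ q : Nat.Primes, (q : ℕ) ≠ p →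
      ∀ e : hc_C2 (pt_localLev (primeLocalToGlobal q)) ((ρT).comp (primeLocalToGlobal q)),
      hc_IsLev2 ((ρT).comp (primeLocalToGlobal q)) (tri_I q)
        (e : primeLocalGaloisGroup q × primeLocalGaloisGroup q → ZMod p) →
      hc_d23 (pt_localLev (primeLocalToGlobal q)) ((ρT).comp (primeLocalToGlobal q)) e = 0 →
      inv q e = 0)
    (z : hc_C2 tr_fullLev ρT) (hz : hc_d23 tr_fullLev ρT z = 0) :
    (Function.support fun q : Nat.Primes =>
      inv q (hc_res2 (tri_compat (primeLocalToGlobal q)) ρT z)).Finite := by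
  classical
  obtain ⟨T, K, hK, hlev⟩ := tri_exists_level (fun F _ => finram_exists F) z
  refine ((insert (pPrime p) T).finite_toSet).subset ?_
  intro q hq
  by_contra hqT
  rw [Finset.mem_coe, Finset.mem_insert, not_or] at hqT
  refine hq (unr0 q ?_ _ (tri_res_unram z T K hK hlev q hqT.2) ?_)
  · intro h
    exact hqT.1 (Subtype.ext h)
  · rw [← hc_res3_d23, hz, map_zero]

/-- **REC-DESC**: the reciprocity law over `ℚ` (in the exact shape of `tri_Arith.recip`) from
the reciprocity law at the level of a subgroup `U ≤ Γ` of finite index prime to `p`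
(e.g. `U = (cycloChar p).ker = Gal(ℚ̄/ℚ(ζ_p))`), the restriction rule for the local
invariants and the vanishing of `inv q` on coboundaries and on unramified cocycles. -/
theorem recd_recip
    (inv : ∀ q : Nat.Primes, hc_C2 (pt_localLev (primeLocalToGlobal q))
      ((ρT).comp (primeLocalToGlobal q)) →ₗ[ZMod p] ZMod p)
    (inv_d : ∀ (q : Nat.Primes) (c : hc_C1 (pt_localLev (primeLocalToGlobal q))
        ((ρT).comp (primeLocalToGlobal q))),
      inv q (hc_d12 (pt_localLev (primeLocalToGlobal q))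
        ((ρT).comp (primeLocalToGlobal q)) c) = 0)
    (unr0 : ∀ q : Nat.Primes, (q : ℕ) ≠ p →
      ∀ e : hc_C2 (pt_localLev (primeLocalToGlobal q)) ((ρT).comp (primeLocalToGlobal q)),
      hc_IsLev2 ((ρT).comp (primeLocalToGlobal q)) (tri_I q)
        (e : primeLocalGaloisGroup q × primeLocalGaloisGroup q → ZMod p) →
      hc_d23 (pt_localLev (primeLocalToGlobal q)) ((ρT).comp (primeLocalToGlobal q)) e = 0 →
      inv q e = 0)
    (U : Subgroup Γ) [U.FiniteIndex] (hidx : ¬ p ∣ U.index)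
    {W : Nat.Primes → Type} [∀ q, Fintype (W q)]
    (Δ : ∀ q : Nat.Primes, ShlDec (primeLocalToGlobal q) U (W q))
    (invU : ∀ (q : Nat.Primes) (a : W q),
      hc_C2 (shapLevSub (pt_localLev (primeLocalToGlobal q)) ((Δ q).Ha a))
        (((ρT).comp (primeLocalToGlobal q)).comp ((Δ q).Ha a).subtype) →ₗ[ZMod p] ZMod p)
    (hres : ∀ (q : Nat.Primes) (a : W q)
      (x : hc_C2 (pt_localLev (primeLocalToGlobal q)) ((ρT).comp (primeLocalToGlobal q))),
      hc_d23 (pt_localLev (primeLocalToGlobal q)) ((ρT).comp (primeLocalToGlobal q)) x = 0 →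
      invU q a (hc_res2 (shap_levSub_compat (pt_localLev (primeLocalToGlobal q)) ((Δ q).Ha a))
        ((ρT).comp (primeLocalToGlobal q)) x) = ((Δ q).Ha a).index • inv q x)
    (hU : ∀ z' : hc_C2 (shapLevSub tr_fullLev U) ((ρT).comp U.subtype),
      hc_d23 (shapLevSub tr_fullLev U) ((ρT).comp U.subtype) z' = 0 →
      ∑ᶠ x : (Σ q : Nat.Primes, W q),
        invU x.1 x.2 (recd_tw (tri_compat (primeLocalToGlobal x.1)) (Δ x.1) ρT x.2 z') = 0)
    (z : hc_C2 tr_fullLev ρT) (hz : hc_d23 tr_fullLev ρT z = 0) :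
    ∑ᶠ q : Nat.Primes, inv q (hc_res2 (tri_compat (primeLocalToGlobal q)) ρT z) = 0 := by
  have hunit : IsUnit ((U.index : ℕ) : ZMod p) := by
    rw [isUnit_iff_ne_zero, Ne, ZMod.natCast_eq_zero_iff]
    exact hidx
  exact recd_descent (fun q : Nat.Primes => pt_localLev (primeLocalToGlobal q)) tr_fullLev
    (fun q : Nat.Primes => primeLocalToGlobal q)
    (fun q : Nat.Primes => tri_compat (primeLocalToGlobal q)) ρT U hunit Δ inv inv_d invU hres
    hU z hz (recd_support_finite inv unr0 z hz)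

/-- The arithmetic input `tri_Arith p` of the trace from Γ-level local invariants (`inv`,
`inv_d`, `unr0`) and the reciprocity law at the level of a subgroup of index prime to `p`. -/
noncomputable def recd_arith
    (inv : ∀ q : Nat.Primes, hc_C2 (pt_localLev (primeLocalToGlobal q))
      ((ρT).comp (primeLocalToGlobal q)) →ₗ[ZMod p] ZMod p)
    (inv_d : ∀ (q : Nat.Primes) (c : hc_C1 (pt_localLev (primeLocalToGlobal q))
        ((ρT).comp (primeLocalToGlobal q))),
      inv q (hc_d12 (pt_localLev (primeLocalToGlobal q))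
        ((ρT).comp (primeLocalToGlobal q)) c) = 0)
    (unr0 : ∀ q : Nat.Primes, (q : ℕ) ≠ p →
      ∀ e : hc_C2 (pt_localLev (primeLocalToGlobal q)) ((ρT).comp (primeLocalToGlobal q)),
      hc_IsLev2 ((ρT).comp (primeLocalToGlobal q)) (tri_I q)
        (e : primeLocalGaloisGroup q × primeLocalGaloisGroup q → ZMod p) →
      hc_d23 (pt_localLev (primeLocalToGlobal q)) ((ρT).comp (primeLocalToGlobal q)) e = 0 →
      inv q e = 0)
    (U : Subgroup Γ) [U.FiniteIndex] (hidx : ¬ p ∣ U.index)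
    {W : Nat.Primes → Type} [∀ q, Fintype (W q)]
    (Δ : ∀ q : Nat.Primes, ShlDec (primeLocalToGlobal q) U (W q))
    (invU : ∀ (q : Nat.Primes) (a : W q),
      hc_C2 (shapLevSub (pt_localLev (primeLocalToGlobal q)) ((Δ q).Ha a))
        (((ρT).comp (primeLocalToGlobal q)).comp ((Δ q).Ha a).subtype) →ₗ[ZMod p] ZMod p)
    (hres : ∀ (q : Nat.Primes) (a : W q)
      (x : hc_C2 (pt_localLev (primeLocalToGlobal q)) ((ρT).comp (primeLocalToGlobal q))),
      hc_d23 (pt_localLev (primeLocalToGlobal q)) ((ρT).comp (primeLocalToGlobal q)) x = 0 →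
      invU q a (hc_res2 (shap_levSub_compat (pt_localLev (primeLocalToGlobal q)) ((Δ q).Ha a))
        ((ρT).comp (primeLocalToGlobal q)) x) = ((Δ q).Ha a).index • inv q x)
    (hU : ∀ z' : hc_C2 (shapLevSub tr_fullLev U) ((ρT).comp U.subtype),
      hc_d23 (shapLevSub tr_fullLev U) ((ρT).comp U.subtype) z' = 0 →
      ∑ᶠ x : (Σ q : Nat.Primes, W q),
        invU x.1 x.2 (recd_tw (tri_compat (primeLocalToGlobal x.1)) (Δ x.1) ρT x.2 z') = 0) :
    tri_Arith p where
  inv := inv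
  inv_d := inv_d
  unr0 := unr0
  recip := recd_recip inv inv_d unr0 U hidx Δ invU hres hU

end inst

end Fermat.Agent.S55
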