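import Fermat.Agent.S55.RecSym

/-!
# S55 block REC (reciprocity), part 3: the cyclotomic class field of a subgroup of `(ZMod Q)ˣ`

`k` a number field, `Q ≠ 0`, `L = CyclotomicField Q k`, `recChi : Gal(L/k) →* (ZMod Q)ˣ` the
cyclotomic character.  For a subgroup `H ≤ (ZMod Q)ˣ` the field `recField k Q H` is the fixed
field of `recChi ⁻¹' H`.

* `rec_isGalois_field` : `recField k Q H` is Galois over `k`.
* `recPhi` : the injective homomorphism `Gal(recField/k) →* (ZMod Q)ˣ ⧸ H`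
  (`recPhi_restrict`, `recPhi_injective`); hence the Galois group is cyclic when the quotient is.
* `rec_psi_absNorm_field` : every prime `W` of `recField k Q H` has `recPsi Q (mk' H) (N W) = 1`
  (the hypothesis `hK` of `rec_cyclic`).
-/

set_option autoImplicit false

open NumberField IsDedekindDomain

namespace Fermat.Agent.S55

variable (k : Type) [Field k] [NumberField k] (Q : ℕ) [NeZero Q]

instance rec_isGalois_cyclo : IsGalois k (CyclotomicField Q k) :=
  IsCyclotomicExtension.isGalois {Q} k (CyclotomicField Q k)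

/-- The cyclotomic character of `Gal(k(ζ_Q)/k)`. -/
noncomputable def recChi : (CyclotomicField Q k ≃ₐ[k] CyclotomicField Q k) →* (ZMod Q)ˣ :=
  (IsCyclotomicExtension.zeta_spec Q k (CyclotomicField Q k)).autToPow k

theorem recChi_spec (σ : CyclotomicField Q k ≃ₐ[k] CyclotomicField Q k) :
    σ (IsCyclotomicExtension.zeta Q k (CyclotomicField Q k)) =
      IsCyclotomicExtension.zeta Q k (CyclotomicField Q k) ^ (recChi k Q σ : ZMod Q).val :=
  ((IsCyclotomicExtension.zeta_spec Q k (CyclotomicField Q k)).autToPow_spec k σ).symm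

theorem recChi_injective : Function.Injective (recChi k Q) :=
  (IsCyclotomicExtension.zeta_spec Q k (CyclotomicField Q k)).autToPow_injective k

/-- If `σ ζ = ζ ^ n` then `recChi σ = n`. -/
theorem recChi_eq_of_pow (σ : CyclotomicField Q k ≃ₐ[k] CyclotomicField Q k) (n : ℕ)
    (h : σ (IsCyclotomicExtension.zeta Q k (CyclotomicField Q k)) =
      IsCyclotomicExtension.zeta Q k (CyclotomicField Q k) ^ n) :
    ((recChi k Q σ : (ZMod Q)ˣ) : ZMod Q) = (n : ZMod Q) := by
  have hζ := IsCyclotomicExtension.zeta_spec Q k (CyclotomicField Q k)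
  rw [recChi_spec] at h
  rw [pow_eq_pow_mod n hζ.pow_eq_one] at h
  have h2 := hζ.pow_inj (ZMod.val_lt _) (Nat.mod_lt n (NeZero.pos Q)) h
  have h3 : ((recChi k Q σ : (ZMod Q)ˣ) : ZMod Q) =
      (((recChi k Q σ : (ZMod Q)ˣ) : ZMod Q).val : ZMod Q) := (ZMod.natCast_zmod_val _).symm
  rw [h3, h2, ZMod.natCast_mod]

variable (H : Subgroup (ZMod Q)ˣ)

/-- The fixed field of the preimage of `H` under the cyclotomic character. -/
noncomputable def recField : IntermediateField k (CyclotomicField Q k) :=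
  IntermediateField.fixedField (H.comap (recChi k Q))

instance rec_normal_comap : (H.comap (recChi k Q)).Normal :=
  Subgroup.Normal.comap (Subgroup.normal_of_isMulCommutative H) _

instance rec_isGalois_field : IsGalois k (recField k Q H) :=
  IsGalois.of_fixedField_normal_subgroup (H.comap (recChi k Q))

theorem rec_fixingSubgroup : (recField k Q H).fixingSubgroup = H.comap (recChi k Q) :=
  IntermediateField.fixingSubgroup_fixedField _

/-- The homomorphism `Gal(recField/k) → (ZMod Q)ˣ ⧸ H` induced by the cyclotomic character. -/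
noncomputable def recPhi : (recField k Q H ≃ₐ[k] recField k Q H) →* (ZMod Q)ˣ ⧸ H :=
  (AlgEquiv.restrictNormalHom (F := k) (K₁ := CyclotomicField Q k) (recField k Q H)).liftOfSurjective
    (AlgEquiv.restrictNormalHom_surjective (CyclotomicField Q k))
    ⟨(QuotientGroup.mk' H).comp (recChi k Q), by
      rw [IntermediateField.restrictNormalHom_ker, rec_fixingSubgroup]
      intro σ hσ
      rw [MonoidHom.mem_ker, MonoidHom.comp_apply, QuotientGroup.mk'_apply,
        QuotientGroup.eq_one_iff]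
      exact hσ⟩

theorem recPhi_restrict (σ : CyclotomicField Q k ≃ₐ[k] CyclotomicField Q k) :
    recPhi k Q H (AlgEquiv.restrictNormalHom (recField k Q H) σ) =
      QuotientGroup.mk' H (recChi k Q σ) :=
  MonoidHom.liftOfRightInverse_comp_apply _ _ _ _ σ

theorem recPhi_injective : Function.Injective (recPhi k Q H) := by
  rw [injective_iff_map_eq_one]
  intro τ hτ
  obtain ⟨σ, rfl⟩ := AlgEquiv.restrictNormalHom_surjective (F := k) (K₁ := recField k Q H)
    (CyclotomicField Q k) τ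
  rw [recPhi_restrict, QuotientGroup.mk'_apply, QuotientGroup.eq_one_iff] at hτ
  have h1 : σ ∈ (AlgEquiv.restrictNormalHom (F := k) (K₁ := CyclotomicField Q k)
      (recField k Q H)).ker := by
    rw [IntermediateField.restrictNormalHom_ker, rec_fixingSubgroup]
    exact hτ
  exact h1

theorem rec_isCyclic_field [IsCyclic ((ZMod Q)ˣ ⧸ H)] :
    IsCyclic (recField k Q H ≃ₐ[k] recField k Q H) :=
  isCyclic_of_injective (recPhi k Q H) (recPhi_injective k Q H)

theorem rec_card_field_dvd :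
    Nat.card (recField k Q H ≃ₐ[k] recField k Q H) ∣ Nat.card ((ZMod Q)ˣ ⧸ H) :=
  Subgroup.card_dvd_of_injective (recPhi k Q H) (recPhi_injective k Q H)

section Frob

variable {k Q}

/-- An arithmetic Frobenius at a prime not dividing `Q` raises `ζ_Q` to the power `N`. -/
theorem rec_frob_zeta (F : Type) [Field F] [NumberField F] [Algebra F (CyclotomicField Q k)]
    [FiniteDimensional F (CyclotomicField Q k)] [IsGalois F (CyclotomicField Q k)]
    (P : Ideal (𝓞 (CyclotomicField Q k))) [P.IsPrime]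
    (hQ : (Q : 𝓞 (CyclotomicField Q k)) ∉ P)
    (σ : CyclotomicField Q k ≃ₐ[F] CyclotomicField Q k) (hσ : IsArithFrobAt (𝓞 F) σ P) :
    σ (IsCyclotomicExtension.zeta Q k (CyclotomicField Q k)) =
      IsCyclotomicExtension.zeta Q k (CyclotomicField Q k) ^
        Nat.card (𝓞 F ⧸ P.under (𝓞 F)) := by
  have hζ := IsCyclotomicExtension.zeta_spec Q k (CyclotomicField Q k)
  have h1 : hζ.toInteger ^ Q = 1 := by
    apply RingOfIntegers.ext
    show IsCyclotomicExtension.zeta Q k (CyclotomicField Q k) ^ Q = 1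
    exact hζ.pow_eq_one
  have h2 := AlgHom.IsArithFrobAt.apply_of_pow_eq_one hσ h1 hQ
  have h3 := congrArg (fun x : 𝓞 (CyclotomicField Q k) => (x : CyclotomicField Q k)) h2
  exact h3

variable (k Q) in
/-- **The primes of `recField k Q H` have norms in `H`.**  This is hypothesis `hK` of
`rec_cyclic` for `ψ = QuotientGroup.mk' H`. -/
theorem rec_psi_absNorm_field (H : Subgroup (ZMod Q)ˣ)
    (W : HeightOneSpectrum (𝓞 (recField k Q H))) :
    recPsi Q (QuotientGroup.mk' H) (Ideal.absNorm W.asIdeal) = (1 : (ZMod Q)ˣ ⧸ H) := by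
  by_cases hc : (Ideal.absNorm W.asIdeal).Coprime Q
  swap
  · rw [recPsi, dif_neg hc]
  rw [recPsi_of_coprime Q _ hc, QuotientGroup.mk'_apply, QuotientGroup.eq_one_iff]
  -- `Q ∉ W`
  have hQW : (Q : 𝓞 (recField k Q H)) ∉ W.asIdeal := by
    intro hQ
    have h1 : ((Ideal.absNorm W.asIdeal : ℕ) : 𝓞 (recField k Q H)) ∈ W.asIdeal :=
      Ideal.absNorm_mem W.asIdeal
    obtain ⟨a, b, hab⟩ := Nat.isCoprime_iff_coprime.2 hc
    have h2 : (1 : 𝓞 (recField k Q H)) ∈ W.asIdeal := by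
      have h3 : (1 : 𝓞 (recField k Q H)) =
          (a : 𝓞 (recField k Q H)) * ((Ideal.absNorm W.asIdeal : ℕ) : 𝓞 (recField k Q H)) +
            (b : 𝓞 (recField k Q H)) * (Q : 𝓞 (recField k Q H)) := by
        exact_mod_cast congrArg (fun z : ℤ => (z : 𝓞 (recField k Q H))) hab.symm
      rw [h3]
      exact W.asIdeal.add_mem (W.asIdeal.mul_mem_left _ h1) (W.asIdeal.mul_mem_left _ hQ)
    exact W.isPrime.ne_top ((Ideal.eq_top_iff_one _).2 h2)
  -- a prime above `W`
  obtain ⟨P, hP⟩ := su_exists_under (L := CyclotomicField Q k) W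
  have hPu : P.asIdeal.under (𝓞 (recField k Q H)) = W.asIdeal := congrArg (·.asIdeal) hP
  have hQP : (Q : 𝓞 (CyclotomicField Q k)) ∉ P.asIdeal := by
    intro h
    apply hQW
    rw [← hPu, Ideal.under, Ideal.mem_comap, map_natCast]
    exact h
  have : P.asIdeal.IsPrime := P.isPrime
  have : Finite (𝓞 (CyclotomicField Q k) ⧸ P.asIdeal) :=
    Ideal.finiteQuotientOfFreeOfNeBot _ P.ne_bot
  obtain ⟨σ, hσ⟩ := IsArithFrobAt.exists_of_isInvariant (𝓞 (recField k Q H))
    (CyclotomicField Q k ≃ₐ[recField k Q H] CyclotomicField Q k) P.asIdeal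
  have h1 := rec_frob_zeta (recField k Q H) P.asIdeal hQP σ hσ
  rw [hPu] at h1
  have hcard : Nat.card (𝓞 (recField k Q H) ⧸ W.asIdeal) = Ideal.absNorm W.asIdeal := by
    rw [Ideal.absNorm_apply, Submodule.cardQuot_apply]
  rw [hcard] at h1
  -- restrict scalars to `k`
  let σ' : CyclotomicField Q k ≃ₐ[k] CyclotomicField Q k := σ.restrictScalars k
  have hσ'mem : σ' ∈ (recField k Q H).fixingSubgroup := by
    rw [IntermediateField.mem_fixingSubgroup_iff]
    intro x hx
    exact σ.commutes ⟨x, hx⟩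
  rw [rec_fixingSubgroup, Subgroup.mem_comap] at hσ'mem
  have h2 := recChi_eq_of_pow k Q σ' (Ideal.absNorm W.asIdeal) h1
  have h3 : ZMod.unitOfCoprime (Ideal.absNorm W.asIdeal) hc = recChi k Q σ' := by
    apply Units.ext
    rw [ZMod.coe_unitOfCoprime, h2]
  rw [h3]
  exact hσ'mem

omit [NeZero Q] in
variable (Q) in
/-- If the quotient `(ZMod Q)ˣ ⧸ H` has odd order then `-1 ∈ H`. -/
theorem rec_neg_one_mem (H : Subgroup (ZMod Q)ˣ) (hodd : Odd (Nat.card ((ZMod Q)ˣ ⧸ H))) :
    (-1 : (ZMod Q)ˣ) ∈ H := by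
  rw [← QuotientGroup.eq_one_iff]
  have h1 : ((-1 : (ZMod Q)ˣ) : (ZMod Q)ˣ ⧸ H) ^ 2 = 1 := by
    rw [← QuotientGroup.mk_pow]
    simp
  have h2 : orderOf ((-1 : (ZMod Q)ˣ) : (ZMod Q)ˣ ⧸ H) ∣ 2 := orderOf_dvd_of_pow_eq_one h1
  have h3 : orderOf ((-1 : (ZMod Q)ˣ) : (ZMod Q)ˣ ⧸ H) ∣ Nat.card ((ZMod Q)ˣ ⧸ H) :=
    orderOf_dvd_natCard _
  have h4 : orderOf ((-1 : (ZMod Q)ˣ) : (ZMod Q)ˣ ⧸ H) = 1 := by
    rcases (Nat.dvd_prime Nat.prime_two).1 h2 with h | h
    · exact h
    · rw [h] at h3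
      exact absurd (even_iff_two_dvd.2 h3) (Nat.not_even_iff_odd.2 hodd)
  exact orderOf_eq_one_iff.1 h4

variable (k Q) in
/-- **Cyclic reciprocity for the cyclotomic class field of `H`.**  If `-1 ∈ H` and `b ∈ kˣ` is
a local norm from `recField k Q H` at all primes dividing `Q`, then
`∏ᶠ_v [N v mod Q]^{ord_v b} = 1` in `(ZMod Q)ˣ ⧸ H`. -/
theorem rec_cyclic_field (H : Subgroup (ZMod Q)ˣ) (hH : (-1 : (ZMod Q)ˣ) ∈ H) (b : kˣ)
    (hb : ∀ v : HeightOneSpectrum (𝓞 k), (Q : 𝓞 k) ∈ v.asIdeal →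
      ∀ n : ℕ, b ∈ ksiNorm k (recField k Q H) v n) :
    ∏ᶠ v : HeightOneSpectrum (𝓞 k), recPsi Q (QuotientGroup.mk' H) (Ideal.absNorm v.asIdeal) ^
      WithZero.log (v.valuation k (b : k)) = (1 : (ZMod Q)ˣ ⧸ H) := by
  have h1 : QuotientGroup.mk' H (-1) = 1 := by
    rw [QuotientGroup.mk'_apply, QuotientGroup.eq_one_iff]; exact hH
  exact rec_cyclic k Q (M := (ZMod Q)ˣ ⧸ H) (ψ := QuotientGroup.mk' H) (K := recField k Q H)
    h1 (NeZero.ne Q) (rec_psi_absNorm_field k Q H) b hb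

/-- The inertia group of a prime of `k(ζ_Q)` not dividing `Q` is trivial. -/
theorem rec_inertia_cyclo (P : Ideal (𝓞 (CyclotomicField Q k))) [P.IsPrime] (hP0 : P ≠ ⊥)
    (hQ : (Q : 𝓞 (CyclotomicField Q k)) ∉ P)
    (σ : CyclotomicField Q k ≃ₐ[k] CyclotomicField Q k)
    (hσ : σ ∈ P.inertia (CyclotomicField Q k ≃ₐ[k] CyclotomicField Q k)) : σ = 1 := by
  have : Finite (𝓞 (CyclotomicField Q k) ⧸ P) := Ideal.finiteQuotientOfFreeOfNeBot _ hP0
  obtain ⟨φ, hφ⟩ := IsArithFrobAt.exists_of_isInvariant (𝓞 k)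
    (CyclotomicField Q k ≃ₐ[k] CyclotomicField Q k) P
  have hσφ : IsArithFrobAt (𝓞 k) (σ * φ) P := by
    intro x
    have h1 := hσ (φ • x)
    have h2 := hφ x
    have h3 : (MulSemiringAction.toAlgHom (𝓞 k) (𝓞 (CyclotomicField Q k)) (σ * φ)) x -
        x ^ Nat.card (𝓞 k ⧸ P.under (𝓞 k)) =
        (σ • (φ • x) - φ • x) + ((MulSemiringAction.toAlgHom (𝓞 k) (𝓞 (CyclotomicField Q k)) φ) x
          - x ^ Nat.card (𝓞 k ⧸ P.under (𝓞 k))) := by
      rw [MulSemiringAction.toAlgHom_apply, MulSemiringAction.toAlgHom_apply, mul_smul]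
      ring
    rw [h3]
    exact P.add_mem h1 h2
  have e1 := recChi_eq_of_pow k Q (σ * φ) _ (rec_frob_zeta k P hQ (σ * φ) hσφ)
  have e2 := recChi_eq_of_pow k Q φ _ (rec_frob_zeta k P hQ φ hφ)
  have e3 : recChi k Q (σ * φ) = recChi k Q φ := Units.ext (e1.trans e2.symm)
  rw [map_mul, mul_eq_right] at e3
  exact recChi_injective k Q (e3.trans (map_one _).symm)

end Frob

end Fermat.Agent.S55
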