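import Fermat.Agent.S55.RecField

/-!
# S55 block REC (reciprocity), part 4: Frobenius elements of the cyclotomic class field

`K = recField k Q H ⊂ L = k(ζ_Q)`.  For a prime `W` of `K` not dividing `Q`:

* `rec_ramificationIdx_field` : `e(W | W ∩ k) = 1`;
* `rec_inertia_field` : the inertia group of `W` in `Gal(K/k)` is trivial;
* `rec_phi_frob` : an arithmetic Frobenius `τ ∈ Gal(K/k)` at `W` is sent by `recPhi` to the
  class of `N(W ∩ k)` in `(ZMod Q)ˣ ⧸ H`.
-/

set_option autoImplicit false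

open NumberField IsDedekindDomain

open scoped Pointwise

namespace Fermat.Agent.S55

variable {k : Type} [Field k] [NumberField k] {Q : ℕ} [NeZero Q]

/-- `k(ζ_Q)/k` is unramified at the primes not dividing `Q`. -/
theorem rec_ramificationIdx_cyclo (P : Ideal (𝓞 (CyclotomicField Q k))) [P.IsPrime]
    (hP0 : P ≠ ⊥) (hQ : (Q : 𝓞 (CyclotomicField Q k)) ∉ P) :
    P.ramificationIdx (𝓞 k) = 1 := by
  have : P.LiesOver (P.under (𝓞 k)) := ⟨rfl⟩
  have h1 := Ideal.card_inertia_eq_ramificationIdxIn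
    (G := CyclotomicField Q k ≃ₐ[k] CyclotomicField Q k) (P.under (𝓞 k)) P
  rw [Ideal.ramificationIdxIn_eq_ramificationIdx (P.under (𝓞 k)) P
    (CyclotomicField Q k ≃ₐ[k] CyclotomicField Q k)] at h1
  rw [← h1]
  have h2 : P.inertia (CyclotomicField Q k ≃ₐ[k] CyclotomicField Q k) = ⊥ := by
    rw [Subgroup.eq_bot_iff_forall]
    intro σ hσ
    exact rec_inertia_cyclo P hP0 hQ σ hσ
  rw [h2, Subgroup.card_bot]

variable (H : Subgroup (ZMod Q)ˣ)

/-- A prime of `k(ζ_Q)` above a prime `W` of `recField k Q H` not dividing `Q`. -/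
theorem rec_exists_above (W : HeightOneSpectrum (𝓞 (recField k Q H)))
    (hQ : (Q : 𝓞 (recField k Q H)) ∉ W.asIdeal) :
    ∃ P : HeightOneSpectrum (𝓞 (CyclotomicField Q k)),
      P.asIdeal.under (𝓞 (recField k Q H)) = W.asIdeal ∧
      (Q : 𝓞 (CyclotomicField Q k)) ∉ P.asIdeal := by
  obtain ⟨P, hP⟩ := su_exists_under (L := CyclotomicField Q k) W
  have hPu : P.asIdeal.under (𝓞 (recField k Q H)) = W.asIdeal := congrArg (·.asIdeal) hP
  refine ⟨P, hPu, ?_⟩
  intro h
  apply hQ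
  rw [← hPu, Ideal.under, Ideal.mem_comap, map_natCast]
  exact h

/-- `recField k Q H / k` is unramified at the primes not dividing `Q`. -/
theorem rec_ramificationIdx_field (W : HeightOneSpectrum (𝓞 (recField k Q H)))
    (hQ : (Q : 𝓞 (recField k Q H)) ∉ W.asIdeal) :
    W.asIdeal.ramificationIdx (𝓞 k) = 1 := by
  obtain ⟨P, hPu, hQP⟩ := rec_exists_above H W hQ
  have : P.asIdeal.IsPrime := P.isPrime
  have h1 := rec_ramificationIdx_cyclo P.asIdeal P.ne_bot hQP
  have : P.asIdeal.LiesOver W.asIdeal := ⟨hPu.symm⟩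
  have h2 := Ideal.ramificationIdx_below_dvd (R := 𝓞 k) W.asIdeal P.asIdeal
  rw [h1] at h2
  exact Nat.dvd_one.1 h2

/-- The inertia group in `Gal(recField k Q H / k)` of a prime not dividing `Q` is trivial. -/
theorem rec_inertia_field (W : HeightOneSpectrum (𝓞 (recField k Q H)))
    (hQ : (Q : 𝓞 (recField k Q H)) ∉ W.asIdeal)
    (τ : recField k Q H ≃ₐ[k] recField k Q H)
    (hτ : τ ∈ W.asIdeal.inertia (recField k Q H ≃ₐ[k] recField k Q H)) : τ = 1 := by
  have : W.asIdeal.IsPrime := W.isPrime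
  have : W.asIdeal.LiesOver (W.asIdeal.under (𝓞 k)) := ⟨rfl⟩
  have h1 := Ideal.card_inertia_eq_ramificationIdxIn
    (G := recField k Q H ≃ₐ[k] recField k Q H) (W.asIdeal.under (𝓞 k)) W.asIdeal
  rw [Ideal.ramificationIdxIn_eq_ramificationIdx (W.asIdeal.under (𝓞 k)) W.asIdeal
    (recField k Q H ≃ₐ[k] recField k Q H), rec_ramificationIdx_field H W hQ] at h1
  have h2 := (Subgroup.card_eq_one).1 h1
  rw [h2] at hτ
  exact Subgroup.mem_bot.1 hτ

/-- **Frobenius elements of the cyclotomic class field.**  An arithmetic Frobenius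
`τ ∈ Gal(recField k Q H / k)` at a prime `W` not dividing `Q` is sent by `recPhi` to the class of
`N(W ∩ k)` in `(ZMod Q)ˣ ⧸ H`. -/
theorem rec_phi_frob (W : HeightOneSpectrum (𝓞 (recField k Q H)))
    (hQ : (Q : 𝓞 (recField k Q H)) ∉ W.asIdeal)
    (τ : recField k Q H ≃ₐ[k] recField k Q H) (hτ : IsArithFrobAt (𝓞 k) τ W.asIdeal) :
    recPhi k Q H τ =
      recPsi Q (QuotientGroup.mk' H) (Nat.card (𝓞 k ⧸ W.asIdeal.under (𝓞 k))) := by
  obtain ⟨P, hPu, hQP⟩ := rec_exists_above H W hQ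
  have : P.asIdeal.IsPrime := P.isPrime
  have : W.asIdeal.IsPrime := W.isPrime
  have : Finite (𝓞 (CyclotomicField Q k) ⧸ P.asIdeal) :=
    Ideal.finiteQuotientOfFreeOfNeBot _ P.ne_bot
  obtain ⟨φ, hφ⟩ := IsArithFrobAt.exists_of_isInvariant (𝓞 k)
    (CyclotomicField Q k ≃ₐ[k] CyclotomicField Q k) P.asIdeal
  have hunder : P.asIdeal.under (𝓞 k) = W.asIdeal.under (𝓞 k) := by
    rw [← hPu, Ideal.under_under]
  set φK := AlgEquiv.restrictNormalHom (F := k) (K₁ := CyclotomicField Q k)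
    (recField k Q H) φ with hφK
  have hφK' : IsArithFrobAt (𝓞 k) φK W.asIdeal := by
    intro x
    have h1 := hφ (algebraMap (𝓞 (recField k Q H)) (𝓞 (CyclotomicField Q k)) x)
    rw [hunder] at h1
    have h2 : algebraMap (𝓞 (recField k Q H)) (𝓞 (CyclotomicField Q k))
        (MulSemiringAction.toAlgHom (𝓞 k) (𝓞 (recField k Q H)) φK x -
          x ^ Nat.card (𝓞 k ⧸ W.asIdeal.under (𝓞 k))) =
        MulSemiringAction.toAlgHom (𝓞 k) (𝓞 (CyclotomicField Q k)) φ
          (algebraMap (𝓞 (recField k Q H)) (𝓞 (CyclotomicField Q k)) x) -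
          (algebraMap (𝓞 (recField k Q H)) (𝓞 (CyclotomicField Q k)) x) ^
            Nat.card (𝓞 k ⧸ W.asIdeal.under (𝓞 k)) := by
      rw [map_sub, map_pow]
      congr 1
      apply RingOfIntegers.ext
      exact AlgEquiv.restrictNormal_commutes φ (recField k Q H) (x : recField k Q H)
    have h9 : (MulSemiringAction.toAlgHom (𝓞 k) (𝓞 (recField k Q H)) φK x -
          x ^ Nat.card (𝓞 k ⧸ W.asIdeal.under (𝓞 k))) ∈
        P.asIdeal.under (𝓞 (recField k Q H)) := by
      rw [Ideal.under, Ideal.mem_comap, h2]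
      exact h1
    rw [hPu] at h9
    exact h9
  have h3 := IsArithFrobAt.mul_inv_mem_inertia hτ hφK'
  have h4 := rec_inertia_field H W hQ _ h3
  have h5 : τ = φK := by rwa [mul_inv_eq_one] at h4
  rw [h5, hφK, recPhi_restrict]
  have h6 := recChi_eq_of_pow k Q φ _ (rec_frob_zeta k P.asIdeal hQP φ hφ)
  rw [hunder] at h6
  have hcop : (Nat.card (𝓞 k ⧸ W.asIdeal.under (𝓞 k))).Coprime Q := by
    have h7 := rec_absNorm_coprime k Q (W.under (𝓞 k)) (by
      intro h
      apply hQ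
      have h8 : algebraMap (𝓞 k) (𝓞 (recField k Q H)) (Q : 𝓞 k) ∈ W.asIdeal := h
      rwa [map_natCast] at h8)
    rw [Ideal.absNorm_apply, Submodule.cardQuot_apply] at h7
    exact h7
  rw [recPsi_of_coprime Q _ hcop, QuotientGroup.mk'_apply, QuotientGroup.mk'_apply]
  congr 1
  apply Units.ext
  rw [ZMod.coe_unitOfCoprime]
  exact h6

/-- Existence of the Frobenius element at a prime not dividing `Q`, with its image under
`recPhi`. -/
theorem rec_exists_frob (W : HeightOneSpectrum (𝓞 (recField k Q H)))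
    (hQ : (Q : 𝓞 (recField k Q H)) ∉ W.asIdeal) :
    ∃ τ : recField k Q H ≃ₐ[k] recField k Q H, IsArithFrobAt (𝓞 k) τ W.asIdeal ∧
      τ ∈ MulAction.stabilizer (recField k Q H ≃ₐ[k] recField k Q H) W.asIdeal ∧
      recPhi k Q H τ =
        recPsi Q (QuotientGroup.mk' H) (Nat.card (𝓞 k ⧸ W.asIdeal.under (𝓞 k))) := by
  have : W.asIdeal.IsPrime := W.isPrime
  have : Finite (𝓞 (recField k Q H) ⧸ W.asIdeal) :=
    Ideal.finiteQuotientOfFreeOfNeBot _ W.ne_bot
  obtain ⟨τ, hτ⟩ := IsArithFrobAt.exists_of_isInvariant (𝓞 k)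
    (recField k Q H ≃ₐ[k] recField k Q H) W.asIdeal
  exact ⟨τ, hτ, hτ.mem_stabilizer, rec_phi_frob H W hQ τ hτ⟩

end Fermat.Agent.S55
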