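import Mathlib
import Fermat.Agent.S55.HpbQbar

/-!
# S55, block REC (R1, local piece): local triviality of a global cocycle at an arbitrary `g`

`a : Γ × Γ → ℚ̄ˣ` a 2-cocycle of `Γ = Gal(ℚ̄/ℚ)` of finite level.  If its restriction to
`G_q` becomes a finite-level coboundary on `ι_q⁻¹(Γ_K)` (`K/ℚ` Galois), then for every
`k ⊇ K` and every `g ∈ Γ` the restriction of `a` to `Γ_k` is locally trivial at `(q, g)`
(`hpbQTriv`): conjugation by `g` acts trivially on cohomology (`hpb_conj_homotopy`).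
-/

set_option autoImplicit false
set_option linter.style.haveILetI false
set_option linter.unusedSectionVars false

namespace Fermat.Agent.S55

open groupCohomology

local notation "Qb" => AlgebraicClosure ℚ
local notation "Γ" => (AlgebraicClosure ℚ ≃ₐ[ℚ] AlgebraicClosure ℚ)

attribute [local instance] pt_qbar_isAlgebraic pt_qbar_isAlgClosure pt_qbar_isGalois

theorem rec_hpbQTriv_of_global (K k F : IntermediateField ℚ Qb) [IsGalois ℚ K]
    [FiniteDimensional ℚ F] [IsGalois ℚ F] (hKk : K ≤ k)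
    (a : Γ × Γ → Qbˣ) (ha : groupCohomology.IsMulCocycle₂ a)
    (hlev : ∀ g h s t, s ∈ F.fixingSubgroup → t ∈ F.fixingSubgroup →
      a (g * s, h * t) = a (g, h))
    (q : ℕ) [Fact q.Prime]
    (hloc : ∃ θ : (PadicAlgCl q ≃ₐ[ℚ_[q]] PadicAlgCl q) → (PadicAlgCl q)ˣ,
      (∃ M : IntermediateField ℚ_[q] (PadicAlgCl q), FiniteDimensional ℚ_[q] M ∧
        ∀ y s, s ∈ M.fixingSubgroup → θ (y * s) = θ y) ∧
      ∀ y y', localGaloisToGlobal q y ∈ K.fixingSubgroup →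
        localGaloisToGlobal q y' ∈ K.fixingSubgroup →
        padicEmbedding q ((a (localGaloisToGlobal q y, localGaloisToGlobal q y') : Qbˣ) : Qb) =
          (θ y : PadicAlgCl q) * y (θ y' : PadicAlgCl q) / (θ (y * y') : PadicAlgCl q))
    (g : Γ) :
    hpbQTriv k q (fun x : k.fixingSubgroup × k.fixingSubgroup => a ((x.1 : Γ), (x.2 : Γ))) g := by
  obtain ⟨θ, ⟨M, hM, hθlev⟩, hθ⟩ := hloc
  have hKnorm : K.fixingSubgroup.Normal :=
    (InfiniteGalois.normal_iff_isGalois K).mpr ‹IsGalois ℚ K›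
  have hFnorm : F.fixingSubgroup.Normal :=
    (InfiniteGalois.normal_iff_isGalois F).mpr ‹IsGalois ℚ F›
  -- elements of `H_g` restrict into `Γ_K`
  have hmemK : ∀ y : hpbQHg k q g,
      localGaloisToGlobal q (y : PadicAlgCl q ≃ₐ[ℚ_[q]] PadicAlgCl q) ∈ K.fixingSubgroup := by
    intro y
    have h1 : g * localGaloisToGlobal q (y : PadicAlgCl q ≃ₐ[ℚ_[q]] PadicAlgCl q) * g⁻¹ ∈
        K.fixingSubgroup :=
      IntermediateField.fixingSubgroup_antitone hKk ((hpbQ_mem_Hg k q).1 y.2)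
    have h2 := hKnorm.conj_mem _ h1 g⁻¹
    simpa [mul_assoc] using h2
  let ν : Γ → Qbˣ := fun v => g⁻¹ • (a (g * v * g⁻¹, g) / a (g, v))
  have hhom : ∀ v v' : Γ, g⁻¹ • a (g * v * g⁻¹, g * v' * g⁻¹) =
      a (v, v') * (v • ν v' * ν v / ν (v * v')) := fun v v' => hpb_conj_homotopy a ha g v v'
  have hν : ∀ v n : Γ, n ∈ F.fixingSubgroup → ν (v * n) = ν v := by
    intro v n hn
    have e1 : g * (v * n) * g⁻¹ = (g * v * g⁻¹) * (g * n * g⁻¹) := by group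
    have e2 := hlev (g * v * g⁻¹) g (g * n * g⁻¹) 1 (hFnorm.conj_mem _ hn g) (one_mem _)
    have e3 := hlev g v 1 n (one_mem _) hn
    rw [mul_one] at e2 e3
    show g⁻¹ • (a (_, g) / a (g, _)) = g⁻¹ • (a (_, g) / a (g, _))
    rw [e1, e2, e3]
  have := brl_finiteDimensional_locField q F
  refine ⟨fun y => θ (y : PadicAlgCl q ≃ₐ[ℚ_[q]] PadicAlgCl q) *
      Units.map (padicEmbedding q : Qb →* PadicAlgCl q)
        (ν (localGaloisToGlobal q (y : PadicAlgCl q ≃ₐ[ℚ_[q]] PadicAlgCl q))),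
    ⟨M ⊔ brl_locField q F, IntermediateField.finiteDimensional_sup M (brl_locField q F), ?_⟩, ?_⟩
  · intro y s hs
    have hs1 : (s : PadicAlgCl q ≃ₐ[ℚ_[q]] PadicAlgCl q) ∈ M.fixingSubgroup :=
      IntermediateField.fixingSubgroup_antitone (le_sup_left : M ≤ M ⊔ brl_locField q F) hs
    have hs2 : (s : PadicAlgCl q ≃ₐ[ℚ_[q]] PadicAlgCl q) ∈ (brl_locField q F).fixingSubgroup :=
      IntermediateField.fixingSubgroup_antitone (le_sup_right : _ ≤ M ⊔ brl_locField q F) hs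
    have hs3 : localGaloisToGlobal q (s : PadicAlgCl q ≃ₐ[ℚ_[q]] PadicAlgCl q) ∈
        F.fixingSubgroup := (brl_mem_fixingSubgroup_iff q F _).2 hs2
    show θ ((y : PadicAlgCl q ≃ₐ[ℚ_[q]] PadicAlgCl q) * s) * Units.map _ (ν (localGaloisToGlobal q
      ((y : PadicAlgCl q ≃ₐ[ℚ_[q]] PadicAlgCl q) * s))) = _
    rw [hθlev _ _ hs1, map_mul, hν _ _ hs3]
  · intro y y'
    have h1 := congrArg (fun m : Qbˣ => padicEmbedding q (m : Qb))
      (hhom (localGaloisToGlobal q (y : PadicAlgCl q ≃ₐ[ℚ_[q]] PadicAlgCl q))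
        (localGaloisToGlobal q (y' : PadicAlgCl q ≃ₐ[ℚ_[q]] PadicAlgCl q)))
    have h2 : ∀ (v : Γ) (m : Qbˣ), ((v • m : Qbˣ) : Qb) = v (m : Qb) := fun v m => rfl
    have h3 := hθ y y' (hmemK y) (hmemK y')
    simp only [h2, Units.val_mul, Units.val_div_eq_div_val, map_mul, map_div₀,
      padicEmbedding_localGaloisToGlobal] at h1
    rw [h3] at h1
    show padicEmbedding q (g⁻¹ ((a (g * localGaloisToGlobal q
        (y : PadicAlgCl q ≃ₐ[ℚ_[q]] PadicAlgCl q) * g⁻¹,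
      g * localGaloisToGlobal q (y' : PadicAlgCl q ≃ₐ[ℚ_[q]] PadicAlgCl q) * g⁻¹) : Qbˣ) : Qb)) =
      ((θ (y : PadicAlgCl q ≃ₐ[ℚ_[q]] PadicAlgCl q) : PadicAlgCl q) *
        padicEmbedding q (ν (localGaloisToGlobal q
          (y : PadicAlgCl q ≃ₐ[ℚ_[q]] PadicAlgCl q)))) *
      (y : PadicAlgCl q ≃ₐ[ℚ_[q]] PadicAlgCl q)
        ((θ (y' : PadicAlgCl q ≃ₐ[ℚ_[q]] PadicAlgCl q) : PadicAlgCl q) *
          padicEmbedding q (ν (localGaloisToGlobal q
            (y' : PadicAlgCl q ≃ₐ[ℚ_[q]] PadicAlgCl q)))) /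
      ((θ ((y : PadicAlgCl q ≃ₐ[ℚ_[q]] PadicAlgCl q) * y') : PadicAlgCl q) *
        padicEmbedding q (ν (localGaloisToGlobal q
          ((y : PadicAlgCl q ≃ₐ[ℚ_[q]] PadicAlgCl q) * y'))))
    rw [h1, map_mul (localGaloisToGlobal q), map_mul (y : PadicAlgCl q ≃ₐ[ℚ_[q]] PadicAlgCl q)]
    have n1 : (θ ((y : PadicAlgCl q ≃ₐ[ℚ_[q]] PadicAlgCl q) * y') : PadicAlgCl q) ≠ 0 :=
      Units.ne_zero _
    have n2 : padicEmbedding q (ν (localGaloisToGlobal q
        (y : PadicAlgCl q ≃ₐ[ℚ_[q]] PadicAlgCl q) * localGaloisToGlobal q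
        (y' : PadicAlgCl q ≃ₐ[ℚ_[q]] PadicAlgCl q))) ≠ 0 := by
      rw [Ne, map_eq_zero]
      exact Units.ne_zero _
    field_simp

end Fermat.Agent.S55
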