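import Mathlib
import Fermat.Agent.S55.HpbQbar
import Fermat.Agent.S55.RecGlobalLoc
import Fermat.Agent.S55.CycNFField
import Fermat.Agent.S55.CycIdx

/-!
# S55, block REC, R1: the global normal form in the `ℚ̄`-model

A 2-cocycle `a : Γ × Γ → ℚ̄ˣ` (`Γ = Gal(ℚ̄/ℚ)`) of finite level, killed by the odd prime `p`,
which is locally trivial on `Gal(ℚ̄/K)` at every prime (`K/ℚ` finite cyclic with character `χ`),
is of the form `loc_ucoc n χ b · dβ` with `b ∈ ℚˣ` and `β` of finite level.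
-/

set_option autoImplicit false
set_option linter.style.haveILetI false
set_option linter.unusedSectionVars false

namespace Fermat.Agent.S55

open groupCohomology IsDedekindDomain NumberField

local notation "Qb" => AlgebraicClosure ℚ
local notation "Γ" => (AlgebraicClosure ℚ ≃ₐ[ℚ] AlgebraicClosure ℚ)

attribute [local instance] pt_qbar_isAlgebraic pt_qbar_isAlgClosure pt_qbar_isGalois

section Descent

variable (E : IntermediateField ℚ Qb) [FiniteDimensional ℚ E] [IsGalois ℚ E]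

/-- Shortcut instance. -/
noncomputable local instance (priority := 5000) recg_instSMul :
    SMul (E ≃ₐ[ℚ] E) (↥E)ˣ := AlgEquiv.instMulDistribMulActionUnits.toMulAction.toSMul

/-- A section of the restriction `Γ → Gal(E/ℚ)`. -/
noncomputable def recg_sec (h : E ≃ₐ[ℚ] E) : Γ :=
  (AlgEquiv.restrictNormalHom_surjective (F := ℚ) (K₁ := E) Qb h).choose

theorem recg_sec_spec (h : E ≃ₐ[ℚ] E) : AlgEquiv.restrictNormalHom E (recg_sec E h) = h :=
  (AlgEquiv.restrictNormalHom_surjective (F := ℚ) (K₁ := E) Qb h).choose_spec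

theorem recg_mem_fixing_of_res_eq {γ δ : Γ}
    (h : AlgEquiv.restrictNormalHom E γ = AlgEquiv.restrictNormalHom E δ) :
    γ⁻¹ * δ ∈ E.fixingSubgroup := by
  rw [IntermediateField.mem_fixingSubgroup_iff]
  intro x hx
  have h1 := hpbQ_res_apply E γ ⟨x, hx⟩
  have h2 := hpbQ_res_apply E δ ⟨x, hx⟩
  rw [h] at h1
  rw [AlgEquiv.mul_apply, ← h2, h1]
  exact γ.symm_apply_apply x

theorem recg_res_mul_fixing (γ s : Γ) (hs : s ∈ E.fixingSubgroup) :
    AlgEquiv.restrictNormalHom E (γ * s) = AlgEquiv.restrictNormalHom E γ := by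
  ext x
  rw [hpbQ_res_apply, hpbQ_res_apply, AlgEquiv.mul_apply,
    (IntermediateField.mem_fixingSubgroup_iff E s).1 hs x x.2]

variable (a : Γ × Γ → Qbˣ) (hval : ∀ x, ((a x : Qbˣ) : Qb) ∈ E)

/-- The 2-cochain of `Gal(E/ℚ)` with values in `Eˣ` induced by a level-`E` cochain of `Γ`. -/
noncomputable def recg_x (g : (E ≃ₐ[ℚ] E) × (E ≃ₐ[ℚ] E)) : (↥E)ˣ :=
  Units.mk0 ⟨_, hval (recg_sec E g.1, recg_sec E g.2)⟩
    (fun h => (a (recg_sec E g.1, recg_sec E g.2)).ne_zero (congrArg Subtype.val h))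

variable (hlev : ∀ g h s t, s ∈ E.fixingSubgroup → t ∈ E.fixingSubgroup →
  a (g * s, h * t) = a (g, h))

include hlev in
theorem recg_x_rel (γ δ : Γ) :
    (((recg_x E a hval (AlgEquiv.restrictNormalHom E γ, AlgEquiv.restrictNormalHom E δ) :
      (↥E)ˣ) : ↥E) : Qb) = a (γ, δ) := by
  have e := hlev (recg_sec E (AlgEquiv.restrictNormalHom E γ))
    (recg_sec E (AlgEquiv.restrictNormalHom E δ))
    ((recg_sec E (AlgEquiv.restrictNormalHom E γ))⁻¹ * γ)
    ((recg_sec E (AlgEquiv.restrictNormalHom E δ))⁻¹ * δ)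
    (recg_mem_fixing_of_res_eq E (recg_sec_spec E _))
    (recg_mem_fixing_of_res_eq E (recg_sec_spec E _))
  rw [mul_inv_cancel_left, mul_inv_cancel_left] at e
  rw [e]
  rfl

theorem recg_smul_coe (γ : Γ) (X : (↥E)ˣ) :
    (((AlgEquiv.restrictNormalHom E γ • X : (↥E)ˣ) : ↥E) : Qb) = γ ((X : ↥E) : Qb) :=
  hpbQ_res_apply E γ (X : ↥E)

include hlev in
theorem recg_x_cocycle (ha : IsMulCocycle₂ a) : IsMulCocycle₂ (recg_x E a hval) := by
  intro h₁ h₂ h₃
  obtain ⟨γ₁, rfl⟩ := AlgEquiv.restrictNormalHom_surjective (F := ℚ) (K₁ := E) Qb h₁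
  obtain ⟨γ₂, rfl⟩ := AlgEquiv.restrictNormalHom_surjective (F := ℚ) (K₁ := E) Qb h₂
  obtain ⟨γ₃, rfl⟩ := AlgEquiv.restrictNormalHom_surjective (F := ℚ) (K₁ := E) Qb h₃
  apply Units.ext
  apply Subtype.ext
  rw [← map_mul, ← map_mul]
  have e6 := congrArg (fun m : Qbˣ => (m : Qb)) (ha γ₁ γ₂ γ₃)
  simp only [Units.val_mul] at e6
  rw [Units.val_mul, Units.val_mul, IntermediateField.coe_mul, IntermediateField.coe_mul,
    recg_x_rel E a hval hlev, recg_x_rel E a hval hlev, recg_smul_coe,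
    recg_x_rel E a hval hlev, recg_x_rel E a hval hlev, e6]
  rfl

end Descent

section Char

variable (E : IntermediateField ℚ Qb) [FiniteDimensional ℚ E] [IsGalois ℚ E]
variable {n : ℕ} (χ : Γ → ZMod n) (hχ : ∀ g h, χ (g * h) = χ g + χ h)

/-- The character of `Gal(E/ℚ)` induced by a character of `Γ` trivial on `Gal(ℚ̄/E)`. -/
noncomputable def recg_chi (h : E ≃ₐ[ℚ] E) : ZMod n := χ (recg_sec E h)

include hχ in
theorem recg_chi_res (hE : ∀ s ∈ E.fixingSubgroup, χ s = 0) (γ : Γ) :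
    recg_chi E χ (AlgEquiv.restrictNormalHom E γ) = χ γ := by
  have h1 := recg_mem_fixing_of_res_eq E (recg_sec_spec E (AlgEquiv.restrictNormalHom E γ))
  have h2 := hχ (recg_sec E (AlgEquiv.restrictNormalHom E γ))
    ((recg_sec E (AlgEquiv.restrictNormalHom E γ))⁻¹ * γ)
  rw [mul_inv_cancel_left, hE _ h1, add_zero] at h2
  exact h2.symm

include hχ in
theorem recg_chi_mul (hE : ∀ s ∈ E.fixingSubgroup, χ s = 0) (g h : E ≃ₐ[ℚ] E) :
    recg_chi E χ (g * h) = recg_chi E χ g + recg_chi E χ h := by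
  obtain ⟨γ, rfl⟩ := AlgEquiv.restrictNormalHom_surjective (F := ℚ) (K₁ := E) Qb g
  obtain ⟨δ, rfl⟩ := AlgEquiv.restrictNormalHom_surjective (F := ℚ) (K₁ := E) Qb h
  rw [← map_mul, recg_chi_res E χ hχ hE, recg_chi_res E χ hχ hE, recg_chi_res E χ hχ hE, hχ]

end Char

/-- The kernel of a homomorphism from a finite group to `(ZMod p)ˣ` has index prime to `p`. -/
theorem recg_coprime_index_ker {G : Type*} [Group G] [Finite G] (p : ℕ) [Fact p.Prime]
    (ω : G →* (ZMod p)ˣ) : Nat.Coprime p ω.ker.index := by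
  have hp : p.Prime := Fact.out
  have h1 : ω.ker.index ∣ p - 1 := by
    rw [Subgroup.index_ker]
    have h2 := Subgroup.card_subgroup_dvd_card ω.range
    rwa [Nat.card_eq_fintype_card (α := (ZMod p)ˣ), ZMod.card_units p] at h2
  refine Nat.Coprime.coprime_dvd_right h1 ?_
  rw [Nat.Prime.coprime_iff_not_dvd hp]
  intro h
  have h3 := Nat.le_of_dvd (by have := hp.two_le; omega) h
  have := hp.two_le
  omega

section Finite

variable {k L : Type} [Field k] [Field L] [Algebra k L] [FiniteDimensional k L] [IsGalois k L]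

/-- Finite-level normal form: a 2-cocycle of `Gal(L/k)` killed by `p` which is a coboundary on
the subgroup `{s | χ s = 0, s ζ = ζ}` (`ζ` a primitive `p`-th root of unity) is
`loc_ucoc n χ b · dβ` with `b ∈ kˣ`. -/
theorem recg_nf_finite (p : ℕ) [Fact p.Prime] {ζ : L} (hζ : IsPrimitiveRoot ζ p)
    {n : ℕ} [NeZero n] (χ : (L ≃ₐ[k] L) → ZMod n)
    (hχ : ∀ g h, χ (g * h) = χ g + χ h) (σ : L ≃ₐ[k] L) (hσ : χ σ = 1)
    (x : (L ≃ₐ[k] L) × (L ≃ₐ[k] L) → Lˣ) (hx : IsMulCocycle₂ x) (hxp : ∀ q, x q ^ p = 1)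
    (hres : ∃ c : (L ≃ₐ[k] L) → Lˣ, ∀ s t, χ s = 0 → s ζ = ζ → χ t = 0 → t ζ = ζ →
      x (s, t) = s • c t / c (s * t) * c s) :
    ∃ (b : kˣ) (β : (L ≃ₐ[k] L) → Lˣ), ∀ g h, x (g, h) =
      loc_ucoc n χ (Units.map (algebraMap k L : k →* L) b) (g, h) *
        (g • β h / β (g * h) * β g) := by
  have hp : p.Prime := Fact.out
  haveI : NeZero p := ⟨hp.ne_zero⟩
  haveI : Fact (1 < p) := ⟨hp.one_lt⟩
  obtain ⟨c, hc⟩ := hres
  let GK : Subgroup (L ≃ₐ[k] L) := cnf_ker χ hχ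
  let ωK : ↥GK →* (ZMod p)ˣ := (hζ.autToPow k).comp GK.subtype
  let H : Subgroup ↥GK := ωK.ker
  let x' : ↥GK × ↥GK → Lˣ := fun q => x ((q.1 : L ≃ₐ[k] L), (q.2 : L ≃ₐ[k] L))
  have hx' : IsMulCocycle₂ x' := fun g h j => hx (g : L ≃ₐ[k] L) h j
  have hfix : ∀ s : ↥GK, s ∈ H → (s : L ≃ₐ[k] L) ζ = ζ := by
    intro s hs
    have h1 : hζ.autToPow k (s : L ≃ₐ[k] L) = 1 := hs
    have h2 := hζ.autToPow_spec k (s : L ≃ₐ[k] L)
    rw [h1] at h2
    rw [← h2]
    simp [ZMod.val_one]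
  have hres' : ∃ β : H → Lˣ, ∀ s t : H, (s : ↥GK) • β t / β (s * t) * β s = x' (s, t) := by
    refine ⟨fun s => c ((s : ↥GK) : L ≃ₐ[k] L), fun s t => ?_⟩
    exact (hc _ _ (s : ↥GK).2 (hfix _ s.2) (t : ↥GK).2 (hfix _ t.2)).symm
  have hm : IsMulCoboundary₂ (x' ^ p) := by
    refine ⟨fun _ => 1, fun g h => ?_⟩
    rw [smul_one, div_one, mul_one]
    exact (hxp _).symm
  have hcop : Nat.Coprime p H.index := recg_coprime_index_ker p ωK
  obtain ⟨β₀', hβ₀'⟩ := cnf_coboundary_of_res_coprime H x' hx' hres' p hm hcop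
  classical
  refine cnf_normal_form_field χ hχ σ hσ x hx
    ⟨fun g => if h : g ∈ GK then β₀' ⟨g, h⟩ else 1, fun s t hs ht => ?_⟩
  have hs' : s ∈ GK := hs
  have ht' : t ∈ GK := ht
  have hst' : s * t ∈ GK := GK.mul_mem hs' ht'
  beta_reduce
  rw [dif_pos hs', dif_pos ht', dif_pos hst']
  exact (hβ₀' ⟨s, hs'⟩ ⟨t, ht'⟩).symm

end Finite

section Main

attribute [local instance 5000] recg_instSMul

/-- An automorphism fixing `α` fixes `ℚ⟮α⟯` pointwise. -/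
theorem recg_mem_fixingSubgroup_adjoin (γ : Γ) (α : Qb) (h : γ α = α) :
    γ ∈ (IntermediateField.adjoin ℚ {α}).fixingSubgroup := by
  rw [IntermediateField.mem_fixingSubgroup_iff]
  intro x hx
  induction hx using IntermediateField.adjoin_induction with
  | mem x hx =>
    rw [Set.mem_singleton_iff] at hx
    rw [hx, h]
  | algebraMap x => exact γ.commutes x
  | add x y _ _ hx hy => rw [map_add, hx, hy]
  | inv x _ hx => rw [map_inv₀, hx]
  | mul x y _ _ hx hy => rw [map_mul, hx, hy]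

/-- **R1: the global normal form.** -/
theorem rec_global_nf (p : ℕ) [Fact p.Prime] (hp2 : p ≠ 2)
    (K F : IntermediateField ℚ Qb) [FiniteDimensional ℚ K] [IsGalois ℚ K]
    [FiniteDimensional ℚ F] [IsGalois ℚ F]
    {n : ℕ} [NeZero n]
    (χ : Γ → ZMod n) (hχ : ∀ g h, χ (g * h) = χ g + χ h)
    (hker : ∀ g, χ g = 0 ↔ g ∈ K.fixingSubgroup) (σ : Γ) (hσ : χ σ = 1)
    (a : Γ × Γ → Qbˣ) (ha : groupCohomology.IsMulCocycle₂ a)
    (hlev : ∀ g h s t, s ∈ F.fixingSubgroup → t ∈ F.fixingSubgroup → a (g * s, h * t) = a (g, h))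
    (hval : ∀ x, ((a x : Qbˣ) : Qb) ∈ F)
    (htors : ∀ x, a x ^ p = 1)
    (hloc : ∀ (q : ℕ) [Fact q.Prime],
      ∃ θ : (PadicAlgCl q ≃ₐ[ℚ_[q]] PadicAlgCl q) → (PadicAlgCl q)ˣ,
      (∃ M : IntermediateField ℚ_[q] (PadicAlgCl q), FiniteDimensional ℚ_[q] M ∧
        ∀ y s, s ∈ M.fixingSubgroup → θ (y * s) = θ y) ∧
      ∀ y y', localGaloisToGlobal q y ∈ K.fixingSubgroup →
        localGaloisToGlobal q y' ∈ K.fixingSubgroup →
        padicEmbedding q ((a (localGaloisToGlobal q y, localGaloisToGlobal q y') : Qbˣ) : Qb) =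
          (θ y : PadicAlgCl q) * y (θ y' : PadicAlgCl q) / (θ (y * y') : PadicAlgCl q)) :
    ∃ (b : ℚˣ) (β : Γ → Qbˣ) (F' : IntermediateField ℚ Qb), FiniteDimensional ℚ F' ∧
      (∀ g s, s ∈ F'.fixingSubgroup → β (g * s) = β g) ∧ (∀ g, ((β g : Qbˣ) : Qb) ∈ F') ∧
      ∀ g h, a (g, h) = loc_ucoc n χ (Units.map (algebraMap ℚ Qb : ℚ →* Qb) b) (g, h) *
        (g • β h / β (g * h) * β g) := by
  have hp : p.Prime := Fact.out
  haveI : NeZero (p : Qb) := ⟨by exact_mod_cast hp.ne_zero⟩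
  obtain ⟨ζ, hζ⟩ := HasEnoughRootsOfUnity.exists_primitiveRoot Qb p
  -- the field `k = K(ζ_p)`
  obtain ⟨k, hKk, hζk, hkfin, hmemk⟩ : ∃ k : IntermediateField ℚ Qb, K ≤ k ∧ ζ ∈ k ∧
      FiniteDimensional ℚ k ∧ ∀ γ : Γ, χ γ = 0 → γ ζ = ζ → γ ∈ k.fixingSubgroup := by
    haveI : FiniteDimensional ℚ (IntermediateField.adjoin ℚ {ζ}) :=
      IntermediateField.adjoin.finiteDimensional (Algebra.IsIntegral.isIntegral ζ)
    refine ⟨K ⊔ IntermediateField.adjoin ℚ {ζ}, le_sup_left,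
      (le_sup_right : IntermediateField.adjoin ℚ {ζ} ≤ K ⊔ IntermediateField.adjoin ℚ {ζ})
        (IntermediateField.mem_adjoin_simple_self ℚ ζ),
      IntermediateField.finiteDimensional_sup _ _, fun γ h1 h2 => ?_⟩
    rw [IntermediateField.fixingSubgroup_sup]
    exact ⟨(hker γ).1 h1, recg_mem_fixingSubgroup_adjoin γ ζ h2⟩
  haveI : FiniteDimensional ℚ ↥(F ⊔ k) := IntermediateField.finiteDimensional_sup _ _
  obtain ⟨E, hEfin, hEgal, hE⟩ := brl_exists_galois_ge (F ⊔ k)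
  have hFE : F ≤ E := le_sup_left.trans hE
  have hkE : k ≤ E := le_sup_right.trans hE
  have hKE : K ≤ E := hKk.trans hkE
  have hlevE : ∀ g h s t, s ∈ E.fixingSubgroup → t ∈ E.fixingSubgroup →
      a (g * s, h * t) = a (g, h) := fun g h s t hs ht =>
    hlev g h s t (IntermediateField.fixingSubgroup_antitone hFE hs)
      (IntermediateField.fixingSubgroup_antitone hFE ht)
  have hvalE : ∀ x, ((a x : Qbˣ) : Qb) ∈ E := fun x => hFE (hval x)
  -- Hasse principle over `k = K(ζ_p)`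
  obtain ⟨c, hcE, hclev, hc⟩ := hpb_qbar p hp2 k E hkE ζ hζ hζk
    (fun x : k.fixingSubgroup × k.fixingSubgroup => a ((x.1 : Γ), (x.2 : Γ)))
    (fun u₁ u₂ u₃ => ha u₁ u₂ u₃)
    (fun u₁ u₂ n₁ n₂ h₁ h₂ => hlevE _ _ _ _ h₁ h₂)
    (fun u₁ u₂ => hvalE _)
    ⟨1, fun u₁ u₂ => by rw [pow_one]; exact htors _⟩
    (fun q _ g => ⟨1, 1, by
      simpa using rec_hpbQTriv_of_global K k F hKk a ha hlev q (hloc q) g⟩)
  have hc' : ∀ (γ δ : Γ) (hγ : γ ∈ k.fixingSubgroup) (hδ : δ ∈ k.fixingSubgroup),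
      ((a (γ, δ) : Qbˣ) : Qb) =
        γ ((c ⟨δ, hδ⟩ : Qbˣ) : Qb) / ((c (⟨γ, hγ⟩ * ⟨δ, hδ⟩) : Qbˣ) : Qb) *
          ((c ⟨γ, hγ⟩ : Qbˣ) : Qb) := by
    intro γ δ hγ hδ
    have h1 := congrArg (fun m : Qbˣ => (m : Qb)) (hc ⟨γ, hγ⟩ ⟨δ, hδ⟩)
    beta_reduce at h1
    rw [Units.val_mul, Units.val_div_eq_div_val] at h1
    exact h1
  -- descent to the finite level `E`
  have hsurj := AlgEquiv.restrictNormalHom_surjective (F := ℚ) (K₁ := E) Qb
  have hx : IsMulCocycle₂ (recg_x E a hvalE) := recg_x_cocycle E a hvalE hlevE ha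
  have hχE : ∀ s ∈ E.fixingSubgroup, χ s = 0 := fun s hs =>
    (hker s).2 (IntermediateField.fixingSubgroup_antitone hKE hs)
  have hχ'res := recg_chi_res E χ hχ hχE
  have hχ' := recg_chi_mul E χ hχ hχE
  have hζE : IsPrimitiveRoot (⟨ζ, hkE hζk⟩ : E) p :=
    IsPrimitiveRoot.of_map_of_injective (f := algebraMap E Qb) hζ (algebraMap E Qb).injective
  obtain ⟨cG, hcG⟩ : ∃ cG : (E ≃ₐ[ℚ] E) → (↥E)ˣ, ∀ (γ : Γ) (hγ : γ ∈ k.fixingSubgroup),
      (((cG (AlgEquiv.restrictNormalHom E γ) : (↥E)ˣ) : ↥E) : Qb) = c ⟨γ, hγ⟩ := by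
    classical
    refine ⟨fun h => if hh : recg_sec E h ∈ k.fixingSubgroup then
      Units.mk0 ⟨_, hcE ⟨recg_sec E h, hh⟩⟩
        (fun h0 => (c ⟨recg_sec E h, hh⟩).ne_zero (congrArg Subtype.val h0))
      else 1, fun γ hγ => ?_⟩
    have h1 := recg_mem_fixing_of_res_eq E
      (recg_sec_spec E (AlgEquiv.restrictNormalHom E γ))
    have h2 : recg_sec E (AlgEquiv.restrictNormalHom E γ) ∈ k.fixingSubgroup := by
      have h3 := k.fixingSubgroup.mul_mem hγ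
        (k.fixingSubgroup.inv_mem (IntermediateField.fixingSubgroup_antitone hkE h1))
      convert h3 using 1
      group
    beta_reduce
    rw [dif_pos h2]
    show ((c ⟨_, h2⟩ : Qbˣ) : Qb) = c ⟨γ, hγ⟩
    have h4 := hclev ⟨_, h2⟩ ((⟨_, h2⟩ : k.fixingSubgroup)⁻¹ * ⟨γ, hγ⟩) h1
    rw [mul_inv_cancel_left] at h4
    rw [h4]
  have hres : ∃ c' : (E ≃ₐ[ℚ] E) → (↥E)ˣ, ∀ s t, recg_chi E χ s = 0 →
      s ⟨ζ, hkE hζk⟩ = ⟨ζ, hkE hζk⟩ → recg_chi E χ t = 0 → t ⟨ζ, hkE hζk⟩ = ⟨ζ, hkE hζk⟩ →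
      recg_x E a hvalE (s, t) = s • c' t / c' (s * t) * c' s := by
    refine ⟨cG, fun s t hs hsζ ht htζ => ?_⟩
    obtain ⟨γ, rfl⟩ := hsurj s
    obtain ⟨δ, rfl⟩ := hsurj t
    rw [hχ'res] at hs ht
    have hγζ : γ ζ = ζ := by
      have h1 := congrArg (fun z : E => (z : Qb)) hsζ
      exact (hpbQ_res_apply E γ ⟨ζ, hkE hζk⟩).symm.trans h1
    have hδζ : δ ζ = ζ := by
      have h1 := congrArg (fun z : E => (z : Qb)) htζ
      exact (hpbQ_res_apply E δ ⟨ζ, hkE hζk⟩).symm.trans h1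
    have hγ := hmemk γ hs hγζ
    have hδ := hmemk δ ht hδζ
    apply Units.ext
    apply Subtype.ext
    rw [recg_x_rel E a hvalE hlevE, hc' γ δ hγ hδ, ← map_mul]
    rw [Units.val_mul, Units.val_div_eq_div_val, IntermediateField.coe_mul,
      IntermediateField.coe_div, recg_smul_coe, hcG δ hδ, hcG γ hγ,
      hcG (γ * δ) (k.fixingSubgroup.mul_mem hγ hδ)]
    rfl
  obtain ⟨b, β, hβ⟩ := recg_nf_finite p hζE (recg_chi E χ) hχ' (AlgEquiv.restrictNormalHom E σ)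
    (by rw [hχ'res, hσ]) (recg_x E a hvalE) hx (fun q => by
      obtain ⟨g, h⟩ := q
      obtain ⟨γ, rfl⟩ := hsurj g
      obtain ⟨δ, rfl⟩ := hsurj h
      apply Units.ext
      apply Subtype.ext
      rw [Units.val_pow_eq_pow_val, IntermediateField.coe_pow, recg_x_rel E a hvalE hlevE,
        ← Units.val_pow_eq_pow_val, htors]
      rfl) hres
  refine ⟨b, fun γ => Units.map (algebraMap E Qb : E →* Qb) (β (AlgEquiv.restrictNormalHom E γ)),
    E, hEfin, ?_, ?_, ?_⟩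
  · intro g s hs
    show Units.map _ (β _) = Units.map _ (β _)
    rw [recg_res_mul_fixing E g s hs]
  · intro g
    exact ((β (AlgEquiv.restrictNormalHom E g) : (↥E)ˣ) : ↥E).2
  · intro g h
    apply Units.ext
    rw [← recg_x_rel E a hvalE hlevE g h, hβ]
    rw [loc_ucoc_apply, loc_ucoc_apply, hχ'res, hχ'res, ← map_mul]
    simp only [Units.val_mul, Units.val_div_eq_div_val, Units.val_pow_eq_pow_val,
      IntermediateField.coe_mul, IntermediateField.coe_div, IntermediateField.coe_pow]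
    rw [recg_smul_coe]
    rfl

end Main

end Fermat.Agent.S55
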