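import Fermat.Agent.S55.TrInst
import Fermat.Agent.S55.LocLimCoc
import Fermat.Agent.S55.LocBridge
import Fermat.Agent.S55.LcgExp
import Fermat.Agent.S55.FinRam

/-!
# S55, block REC, piece R6: input conversions for the reciprocity law over `ℚ`

* `rec_input` : for a finite-level `μ_p`-valued 2-cocycle `z` of `Γ = Gal(ℚ̄/ℚ)` (coefficients
  `𝔽_p(1)`), `ζ ^ z` is a multiplicative 2-cocycle with values in `ℚ̄ˣ`, and `z` has the level
  of a finite Galois extension `F ∋ ζ`.
* `rec_res_unram` : the restriction of a finite-level 2-cochain to the local group at `q` is an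
  inertia-level cochain for all primes `q` outside a finite set containing `p`.
* `rec_res₂`, `rec_res₁` : restriction of `ℚ̄ˣ`-valued global cochains to the local group
  `Gal(ℚ̄_q/ℚ_q)` composed with the `q`-adic embedding (multiplicative form), with
  `rec_res₂_lev`, `rec_res₁_lev` (level cochains go to level cochains of the `loc_` model),
  `rec_res₂_cocycle` and `rec_res₂_d` (compatibility with the coboundary).
-/

set_option autoImplicit false

open ExtCitation

namespace Fermat.Agent.S55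

local notation "Qb" => AlgebraicClosure ℚ
local notation "Γ" => (AlgebraicClosure ℚ ≃ₐ[ℚ] AlgebraicClosure ℚ)

attribute [local instance] pt_qbar_isAlgebraic pt_qbar_isAlgClosure pt_qbar_isGalois

/-- `c ↦ ζ ^ c` intertwines the cyclotomic twist with the Galois action on `ℚ̄ˣ`. -/
theorem recin_exp_equivariant (p : ℕ) [Fact p.Prime] (ζ : Qbˣ) (hζ : ζ ^ p = 1) (g : Γ)
    (t : ZMod p) :
    lcg_exp ζ (dual_rhoT (cycloChar p) g t) = g • lcg_exp ζ t := by
  rw [dual_rhoT_apply]
  refine lcg_exp_smul hζ (fun g : Γ => ((cycloChar p g : (ZMod p)ˣ) : ZMod p)) (fun g => ?_) g t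
  rw [tr_smul_zeta p ζ hζ g]
  rfl

/-- **R6a.** `ζ ^ z` is a multiplicative 2-cocycle, and `z` has the level of a finite Galois
extension containing `ζ`. -/
theorem rec_input (p : ℕ) [Fact p.Prime] (ζ : Qbˣ) (hζ : ζ ^ p = 1)
    (z : hc_C2 tr_fullLev (dual_rhoT (cycloChar p)))
    (hz : hc_d23 tr_fullLev (dual_rhoT (cycloChar p)) z = 0) :
    groupCohomology.IsMulCocycle₂ (fun x : Γ × Γ => ζ ^ ((z : Γ × Γ → ZMod p) x).val) ∧
    ∃ F : IntermediateField ℚ Qb, FiniteDimensional ℚ F ∧ IsGalois ℚ F ∧ ((ζ : Qb) ∈ F) ∧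
      (∀ g h s t, s ∈ F.fixingSubgroup → t ∈ F.fixingSubgroup →
        (z : Γ × Γ → ZMod p) (g * s, h * t) = (z : Γ × Γ → ZMod p) (g, h)) := by
  refine ⟨?_, ?_⟩
  · have hz' : hc_d23f (dual_rhoT (cycloChar p)) (z : Γ × Γ → ZMod p) = 0 :=
      congrArg Subtype.val hz
    exact lcg_isMulCocycle₂ (dual_rhoT (cycloChar p)) (e := lcg_exp ζ) (lcg_exp_add hζ)
      (recin_exp_equivariant p ζ hζ) hz'
  · obtain ⟨N, hN, hlev⟩ := z.2
    obtain ⟨K, hK, -, rfl⟩ := hN
    have hint : IsIntegral ℚ (ζ : Qb) := Algebra.IsIntegral.isIntegral _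
    have hfd : FiniteDimensional ℚ ↥(IntermediateField.adjoin ℚ {(ζ : Qb)}) :=
      IntermediateField.adjoin.finiteDimensional hint
    have hfd' : FiniteDimensional ℚ ↥(K ⊔ IntermediateField.adjoin ℚ {(ζ : Qb)}) :=
      IntermediateField.finiteDimensional_sup K _
    obtain ⟨F, hF, hFg, hle⟩ := pt_exists_galois_fin (K ⊔ IntermediateField.adjoin ℚ {(ζ : Qb)})
    refine ⟨F, hF, hFg, hle (le_sup_right (a := K)
      (IntermediateField.mem_adjoin_simple_self ℚ (ζ : Qb))), fun g h s t hs ht => ?_⟩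
    have hKF : F.fixingSubgroup ≤ K.fixingSubgroup :=
      IntermediateField.fixingSubgroup_antitone (le_sup_left.trans hle)
    exact hlev.1 g h s (hKF hs) t (hKF ht)

/-- **R6b.** Outside a finite set of primes (containing `p`), the restriction of a finite-level
2-cochain to the local group is an inertia-level cochain. -/
theorem rec_res_unram (p : ℕ) [Fact p.Prime]
    (z : hc_C2 tr_fullLev (dual_rhoT (cycloChar p))) :
    ∃ T : Finset Nat.Primes, ∀ q : Nat.Primes, q ∉ T → (q : ℕ) ≠ p ∧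
      hc_IsLev2 ((dual_rhoT (cycloChar p)).comp (primeLocalToGlobal q)) (tri_I q)
        (hc_res2 (tri_compat (primeLocalToGlobal q)) (dual_rhoT (cycloChar p)) z :
          primeLocalGaloisGroup q × primeLocalGaloisGroup q → ZMod p) := by
  classical
  obtain ⟨T, K, hK, hlev⟩ := tri_exists_level (fun F _ => finram_exists F) z
  refine ⟨insert (pPrime p) T, fun q hq => ?_⟩
  rw [Finset.mem_insert, not_or] at hq
  refine ⟨fun h => hq.1 (Subtype.ext h), tri_res_unram z T K hK hlev q hq.2⟩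

section R6c

variable (q : ℕ) [Fact q.Prime]

/-- restriction of a global 2-cochain to the local group, multiplicative. -/
noncomputable def rec_res₂ (a : Γ × Γ → Qbˣ) :
    (PadicAlgCl q ≃ₐ[ℚ_[q]] PadicAlgCl q) × (PadicAlgCl q ≃ₐ[ℚ_[q]] PadicAlgCl q) →
      (PadicAlgCl q)ˣ :=
  fun x => Units.map ((padicEmbedding q : Qb →+* PadicAlgCl q) : Qb →* PadicAlgCl q)
    (a (localGaloisToGlobal q x.1, localGaloisToGlobal q x.2))

/-- restriction of a global 1-cochain to the local group, multiplicative. -/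
noncomputable def rec_res₁ (β : Γ → Qbˣ) :
    (PadicAlgCl q ≃ₐ[ℚ_[q]] PadicAlgCl q) → (PadicAlgCl q)ˣ :=
  fun x => Units.map ((padicEmbedding q : Qb →+* PadicAlgCl q) : Qb →* PadicAlgCl q)
    (β (localGaloisToGlobal q x))

theorem rec_res₂_apply (a : Γ × Γ → Qbˣ)
    (x : (PadicAlgCl q ≃ₐ[ℚ_[q]] PadicAlgCl q) × (PadicAlgCl q ≃ₐ[ℚ_[q]] PadicAlgCl q)) :
    ((rec_res₂ q a x : (PadicAlgCl q)ˣ) : PadicAlgCl q) =
      padicEmbedding q ((a (localGaloisToGlobal q x.1, localGaloisToGlobal q x.2) : Qbˣ) : Qb) :=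
  rfl

theorem rec_res₁_apply (β : Γ → Qbˣ) (x : PadicAlgCl q ≃ₐ[ℚ_[q]] PadicAlgCl q) :
    ((rec_res₁ q β x : (PadicAlgCl q)ˣ) : PadicAlgCl q) =
      padicEmbedding q ((β (localGaloisToGlobal q x) : Qbˣ) : Qb) :=
  rfl

/-- The `q`-adic embedding on units is equivariant along `localGaloisToGlobal q`. -/
theorem recin_emb_smul (y : PadicAlgCl q ≃ₐ[ℚ_[q]] PadicAlgCl q) (u : Qbˣ) :
    Units.map ((padicEmbedding q : Qb →+* PadicAlgCl q) : Qb →* PadicAlgCl q)
        (localGaloisToGlobal q y • u) =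
      y • Units.map ((padicEmbedding q : Qb →+* PadicAlgCl q) : Qb →* PadicAlgCl q) u := by
  apply Units.ext
  exact padicEmbedding_localGaloisToGlobal q y (u : Qb)

theorem rec_res₂_lev (F : IntermediateField ℚ Qb) [FiniteDimensional ℚ F] (a : Γ × Γ → Qbˣ)
    (hlev : ∀ g h s t, s ∈ F.fixingSubgroup → t ∈ F.fixingSubgroup → a (g * s, h * t) = a (g, h))
    (hval : ∀ x, ((a x : Qbˣ) : Qb) ∈ F) : loc_Lev₂ (rec_res₂ q a) := by
  refine ⟨brl_locField q F, brl_finiteDimensional_locField q F, fun g h s hs t ht => ?_,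
    fun x => ?_⟩
  · have hs' := (brl_mem_fixingSubgroup_iff q F s).2 hs
    have ht' := (brl_mem_fixingSubgroup_iff q F t).2 ht
    simp only [rec_res₂, map_mul]
    rw [hlev _ _ _ _ hs' ht']
  · rw [rec_res₂_apply]
    exact brl_mem_locField q (hval _)

theorem rec_res₁_lev (F : IntermediateField ℚ Qb) [FiniteDimensional ℚ F] (β : Γ → Qbˣ)
    (hlev : ∀ g s, s ∈ F.fixingSubgroup → β (g * s) = β g)
    (hval : ∀ x, ((β x : Qbˣ) : Qb) ∈ F) : loc_Lev₁ (rec_res₁ q β) := by
  refine ⟨brl_locField q F, brl_finiteDimensional_locField q F, fun g s hs => ?_, fun x => ?_⟩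
  · have hs' := (brl_mem_fixingSubgroup_iff q F s).2 hs
    simp only [rec_res₁, map_mul]
    rw [hlev _ _ hs']
  · rw [rec_res₁_apply]
    exact brl_mem_locField q (hval _)

theorem rec_res₂_cocycle (a : Γ × Γ → Qbˣ) (ha : groupCohomology.IsMulCocycle₂ a) :
    groupCohomology.IsMulCocycle₂ (rec_res₂ q a) := by
  intro g h j
  have h1 := ha (localGaloisToGlobal q g) (localGaloisToGlobal q h) (localGaloisToGlobal q j)
  have h2 := congrArg
    (Units.map ((padicEmbedding q : Qb →+* PadicAlgCl q) : Qb →* PadicAlgCl q)) h1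
  simp only [map_mul, recin_emb_smul] at h2
  simp only [rec_res₂, map_mul]
  exact h2

theorem rec_res₂_d (β : Γ → Qbˣ) :
    rec_res₂ q (fun x => x.1 • β x.2 / β (x.1 * x.2) * β x.1) = loc_d₁ (rec_res₁ q β) := by
  funext x
  simp only [rec_res₂, rec_res₁, loc_d₁, map_mul, map_div, recin_emb_smul]

end R6c

end Fermat.Agent.S55
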