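import Fermat.Agent.S55.LocLimUnr
import Fermat.Agent.S55.RecCarry

/-!
# S55, block REC: local algebra for the reciprocity law

* `rec_order_lemma`, `rec_normal_form_abs`: pure group theory (a subgroup `B` of a commutative
  group, an invariant `inv` with kernel `B`);
* `rec_cobSub`, `rec_zSub`: the subgroups of level coboundaries and of `p`-torsion level cocycles
  in the `loc_` model;
* `rec_local_unram`: the class of a carry cocycle of an unramified character in terms of the basic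
  class `loc_u K Ω p ϖ`.
-/

set_option autoImplicit false

namespace Fermat.Agent.S55

open IntermediateField

section grp

variable {G : Type*} [CommGroup G]

/-- If `W ^ (p ^ m) ≡ U` modulo `B`, `U ^ p ∈ B`, `U ∉ B` and `W ^ D ∈ B`, then
`p ^ (m + 1) ∣ D`. -/
theorem rec_order_lemma (B : Subgroup G) (p m : ℕ) (hp : p.Prime) (W U : G)
    (hWU : W ^ p ^ m / U ∈ B) (hUp : U ^ p ∈ B) (hU : U ∉ B) (D : ℤ) (hD : W ^ D ∈ B) :
    ((p ^ (m + 1) : ℕ) : ℤ) ∣ D := by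
  have hW1 : W ^ p ^ (m + 1) ∈ B := by
    have h1 : W ^ p ^ (m + 1) = (W ^ p ^ m / U) ^ p * U ^ p := by
      rw [div_pow, div_mul_cancel, ← pow_mul, ← pow_succ]
    rw [h1]
    exact B.mul_mem (B.pow_mem hWU p) hUp
  have hg := Int.gcd_eq_gcd_ab D ((p ^ (m + 1) : ℕ) : ℤ)
  have hgd : Int.gcd D ((p ^ (m + 1) : ℕ) : ℤ) ∣ p ^ (m + 1) := by
    have := Int.gcd_dvd_right D ((p ^ (m + 1) : ℕ) : ℤ)
    exact_mod_cast this
  obtain ⟨j, hj, hgj⟩ := (Nat.dvd_prime_pow hp).1 hgd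
  have hWg : W ^ (p ^ j) ∈ B := by
    have h2 : W ^ ((Int.gcd D ((p ^ (m + 1) : ℕ) : ℤ) : ℕ) : ℤ) ∈ B := by
      rw [hg, zpow_add, zpow_mul, zpow_mul]
      refine B.mul_mem (B.zpow_mem hD _) (B.zpow_mem ?_ _)
      rw [zpow_natCast]
      exact hW1
    rw [zpow_natCast, hgj] at h2
    exact h2
  rcases Nat.lt_or_ge j (m + 1) with hlt | hge
  · exfalso
    apply hU
    have h3 : W ^ p ^ m ∈ B := by
      have : p ^ m = p ^ j * p ^ (m - j) := by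
        rw [← pow_add]
        congr 1
        omega
      rw [this, pow_mul]
      exact B.pow_mem hWg _
    have h4 : U = W ^ p ^ m / (W ^ p ^ m / U) := by
      rw [div_div_cancel]
    rw [h4]
    exact B.div_mem h3 hWU
  · have hj' : j = m + 1 := le_antisymm hj hge
    rw [hj'] at hgj
    have := Int.gcd_dvd_left D ((p ^ (m + 1) : ℕ) : ℤ)
    rw [hgj] at this
    exact this

/-- Abstract normal form: if `inv` is additive on `Z`, has kernel `B` on `Z`, and `inv U = 1`,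
then every `x ∈ Z` is `U ^ (inv x).val` modulo `B`. -/
theorem rec_normal_form_abs (B Z : Subgroup G) (p : ℕ) [NeZero p]
    (inv : G → ZMod p) (hmul : ∀ x y, x ∈ Z → y ∈ Z → inv (x * y) = inv x + inv y)
    (hker : ∀ x, x ∈ Z → (inv x = 0 ↔ x ∈ B)) (U : G) (hU : U ∈ Z) (hinvU : inv U = 1)
    (x : G) (hx : x ∈ Z) : x / U ^ (inv x).val ∈ B := by
  have h1 : inv 1 = 0 := (hker 1 Z.one_mem).2 B.one_mem
  have hinv : ∀ y, y ∈ Z → inv y⁻¹ = - inv y := by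
    intro y hy
    have := hmul y y⁻¹ hy (Z.inv_mem hy)
    rw [mul_inv_cancel, h1] at this
    exact eq_neg_of_add_eq_zero_right this.symm
  have hpow : ∀ k : ℕ, inv (U ^ k) = k := by
    intro k
    induction k with
    | zero => rw [pow_zero, h1]; simp
    | succ k ih =>
      rw [pow_succ, hmul _ _ (Z.pow_mem hU k) hU, ih, hinvU]
      push_cast
      rfl
  have hmem : x / U ^ (inv x).val ∈ Z := Z.div_mem hx (Z.pow_mem hU _)
  rw [← hker _ hmem, div_eq_mul_inv, hmul _ _ hx (Z.inv_mem (Z.pow_mem hU _)),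
    hinv _ (Z.pow_mem hU _), hpow, ZMod.natCast_zmod_val, add_neg_cancel]

end grp

section loc

variable {K Ω : Type} [Field K] [Field Ω] [Algebra K Ω]

open groupCohomology

theorem rec_coc_mul {x y : (Ω ≃ₐ[K] Ω) × (Ω ≃ₐ[K] Ω) → Ωˣ} (hx : IsMulCocycle₂ x)
    (hy : IsMulCocycle₂ y) : IsMulCocycle₂ (x * y) := by
  intro g h j
  simp only [Pi.mul_apply, smul_mul']
  rw [mul_mul_mul_comm, hx g h j, hy g h j, mul_mul_mul_comm]

theorem rec_coc_one : IsMulCocycle₂ (1 : (Ω ≃ₐ[K] Ω) × (Ω ≃ₐ[K] Ω) → Ωˣ) := by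
  intro g h j
  simp

theorem rec_coc_inv {x : (Ω ≃ₐ[K] Ω) × (Ω ≃ₐ[K] Ω) → Ωˣ} (hx : IsMulCocycle₂ x) :
    IsMulCocycle₂ x⁻¹ := by
  intro g h j
  simp only [Pi.inv_apply, smul_inv']
  rw [← mul_inv, ← mul_inv, hx g h j]

theorem rec_lev₂_mul {x y : (Ω ≃ₐ[K] Ω) × (Ω ≃ₐ[K] Ω) → Ωˣ} (hx : loc_Lev₂ x)
    (hy : loc_Lev₂ y) : loc_Lev₂ (x * y) := by
  obtain ⟨M, hM, hx⟩ := hx
  obtain ⟨M', hM', hy⟩ := hy
  refine ⟨M ⊔ M', inferInstance, ?_⟩
  have h1 := hx.mono (le_sup_left : M ≤ M ⊔ M')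
  have h2 := hy.mono (le_sup_right : M' ≤ M ⊔ M')
  exact ⟨fun g h s hs t ht => by
      simp only [Pi.mul_apply, h1.1 g h s hs t ht, h2.1 g h s hs t ht],
    fun p => by
      simp only [Pi.mul_apply, Units.val_mul]
      exact mul_mem (h1.2 p) (h2.2 p)⟩

theorem rec_lev₂_one : loc_Lev₂ (1 : (Ω ≃ₐ[K] Ω) × (Ω ≃ₐ[K] Ω) → Ωˣ) :=
  ⟨⊥, inferInstance, fun _ _ _ _ _ _ => rfl, fun _ => by simp⟩

theorem rec_lev₂_inv {x : (Ω ≃ₐ[K] Ω) × (Ω ≃ₐ[K] Ω) → Ωˣ} (hx : loc_Lev₂ x) :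
    loc_Lev₂ x⁻¹ := by
  obtain ⟨M, hM, hx⟩ := hx
  refine ⟨M, hM, fun g h s hs t ht => by simp only [Pi.inv_apply, hx.1 g h s hs t ht],
    fun p => ?_⟩
  simp only [Pi.inv_apply, Units.val_inv_eq_inv_val]
  exact inv_mem (hx.2 p)

variable (K Ω) in
/-- The subgroup of level coboundaries. -/
def rec_cobSub : Subgroup ((Ω ≃ₐ[K] Ω) × (Ω ≃ₐ[K] Ω) → Ωˣ) where
  carrier := {x | loc_IsLevCob x}
  mul_mem' := fun hx hy => loc_IsLevCob.mul hx hy
  one_mem' := loc_isLevCob_one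
  inv_mem' := fun hx => loc_IsLevCob.inv hx

theorem rec_mem_cobSub {x : (Ω ≃ₐ[K] Ω) × (Ω ≃ₐ[K] Ω) → Ωˣ} :
    x ∈ rec_cobSub K Ω ↔ loc_IsLevCob x := Iff.rfl

variable (K Ω) in
/-- The subgroup of level `2`-cocycles whose `p`-th power is a level coboundary. -/
def rec_zSub (p : ℕ) : Subgroup ((Ω ≃ₐ[K] Ω) × (Ω ≃ₐ[K] Ω) → Ωˣ) where
  carrier := {x | IsMulCocycle₂ x ∧ loc_Lev₂ x ∧ loc_IsLevCob (x ^ p)}
  mul_mem' := by
    rintro x y ⟨h1, h2, h3⟩ ⟨h1', h2', h3'⟩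
    refine ⟨rec_coc_mul h1 h1', rec_lev₂_mul h2 h2', ?_⟩
    rw [mul_pow]
    exact loc_IsLevCob.mul h3 h3'
  one_mem' := ⟨rec_coc_one, rec_lev₂_one, by rw [one_pow]; exact loc_isLevCob_one⟩
  inv_mem' := by
    rintro x ⟨h1, h2, h3⟩
    refine ⟨rec_coc_inv h1, rec_lev₂_inv h2, ?_⟩
    rw [inv_pow]
    exact loc_IsLevCob.inv h3

theorem rec_mem_zSub {p : ℕ} {x : (Ω ≃ₐ[K] Ω) × (Ω ≃ₐ[K] Ω) → Ωˣ} :
    x ∈ rec_zSub K Ω p ↔ IsMulCocycle₂ x ∧ loc_Lev₂ x ∧ loc_IsLevCob (x ^ p) := Iff.rfl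

end loc

section unram

variable (K Ω : Type) [NontriviallyNormedField K] [IsUltrametricDist K] [ProperSpace K]
  [NormedField Ω] [NormedAlgebra K Ω] [IsAlgClosed Ω] [Algebra.IsAlgebraic K Ω] [IsGalois K Ω]

open groupCohomology

/-- The basic class `u_{p,ϖ}` is a level cocycle whose `p`-th power is a level coboundary. -/
theorem rec_u_mem_zSub (p : ℕ) [NeZero p] (ϖ : Kˣ) : loc_u K Ω p ϖ ∈ rec_zSub K Ω p := by
  refine ⟨loc_u_isMulCocycle₂ K Ω p ϖ, ?_, ?_⟩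
  · refine ⟨K⟮loc_zeta K Ω p⟯, (loc_cyc_facts K p _ (loc_zeta_spec K Ω p)).1, ?_, ?_⟩
    · intro g h s hs t ht
      simp only [loc_u, loc_ucoc_apply]
      rw [loc_chi_isLvl K Ω p g s hs, loc_chi_isLvl K Ω p h t ht]
    · intro x
      simp only [loc_u, loc_ucoc, Units.val_pow_eq_pow_val, Units.coe_map, MonoidHom.coe_coe]
      exact pow_mem (IntermediateField.algebraMap_mem _ _) _
  · have h1 : loc_u K Ω p ϖ ^ p = loc_u K Ω p (ϖ ^ p) := by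
      funext x
      simp only [Pi.pow_apply, loc_u, map_pow, loc_ucoc_pow]
    rw [h1]
    exact loc_u_cob_of_norm_eq K Ω p (ϖ ^ p) ϖ (by simp)

/-- **The class of an unramified carry cocycle.**  Let `n = p · p^m`, `N = p · (p^m · d)`,
`ψ = χ_N mod n`, `t ∈ ZMod n`, `ϖ, u ∈ Kˣ` with `‖u‖ = 1`, `v ∈ ℤ`.  With
`W = loc_ucoc n ψ ϖ`: `W ^ (p^m) ≡ u_{p,ϖ}` and
`loc_ucoc n (t·ψ) (ϖ^v u) ≡ W ^ (v · t)` modulo level coboundaries. -/
theorem rec_local_unram (p m d : ℕ) [NeZero p] [NeZero d]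
    (t : ZMod (p * p ^ m)) (ϖ u : Kˣ) (hu : ‖(u : K)‖ = 1) (v : ℤ)
    (ψ : (Ω ≃ₐ[K] Ω) → ZMod (p * p ^ m))
    (hψ : ∀ g, ψ g = ((loc_chi K Ω (p * (p ^ m * d)) g).val : ZMod (p * p ^ m))) :
    ∃ W : (Ω ≃ₐ[K] Ω) × (Ω ≃ₐ[K] Ω) → Ωˣ,
      loc_IsLevCob (W ^ p ^ m / loc_u K Ω p ϖ) ∧
      loc_IsLevCob (loc_ucoc (p * p ^ m) (fun g => t * ψ g)
        (Units.map (algebraMap K Ω : K →* Ω) (ϖ ^ v * u)) / W ^ (v * (t.val : ℤ))) := by
  have hnN : p * p ^ m ∣ p * (p ^ m * d) := ⟨d, by rw [mul_assoc]⟩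
  -- `ψ` is additive
  have hψc : ∀ g, ψ g = ZMod.cast (loc_chi K Ω (p * (p ^ m * d)) g) := by
    intro g
    rw [hψ g, ZMod.natCast_val]
  have hψadd : ∀ g h, ψ (g * h) = ψ g + ψ h := by
    intro g h
    rw [hψc, hψc, hψc, loc_chi_mul, ZMod.cast_add hnN]
  -- `ψ` is of level `K(ζ_N)`
  have hMfd : FiniteDimensional K K⟮loc_zeta K Ω (p * (p ^ m * d))⟯ :=
    (loc_cyc_facts K (p * (p ^ m * d)) _ (loc_zeta_spec K Ω (p * (p ^ m * d)))).1
  have hψlvl : loc_IsLvlχ K⟮loc_zeta K Ω (p * (p ^ m * d))⟯ ψ := by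
    intro g s hs
    rw [hψ, hψ, loc_chi_isLvl K Ω (p * (p ^ m * d)) g s hs]
  set Aϖ : Ωˣ := Units.map (algebraMap K Ω : K →* Ω) ϖ with hAϖ
  set Au : Ωˣ := Units.map (algebraMap K Ω : K →* Ω) u with hAu
  have hfix : ∀ (a : Kˣ) (g : Ω ≃ₐ[K] Ω), g • Units.map (algebraMap K Ω : K →* Ω) a =
      Units.map (algebraMap K Ω : K →* Ω) a := fun a g => Units.ext (g.commutes (a : K))
  have hmem : ∀ a : Kˣ, ((Units.map (algebraMap K Ω : K →* Ω) a : Ωˣ) : Ω) ∈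
      K⟮loc_zeta K Ω (p * (p ^ m * d))⟯ :=
    fun a => IntermediateField.algebraMap_mem _ _
  refine ⟨loc_ucoc (p * p ^ m) ψ Aϖ, ?_, ?_⟩
  · -- change of modulus
    have h0 : ∀ g, (loc_chi K Ω p g).val = (ψ g).val % p := by
      intro g
      rw [hψ g, ZMod.val_natCast, Nat.mod_mod_of_dvd _ (dvd_mul_right p (p ^ m))]
      exact loc_chi_compat K Ω p (p ^ m * d) g
    have h1 := rec_ucoc_cast (n := p) (t := p ^ m) ψ hψadd _ hψlvl (loc_chi K Ω p) h0 Aϖ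
      (hfix ϖ) (hmem ϖ)
    have h2 : loc_ucoc (p * p ^ m) ψ Aϖ ^ p ^ m = loc_ucoc (p * p ^ m) ψ (Aϖ ^ p ^ m) := by
      funext x
      simp only [Pi.pow_apply, loc_ucoc_pow]
    rw [h2]
    exact h1
  · have h1 := rec_ucoc_smul_char ψ hψadd _ hψlvl t
      (Units.map (algebraMap K Ω : K →* Ω) (ϖ ^ v * u)) (hfix _) (hmem _)
    -- the unit part
    have h3 : loc_IsLevCob (loc_ucoc (p * p ^ m) ψ (Au ^ t.val)) := by
      refine loc_unr_unit_cob K Ω (p * (p ^ m * d)) _ ?_ ⟨?_, ?_⟩ ?_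
      · refine loc_ucoc_isMulCocycle₂ ψ hψadd _ (fun g => ?_)
        rw [smul_pow', hfix u g]
      · intro g h s hs s' hs'
        simp only [loc_ucoc_apply]
        rw [hψlvl g s hs, hψlvl h s' hs']
      · intro x
        simp only [loc_ucoc, Units.val_pow_eq_pow_val]
        exact pow_mem (pow_mem (hmem u) _) _
      · intro x
        simp only [loc_ucoc, Units.val_pow_eq_pow_val, norm_pow, hAu, Units.coe_map,
          MonoidHom.coe_coe, norm_algebraMap', hu, one_pow]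
    have h4 : loc_ucoc (p * p ^ m) ψ
        (Units.map (algebraMap K Ω : K →* Ω) (ϖ ^ v * u) ^ t.val) =
        loc_ucoc (p * p ^ m) ψ Aϖ ^ (v * (t.val : ℤ)) *
          loc_ucoc (p * p ^ m) ψ (Au ^ t.val) := by
      funext x
      simp only [Pi.mul_apply, Pi.pow_apply, loc_ucoc, map_mul, map_zpow, ← hAϖ, ← hAu]
      rw [mul_pow, mul_pow, ← zpow_natCast (Aϖ ^ v), ← zpow_mul, ← zpow_natCast (Aϖ ^ (v * _)),
        ← zpow_mul, ← zpow_natCast Aϖ, ← zpow_mul, mul_comm (loc_carry _ _ _ : ℤ)]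
    have h5 : loc_ucoc (p * p ^ m) (fun g => t * ψ g)
        (Units.map (algebraMap K Ω : K →* Ω) (ϖ ^ v * u)) /
          loc_ucoc (p * p ^ m) ψ Aϖ ^ (v * (t.val : ℤ)) =
        (loc_ucoc (p * p ^ m) (fun g => t * ψ g)
            (Units.map (algebraMap K Ω : K →* Ω) (ϖ ^ v * u)) /
          loc_ucoc (p * p ^ m) ψ (Units.map (algebraMap K Ω : K →* Ω) (ϖ ^ v * u) ^ t.val)) *
        loc_ucoc (p * p ^ m) ψ (Au ^ t.val) := by
      rw [h4, div_mul_eq_div_div, div_mul_cancel]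
    rw [h5]
    exact loc_IsLevCob.mul h1 h3

end unram

end Fermat.Agent.S55
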