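import Mathlib
import Fermat.Agent.S55.LocLimUnr

/-!
# S55 block REC, (RA4)(b), part 1: change of character for carry cocycles

* `rloc_carry_smul` : `carry(c·x, c·y) + ⌊c·x/n⌋ + ⌊c·y/n⌋ = c·carry(x, y) + ⌊c·(x+y)/n⌋`.
* `rloc_ucoc_smul`  : generic cochain identity
  `loc_ucoc n (c • χ) a = loc_ucoc n χ (a ^ c) / d β`, `β g = a ^ ⌊c·χ(g)/n⌋` (for `a` fixed).
* `rloc_u_char`     : in the local model `(K, Ω)`: if `χ = c • loc_chi K Ω n` then
  `loc_u K Ω n (a ^ c) / loc_ucoc n χ a` is a level coboundary.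
-/

set_option autoImplicit false

namespace Fermat.Agent.S55

open IntermediateField

lemma rloc_carry_smul (n : ℕ) [NeZero n] (c : ℕ) (x y : ZMod n) :
    loc_carry n ((c : ZMod n) * x) ((c : ZMod n) * y) + c * x.val / n + c * y.val / n =
      c * loc_carry n x y + c * (x + y).val / n := by
  have hn : 0 < n := Nat.pos_of_ne_zero (NeZero.ne n)
  have hval : ∀ z : ZMod n, ((c : ZMod n) * z).val = (c * z.val) % n := by
    intro z
    rw [ZMod.val_mul, ZMod.val_natCast, Nat.mod_mul_mod]
  have h1 := loc_carry_spec n ((c : ZMod n) * x) ((c : ZMod n) * y)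
  have h2 := loc_carry_spec n x y
  rw [← mul_add, hval, hval, hval] at h1
  have e1 := Nat.div_add_mod (c * x.val) n
  have e2 := Nat.div_add_mod (c * y.val) n
  have e3 := Nat.div_add_mod (c * (x + y).val) n
  have h2' : c * x.val + c * y.val = c * (x + y).val + n * (c * loc_carry n x y) := by
    rw [← mul_add, h2]; ring
  apply Nat.eq_of_mul_eq_mul_left hn
  rw [mul_add, mul_add, mul_add]
  generalize loc_carry n ((c : ZMod n) * x) ((c : ZMod n) * y) = C' at *
  generalize c * loc_carry n x y = C at *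
  generalize c * x.val = X at *
  generalize c * y.val = Y at *
  generalize c * (x + y).val = S at *
  generalize n * (X / n) = A at *
  generalize n * (Y / n) = B at *
  generalize n * (S / n) = D at *
  generalize n * C' = E at *
  generalize n * C = F at *
  omega

section generic

variable {G A : Type*} [Group G] [CommGroup A] [MulDistribMulAction G A]

/-- Change of character for carry cocycles, generic form. -/
theorem rloc_ucoc_smul {n : ℕ} [NeZero n] (c : ℕ) (χ₀ χ : G → ZMod n)
    (hχ : ∀ g, χ g = c * χ₀ g) (hχ₀ : ∀ g h, χ₀ (g * h) = χ₀ g + χ₀ h)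
    (a : A) (ha : ∀ g : G, g • a = a) (g h : G) :
    loc_ucoc n χ₀ (a ^ c) (g, h) / loc_ucoc n χ a (g, h) =
      g • (a ^ (c * (χ₀ h).val / n)) / a ^ (c * (χ₀ (g * h)).val / n) *
        a ^ (c * (χ₀ g).val / n) := by
  have key := rloc_carry_smul n c (χ₀ g) (χ₀ h)
  rw [← hχ₀] at key
  simp only [loc_ucoc_apply, smul_pow', ha, hχ]
  rw [← pow_mul, div_mul_eq_mul_div, div_eq_div_iff_mul_eq_mul, ← pow_add, ← pow_add, ← pow_add]
  congr 1
  omega

end generic

section model

variable (K Ω : Type) [NontriviallyNormedField K] [IsUltrametricDist K] [ProperSpace K]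
  [NormedField Ω] [NormedAlgebra K Ω] [IsAlgClosed Ω] [Algebra.IsAlgebraic K Ω]

/-- **Change of character** in the local model: if `χ = c • loc_chi K Ω n`, the carry cocycle of
`χ` and `a ∈ Kˣ` differs from the unramified carry cocycle `u_{n, a^c}` by a level coboundary. -/
theorem rloc_u_char (n : ℕ) [NeZero n] (c : ℕ) (χ : (Ω ≃ₐ[K] Ω) → ZMod n)
    (hχ : ∀ g, χ g = c * loc_chi K Ω n g) (a : Kˣ) :
    loc_IsLevCob (loc_u K Ω n (a ^ c) /
      loc_ucoc n χ (Units.map (algebraMap K Ω : K →* Ω) a)) := by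
  set A : Ωˣ := Units.map (algebraMap K Ω : K →* Ω) a with hA
  have hAfix : ∀ g : Ω ≃ₐ[K] Ω, g • A = A := fun g => Units.ext (g.commutes (a : K))
  refine ⟨fun g => A ^ (c * (loc_chi K Ω n g).val / n),
    ⟨K⟮loc_zeta K Ω n⟯, (loc_cyc_facts K n _ (loc_zeta_spec K Ω n)).1,
      fun g s hs => ?_, fun g => ?_⟩, ?_⟩
  · show A ^ _ = A ^ _
    rw [loc_chi_isLvl K Ω n g s hs]
  · simp only [hA, Units.val_pow_eq_pow_val, Units.coe_map, MonoidHom.coe_coe]
    exact pow_mem (IntermediateField.algebraMap_mem _ _) _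
  · funext ⟨g, h⟩
    simp only [Pi.div_apply, loc_d₁_apply, loc_u, map_pow]
    exact rloc_ucoc_smul c (loc_chi K Ω n) χ hχ (loc_chi_mul K Ω n) A hAfix g h

end model

end Fermat.Agent.S55
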