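import Mathlib
import Fermat.Agent.S55.WildLocal
import Fermat.Agent.S55.LocInfVal2
import Fermat.Agent.S55.UnrBasic
import Fermat.Agent.S55.LocBasic

/-!
# S55 block REC, (RA4)(b), part 2: dictionary between a prime of a number field and its
completion inside `PadicAlgCl q`

`k` a number field, `σ : k →+* PadicAlgCl q`, `v = linf_prime q σ`, `E = ℚ_q(σ k)`.

* `rloc_unr_q`   : the residue field of `E` has `N(v)` elements: `unr_q E = Ideal.absNorm v`.
* `rloc_norm_eq` : for a uniformizer `ϖ` of `E` and `x ∈ kˣ`: `‖σ x‖ = ‖ϖ‖ ^ (-log (v x))`,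
  i.e. the normalised valuation of `E` restricts to `ord_v` on `k`.
-/

set_option autoImplicit false
set_option linter.style.haveILetI false

open NumberField IsDedekindDomain

namespace Fermat.Agent.S55

section Dict

variable (q : ℕ) [Fact q.Prime] {k : Type} [Field k] [NumberField k] (σ : k →+* PadicAlgCl q)

/-- `ℚ_q(σ k)` is finite over `ℚ_q`. -/
instance rloc_finiteDimensional :
    FiniteDimensional ℚ_[q] (IntermediateField.adjoin ℚ_[q] (Set.range σ)) :=
  wild_finiteDimensional_adjoin_range σ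

/-- `ℚ_q(σ k)` is a proper space. -/
instance rloc_properSpace : ProperSpace (IntermediateField.adjoin ℚ_[q] (Set.range σ)) :=
  FiniteDimensional.proper ℚ_[q] _

/-- `σ` as a map into `E = ℚ_q(σ k)`. -/
noncomputable def rloc_sigma : k →+* IntermediateField.adjoin ℚ_[q] (Set.range σ) :=
  σ.codRestrict (IntermediateField.adjoin ℚ_[q] (Set.range σ))
    fun x => IntermediateField.subset_adjoin _ _ ⟨x, rfl⟩

@[simp] theorem rloc_sigma_coe (x : k) : ((rloc_sigma q σ x : _) : PadicAlgCl q) = σ x := rfl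

theorem rloc_norm_sigma (x : k) : ‖rloc_sigma q σ x‖ = ‖σ x‖ := rfl

/-- The reduction map `𝓞 k → residue field of E`. -/
noncomputable def rloc_red :
    𝓞 k →+* unr_k (IntermediateField.adjoin ℚ_[q] (Set.range σ)) :=
  (unr_red _).comp
    (((rloc_sigma q σ).comp (algebraMap (𝓞 k) k)).codRestrict
      (unr_O (IntermediateField.adjoin ℚ_[q] (Set.range σ)))
      fun a => linf_norm_integer_le_one q σ a)

theorem rloc_red_eq_zero_iff (a : 𝓞 k) :
    rloc_red q σ a = 0 ↔ a ∈ (linf_prime q σ).asIdeal := by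
  unfold rloc_red
  rw [RingHom.comp_apply, unr_red_eq_zero_iff, linf_mem_prime_iff]
  rfl

theorem rloc_red_surjective : Function.Surjective (rloc_red q σ) := by
  intro X
  obtain ⟨x, rfl⟩ := unr_red_surjective _ X
  have hx1 : ‖((x : IntermediateField.adjoin ℚ_[q] (Set.range σ)) : PadicAlgCl q)‖ ≤ 1 := x.2
  obtain ⟨y, hy⟩ := linf_dense q σ (x : IntermediateField.adjoin ℚ_[q] (Set.range σ)).2
    (ε := 1) one_pos
  have hy1 : ‖σ y‖ ≤ 1 := by
    have h := IsUltrametricDist.norm_add_le_max (σ y -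
      ((x : IntermediateField.adjoin ℚ_[q] (Set.range σ)) : PadicAlgCl q))
      ((x : IntermediateField.adjoin ℚ_[q] (Set.range σ)) : PadicAlgCl q)
    rw [sub_add_cancel] at h
    exact h.trans (max_le hy.le hx1)
  have hv := linf_valuation_le_one_of_norm_le_one q σ y hy1
  obtain ⟨n, d, hnd⟩ := (linf_prime q σ).exists_primeCompl_mul_eq_of_integer y hv
  -- invert `d` modulo the prime
  have hmax : (linf_prime q σ).asIdeal.IsMaximal := (linf_prime q σ).isMaximal
  obtain ⟨d', hd'⟩ := Ideal.Quotient.exists_inv (I := (linf_prime q σ).asIdeal)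
    (a := Ideal.Quotient.mk _ (d : 𝓞 k)) (by
      rw [Ne, Ideal.Quotient.eq_zero_iff_mem]
      exact d.2)
  obtain ⟨d', rfl⟩ := Ideal.Quotient.mk_surjective d'
  rw [← map_mul, ← map_one (Ideal.Quotient.mk _), Ideal.Quotient.eq, linf_mem_prime_iff] at hd'
  refine ⟨n * d', ?_⟩
  unfold rloc_red
  rw [RingHom.comp_apply, unr_red_eq_iff]
  show ‖σ (algebraMap (𝓞 k) k (n * d')) -
    ((x : IntermediateField.adjoin ℚ_[q] (Set.range σ)) : PadicAlgCl q)‖ < 1
  have h1 : σ (algebraMap (𝓞 k) k (n * d')) -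
      ((x : IntermediateField.adjoin ℚ_[q] (Set.range σ)) : PadicAlgCl q) =
      σ y * σ (algebraMap (𝓞 k) k ((d : 𝓞 k) * d' - 1)) +
        (σ y - ((x : IntermediateField.adjoin ℚ_[q] (Set.range σ)) : PadicAlgCl q)) := by
    rw [map_mul (algebraMap (𝓞 k) k), ← hnd, map_sub, map_mul (algebraMap (𝓞 k) k), map_one,
      map_mul, map_mul, map_sub, map_mul, map_one]
    ring
  rw [h1]
  refine (IsUltrametricDist.norm_add_le_max _ _).trans_lt (max_lt ?_ hy)
  rw [norm_mul]
  calc ‖σ y‖ * ‖σ (algebraMap (𝓞 k) k ((d : 𝓞 k) * d' - 1))‖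
      ≤ 1 * ‖σ (algebraMap (𝓞 k) k ((d : 𝓞 k) * d' - 1))‖ :=
        mul_le_mul_of_nonneg_right hy1 (norm_nonneg _)
    _ < 1 := by rw [one_mul]; exact hd'

/-- **Residue fields**: the residue field of `E = ℚ_q(σ k)` has `N(v)` elements. -/
theorem rloc_unr_q :
    unr_q (IntermediateField.adjoin ℚ_[q] (Set.range σ)) =
      Ideal.absNorm (linf_prime q σ).asIdeal := by
  have hker : RingHom.ker (rloc_red q σ) = (linf_prime q σ).asIdeal := by
    ext a
    rw [RingHom.mem_ker, rloc_red_eq_zero_iff]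
  have e := RingHom.quotientKerEquivOfSurjective (rloc_red_surjective q σ)
  rw [Ideal.absNorm_apply, Submodule.cardQuot_apply, unr_q, ← hker]
  exact (Nat.card_congr e.toEquiv).symm

/-- `‖σ z‖ < 1` implies `v z < 1`. -/
theorem rloc_valuation_lt_one_of_norm_lt_one (z : k) (h : ‖σ z‖ < 1) :
    (linf_prime q σ).valuation k z < 1 := by
  by_contra hcon
  push Not at hcon
  have hz : z ≠ 0 := by
    rintro rfl
    simp at hcon
  have h1 : (linf_prime q σ).valuation k z⁻¹ ≤ 1 := by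
    rw [map_inv₀]
    exact inv_le_one_of_one_le₀ hcon
  have h2 := linf_norm_le_one_of_valuation_le_one q σ z⁻¹ h1
  rw [map_inv₀, norm_inv] at h2
  have h3 : 0 < ‖σ z‖ := norm_pos_iff.2 ((map_ne_zero σ).2 hz)
  have h4 : 1 ≤ ‖σ z‖ := by
    rw [inv_le_one₀ h3] at h2
    exact h2
  exact absurd h (not_lt.2 h4)

/-- A uniformizer of `v` maps to an element of the norm of a uniformizer of `E`. -/
theorem rloc_norm_uniformizer {ϖ : IntermediateField.adjoin ℚ_[q] (Set.range σ)}
    (hϖ : loc_IsUnif ϖ) (π : k)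
    (hπ : (linf_prime q σ).valuation k π = WithZero.exp (-1 : ℤ)) : ‖σ π‖ = ‖ϖ‖ := by
  have hπ1 : (linf_prime q σ).valuation k π < 1 := by
    rw [hπ, ← WithZero.exp_zero, WithZero.exp_lt_exp]
    norm_num
  have hπ0 : π ≠ 0 := by
    rintro rfl
    rw [map_zero] at hπ
    exact WithZero.exp_ne_zero hπ.symm
  have h1 : ‖σ π‖ < 1 := linf_norm_lt_one_of_valuation_lt_one q σ π hπ1
  apply le_antisymm
  · exact hϖ.2.2 (rloc_sigma q σ π) h1
  · obtain ⟨y, hy⟩ := linf_dense q σ ϖ.2 (ε := ‖ϖ‖) hϖ.1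
    have hyn : ‖σ y‖ = ‖ϖ‖ := by
      have h := IsUltrametricDist.norm_add_eq_max_of_norm_ne_norm
        (x := σ y - (ϖ : PadicAlgCl q)) (y := (ϖ : PadicAlgCl q)) (ne_of_lt hy)
      rw [sub_add_cancel] at h
      rw [h]
      exact max_eq_right hy.le
    have hy1 : (linf_prime q σ).valuation k y < 1 :=
      rloc_valuation_lt_one_of_norm_lt_one q σ y (by rw [hyn]; exact hϖ.2.1)
    have hy0 : y ≠ 0 := by
      rintro rfl
      rw [map_zero, norm_zero] at hyn
      exact hϖ.1.ne hyn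
    -- `v y ≤ exp (-1) = v π`
    have hyle : (linf_prime q σ).valuation k y ≤ WithZero.exp (-1 : ℤ) := by
      have hy0' : (linf_prime q σ).valuation k y ≠ 0 := (map_ne_zero _).2 hy0
      rw [← WithZero.exp_log hy0'] at hy1 ⊢
      rw [← WithZero.exp_zero, WithZero.exp_lt_exp] at hy1
      rw [WithZero.exp_le_exp]
      omega
    have h2 : (linf_prime q σ).valuation k (y / π) ≤ 1 := by
      rw [map_div₀, hπ]
      exact div_le_one_of_le₀ hyle zero_le
    have h3 := linf_norm_le_one_of_valuation_le_one q σ (y / π) h2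
    rw [map_div₀, norm_div] at h3
    have h4 : 0 < ‖σ π‖ := norm_pos_iff.2 ((map_ne_zero σ).2 hπ0)
    rw [div_le_one h4] at h3
    rw [← hyn]
    exact h3

/-- **Valuations**: the normalised valuation of `E = ℚ_q(σ k)` restricts to `ord_v` on `k`. -/
theorem rloc_norm_eq {ϖ : IntermediateField.adjoin ℚ_[q] (Set.range σ)} (hϖ : loc_IsUnif ϖ)
    (x : k) (hx : x ≠ 0) :
    ‖σ x‖ = ‖ϖ‖ ^ (-(WithZero.log ((linf_prime q σ).valuation k x))) := by
  obtain ⟨π, hπ⟩ := (linf_prime q σ).valuation_exists_uniformizer k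
  have hπ0 : π ≠ 0 := by
    rintro rfl
    rw [map_zero] at hπ
    exact WithZero.exp_ne_zero hπ.symm
  have hπn := rloc_norm_uniformizer q σ hϖ π hπ
  set m := WithZero.log ((linf_prime q σ).valuation k x) with hm
  have hx0' : (linf_prime q σ).valuation k x ≠ 0 := (map_ne_zero _).2 hx
  have h1 : (linf_prime q σ).valuation k (x * π ^ m) = 1 := by
    rw [map_mul, map_zpow₀, hπ, ← WithZero.exp_log hx0', ← hm, ← WithZero.exp_zsmul,
      ← WithZero.exp_add]
    simp
  have h2 := linf_norm_eq_one_of_valuation_eq_one q σ (x * π ^ m) h1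
  rw [map_mul, map_zpow₀, norm_mul, norm_zpow, hπn] at h2
  have hϖ0 : ‖ϖ‖ ≠ 0 := hϖ.1.ne'
  rw [zpow_neg]
  exact eq_inv_of_mul_eq_one_left h2

end Dict

end Fermat.Agent.S55
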