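import Mathlib
import Fermat.Agent.S55.RecLocDict
import Fermat.Agent.S55.RecFrob
import Fermat.Agent.S55.LocLimBase
import Fermat.Agent.S55.LocInfHpb
import Fermat.Agent.S55.RecLocChar

/-!
# S55 block REC, (RA4)(b), part 3: the local Galois group at a good place acts on the
cyclotomic class field through the unramified character

`k` a number field, `K = recField k Q H ⊆ k(ζ_Q)`, `τ : K →+* PadicAlgCl q` with `q ∤ Q`,
`E = hpbKloc k τ = ℚ_q(τ k)` the completion of `k` at `v = linf_prime q (τ ∘ algebraMap)`.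
For `g ∈ Gal(PadicAlgCl q / E)` inducing `s ∈ Gal(K/k)` (`τ (s x) = g (τ x)`):

`recPhi k Q H s = recPsi Q (mk' H) (N v) ^ (loc_chi E (PadicAlgCl q) N g).val`

for every `N ≥ 1` with `recPsi Q (mk' H) (N v) ^ N = 1` (`rloc_recPhi`; `rloc_recPhi_rho` is the
same statement for `s = linf_rho k τ g`, `g` in the fixing subgroup of `E`).
No Frobenius elements are needed: `g ζ_Q = ζ_Q ^ (q_E ^ j)` by `loc_chi_all`, and the cyclotomic
character `recChi` is injective.
-/

set_option autoImplicit false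
set_option linter.style.haveILetI false
set_option linter.unusedSectionVars false

open NumberField IsDedekindDomain

namespace Fermat.Agent.S55

section Coprime

variable (q : ℕ) [Fact q.Prime] {k : Type} [Field k] [NumberField k] (σ : k →+* PadicAlgCl q)

/-- A natural number lies in the prime induced by `σ : k → PadicAlgCl q` iff `q` divides it. -/
theorem rloc_natCast_mem_prime_iff (n : ℕ) :
    ((n : ℕ) : 𝓞 k) ∈ (linf_prime q σ).asIdeal ↔ q ∣ n := by
  rw [linf_mem_prime_iff]
  have h : σ (algebraMap (𝓞 k) k ((n : ℕ) : 𝓞 k)) =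
      algebraMap ℚ_[q] (PadicAlgCl q) (n : ℚ_[q]) := by
    rw [map_natCast, map_natCast, map_natCast]
  rw [h, norm_algebraMap']
  exact Padic.norm_natCast_lt_one_iff

/-- The residue cardinality of `ℚ_q(σ k)` is prime to `Q` when `q ∤ Q`. -/
theorem rloc_unr_q_coprime (Q : ℕ) (hq : ¬ q ∣ Q) :
    (unr_q (IntermediateField.adjoin ℚ_[q] (Set.range σ))).Coprime Q := by
  rw [rloc_unr_q]
  exact rec_absNorm_coprime k Q _ (fun h => hq ((rloc_natCast_mem_prime_iff q σ Q).1 h))

end Coprime

section Main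

attribute [local instance] loc_normedAlgebraIF

variable (k : Type) [Field k] [NumberField k] (Q : ℕ) [NeZero Q] (H : Subgroup (ZMod Q)ˣ)
  (q : ℕ) [Fact q.Prime]

/-- The completion `hpbKloc k τ` is finite over `ℚ_q`. -/
theorem rloc_finiteDimensional_kloc {L : Type} [Field L] [Algebra k L]
    (τ : L →+* PadicAlgCl q) : FiniteDimensional ℚ_[q] (hpbKloc k τ) :=
  wild_finiteDimensional_kloc k τ

/-- The completion `hpbKloc k τ` is a proper space. -/
theorem rloc_properSpace_kloc {L : Type} [Field L] [Algebra k L]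
    (τ : L →+* PadicAlgCl q) : ProperSpace (hpbKloc k τ) :=
  haveI := rloc_finiteDimensional_kloc k q τ
  FiniteDimensional.proper ℚ_[q] _

attribute [local instance] rloc_finiteDimensional_kloc rloc_properSpace_kloc

/-- **Local Galois action on the cyclotomic class field at a good place.** -/
theorem rloc_recPhi (hq : ¬ q ∣ Q) (τ : recField k Q H →+* PadicAlgCl q)
    (g : PadicAlgCl q ≃ₐ[hpbKloc k τ] PadicAlgCl q)
    (s : recField k Q H ≃ₐ[k] recField k Q H) (hs : ∀ x, τ (s x) = g (τ x))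
    (N : ℕ) [NeZero N]
    (hN : (recPsi Q (QuotientGroup.mk' H) (Ideal.absNorm
      (linf_prime q (τ.comp (algebraMap k (recField k Q H)))).asIdeal) : (ZMod Q)ˣ ⧸ H) ^ N = 1) :
    recPhi k Q H s = recPsi Q (QuotientGroup.mk' H) (Ideal.absNorm
      (linf_prime q (τ.comp (algebraMap k (recField k Q H)))).asIdeal) ^
        (loc_chi (hpbKloc k τ) (PadicAlgCl q) N g).val := by
  classical
  set σ := τ.comp (algebraMap k (recField k Q H)) with hσ
  have hqE : unr_q (hpbKloc k τ) = Ideal.absNorm (linf_prime q σ).asIdeal := rloc_unr_q q σ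
  have hcop : (unr_q (hpbKloc k τ)).Coprime Q := rloc_unr_q_coprime q σ Q hq
  -- extend `τ` to `L = k(ζ_Q)`
  letI : Algebra (recField k Q H) (PadicAlgCl q) := τ.toAlgebra
  let τL' : CyclotomicField Q k →ₐ[recField k Q H] PadicAlgCl q := IsAlgClosed.lift
  let τL : CyclotomicField Q k →+* PadicAlgCl q := τL'.toRingHom
  have hτL : ∀ x : recField k Q H,
      τL (algebraMap (recField k Q H) (CyclotomicField Q k) x) = τ x := fun x => τL'.commutes x
  have hcomp : τL.comp (algebraMap k (CyclotomicField Q k)) = σ := by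
    ext x
    rw [RingHom.comp_apply, IsScalarTower.algebraMap_apply k (recField k Q H)
      (CyclotomicField Q k), hτL]
    rfl
  have hE : hpbKloc k τL = hpbKloc k τ := by
    unfold hpbKloc
    rw [hcomp]
  -- the induced automorphism of `L`
  have hmem : g.restrictScalars ℚ_[q] ∈ (hpbKloc k τL).fixingSubgroup := by
    rw [hE, IntermediateField.mem_fixingSubgroup_iff]
    intro x hx
    exact g.commutes ⟨x, hx⟩
  set sL := linf_rho k τL ⟨g.restrictScalars ℚ_[q], hmem⟩ with hsL
  have hsL' : ∀ y, τL (sL y) = g (τL y) := fun y => linf_rho_spec k τL _ y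
  -- `sL` restricts to `s`
  have hres : AlgEquiv.restrictNormalHom (recField k Q H) sL = s := by
    ext x
    apply Subtype.ext_iff.1
    apply (algebraMap (recField k Q H) (CyclotomicField Q k)).injective
    apply τL.injective
    have h1 : algebraMap (recField k Q H) (CyclotomicField Q k)
        (AlgEquiv.restrictNormalHom (recField k Q H) sL x) =
        sL (algebraMap (recField k Q H) (CyclotomicField Q k) x) :=
      AlgEquiv.restrictNormal_commutes sL (recField k Q H) x
    rw [h1, hsL', hτL, hτL, hs]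
  -- the root of unity
  set ζ := IsCyclotomicExtension.zeta Q k (CyclotomicField Q k) with hζdef
  have hζ := IsCyclotomicExtension.zeta_spec Q k (CyclotomicField Q k)
  haveI : NeZero Q.totient := ⟨(Nat.totient_pos.2 (NeZero.pos Q)).ne'⟩
  set M := N * Q.totient with hMdef
  have hmod : unr_q (hpbKloc k τ) ^ M ≡ 1 [MOD Q] := by
    have h1 := (Nat.ModEq.pow_totient hcop).pow N
    rw [one_pow, ← pow_mul, mul_comm] at h1
    exact h1
  have hM : Q ∣ loc_r (hpbKloc k τ) M := by
    unfold loc_r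
    exact (Nat.modEq_iff_dvd' (Nat.one_le_pow _ _ (unr_q_pos _))).1 hmod.symm
  have hξ : (τL ζ) ^ loc_r (hpbKloc k τ) M = 1 := by
    obtain ⟨c, hc⟩ := hM
    rw [hc, pow_mul, ← map_pow, hζ.pow_eq_one, map_one, one_pow]
  have hg := loc_chi_all (hpbKloc k τ) (PadicAlgCl q) M g (τL ζ) hξ
  set j' := (loc_chi (hpbKloc k τ) (PadicAlgCl q) M g).val with hj'
  have hsζ : sL ζ = ζ ^ (unr_q (hpbKloc k τ) ^ j') := by
    apply τL.injective
    rw [hsL', hg, map_pow]
  have hchi := recChi_eq_of_pow k Q sL _ hsζ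
  have hcop' : (unr_q (hpbKloc k τ) ^ j').Coprime Q := Nat.Coprime.pow_left j' hcop
  have hunit : recChi k Q sL = ZMod.unitOfCoprime _ hcop' := by
    apply Units.ext
    rw [ZMod.coe_unitOfCoprime]
    exact hchi
  have e1 : recPsi Q (QuotientGroup.mk' H) (unr_q (hpbKloc k τ) ^ j') =
      QuotientGroup.mk' H (ZMod.unitOfCoprime _ hcop') := recPsi_of_coprime Q _ hcop'
  rw [← hres, recPhi_restrict, hunit, ← e1, recPsi_pow Q _ hcop, hqE, pow_eq_pow_mod j' hN]
  congr 1
  exact (loc_chi_compat (hpbKloc k τ) (PadicAlgCl q) N Q.totient g).symm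

/-- `rloc_recPhi` for the canonical action `linf_rho` of the fixing subgroup of the completion. -/
theorem rloc_recPhi_rho (hq : ¬ q ∣ Q) (τ : recField k Q H →+* PadicAlgCl q)
    (g : (hpbKloc k τ).fixingSubgroup) (N : ℕ) [NeZero N]
    (hN : (recPsi Q (QuotientGroup.mk' H) (Ideal.absNorm
      (linf_prime q (τ.comp (algebraMap k (recField k Q H)))).asIdeal) : (ZMod Q)ˣ ⧸ H) ^ N = 1) :
    recPhi k Q H (linf_rho k τ g) = recPsi Q (QuotientGroup.mk' H) (Ideal.absNorm
      (linf_prime q (τ.comp (algebraMap k (recField k Q H)))).asIdeal) ^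
        (loc_chi (hpbKloc k τ) (PadicAlgCl q) N
          (IntermediateField.fixingSubgroupEquiv (hpbKloc k τ) g)).val :=
  rloc_recPhi k Q H q hq τ _ _ (fun x => linf_rho_spec k τ g x) N hN

/-- The character of the cyclotomic class field pulled back to the local Galois group at a good
place is a multiple of the unramified character: `χ ∘ ρ_v = χ(φ_v) • loc_chi`, where `φ_v` is the
element of `Gal(K/k)` with `recPhi φ_v = [N v]` (the Frobenius). -/
theorem rloc_chi_rho (hq : ¬ q ∣ Q) (τ : recField k Q H →+* PadicAlgCl q)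
    (φ : recField k Q H ≃ₐ[k] recField k Q H)
    (hφ : recPhi k Q H φ = recPsi Q (QuotientGroup.mk' H) (Ideal.absNorm
      (linf_prime q (τ.comp (algebraMap k (recField k Q H)))).asIdeal))
    (n : ℕ) [NeZero n] (hn : φ ^ n = 1)
    (χ : (recField k Q H ≃ₐ[k] recField k Q H) → ZMod n) (hχ : ∀ s t, χ (s * t) = χ s + χ t)
    (g : PadicAlgCl q ≃ₐ[hpbKloc k τ] PadicAlgCl q)
    (s : recField k Q H ≃ₐ[k] recField k Q H) (hs : ∀ x, τ (s x) = g (τ x)) :
    χ s = ((χ φ).val : ℕ) * loc_chi (hpbKloc k τ) (PadicAlgCl q) n g := by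
  have hN : (recPsi Q (QuotientGroup.mk' H) (Ideal.absNorm
      (linf_prime q (τ.comp (algebraMap k (recField k Q H)))).asIdeal) : (ZMod Q)ˣ ⧸ H) ^ n = 1 := by
    rw [← hφ, ← map_pow, hn, map_one]
  have h := rloc_recPhi k Q H q hq τ g s hs n hN
  rw [← hφ, ← map_pow] at h
  rw [recPhi_injective k Q H h, loc_chi_pow χ hχ, ZMod.natCast_zmod_val, ZMod.natCast_zmod_val,
    mul_comm]

/-- **The cyclic class at a good place.**  For `a ∈ E_vˣ` the carry cocycle of the pulled-back
character `χ ∘ ρ_v` and `a` is, modulo level coboundaries, the unramified carry cocycle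
`u_{n, a^c}` with `c = χ(φ_v)`. -/
theorem rloc_ucoc_rho (hq : ¬ q ∣ Q) (τ : recField k Q H →+* PadicAlgCl q)
    (φ : recField k Q H ≃ₐ[k] recField k Q H)
    (hφ : recPhi k Q H φ = recPsi Q (QuotientGroup.mk' H) (Ideal.absNorm
      (linf_prime q (τ.comp (algebraMap k (recField k Q H)))).asIdeal))
    (n : ℕ) [NeZero n] (hn : φ ^ n = 1)
    (χ : (recField k Q H ≃ₐ[k] recField k Q H) → ZMod n) (hχ : ∀ s t, χ (s * t) = χ s + χ t)
    (ρ : (PadicAlgCl q ≃ₐ[hpbKloc k τ] PadicAlgCl q) → (recField k Q H ≃ₐ[k] recField k Q H))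
    (hρ : ∀ g x, τ (ρ g x) = g (τ x)) (a : (hpbKloc k τ)ˣ) :
    loc_IsLevCob (loc_u (hpbKloc k τ) (PadicAlgCl q) n (a ^ (χ φ).val) /
      loc_ucoc n (fun g => χ (ρ g))
        (Units.map (algebraMap (hpbKloc k τ) (PadicAlgCl q) : hpbKloc k τ →* PadicAlgCl q) a)) :=
  rloc_u_char (hpbKloc k τ) (PadicAlgCl q) n (χ φ).val (fun g => χ (ρ g))
    (fun g => rloc_chi_rho k Q H q hq τ φ hφ n hn χ hχ g (ρ g) (hρ g)) a

/-- `rloc_unr_q` for the completion `hpbKloc k τ`. -/
theorem rloc_unr_q_kloc {L : Type} [Field L] [Algebra k L] (τ : L →+* PadicAlgCl q) :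
    unr_q (hpbKloc k τ) = Ideal.absNorm (linf_prime q (τ.comp (algebraMap k L))).asIdeal :=
  rloc_unr_q q (τ.comp (algebraMap k L))

/-- The normalised valuation of the completion `hpbKloc k τ` restricted to `k` is `ord_v`. -/
theorem rloc_ord_kloc {L : Type} [Field L] [Algebra k L] (τ : L →+* PadicAlgCl q)
    {ϖ : hpbKloc k τ} (hϖ : loc_IsUnif ϖ) (b : kˣ) :
    loc_ord hϖ (Additive.ofMul (Units.map (hpbTauBase k τ : k →* hpbKloc k τ) b)) =
      -(WithZero.log ((linf_prime q (τ.comp (algebraMap k L))).valuation k (b : k))) := by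
  rw [loc_ord_eq_iff]
  exact rloc_norm_eq q (τ.comp (algebraMap k L)) hϖ (b : k) b.ne_zero

end Main

end Fermat.Agent.S55
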