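/-
S55 block REC, R2 (roster-rec v1): local triviality at `q` of the cyclic class ⟹ `b` is a local
norm in the `ksiNorm` form.  Base field `ℚ`, local group `G_q = Gal(PadicAlgCl q/ℚ_q)`.
-/
import Mathlib
import Fermat.Agent.S55.LocInfDecGen

namespace Fermat.Agent.S55

open NumberField IsDedekindDomain

/-- **R2.** -/
theorem rec_local_norm (q : ℕ) [Fact q.Prime] {F : Type} [Field F] [NumberField F] [IsGalois ℚ F]
    (τ : F →+* PadicAlgCl q) (n : ℕ) [NeZero n] (φ : (F ≃ₐ[ℚ] F) → ZMod n)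
    (hφ : ∀ s s', φ (s * s') = φ s + φ s') (hφinj : ∀ s, φ s = 0 → s = 1)
    (b : ℚˣ) (θ : (PadicAlgCl q ≃ₐ[ℚ_[q]] PadicAlgCl q) → (PadicAlgCl q)ˣ)
    (hlev : ∃ M : IntermediateField ℚ_[q] (PadicAlgCl q), FiniteDimensional ℚ_[q] M ∧
      ∀ g s, s ∈ M.fixingSubgroup → θ (g * s) = θ g)
    (hθ : ∀ (g h : PadicAlgCl q ≃ₐ[ℚ_[q]] PadicAlgCl q) (s s' : F ≃ₐ[ℚ] F),
      (∀ y, τ (s y) = g (τ y)) → (∀ y, τ (s' y) = h (τ y)) →
      (τ (algebraMap ℚ F (b : ℚ))) ^ loc_carry n (φ s) (φ s') =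
        (θ g : PadicAlgCl q) * g (θ h : PadicAlgCl q) / (θ (g * h) : PadicAlgCl q))
    (m : ℕ) : b ∈ ksiNorm ℚ F (linf_prime q (τ.comp (algebraMap ℚ F))) m := by
  have hb0 : τ (algebraMap ℚ F (b : ℚ)) ≠ 0 :=
    (map_ne_zero τ).2 ((map_ne_zero (algebraMap ℚ F)).2 b.ne_zero)
  refine linf_carry_mem_ksiNorm_rat q τ φ hφ hφinj (linf_rhoRat q τ) (linf_rhoRat_spec q τ) b
    (Units.mk0 _ hb0) ?_ θ hlev (fun g h => ?_) m
  · rw [Units.val_mk0, eq_ratCast, map_ratCast]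
  · apply Units.ext
    rw [loc_ucoc_apply, Units.val_pow_eq_pow_val, Units.val_mk0,
      hθ g h (linf_rhoRat q τ g) (linf_rhoRat q τ h) (linf_rhoRat_spec q τ g)
        (linf_rhoRat_spec q τ h)]
    rw [Units.val_mul, Units.val_div_eq_div_val, AlgEquiv.smul_units_def, Units.coe_map]
    simp only [MonoidHom.coe_coe]
    ring

end Fermat.Agent.S55
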