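import Mathlib
import Fermat.Agent.S55.RecDefs

/-!
# S55 block REC, M3: `q`-adic decomposition of a rational number

`rec_padic_decomp` : in `ℚ_[q]ˣ`, `b = q ^ v_q(b) · u` with `‖u‖ = 1`.
-/

set_option autoImplicit false

namespace Fermat.Agent.S55

/-- **M3**: `b = q ^ v_q(b) · u` with `u` a unit of `ℤ_q`. -/
theorem rec_padic_decomp (q : ℕ) [Fact q.Prime] (b : ℚˣ) :
    ∃ u : ℚ_[q]ˣ, ‖(u : ℚ_[q])‖ = 1 ∧
      Units.map ((Rat.castHom ℚ_[q] : ℚ →+* ℚ_[q]) : ℚ →* ℚ_[q]) b =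
        rec_qUnit q ^ (padicValRat q (b : ℚ)) * u := by
  refine ⟨Units.map ((Rat.castHom ℚ_[q] : ℚ →+* ℚ_[q]) : ℚ →* ℚ_[q]) b /
    rec_qUnit q ^ (padicValRat q (b : ℚ)), ?_, ?_⟩
  · have hq0 : (q : ℝ) ≠ 0 := by exact_mod_cast (Fact.out : q.Prime).ne_zero
    have h1 : ‖((b : ℚ) : ℚ_[q])‖ = (q : ℝ) ^ (-padicValRat q (b : ℚ)) := by
      rw [Padic.eq_padicNorm, padicNorm.eq_zpow_of_nonzero b.ne_zero]
      push_cast
      rfl
    have h2 : ‖(q : ℚ_[q])‖ = (q : ℝ)⁻¹ := Padic.norm_p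
    rw [Units.val_div_eq_div_val, norm_div, Units.val_zpow_eq_zpow_val, norm_zpow, rec_qUnit_val,
      Units.coe_map, h2]
    show ‖((b : ℚ) : ℚ_[q])‖ / _ = 1
    rw [h1, inv_zpow, ← zpow_neg]
    exact div_self (zpow_ne_zero _ hq0)
  · rw [mul_div_cancel]

end Fermat.Agent.S55
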