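import Fermat.Agent.S55.RecLoc
import Fermat.Agent.S55.RecDefs
import Fermat.Agent.S55.RecPadic

/-!
# S55, block REC: the local analysis at a prime `q` (base field `ℚ_q`)

* `rec_local_nf` : local normal form `x ≡ U_q ^ inv(x)` modulo level coboundaries, where
  `U_q = loc_u ℚ_q Ω_q p q`, for any invariant `inv` with the properties `hmul`, `hker`, `hnorm`;
* `rec_local_cong` : if `x ≡ U_q ^ k` and `x ≡ loc_ucoc n χ b` for the restriction `χ` of a global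
  character unramified at `q` (`χ = t · χ_N`), then `p^(m+1) ∣ v_q(b) · t − p^m · k`.
-/

set_option autoImplicit false

namespace Fermat.Agent.S55

open groupCohomology

section

variable (p : ℕ) [Fact p.Prime] (q : ℕ) [Fact q.Prime]

/-- **Local normal form.** -/
theorem rec_local_nf
    (inv : ((PadicAlgCl q ≃ₐ[ℚ_[q]] PadicAlgCl q) × (PadicAlgCl q ≃ₐ[ℚ_[q]] PadicAlgCl q) →
        (PadicAlgCl q)ˣ) → ZMod p)
    (hmul : ∀ (x y : (PadicAlgCl q ≃ₐ[ℚ_[q]] PadicAlgCl q) ×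
        (PadicAlgCl q ≃ₐ[ℚ_[q]] PadicAlgCl q) → (PadicAlgCl q)ˣ),
      IsMulCocycle₂ x → loc_Lev₂ x → loc_IsLevCob (x ^ p) →
      IsMulCocycle₂ y → loc_Lev₂ y → loc_IsLevCob (y ^ p) →
      inv (x * y) = inv x + inv y)
    (hker : ∀ (x : (PadicAlgCl q ≃ₐ[ℚ_[q]] PadicAlgCl q) ×
        (PadicAlgCl q ≃ₐ[ℚ_[q]] PadicAlgCl q) → (PadicAlgCl q)ˣ),
      IsMulCocycle₂ x → loc_Lev₂ x → loc_IsLevCob (x ^ p) →
      (inv x = 0 ↔ loc_IsLevCob x))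
    (hnorm : inv (loc_u ℚ_[q] (PadicAlgCl q) p (rec_qUnit q)) = 1)
    (x : (PadicAlgCl q ≃ₐ[ℚ_[q]] PadicAlgCl q) × (PadicAlgCl q ≃ₐ[ℚ_[q]] PadicAlgCl q) →
        (PadicAlgCl q)ˣ)
    (hx : IsMulCocycle₂ x) (hxl : loc_Lev₂ x) (hxp : loc_IsLevCob (x ^ p)) :
    loc_IsLevCob (x / loc_u ℚ_[q] (PadicAlgCl q) p (rec_qUnit q) ^ (inv x).val) :=
  rec_normal_form_abs (rec_cobSub ℚ_[q] (PadicAlgCl q)) (rec_zSub ℚ_[q] (PadicAlgCl q) p) p inv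
    (fun x y hx hy => hmul x y hx.1 hx.2.1 hx.2.2 hy.1 hy.2.1 hy.2.2)
    (fun x hx => hker x hx.1 hx.2.1 hx.2.2) _ (rec_u_mem_zSub ℚ_[q] (PadicAlgCl q) p (rec_qUnit q))
    hnorm x ⟨hx, hxl, hxp⟩

/-- The basic class is not a level coboundary. -/
theorem rec_u_not_cob
    (inv : ((PadicAlgCl q ≃ₐ[ℚ_[q]] PadicAlgCl q) × (PadicAlgCl q ≃ₐ[ℚ_[q]] PadicAlgCl q) →
        (PadicAlgCl q)ˣ) → ZMod p)
    (hker : ∀ (x : (PadicAlgCl q ≃ₐ[ℚ_[q]] PadicAlgCl q) ×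
        (PadicAlgCl q ≃ₐ[ℚ_[q]] PadicAlgCl q) → (PadicAlgCl q)ˣ),
      IsMulCocycle₂ x → loc_Lev₂ x → loc_IsLevCob (x ^ p) →
      (inv x = 0 ↔ loc_IsLevCob x))
    (hnorm : inv (loc_u ℚ_[q] (PadicAlgCl q) p (rec_qUnit q)) = 1) :
    ¬ loc_IsLevCob (loc_u ℚ_[q] (PadicAlgCl q) p (rec_qUnit q)) := by
  intro h
  have hU := rec_u_mem_zSub ℚ_[q] (PadicAlgCl q) p (rec_qUnit q)
  have h0 := (hker _ hU.1 hU.2.1 hU.2.2).2 h
  rw [hnorm] at h0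
  exact one_ne_zero h0

/-- **The congruence at an unramified prime.** -/
theorem rec_local_cong (m d : ℕ) [NeZero d]
    (x : (PadicAlgCl q ≃ₐ[ℚ_[q]] PadicAlgCl q) × (PadicAlgCl q ≃ₐ[ℚ_[q]] PadicAlgCl q) →
        (PadicAlgCl q)ˣ) (k : ℕ)
    (hx : loc_IsLevCob (x / loc_u ℚ_[q] (PadicAlgCl q) p (rec_qUnit q) ^ k))
    (hU : ¬ loc_IsLevCob (loc_u ℚ_[q] (PadicAlgCl q) p (rec_qUnit q)))
    (t : ZMod (p * p ^ m)) (χq : (PadicAlgCl q ≃ₐ[ℚ_[q]] PadicAlgCl q) → ZMod (p * p ^ m))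
    (hχq : ∀ g, χq g =
      t * ((loc_chi ℚ_[q] (PadicAlgCl q) (p * (p ^ m * d)) g).val : ZMod (p * p ^ m)))
    (b : ℚˣ) (B : (PadicAlgCl q)ˣ) (hB : (B : PadicAlgCl q) = ((b : ℚ) : PadicAlgCl q))
    (hy : loc_IsLevCob (x / loc_ucoc (p * p ^ m) χq B)) :
    ((p ^ (m + 1) : ℕ) : ℤ) ∣ padicValRat q (b : ℚ) * (t.val : ℤ) - (p ^ m : ℕ) * (k : ℤ) := by
  obtain ⟨u, hu, hbu⟩ := rec_padic_decomp q b
  set v : ℤ := padicValRat q (b : ℚ) with hv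
  set U := loc_u ℚ_[q] (PadicAlgCl q) p (rec_qUnit q) with hUdef
  obtain ⟨W, hW1, hW2⟩ := rec_local_unram ℚ_[q] (PadicAlgCl q) p m d t (rec_qUnit q) u hu v
    (fun g => ((loc_chi ℚ_[q] (PadicAlgCl q) (p * (p ^ m * d)) g).val : ZMod (p * p ^ m)))
    (fun g => rfl)
  have hχfun : χq = fun g =>
      t * ((loc_chi ℚ_[q] (PadicAlgCl q) (p * (p ^ m * d)) g).val : ZMod (p * p ^ m)) :=
    funext hχq
  have hBeq : B = Units.map (algebraMap ℚ_[q] (PadicAlgCl q) : ℚ_[q] →* PadicAlgCl q)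
      (rec_qUnit q ^ v * u) := by
    rw [← hbu]
    apply Units.ext
    rw [hB]
    simp
  rw [← hχfun, ← hBeq] at hW2
  -- work in the quotient by the subgroup of level coboundaries
  set Bs := rec_cobSub ℚ_[q] (PadicAlgCl q) with hBs
  have h1 : x / U ^ k ∈ Bs := hx
  have h2 : x / loc_ucoc (p * p ^ m) χq B ∈ Bs := hy
  have h3 : W ^ p ^ m / U ∈ Bs := hW1
  have h4 : loc_ucoc (p * p ^ m) χq B / W ^ (v * (t.val : ℤ)) ∈ Bs := hW2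
  have hUp : U ^ p ∈ Bs := (rec_u_mem_zSub ℚ_[q] (PadicAlgCl q) p (rec_qUnit q)).2.2
  have hD : W ^ (v * (t.val : ℤ) - (p ^ m : ℕ) * (k : ℤ)) ∈ Bs := by
    have h5 : (W ^ p ^ m / U) ^ k ∈ Bs := Bs.pow_mem h3 k
    have h6 : (x / U ^ k)⁻¹ * (x / loc_ucoc (p * p ^ m) χq B) *
        (loc_ucoc (p * p ^ m) χq B / W ^ (v * (t.val : ℤ))) * (W ^ p ^ m / U) ^ k ∈ Bs :=
      Bs.mul_mem (Bs.mul_mem (Bs.mul_mem (Bs.inv_mem h1) h2) h4) h5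
    have h7 : (x / U ^ k)⁻¹ * (x / loc_ucoc (p * p ^ m) χq B) *
        (loc_ucoc (p * p ^ m) χq B / W ^ (v * (t.val : ℤ))) * (W ^ p ^ m / U) ^ k =
        (W ^ (v * (t.val : ℤ) - (p ^ m : ℕ) * (k : ℤ)))⁻¹ := by
      have e1 : W ^ (v * (t.val : ℤ) - (p ^ m : ℕ) * (k : ℤ)) =
          W ^ (v * (t.val : ℤ)) / (W ^ p ^ m) ^ k := by
        have e2 : W ^ (((p ^ m : ℕ) : ℤ) * (k : ℤ)) = (W ^ p ^ m) ^ k := by
          rw [zpow_mul, zpow_natCast, zpow_natCast]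
        rw [zpow_sub, e2, div_eq_mul_inv]
      rw [e1, div_pow, inv_div, inv_div, div_mul_div_cancel, div_mul_div_cancel, mul_comm,
        div_mul_div_cancel]
    rw [h7] at h6
    exact (Bs.inv_mem_iff).1 h6
  exact rec_order_lemma Bs p m (Fact.out : p.Prime) W U h3 hUp hU _ hD

end

end Fermat.Agent.S55
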