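import Fermat.Agent.S55.TrInst
import Fermat.Agent.S55.RecField
import Fermat.Agent.S55.RecLocNorm

/-!
# S55, block REC (M4): local triviality at `q` of the carry cocycle ⟹ local norm

`rec_norm_at`: if the carry cocycle `loc_ucoc n (χ ∘ ι_q) b` of the global character `χ` (attached
to the cyclic field `recField ℚ Q H`) is a level coboundary on `Gal(ℚ̄_q/ℚ_q)`, then `b` is a
local norm from `recField ℚ Q H` at `q` (in the `ksiNorm` form).
-/

set_option autoImplicit false
open ExtCitation IsDedekindDomain NumberField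
namespace Fermat.Agent.S55

local notation "Qb" => AlgebraicClosure ℚ
local notation "Γ" => (AlgebraicClosure ℚ ≃ₐ[ℚ] AlgebraicClosure ℚ)

/-- M4: local triviality at `q` of the carry cocycle of `χ` ⟹ `b` is a local norm. -/
theorem rec_norm_at (q : ℕ) [Fact q.Prime] (Q : ℕ) [NeZero Q] (H : Subgroup (ZMod Q)ˣ)
    (n : ℕ) [NeZero n] (χ : Γ → ZMod n) (e : (ZMod Q)ˣ ⧸ H ≃* Multiplicative (ZMod n))
    (j : recField ℚ Q H →ₐ[ℚ] Qb)
    (hχj : ∀ (g : Γ) (s : recField ℚ Q H ≃ₐ[ℚ] recField ℚ Q H), (∀ x, j (s x) = g (j x)) →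
        χ g = Multiplicative.toAdd (e (recPhi ℚ Q H s)))
    (b : ℚˣ)
    (hcob : loc_IsLevCob (K := ℚ_[q]) (loc_ucoc n (fun y => χ (localGaloisToGlobal q y))
      (Units.map ((padicEmbedding q : Qb →+* PadicAlgCl q) : Qb →* PadicAlgCl q)
        (Units.map (algebraMap ℚ Qb : ℚ →* Qb) b))))
    (σ : ℚ →+* PadicAlgCl q) (m : ℕ) :
    b ∈ ksiNorm ℚ (recField ℚ Q H) (linf_prime q σ) m := by
  set τ : recField ℚ Q H →+* PadicAlgCl q :=
    ((padicEmbedding q : Qb →+* PadicAlgCl q)).comp (j : recField ℚ Q H →+* Qb) with hτ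
  have hσ : σ = τ.comp (algebraMap ℚ (recField ℚ Q H)) := Subsingleton.elim _ _
  rw [hσ]
  obtain ⟨θ, ⟨M, hM, hθ⟩, hθeq⟩ := hcob
  have hkey : ∀ (g : PadicAlgCl q ≃ₐ[ℚ_[q]] PadicAlgCl q)
      (s : recField ℚ Q H ≃ₐ[ℚ] recField ℚ Q H), (∀ y, τ (s y) = g (τ y)) →
      χ (localGaloisToGlobal q g) = Multiplicative.toAdd (e (recPhi ℚ Q H s)) := by
    intro g s hs
    refine hχj _ s (fun x => ?_)
    apply (padicEmbedding q).injective
    show padicEmbedding q (j (s x)) = padicEmbedding q (localGaloisToGlobal q g (j x))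
    rw [padicEmbedding_localGaloisToGlobal]
    exact hs x
  have hgal : IsGalois ℚ ↥(recField ℚ Q H) := rec_isGalois_field ℚ Q H
  refine rec_local_norm q τ n (fun s => Multiplicative.toAdd (e (recPhi ℚ Q H s))) ?_ ?_ b θ
    ⟨M, hM, fun g s hs => hθ.1 g s hs⟩ ?_ m
  · intro s s'
    have h : recPhi ℚ Q H (s * s') = recPhi ℚ Q H s * recPhi ℚ Q H s' :=
      map_mul (recPhi ℚ Q H) s s'
    rw [h, map_mul, toAdd_mul]
  · intro s hs
    have h1 : e (recPhi ℚ Q H s) = 1 := by
      apply Multiplicative.toAdd.injective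
      rw [hs, toAdd_one]
    have h2 : recPhi ℚ Q H s = 1 := by
      apply e.injective
      rw [h1, map_one]
    have h3 : recPhi ℚ Q H s = recPhi ℚ Q H 1 := h2.trans (map_one (recPhi ℚ Q H)).symm
    exact recPhi_injective ℚ Q H h3
  · intro g h s s' hs hs'
    have h3 := congrFun hθeq (g, h)
    rw [loc_ucoc_apply, loc_d₁_apply, hkey g s hs, hkey h s' hs'] at h3
    have h4 := congrArg (fun u : (PadicAlgCl q)ˣ => (u : PadicAlgCl q)) h3
    simp only [Units.val_pow_eq_pow_val, Units.coe_map, MonoidHom.coe_coe, Units.val_mul,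
      Units.val_div_eq_div_val, AlgEquiv.smul_units_def] at h4
    have h5 : τ (algebraMap ℚ (recField ℚ Q H) (b : ℚ)) =
        padicEmbedding q (algebraMap ℚ Qb (b : ℚ)) := by
      rw [hτ]
      simp
    rw [h5]
    rw [show (padicEmbedding q : Qb →+* PadicAlgCl q) (algebraMap ℚ Qb (b : ℚ)) =
      padicEmbedding q (algebraMap ℚ Qb (b : ℚ)) from rfl] at h4
    rw [h4]
    ring

end Fermat.Agent.S55
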