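import Mathlib
import Fermat.Agent.S55.RecField
import Fermat.Agent.S55.LocInfVal

/-!
# S55 block REC, R4: cyclic reciprocity over `ℚ` in terms of rational primes

`rec_cyclic_rat` : `rec_cyclic_field` for `k = ℚ`, with the product over the primes of `𝓞 ℚ`
rewritten as a product over rational primes: `N(v) = q`, `v(b) = exp(-padicValRat q b)`, and
every prime of `𝓞 ℚ` over `q` is `linf_prime q σ`.
-/

set_option autoImplicit false

open NumberField IsDedekindDomain Rat.HeightOneSpectrum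

namespace Fermat.Agent.S55

/-- The rational prime below a prime `v` of `𝓞 ℚ` divides `n` iff `n ∈ v`. -/
theorem recrat_dvd_iff (v : HeightOneSpectrum (𝓞 ℚ)) (n : ℕ) :
    natGenerator v ∣ n ↔ (n : 𝓞 ℚ) ∈ v.asIdeal := by
  rw [natGenerator_dvd_iff]
  exact map_natCast (Rat.IsIntegralClosure.intEquiv (𝓞 ℚ)) n ▸ Ideal.apply_mem_of_equiv_iff

/-- A prime of `𝓞 ℚ` is generated by its rational prime. -/
theorem recrat_asIdeal (v : HeightOneSpectrum (𝓞 ℚ)) :
    v.asIdeal = Ideal.span {((natGenerator v : ℕ) : 𝓞 ℚ)} := by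
  have h := span_natGenerator v
  ext x
  rw [← Ideal.apply_mem_of_equiv_iff (f := Rat.IsIntegralClosure.intEquiv (𝓞 ℚ)), ← h,
    Ideal.mem_span_singleton, Ideal.mem_span_singleton]
  constructor
  · rintro ⟨c, hc⟩
    refine ⟨(Rat.IsIntegralClosure.intEquiv (𝓞 ℚ)).symm c, ?_⟩
    apply (Rat.IsIntegralClosure.intEquiv (𝓞 ℚ)).injective
    rw [map_mul, map_natCast, RingEquiv.apply_symm_apply, hc]
  · rintro ⟨c, rfl⟩
    refine ⟨Rat.IsIntegralClosure.intEquiv (𝓞 ℚ) c, ?_⟩
    rw [map_mul, map_natCast]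

/-- The absolute norm of a prime of `𝓞 ℚ` is its rational prime. -/
theorem recrat_absNorm (v : HeightOneSpectrum (𝓞 ℚ)) :
    Ideal.absNorm v.asIdeal = natGenerator v := by
  conv_lhs => rw [recrat_asIdeal v]
  rw [Ideal.absNorm_span_natCast, RingOfIntegers.rank, Module.finrank_self, pow_one]

/-- The prime of `𝓞 ℚ` cut out by an embedding into `PadicAlgCl q` lies over `q`. -/
theorem recrat_linf (q : ℕ) [Fact q.Prime] (σ : ℚ →+* PadicAlgCl q) :
    natGenerator (linf_prime q σ) = q := by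
  have h1 : natGenerator (linf_prime q σ) ∣ q :=
    (recrat_dvd_iff _ q).2 (linf_natCast_mem q σ)
  exact (Nat.prime_dvd_prime_iff_eq (prime_natGenerator _) Fact.out).1 h1

/-- Every prime of `𝓞 ℚ` is cut out by any embedding into `PadicAlgCl q`, `q` its rational
prime. -/
theorem recrat_eq_linf (v : HeightOneSpectrum (𝓞 ℚ)) (q : ℕ) [Fact q.Prime]
    (hq : natGenerator v = q) (σ : ℚ →+* PadicAlgCl q) : linf_prime q σ = v := by
  apply (primesEquiv (R := 𝓞 ℚ)).injective
  apply Subtype.ext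
  show natGenerator (linf_prime q σ) = natGenerator v
  rw [recrat_linf, hq]

/-- The valuation of a natural number at a prime of `𝓞 ℚ`. -/
theorem recrat_valuation_natCast (v : HeightOneSpectrum (𝓞 ℚ)) (n : ℕ) (hn : n ≠ 0) :
    v.valuation ℚ (n : ℚ) = WithZero.exp (-(padicValNat (natGenerator v) n : ℤ)) := by
  have hqp : (natGenerator v).Prime := prime_natGenerator v
  have : Fact (natGenerator v).Prime := ⟨hqp⟩
  obtain ⟨k, m, hm, rfl⟩ := Nat.exists_eq_pow_mul_and_not_dvd hn (natGenerator v) hqp.ne_one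
  have hm0 : m ≠ 0 := by
    rintro rfl
    simp at hn
  have hq0 : ((natGenerator v : ℕ) : 𝓞 ℚ) ≠ 0 := by
    exact_mod_cast hqp.ne_zero
  have h1 : v.valuation ℚ ((natGenerator v : ℕ) : ℚ) = WithZero.exp (-1 : ℤ) := by
    have : ((natGenerator v : ℕ) : ℚ) = algebraMap (𝓞 ℚ) ℚ ((natGenerator v : ℕ) : 𝓞 ℚ) := by
      rw [map_natCast]
    rw [this, HeightOneSpectrum.valuation_of_algebraMap,
      HeightOneSpectrum.intValuation_singleton v hq0 (recrat_asIdeal v)]
  have h2 : v.valuation ℚ (m : ℚ) = 1 := by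
    have : (m : ℚ) = algebraMap (𝓞 ℚ) ℚ (m : 𝓞 ℚ) := by rw [map_natCast]
    rw [this, HeightOneSpectrum.valuation_eq_one_iff_notMem, ← recrat_dvd_iff]
    exact hm
  have h3 : padicValNat (natGenerator v) (natGenerator v ^ k * m) = k := by
    rw [padicValNat.mul (pow_ne_zero k hqp.ne_zero) hm0, padicValNat.prime_pow,
      padicValNat.eq_zero_of_not_dvd hm, add_zero]
  rw [h3]
  push_cast
  rw [map_mul, map_pow, h1, h2, mul_one, ← WithZero.exp_nsmul]
  simp

/-- The valuation of a nonzero rational number at a prime of `𝓞 ℚ`. -/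
theorem recrat_log_valuation (v : HeightOneSpectrum (𝓞 ℚ)) (x : ℚ) (hx : x ≠ 0) :
    WithZero.log (v.valuation ℚ x) = -padicValRat (natGenerator v) x := by
  have hnum : x.num ≠ 0 := Rat.num_ne_zero.2 hx
  have hden : x.den ≠ 0 := x.den_nz
  have hnat : x.num.natAbs ≠ 0 := Int.natAbs_ne_zero.2 hnum
  have h1 : v.valuation ℚ x =
      v.valuation ℚ (x.num.natAbs : ℚ) / v.valuation ℚ (x.den : ℚ) := by
    conv_lhs => rw [← Rat.num_div_den x]
    rw [map_div₀]
    congr 1
    have key : ∀ z : ℤ, v.valuation ℚ ((z : ℤ) : ℚ) = v.valuation ℚ ((z.natAbs : ℕ) : ℚ) := by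
      intro z
      obtain ⟨m, rfl | rfl⟩ := Int.eq_nat_or_neg z
      · simp
      · simp [Valuation.map_neg]
    exact key x.num
  rw [h1, recrat_valuation_natCast v _ hnat, recrat_valuation_natCast v _ hden,
    ← WithZero.exp_sub, WithZero.log_exp]
  simp only [padicValRat, padicValInt]
  ring

/-- **R4: cyclic reciprocity over `ℚ`**, in terms of rational primes. -/
theorem rec_cyclic_rat (Q : ℕ) [NeZero Q] (H : Subgroup (ZMod Q)ˣ) (hH : (-1 : (ZMod Q)ˣ) ∈ H)
    (b : ℚˣ)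
    (hb : ∀ (q : ℕ) [Fact q.Prime], q ∣ Q → ∀ (σ : ℚ →+* PadicAlgCl q) (m : ℕ),
      b ∈ ksiNorm ℚ (recField ℚ Q H) (linf_prime q σ) m)
    (P : Finset ℕ) (hP : ∀ q ∈ P, q.Prime)
    (hPb : ∀ q : ℕ, q.Prime → ¬ q ∣ Q → padicValRat q (b : ℚ) ≠ 0 → q ∈ P) :
    ∏ q ∈ P, recPsi Q (QuotientGroup.mk' H) q ^ padicValRat q (b : ℚ) =
      (1 : (ZMod Q)ˣ ⧸ H) := by
  classical
  have h := rec_cyclic_field ℚ Q H hH b (fun v hv n => by
    have hqp : (natGenerator v).Prime := prime_natGenerator v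
    have : Fact (natGenerator v).Prime := ⟨hqp⟩
    have hdvd : natGenerator v ∣ Q := (recrat_dvd_iff v Q).2 hv
    have h1 := hb (natGenerator v) hdvd (algebraMap ℚ (PadicAlgCl (natGenerator v))) n
    rwa [recrat_eq_linf v (natGenerator v) rfl] at h1)
  rw [← finprod_comp_equiv (primesEquiv (R := 𝓞 ℚ)).symm] at h
  have hterm : ∀ q : Nat.Primes,
      recPsi Q (M := (ZMod Q)ˣ ⧸ H) (QuotientGroup.mk' H)
          (Ideal.absNorm ((primesEquiv (R := 𝓞 ℚ)).symm q).asIdeal) ^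
        WithZero.log (((primesEquiv (R := 𝓞 ℚ)).symm q).valuation ℚ (b : ℚ)) =
      (recPsi Q (M := (ZMod Q)ˣ ⧸ H) (QuotientGroup.mk' H) (q : ℕ) ^
        padicValRat q (b : ℚ))⁻¹ := by
    intro q
    have hq : natGenerator ((primesEquiv (R := 𝓞 ℚ)).symm q) = (q : ℕ) :=
      congrArg (fun x : Nat.Primes => (x : ℕ)) ((primesEquiv (R := 𝓞 ℚ)).apply_symm_apply q)
    rw [recrat_absNorm, recrat_log_valuation _ _ b.ne_zero, hq]
    exact zpow_neg (recPsi Q (M := (ZMod Q)ˣ ⧸ H) (QuotientGroup.mk' H) (q : ℕ)) _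
  rw [finprod_congr hterm, finprod_inv_distrib, inv_eq_one] at h
  rw [← h]
  symm
  let P' : Finset Nat.Primes := P.attach.map
    ⟨fun x => (⟨x.1, hP x.1 x.2⟩ : Nat.Primes), fun x y hxy => Subtype.ext (by
      have := congrArg (fun z : Nat.Primes => (z : ℕ)) hxy
      exact this)⟩
  have hsub : Function.mulSupport (fun q : Nat.Primes =>
      recPsi Q (M := (ZMod Q)ˣ ⧸ H) (QuotientGroup.mk' H) (q : ℕ) ^ padicValRat q (b : ℚ)) ⊆
      ↑P' := by
    intro q hq
    rw [Function.mem_mulSupport] at hq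
    have hqP : (q : ℕ) ∈ P := by
      apply hPb q q.2
      · intro hdvd
        apply hq
        rw [recPsi, dif_neg, one_zpow]
        intro hcop
        exact q.2.ne_one (Nat.Coprime.eq_one_of_dvd hcop hdvd)
      · intro h0
        apply hq
        rw [h0, zpow_zero]
    rw [Finset.mem_coe, Finset.mem_map]
    exact ⟨⟨(q : ℕ), hqP⟩, Finset.mem_attach _ _, rfl⟩
  rw [finprod_eq_prod_of_mulSupport_subset _ hsub, Finset.prod_map]
  exact Finset.prod_attach P
    (fun q => recPsi Q (M := (ZMod Q)ˣ ⧸ H) (QuotientGroup.mk' H) q ^ padicValRat q (b : ℚ))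

end Fermat.Agent.S55
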