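import Mathlib

/-!
# S55, block REC, piece M5: the final arithmetic of the reciprocity law

`rec_sum_zero` : if `v_q · t_q ≡ p^m · i_q` modulo `p^(m+1)` for all `q ∈ P` and
`∑_q v_q • t_q = 0` in `ZMod (p^(m+1))`, then `∑_q i_q = 0` in `ZMod p`.
-/

set_option autoImplicit false

namespace Fermat.Agent.S55

/-- **M5: the final arithmetic.** -/
theorem rec_sum_zero (p m : ℕ) [Fact p.Prime] (P : Finset ℕ) (i : ℕ → ZMod p) (v : ℕ → ℤ)
    (t : ℕ → ZMod (p * p ^ m))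
    (hcong : ∀ q ∈ P, ((p ^ (m + 1) : ℕ) : ℤ) ∣
      v q * ((t q).val : ℤ) - (p ^ m : ℕ) * ((i q).val : ℤ))
    (hsum : ∑ q ∈ P, v q • t q = 0) : ∑ q ∈ P, i q = 0 := by
  have hp : p.Prime := Fact.out
  have hp0 : p ≠ 0 := hp.ne_zero
  have hN : p * p ^ m = p ^ (m + 1) := by rw [pow_succ, mul_comm]
  have hNZ : NeZero (p * p ^ m) := ⟨by rw [hN]; exact pow_ne_zero _ hp0⟩
  -- the sum of the integers `v q * (t q).val` is divisible by `p ^ (m + 1)`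
  have h1 : ((p ^ (m + 1) : ℕ) : ℤ) ∣ ∑ q ∈ P, v q * ((t q).val : ℤ) := by
    have h2 : ((∑ q ∈ P, v q * ((t q).val : ℤ) : ℤ) : ZMod (p * p ^ m)) = 0 := by
      rw [← hsum]
      push_cast
      refine Finset.sum_congr rfl fun q _ => ?_
      rw [ZMod.natCast_zmod_val, zsmul_eq_mul]
    rw [← hN]
    exact (ZMod.intCast_zmod_eq_zero_iff_dvd _ _).mp h2
  -- hence so is `p ^ m * ∑ (i q).val`
  have h3 : ((p ^ (m + 1) : ℕ) : ℤ) ∣ ∑ q ∈ P, ((p ^ m : ℕ) : ℤ) * ((i q).val : ℤ) := by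
    have h4 : ∑ q ∈ P, ((p ^ m : ℕ) : ℤ) * ((i q).val : ℤ) =
        ∑ q ∈ P, v q * ((t q).val : ℤ) -
          ∑ q ∈ P, (v q * ((t q).val : ℤ) - (p ^ m : ℕ) * ((i q).val : ℤ)) := by
      rw [← Finset.sum_sub_distrib]
      refine Finset.sum_congr rfl fun q _ => ?_
      ring
    rw [h4]
    exact dvd_sub h1 (Finset.dvd_sum hcong)
  rw [← Finset.mul_sum] at h3
  have h5 : (p : ℤ) ∣ ∑ q ∈ P, ((i q).val : ℤ) := by
    have hpm : ((p ^ m : ℕ) : ℤ) ≠ 0 := by exact_mod_cast pow_ne_zero m hp0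
    have h6 : ((p ^ (m + 1) : ℕ) : ℤ) = ((p ^ m : ℕ) : ℤ) * (p : ℤ) := by
      push_cast
      ring
    rw [h6] at h3
    exact (mul_dvd_mul_iff_left hpm).mp h3
  have h7 : ((∑ q ∈ P, ((i q).val : ℤ) : ℤ) : ZMod p) = 0 :=
    (ZMod.intCast_zmod_eq_zero_iff_dvd _ _).mpr h5
  rw [← h7]
  push_cast
  refine Finset.sum_congr rfl fun q _ => ?_
  rw [ZMod.natCast_zmod_val]

end Fermat.Agent.S55
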