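import Fermat.Agent.S55.TrInst
import Fermat.Agent.S55.CycChar
import Fermat.Agent.S55.RecField
import Fermat.Agent.S55.RecLoc
import Fermat.Agent.S55.RecDefs
import Fermat.Agent.S55.RecLocQ
import Fermat.Agent.S55.RecChar
import Fermat.Agent.S55.RecRat
import Fermat.Agent.S55.RecInput
import Fermat.Agent.S55.RecGlobal
import Fermat.Agent.S55.RecChiLoc
import Fermat.Agent.S55.RecNormAt
import Fermat.Agent.S55.RecSum

/-!
# S55, block REC: the reciprocity law over `ℚ` for `μ_p`-valued 2-cocycles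

`rec_recip`: for a finite-level 2-cocycle `z` of `Gal(ℚ̄/ℚ)` with coefficients `𝔽_p(1)`, the sum
over all primes `q` of the local invariants of `ζ ^ z` restricted to `Gal(ℚ̄_q/ℚ_q)` vanishes —
for any family of local invariants `inv q` which is additive, has kernel the level coboundaries,
is normalised by `inv q (loc_u ℚ_q Ω_q p q) = 1`, and vanishes on unramified classes.
-/

set_option autoImplicit false
open ExtCitation IsDedekindDomain NumberField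
namespace Fermat.Agent.S55

local notation "Qb" => AlgebraicClosure ℚ
local notation "Γ" => (AlgebraicClosure ℚ ≃ₐ[ℚ] AlgebraicClosure ℚ)

open groupCohomology

section res

variable (q : ℕ) [Fact q.Prime]

theorem rec_res₂_mul (a a' : Γ × Γ → Qbˣ) :
    rec_res₂ q (a * a') = rec_res₂ q a * rec_res₂ q a' := by
  funext x
  simp only [rec_res₂, Pi.mul_apply, map_mul]

theorem rec_res₂_ucoc (n : ℕ) (χ : Γ → ZMod n) (B : Qbˣ) :
    rec_res₂ q (loc_ucoc n χ B) =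
      loc_ucoc n (fun y => χ (localGaloisToGlobal q y))
        (Units.map ((padicEmbedding q : Qb →+* PadicAlgCl q) : Qb →* PadicAlgCl q) B) := by
  funext x
  simp only [rec_res₂, loc_ucoc, map_pow]

end res

/-- **Reciprocity, core form**: primes indexed by `ℕ`, cocycle `a` with values in `ℚ̄ˣ`. -/
theorem rec_recip_core (p : ℕ) [Fact p.Prime] (hp2 : p ≠ 2)
    (inv : ∀ (q : ℕ) [Fact q.Prime],
      ((PadicAlgCl q ≃ₐ[ℚ_[q]] PadicAlgCl q) × (PadicAlgCl q ≃ₐ[ℚ_[q]] PadicAlgCl q) →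
        (PadicAlgCl q)ˣ) → ZMod p)
    (hmul : ∀ (q : ℕ) [Fact q.Prime] (x y : (PadicAlgCl q ≃ₐ[ℚ_[q]] PadicAlgCl q) ×
        (PadicAlgCl q ≃ₐ[ℚ_[q]] PadicAlgCl q) → (PadicAlgCl q)ˣ),
      IsMulCocycle₂ x → loc_Lev₂ x → loc_IsLevCob (x ^ p) →
      IsMulCocycle₂ y → loc_Lev₂ y → loc_IsLevCob (y ^ p) →
      inv q (x * y) = inv q x + inv q y)
    (hker : ∀ (q : ℕ) [Fact q.Prime] (x : (PadicAlgCl q ≃ₐ[ℚ_[q]] PadicAlgCl q) ×
        (PadicAlgCl q ≃ₐ[ℚ_[q]] PadicAlgCl q) → (PadicAlgCl q)ˣ),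
      IsMulCocycle₂ x → loc_Lev₂ x → loc_IsLevCob (x ^ p) →
      (inv q x = 0 ↔ loc_IsLevCob x))
    (hnorm : ∀ (q : ℕ) [Fact q.Prime],
      inv q (loc_u ℚ_[q] (PadicAlgCl q) p (rec_qUnit q)) = 1)
    (a : Γ × Γ → Qbˣ) (ha : IsMulCocycle₂ a)
    (F : IntermediateField ℚ Qb) [FiniteDimensional ℚ F] [IsGalois ℚ F]
    (hlev : ∀ g h s t, s ∈ F.fixingSubgroup → t ∈ F.fixingSubgroup → a (g * s, h * t) = a (g, h))
    (hval : ∀ x, ((a x : Qbˣ) : Qb) ∈ F)
    (htors : ∀ x, a x ^ p = 1)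
    (T : Finset ℕ) (hT : ∀ q ∈ T, q.Prime)
    (i : ℕ → ZMod p) (hi : ∀ (q : ℕ) [Fact q.Prime], i q = inv q (rec_res₂ q a))
    (hout : ∀ (q : ℕ) [Fact q.Prime], q ∉ T → inv q (rec_res₂ q a) = 0) :
    ∑ q ∈ T, i q = 0 := by
  classical
  have hp : p.Prime := Fact.out
  rcases T.eq_empty_or_nonempty with hTe | hTne
  · rw [hTe, Finset.sum_empty]
  obtain ⟨Q, hQ, H, -, -, hQpos, hQT, hcyc, ⟨m, hcard⟩, hord⟩ :=
    cyc_exists_character p hp hp2 1 T hT
  have : NeZero Q := ⟨hQpos.ne'⟩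
  -- `m ≠ 0`
  obtain ⟨ℓ₀, hℓ₀⟩ := hTne
  have hm0 : m ≠ 0 := by
    rintro rfl
    have h1 := hord ℓ₀ hℓ₀
    rw [pow_one] at h1
    have h2 : orderOf (QuotientGroup.mk (ZMod.unitOfCoprime ℓ₀ (hQ ℓ₀ hℓ₀)) : (ZMod Q)ˣ ⧸ H) ∣
        Nat.card ((ZMod Q)ˣ ⧸ H) := orderOf_dvd_natCard _
    rw [hcard, pow_zero] at h2
    exact hp.one_lt.ne' (Nat.dvd_one.1 (h1.trans h2))
  obtain ⟨m', rfl⟩ := Nat.exists_eq_succ_of_ne_zero hm0
  have hcard' : Nat.card ((ZMod Q)ˣ ⧸ H) = p * p ^ m' := by rw [hcard, pow_succ']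
  have : NeZero (p * p ^ m') := ⟨mul_ne_zero hp.ne_zero (pow_ne_zero _ hp.ne_zero)⟩
  obtain ⟨χ, e, K, j, σ, hKfd, hKgal, hχadd, hχσ, hχker, hχj, hχcyc⟩ :=
    rec_exists_char Q H hcyc (p * p ^ m') hcard'
  have := hKfd
  have := hKgal
  set f : (ZMod Q)ˣ →* Multiplicative (ZMod (p * p ^ m')) :=
    e.toMonoidHom.comp (QuotientGroup.mk' H) with hf
  have hfcyc : ∀ (g : Γ) (a : ℕ) (ha : a.Coprime Q), (∀ ξ : Qb, ξ ^ Q = 1 → g ξ = ξ ^ a) →
      χ g = Multiplicative.toAdd (f (ZMod.unitOfCoprime a ha)) := hχcyc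
  have hordf : ∀ ℓ (hℓ : ℓ ∈ T), p ∣ orderOf (f (ZMod.unitOfCoprime ℓ (hQ ℓ hℓ))) := by
    intro ℓ hℓ
    have h1 := hord ℓ hℓ
    rw [pow_one] at h1
    have h2 : orderOf (f (ZMod.unitOfCoprime ℓ (hQ ℓ hℓ))) =
        orderOf (QuotientGroup.mk (ZMod.unitOfCoprime ℓ (hQ ℓ hℓ)) : (ZMod Q)ˣ ⧸ H) :=
      MulEquiv.orderOf_eq e _
    rw [h2]
    exact h1
  -- local data
  have hxz : ∀ (q : ℕ) [Fact q.Prime], IsMulCocycle₂ (rec_res₂ q a) ∧ loc_Lev₂ (rec_res₂ q a) ∧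
      loc_IsLevCob (rec_res₂ q a ^ p) := by
    intro q _
    refine ⟨rec_res₂_cocycle q a ha, rec_res₂_lev q F a hlev hval, ?_⟩
    have h1 : rec_res₂ q a ^ p = 1 := by
      funext x
      simp only [rec_res₂, Pi.pow_apply, Pi.one_apply, ← map_pow, htors, map_one]
    rw [h1]
    exact loc_isLevCob_one
  have hnf : ∀ (q : ℕ) [Fact q.Prime], loc_IsLevCob
      (rec_res₂ q a / loc_u ℚ_[q] (PadicAlgCl q) p (rec_qUnit q) ^ (i q).val) := by
    intro q _
    rw [hi q]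
    exact rec_local_nf p q (inv q) (hmul q) (hker q) (hnorm q) _ (hxz q).1 (hxz q).2.1 (hxz q).2.2
  have hi0 : ∀ (q : ℕ) [Fact q.Prime], q ∉ T → i q = 0 := fun q _ hq => by
    rw [hi q]
    exact hout q hq
  -- local triviality on `Γ_K`
  have hloc : ∀ (q : ℕ) [Fact q.Prime],
      ∃ θ : (PadicAlgCl q ≃ₐ[ℚ_[q]] PadicAlgCl q) → (PadicAlgCl q)ˣ,
      (∃ M : IntermediateField ℚ_[q] (PadicAlgCl q), FiniteDimensional ℚ_[q] M ∧
        ∀ y s, s ∈ M.fixingSubgroup → θ (y * s) = θ y) ∧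
      ∀ y y', localGaloisToGlobal q y ∈ K.fixingSubgroup →
        localGaloisToGlobal q y' ∈ K.fixingSubgroup →
        padicEmbedding q ((a (localGaloisToGlobal q y, localGaloisToGlobal q y') : Qbˣ) : Qb) =
          (θ y : PadicAlgCl q) * y (θ y' : PadicAlgCl q) / (θ (y * y') : PadicAlgCl q) := by
    intro q _
    obtain ⟨β, ⟨M, hM, hβ⟩, hβeq⟩ := hnf q
    refine ⟨β, ⟨M, hM, fun y s hs => hβ.1 y s hs⟩, fun y y' hy hy' => ?_⟩
    have hU1 : (loc_u ℚ_[q] (PadicAlgCl q) p (rec_qUnit q) ^ (i q).val) (y, y') = 1 := by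
      by_cases hqT : q ∈ T
      · have hc : ∀ y, localGaloisToGlobal q y ∈ K.fixingSubgroup →
            loc_chi ℚ_[q] (PadicAlgCl q) p y = 0 := fun y hy =>
          rec_chi_p_vanish p q Q (hQ q hqT) χ f hfcyc (hordf q hqT) y ((hχker _).2 hy)
        have hcar : loc_carry p (0 : ZMod p) 0 = 0 := by
          simp [loc_carry, hp.ne_zero]
        rw [Pi.pow_apply, loc_u, loc_ucoc_apply, hc y hy, hc y' hy', hcar, pow_zero, one_pow]
      · rw [hi0 q hqT, ZMod.val_zero, pow_zero, Pi.one_apply]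
    have h1 := congrFun hβeq (y, y')
    rw [Pi.div_apply, hU1, div_one, loc_d₁_apply] at h1
    rw [← rec_res₂_apply q a (y, y'), h1, Units.val_mul, Units.val_div_eq_div_val,
      AlgEquiv.smul_units_def, Units.coe_map]
    simp only [MonoidHom.coe_coe]
    ring
  -- global normal form
  obtain ⟨b, βg, F', hF'fd, hβlev, hβval, hglob⟩ :=
    rec_global_nf p hp2 K F χ hχadd hχker σ hχσ a ha hlev hval htors hloc
  have := hF'fd
  set Bg : Qbˣ := Units.map (algebraMap ℚ Qb : ℚ →* Qb) b with hBg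
  have hY : ∀ (q : ℕ) [Fact q.Prime], loc_IsLevCob
      (rec_res₂ q a / loc_ucoc (p * p ^ m') (fun y => χ (localGaloisToGlobal q y))
        (Units.map ((padicEmbedding q : Qb →+* PadicAlgCl q) : Qb →* PadicAlgCl q) Bg)) := by
    intro q _
    refine ⟨rec_res₁ q βg, rec_res₁_lev q F' βg hβlev hβval, ?_⟩
    have h1 : a = loc_ucoc (p * p ^ m') χ Bg *
        (fun x : Γ × Γ => x.1 • βg x.2 / βg (x.1 * x.2) * βg x.1) := by
      funext ⟨g, h⟩
      exact hglob g h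
    rw [← rec_res₂_d, ← rec_res₂_ucoc]
    conv_lhs => rw [h1]
    rw [rec_res₂_mul, mul_div_cancel_left]
  -- the primes dividing `Q`
  have hnormQ : ∀ (q : ℕ) [Fact q.Prime], q ∣ Q → ∀ (σ' : ℚ →+* PadicAlgCl q) (m : ℕ),
      b ∈ ksiNorm ℚ (recField ℚ Q H) (linf_prime q σ') m := by
    intro q _ hqQ σ' m
    have hqT : q ∉ T := (hQT q Fact.out hqQ).2
    have hx0 : loc_IsLevCob (rec_res₂ q a) :=
      (hker q _ (hxz q).1 (hxz q).2.1 (hxz q).2.2).1 (hout q hqT)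
    have hcob : loc_IsLevCob (loc_ucoc (p * p ^ m') (fun y => χ (localGaloisToGlobal q y))
        (Units.map ((padicEmbedding q : Qb →+* PadicAlgCl q) : Qb →* PadicAlgCl q) Bg)) := by
      have h1 := loc_IsLevCob.mul hx0 (loc_IsLevCob.inv (hY q))
      rwa [inv_div, mul_div_cancel] at h1
    exact rec_norm_at q Q H (p * p ^ m') χ e j hχj b hcob σ' m
  -- the primes not dividing `Q`
  set tq : ℕ → ZMod (p * p ^ m') := fun q =>
    Multiplicative.toAdd (e (recPsi Q (QuotientGroup.mk' H) q)) with htq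
  have hcong : ∀ q, q.Prime → ((p ^ (m' + 1) : ℕ) : ℤ) ∣
      padicValRat q (b : ℚ) * ((tq q).val : ℤ) - (p ^ m' : ℕ) * ((i q).val : ℤ) := by
    intro q hqp
    have : Fact q.Prime := ⟨hqp⟩
    by_cases hqQ : q ∣ Q
    · have h1 : ¬ q.Coprime Q := fun h => hqp.one_lt.ne' (Nat.Coprime.eq_one_of_dvd h hqQ)
      have h2 : tq q = 0 := by
        show Multiplicative.toAdd (e (recPsi Q (QuotientGroup.mk' H) q)) = _
        rw [recPsi, dif_neg h1, map_one, toAdd_one]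
      have h3 : i q = 0 := hi0 q (hQT q hqp hqQ).2
      rw [h2, h3]
      simp
    · have hcop : q.Coprime Q := (Nat.Prime.coprime_iff_not_dvd hqp).2 hqQ
      have h2 : tq q = Multiplicative.toAdd (f (ZMod.unitOfCoprime q hcop)) := by
        show Multiplicative.toAdd (e (recPsi Q (QuotientGroup.mk' H) q)) = _
        rw [recPsi, dif_pos hcop]
        rfl
      set d := orderOf (ZMod.unitOfCoprime q hcop : (ZMod Q)ˣ) with hd
      have : NeZero d := ⟨(orderOf_pos _).ne'⟩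
      have hN : Q ∣ q ^ (p * (p ^ m' * d)) - 1 := by
        have h3 : (ZMod.unitOfCoprime q hcop : (ZMod Q)ˣ) ^ (p * (p ^ m' * d)) = 1 := by
          rw [← mul_assoc, mul_comm, pow_mul, hd, pow_orderOf_eq_one, one_pow]
        have h4 := congrArg (fun u : (ZMod Q)ˣ => (u : ZMod Q)) h3
        simp only [Units.val_pow_eq_pow_val, ZMod.coe_unitOfCoprime, Units.val_one] at h4
        rw [← ZMod.natCast_eq_zero_iff, Nat.cast_sub (Nat.one_le_pow _ _ hqp.pos), Nat.cast_pow,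
          h4, Nat.cast_one, sub_self]
      exact rec_local_cong p q m' d (rec_res₂ q a) (i q).val (hnf q)
        (rec_u_not_cob p q (inv q) (hker q) (hnorm q)) (tq q)
        (fun y => χ (localGaloisToGlobal q y))
        (fun g => by
          rw [h2]
          exact rec_chi_local q Q hcop χ f hfcyc (p * (p ^ m' * d)) hN g)
        b (Units.map ((padicEmbedding q : Qb →+* PadicAlgCl q) : Qb →* PadicAlgCl q) Bg)
        (by simp [hBg]) (hY q)
  -- the global reciprocity law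
  have hH : (-1 : (ZMod Q)ˣ) ∈ H :=
    rec_neg_one_mem Q H (by rw [hcard]; exact (hp.odd_of_ne_two hp2).pow)
  set P : Finset ℕ := T ∪ ((b : ℚ).num.natAbs.primeFactors ∪ (b : ℚ).den.primeFactors) with hP
  have hPprime : ∀ q ∈ P, q.Prime := by
    intro q hq
    rw [hP, Finset.mem_union, Finset.mem_union] at hq
    rcases hq with hq | hq | hq
    · exact hT q hq
    · exact Nat.prime_of_mem_primeFactors hq
    · exact Nat.prime_of_mem_primeFactors hq
  have hPb : ∀ q : ℕ, q.Prime → ¬ q ∣ Q → padicValRat q (b : ℚ) ≠ 0 → q ∈ P := by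
    intro q hqp _ hv
    rw [hP, Finset.mem_union, Finset.mem_union]
    by_contra hcon
    rw [not_or, not_or] at hcon
    obtain ⟨-, hnum, hden⟩ := hcon
    have hb0 : (b : ℚ) ≠ 0 := b.ne_zero
    have hnum0 : (b : ℚ).num.natAbs ≠ 0 := Int.natAbs_ne_zero.2 (Rat.num_ne_zero.2 hb0)
    have h1 : ¬ q ∣ (b : ℚ).num.natAbs := fun h =>
      hnum (Nat.mem_primeFactors.2 ⟨hqp, h, hnum0⟩)
    have h2 : ¬ q ∣ (b : ℚ).den := fun h =>
      hden (Nat.mem_primeFactors.2 ⟨hqp, h, (b : ℚ).den_ne_zero⟩)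
    apply hv
    rw [padicValRat, padicValInt, padicValNat.eq_zero_of_not_dvd h1,
      padicValNat.eq_zero_of_not_dvd h2]
    simp
  have hR4 := rec_cyclic_rat Q H hH b hnormQ P hPprime hPb
  have hsum : ∑ q ∈ P, padicValRat q (b : ℚ) • tq q = 0 := by
    have h1 := congrArg (fun y => Multiplicative.toAdd (e y)) hR4
    simp only [map_prod, map_zpow, toAdd_prod, toAdd_zpow, map_one, toAdd_one] at h1
    exact h1
  have hfin := rec_sum_zero p m' P i (fun q => padicValRat q (b : ℚ)) tq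
    (fun q hq => hcong q (hPprime q hq)) hsum
  rw [← hfin]
  refine Finset.sum_subset Finset.subset_union_left (fun q hqP hqT => ?_)
  have : Fact q.Prime := ⟨hPprime q hqP⟩
  exact hi0 q hqT

/-- **The reciprocity law over `ℚ`**, in the shape consumed by `tri_Arith.recip`. -/
theorem rec_recip (p : ℕ) [Fact p.Prime] (hp2 : p ≠ 2) (ζ : Qbˣ)
    (hζ : IsPrimitiveRoot ζ p)
    (inv : ∀ (q : ℕ) [Fact q.Prime],
      ((PadicAlgCl q ≃ₐ[ℚ_[q]] PadicAlgCl q) × (PadicAlgCl q ≃ₐ[ℚ_[q]] PadicAlgCl q) →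
        (PadicAlgCl q)ˣ) → ZMod p)
    (hmul : ∀ (q : ℕ) [Fact q.Prime] (x y : (PadicAlgCl q ≃ₐ[ℚ_[q]] PadicAlgCl q) ×
        (PadicAlgCl q ≃ₐ[ℚ_[q]] PadicAlgCl q) → (PadicAlgCl q)ˣ),
      IsMulCocycle₂ x → loc_Lev₂ x → loc_IsLevCob (x ^ p) →
      IsMulCocycle₂ y → loc_Lev₂ y → loc_IsLevCob (y ^ p) →
      inv q (x * y) = inv q x + inv q y)
    (hker : ∀ (q : ℕ) [Fact q.Prime] (x : (PadicAlgCl q ≃ₐ[ℚ_[q]] PadicAlgCl q) ×
        (PadicAlgCl q ≃ₐ[ℚ_[q]] PadicAlgCl q) → (PadicAlgCl q)ˣ),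
      IsMulCocycle₂ x → loc_Lev₂ x → loc_IsLevCob (x ^ p) →
      (inv q x = 0 ↔ loc_IsLevCob x))
    (hnorm : ∀ (q : ℕ) [Fact q.Prime],
      inv q (loc_u ℚ_[q] (PadicAlgCl q) p (rec_qUnit q)) = 1)
    (hunr : ∀ q : Nat.Primes, (q : ℕ) ≠ p →
      ∀ e : hc_C2 (pt_localLev (primeLocalToGlobal q))
        ((dual_rhoT (cycloChar p)).comp (primeLocalToGlobal q)),
      hc_IsLev2 ((dual_rhoT (cycloChar p)).comp (primeLocalToGlobal q)) (tri_I q)
        (e : primeLocalGaloisGroup q × primeLocalGaloisGroup q → ZMod p) →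
      hc_d23 (pt_localLev (primeLocalToGlobal q))
        ((dual_rhoT (cycloChar p)).comp (primeLocalToGlobal q)) e = 0 →
      @inv q ⟨q.2⟩ (@rec_locExp p ζ q ⟨q.2⟩
        (e : primeLocalGaloisGroup q × primeLocalGaloisGroup q → ZMod p)) = 0)
    (z : hc_C2 tr_fullLev (dual_rhoT (cycloChar p)))
    (hz : hc_d23 tr_fullLev (dual_rhoT (cycloChar p)) z = 0) :
    ∑ᶠ q : Nat.Primes, @inv q ⟨q.2⟩ (@rec_locExp p ζ q ⟨q.2⟩
      (hc_res2 (tri_compat (primeLocalToGlobal q)) (dual_rhoT (cycloChar p)) z :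
        primeLocalGaloisGroup q × primeLocalGaloisGroup q → ZMod p)) = 0 := by
  classical
  have hζp : ζ ^ p = 1 := hζ.pow_eq_one
  obtain ⟨hcoc, F₀, hF₀fd, hF₀gal, hζF₀, hlevz⟩ := rec_input p ζ hζp z hz
  have := hF₀fd
  have := hF₀gal
  obtain ⟨T, hT⟩ := rec_res_unram p z
  set a : Γ × Γ → Qbˣ := fun x => ζ ^ ((z : Γ × Γ → ZMod p) x).val with ha
  have hfun : ∀ q : Nat.Primes, @rec_locExp p ζ q ⟨q.2⟩
      (hc_res2 (tri_compat (primeLocalToGlobal q)) (dual_rhoT (cycloChar p)) z :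
        primeLocalGaloisGroup q × primeLocalGaloisGroup q → ZMod p) = @rec_res₂ q ⟨q.2⟩ a :=
    fun q => rfl
  set i : ℕ → ZMod p := fun q => if h : q.Prime then @inv q ⟨h⟩ (@rec_res₂ q ⟨h⟩ a) else 0
    with hi
  have hiq : ∀ (q : ℕ) [hq : Fact q.Prime], i q = inv q (rec_res₂ q a) := by
    intro q hq
    show (if h : q.Prime then @inv q ⟨h⟩ (@rec_res₂ q ⟨h⟩ a) else 0) = _
    rw [dif_pos hq.out]
  have houtP : ∀ q : Nat.Primes, q ∉ T → @inv q ⟨q.2⟩ (@rec_res₂ q ⟨q.2⟩ a) = 0 := by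
    intro q hq
    rw [← hfun q]
    refine hunr q (hT q hq).1 _ (hT q hq).2 ?_
    rw [← hc_res3_d23, hz, map_zero]
  have hsum : ∀ q : Nat.Primes, @inv q ⟨q.2⟩ (@rec_locExp p ζ q ⟨q.2⟩
      (hc_res2 (tri_compat (primeLocalToGlobal q)) (dual_rhoT (cycloChar p)) z :
        primeLocalGaloisGroup q × primeLocalGaloisGroup q → ZMod p)) = i (q : ℕ) := by
    intro q
    rw [hfun q]
    exact (@hiq q ⟨q.2⟩).symm
  rw [finsum_congr hsum]
  have hsupp : (Function.support fun q : Nat.Primes => i (q : ℕ)) ⊆ (T : Set Nat.Primes) := by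
    intro q hq
    by_contra hqT
    apply hq
    show i (q : ℕ) = 0
    rw [@hiq q ⟨q.2⟩]
    exact houtP q hqT
  rw [finsum_eq_sum_of_support_subset _ hsupp,
    ← Finset.sum_image (s := T) (g := fun q : Nat.Primes => (q : ℕ)) (f := i)
      (fun x _ y _ h => Subtype.ext h)]
  refine rec_recip_core p hp2 inv hmul hker hnorm a hcoc F₀ ?_ ?_ ?_ _ ?_ i
    (fun q _ => hiq q) ?_
  · intro g h s t hs ht
    show ζ ^ _ = ζ ^ _
    rw [hlevz g h s t hs ht]
  · intro x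
    show ((ζ ^ _ : Qbˣ) : Qb) ∈ F₀
    rw [Units.val_pow_eq_pow_val]
    exact pow_mem hζF₀ _
  · intro x
    show (ζ ^ _) ^ p = 1
    rw [← pow_mul, mul_comm, pow_mul, hζp, one_pow]
  · intro q hq
    obtain ⟨q', -, rfl⟩ := Finset.mem_image.1 hq
    exact q'.2
  · intro q hq hqT
    have h1 : (⟨q, hq.out⟩ : Nat.Primes) ∉ T := fun h => hqT (Finset.mem_image.2 ⟨_, h, rfl⟩)
    exact houtP ⟨q, hq.out⟩ h1

end Fermat.Agent.S55
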