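import Fermat.Agent.S55.SUnitRank

/-!
# Galois action on primes, valuations and `S`-units of a number field

`L / k` an extension of number fields, `τ : L ≃ₐ[k] L`.

* `suComap τ w`: the prime `τ⁻¹ w` of `𝓞 L`.
* `su_valuation_algEquiv`: `w (τ x) = (τ⁻¹ w) (x)`.
* `suComap_under`: `τ⁻¹ w` and `w` lie over the same prime of `k`.
* `suAct`: the action of `τ` on the `S_L`-units when `S_L` is the set of primes above `S`.
-/

set_option autoImplicit false

namespace Fermat.Agent.S55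

open IsDedekindDomain NumberField

section Valuation

variable {k L : Type*} [Field k] [Field L] [NumberField L] [Algebra k L]

/-- The ring automorphism of `𝓞 L` induced by `τ`. -/
noncomputable def suRingEquiv (τ : L ≃ₐ[k] L) : 𝓞 L ≃+* 𝓞 L :=
  RingOfIntegers.mapRingEquiv (τ : L ≃+* L)

theorem suRingEquiv_apply (τ : L ≃ₐ[k] L) (a : 𝓞 L) :
    ((suRingEquiv τ a : 𝓞 L) : L) = τ (a : L) := rfl

/-- The prime `τ⁻¹ w`. -/
noncomputable def suComap (τ : L ≃ₐ[k] L) (w : HeightOneSpectrum (𝓞 L)) :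
    HeightOneSpectrum (𝓞 L) :=
  HeightOneSpectrum.comap (suRingEquiv τ : 𝓞 L →+* 𝓞 L) (suRingEquiv τ).surjective w

theorem suComap_asIdeal (τ : L ≃ₐ[k] L) (w : HeightOneSpectrum (𝓞 L)) :
    (suComap τ w).asIdeal = w.asIdeal.comap (suRingEquiv τ : 𝓞 L →+* 𝓞 L) := rfl

theorem mem_suComap (τ : L ≃ₐ[k] L) (w : HeightOneSpectrum (𝓞 L)) (a : 𝓞 L) :
    a ∈ (suComap τ w).asIdeal ↔ suRingEquiv τ a ∈ w.asIdeal := Iff.rfl

theorem suComap_pow (τ : L ≃ₐ[k] L) (w : HeightOneSpectrum (𝓞 L)) (n : ℕ) :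
    (suComap τ w).asIdeal ^ n = (w.asIdeal ^ n).comap (suRingEquiv τ : 𝓞 L →+* 𝓞 L) := by
  rw [suComap_asIdeal]
  have h : ∀ I : Ideal (𝓞 L), I.comap (suRingEquiv τ : 𝓞 L →+* 𝓞 L) =
      I.map ((suRingEquiv τ).symm : 𝓞 L →+* 𝓞 L) := by
    intro I
    exact (Ideal.map_symm (suRingEquiv τ)).symm
  rw [h, h, Ideal.map_pow]

/-- Two elements of `ℤᵐ⁰` below `1` with the same comparisons to all `exp (-n)` are equal. -/
theorem su_withZero_eq {x y : WithZero (Multiplicative ℤ)} (hx1 : x ≤ 1) (hy1 : y ≤ 1)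
    (h : ∀ n : ℕ, x ≤ WithZero.exp (-(n : ℤ)) ↔ y ≤ WithZero.exp (-(n : ℤ))) : x = y := by
  have key : ∀ {x y : WithZero (Multiplicative ℤ)}, x ≤ 1 →
      (∀ n : ℕ, x ≤ WithZero.exp (-(n : ℤ)) → y ≤ WithZero.exp (-(n : ℤ))) → y ≤ x := by
    intro x y hx1 hxy
    by_cases hx : x = 0
    · subst hx
      by_cases hy : y = 0
      · rw [hy]
      · exfalso
        have h1 : ∀ n : ℕ, y ≤ WithZero.exp (-(n : ℤ)) := fun n => hxy n zero_le
        rw [← WithZero.exp_log hy] at h1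
        have h2 := h1 ((-(WithZero.log y)).toNat + 1)
        rw [WithZero.exp_le_exp] at h2
        omega
    · rw [← WithZero.exp_log hx, ← WithZero.exp_zero, WithZero.exp_le_exp] at hx1
      have h2 := hxy (-(WithZero.log x)).toNat
      have e : -(((-(WithZero.log x)).toNat : ℕ) : ℤ) = WithZero.log x := by omega
      rw [e, WithZero.exp_log hx] at h2
      exact h2 le_rfl
  exact le_antisymm (key hy1 (fun n => (h n).mpr)) (key hx1 (fun n => (h n).mp))

/-- `w (τ a) = (τ⁻¹ w) (a)` on integers. -/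
theorem su_intValuation_algEquiv (τ : L ≃ₐ[k] L) (w : HeightOneSpectrum (𝓞 L)) (a : 𝓞 L) :
    w.intValuation (suRingEquiv τ a) = (suComap τ w).intValuation a := by
  apply su_withZero_eq (w.intValuation_le_one _) ((suComap τ w).intValuation_le_one _)
  intro n
  rw [HeightOneSpectrum.intValuation_le_pow_iff_mem, HeightOneSpectrum.intValuation_le_pow_iff_mem,
    suComap_pow]
  rfl

/-- `w (τ x) = (τ⁻¹ w) (x)`. -/
theorem su_valuation_algEquiv (τ : L ≃ₐ[k] L) (w : HeightOneSpectrum (𝓞 L)) (x : L) :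
    w.valuation L (τ x) = (suComap τ w).valuation L x := by
  obtain ⟨a, b, hb, rfl⟩ := IsFractionRing.div_surjective (A := 𝓞 L) x
  have h1 : ∀ c : 𝓞 L, τ (algebraMap (𝓞 L) L c) = algebraMap (𝓞 L) L (suRingEquiv τ c) :=
    fun c => rfl
  rw [map_div₀, h1, h1, map_div₀, map_div₀, HeightOneSpectrum.valuation_of_algebraMap,
    HeightOneSpectrum.valuation_of_algebraMap, HeightOneSpectrum.valuation_of_algebraMap,
    HeightOneSpectrum.valuation_of_algebraMap, su_intValuation_algEquiv, su_intValuation_algEquiv]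

end Valuation

section Action

variable {k L : Type*} [Field k] [Field L] [NumberField k] [NumberField L] [Algebra k L]

theorem suComap_under (τ : L ≃ₐ[k] L) (w : HeightOneSpectrum (𝓞 L)) :
    (suComap τ w).under (𝓞 k) = w.under (𝓞 k) := by
  apply HeightOneSpectrum.ext
  ext x
  change algebraMap (𝓞 k) (𝓞 L) x ∈ (suComap τ w).asIdeal ↔ algebraMap (𝓞 k) (𝓞 L) x ∈ w.asIdeal
  rw [mem_suComap]
  have h : suRingEquiv τ (algebraMap (𝓞 k) (𝓞 L) x) = algebraMap (𝓞 k) (𝓞 L) x := by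
    apply RingOfIntegers.ext
    rw [suRingEquiv_apply]
    exact τ.commutes (x : k)
  rw [h]

theorem suComap_one (w : HeightOneSpectrum (𝓞 L)) :
    suComap (1 : L ≃ₐ[k] L) w = w := by
  apply HeightOneSpectrum.ext
  ext a
  rw [mem_suComap]
  have h : suRingEquiv (1 : L ≃ₐ[k] L) a = a := RingOfIntegers.ext rfl
  rw [h]

theorem suComap_mul (τ τ' : L ≃ₐ[k] L) (w : HeightOneSpectrum (𝓞 L)) :
    suComap (τ' * τ) w = suComap τ (suComap τ' w) := by
  apply HeightOneSpectrum.ext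
  ext a
  rw [mem_suComap, mem_suComap, mem_suComap]
  have h : suRingEquiv (τ' * τ) a = suRingEquiv τ' (suRingEquiv τ a) := RingOfIntegers.ext rfl
  rw [h]

variable (S : Finset (HeightOneSpectrum (𝓞 k))) (SL : Finset (HeightOneSpectrum (𝓞 L)))

/-- The action of `τ` on the `S_L`-units, `S_L` the set of primes above `S`. -/
noncomputable def suAct (hSL : ∀ w : HeightOneSpectrum (𝓞 L), w ∈ SL ↔ w.under (𝓞 k) ∈ S)
    (τ : L ≃ₐ[k] L) :
    ((SL : Set (HeightOneSpectrum (𝓞 L))).unit L) →* ((SL : Set (HeightOneSpectrum (𝓞 L))).unit L) :=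
  MonoidHom.codRestrict ((Units.map (τ : L →* L)).comp (Subgroup.subtype _)) _
    (fun x w hw => by
      change w.valuation L (τ ((x : Lˣ) : L)) = 1
      rw [su_valuation_algEquiv]
      apply x.2
      intro hmem
      apply hw
      have h1 : suComap τ w ∈ SL := hmem
      rw [hSL, suComap_under, ← hSL] at h1
      exact h1)

theorem suAct_apply (hSL : ∀ w : HeightOneSpectrum (𝓞 L), w ∈ SL ↔ w.under (𝓞 k) ∈ S)
    (τ : L ≃ₐ[k] L) (x : (SL : Set (HeightOneSpectrum (𝓞 L))).unit L) :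
    (((suAct S SL hSL τ x : (SL : Set (HeightOneSpectrum (𝓞 L))).unit L) : Lˣ) : L) =
      τ ((x : Lˣ) : L) := rfl

theorem suAct_one (hSL : ∀ w : HeightOneSpectrum (𝓞 L), w ∈ SL ↔ w.under (𝓞 k) ∈ S)
    (x : (SL : Set (HeightOneSpectrum (𝓞 L))).unit L) : suAct S SL hSL 1 x = x := by
  apply Subtype.ext
  apply Units.ext
  rw [suAct_apply]
  rfl

theorem suAct_mul (hSL : ∀ w : HeightOneSpectrum (𝓞 L), w ∈ SL ↔ w.under (𝓞 k) ∈ S)
    (τ τ' : L ≃ₐ[k] L) (x : (SL : Set (HeightOneSpectrum (𝓞 L))).unit L) :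
    suAct S SL hSL (τ * τ') x = suAct S SL hSL τ (suAct S SL hSL τ' x) := by
  apply Subtype.ext
  apply Units.ext
  rw [suAct_apply, suAct_apply, suAct_apply]
  rfl

theorem suAct_pow (hSL : ∀ w : HeightOneSpectrum (𝓞 L), w ∈ SL ↔ w.under (𝓞 k) ∈ S)
    (τ : L ≃ₐ[k] L) (n : ℕ) (x : (SL : Set (HeightOneSpectrum (𝓞 L))).unit L) :
    suAct S SL hSL (τ ^ n) x = (⇑(suAct S SL hSL τ))^[n] x := by
  induction n generalizing x with
  | zero => rw [pow_zero, suAct_one]; rfl
  | succ n ih => rw [pow_succ, suAct_mul, ih, Function.iterate_succ_apply]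

end Action

section Base

variable {k L : Type*} [Field k] [Field L] [NumberField k] [NumberField L] [Algebra k L]

/-- Every prime of `k` has a prime of `L` above it. -/
theorem su_exists_under (v : HeightOneSpectrum (𝓞 k)) :
    ∃ w : HeightOneSpectrum (𝓞 L), w.under (𝓞 k) = v := by
  have := v.isMaximal
  obtain ⟨P, hPm, hP⟩ := Ideal.exists_maximal_ideal_liesOver_of_isIntegral (S := 𝓞 L) v.asIdeal
  have hne : P ≠ ⊥ := by
    rintro rfl
    have h1 : v.asIdeal = (⊥ : Ideal (𝓞 L)).under (𝓞 k) := hP.over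
    rw [Ideal.under_bot] at h1
    exact v.ne_bot h1
  refine ⟨⟨P, hPm.isPrime, hne⟩, ?_⟩
  apply HeightOneSpectrum.ext
  exact hP.over.symm

/-- Valuation of an element of `k` at a prime of `L`. -/
theorem su_valuation_algebraMap_eq_one_iff (w : HeightOneSpectrum (𝓞 L)) (x : k) :
    w.valuation L (algebraMap k L x) = 1 ↔ (w.under (𝓞 k)).valuation k x = 1 := by
  have : w.asIdeal.LiesOver (w.under (𝓞 k)).asIdeal := ⟨rfl⟩
  rw [← HeightOneSpectrum.valuation_liesOver L (w.under (𝓞 k)) w x]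
  have hne : (w.under (𝓞 k)).asIdeal.ramificationIdx' w.asIdeal ≠ 0 :=
    Ideal.IsDedekindDomain.ramificationIdx'_ne_zero_of_liesOver w.asIdeal (w.under (𝓞 k)).ne_bot
  constructor
  · intro h
    have hx0 : (w.under (𝓞 k)).valuation k x ≠ 0 := by
      intro h0
      rw [h0, zero_pow hne] at h
      exact zero_ne_one h
    have h2 := congrArg WithZero.log h
    rw [WithZero.log_pow, WithZero.log_one, smul_eq_zero] at h2
    rcases h2 with h2 | h2
    · exact absurd h2 hne
    · rw [← WithZero.exp_log hx0, h2, WithZero.exp_zero]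
  · intro h
    rw [h, one_pow]

variable (S : Finset (HeightOneSpectrum (𝓞 k))) (SL : Finset (HeightOneSpectrum (𝓞 L)))

/-- The inclusion of the `S`-units of `k` into the `S_L`-units of `L`. -/
noncomputable def suBase (hSL : ∀ w : HeightOneSpectrum (𝓞 L), w ∈ SL ↔ w.under (𝓞 k) ∈ S) :
    ((S : Set (HeightOneSpectrum (𝓞 k))).unit k) →* ((SL : Set (HeightOneSpectrum (𝓞 L))).unit L) :=
  MonoidHom.codRestrict ((Units.map (algebraMap k L : k →* L)).comp (Subgroup.subtype _)) _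
    (fun x w hw => by
      change w.valuation L (algebraMap k L ((x : kˣ) : k)) = 1
      rw [su_valuation_algebraMap_eq_one_iff]
      apply x.2
      intro hmem
      exact hw ((hSL w).mpr hmem))

theorem suBase_apply (hSL : ∀ w : HeightOneSpectrum (𝓞 L), w ∈ SL ↔ w.under (𝓞 k) ∈ S)
    (x : (S : Set (HeightOneSpectrum (𝓞 k))).unit k) :
    (((suBase S SL hSL x : (SL : Set (HeightOneSpectrum (𝓞 L))).unit L) : Lˣ) : L) =
      algebraMap k L ((x : kˣ) : k) := rfl

theorem suBase_injective (hSL : ∀ w : HeightOneSpectrum (𝓞 L), w ∈ SL ↔ w.under (𝓞 k) ∈ S) :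
    Function.Injective (suBase S SL hSL) := by
  intro x y h
  have h' : algebraMap k L ((x : kˣ) : k) = algebraMap k L ((y : kˣ) : k) := by
    rw [← suBase_apply S SL hSL x, ← suBase_apply S SL hSL y, h]
  exact Subtype.ext (Units.ext ((algebraMap k L).injective h'))

/-- An `S_L`-unit of `L` lying in `k` is an `S`-unit of `k`. -/
theorem su_mem_range_suBase (hSL : ∀ w : HeightOneSpectrum (𝓞 L), w ∈ SL ↔ w.under (𝓞 k) ∈ S)
    (x : (SL : Set (HeightOneSpectrum (𝓞 L))).unit L) (y : k)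
    (hy : algebraMap k L y = ((x : Lˣ) : L)) : ∃ z, suBase S SL hSL z = x := by
  have hy0 : y ≠ 0 := by
    rintro rfl
    rw [map_zero] at hy
    exact (Units.ne_zero (x : Lˣ)) hy.symm
  have hmem : Units.mk0 y hy0 ∈ (S : Set (HeightOneSpectrum (𝓞 k))).unit k := by
    intro v hv
    obtain ⟨w, rfl⟩ := su_exists_under (L := L) v
    rw [Units.val_mk0, ← su_valuation_algebraMap_eq_one_iff, hy]
    apply x.2
    intro hmem
    exact hv ((hSL w).mp hmem)
  refine ⟨⟨_, hmem⟩, ?_⟩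
  apply Subtype.ext
  apply Units.ext
  rw [suBase_apply]
  exact hy

end Base

end Fermat.Agent.S55
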