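import Fermat.Agent.S55.RecCore
import Fermat.Agent.S55.SUnitApprox
import Fermat.Agent.S55.SUnitGalois

/-!
# S55 block REC (reciprocity), part 2: the cyclic reciprocity law (completions-free form)

`k` a number field, `Q` a nonzero natural number, `ψ` a character of `(ZMod Q)ˣ` with
`ψ(-1) = 1`.  For `x : 𝓞 k` the *symbol* is `recSym k Q ψ x = ∏ᶠ_v ψ(N v)^{v(x)}`
(the primes dividing `Q` do not contribute since `recPsi` is `1` there).

* `recPsiN` : the completely multiplicative extension of `recPsi` to `ℕ`.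
* `recSym_eq` : `recSym k Q ψ x = recPsiN Q ψ (N(x𝓞))`; `recSym_mul`.
* `rec_sym_norm` : if `ψ(N W) = 1` for all primes `W` of a finite extension `K`, the symbol of
  a norm from `𝓞 K` is `1`.
* `rec_sym_unit` : an element of `kˣ` which is `≡ 1 mod× Q` is `a / b` with equal symbols.
* `rec_cyclic` : **cyclic reciprocity**: if `K/k` is Galois, `ψ(N W) = 1` for all primes `W`
  of `K`, and `b ∈ kˣ` is a local norm from `K` at all primes dividing `Q` (in the sense of
  `ksiNorm`), then `∏ᶠ_v ψ(N v)^{ord_v b} = 1`.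
-/

set_option autoImplicit false

open NumberField IsDedekindDomain

namespace Fermat.Agent.S55

section PsiN

variable (Q : ℕ) {M : Type*} [CommGroup M] (ψ : (ZMod Q)ˣ →* M)

/-- The completely multiplicative function on `ℕ` with value `recPsi Q ψ ℓ` at primes `ℓ`. -/
noncomputable def recPsiN (m : ℕ) : M :=
  m.factorization.prod fun ℓ e => recPsi Q ψ ℓ ^ e

theorem recPsiN_one : recPsiN Q ψ 1 = 1 := by
  simp [recPsiN]

theorem recPsiN_mul {m n : ℕ} (hm : m ≠ 0) (hn : n ≠ 0) :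
    recPsiN Q ψ (m * n) = recPsiN Q ψ m * recPsiN Q ψ n := by
  unfold recPsiN
  rw [Nat.factorization_mul hm hn]
  exact Finsupp.prod_add_index' (fun _ => pow_zero _) (fun _ _ _ => pow_add _ _ _)

theorem recPsiN_pow {m : ℕ} (hm : m ≠ 0) (e : ℕ) :
    recPsiN Q ψ (m ^ e) = recPsiN Q ψ m ^ e := by
  induction e with
  | zero => simp [recPsiN_one]
  | succ e ih => rw [pow_succ, recPsiN_mul Q ψ (pow_ne_zero _ hm) hm, ih, pow_succ]

theorem recPsiN_prime {ℓ : ℕ} (hℓ : ℓ.Prime) : recPsiN Q ψ ℓ = recPsi Q ψ ℓ := by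
  unfold recPsiN
  rw [hℓ.factorization]
  exact (Finsupp.prod_single_index (h := fun ℓ e => recPsi Q ψ ℓ ^ e) (pow_zero _)).trans
    (pow_one _)

theorem recPsiN_prod {ι : Type*} (s : Finset ι) (f : ι → ℕ) (hf : ∀ i ∈ s, f i ≠ 0) :
    recPsiN Q ψ (∏ i ∈ s, f i) = ∏ i ∈ s, recPsiN Q ψ (f i) := by
  classical
  induction s using Finset.induction_on with
  | empty => simp [recPsiN_one]
  | insert a s ha ih =>
    rw [Finset.prod_insert ha, Finset.prod_insert ha,
      recPsiN_mul Q ψ (hf a (Finset.mem_insert_self a s))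
        (Finset.prod_ne_zero_iff.2 fun i hi => hf i (Finset.mem_insert_of_mem hi)),
      ih fun i hi => hf i (Finset.mem_insert_of_mem hi)]

/-- On prime powers `recPsiN` agrees with `recPsi`. -/
theorem recPsiN_prime_pow {ℓ : ℕ} (hℓ : ℓ.Prime) (f : ℕ) :
    recPsiN Q ψ (ℓ ^ f) = recPsi Q ψ (ℓ ^ f) := by
  rw [recPsiN_pow Q ψ hℓ.ne_zero, recPsiN_prime Q ψ hℓ]
  by_cases h : ℓ.Coprime Q
  · rw [recPsi_pow Q ψ h]
  · rcases Nat.eq_zero_or_pos f with rfl | hf
    · simp [recPsi_one]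
    · have h2 : ¬ (ℓ ^ f).Coprime Q := fun hc => h ((Nat.coprime_pow_left_iff hf ℓ Q).1 hc)
      rw [recPsi, recPsi, dif_neg h, dif_neg h2, one_pow]

end PsiN

variable (k : Type) [Field k] [NumberField k]

/-- The absolute norm of a prime is a prime power. -/
theorem rec_absNorm_prime_pow (v : HeightOneSpectrum (𝓞 k)) :
    ∃ ℓ f : ℕ, ℓ.Prime ∧ Ideal.absNorm v.asIdeal = ℓ ^ f := by
  have : v.asIdeal.IsMaximal := v.isMaximal
  let _ : Field (𝓞 k ⧸ v.asIdeal) := Ideal.Quotient.field _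
  have : Fintype (𝓞 k ⧸ v.asIdeal) := Fintype.ofFinite _
  obtain ⟨n, hp, hn⟩ := FiniteField.card (𝓞 k ⧸ v.asIdeal) (ringChar (𝓞 k ⧸ v.asIdeal))
  refine ⟨ringChar (𝓞 k ⧸ v.asIdeal), n, hp, ?_⟩
  rw [Ideal.absNorm_apply, Submodule.cardQuot_apply, Nat.card_eq_fintype_card]
  exact hn

section Sym

variable (Q : ℕ) {M : Type*} [CommGroup M] (ψ : (ZMod Q)ˣ →* M)

theorem recPsiN_absNorm (v : HeightOneSpectrum (𝓞 k)) :
    recPsiN Q ψ (Ideal.absNorm v.asIdeal) = recPsi Q ψ (Ideal.absNorm v.asIdeal) := by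
  obtain ⟨ℓ, f, hℓ, h⟩ := rec_absNorm_prime_pow k v
  rw [h, recPsiN_prime_pow Q ψ hℓ]

/-- The symbol `∏ᶠ_v ψ(N v)^{v(x)}` of an integer `x` of `k`. -/
noncomputable def recSym (x : 𝓞 k) : M :=
  ∏ᶠ v : HeightOneSpectrum (𝓞 k), recPsi Q ψ (Ideal.absNorm v.asIdeal) ^ recCount k v x

theorem recSym_eq (x : 𝓞 k) (hx : x ≠ 0) :
    recSym k Q ψ x = recPsiN Q ψ (Ideal.absNorm (Ideal.span {x})) := by
  classical
  have hfin := rec_finite_support k x hx
  rw [rec_absNorm_factorization k x hx, recSym]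
  have e1 : (∏ᶠ v : HeightOneSpectrum (𝓞 k), Ideal.absNorm v.asIdeal ^
        (Associates.mk v.asIdeal).count (Associates.mk (Ideal.span {x})).factors)
      = ∏ v ∈ hfin.toFinset, Ideal.absNorm v.asIdeal ^ recCount k v x := by
    apply finprod_eq_prod_of_mulSupport_subset
    intro v hv
    simp only [Function.mem_mulSupport, ne_eq] at hv
    simp only [Set.Finite.coe_toFinset, Set.mem_ofPred_eq]
    intro h0
    apply hv
    rw [recCount] at h0
    rw [h0, pow_zero]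
  have e2 : (∏ᶠ v : HeightOneSpectrum (𝓞 k),
        recPsi Q ψ (Ideal.absNorm v.asIdeal) ^ recCount k v x)
      = ∏ v ∈ hfin.toFinset, recPsi Q ψ (Ideal.absNorm v.asIdeal) ^ recCount k v x := by
    apply finprod_eq_prod_of_mulSupport_subset
    intro v hv
    simp only [Function.mem_mulSupport, ne_eq] at hv
    simp only [Set.Finite.coe_toFinset, Set.mem_ofPred_eq]
    intro h0
    apply hv
    rw [h0, pow_zero]
  have hne : ∀ v : HeightOneSpectrum (𝓞 k), Ideal.absNorm v.asIdeal ≠ 0 := by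
    intro v h0
    rw [Ideal.absNorm_eq_zero_iff] at h0
    exact v.ne_bot h0
  rw [e1, e2, recPsiN_prod Q ψ _ _ fun v _ => pow_ne_zero _ (hne v)]
  refine Finset.prod_congr rfl fun v _ => ?_
  rw [recPsiN_pow Q ψ (hne v), recPsiN_absNorm]

theorem recSym_mul (x y : 𝓞 k) (hx : x ≠ 0) (hy : y ≠ 0) :
    recSym k Q ψ (x * y) = recSym k Q ψ x * recSym k Q ψ y := by
  have hne : ∀ z : 𝓞 k, z ≠ 0 → Ideal.absNorm (Ideal.span {z}) ≠ 0 := by
    intro z hz h0
    rw [Ideal.absNorm_eq_zero_iff, Ideal.span_singleton_eq_bot] at h0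
    exact hz h0
  rw [recSym_eq k Q ψ _ (mul_ne_zero hx hy), recSym_eq k Q ψ x hx, recSym_eq k Q ψ y hy,
    ← Ideal.span_singleton_mul_span_singleton, map_mul,
    recPsiN_mul Q ψ (hne x hx) (hne y hy)]

end Sym

section Val

/-- The valuation of a nonzero integer in terms of `recCount`. -/
theorem rec_valuation_eq (v : HeightOneSpectrum (𝓞 k)) (a : 𝓞 k) (ha : a ≠ 0) :
    v.valuation k (a : k) = WithZero.exp (-(recCount k v a : ℤ)) := by
  rw [show ((a : 𝓞 k) : k) = algebraMap (𝓞 k) k a from rfl,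
    HeightOneSpectrum.valuation_of_algebraMap, v.intValuation_if_neg ha]
  rfl

theorem rec_log_valuation_div (v : HeightOneSpectrum (𝓞 k)) (a b : 𝓞 k) (ha : a ≠ 0)
    (hb : b ≠ 0) :
    WithZero.log (v.valuation k ((a : k) / (b : k))) =
      (recCount k v b : ℤ) - recCount k v a := by
  rw [map_div₀, rec_valuation_eq k v a ha, rec_valuation_eq k v b hb, ← WithZero.exp_sub,
    WithZero.log_exp]
  ring

variable (Q : ℕ) {M : Type*} [CommGroup M] (ψ : (ZMod Q)ˣ →* M)

theorem rec_mulSupport_finite (a : 𝓞 k) (ha : a ≠ 0) :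
    (Function.mulSupport fun v : HeightOneSpectrum (𝓞 k) =>
      recPsi Q ψ (Ideal.absNorm v.asIdeal) ^ recCount k v a).Finite := by
  refine (rec_finite_support k a ha).subset ?_
  intro v hv
  simp only [Function.mem_mulSupport, ne_eq] at hv
  simp only [Set.mem_ofPred_eq]
  intro h0
  apply hv
  rw [h0, pow_zero]

/-- The symbol of a fraction, written with the valuations. -/
theorem rec_finprod_log (a b : 𝓞 k) (ha : a ≠ 0) (hb : b ≠ 0) :
    ∏ᶠ v : HeightOneSpectrum (𝓞 k), recPsi Q ψ (Ideal.absNorm v.asIdeal) ^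
        WithZero.log (v.valuation k ((a : k) / (b : k))) =
      recSym k Q ψ b / recSym k Q ψ a := by
  have h1 : ∀ v : HeightOneSpectrum (𝓞 k), recPsi Q ψ (Ideal.absNorm v.asIdeal) ^
        WithZero.log (v.valuation k ((a : k) / (b : k))) =
      recPsi Q ψ (Ideal.absNorm v.asIdeal) ^ recCount k v b /
        recPsi Q ψ (Ideal.absNorm v.asIdeal) ^ recCount k v a := by
    intro v
    rw [rec_log_valuation_div k v a b ha hb, zpow_sub, zpow_natCast, zpow_natCast,
      div_eq_mul_inv]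
  rw [finprod_congr h1]
  exact finprod_div_distrib (rec_mulSupport_finite k Q ψ b hb) (rec_mulSupport_finite k Q ψ a ha)

end Val

section Norm

variable (Q : ℕ) {M : Type*} [CommGroup M] (ψ : (ZMod Q)ˣ →* M)

/-- If `ψ(N W) = 1` for all primes `W` of `K`, then the symbol of a norm from `K` is trivial. -/
theorem rec_sym_norm (K : Type) [Field K] [NumberField K] [Algebra k K]
    (hK : ∀ W : HeightOneSpectrum (𝓞 K), recPsi Q ψ (Ideal.absNorm W.asIdeal) = 1)
    (y : 𝓞 K) (hy : y ≠ 0) :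
    RingOfIntegers.norm k y ≠ 0 ∧ recSym k Q ψ (RingOfIntegers.norm k y) = 1 := by
  have : FiniteDimensional k K := FiniteDimensional.right ℚ k K
  have hn0 : RingOfIntegers.norm k y ≠ 0 := by
    intro h0
    have h1 : Algebra.norm k (y : K) = 0 := by
      rw [← RingOfIntegers.coe_norm, h0]; rfl
    rw [Algebra.norm_eq_zero_iff] at h1
    exact hy (RingOfIntegers.coe_eq_zero_iff.1 h1)
  refine ⟨hn0, ?_⟩
  have hnorm : Algebra.norm ℤ (RingOfIntegers.norm k y) = Algebra.norm ℤ y := by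
    have h2 : ((Algebra.norm ℤ (RingOfIntegers.norm k y) : ℤ) : ℚ) = (Algebra.norm ℤ y : ℚ) := by
      rw [Algebra.coe_norm_int, Algebra.coe_norm_int, RingOfIntegers.coe_norm, Algebra.norm_norm]
    exact_mod_cast h2
  rw [recSym_eq k Q ψ _ hn0, Ideal.absNorm_span_singleton, hnorm, ← Ideal.absNorm_span_singleton,
    ← recSym_eq K Q ψ y hy, recSym]
  simp [hK]

end Norm

section Unit

variable (Q : ℕ) {M : Type*} [CommGroup M] (ψ : (ZMod Q)ˣ →* M)

/-- Only finitely many primes contain a nonzero natural number. -/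
theorem rec_finite_dvd (hQ : Q ≠ 0) :
    {v : HeightOneSpectrum (𝓞 k) | (Q : 𝓞 k) ∈ v.asIdeal}.Finite := by
  have hI : (Ideal.span {(Q : 𝓞 k)} : Ideal (𝓞 k)) ≠ 0 := by
    rw [Ne, Ideal.zero_eq_bot, Ideal.span_singleton_eq_bot]
    exact_mod_cast hQ
  refine (Ideal.finite_factors hI).subset ?_
  intro v hv
  exact Ideal.dvd_span_singleton.2 hv

/-- A common denominator prime to finitely many primes at which `u` is integral. -/
theorem rec_exists_denominator (S : Finset (HeightOneSpectrum (𝓞 k))) (u : k)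
    (hu : ∀ v ∈ S, v.valuation k u ≤ 1) :
    ∃ d n : 𝓞 k, d ≠ 0 ∧ (∀ v ∈ S, d ∉ v.asIdeal) ∧ u * (d : k) = (n : k) := by
  classical
  let D : Ideal (𝓞 k) :=
    { carrier := {d | ∃ n : 𝓞 k, u * (d : k) = (n : k)}
      add_mem' := by
        rintro a b ⟨n, hn⟩ ⟨m, hm⟩
        exact ⟨n + m, by push_cast; rw [mul_add, hn, hm]⟩
      zero_mem' := ⟨0, by simp⟩
      smul_mem' := by
        rintro c a ⟨n, hn⟩
        refine ⟨c * n, ?_⟩
        rw [smul_eq_mul]
        push_cast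
        linear_combination (c : k) * hn }
  obtain ⟨a₀, b₀, hb₀, hab⟩ := IsFractionRing.div_surjective (A := 𝓞 k) u
  have hb₀' : b₀ ≠ 0 := nonZeroDivisors.ne_zero hb₀
  have hb₀k : (algebraMap (𝓞 k) k b₀) ≠ 0 := by
    simpa using (IsFractionRing.injective (𝓞 k) k).ne hb₀'
  rcases S.eq_empty_or_nonempty with rfl | ⟨v₀, hv₀⟩
  · refine ⟨b₀, a₀, hb₀', by simp, ?_⟩
    rw [← hab]
    exact div_mul_cancel₀ _ hb₀k
  · have hnot : ¬ ((D : Set (𝓞 k)) ⊆
        ⋃ v ∈ (S : Set (HeightOneSpectrum (𝓞 k))), (v.asIdeal : Set (𝓞 k))) := by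
      rw [Ideal.subset_union_prime (f := fun v : HeightOneSpectrum (𝓞 k) => v.asIdeal) v₀ v₀
        (fun v _ _ _ => v.isPrime)]
      rintro ⟨v, hv, hle⟩
      obtain ⟨n, d, hnd⟩ := v.exists_primeCompl_mul_eq_of_integer u (hu v hv)
      exact d.2 (hle ⟨n, hnd⟩)
    obtain ⟨d, hdD, hd⟩ := Set.not_subset.1 hnot
    obtain ⟨n, hn⟩ := hdD
    refine ⟨d, n, ?_, ?_, hn⟩
    · rintro rfl
      exact hd (Set.mem_biUnion (Finset.mem_coe.2 hv₀) (Ideal.zero_mem _))
    · intro v hv hdv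
      exact hd (Set.mem_biUnion (Finset.mem_coe.2 hv) hdv)

/-- An element of `kˣ` which is a unit congruent to `1` modulo `Q` at all primes dividing `Q`
is a quotient `a / b` of nonzero integers with the same symbol. -/
theorem rec_sym_unit (hψ : ψ (-1) = 1) (hQ : Q ≠ 0) (u : k) (hu0 : u ≠ 0)
    (hu : ∀ v : HeightOneSpectrum (𝓞 k), (Q : 𝓞 k) ∈ v.asIdeal →
      v.valuation k u = 1 ∧ v.valuation k (u - 1) ≤ v.valuation k (Q : k)) :
    ∃ a b : 𝓞 k, a ≠ 0 ∧ b ≠ 0 ∧ u = (a : k) / (b : k) ∧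
      recSym k Q ψ a = recSym k Q ψ b := by
  classical
  have hfin := rec_finite_dvd k Q hQ
  obtain ⟨d, n, hd0, hdS, hdn⟩ := rec_exists_denominator k hfin.toFinset u
    (fun v hv => ((hu v (hfin.mem_toFinset.1 hv)).1).le)
  have hdk : (d : k) ≠ 0 := RingOfIntegers.coe_ne_zero_iff.2 hd0
  have hn0 : n ≠ 0 := by
    rintro rfl
    rw [show ((0 : 𝓞 k) : k) = 0 from rfl, mul_eq_zero] at hdn
    rcases hdn with h | h
    · exact hu0 h
    · exact hdk h
  refine ⟨n, d, hn0, hd0, ?_, ?_⟩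
  · rw [← hdn, mul_div_cancel_right₀ _ hdk]
  · refine rec_core k Q ψ hψ n d hn0 hd0 ?_ (fun v hv => hdS v (hfin.mem_toFinset.2 hv))
    have hQk : (Q : k) ≠ 0 := Nat.cast_ne_zero.2 hQ
    have hint : ((n : k) - (d : k)) / (Q : k) ∈ (algebraMap (𝓞 k) k).range := by
      apply HeightOneSpectrum.mem_integers_of_valuation_le_one
      intro v
      rw [map_div₀]
      have hnd : (n : k) - (d : k) = (d : k) * (u - 1) := by rw [← hdn]; ring
      have hQv : v.valuation k (Q : k) ≠ 0 := (Valuation.ne_zero_iff _).2 hQk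
      rw [div_le_one₀ (zero_lt_iff.2 hQv)]
      by_cases hv : (Q : 𝓞 k) ∈ v.asIdeal
      · rw [hnd, map_mul]
        calc v.valuation k (d : k) * v.valuation k (u - 1)
            ≤ 1 * v.valuation k (Q : k) := mul_le_mul' (v.valuation_le_one d) (hu v hv).2
          _ = _ := one_mul _
      · have h1 : v.valuation k (Q : k) = 1 := by
          have := (HeightOneSpectrum.valuation_eq_one_iff_notMem (K := k) (v := v)
            (r := (Q : 𝓞 k))).2 hv
          simpa using this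
        rw [h1]
        have h2 : (n : k) - (d : k) = algebraMap (𝓞 k) k (n - d) := by simp
        rw [h2]
        exact v.valuation_le_one _
    obtain ⟨c, hc⟩ := hint
    rw [Ideal.mem_span_singleton']
    refine ⟨c, ?_⟩
    apply RingOfIntegers.ext
    have hc' : (c : k) = ((n : k) - (d : k)) / (Q : k) := hc
    have h3 := (eq_div_iff hQk).1 hc'
    exact_mod_cast h3

end Unit

section Cyclic

variable (Q : ℕ) {M : Type*} [CommGroup M] (ψ : (ZMod Q)ˣ →* M)
variable (K : Type) [Field K] [NumberField K] [Algebra k K]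

/-- The norm of an element which is close to `1` at all primes above `v` is close to `1`
at `v`. -/
theorem rec_norm_mem_ksiU [IsGalois k K] (W : HeightOneSpectrum (𝓞 K)) (n m : ℕ)
    (hm : n * (W.under (𝓞 k)).asIdeal.ramificationIdx' W.asIdeal ≤ m) (z : Kˣ)
    (hz : ∀ W' : HeightOneSpectrum (𝓞 K), W'.under (𝓞 k) = W.under (𝓞 k) → z ∈ ksiU K W' m) :
    Units.map (Algebra.norm k : K →* k) z ∈ ksiU k (W.under (𝓞 k)) n := by
  classical
  have : FiniteDimensional k K := FiniteDimensional.right ℚ k K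
  have hconj : ∀ σ : K ≃ₐ[k] K, Units.map (σ : K →* K) z ∈ ksiU K W m := by
    intro σ
    have h := hz (suComap σ W) (suComap_under σ W)
    rw [mem_ksiU_iff] at h ⊢
    refine ⟨?_, ?_⟩
    · show W.valuation K (σ (z : K)) = 1
      rw [su_valuation_algEquiv]; exact h.1
    · show W.valuation K (σ (z : K) - 1) ≤ _
      rw [show σ (z : K) - 1 = σ ((z : K) - 1) by simp, su_valuation_algEquiv]; exact h.2
  have hprod : (∏ σ : K ≃ₐ[k] K, Units.map (σ : K →* K) z) ∈ ksiU K W m :=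
    Subgroup.prod_mem _ (fun σ _ => hconj σ)
  have hcoe : ((∏ σ : K ≃ₐ[k] K, Units.map (σ : K →* K) z : Kˣ) : K) =
      algebraMap k K (Algebra.norm k (z : K)) := by
    rw [Algebra.norm_eq_prod_automorphisms, Units.coe_prod]; rfl
  rw [mem_ksiU_iff, hcoe] at hprod
  obtain ⟨h1, h2⟩ := hprod
  rw [mem_ksiU_iff]
  have hlies : W.asIdeal.LiesOver (W.under (𝓞 k)).asIdeal := ⟨rfl⟩
  have hne : (W.under (𝓞 k)).asIdeal.ramificationIdx' W.asIdeal ≠ 0 :=
    Ideal.IsDedekindDomain.ramificationIdx'_ne_zero_of_liesOver W.asIdeal (W.under (𝓞 k)).ne_bot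
  refine ⟨(su_valuation_algebraMap_eq_one_iff W _).1 h1, ?_⟩
  show (W.under (𝓞 k)).valuation k (Algebra.norm k (z : K) - 1) ≤ _
  have h3 : W.valuation K (algebraMap k K (Algebra.norm k (z : K) - 1)) ≤
      WithZero.exp (-(m : ℤ)) := by
    rw [map_sub, map_one]; exact h2
  rw [← HeightOneSpectrum.valuation_liesOver K (W.under (𝓞 k)) W] at h3
  by_contra hcon
  rw [not_le] at hcon
  have h4 := pow_lt_pow_left₀ hcon zero_le hne
  rw [← WithZero.exp_nsmul] at h4
  have h6 : WithZero.exp (-(m : ℤ)) ≤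
      WithZero.exp ((W.under (𝓞 k)).asIdeal.ramificationIdx' W.asIdeal • (-(n : ℤ))) := by
    rw [WithZero.exp_le_exp, nsmul_eq_mul]
    have : ((n * (W.under (𝓞 k)).asIdeal.ramificationIdx' W.asIdeal : ℕ) : ℤ) ≤ (m : ℤ) := by
      exact_mod_cast hm
    push_cast at this
    linarith
  exact absurd (h3.trans h6) (not_le.2 h4)

/-- **Cyclic reciprocity law** (completions-free form).  Let `K/k` be a Galois extension of
number fields such that `ψ(N W) = 1` for every prime `W` of `K` (`ψ` a character of `(ZMod Q)ˣ`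
with `ψ(-1) = 1`).  If `b ∈ kˣ` is a local norm from `K` at every prime dividing `Q`, then
`∏ᶠ_v ψ(N v)^{ord_v b} = 1`. -/
theorem rec_cyclic [IsGalois k K] (hψ : ψ (-1) = 1) (hQ : Q ≠ 0)
    (hK : ∀ W : HeightOneSpectrum (𝓞 K), recPsi Q ψ (Ideal.absNorm W.asIdeal) = 1)
    (b : kˣ)
    (hb : ∀ v : HeightOneSpectrum (𝓞 k), (Q : 𝓞 k) ∈ v.asIdeal → ∀ n : ℕ, b ∈ ksiNorm k K v n) :
    ∏ᶠ v : HeightOneSpectrum (𝓞 k), recPsi Q ψ (Ideal.absNorm v.asIdeal) ^
      WithZero.log (v.valuation k (b : k)) = 1 := by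
  classical
  have hfin := rec_finite_dvd k Q hQ
  have hfinK := rec_finite_dvd K Q hQ
  have hQk0 : (Q : 𝓞 k) ≠ 0 := Nat.cast_ne_zero.2 hQ
  let nv : HeightOneSpectrum (𝓞 k) → ℕ := fun v => recCount k v (Q : 𝓞 k)
  have hloc : ∀ v : HeightOneSpectrum (𝓞 k), ∃ y : Kˣ, (Q : 𝓞 k) ∈ v.asIdeal →
      b / Units.map (Algebra.norm k : K →* k) y ∈ ksiU k v (nv v) := by
    intro v
    by_cases hv : (Q : 𝓞 k) ∈ v.asIdeal
    · obtain ⟨y, u, hu, hyu⟩ := mem_ksiNorm_iff.1 (hb v hv (nv v))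
      refine ⟨y, fun _ => ?_⟩
      rw [← hyu, mul_div_cancel_left]
      exact hu
    · exact ⟨1, fun h => absurd h hv⟩
  choose yv hyv using hloc
  let m : ℕ := (∑ v ∈ hfin.toFinset, nv v) *
    (∑ W ∈ hfinK.toFinset, (W.under (𝓞 k)).asIdeal.ramificationIdx' W.asIdeal)
  obtain ⟨y, hy⟩ := su_weak_approx K hfinK.toFinset (fun _ => m) (fun W => yv (W.under (𝓞 k)))
  have hWQ : ∀ W' : HeightOneSpectrum (𝓞 K), (Q : 𝓞 k) ∈ (W'.under (𝓞 k)).asIdeal →
      (Q : 𝓞 K) ∈ W'.asIdeal := by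
    intro W' h
    have h1 : algebraMap (𝓞 k) (𝓞 K) (Q : 𝓞 k) ∈ W'.asIdeal := h
    rwa [map_natCast] at h1
  set u : kˣ := b / Units.map (Algebra.norm k : K →* k) y with hu
  have hu_mem : ∀ v : HeightOneSpectrum (𝓞 k), (Q : 𝓞 k) ∈ v.asIdeal → u ∈ ksiU k v (nv v) := by
    intro v hv
    obtain ⟨W, hW⟩ := su_exists_under (L := K) v
    have hWmem : W ∈ hfinK.toFinset := hfinK.mem_toFinset.2 (hWQ W (by rw [hW]; exact hv))
    have hvmem : v ∈ hfin.toFinset := hfin.mem_toFinset.2 hv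
    have hz : Units.map (Algebra.norm k : K →* k) (y / yv v) ∈ ksiU k (W.under (𝓞 k)) (nv v) := by
      apply rec_norm_mem_ksiU k K W (nv v) m ?_ (y / yv v) ?_
      · have h1 : nv v ≤ ∑ v ∈ hfin.toFinset, nv v :=
          Finset.single_le_sum (f := nv) (fun _ _ => Nat.zero_le _) hvmem
        have h2 : (W.under (𝓞 k)).asIdeal.ramificationIdx' W.asIdeal ≤
            ∑ W ∈ hfinK.toFinset, (W.under (𝓞 k)).asIdeal.ramificationIdx' W.asIdeal :=
          Finset.single_le_sum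
            (f := fun W : HeightOneSpectrum (𝓞 K) =>
              (W.under (𝓞 k)).asIdeal.ramificationIdx' W.asIdeal)
            (fun _ _ => Nat.zero_le _) hWmem
        exact Nat.mul_le_mul h1 h2
      · intro W' hW'
        have h1 := hy W' (hfinK.mem_toFinset.2 (hWQ W' (by rw [hW', hW]; exact hv)))
        rw [hW', hW] at h1
        exact h1
    rw [hW] at hz
    have h3 : u = (b / Units.map (Algebra.norm k : K →* k) (yv v)) *
        (Units.map (Algebra.norm k : K →* k) (y / yv v))⁻¹ := by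
      rw [hu, map_div, inv_div, div_mul_div_cancel]
    rw [h3]
    exact Subgroup.mul_mem _ (hyv v hv) (Subgroup.inv_mem _ hz)
  obtain ⟨a, b', ha, hb', hab, hsym⟩ := rec_sym_unit k Q ψ hψ hQ (u : k) u.ne_zero (by
    intro v hv
    obtain ⟨h1, h2⟩ := mem_ksiU_iff.1 (hu_mem v hv)
    refine ⟨h1, h2.trans (le_of_eq ?_)⟩
    have h4 := rec_valuation_eq k v (Q : 𝓞 k) hQk0
    rw [show (((Q : 𝓞 k) : 𝓞 k) : k) = (Q : k) by simp] at h4
    rw [h4])
  obtain ⟨y₁, y₂, hy₂, hy12⟩ := IsFractionRing.div_surjective (A := 𝓞 K) (y : K)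
  have hy₂0 : y₂ ≠ 0 := nonZeroDivisors.ne_zero hy₂
  have hy₂k : algebraMap (𝓞 K) K y₂ ≠ 0 := by
    simpa using (IsFractionRing.injective (𝓞 K) K).ne hy₂0
  have hy₁0 : y₁ ≠ 0 := by
    rintro rfl
    rw [map_zero, zero_div] at hy12
    exact y.ne_zero hy12.symm
  obtain ⟨hn1, hs1⟩ := rec_sym_norm k Q ψ K hK y₁ hy₁0
  obtain ⟨hn2, hs2⟩ := rec_sym_norm k Q ψ K hK y₂ hy₂0
  have hb_eq : (b : k) = ((RingOfIntegers.norm k y₁ * a : 𝓞 k) : k) /
      ((RingOfIntegers.norm k y₂ * b' : 𝓞 k) : k) := by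
    have h1' : b = Units.map (Algebra.norm k : K →* k) y * u := by
      rw [hu, mul_div_cancel]
    have h1 : (b : k) = Algebra.norm k (y : K) * (u : k) := by
      have h2 := congrArg Units.val h1'
      rw [Units.val_mul, Units.coe_map] at h2
      exact h2
    have hb'k : (b' : k) ≠ 0 := RingOfIntegers.coe_ne_zero_iff.2 hb'
    have hn2k : Algebra.norm k (algebraMap (𝓞 K) K y₂) ≠ 0 := by
      have : FiniteDimensional k K := FiniteDimensional.right ℚ k K
      rw [Ne, Algebra.norm_eq_zero_iff]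
      exact hy₂k
    have hN : Algebra.norm k (y : K) * Algebra.norm k (algebraMap (𝓞 K) K y₂) =
        Algebra.norm k (algebraMap (𝓞 K) K y₁) := by
      rw [← map_mul, ← hy12, div_mul_cancel₀ _ hy₂k]
    have hNy := eq_div_of_mul_eq hn2k hN
    have e1 : ((RingOfIntegers.norm k y₁ * a : 𝓞 k) : k) =
        Algebra.norm k (algebraMap (𝓞 K) K y₁) * (a : k) := by
      push_cast [RingOfIntegers.coe_norm]; rfl
    have e2 : ((RingOfIntegers.norm k y₂ * b' : 𝓞 k) : k) =
        Algebra.norm k (algebraMap (𝓞 K) K y₂) * (b' : k) := by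
      push_cast [RingOfIntegers.coe_norm]; rfl
    rw [h1, hab, hNy, e1, e2]
    field_simp
  rw [hb_eq, rec_finprod_log k Q ψ _ _ (mul_ne_zero hn1 ha) (mul_ne_zero hn2 hb'),
    recSym_mul k Q ψ _ _ hn2 hb', recSym_mul k Q ψ _ _ hn1 ha, hs1, hs2, hsym, div_self']

end Cyclic

end Fermat.Agent.S55
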