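import Fermat.Agent.S55.FiSplit

/-!
# Local norms and decomposition groups (completions-free)

`L / K` a Galois extension of number fields, `w₁` a prime of `L`, `D` its decomposition group.
If `x ∈ Kˣ` is, to every precision at `w₁`, a "partial norm" `∏_{τ ∈ D} τ y` of an element of `L`,
then `x ∈ ksiNorm K L v n` for all `n` (`v` the prime below `w₁`): by weak approximation choose
`y'` close to `y` at `w₁` and close to `1` at the other primes above `v`; then `N(y')` is close to
`x` at `v`.  (For `D = 1` this is the split lemma, for `D` everything it is trivial.)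
-/

set_option autoImplicit false

namespace Fermat.Agent.S55

open IsDedekindDomain NumberField WithZero

variable {K L : Type*} [Field K] [NumberField K] [Field L] [NumberField L] [Algebra K L]
  [IsGalois K L]

omit [NumberField K] [IsGalois K L] in
/-- Conjugation by `τ` maps `ksiU L (τ⁻¹ w₁) m` into `ksiU L w₁ m`. -/
theorem su_decomp_ksiU (w₁ : HeightOneSpectrum (𝓞 L)) (τ : L ≃ₐ[K] L) (m : ℕ) (z : Lˣ)
    (hz : z ∈ ksiU L (suComap τ w₁) m) :
    Units.map ((τ : L ≃ₐ[K] L) : L →* L) z ∈ ksiU L w₁ m := by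
  rw [mem_ksiU_iff] at hz ⊢
  obtain ⟨h2, h3⟩ := hz
  refine ⟨?_, ?_⟩
  · change w₁.valuation L (τ (z : L)) = 1
    rw [su_valuation_algEquiv]
    exact h2
  · change w₁.valuation L (τ (z : L) - 1) ≤ _
    have : τ (z : L) - 1 = τ ((z : L) - 1) := by rw [map_sub, map_one]
    rw [this, su_valuation_algEquiv]
    exact h3

/-- **Partial norms from the decomposition group are local norms.** -/
theorem su_decomp_norm (w₁ : HeightOneSpectrum (𝓞 L)) (D : Finset (L ≃ₐ[K] L))
    (hD : ∀ τ : L ≃ₐ[K] L, τ ∈ D ↔ suComap τ w₁ = w₁) (x : Kˣ)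
    (hx : ∀ m : ℕ, ∃ y : Lˣ,
      (∏ τ ∈ D, Units.map ((τ : L ≃ₐ[K] L) : L →* L) y) /
        Units.map (algebraMap K L : K →* L) x ∈ ksiU L w₁ m) (n : ℕ) :
    x ∈ ksiNorm K L (w₁.under (𝓞 K)) n := by
  classical
  set v := w₁.under (𝓞 K) with hv
  set T : Finset (HeightOneSpectrum (𝓞 L)) := (su_finite_above K L v).toFinset with hT
  have hmemT : ∀ w : HeightOneSpectrum (𝓞 L), w ∈ T ↔ w.under (𝓞 K) = v := by
    intro w
    rw [hT, Set.Finite.mem_toFinset]
    rfl
  set m : ℕ := n * v.asIdeal.ramificationIdx' w₁.asIdeal with hm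
  obtain ⟨y₀, hy₀⟩ := hx m
  obtain ⟨y, hy⟩ := su_weak_approx L T (fun _ => m) (fun w => if w = w₁ then y₀ else 1)
  -- conjugates outside the decomposition group
  have hout : ∀ τ : L ≃ₐ[K] L, τ ∉ D →
      Units.map ((τ : L ≃ₐ[K] L) : L →* L) y ∈ ksiU L w₁ m := by
    intro τ hτ
    have hne : suComap τ w₁ ≠ w₁ := fun h => hτ ((hD τ).mpr h)
    have hw' : suComap τ w₁ ∈ T := by
      rw [hmemT, suComap_under]
    have h1 := hy _ hw'
    simp only [if_neg hne, div_one] at h1
    exact su_decomp_ksiU w₁ τ m y h1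
  -- conjugates inside
  have h1 : y / y₀ ∈ ksiU L w₁ m := by
    have := hy w₁ ((hmemT w₁).mpr rfl)
    simpa using this
  have hin : ∀ τ : L ≃ₐ[K] L, τ ∈ D →
      Units.map ((τ : L ≃ₐ[K] L) : L →* L) (y / y₀) ∈ ksiU L w₁ m := by
    intro τ hτ
    apply su_decomp_ksiU w₁ τ m
    rw [(hD τ).mp hτ]
    exact h1
  -- the norm
  have hnorm : Units.map (algebraMap K L : K →* L) (Units.map (Algebra.norm K : L →* K) y) =
      ∏ τ : L ≃ₐ[K] L, Units.map ((τ : L ≃ₐ[K] L) : L →* L) y := by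
    apply Units.ext
    rw [Units.coe_prod]
    change algebraMap K L (Algebra.norm K (y : L)) = _
    rw [Algebra.norm_eq_prod_automorphisms]
    rfl
  set z : Kˣ := Units.map (Algebra.norm K : L →* K) y / x with hz
  have hZ : Units.map (algebraMap K L : K →* L) z ∈ ksiU L w₁ m := by
    have h2 : Units.map (algebraMap K L : K →* L) z =
        (∏ τ ∈ Finset.univ \ D, Units.map ((τ : L ≃ₐ[K] L) : L →* L) y) *
          ((∏ τ ∈ D, Units.map ((τ : L ≃ₐ[K] L) : L →* L) (y / y₀)) *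
            ((∏ τ ∈ D, Units.map ((τ : L ≃ₐ[K] L) : L →* L) y₀) /
              Units.map (algebraMap K L : K →* L) x)) := by
      rw [hz, map_div, hnorm, ← Finset.prod_sdiff (Finset.subset_univ D)]
      have h3 : ∏ τ ∈ D, Units.map ((τ : L ≃ₐ[K] L) : L →* L) y =
          (∏ τ ∈ D, Units.map ((τ : L ≃ₐ[K] L) : L →* L) (y / y₀)) *
            ∏ τ ∈ D, Units.map ((τ : L ≃ₐ[K] L) : L →* L) y₀ := by
        rw [← Finset.prod_mul_distrib]
        refine Finset.prod_congr rfl (fun τ _ => ?_)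
        rw [← map_mul, div_mul_cancel]
      rw [h3, mul_div_assoc, mul_div_assoc]
    rw [h2]
    refine Subgroup.mul_mem _ (Subgroup.prod_mem _ (fun τ hτ => ?_))
      (Subgroup.mul_mem _ (Subgroup.prod_mem _ (fun τ hτ => hin τ hτ)) hy₀)
    exact hout τ (Finset.mem_sdiff.mp hτ).2
  have hzv : z ∈ ksiU K v n := fi_ksiU_descend w₁ n z hZ
  rw [mem_ksiNorm_iff]
  refine ⟨y, z⁻¹, Subgroup.inv_mem _ hzv, ?_⟩
  rw [hz, inv_div, mul_div_cancel]

end Fermat.Agent.S55
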