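import Fermat.Agent.S55.ShapCore

/-!
# S55, block SHAP: level and equivariance bookkeeping for the raw Shapiro maps

A curried `Coind`-valued cochain `f g₁ … gₙ x` is of level `M` (`M` a normal subgroup of `G`)
iff it is invariant under right translation by `M` in every argument, including the evaluation
point (`shapLevR*`).  Equivalently its homogeneous form is invariant under right translation by
`M` in every slot (`shapSlot*`).  We show that the maps `shapJ*`, `shapE*` of `ShapCore` preserve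
levels and `U`-equivariance.
-/

set_option autoImplicit false
set_option linter.unusedSectionVars false
set_option linter.unusedVariables false

namespace Fermat.Agent.S55

section predicates

variable {G : Type*} [Group G] {N : Type*} [AddCommGroup N]

/-- slot-invariance under right translation by `M`, degree 0. -/
def shapSlot₀ (M : Subgroup G) (F : G → N) : Prop := ∀ x0, ∀ s0 ∈ M, F (x0 * s0) = F x0

/-- slot-invariance, degree 1. -/
def shapSlot₁ (M : Subgroup G) (F : G → G → N) : Prop :=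
  ∀ x0 x1, ∀ s0 ∈ M, ∀ s1 ∈ M, F (x0 * s0) (x1 * s1) = F x0 x1

/-- slot-invariance, degree 2. -/
def shapSlot₂ (M : Subgroup G) (F : G → G → G → N) : Prop :=
  ∀ x0 x1 x2, ∀ s0 ∈ M, ∀ s1 ∈ M, ∀ s2 ∈ M, F (x0 * s0) (x1 * s1) (x2 * s2) = F x0 x1 x2

/-- slot-invariance, degree 3. -/
def shapSlot₃ (M : Subgroup G) (F : G → G → G → G → N) : Prop :=
  ∀ x0 x1 x2 x3, ∀ s0 ∈ M, ∀ s1 ∈ M, ∀ s2 ∈ M, ∀ s3 ∈ M,
    F (x0 * s0) (x1 * s1) (x2 * s2) (x3 * s3) = F x0 x1 x2 x3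

/-- raw level condition for curried `Coind`-valued cochains, degree 1. -/
def shapLevR₁ (M : Subgroup G) (f : G → G → N) : Prop :=
  ∀ g x, ∀ s ∈ M, ∀ t ∈ M, f (g * s) (x * t) = f g x

/-- raw level condition, degree 2. -/
def shapLevR₂ (M : Subgroup G) (f : G → G → G → N) : Prop :=
  ∀ g h x, ∀ s ∈ M, ∀ t ∈ M, ∀ w ∈ M, f (g * s) (h * t) (x * w) = f g h x

/-- raw level condition, degree 3. -/
def shapLevR₃ (M : Subgroup G) (f : G → G → G → G → N) : Prop :=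
  ∀ g h j x, ∀ s ∈ M, ∀ t ∈ M, ∀ w ∈ M, ∀ z ∈ M, f (g * s) (h * t) (j * w) (x * z) = f g h j x

variable {M : Subgroup G} (hM : M.Normal)
include hM

theorem shapSlot_T₁ {f : G → G → N} (hf : shapLevR₁ M f) : shapSlot₁ M (shapT₁ f) := by
  intro x0 x1 s0 h0 s1 h1
  have e : (x0 * s0)⁻¹ * (x1 * s1) = x0⁻¹ * x1 * ((x0⁻¹ * x1)⁻¹ * s0⁻¹ * (x0⁻¹ * x1) * s1) := by
    group
  have m : (x0⁻¹ * x1)⁻¹ * s0⁻¹ * (x0⁻¹ * x1) * s1 ∈ M :=
    M.mul_mem (hM.conj_mem' _ (M.inv_mem h0) _) h1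
  simp only [shapT₁]
  rw [e, hf _ _ _ m _ h0]

theorem shapSlot_T₂ {f : G → G → G → N} (hf : shapLevR₂ M f) : shapSlot₂ M (shapT₂ f) := by
  intro x0 x1 x2 s0 h0 s1 h1 s2 h2
  have e1 : (x0 * s0)⁻¹ * (x1 * s1) = x0⁻¹ * x1 * ((x0⁻¹ * x1)⁻¹ * s0⁻¹ * (x0⁻¹ * x1) * s1) := by
    group
  have m1 : (x0⁻¹ * x1)⁻¹ * s0⁻¹ * (x0⁻¹ * x1) * s1 ∈ M :=
    M.mul_mem (hM.conj_mem' _ (M.inv_mem h0) _) h1
  have e2 : (x1 * s1)⁻¹ * (x2 * s2) = x1⁻¹ * x2 * ((x1⁻¹ * x2)⁻¹ * s1⁻¹ * (x1⁻¹ * x2) * s2) := by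
    group
  have m2 : (x1⁻¹ * x2)⁻¹ * s1⁻¹ * (x1⁻¹ * x2) * s2 ∈ M :=
    M.mul_mem (hM.conj_mem' _ (M.inv_mem h1) _) h2
  simp only [shapT₂]
  rw [e1, e2, hf _ _ _ _ m1 _ m2 _ h0]

theorem shapSlot_T₃ {f : G → G → G → G → N} (hf : shapLevR₃ M f) : shapSlot₃ M (shapT₃ f) := by
  intro x0 x1 x2 x3 s0 h0 s1 h1 s2 h2 s3 h3
  have e1 : (x0 * s0)⁻¹ * (x1 * s1) = x0⁻¹ * x1 * ((x0⁻¹ * x1)⁻¹ * s0⁻¹ * (x0⁻¹ * x1) * s1) := by
    group
  have m1 : (x0⁻¹ * x1)⁻¹ * s0⁻¹ * (x0⁻¹ * x1) * s1 ∈ M :=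
    M.mul_mem (hM.conj_mem' _ (M.inv_mem h0) _) h1
  have e2 : (x1 * s1)⁻¹ * (x2 * s2) = x1⁻¹ * x2 * ((x1⁻¹ * x2)⁻¹ * s1⁻¹ * (x1⁻¹ * x2) * s2) := by
    group
  have m2 : (x1⁻¹ * x2)⁻¹ * s1⁻¹ * (x1⁻¹ * x2) * s2 ∈ M :=
    M.mul_mem (hM.conj_mem' _ (M.inv_mem h1) _) h2
  have e3 : (x2 * s2)⁻¹ * (x3 * s3) = x2⁻¹ * x3 * ((x2⁻¹ * x3)⁻¹ * s2⁻¹ * (x2⁻¹ * x3) * s3) := by
    group
  have m3 : (x2⁻¹ * x3)⁻¹ * s2⁻¹ * (x2⁻¹ * x3) * s3 ∈ M :=
    M.mul_mem (hM.conj_mem' _ (M.inv_mem h2) _) h3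
  simp only [shapT₃]
  rw [e1, e2, e3, hf _ _ _ _ _ m1 _ m2 _ m3 _ h0]

theorem shapLevR_Tinv₁ {F : G → G → N} (hF : shapSlot₁ M F) : shapLevR₁ M (shapTinv₁ F) := by
  intro g x s hs t ht
  have e : x * t * (g * s) = x * g * (g⁻¹ * t * g * s) := by group
  have m : g⁻¹ * t * g * s ∈ M := M.mul_mem (hM.conj_mem' _ ht _) hs
  simp only [shapTinv₁]
  rw [e, hF _ _ _ ht _ m]

theorem shapLevR_Tinv₂ {F : G → G → G → N} (hF : shapSlot₂ M F) :
    shapLevR₂ M (shapTinv₂ F) := by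
  intro g h x s hs t ht w hw
  have e1 : x * w * (g * s) = x * g * (g⁻¹ * w * g * s) := by group
  have m1 : g⁻¹ * w * g * s ∈ M := M.mul_mem (hM.conj_mem' _ hw _) hs
  have e2 : x * g * (g⁻¹ * w * g * s) * (h * t) =
      x * g * h * (h⁻¹ * (g⁻¹ * w * g * s) * h * t) := by group
  have m2 : h⁻¹ * (g⁻¹ * w * g * s) * h * t ∈ M := M.mul_mem (hM.conj_mem' _ m1 _) ht
  simp only [shapTinv₂]
  rw [e1, e2, hF _ _ _ _ hw _ m1 _ m2]

theorem shapLevR_Tinv₃ {F : G → G → G → G → N} (hF : shapSlot₃ M F) :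
    shapLevR₃ M (shapTinv₃ F) := by
  intro g h j x s hs t ht w hw z hz
  have e1 : x * z * (g * s) = x * g * (g⁻¹ * z * g * s) := by group
  have m1 : g⁻¹ * z * g * s ∈ M := M.mul_mem (hM.conj_mem' _ hz _) hs
  have e2 : x * g * (g⁻¹ * z * g * s) * (h * t) =
      x * g * h * (h⁻¹ * (g⁻¹ * z * g * s) * h * t) := by group
  have m2 : h⁻¹ * (g⁻¹ * z * g * s) * h * t ∈ M := M.mul_mem (hM.conj_mem' _ m1 _) ht
  have e3 : x * g * h * (h⁻¹ * (g⁻¹ * z * g * s) * h * t) * (j * w) =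
      x * g * h * j * (j⁻¹ * (h⁻¹ * (g⁻¹ * z * g * s) * h * t) * j * w) := by group
  have m3 : j⁻¹ * (h⁻¹ * (g⁻¹ * z * g * s) * h * t) * j * w ∈ M :=
    M.mul_mem (hM.conj_mem' _ m2 _) hw
  simp only [shapTinv₃]
  rw [e1, e2, e3, hF _ _ _ _ _ hz _ m1 _ m2 _ m3]

end predicates

section retraction

variable {G : Type*} [Group G] {U : Subgroup G} {N : Type*} [AddCommGroup N] (r : G → U)
  {M : Subgroup G}

/-- compatibility of the retraction with the level `M`: `r (x s) ∈ r x · M`. -/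
def shapRCompat (r : G → U) (M : Subgroup G) : Prop :=
  ∀ x, ∀ s ∈ M, ∃ n : U, (n : G) ∈ M ∧ r (x * s) = r x * n

/-- an equivariant retraction is compatible with every normal subgroup contained in `U`. -/
theorem shap_rCompat (hr : ∀ (u : U) (x : G), r ((u : G) * x) = u * r x) (hM : M.Normal)
    (hMU : M ≤ U) : shapRCompat r M := by
  intro x s hs
  have hm : x * s * x⁻¹ ∈ M := hM.conj_mem s hs x
  obtain ⟨m, hm'⟩ : ∃ m : U, (m : G) = x * s * x⁻¹ := ⟨⟨_, hMU hm⟩, rfl⟩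
  refine ⟨(r x)⁻¹ * m * r x, ?_, ?_⟩
  · have := hM.conj_mem' _ hm ((r x : U) : G)
    simpa [hm'] using this
  · have e : x * s = (m : G) * x := by rw [hm']; group
    rw [e, hr]
    group

variable (hR : shapRCompat r M)
include hR

theorem shapSlot_HH₁ {F : G → G → N} (hF : shapSlot₁ M F) : shapSlot₀ M (shapHH₁ r F) := by
  intro x0 s0 h0
  obtain ⟨n0, hn0, e0⟩ := hR x0 s0 h0
  simp only [shapHH₁, e0, Subgroup.coe_mul]
  rw [hF _ _ _ h0 _ hn0]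

theorem shapSlot_HH₂ {F : G → G → G → N} (hF : shapSlot₂ M F) : shapSlot₁ M (shapHH₂ r F) := by
  intro x0 x1 s0 h0 s1 h1
  obtain ⟨n0, hn0, e0⟩ := hR x0 s0 h0
  obtain ⟨n1, hn1, e1⟩ := hR x1 s1 h1
  simp only [shapHH₂, e0, e1, Subgroup.coe_mul]
  rw [hF _ _ _ _ h0 _ hn0 _ hn1, hF _ _ _ _ h0 _ h1 _ hn1]

theorem shapSlot_HH₃ {F : G → G → G → G → N} (hF : shapSlot₃ M F) :
    shapSlot₂ M (shapHH₃ r F) := by
  intro x0 x1 x2 s0 h0 s1 h1 s2 h2
  obtain ⟨n0, hn0, e0⟩ := hR x0 s0 h0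
  obtain ⟨n1, hn1, e1⟩ := hR x1 s1 h1
  obtain ⟨n2, hn2, e2⟩ := hR x2 s2 h2
  simp only [shapHH₃, e0, e1, e2, Subgroup.coe_mul]
  rw [hF _ _ _ _ _ h0 _ hn0 _ hn1 _ hn2, hF _ _ _ _ _ h0 _ h1 _ hn1 _ hn2,
    hF _ _ _ _ _ h0 _ h1 _ h2 _ hn2]

end retraction

section ucochains

variable {k : Type*} [CommRing k] {G : Type*} [Group G] {U : Subgroup G}
  {N : Type*} [AddCommGroup N] [Module k N] (r : G → U) (ρ : Representation k U N)

/-- `n` is fixed by `M ⊓ U`. -/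
def shapLevU₀ (M : Subgroup G) (ρ : Representation k U N) (n : N) : Prop :=
  ∀ s : U, (s : G) ∈ M → ρ s n = n

/-- raw level condition for `N`-valued cochains of `U`, degree 1. -/
def shapLevU₁ (M : Subgroup G) (ρ : Representation k U N) (c : U → N) : Prop :=
  (∀ u (s : U), (s : G) ∈ M → c (u * s) = c u) ∧ ∀ u, shapLevU₀ M ρ (c u)

/-- raw level condition for `N`-valued cochains of `U`, degree 2. -/
def shapLevU₂ (M : Subgroup G) (ρ : Representation k U N) (c : U → U → N) : Prop :=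
  (∀ u v (s t : U), (s : G) ∈ M → (t : G) ∈ M → c (u * s) (v * t) = c u v) ∧
    ∀ u v, shapLevU₀ M ρ (c u v)

/-- raw level condition for `N`-valued cochains of `U`, degree 3. -/
def shapLevU₃ (M : Subgroup G) (ρ : Representation k U N) (c : U → U → U → N) : Prop :=
  (∀ u v w (s t z : U), (s : G) ∈ M → (t : G) ∈ M → (z : G) ∈ M →
      c (u * s) (v * t) (w * z) = c u v w) ∧
    ∀ u v w, shapLevU₀ M ρ (c u v w)

variable {M : Subgroup G} {ρ}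

theorem shap_conj_mem_U (hM : M.Normal) (a m : U) (hm : (m : G) ∈ M) :
    ((a⁻¹ * m * a : U) : G) ∈ M := by
  have := hM.conj_mem' _ hm (a : G)
  simpa using this

theorem shapLevU₁_bi (hM : M.Normal) {c : U → N} (hc : shapLevU₁ M ρ c) (a m m' : U)
    (hm : (m : G) ∈ M) (hm' : (m' : G) ∈ M) : c (m * a * m') = c a := by
  have e : m * a * m' = a * (a⁻¹ * m * a * m') := by group
  rw [e]
  exact hc.1 _ _ (by
    have := M.mul_mem (shap_conj_mem_U hM a m hm) hm'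
    simpa using this)

theorem shapLevU₂_bi (hM : M.Normal) {c : U → U → N} (hc : shapLevU₂ M ρ c) (a b m m' n n' : U)
    (hm : (m : G) ∈ M) (hm' : (m' : G) ∈ M) (hn : (n : G) ∈ M) (hn' : (n' : G) ∈ M) :
    c (m * a * m') (n * b * n') = c a b := by
  have e : m * a * m' = a * (a⁻¹ * m * a * m') := by group
  have e' : n * b * n' = b * (b⁻¹ * n * b * n') := by group
  rw [e, e']
  exact hc.1 _ _ _ _
    (by have := M.mul_mem (shap_conj_mem_U hM a m hm) hm'; simpa using this)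
    (by have := M.mul_mem (shap_conj_mem_U hM b n hn) hn'; simpa using this)

theorem shapLevU₃_bi (hM : M.Normal) {c : U → U → U → N} (hc : shapLevU₃ M ρ c)
    (a b d m m' n n' l l' : U)
    (hm : (m : G) ∈ M) (hm' : (m' : G) ∈ M) (hn : (n : G) ∈ M) (hn' : (n' : G) ∈ M)
    (hl : (l : G) ∈ M) (hl' : (l' : G) ∈ M) :
    c (m * a * m') (n * b * n') (l * d * l') = c a b d := by
  have e : m * a * m' = a * (a⁻¹ * m * a * m') := by group
  have e' : n * b * n' = b * (b⁻¹ * n * b * n') := by group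
  have e'' : l * d * l' = d * (d⁻¹ * l * d * l') := by group
  rw [e, e', e'']
  exact hc.1 _ _ _ _ _ _
    (by have := M.mul_mem (shap_conj_mem_U hM a m hm) hm'; simpa using this)
    (by have := M.mul_mem (shap_conj_mem_U hM b n hn) hn'; simpa using this)
    (by have := M.mul_mem (shap_conj_mem_U hM d l hl) hl'; simpa using this)

variable (hR : shapRCompat r M)
include hR

theorem shapSlot_C₀ {n : N} (hn : shapLevU₀ M ρ n) : shapSlot₀ M (shapC₀ r ρ n) := by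
  intro x0 s0 h0
  obtain ⟨n0, hn0, e0⟩ := hR x0 s0 h0
  simp only [shapC₀, e0, map_mul, Module.End.mul_apply, hn n0 hn0]

theorem shapSlot_C₁ (hM : M.Normal) {c : U → N} (hc : shapLevU₁ M ρ c) :
    shapSlot₁ M (shapC₁ r ρ c) := by
  intro x0 x1 s0 h0 s1 h1
  obtain ⟨n0, hn0, e0⟩ := hR x0 s0 h0
  obtain ⟨n1, hn1, e1⟩ := hR x1 s1 h1
  have a1 : (r x0 * n0)⁻¹ * (r x1 * n1) = n0⁻¹ * ((r x0)⁻¹ * r x1) * n1 := by group
  simp only [shapC₁, e0, e1]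
  rw [a1, shapLevU₁_bi hM hc _ _ _ (by simpa using M.inv_mem hn0) hn1, map_mul,
    Module.End.mul_apply, hc.2 _ n0 hn0]

theorem shapSlot_C₂ (hM : M.Normal) {c : U → U → N} (hc : shapLevU₂ M ρ c) :
    shapSlot₂ M (shapC₂ r ρ c) := by
  intro x0 x1 x2 s0 h0 s1 h1 s2 h2
  obtain ⟨n0, hn0, e0⟩ := hR x0 s0 h0
  obtain ⟨n1, hn1, e1⟩ := hR x1 s1 h1
  obtain ⟨n2, hn2, e2⟩ := hR x2 s2 h2
  have a1 : (r x0 * n0)⁻¹ * (r x1 * n1) = n0⁻¹ * ((r x0)⁻¹ * r x1) * n1 := by group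
  have a2 : (r x1 * n1)⁻¹ * (r x2 * n2) = n1⁻¹ * ((r x1)⁻¹ * r x2) * n2 := by group
  simp only [shapC₂, e0, e1, e2]
  rw [a1, a2, shapLevU₂_bi hM hc _ _ _ _ _ _ (by simpa using M.inv_mem hn0) hn1
    (by simpa using M.inv_mem hn1) hn2, map_mul, Module.End.mul_apply, hc.2 _ _ n0 hn0]

theorem shapSlot_C₃ (hM : M.Normal) {c : U → U → U → N} (hc : shapLevU₃ M ρ c) :
    shapSlot₃ M (shapC₃ r ρ c) := by
  intro x0 x1 x2 x3 s0 h0 s1 h1 s2 h2 s3 h3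
  obtain ⟨n0, hn0, e0⟩ := hR x0 s0 h0
  obtain ⟨n1, hn1, e1⟩ := hR x1 s1 h1
  obtain ⟨n2, hn2, e2⟩ := hR x2 s2 h2
  obtain ⟨n3, hn3, e3⟩ := hR x3 s3 h3
  have a1 : (r x0 * n0)⁻¹ * (r x1 * n1) = n0⁻¹ * ((r x0)⁻¹ * r x1) * n1 := by group
  have a2 : (r x1 * n1)⁻¹ * (r x2 * n2) = n1⁻¹ * ((r x1)⁻¹ * r x2) * n2 := by group
  have a3 : (r x2 * n2)⁻¹ * (r x3 * n3) = n2⁻¹ * ((r x2)⁻¹ * r x3) * n3 := by group
  simp only [shapC₃, e0, e1, e2, e3]
  rw [a1, a2, a3, shapLevU₃_bi hM hc _ _ _ _ _ _ _ _ _ (by simpa using M.inv_mem hn0) hn1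
    (by simpa using M.inv_mem hn1) hn2 (by simpa using M.inv_mem hn2) hn3, map_mul,
    Module.End.mul_apply, hc.2 _ _ _ n0 hn0]

/-- `j` preserves levels, degree 0. -/
theorem shapLev_J₀ {n : N} (hn : shapLevU₀ M ρ n) : shapSlot₀ M (shapJ₀ r ρ n) :=
  shapSlot_C₀ r hR hn

/-- `j` preserves levels, degree 1. -/
theorem shapLev_J₁ (hM : M.Normal) {c : U → N} (hc : shapLevU₁ M ρ c) :
    shapLevR₁ M (shapJ₁ r ρ c) :=
  shapLevR_Tinv₁ hM (shapSlot_C₁ r hR hM hc)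

/-- `j` preserves levels, degree 2. -/
theorem shapLev_J₂ (hM : M.Normal) {c : U → U → N} (hc : shapLevU₂ M ρ c) :
    shapLevR₂ M (shapJ₂ r ρ c) :=
  shapLevR_Tinv₂ hM (shapSlot_C₂ r hR hM hc)

/-- `j` preserves levels, degree 3. -/
theorem shapLev_J₃ (hM : M.Normal) {c : U → U → U → N} (hc : shapLevU₃ M ρ c) :
    shapLevR₃ M (shapJ₃ r ρ c) :=
  shapLevR_Tinv₃ hM (shapSlot_C₃ r hR hM hc)

omit [Module k N] in
/-- the homotopy preserves levels, degree 1. -/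
theorem shapLev_E₁ (hM : M.Normal) {f : G → G → N} (hf : shapLevR₁ M f) :
    shapSlot₀ M (shapE₁ r f) := by
  intro x0 s0 h0
  simp only [shapE₁]
  rw [shapSlot_HH₁ r hR (shapSlot_T₁ hM hf) x0 s0 h0]

omit [Module k N] in
/-- the homotopy preserves levels, degree 2. -/
theorem shapLev_E₂ (hM : M.Normal) {f : G → G → G → N} (hf : shapLevR₂ M f) :
    shapLevR₁ M (shapE₂ r f) := by
  refine shapLevR_Tinv₁ hM ?_
  intro x0 x1 s0 h0 s1 h1
  show -shapHH₂ r (shapT₂ f) (x0 * s0) (x1 * s1) = -shapHH₂ r (shapT₂ f) x0 x1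
  rw [shapSlot_HH₂ r hR (shapSlot_T₂ hM hf) x0 x1 s0 h0 s1 h1]

omit [Module k N] in
/-- the homotopy preserves levels, degree 3. -/
theorem shapLev_E₃ (hM : M.Normal) {f : G → G → G → G → N} (hf : shapLevR₃ M f) :
    shapLevR₂ M (shapE₃ r f) := by
  refine shapLevR_Tinv₂ hM ?_
  intro x0 x1 x2 s0 h0 s1 h1 s2 h2
  show -shapHH₃ r (shapT₃ f) (x0 * s0) (x1 * s1) (x2 * s2) = -shapHH₃ r (shapT₃ f) x0 x1 x2
  rw [shapSlot_HH₃ r hR (shapSlot_T₃ hM hf) x0 x1 x2 s0 h0 s1 h1 s2 h2]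

end ucochains

section equivariance

variable {k : Type*} [CommRing k] {G : Type*} [Group G] {U : Subgroup G}
  {N : Type*} [AddCommGroup N] [Module k N] (r : G → U) (ρ : Representation k U N)
  (hr : ∀ (u : U) (x : G), r ((u : G) * x) = u * r x)
include hr

/-- the homotopy takes values in the coinduced module, degree 1. -/
theorem shapE₁_equiv (f : G → G → N) (hf : ∀ g (u : U) x, f g ((u : G) * x) = ρ u (f g x))
    (u : U) (x : G) : shapE₁ r f ((u : G) * x) = ρ u (shapE₁ r f x) := by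
  simp only [shapE₁, shapHH₁, shapT₁, hr, Subgroup.coe_mul, mul_inv_rev, map_neg]
  rw [← hf]
  congr 2
  group

/-- the homotopy takes values in the coinduced module, degree 2. -/
theorem shapE₂_equiv (f : G → G → G → N)
    (hf : ∀ g h (u : U) x, f g h ((u : G) * x) = ρ u (f g h x)) (g : G) (u : U) (x : G) :
    shapE₂ r f g ((u : G) * x) = ρ u (shapE₂ r f g x) := by
  simp only [shapE₂, shapTinv₁, shapHH₂, shapT₂, hr, Subgroup.coe_mul, mul_inv_rev, map_neg,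
    map_sub, mul_assoc]
  rw [← hf, ← hf]
  congr 3 <;> group

/-- the homotopy takes values in the coinduced module, degree 3. -/
theorem shapE₃_equiv (f : G → G → G → G → N)
    (hf : ∀ g h j (u : U) x, f g h j ((u : G) * x) = ρ u (f g h j x)) (g h : G) (u : U)
    (x : G) : shapE₃ r f g h ((u : G) * x) = ρ u (shapE₃ r f g h x) := by
  simp only [shapE₃, shapTinv₂, shapHH₃, shapT₃, hr, Subgroup.coe_mul, mul_inv_rev, map_neg,
    map_sub, map_add, mul_assoc]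
  rw [← hf, ← hf, ← hf]
  congr 4 <;> group

end equivariance

end Fermat.Agent.S55
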