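import Fermat.Agent.S55.ShapCone

/-!
# S55, block SHAP: transfer of the duality properties from `U` to `G` (cone complexes)

With the notation of `ShapCone`: the paired complex `P` of `(G; Coind_U N, Coind_U N')` with the
pairing `shapPair` and trace `τ`, and the paired complex `Q` of `(U; N, N')` with the pairing `φ`
and the transferred trace `shapTauU`, are related by a `ShapQData P Q`.  Hence
`A1Surj`, `A2Inj`, `A2Surj` pass from `Q` to `P`.
-/

set_option autoImplicit false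
set_option linter.unusedSectionVars false
set_option linter.unusedVariables false

namespace Fermat.Agent.S55

universe u v w

/-! ### `Φ_a` is multiplicative -/

section phimul

variable {k : Type*} [CommRing k] {G H : Type*} [Group G] [Group H]
  (LH : hc_Lev H) {ι : H →* G} {U : Subgroup G} {W : Type*} (Δ : ShlDec ι U W)
  {N N' T : Type*} [AddCommGroup N] [Module k N] [AddCommGroup N'] [Module k N']
  [AddCommGroup T] [Module k T]
  {ρN : Representation k U N} {ρN' : Representation k U N'} (ρT : Representation k G T)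
  (φ : N →ₗ[k] N' →ₗ[k] T)
  (hφ : ∀ (u : U) (a : N) (b : N'), φ (ρN u a) (ρN' u b) = ρT (u : G) (φ a b))

theorem shapPhi_cup02 (a : W)
    (hμ : ∀ h x y, shapMul U ρT φ hφ (((Representation.coind U.subtype ρN).comp ι) h x)
      (((Representation.coind U.subtype ρN').comp ι) h y) =
      ((Representation.coind U.subtype (ρT.comp U.subtype)).comp ι) h (shapMul U ρT φ hφ x y))
    (hφa : ∀ z x y, φ ((ρN.comp (Δ.th a)) z x) ((ρN'.comp (Δ.th a)) z y) =
      ((ρT.comp U.subtype).comp (Δ.th a)) z (φ x y))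
    (m : hc_C0 LH ((Representation.coind U.subtype ρN).comp ι))
    (f : hc_C2 LH ((Representation.coind U.subtype ρN').comp ι)) :
    shapPhiL₂ LH Δ (ρT.comp U.subtype) a (hc_cup02 LH hμ m f) =
      hc_cup02 (shapLevSub LH (Δ.Ha a)) hφa (shapPhiL₀ LH Δ ρN a m) (shapPhiL₂ LH Δ ρN' a f) :=
  rfl

theorem shapPhi_cup11 (a : W)
    (hμ : ∀ h x y, shapMul U ρT φ hφ (((Representation.coind U.subtype ρN).comp ι) h x)
      (((Representation.coind U.subtype ρN').comp ι) h y) =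
      ((Representation.coind U.subtype (ρT.comp U.subtype)).comp ι) h (shapMul U ρT φ hφ x y))
    (hφa : ∀ z x y, φ ((ρN.comp (Δ.th a)) z x) ((ρN'.comp (Δ.th a)) z y) =
      ((ρT.comp U.subtype).comp (Δ.th a)) z (φ x y))
    (f : hc_C1 LH ((Representation.coind U.subtype ρN).comp ι))
    (f' : hc_C1 LH ((Representation.coind U.subtype ρN').comp ι)) :
    shapPhiL₂ LH Δ (ρT.comp U.subtype) a (hc_cup11 LH hμ f f') =
      hc_cup11 (shapLevSub LH (Δ.Ha a)) hφa (shapPhiL₁ LH Δ ρN a f) (shapPhiL₁ LH Δ ρN' a f') := by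
  apply Subtype.ext
  funext ⟨z, z'⟩
  show φ ((f.1 (z : H)).1 (Δ.g a)) ((f'.1 (z' : H)).1 (Δ.g a * ι (z : H))) =
    φ ((f.1 (z : H)).1 (Δ.g a)) (ρN' (Δ.th a z) ((f'.1 (z' : H)).1 (Δ.g a)))
  rw [shap_eval_g_mul]

end phimul

/-! ### the three comparison statements -/

section transfer

variable {k : Type*} [CommRing k] {G : Type u} [Group G] {L : hc_Lev G} (D : hc_Loc.{u, v, w} L)
  (U : Subgroup G) [U.FiniteIndex] {W : D.V → Type w} (Δ : ∀ v, ShlDec (D.ι v) U (W v))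
  {N N' T : Type*} [AddCommGroup N] [Module k N] [AddCommGroup N'] [Module k N']
  [AddCommGroup T] [Module k T]
  {ρN : Representation k U N} {ρN' : Representation k U N'} (ρT : Representation k G T)
  (φ : N →ₗ[k] N' →ₗ[k] T)
  (hφ : ∀ (u : U) (a : N) (b : N'), φ (ρN u a) (ρN' u b) = ρT (u : G) (φ a b))
  (r : G → U) (hr : ∀ (u : U) (x : G), r ((u : G) * x) = u * r x) (h1 : r 1 = 1)
  (hU : ∃ M ∈ L.S, M ≤ U) (hrg : ∀ v a, r ((Δ v).g a) = 1)
  (pkN : ∀ v, ShapLP (D.Lv v) (Δ v) ρN)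
  (pkT : ∀ v, ShapLP (D.Lv v) (Δ v) (ρT.comp U.subtype))
  (τ : hc_Cc3 D ρT →ₗ[k] k) (hτ : ∀ x, τ (hc_dc2 D ρT x) = 0)

/-- the pairing `b12` of the `G`-complex through the pointwise product. -/
theorem shap_b12_eq (x : hc_Cc1 D (Representation.coind U.subtype ρN))
    (y : hc_C2 L (Representation.coind U.subtype ρN')) :
    hc_b12 (shapPair_equivariant U ρT φ hφ) τ x y =
      shapTauS D U ρT τ (hc_ccup12 D (shapMul_equivariant U ρT φ hφ) x y) := rfl

/-- the pairing `b21` of the `G`-complex through the pointwise product. -/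
theorem shap_b21_eq (x : hc_Cc2 D (Representation.coind U.subtype ρN))
    (y : hc_C1 L (Representation.coind U.subtype ρN')) :
    hc_b21 (shapPair_equivariant U ρT φ hφ) τ x y =
      shapTauS D U ρT τ (hc_ccup21 D (shapMul_equivariant U ρT φ hφ) x y) := rfl

set_option maxHeartbeats 4000000 in
include h1 hrg hτ in
/-- **T1**: adjointness of `J₁` and the Shapiro map `sh₂` for the pairings `b12`. -/
theorem shap_T1 (x : hc_Cc1 (shapLocU D U Δ) ρN) (hx : hc_dc1 (shapLocU D U Δ) ρN x = 0)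
    (y : hc_C2 L (Representation.coind U.subtype ρN')) (hy : hc_d23 L _ y = 0) :
    hc_b12 (shapPair_equivariant U ρT φ hφ) τ (shapConeJ₁ D U Δ ρN r hr hU pkN x) y =
      hc_b12 (ρT := ρT.comp U.subtype) hφ (shapTauU D U Δ ρT r hr hU pkT τ) x
        (shapShL₂ L U ρN' y) := by
  have hx' := shapConeJ₁_cocycle D U Δ ρN r hr hU hrg pkN x hx
  have hy₀ : hc_d23 (shapLevSub L U) ρN' (shapShL₂ L U ρN' y) = 0 := by
    rw [← shapShL_d23, hy, map_zero]
  have hhom := shapL_homotopy₂ L U ρN' r hr hU h1 y hy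
  have hy_eq : y = shapJL₂ L U ρN' r hr hU (shapShL₂ L U ρN' y)
      + hc_d12 L _ (shapEL₂ L U ρN' r hr hU y) := by
    rw [← hhom]; abel
  have hleib := hc_cleibniz11 (shapMul_equivariant U ρT φ hφ)
    (shapConeJ₁ D U Δ ρN r hr hU pkN x) (shapEL₂ L U ρN' r hr hU y)
  have h2 : shapTauS D U ρT τ (hc_ccup12 D (shapMul_equivariant U ρT φ hφ)
      (shapConeJ₁ D U Δ ρN r hr hU pkN x) (hc_d12 L _ (shapEL₂ L U ρN' r hr hU y))) = 0 := by
    have e := congrArg (shapTauS D U ρT τ) hleib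
    have e' := (shapTauS_dc2 D U ρT τ hτ _).symm.trans (e.trans
      (map_sub (shapTauS D U ρT τ)
        (hc_ccup21 D (shapMul_equivariant U ρT φ hφ)
          (hc_dc1 D _ (shapConeJ₁ D U Δ ρN r hr hU pkN x)) (shapEL₂ L U ρN' r hr hU y))
        (hc_ccup12 D (shapMul_equivariant U ρT φ hφ)
          (shapConeJ₁ D U Δ ρN r hr hU pkN x) (hc_d12 L _ (shapEL₂ L U ρN' r hr hU y)))))
    rw [hx', map_zero, LinearMap.zero_apply, map_zero, zero_sub] at e'
    exact neg_eq_zero.1 e'.symm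
  have h3 : shapTauS D U ρT τ (hc_ccup12 D (shapMul_equivariant U ρT φ hφ)
      (shapConeJ₁ D U Δ ρN r hr hU pkN x)
      (shapJL₂ L U ρN' r hr hU (shapShL₂ L U ρN' y))) =
      shapTauS D U ρT τ (shapConeJ₃ D U Δ (ρT.comp U.subtype) r hr hU pkT
        (hc_ccup12 (shapLocU D U Δ) (ρT := ρT.comp U.subtype) hφ x (shapShL₂ L U ρN' y))) := by
    refine shapTauS_congr D U Δ ρT pkT τ hτ _ _ ?_ ?_ ?_ ?_
    · exact shap_ccup12_mem_Zc3 _ _ hx' _ (by rw [shapJL_d23, hy₀, map_zero])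
    · exact shapConeJ₃_mem_Zc3 D U Δ _ r hr hU hrg pkT _
        (shap_ccup12_mem_Zc3 (ρT := ρT.comp U.subtype) hφ x hx _ hy₀)
    · exact shapJL_cup12 L U ρT φ hφ r hr hU x.1 (shapShL₂ L U ρN' y)
    · intro v a
      rw [shapConeJ₃_snd, map_add, (pkT v).phi_psi2, (pkT v).phi_e3, add_zero, hc_ccup12_snd,
        shapPhi_cup02 (D.Lv v) (Δ v) ρT φ hφ a _ (fun z x y => hφ ((Δ v).th a z) x y),
        shapConeJ₁_snd, map_add, (pkN v).phi_psi0, (pkN v).phi_e1, add_zero,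
        shapPhi_res_J₂ D U Δ ρN' r hr hU hrg]
      rfl
  rw [shap_b12_eq]
  conv_lhs => rw [hy_eq]
  rw [map_add, map_add, h2, add_zero, h3]
  rfl

set_option maxHeartbeats 4000000 in
include h1 hrg hτ in
/-- **T3**: adjointness of `J₂` and the Shapiro map `sh₁` for the pairings `b21`. -/
theorem shap_T3 (x : hc_Cc2 (shapLocU D U Δ) ρN) (hx : hc_dc2 (shapLocU D U Δ) ρN x = 0)
    (y : hc_C1 L (Representation.coind U.subtype ρN')) (hy : hc_d12 L _ y = 0) :
    hc_b21 (shapPair_equivariant U ρT φ hφ) τ (shapConeJ₂ D U Δ ρN r hr hU pkN x) y =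
      hc_b21 (ρT := ρT.comp U.subtype) hφ (shapTauU D U Δ ρT r hr hU pkT τ) x
        (shapShL₁ L U ρN' y) := by
  have hx' := shapConeJ₂_cocycle D U Δ ρN r hr hU hrg pkN x hx
  have hy₀ : hc_d12 (shapLevSub L U) ρN' (shapShL₁ L U ρN' y) = 0 := by
    rw [← shapShL_d12, hy, map_zero]
  have hhom := shapL_homotopy₁ L U ρN' r hr hU h1 y hy
  have hy_eq : y = shapJL₁ L U ρN' r hr hU (shapShL₁ L U ρN' y)
      + hc_d01 L _ (shapEL₁ L U ρN' r hr hU y) := by
    rw [← hhom]; abel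
  have hleib := hc_cleibniz20 (shapMul_equivariant U ρT φ hφ)
    (shapConeJ₂ D U Δ ρN r hr hU pkN x) (shapEL₁ L U ρN' r hr hU y)
  have h2 : shapTauS D U ρT τ (hc_ccup21 D (shapMul_equivariant U ρT φ hφ)
      (shapConeJ₂ D U Δ ρN r hr hU pkN x) (hc_d01 L _ (shapEL₁ L U ρN' r hr hU y))) = 0 := by
    have e := congrArg (shapTauS D U ρT τ) hleib
    rw [hx', map_zero, LinearMap.zero_apply, zero_add] at e
    exact e.symm.trans (shapTauS_dc2 D U ρT τ hτ _)
  have h3 : shapTauS D U ρT τ (hc_ccup21 D (shapMul_equivariant U ρT φ hφ)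
      (shapConeJ₂ D U Δ ρN r hr hU pkN x)
      (shapJL₁ L U ρN' r hr hU (shapShL₁ L U ρN' y))) =
      shapTauS D U ρT τ (shapConeJ₃ D U Δ (ρT.comp U.subtype) r hr hU pkT
        (hc_ccup21 (shapLocU D U Δ) (ρT := ρT.comp U.subtype) hφ x (shapShL₁ L U ρN' y))) := by
    refine shapTauS_congr D U Δ ρT pkT τ hτ _ _ ?_ ?_ ?_ ?_
    · exact shap_ccup21_mem_Zc3 _ _ hx' _ (by rw [shapJL_d12, hy₀, map_zero])
    · exact shapConeJ₃_mem_Zc3 D U Δ _ r hr hU hrg pkT _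
        (shap_ccup21_mem_Zc3 (ρT := ρT.comp U.subtype) hφ x hx _ hy₀)
    · exact shapJL_cup21 L U ρT φ hφ r hr hU x.1 (shapShL₁ L U ρN' y)
    · intro v a
      rw [shapConeJ₃_snd, map_add, (pkT v).phi_psi2, (pkT v).phi_e3, add_zero, hc_ccup21_snd,
        shapPhi_cup11 (D.Lv v) (Δ v) ρT φ hφ a _ (fun z x y => hφ ((Δ v).th a z) x y),
        shapConeJ₂_snd, map_add, (pkN v).phi_psi1, (pkN v).phi_e2, add_zero,
        shapPhi_res_J₁ D U Δ ρN' r hr hU hrg]
      rfl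
  rw [shap_b21_eq]
  conv_lhs => rw [hy_eq]
  rw [map_add, map_add, h2, add_zero, h3]
  rfl

/-- the comparison map `S₂` from cone 2-cochains of `(G; Coind_U N)` to those of `(U; N)`. -/
def shapConeS₂ {N : Type*} [AddCommGroup N] [Module k N] (ρ : Representation k U N)
    (x : hc_Cc2 D (Representation.coind U.subtype ρ)) : hc_Cc2 (shapLocU D U Δ) ρ :=
  (shapShL₂ L U ρ x.1, fun p => shapPhiL₁ (D.Lv p.1) (Δ p.1) ρ p.2
    (x.2 p.1 - hc_res1 (D.compat p.1) _ (shapEL₂ L U ρ r hr hU x.1)))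

theorem shapConeS₂_fst {N : Type*} [AddCommGroup N] [Module k N] (ρ : Representation k U N)
    (x : hc_Cc2 D (Representation.coind U.subtype ρ)) :
    (shapConeS₂ D U Δ r hr hU ρ x).1 = shapShL₂ L U ρ x.1 := rfl

theorem shapConeS₂_snd {N : Type*} [AddCommGroup N] [Module k N] (ρ : Representation k U N)
    (x : hc_Cc2 D (Representation.coind U.subtype ρ)) (v : D.V) (a : W v) :
    (shapConeS₂ D U Δ r hr hU ρ x).2 ⟨v, a⟩ = shapPhiL₁ (D.Lv v) (Δ v) ρ a
      (x.2 v - hc_res1 (D.compat v) _ (shapEL₂ L U ρ r hr hU x.1)) := rfl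

set_option maxHeartbeats 1000000 in
include h1 hrg in
/-- `S₂` maps cone 2-cocycles to cone 2-cocycles. -/
theorem shapConeS₂_cocycle {N : Type*} [AddCommGroup N] [Module k N] (ρ : Representation k U N)
    (x : hc_Cc2 D (Representation.coind U.subtype ρ)) (hx : hc_dc2 D _ x = 0) :
    hc_dc2 (shapLocU D U Δ) ρ (shapConeS₂ D U Δ r hr hU ρ x) = 0 := by
  have hx1 : hc_d23 L _ x.1 = 0 := congrArg Prod.fst hx
  have hx2 : ∀ v, hc_res2 (D.compat v) _ x.1 = hc_d12 _ _ (x.2 v) :=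
    fun v => sub_eq_zero.1 (congrFun (congrArg Prod.snd hx) v)
  have hhom := shapL_homotopy₂ L U ρ r hr hU h1 x.1 hx1
  refine Prod.ext ?_ (funext fun p => ?_)
  · show hc_d23 (shapLevSub L U) ρ (shapShL₂ L U ρ x.1) = 0
    rw [← shapShL_d23, hx1, map_zero]
  · obtain ⟨v, a⟩ := p
    show hc_res2 ((shapLocU D U Δ).compat ⟨v, a⟩) ρ (shapShL₂ L U ρ x.1)
      - hc_d12 _ _ (shapPhiL₁ (D.Lv v) (Δ v) ρ a
          (x.2 v - hc_res1 (D.compat v) _ (shapEL₂ L U ρ r hr hU x.1))) = 0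
    have e1 : hc_d12 (D.Lv v) ((Representation.coind U.subtype ρ).comp (D.ι v))
        (x.2 v - hc_res1 (D.compat v) _ (shapEL₂ L U ρ r hr hU x.1)) =
        hc_res2 (D.compat v) _ (shapJL₂ L U ρ r hr hU (shapShL₂ L U ρ x.1)) := by
      have e0 := map_sub (hc_d12 (D.Lv v) ((Representation.coind U.subtype ρ).comp (D.ι v)))
        (x.2 v) (hc_res1 (D.compat v) _ (shapEL₂ L U ρ r hr hU x.1))
      have e2 := map_sub (hc_res2 (D.compat v) (Representation.coind U.subtype ρ)) x.1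
        (shapJL₂ L U ρ r hr hU (shapShL₂ L U ρ x.1))
      rw [e0, ← hx2 v, ← hc_res2_d12, ← hhom, e2]
      abel
    rw [← shapPhiL_d12, e1, shapPhi_res_J₂ D U Δ ρ r hr hU hrg]
    exact sub_self _

set_option maxHeartbeats 1000000 in
include hτ in
/-- changing a cone 2-cochain by a cone coboundary does not change its pairing with a
1-cocycle. -/
theorem shap_b21_congr (x x₀ : hc_Cc2 D (Representation.coind U.subtype ρN))
    (z : hc_Cc1 D (Representation.coind U.subtype ρN)) (hx : x = x₀ + hc_dc1 D _ z)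
    (y : hc_C1 L (Representation.coind U.subtype ρN')) (hy : hc_d12 L _ y = 0) :
    shapTauS D U ρT τ (hc_ccup21 D (shapMul_equivariant U ρT φ hφ) x y) =
      shapTauS D U ρT τ (hc_ccup21 D (shapMul_equivariant U ρT φ hφ) x₀ y) := by
  have hleib := hc_cleibniz11 (shapMul_equivariant U ρT φ hφ) z y
  have e := congrArg (shapTauS D U ρT τ) hleib
  have e' := (shapTauS_dc2 D U ρT τ hτ _).symm.trans (e.trans
    (map_sub (shapTauS D U ρT τ)
      (hc_ccup21 D (shapMul_equivariant U ρT φ hφ) (hc_dc1 D _ z) y)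
      (hc_ccup12 D (shapMul_equivariant U ρT φ hφ) z (hc_d12 L _ y))))
  rw [hy, map_zero, map_zero, sub_zero] at e'
  subst hx
  rw [map_add, LinearMap.add_apply, map_add, ← e', add_zero]

set_option maxHeartbeats 4000000 in
include h1 hrg hτ in
/-- **T2**, pairing part: adjointness of `S₂` and the section `j₁` for the pairings `b21`. -/
theorem shap_T2_pair (x : hc_Cc2 D (Representation.coind U.subtype ρN))
    (hx : hc_dc2 D _ x = 0) (y : hc_C1 (shapLevSub L U) ρN')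
    (hy : hc_d12 (shapLevSub L U) ρN' y = 0) :
    hc_b21 (ρT := ρT.comp U.subtype) hφ (shapTauU D U Δ ρT r hr hU pkT τ)
        (shapConeS₂ D U Δ r hr hU ρN x) y =
      hc_b21 (shapPair_equivariant U ρT φ hφ) τ x (shapJL₁ L U ρN' r hr hU y) := by
  have hx1 : hc_d23 L _ x.1 = 0 := congrArg Prod.fst hx
  have hhom := shapL_homotopy₂ L U ρN r hr hU h1 x.1 hx1
  have hx_eq : x = ((shapJL₂ L U ρN r hr hU (shapShL₂ L U ρN x.1),
        fun v => x.2 v - hc_res1 (D.compat v) _ (shapEL₂ L U ρN r hr hU x.1)) :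
        hc_Cc2 D (Representation.coind U.subtype ρN))
      + hc_dc1 D _ ((shapEL₂ L U ρN r hr hU x.1, 0) :
        hc_Cc1 D (Representation.coind U.subtype ρN)) := by
    refine Prod.ext ?_ (funext fun v => ?_)
    · show x.1 = shapJL₂ L U ρN r hr hU (shapShL₂ L U ρN x.1)
        + hc_d12 L _ (shapEL₂ L U ρN r hr hU x.1)
      rw [← hhom]; abel
    · show x.2 v = (x.2 v - hc_res1 (D.compat v) _ (shapEL₂ L U ρN r hr hU x.1))
        + (hc_res1 (D.compat v) _ (shapEL₂ L U ρN r hr hU x.1)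
          - hc_d01 _ _ (0 : hc_C0 (D.Lv v) ((Representation.coind U.subtype ρN).comp (D.ι v))))
      rw [map_zero]; abel
  have hjy : hc_d12 L _ (shapJL₁ L U ρN' r hr hU y) = 0 := by rw [shapJL_d12, hy, map_zero]
  have hx₀ : hc_dc2 D _ ((shapJL₂ L U ρN r hr hU (shapShL₂ L U ρN x.1),
        fun v => x.2 v - hc_res1 (D.compat v) _ (shapEL₂ L U ρN r hr hU x.1)) :
        hc_Cc2 D (Representation.coind U.subtype ρN)) = 0 := by
    have := congrArg (hc_dc2 D (Representation.coind U.subtype ρN)) hx_eq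
    rw [map_add, hc_dc2_dc1, add_zero, hx] at this
    exact this.symm
  have hS := shapConeS₂_cocycle D U Δ r hr h1 hU hrg ρN x hx
  rw [shap_b21_eq, shap_b21_congr D U ρT φ hφ τ hτ x _ _ hx_eq _ hjy]
  symm
  refine (shapTauS_congr D U Δ ρT pkT τ hτ _ (shapConeJ₃ D U Δ (ρT.comp U.subtype) r hr hU pkT
    (hc_ccup21 (shapLocU D U Δ) (ρT := ρT.comp U.subtype) hφ
      (shapConeS₂ D U Δ r hr hU ρN x) y)) ?_ ?_ ?_ ?_).trans rfl
  · exact shap_ccup21_mem_Zc3 _ _ hx₀ _ hjy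
  · exact shapConeJ₃_mem_Zc3 D U Δ _ r hr hU hrg pkT _
      (shap_ccup21_mem_Zc3 (ρT := ρT.comp U.subtype) hφ _ hS _ hy)
  · exact shapJL_cup21 L U ρT φ hφ r hr hU (shapShL₂ L U ρN x.1) y
  · intro v a
    rw [shapConeJ₃_snd, map_add, (pkT v).phi_psi2, (pkT v).phi_e3, add_zero, hc_ccup21_snd,
      shapPhi_cup11 (D.Lv v) (Δ v) ρT φ hφ a _ (fun z x y => hφ ((Δ v).th a z) x y),
      shapPhi_res_J₁ D U Δ ρN' r hr hU hrg]
    rfl

set_option maxHeartbeats 4000000 in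
include h1 hrg pkN in
/-- **T2**, injectivity part: if `S₂ x` is a cone coboundary then so is `x`. -/
theorem shap_T2_inj (x : hc_Cc2 D (Representation.coind U.subtype ρN))
    (hx : hc_dc2 D _ x = 0) (z : hc_Cc1 (shapLocU D U Δ) ρN)
    (hz : hc_dc1 (shapLocU D U Δ) ρN z = shapConeS₂ D U Δ r hr hU ρN x) :
    ∃ z' : hc_Cc1 D (Representation.coind U.subtype ρN), hc_dc1 D _ z' = x := by
  have hx1 : hc_d23 L _ x.1 = 0 := congrArg Prod.fst hx
  have hx2 : ∀ v, hc_res2 (D.compat v) _ x.1 = hc_d12 _ _ (x.2 v) :=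
    fun v => sub_eq_zero.1 (congrFun (congrArg Prod.snd hx) v)
  have hhom := shapL_homotopy₂ L U ρN r hr hU h1 x.1 hx1
  have hz1 : hc_d12 (shapLevSub L U) ρN z.1 = shapShL₂ L U ρN x.1 := congrArg Prod.fst hz
  have hz2 : ∀ v a, hc_res1 ((shapLocU D U Δ).compat ⟨v, a⟩) ρN z.1 - hc_d01 _ _ (z.2 ⟨v, a⟩) =
      shapPhiL₁ (D.Lv v) (Δ v) ρN a
        (x.2 v - hc_res1 (D.compat v) _ (shapEL₂ L U ρN r hr hU x.1)) :=
    fun v a => congrFun (congrArg Prod.snd hz) ⟨v, a⟩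
  have hC : hc_d12 L _ (shapJL₁ L U ρN r hr hU z.1 + shapEL₂ L U ρN r hr hU x.1) = x.1 := by
    rw [map_add, shapJL_d12, hz1, ← hhom]; abel
  have hk : ∀ v, hc_res1 (D.compat v) _
        (shapJL₁ L U ρN r hr hU z.1 + shapEL₂ L U ρN r hr hU x.1) - x.2 v =
      hc_d01 _ _ ((pkN v).psi0 (fun a => z.2 ⟨v, a⟩) + (pkN v).e1 (hc_res1 (D.compat v) _
        (shapJL₁ L U ρN r hr hU z.1 + shapEL₂ L U ρN r hr hU x.1) - x.2 v)) := by
    intro v
    refine (pkN v).k1 _ (fun a => z.2 ⟨v, a⟩) ?_ (fun a => ?_)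
    · have e0 := map_sub (hc_d12 (D.Lv v) ((Representation.coind U.subtype ρN).comp (D.ι v)))
        (hc_res1 (D.compat v) _ (shapJL₁ L U ρN r hr hU z.1 + shapEL₂ L U ρN r hr hU x.1))
        (x.2 v)
      rw [e0, ← hc_res2_d12, hC, ← hx2 v]
      exact sub_self _
    · have e0 := map_sub (shapPhiL₁ (D.Lv v) (Δ v) ρN a)
        (hc_res1 (D.compat v) _ (shapJL₁ L U ρN r hr hU z.1 + shapEL₂ L U ρN r hr hU x.1))
        (x.2 v)
      have e1 := map_sub (shapPhiL₁ (D.Lv v) (Δ v) ρN a) (x.2 v)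
        (hc_res1 (D.compat v) _ (shapEL₂ L U ρN r hr hU x.1))
      have h3 := hz2 v a
      rw [e1] at h3
      have h4 := sub_eq_iff_eq_add.1 h3
      rw [e0, map_add, map_add, shapPhi_res_J₁ D U Δ ρN r hr hU hrg, h4]
      abel
  refine ⟨(shapJL₁ L U ρN r hr hU z.1 + shapEL₂ L U ρN r hr hU x.1,
    fun v => (pkN v).psi0 (fun a => z.2 ⟨v, a⟩) + (pkN v).e1 (hc_res1 (D.compat v) _
        (shapJL₁ L U ρN r hr hU z.1 + shapEL₂ L U ρN r hr hU x.1) - x.2 v)),
    Prod.ext hC (funext fun v => ?_)⟩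
  show hc_res1 (D.compat v) _ (shapJL₁ L U ρN r hr hU z.1 + shapEL₂ L U ρN r hr hU x.1)
    - hc_d01 _ _ ((pkN v).psi0 (fun a => z.2 ⟨v, a⟩) + (pkN v).e1 (hc_res1 (D.compat v) _
        (shapJL₁ L U ρN r hr hU z.1 + shapEL₂ L U ρN r hr hU x.1) - x.2 v)) = x.2 v
  rw [← hk v]
  abel

end transfer

/-! ### the comparison data and the transfer theorem -/

section qdata

variable {k : Type w} [Field k] {G : Type u} [Group G] {L : hc_Lev G} (D : hc_Loc.{u, u, u} L)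
  (U : Subgroup G) [U.FiniteIndex] {W : D.V → Type u} (Δ : ∀ v, ShlDec (D.ι v) U (W v))
  {N N' : Type u} {T : Type*} [AddCommGroup N] [Module k N] [AddCommGroup N'] [Module k N']
  [AddCommGroup T] [Module k T]
  {ρN : Representation k U N} {ρN' : Representation k U N'} (ρT : Representation k G T)
  (φ : N →ₗ[k] N' →ₗ[k] T)
  (hφ : ∀ (u : U) (a : N) (b : N'), φ (ρN u a) (ρN' u b) = ρT (u : G) (φ a b))
  (r : G → U) (hr : ∀ (u : U) (x : G), r ((u : G) * x) = u * r x) (h1 : r 1 = 1)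
  (hU : ∃ M ∈ L.S, M ≤ U) (hrg : ∀ v a, r ((Δ v).g a) = 1)
  (pkN : ∀ v, ShapLP (D.Lv v) (Δ v) ρN)
  (pkT : ∀ v, ShapLP (D.Lv v) (Δ v) (ρT.comp U.subtype))
  (τ : hc_Cc3 D ρT →ₗ[k] k) (hτ : ∀ x, τ (hc_dc2 D ρT x) = 0)

theorem shap_s2_Z (y : hc_C2 L (Representation.coind U.subtype ρN'))
    (hy : y ∈ LinearMap.ker (hc_d23 L (Representation.coind U.subtype ρN'))) :
    shapShL₂ L U ρN' y ∈ LinearMap.ker (hc_d23 (shapLevSub L U) ρN') := by
  rw [LinearMap.mem_ker] at hy ⊢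
  rw [← shapShL_d23, hy, map_zero]

include hU in
theorem shap_j1_B (y : hc_C1 (shapLevSub L U) ρN')
    (hy : y ∈ LinearMap.range (hc_d01 (shapLevSub L U) ρN')) :
    shapJL₁ L U ρN' r hr hU y ∈ LinearMap.range (hc_d01 L (Representation.coind U.subtype ρN')) := by
  obtain ⟨m, rfl⟩ := hy
  exact ⟨shapJL₀ L U ρN' r hr hU m, shapJL_d01 L U ρN' r hr hU m⟩

include h1 in
theorem shap_hom2 (y : hc_C2 L (Representation.coind U.subtype ρN'))
    (hy : y ∈ LinearMap.ker (hc_d23 L (Representation.coind U.subtype ρN'))) :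
    ∃ w, y - shapJL₂ L U ρN' r hr hU (shapShL₂ L U ρN' y) = hc_d12 L _ w :=
  ⟨shapEL₂ L U ρN' r hr hU y, shapL_homotopy₂ L U ρN' r hr hU h1 y (LinearMap.mem_ker.1 hy)⟩

include h1 in
theorem shap_hom1 (y : hc_C1 L (Representation.coind U.subtype ρN'))
    (hy : hc_d12 L (Representation.coind U.subtype ρN') y = 0) :
    y - shapJL₁ L U ρN' r hr hU (shapShL₁ L U ρN' y) ∈
      LinearMap.range (hc_d01 L (Representation.coind U.subtype ρN')) :=
  ⟨shapEL₁ L U ρN' r hr hU y, (shapL_homotopy₁ L U ρN' r hr hU h1 y hy).symm⟩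

include h1 hrg hτ pkN in
theorem shap_t1 (x : hc_Cc1 (shapLocU D U Δ) ρN) (hx : hc_dc1 (shapLocU D U Δ) ρN x = 0) :
    ∃ x' : hc_Cc1 D (Representation.coind U.subtype ρN), hc_dc1 D _ x' = 0 ∧
      ∀ y ∈ LinearMap.ker (hc_d23 L (Representation.coind U.subtype ρN')),
        hc_b12 (shapPair_equivariant U ρT φ hφ) τ x' y =
          hc_b12 (ρT := ρT.comp U.subtype) hφ (shapTauU D U Δ ρT r hr hU pkT τ) x
            (shapShL₂ L U ρN' y) :=
  ⟨shapConeJ₁ D U Δ ρN r hr hU pkN x, shapConeJ₁_cocycle D U Δ ρN r hr hU hrg pkN x hx,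
    fun y hy => shap_T1 D U Δ ρT φ hφ r hr h1 hU hrg pkN pkT τ hτ x hx y (LinearMap.mem_ker.1 hy)⟩

include h1 hrg hτ pkN in
theorem shap_t2 (x : hc_Cc2 D (Representation.coind U.subtype ρN))
    (hx : x ∈ LinearMap.ker (hc_dc2 D (Representation.coind U.subtype ρN))) :
    ∃ x' ∈ LinearMap.ker (hc_dc2 (shapLocU D U Δ) ρN),
      (∀ y, hc_d12 (shapLevSub L U) ρN' y = 0 →
        hc_b21 (ρT := ρT.comp U.subtype) hφ (shapTauU D U Δ ρT r hr hU pkT τ) x' y =
          hc_b21 (shapPair_equivariant U ρT φ hφ) τ x (shapJL₁ L U ρN' r hr hU y)) ∧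
      ((∃ z, hc_dc1 (shapLocU D U Δ) ρN z = x') →
        ∃ z, hc_dc1 D (Representation.coind U.subtype ρN) z = x) :=
  ⟨shapConeS₂ D U Δ r hr hU ρN x,
    LinearMap.mem_ker.2 (shapConeS₂_cocycle D U Δ r hr h1 hU hrg ρN x (LinearMap.mem_ker.1 hx)),
    fun y hy => shap_T2_pair D U Δ ρT φ hφ r hr h1 hU hrg pkT τ hτ x (LinearMap.mem_ker.1 hx) y hy,
    fun ⟨z, hz⟩ => shap_T2_inj D U Δ r hr h1 hU hrg pkN x (LinearMap.mem_ker.1 hx) z hz⟩

include h1 hrg hτ pkN in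
theorem shap_t3 (x : hc_Cc2 (shapLocU D U Δ) ρN)
    (hx : x ∈ LinearMap.ker (hc_dc2 (shapLocU D U Δ) ρN)) :
    ∃ x' ∈ LinearMap.ker (hc_dc2 D (Representation.coind U.subtype ρN)),
      ∀ y, hc_d12 L (Representation.coind U.subtype ρN') y = 0 →
        hc_b21 (shapPair_equivariant U ρT φ hφ) τ x' y =
          hc_b21 (ρT := ρT.comp U.subtype) hφ (shapTauU D U Δ ρT r hr hU pkT τ) x
            (shapShL₁ L U ρN' y) :=
  ⟨shapConeJ₂ D U Δ ρN r hr hU pkN x,
    LinearMap.mem_ker.2 (shapConeJ₂_cocycle D U Δ ρN r hr hU hrg pkN x (LinearMap.mem_ker.1 hx)),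
    fun y hy => shap_T3 D U Δ ρT φ hφ r hr h1 hU hrg pkN pkT τ hτ x (LinearMap.mem_ker.1 hx) y hy⟩

/-- **The Shapiro comparison** between the paired complex of `(G; Coind_U N, Coind_U N')`
(pairing `shapPair`, trace `τ`) and the paired complex of `(U; N, N')` (pairing `φ`, trace
`shapTauU`). -/
noncomputable def shapQData :
    ShapQData (hc_QC D τ hτ (shapPair_equivariant U ρT φ hφ))
      (hc_QC (shapLocU D U Δ) (shapTauU D U Δ ρT r hr hU pkT τ)
        (shapTauU_dc2 D U Δ ρT r hr hU hrg pkT τ hτ) (ρT := ρT.comp U.subtype) hφ) where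
  s1 := shapShL₁ L U ρN'
  s2 := shapShL₂ L U ρN'
  j1 := shapJL₁ L U ρN' r hr hU
  j2 := shapJL₂ L U ρN' r hr hU
  j_d y := (shapJL_d12 L U ρN' r hr hU y).symm
  s_d y := shapShL_d12 L U ρN' y
  s2_Z := shap_s2_Z U
  j1_B := shap_j1_B U r hr hU
  hom2 := shap_hom2 U r hr h1 hU
  hom1 := shap_hom1 U r hr h1 hU
  t1 := shap_t1 D U Δ ρT φ hφ r hr h1 hU hrg pkN pkT τ hτ
  t2 := shap_t2 D U Δ ρT φ hφ r hr h1 hU hrg pkN pkT τ hτ
  t3 := shap_t3 D U Δ ρT φ hφ r hr h1 hU hrg pkN pkT τ hτ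

include h1 hrg pkN in
/-- **Shapiro transfer**: the duality properties pass from the `U`-complex to the
`G`-complex of the coinduced modules. -/
theorem shap_transfer
    (hQ : (hc_QC (shapLocU D U Δ) (shapTauU D U Δ ρT r hr hU pkT τ)
        (shapTauU_dc2 D U Δ ρT r hr hU hrg pkT τ hτ) (ρT := ρT.comp U.subtype) hφ).A1Surj ∧
      (hc_QC (shapLocU D U Δ) (shapTauU D U Δ ρT r hr hU pkT τ)
        (shapTauU_dc2 D U Δ ρT r hr hU hrg pkT τ hτ) (ρT := ρT.comp U.subtype) hφ).A2Inj ∧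
      (hc_QC (shapLocU D U Δ) (shapTauU D U Δ ρT r hr hU pkT τ)
        (shapTauU_dc2 D U Δ ρT r hr hU hrg pkT τ hτ) (ρT := ρT.comp U.subtype) hφ).A2Surj) :
    (hc_QC D τ hτ (shapPair_equivariant U ρT φ hφ)).A1Surj ∧
      (hc_QC D τ hτ (shapPair_equivariant U ρT φ hφ)).A2Inj ∧
      (hc_QC D τ hτ (shapPair_equivariant U ρT φ hφ)).A2Surj :=
  ⟨(shapQData D U Δ ρT φ hφ r hr h1 hU hrg pkN pkT τ hτ).a1Surj hQ.1,
    (shapQData D U Δ ρT φ hφ r hr h1 hU hrg pkN pkT τ hτ).a2Inj hQ.2.1,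
    (shapQData D U Δ ρT φ hφ r hr h1 hU hrg pkN pkT τ hτ).a2Surj hQ.2.2⟩

end qdata

end Fermat.Agent.S55
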