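import Fermat.Agent.S14.Density

/-!
# S55 service lemma SPLIT (analytic): non-split primes in Kummer extensions

If `F` is a number field containing a primitive `p`-th root of unity and `e ∈ 𝓞 F` is not a
`p`-th power in `F`, then there are infinitely many primes `v` of degree one, prime to `p` and
to `e`, at which `e` is not a `p`-th power residue.  (Equivalently: infinitely many primes do
not split in `F(e^{1/p})`.)  This is a direct consequence of the prime-sum bounds proved for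
S14 (`primeSum_ge`, `primeSum_powRes_le`).
-/

set_option autoImplicit false

open NumberField IsDedekindDomain

namespace Fermat.Agent.S55

open Fermat.Agent.S14

/-- The set of degree-one primes, prime to `p` and `e`, where `e` is not a `p`-th power
residue. -/
def splitBad (F : Type) [Field F] [NumberField F] (p : ℕ) (e : 𝓞 F) :
    Set (HeightOneSpectrum (𝓞 F)) :=
  {v | (Ideal.absNorm v.asIdeal).Prime ∧ (p : 𝓞 F) ∉ v.asIdeal ∧ e ∉ v.asIdeal ∧
    ¬ ∃ x : 𝓞 F, e - x ^ p ∈ v.asIdeal}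

theorem split_finite_primes_over (F : Type) [Field F] [NumberField F] (e : 𝓞 F) (he : e ≠ 0) :
    {v : HeightOneSpectrum (𝓞 F) | e ∈ v.asIdeal}.Finite := by
  have h0 : Ideal.span {e} ≠ 0 := by
    rw [Ideal.zero_eq_bot, Ne, Ideal.span_singleton_eq_bot]
    exact he
  refine (Ideal.finite_factors h0).subset (fun v hv => ?_)
  exact Ideal.dvd_span_singleton.mpr hv

/-- (SPLIT) infinitely many degree-one primes at which `e` is not a `p`-th power residue. -/
theorem split_infinite (F : Type) [Field F] [NumberField F] (p : ℕ) [Fact p.Prime] {ζ : F}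
    (hζ : IsPrimitiveRoot ζ p) (e : 𝓞 F) (he : ∀ c : F, (e : F) ≠ c ^ p) :
    (splitBad F p e).Infinite := by
  intro hB
  have hp := (Fact.out : p.Prime)
  have hp0 : p ≠ 0 := hp.ne_zero
  have he0 : e ≠ 0 := by
    rintro rfl
    exact he 0 (by simp [hp0])
  obtain ⟨C₀, δ₀, hδ₀, hge⟩ := primeSum_ge F
  obtain ⟨C₂, δ₂, hδ₂, hpow⟩ := primeSum_powRes_le F p hζ e he
  have hfinP := density_finite_primes_over F p hp0
  have hfinE := split_finite_primes_over F e he0
  have hfinV : ({v : HeightOneSpectrum (𝓞 F) | (p : 𝓞 F) ∈ v.asIdeal} ∪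
      {v : HeightOneSpectrum (𝓞 F) | e ∈ v.asIdeal}).Finite := hfinP.union hfinE
  set K₁ : ℝ := (hB.toFinset.card : ℝ) with hK₁
  set K₃ : ℝ := (hfinV.toFinset.card : ℝ) with hK₃
  have hsub : {v : HeightOneSpectrum (𝓞 F) | (Ideal.absNorm v.asIdeal).Prime} ⊆
      {v : HeightOneSpectrum (𝓞 F) | (p : 𝓞 F) ∉ v.asIdeal ∧ e ∉ v.asIdeal ∧
          ∃ x : 𝓞 F, e - x ^ p ∈ v.asIdeal} ∪ splitBad F p e ∪
      ({v : HeightOneSpectrum (𝓞 F) | (p : 𝓞 F) ∈ v.asIdeal} ∪
        {v : HeightOneSpectrum (𝓞 F) | e ∈ v.asIdeal}) := by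
    intro v hv
    by_cases hpv : (p : 𝓞 F) ∈ v.asIdeal
    · exact Or.inr (Or.inl hpv)
    · by_cases hev : e ∈ v.asIdeal
      · exact Or.inr (Or.inr hev)
      · by_cases hx : ∃ x : 𝓞 F, e - x ^ p ∈ v.asIdeal
        · exact Or.inl (Or.inl ⟨hpv, hev, hx⟩)
        · exact Or.inl (Or.inr ⟨hv, hpv, hev, hx⟩)
  set M : ℝ := C₀ + C₂ + K₁ + K₃ with hM
  set t : ℝ := min (min (δ₀ / 2) (δ₂ / 2)) (Real.exp (-(2 * |M| + 2))) with ht
  have ht0 : 0 < t := by
    rw [ht]
    exact lt_min (lt_min (by linarith) (by linarith)) (Real.exp_pos _)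
  have ht₀ : t < δ₀ := lt_of_le_of_lt ((min_le_left _ _).trans (min_le_left _ _)) (by linarith)
  have ht₂ : t < δ₂ := lt_of_le_of_lt ((min_le_left _ _).trans (min_le_right _ _)) (by linarith)
  have hte : t ≤ Real.exp (-(2 * |M| + 2)) := min_le_right _ _
  have hs1 : 1 < 1 + t := by linarith
  have h0 := hge (1 + t) hs1 (by linarith)
  have h2 := hpow (1 + t) hs1 (by linarith)
  have h1' := density_primeSum_finite_le F _ hB (1 + t) (by linarith)
  have h3' := density_primeSum_finite_le F _ hfinV (1 + t) (by linarith)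
  have hcov := density_primeSum_le_union F _ _ _ _ hsub (1 + t) hs1
  have hL : Real.log (1 / (1 + t - 1)) = -Real.log t := by
    rw [add_sub_cancel_left, one_div, Real.log_inv]
  rw [hL] at h0 h2
  have hlog : Real.log t ≤ -(2 * |M| + 2) := (Real.log_le_iff_le_exp ht0).mpr hte
  have hp2 : (1 : ℝ) / (p : ℝ) ≤ 1 / 2 :=
    one_div_le_one_div_of_le (by norm_num) (by exact_mod_cast hp.two_le)
  have hLpos : 0 ≤ -Real.log t := by
    have := abs_nonneg M
    linarith
  have hmul : (1 / (p : ℝ)) * (-Real.log t) ≤ (1 / 2) * (-Real.log t) :=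
    mul_le_mul_of_nonneg_right hp2 hLpos
  have hMabs : M ≤ |M| := le_abs_self M
  have hfinal : -Real.log t - C₀ ≤ (1 / 2) * (-Real.log t) + C₂ + K₁ + K₃ := by linarith
  linarith

/-- (SPLIT), existence form: outside any finite set of primes there is a degree-one prime,
prime to `p` and `e`, at which `e` is not a `p`-th power residue. -/
theorem split_exists (F : Type) [Field F] [NumberField F] (p : ℕ) [Fact p.Prime] {ζ : F}
    (hζ : IsPrimitiveRoot ζ p) (e : 𝓞 F) (he : ∀ c : F, (e : F) ≠ c ^ p)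
    (T : Set (HeightOneSpectrum (𝓞 F))) (hT : T.Finite) :
    ∃ v : HeightOneSpectrum (𝓞 F), v ∉ T ∧ (Ideal.absNorm v.asIdeal).Prime ∧
      (p : 𝓞 F) ∉ v.asIdeal ∧ e ∉ v.asIdeal ∧ ¬ ∃ x : 𝓞 F, e - x ^ p ∈ v.asIdeal := by
  obtain ⟨v, hv, hvT⟩ := (split_infinite F p hζ e he).exists_notMem_finite hT
  exact ⟨v, hvT, hv.1, hv.2.1, hv.2.2.1, hv.2.2.2⟩

end Fermat.Agent.S55
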