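import Mathlib

/-!
# S55, block TC (finite-group cohomology), part 1: long exact sequence transfers,
the coinduced module `Fun(G, V)` and dimension shifting

Everything is in Mathlib's `Rep k G` / `groupCohomology` framework.
-/

set_option autoImplicit false

namespace Fermat.Agent.S55

open CategoryTheory CategoryTheory.Limits groupCohomology

universe u

section LES

variable {k G : Type u} [CommRing k] [Group G]

/-- `H^{n+1}(X₁) = 0` from `H^n(X₃) = 0` and `H^{n+1}(X₂) = 0`. -/
theorem tc_isZero_X₁ {X : ShortComplex (Rep.{u} k G)} (hX : X.ShortExact) (n : ℕ)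
    (h3 : IsZero (groupCohomology X.X₃ n)) (h2 : IsZero (groupCohomology X.X₂ (n + 1))) :
    IsZero (groupCohomology X.X₁ (n + 1)) :=
  (mapShortComplex₁_exact hX (i := n) (j := n + 1) rfl).isZero_of_both_zeros
    (h3.eq_of_src _ _) (h2.eq_of_tgt _ _)

/-- `H^n(X₃) = 0` from `H^n(X₂) = 0` and `H^{n+1}(X₁) = 0`. -/
theorem tc_isZero_X₃ {X : ShortComplex (Rep.{u} k G)} (hX : X.ShortExact) (n : ℕ)
    (h2 : IsZero (groupCohomology X.X₂ n)) (h1 : IsZero (groupCohomology X.X₁ (n + 1))) :
    IsZero (groupCohomology X.X₃ n) :=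
  (mapShortComplex₃_exact hX (i := n) (j := n + 1) rfl).isZero_of_both_zeros
    (h2.eq_of_src _ _) (h1.eq_of_tgt _ _)

/-- `H^n(X₂) = 0` from `H^n(X₁) = 0` and `H^n(X₃) = 0`. -/
theorem tc_isZero_X₂ {X : ShortComplex (Rep.{u} k G)} (hX : X.ShortExact) (n : ℕ)
    (h1 : IsZero (groupCohomology X.X₁ n)) (h3 : IsZero (groupCohomology X.X₃ n)) :
    IsZero (groupCohomology X.X₂ n) :=
  (mapShortComplex₂_exact hX n).isZero_of_both_zeros
    (h1.eq_of_src _ _) (h3.eq_of_tgt _ _)

/-- Isomorphic representations have isomorphic cohomology. -/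
theorem tc_isZero_of_iso {A B : Rep.{u} k G} (e : A ≅ B) (n : ℕ)
    (h : IsZero (groupCohomology B n)) : IsZero (groupCohomology A n) :=
  h.of_iso ((groupCohomology.functor k G n).mapIso e)

end LES

section Fun

variable (k : Type u) (H : Type u) [CommRing k] [Group H]
  (W : Type u) [AddCommGroup W] [Module k W]

/-- The right-translation representation of `H` on functions `H → W`:
`(h • f) x = f (x * h)`. -/
def tcFunRep : Representation k H (H → W) where
  toFun h := LinearMap.funLeft k W (· * h)
  map_one' := by ext; simp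
  map_mul' _ _ := by ext; simp [mul_assoc]

@[simp]
theorem tcFunRep_apply (h : H) (f : H → W) (x : H) : tcFunRep k H W h f x = f (x * h) := rfl

/-- `Fun(H, W)` with right translation, as an object of `Rep k H`. -/
noncomputable abbrev tcFun : Rep.{u} k H := Rep.of (tcFunRep k H W)

/-- `Fun(H, W)` is coinduced from the trivial subgroup. -/
noncomputable def tcFunEquivCoind :
    (tcFunRep k H W).Equiv
      (Representation.coind (⊥ : Subgroup H).subtype
        (Representation.trivial k (⊥ : Subgroup H) W)) :=
  Representation.Equiv.mk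
    { toFun := fun f => ⟨f, fun g h => by
        have hg : (g : H) = 1 := Subgroup.mem_bot.1 g.2
        simp [hg]⟩
      map_add' := fun _ _ => rfl
      map_smul' := fun _ _ => rfl
      invFun := fun f => f.1
      left_inv := fun _ => rfl
      right_inv := fun _ => rfl }
    (fun g => by ext f x; rfl)

/-- `Fun(H, W)` is acyclic. -/
theorem tc_isZero_fun (n : ℕ) : IsZero (groupCohomology (tcFun k H W) (n + 1)) := by
  have e : tcFun k H W ≅ Rep.coind (⊥ : Subgroup H).subtype
      (Rep.trivial k (⊥ : Subgroup H) W) := Rep.mkIso (tcFunEquivCoind k H W)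
  refine tc_isZero_of_iso e (n + 1) ?_
  exact (isZero_groupCohomology_succ_of_subsingleton _ n).of_iso (coindIso _ (n + 1))

end Fun

section Exactness

variable {k G : Type u} [CommRing k] [Group G]

/-- Exactness in `Rep k G` in terms of elements. -/
theorem tc_exact_iff (S : ShortComplex (Rep.{u} k G)) :
    S.Exact ↔ ∀ y : S.X₂, S.g.hom y = 0 → ∃ x : S.X₁, S.f.hom x = y := by
  rw [← ShortComplex.exact_map_iff_of_faithful S (forget₂ (Rep.{u} k G) (ModuleCat.{u} k)),
    ShortComplex.moduleCat_exact_iff]
  rfl

/-- Short exactness in `Rep k G` in terms of elements. -/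
theorem tc_shortExact_iff (S : ShortComplex (Rep.{u} k G)) :
    S.ShortExact ↔ Function.Injective S.f.hom ∧ Function.Surjective S.g.hom ∧
      ∀ y : S.X₂, S.g.hom y = 0 → ∃ x : S.X₁, S.f.hom x = y := by
  constructor
  · intro h
    exact ⟨(Rep.mono_iff_injective _).1 h.mono_f, (Rep.epi_iff_surjective _).1 h.epi_g,
      (tc_exact_iff S).1 h.exact⟩
  · rintro ⟨h1, h2, h3⟩
    exact { exact := (tc_exact_iff S).2 h3
            mono_f := (Rep.mono_iff_injective _).2 h1
            epi_g := (Rep.epi_iff_surjective _).2 h2 }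

end Exactness

section Shift

variable {k G : Type u} [CommRing k] [Group G] (A : Rep.{u} k G)

/-- The embedding `A → Fun(G, A)`, `a ↦ (x ↦ x • a)`. -/
noncomputable def tcUnit : A ⟶ tcFun k G A.V :=
  Rep.ofHom (ρ := A.ρ) (σ := tcFunRep k G A.V)
    ⟨{ toFun := fun a x => A.ρ x a
       map_add' := fun a b => by ext x; simp
       map_smul' := fun c a => by ext x; simp },
      fun g => by ext a x; simp⟩

@[simp]
theorem tcUnit_apply (a : A) (x : G) : (tcUnit A).hom a x = A.ρ x a := rfl

theorem tcUnit_injective : Function.Injective (tcUnit A).hom := by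
  intro a b h
  have := congrFun h 1
  change A.ρ 1 a = A.ρ 1 b at this
  simpa using this

instance : Mono (tcUnit A) := (Rep.mono_iff_injective _).2 (tcUnit_injective A)

/-- The dimension-shifting short complex `0 → A → Fun(G, A) → A' → 0`. -/
noncomputable def tcSeq : ShortComplex (Rep.{u} k G) :=
  ShortComplex.mk (tcUnit A) (cokernel.π (tcUnit A)) (cokernel.condition _)

/-- The shifted module `A' = Fun(G, A) / A`. -/
noncomputable abbrev tcShift : Rep.{u} k G := (tcSeq A).X₃

theorem tcSeq_shortExact : (tcSeq A).ShortExact :=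
  ShortComplex.ShortExact.mk' (ShortComplex.exact_cokernel _)
    (inferInstanceAs (Mono (tcUnit A))) (inferInstanceAs (Epi (cokernel.π (tcUnit A))))

theorem tcSeq_X₁ : (tcSeq A).X₁ = A := rfl

theorem tcSeq_X₂ : (tcSeq A).X₂ = tcFun k G A.V := rfl

/-- Dimension shifting upwards: `H^n(A') = 0 → H^{n+1}(A) = 0`. -/
theorem tc_shift_up (n : ℕ) (h : IsZero (groupCohomology (tcShift A) n)) :
    IsZero (groupCohomology A (n + 1)) :=
  tc_isZero_X₁ (tcSeq_shortExact A) n h (tc_isZero_fun k G A.V n)

/-- Dimension shifting downwards: `H^{n+2}(A) = 0 → H^{n+1}(A') = 0`. -/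
theorem tc_shift_down (n : ℕ) (h : IsZero (groupCohomology A (n + 2))) :
    IsZero (groupCohomology (tcShift A) (n + 1)) :=
  tc_isZero_X₃ (tcSeq_shortExact A) (n + 1) (tc_isZero_fun k G A.V n) h

end Shift

section Restrict

variable (k : Type u) (G : Type u) [CommRing k] [Group G] (N : Subgroup G)
  (V : Type u) [AddCommGroup V] [Module k V]

theorem tc_out_inv_mul_mem (g : G) : (QuotientGroup.mk g : G ⧸ N).out⁻¹ * g ∈ N := by
  rw [← QuotientGroup.eq]
  exact QuotientGroup.out_eq' _

/-- `Fun(G, V)` restricted to a subgroup `N` is `Fun(N, Fun(G/N, V))`. -/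
noncomputable def tcFunResEquiv :
    Representation.Equiv (MonoidHom.comp (tcFunRep k G V) N.subtype)
      (tcFunRep k N (G ⧸ N → V)) :=
  Representation.Equiv.mk
    { toFun := fun f n q => f (q.out * n)
      map_add' := fun _ _ => rfl
      map_smul' := fun _ _ => rfl
      invFun := fun F g => F ⟨(QuotientGroup.mk g : G ⧸ N).out⁻¹ * g, tc_out_inv_mul_mem G N g⟩
        (QuotientGroup.mk g)
      left_inv := fun f => by
        funext g
        simp
      right_inv := fun F => by
        funext n q
        have h1 : (QuotientGroup.mk (q.out * (n : G)) : G ⧸ N) = q := by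
          have h0 : (QuotientGroup.mk (q.out * (n : G)) : G ⧸ N) = QuotientGroup.mk q.out := by
            rw [QuotientGroup.eq]
            have : (q.out * (n : G))⁻¹ * q.out = (n : G)⁻¹ := by group
            rw [this]
            exact N.inv_mem n.2
          exact h0.trans (QuotientGroup.out_eq' q)
        simp only
        have h2 : (⟨(QuotientGroup.mk (q.out * (n : G)) : G ⧸ N).out⁻¹ * (q.out * (n : G)),
            tc_out_inv_mul_mem G N _⟩ : N) = n := by
          apply Subtype.ext
          simp only [h1]
          group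
        rw [h2, h1] }
    (fun n => by
      ext f n' q
      simp [mul_assoc])

/-- `Fun(G, V)` is acyclic for every subgroup. -/
theorem tc_isZero_fun_res (n : ℕ) :
    IsZero (groupCohomology (Rep.res N.subtype (tcFun k G V)) (n + 1)) := by
  have e : Rep.res N.subtype (tcFun k G V) ≅ tcFun k N (G ⧸ N → V) :=
    Rep.mkIso (tcFunResEquiv k G N V)
  exact tc_isZero_of_iso e (n + 1) (tc_isZero_fun k N (G ⧸ N → V) n)

end Restrict

end Fermat.Agent.S55
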