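import Fermat.Agent.S55.TcInfRes

/-!
# S55, block TC, part 4: the splitting module of a 2-cocycle

For a finite group `G`, a representation `ρ` of `G` on `V` and a 2-cocycle `u : G × G → V`, the
splitting module is `V × J`, `J = ker(aug : Fun(G, k) → k)`, with the twisted action
`g • (a, j) = (g • a + θ_g(j), g • j)`, `θ_g(F) = Σ_τ F(τ⁻¹) • u(g, τ)`.

This file contains the elementary (cocycle level) part:
* `tcSplitRep`: the representation;
* `tc_split_H1`, `tc_split_H2`: vanishing of `H¹(H, V × J)` and `H²(H, V × J)` in explicit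
  cocycle form, under explicit hypotheses on `H¹(H, V)`, `H²(H, V)`.
-/

set_option autoImplicit false

namespace Fermat.Agent.S55

open CategoryTheory CategoryTheory.Limits groupCohomology

universe u

section Aug

variable (k G : Type u) [CommRing k] [Group G] [Fintype G]

/-- The augmentation `Fun(G, k) → k`. -/
def tcAug : (G → k) →ₗ[k] k where
  toFun F := ∑ x, F x
  map_add' F F' := by simp [Finset.sum_add_distrib]
  map_smul' m F := by simp [Finset.mul_sum]

theorem tcAug_apply (F : G → k) : tcAug k G F = ∑ x, F x := rfl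

theorem tcAug_translate (g : G) (F : G → k) :
    tcAug k G (tcFunRep k G k g F) = tcAug k G F := by
  simp only [tcAug_apply, tcFunRep_apply]
  exact Fintype.sum_equiv (Equiv.mulRight g) _ _ (fun _ => rfl)

/-- The augmentation ideal `J = ker(aug)`. -/
def tcJSub : Submodule k (G → k) := LinearMap.ker (tcAug k G)

theorem tcJSub_mem (F : G → k) : F ∈ tcJSub k G ↔ tcAug k G F = 0 := LinearMap.mem_ker

/-- The representation of `G` on `J` (right translation). -/
def tcJRep : Representation k G (tcJSub k G) :=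
  Representation.subrepresentation (tcFunRep k G k) (tcJSub k G) (fun g F hF => by
    rw [Submodule.mem_comap, tcJSub_mem, tcAug_translate]
    exact (tcJSub_mem k G F).1 hF)

theorem tcJRep_coe (g : G) (j : tcJSub k G) :
    (tcJRep k G g j : G → k) = tcFunRep k G k g j.1 := rfl

end Aug

section Theta

variable {k G : Type u} [CommRing k] [Group G] [Fintype G]
  {V : Type u} [AddCommGroup V] [Module k V] (ρ : Representation k G V) (u : G × G → V)

/-- `θ_g(F) = Σ_τ F(τ⁻¹) • u(g, τ)`. -/
def tcTheta (g : G) : (G → k) →ₗ[k] V where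
  toFun F := ∑ τ, F τ⁻¹ • u (g, τ)
  map_add' F F' := by simp [add_smul, Finset.sum_add_distrib]
  map_smul' m F := by simp [Finset.smul_sum, mul_smul]

theorem tcTheta_apply (g : G) (F : G → k) : tcTheta u g F = ∑ τ, F τ⁻¹ • u (g, τ) := rfl

/-- The twisted cocycle identity for `θ`. -/
theorem tcTheta_mul
    (hu : ∀ g h j : G, u (g * h, j) + u (g, h) = ρ g (u (h, j)) + u (g, h * j))
    (g h : G) (F : G → k) :
    ρ g (tcTheta u h F) + tcTheta u g (tcFunRep k G k h F) =
      tcTheta u (g * h) F + tcAug k G F • u (g, h) := by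
  simp only [tcTheta_apply, map_sum, map_smul, tcFunRep_apply, tcAug_apply, Finset.sum_smul]
  have e1 : ∑ τ, F (τ⁻¹ * h) • u (g, τ) = ∑ σ, F σ⁻¹ • u (g, h * σ) := by
    refine (Fintype.sum_equiv (Equiv.mulLeft h) _ _ (fun σ => ?_)).symm
    simp [mul_inv_rev]
  have e2 : ∑ x, F x • u (g, h) = ∑ σ, F σ⁻¹ • u (g, h) :=
    (Fintype.sum_equiv (Equiv.inv G) _ _ (fun σ => rfl)).symm
  rw [e1, e2, ← Finset.sum_add_distrib, ← Finset.sum_add_distrib]
  refine Finset.sum_congr rfl (fun σ _ => ?_)
  rw [← smul_add, ← smul_add, hu]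

theorem tcTheta_one
    (hu : ∀ g h j : G, u (g * h, j) + u (g, h) = ρ g (u (h, j)) + u (g, h * j))
    (F : G → k) (hF : tcAug k G F = 0) : tcTheta u 1 F = 0 := by
  have h := tcTheta_mul ρ u hu 1 1 F
  rw [hF, zero_smul, add_zero, map_one, mul_one] at h
  have h2 : tcFunRep k G k 1 F = F := by rw [map_one]; rfl
  rw [h2] at h
  simpa using h

/-- The linear map `(a, j) ↦ (ρ(g) a + θ_g(j), g • j)`. -/
def tcSplitMap (g : G) : V × tcJSub k G →ₗ[k] V × tcJSub k G :=
  LinearMap.prod
    ((ρ g).comp (LinearMap.fst k V _) +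
      ((tcTheta u g).comp (tcJSub k G).subtype).comp (LinearMap.snd k V _))
    ((tcJRep k G g).comp (LinearMap.snd k V _))

theorem tcSplitMap_apply (g : G) (p : V × tcJSub k G) :
    tcSplitMap ρ u g p = (ρ g p.1 + tcTheta u g p.2.1, tcJRep k G g p.2) := rfl

/-- The splitting module representation on `V × J`. -/
def tcSplitRep (hu : ∀ g h j : G, u (g * h, j) + u (g, h) = ρ g (u (h, j)) + u (g, h * j)) :
    Representation k G (V × tcJSub k G) where
  toFun := tcSplitMap ρ u
  map_one' := by
    refine LinearMap.ext fun p => Prod.ext ?_ ?_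
    · rw [tcSplitMap_apply]
      change ρ 1 p.1 + tcTheta u 1 p.2.1 = p.1
      rw [tcTheta_one ρ u hu _ ((tcJSub_mem k G _).1 p.2.2), add_zero, map_one]
      rfl
    · rw [tcSplitMap_apply]
      change tcJRep k G 1 p.2 = p.2
      rw [map_one]
      rfl
  map_mul' g h := by
    refine LinearMap.ext fun p => Prod.ext ?_ ?_
    · change ρ (g * h) p.1 + tcTheta u (g * h) p.2.1 =
        ρ g (ρ h p.1 + tcTheta u h p.2.1) + tcTheta u g (tcFunRep k G k h p.2.1)
      have hΘ := tcTheta_mul ρ u hu g h p.2.1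
      rw [(tcJSub_mem k G _).1 p.2.2, zero_smul, add_zero] at hΘ
      rw [map_add, map_mul, add_assoc, hΘ]
      rfl
    · change tcJRep k G (g * h) p.2 = tcJRep k G g (tcJRep k G h p.2)
      rw [map_mul]
      rfl

theorem tcSplitRep_apply
    (hu : ∀ g h j : G, u (g * h, j) + u (g, h) = ρ g (u (h, j)) + u (g, h * j))
    (g : G) (p : V × tcJSub k G) :
    tcSplitRep ρ u hu g p = (ρ g p.1 + tcTheta u g p.2.1, tcJRep k G g p.2) := rfl

end Theta

section Explicit

variable {k G : Type u} [CommRing k] [Group G] [Fintype G]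
  {V : Type u} [AddCommGroup V] [Module k V] (ρ : Representation k G V) (u : G × G → V)
  (hu : ∀ g h j : G, u (g * h, j) + u (g, h) = ρ g (u (h, j)) + u (g, h * j))
  (H : Subgroup G)

open Classical in
/-- The indicator function of a subgroup. -/
noncomputable def tcInd : G → k := fun x => if x ∈ H then 1 else 0

theorem tcInd_translate (h : H) : tcFunRep k G k (h : G) (tcInd (k := k) H) = tcInd H := by
  funext x
  simp only [tcFunRep_apply, tcInd]
  have : x * (h : G) ∈ H ↔ x ∈ H := Subgroup.mul_mem_cancel_right H h.2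
  rw [this]

theorem tcAug_tcInd : tcAug k G (tcInd (k := k) H) = (Nat.card H : k) := by
  classical
  rw [tcAug_apply]
  simp only [tcInd]
  rw [Finset.sum_boole]
  congr 1
  rw [Nat.card_eq_fintype_card, Fintype.card_subtype]

include hu in
/-- Explicit form of `H¹(H, V × J) = 0`. -/
theorem tc_split_H1
    (hF1 : ∀ j : H → (G → k), (∀ h h' : H, j (h * h') = tcFunRep k G k h (j h') + j h) →
      ∃ F : G → k, ∀ h : H, j h = tcFunRep k G k h F - F)
    (h1 : ∀ a : H → V, (∀ h h' : H, a (h * h') = ρ h (a h') + a h) →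
      ∃ x : V, ∀ h : H, a h = ρ h x - x)
    (hord : ∀ m : k, (∃ b : H → V, ∀ h h' : H,
      m • u (h, h') = ρ h (b h') - b (h * h') + b h) → ∃ m' : k, m = (Nat.card H : k) * m')
    (c : H → V × tcJSub k G)
    (hc : ∀ h h' : H, c (h * h') = tcSplitRep ρ u hu h (c h') + c h) :
    ∃ p : V × tcJSub k G, ∀ h : H, c h = tcSplitRep ρ u hu h p - p := by
  -- the `J`-components
  have hc1 : ∀ h h' : H, (c (h * h')).1 =
      ρ h (c h').1 + tcTheta u h (c h').2.1 + (c h).1 := fun h h' =>
    congrArg Prod.fst (hc h h')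
  have hc2 : ∀ h h' : H, ((c (h * h')).2 : G → k) =
      tcFunRep k G k h (c h').2.1 + (c h).2.1 := fun h h' =>
    congrArg (fun p : V × tcJSub k G => (p.2 : G → k)) (hc h h')
  obtain ⟨F, hF⟩ := hF1 (fun h => (c h).2.1) hc2
  -- `aug F • u` is a coboundary on `H`
  obtain ⟨m', hm'⟩ := hord (tcAug k G F) ⟨fun h => tcTheta u h F - (c h).1, fun h h' => by
    have e1 := hc1 h h'
    have hΘ := tcTheta_mul ρ u hu h h' F
    have hj : ((c h').2 : G → k) = tcFunRep k G k h' F - F := hF h'
    rw [hj, map_sub] at e1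
    simp only [map_sub, Subgroup.coe_mul]
    linear_combination (norm := abel) -e1 - hΘ⟩
  -- replace `F` by an element of `J`
  obtain ⟨F₁, hF₁, hF'⟩ : ∃ F₁ : G → k, F₁ ∈ tcJSub k G ∧
      ∀ h : H, ((c h).2 : G → k) = tcFunRep k G k h F₁ - F₁ := by
    refine ⟨F - m' • tcInd (k := k) H, ?_, fun h => ?_⟩
    · rw [tcJSub_mem, map_sub, map_smul, tcAug_tcInd, hm', smul_eq_mul]
      ring
    · have hj : ((c h).2 : G → k) = tcFunRep k G k h F - F := hF h
      rw [hj, map_sub, map_smul, tcInd_translate]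
      abel
  obtain ⟨x, hx⟩ := h1 (fun h => (c h).1 - tcTheta u h F₁)
    (fun h h' => by
      have e1 := hc1 h h'
      have hΘ := tcTheta_mul ρ u hu h h' F₁
      rw [(tcJSub_mem k G _).1 hF₁, zero_smul, add_zero] at hΘ
      rw [hF' h', map_sub] at e1
      simp only [map_sub, Subgroup.coe_mul]
      linear_combination (norm := abel) e1 + hΘ)
  refine ⟨(x, ⟨F₁, hF₁⟩), fun h => ?_⟩
  apply Prod.ext
  · change (c h).1 = ρ h x + tcTheta u h F₁ - x
    have := hx h
    linear_combination (norm := abel) this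
  · apply Subtype.ext
    exact hF' h

include hu in
/-- Explicit form of `H²(H, V × J) = 0`. -/
theorem tc_split_H2
    (hk : ∀ φ : H → k, (∀ h h' : H, φ (h * h') = φ h + φ h') → ∀ h, φ h = 0)
    (hF2 : ∀ β : H × H → (G → k),
      (∀ g h j : H, β (g * h, j) + β (g, h) = tcFunRep k G k g (β (h, j)) + β (g, h * j)) →
      ∃ γ : H → (G → k), ∀ g h : H, β (g, h) = tcFunRep k G k g (γ h) - γ (g * h) + γ g)
    (hgen : ∀ α : H × H → V,
      (∀ g h j : H, α (g * h, j) + α (g, h) = ρ g (α (h, j)) + α (g, h * j)) →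
      ∃ (m : k) (b : H → V), ∀ g h : H,
        α (g, h) = m • u (g, h) + (ρ g (b h) - b (g * h) + b g))
    (f : H × H → V × tcJSub k G)
    (hf : ∀ g h j : H,
      f (g * h, j) + f (g, h) = tcSplitRep ρ u hu g (f (h, j)) + f (g, h * j)) :
    ∃ Φ : H → V × tcJSub k G, ∀ g h : H,
      f (g, h) = tcSplitRep ρ u hu g (Φ h) - Φ (g * h) + Φ g := by
  have hf1 : ∀ g h j : H, (f (g * h, j)).1 + (f (g, h)).1 =
      ρ g (f (h, j)).1 + tcTheta u g (f (h, j)).2.1 + (f (g, h * j)).1 := fun g h j =>
    congrArg Prod.fst (hf g h j)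
  have hf2 : ∀ g h j : H, ((f (g * h, j)).2 : G → k) + (f (g, h)).2.1 =
      tcFunRep k G k g (f (h, j)).2.1 + (f (g, h * j)).2.1 := fun g h j =>
    congrArg (fun p : V × tcJSub k G => (p.2 : G → k)) (hf g h j)
  obtain ⟨γ, hγ⟩ := hF2 (fun q => (f q).2.1) hf2
  have haug : ∀ h : H, tcAug k G (γ h) = 0 := by
    apply hk
    intro h h'
    have e2 : ((f (h, h')).2 : G → k) = tcFunRep k G k h (γ h') - γ (h * h') + γ h := hγ h h'
    have e := congrArg (tcAug k G) e2
    rw [(tcJSub_mem k G _).1 (f (h, h')).2.2, map_add, map_sub, tcAug_translate] at e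
    linear_combination e
  obtain ⟨m, b, hb⟩ := hgen (fun q => (f q).1 - tcTheta u q.1 (γ q.2)) (fun g h j => by
    have e1 := hf1 g h j
    have e2 : ((f (h, j)).2 : G → k) = tcFunRep k G k h (γ j) - γ (h * j) + γ h := hγ h j
    have hΘ := tcTheta_mul ρ u hu g h (γ j)
    rw [haug j, zero_smul, add_zero] at hΘ
    rw [e2, map_add, map_sub] at e1
    simp only [map_sub, Subgroup.coe_mul]
    linear_combination (norm := abel) e1 + hΘ)
  classical
  obtain ⟨e, he⟩ : ∃ e : G → k, tcAug k G e = 1 := ⟨Pi.single 1 1, by simp [tcAug_apply]⟩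
  have hz : ∀ h : H, γ h + m • (tcFunRep k G k h e - e) ∈ tcJSub k G := by
    intro h
    rw [tcJSub_mem, map_add, map_smul, map_sub, tcAug_translate, haug, sub_self, smul_zero,
      add_zero]
  refine ⟨fun h => (m • tcTheta u h e + b h, ⟨γ h + m • (tcFunRep k G k h e - e), hz h⟩),
    fun g h => ?_⟩
  apply Prod.ext
  · change (f (g, h)).1 = ρ g (m • tcTheta u h e + b h) +
      tcTheta u g (γ h + m • (tcFunRep k G k h e - e)) -
      (m • tcTheta u ((g * h : H) : G) e + b (g * h)) + (m • tcTheta u g e + b g)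
    have hΘe := tcTheta_mul ρ u hu g h e
    rw [he, one_smul] at hΘe
    have hb' : (f (g, h)).1 - tcTheta u g (γ h) =
        m • u (g, h) + (ρ g (b h) - b (g * h) + b g) := hb g h
    simp only [map_add, map_smul, map_sub, Subgroup.coe_mul]
    linear_combination (norm := module) hb' - m • hΘe
  · apply Subtype.ext
    change ((f (g, h)).2 : G → k) = tcFunRep k G k g (γ h + m • (tcFunRep k G k h e - e)) -
      (γ (g * h) + m • (tcFunRep k G k ((g * h : H) : G) e - e)) +
      (γ g + m • (tcFunRep k G k g e - e))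
    have e2 : ((f (g, h)).2 : G → k) = tcFunRep k G k g (γ h) - γ (g * h) + γ g := hγ g h
    have e3 : tcFunRep k G k ((g * h : H) : G) e =
        tcFunRep k G k g (tcFunRep k G k h e) := by
      rw [Subgroup.coe_mul, map_mul]
      rfl
    rw [e2, e3]
    simp only [map_add, map_smul, map_sub]
    module

end Explicit

end Fermat.Agent.S55
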