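import Fermat.Agent.S55.TcSplit

/-!
# S55, block TC, part 5: Tate's theorem in degree 3 via the splitting module

`C(u) = C × J` with the twisted action (`tcSplit`), the short exact sequences
`0 → C → C(u) → J → 0` and `0 → J → Fun(G, k) → k → 0`, the vanishing of `H¹(H, C(u))` and
`H²(H, C(u))` for every subgroup `H` (under the class-formation hypotheses on `C` and the class
of `u`), and the reduction of `H³(G, C) = 0` to `H³(G, C(u)) = 0`.
-/

set_option autoImplicit false

namespace Fermat.Agent.S55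

open CategoryTheory CategoryTheory.Limits groupCohomology

universe u

/-- An additive map from a finite group to a torsion-free module is zero. -/
theorem tc_addHom_eq_zero {k : Type*} [AddCommGroup k]
    (hk : ∀ (n : ℕ) (x : k), n ≠ 0 → n • x = 0 → x = 0)
    {H : Type*} [Group H] [Finite H] (φ : H → k)
    (hφ : ∀ h h' : H, φ (h * h') = φ h + φ h') (h : H) : φ h = 0 := by
  have h1 : φ 1 = 0 := by
    have := hφ 1 1
    rw [mul_one] at this
    exact left_eq_add.1 this
  have key : ∀ n : ℕ, φ (h ^ n) = n • φ h := by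
    intro n
    induction n with
    | zero => simp [h1]
    | succ n ih => rw [pow_succ, hφ, ih, succ_nsmul]
  have h2 := key (orderOf h)
  rw [pow_orderOf_eq_one, h1] at h2
  exact hk (orderOf h) (φ h) (orderOf_pos h).ne' h2.symm

section Objects

variable (k G : Type u) [CommRing k] [Group G] [Fintype G]

/-- The augmentation ideal as a representation. -/
noncomputable def tcJ : Rep.{u} k G := Rep.of (tcJRep k G)

/-- The inclusion `J ⟶ Fun(G, k)`. -/
noncomputable def tcJι : tcJ k G ⟶ tcFun k G k :=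
  Rep.ofHom (ρ := tcJRep k G) (σ := tcFunRep k G k)
    ⟨(tcJSub k G).subtype, fun g => by ext j x; rfl⟩

/-- The augmentation `Fun(G, k) ⟶ k`. -/
noncomputable def tcAugHom : tcFun k G k ⟶ Rep.trivial k G k :=
  Rep.ofHom (ρ := tcFunRep k G k) (σ := Representation.trivial k G k)
    ⟨tcAug k G, fun g => by
      refine LinearMap.ext fun F => ?_
      simp [tcAug_translate]⟩

/-- The short complex `0 → J → Fun(G, k) → k → 0`. -/
noncomputable def tcAugSeq : ShortComplex (Rep.{u} k G) :=
  ShortComplex.mk (tcJι k G) (tcAugHom k G) (by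
    apply Rep.hom_ext
    apply Representation.IntertwiningMap.ext
    apply LinearMap.ext
    intro j
    exact (tcJSub_mem k G _).1 j.2)

theorem tcAugSeq_shortExact : (tcAugSeq k G).ShortExact := by
  classical
  rw [tc_shortExact_iff]
  refine ⟨?_, ?_, ?_⟩
  · intro a b h
    exact Subtype.ext h
  · intro (m : k)
    refine ⟨Pi.single (M := fun _ : G => k) 1 m, ?_⟩
    change tcAug k G (Pi.single (M := fun _ : G => k) 1 m) = m
    rw [tcAug_apply, Finset.sum_pi_single']
    simp
  · intro F hF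
    exact ⟨⟨F, (tcJSub_mem k G F).2 hF⟩, rfl⟩

/-- `H¹(G, k) = 0` for a finite group and torsion-free `k`. -/
theorem tc_isZero_H1_trivial (hk : ∀ (n : ℕ) (x : k), n ≠ 0 → n • x = 0 → x = 0) :
    IsZero (groupCohomology (Rep.trivial k G k) 1) := by
  rw [tc_H1_isZero_iff]
  intro c hc
  refine ⟨0, fun g => ?_⟩
  rw [map_zero, sub_zero]
  exact tc_addHom_eq_zero hk c (fun h h' => by
    have := hc h h'
    rw [this, add_comm]
    rfl) g

/-- `H²(G, J) = 0` for a finite group and torsion-free `k`. -/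
theorem tc_isZero_H2_J (hk : ∀ (n : ℕ) (x : k), n ≠ 0 → n • x = 0 → x = 0) :
    IsZero (groupCohomology (tcJ k G) 2) :=
  tc_isZero_X₁ (tcAugSeq_shortExact k G) 1 (tc_isZero_H1_trivial k G hk) (tc_isZero_fun k G k 1)

end Objects

section Split

variable {k G : Type u} [CommRing k] [Group G] [Fintype G] (C : Rep.{u} k G)
  (u : G × G → C.V)
  (hu : ∀ g h j : G, u (g * h, j) + u (g, h) = C.ρ g (u (h, j)) + u (g, h * j))

/-- The splitting module `C(u)` as a representation. -/
noncomputable def tcSplit : Rep.{u} k G := Rep.of (tcSplitRep C.ρ u hu)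

/-- The inclusion `C ⟶ C(u)`. -/
noncomputable def tcSplitι : C ⟶ tcSplit C u hu :=
  Rep.ofHom (ρ := C.ρ) (σ := tcSplitRep C.ρ u hu)
    ⟨LinearMap.inl k C.V (tcJSub k G), fun g => by
      refine LinearMap.ext fun a => Prod.ext ?_ ?_
      · change C.ρ g a = C.ρ g a + tcTheta u g 0
        rw [map_zero, add_zero]
      · change (0 : tcJSub k G) = tcJRep k G g 0
        rw [map_zero]⟩

/-- The projection `C(u) ⟶ J`. -/
noncomputable def tcSplitπ : tcSplit C u hu ⟶ tcJ k G :=
  Rep.ofHom (ρ := tcSplitRep C.ρ u hu) (σ := tcJRep k G)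
    ⟨LinearMap.snd k C.V (tcJSub k G), fun g => by
      refine LinearMap.ext fun p => ?_
      rfl⟩

/-- The short complex `0 → C → C(u) → J → 0`. -/
noncomputable def tcSplitSeq : ShortComplex (Rep.{u} k G) :=
  ShortComplex.mk (tcSplitι C u hu) (tcSplitπ C u hu) (by
    apply Rep.hom_ext
    apply Representation.IntertwiningMap.ext
    apply LinearMap.ext
    intro a
    rfl)

theorem tcSplitSeq_shortExact : (tcSplitSeq C u hu).ShortExact := by
  rw [tc_shortExact_iff]
  refine ⟨?_, ?_, ?_⟩
  · intro a b h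
    exact congrArg Prod.fst h
  · intro j
    exact ⟨(0, j), rfl⟩
  · intro p hp
    refine ⟨p.1, Prod.ext rfl ?_⟩
    exact (show p.2 = 0 from hp).symm

/-- `H³(G, C) = 0` as soon as `H³(G, C(u)) = 0`. -/
theorem tc_isZero_H3_of_split (hk : ∀ (n : ℕ) (x : k), n ≠ 0 → n • x = 0 → x = 0)
    (h3 : IsZero (groupCohomology (tcSplit C u hu) 3)) : IsZero (groupCohomology C 3) :=
  tc_isZero_X₁ (tcSplitSeq_shortExact C u hu) 2 (tc_isZero_H2_J k G hk) h3

end Split

section Vanishing

variable {k G : Type u} [CommRing k] [Group G] [Fintype G] (C : Rep.{u} k G)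
  (u : G × G → C.V)
  (hu : ∀ g h j : G, u (g * h, j) + u (g, h) = C.ρ g (u (h, j)) + u (g, h * j))
  (H : Subgroup G)

/-- `H¹(H, C(u)) = 0`. -/
theorem tc_split_isZero_H1
    (h1 : IsZero (groupCohomology (Rep.res H.subtype C) 1))
    (hord : ∀ m : k, (∃ b : H → C.V, ∀ h h' : H,
      m • u (h, h') = C.ρ h (b h') - b (h * h') + b h) → ∃ m' : k, m = (Nat.card H : k) * m') :
    IsZero (groupCohomology (Rep.res H.subtype (tcSplit C u hu)) 1) := by
  rw [tc_H1_isZero_iff]
  intro c hc
  exact tc_split_H1 C.ρ u hu H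
    ((tc_H1_isZero_iff (Rep.res H.subtype (tcFun k G k))).1 (tc_isZero_fun_res k G H k 0))
    ((tc_H1_isZero_iff (Rep.res H.subtype C)).1 h1) hord c hc

/-- `H²(H, C(u)) = 0`. -/
theorem tc_split_isZero_H2
    (hk : ∀ (n : ℕ) (x : k), n ≠ 0 → n • x = 0 → x = 0)
    (hgen : ∀ α : H × H → C.V,
      (∀ g h j : H, α (g * h, j) + α (g, h) = C.ρ g (α (h, j)) + α (g, h * j)) →
      ∃ (m : k) (b : H → C.V), ∀ g h : H,
        α (g, h) = m • u (g, h) + (C.ρ g (b h) - b (g * h) + b g)) :
    IsZero (groupCohomology (Rep.res H.subtype (tcSplit C u hu)) 2) := by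
  rw [tc_H2_isZero_iff]
  intro f hf
  exact tc_split_H2 C.ρ u hu H (fun φ hφ => tc_addHom_eq_zero hk φ hφ)
    (fun β hβ => (tc_H2_isZero_iff (Rep.res H.subtype (tcFun k G k))).1
      (tc_isZero_fun_res k G H k 1) β
      ((mem_cocycles₂_iff (A := Rep.res H.subtype (tcFun k G k)) β).2 hβ))
    hgen f ((mem_cocycles₂_iff (A := Rep.res H.subtype (tcSplit C u hu)) f).1 hf)

end Vanishing

section Classes

variable {k G : Type u} [CommRing k] [Group G] (C : Rep.{u} k G)

/-- The restriction to a subgroup of the class of a 2-cocycle, in terms of cocycles. -/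
theorem tc_res_H2π (u : cocycles₂ C) (H : Subgroup G) :
    (tcRes C H 2).hom (H2π C u) =
      H2π (Rep.res H.subtype C) (mapCocycles₂ H.subtype (𝟙 _) u) :=
  H2π_comp_map_apply H.subtype (𝟙 _) u

theorem tc_res_cocycle_apply (u : cocycles₂ C) (H : Subgroup G) (g h : H) :
    (mapCocycles₂ H.subtype (𝟙 (Rep.res H.subtype C)) u : H × H → C) (g, h) =
      u ((g : G), (h : G)) := rfl

/-- Generation of `H²(H, C)` by the restricted class, in explicit form. -/
theorem tc_gen_explicit (u : cocycles₂ C) (H : Subgroup G)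
    (h2gen : ∀ x : groupCohomology (Rep.res H.subtype C) 2,
      ∃ m : k, x = m • (tcRes C H 2).hom (H2π C u))
    (α : H × H → C.V)
    (hα : ∀ g h j : H, α (g * h, j) + α (g, h) = C.ρ g (α (h, j)) + α (g, h * j)) :
    ∃ (m : k) (b : H → C.V), ∀ g h : H,
      α (g, h) = m • u ((g : G), (h : G)) + (C.ρ g (b h) - b (g * h) + b g) := by
  have hα' : α ∈ cocycles₂ (Rep.res H.subtype C) :=
    (mem_cocycles₂_iff (A := Rep.res H.subtype C) α).2 hα
  obtain ⟨m, hm⟩ := h2gen (H2π _ ⟨α, hα'⟩)
  rw [tc_res_H2π, ← map_smul, ← sub_eq_zero, ← map_sub] at hm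
  obtain ⟨b, hb⟩ := (H2π_eq_zero_iff _).1 hm
  refine ⟨m, b, fun g h => ?_⟩
  have h3 := congrFun hb (g, h)
  have h4 : α (g, h) - m • u ((g : G), (h : G)) = C.ρ g (b h) - b (g * h) + b g := h3.symm
  rw [← h4]
  abel

/-- The order condition on the restricted class, in explicit form. -/
theorem tc_ord_explicit (u : cocycles₂ C) (H : Subgroup G)
    (h2ord : ∀ m : k, m • (tcRes C H 2).hom (H2π C u) = 0 →
      ∃ m' : k, m = (Nat.card H : k) * m')
    (m : k) (hm : ∃ b : H → C.V, ∀ h h' : H,
      m • u ((h : G), (h' : G)) = C.ρ h (b h') - b (h * h') + b h) :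
    ∃ m' : k, m = (Nat.card H : k) * m' := by
  obtain ⟨b, hb⟩ := hm
  apply h2ord
  rw [tc_res_H2π, ← map_smul, H2π_eq_zero_iff]
  exact ⟨b, funext fun q => (hb q.1 q.2).symm⟩

end Classes

section Main

variable {k G : Type u} [CommRing k] [Group G] [Fintype G] (C : Rep.{u} k G)

theorem tc_cocycle_identity (u : cocycles₂ C) :
    ∀ g h j : G, (u : G × G → C) (g * h, j) + (u : G × G → C) (g, h) =
      C.ρ g ((u : G × G → C) (h, j)) + (u : G × G → C) (g, h * j) :=
  (mem_cocycles₂_iff (A := C) u).1 u.2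

/-- Under the class formation hypotheses, the splitting module has trivial `H¹` and `H²` on every
subgroup. -/
theorem tc_split_isZero (hk : ∀ (n : ℕ) (x : k), n ≠ 0 → n • x = 0 → x = 0)
    (u : cocycles₂ C)
    (h1 : ∀ H : Subgroup G, IsZero (groupCohomology (Rep.res H.subtype C) 1))
    (h2gen : ∀ (H : Subgroup G) (x : groupCohomology (Rep.res H.subtype C) 2),
      ∃ m : k, x = m • (tcRes C H 2).hom (H2π C u))
    (h2ord : ∀ (H : Subgroup G) (m : k), m • (tcRes C H 2).hom (H2π C u) = 0 →
      ∃ m' : k, m = (Nat.card H : k) * m')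
    (H : Subgroup G) :
    IsZero (groupCohomology (Rep.res H.subtype (tcSplit C u (tc_cocycle_identity C u))) 1) ∧
    IsZero (groupCohomology (Rep.res H.subtype (tcSplit C u (tc_cocycle_identity C u))) 2) :=
  ⟨tc_split_isZero_H1 C u (tc_cocycle_identity C u) H (h1 H)
      (fun m hm => tc_ord_explicit C u H (h2ord H) m hm),
    tc_split_isZero_H2 C u (tc_cocycle_identity C u) H hk
      (fun α hα => tc_gen_explicit C u H (h2gen H) α hα)⟩

/-- Tate's theorem in degree 3, modulo the cohomological triviality criterion for the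
splitting module. -/
theorem tc_H3_isZero_of_crit (hk : ∀ (n : ℕ) (x : k), n ≠ 0 → n • x = 0 → x = 0)
    (u : cocycles₂ C)
    (h1 : ∀ H : Subgroup G, IsZero (groupCohomology (Rep.res H.subtype C) 1))
    (h2gen : ∀ (H : Subgroup G) (x : groupCohomology (Rep.res H.subtype C) 2),
      ∃ m : k, x = m • (tcRes C H 2).hom (H2π C u))
    (h2ord : ∀ (H : Subgroup G) (m : k), m • (tcRes C H 2).hom (H2π C u) = 0 →
      ∃ m' : k, m = (Nat.card H : k) * m')
    (hcrit : ∀ B : Rep.{u} k G,
      (∀ H : Subgroup G, IsZero (groupCohomology (Rep.res H.subtype B) 1) ∧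
        IsZero (groupCohomology (Rep.res H.subtype B) 2)) →
      IsZero (groupCohomology B 3)) :
    IsZero (groupCohomology C 3) :=
  tc_isZero_H3_of_split C u (tc_cocycle_identity C u) hk
    (hcrit _ (tc_split_isZero C hk u h1 h2gen h2ord))

end Main

end Fermat.Agent.S55
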