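import Fermat.Agent.S55.TcTate
import Fermat.Agent.S55.TateCrit

/-!
# S55, block TC, part 6: Tate's theorem `H³(G, C) = 0`

If `G` is a finite group, `C` a `G`-module and `u ∈ H²(G, C)` a class such that for every
subgroup `H ≤ G`: `H¹(H, C) = 0` and `H²(H, C)` is generated by `res_H u`, of order `|H|`
(in the sense `m • res_H u = 0 → |H| ∣ m`), then `H³(G, C) = 0`.
-/

set_option autoImplicit false

namespace Fermat.Agent.S55

open CategoryTheory CategoryTheory.Limits groupCohomology

universe u

/-- Tate's theorem in degree 3 over a torsion-free coefficient ring. -/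
theorem tc_H3_isZero_general {k G : Type u} [CommRing k] [Group G] [Finite G]
    (hk : ∀ (n : ℕ) (x : k), n ≠ 0 → n • x = 0 → x = 0)
    (C : Rep.{u} k G) (u : cocycles₂ C)
    (h1 : ∀ H : Subgroup G, IsZero (groupCohomology (Rep.res H.subtype C) 1))
    (h2gen : ∀ (H : Subgroup G) (x : groupCohomology (Rep.res H.subtype C) 2),
      ∃ m : k, x = m • (tcRes C H 2).hom (H2π C u))
    (h2ord : ∀ (H : Subgroup G) (m : k), m • (tcRes C H 2).hom (H2π C u) = 0 →
      ∃ m' : k, m = (Nat.card H : k) * m') :
    IsZero (groupCohomology C 3) := by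
  cases nonempty_fintype G
  exact tc_H3_isZero_of_crit C hk u h1 h2gen h2ord (fun B hB => tc_trivial_subgroup B hB 2)

/-- **Tate's theorem** in degree 3 for `ℤ[G]`-modules. -/
theorem tc_H3_isZero {G : Type} [Group G] [Finite G] (C : Rep ℤ G) (u : groupCohomology C 2)
    (h1 : ∀ H : Subgroup G, IsZero (groupCohomology (Rep.res H.subtype C) 1))
    (h2gen : ∀ (H : Subgroup G) (x : groupCohomology (Rep.res H.subtype C) 2),
      ∃ m : ℤ, x = m • (tcRes C H 2).hom u)
    (h2ord : ∀ (H : Subgroup G) (m : ℤ), m • (tcRes C H 2).hom u = 0 →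
      (Nat.card H : ℤ) ∣ m) :
    IsZero (groupCohomology C 3) := by
  induction u using H2_induction_on with | h u =>
  refine tc_H3_isZero_general (k := ℤ) (fun n x hn h => ?_) C u h1
    (fun H x => ?_) (fun H m hm => ?_)
  · rw [nsmul_eq_mul] at h
    rcases mul_eq_zero.1 h with h | h
    · exact absurd (Nat.cast_eq_zero.1 h) hn
    · exact h
  · obtain ⟨m, hm⟩ := h2gen H x
    exact ⟨m, hm.trans (int_smul_eq_zsmul _ m _).symm⟩
  · obtain ⟨m', rfl⟩ := h2ord H m ((int_smul_eq_zsmul _ m _).symm.trans hm)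
    exact ⟨m', rfl⟩

/-- **Tate's theorem** in degree 3, cardinality form: `H²(H, C)` is generated by `res_H u` and
has `|H|` elements, for every subgroup `H`. -/
theorem tc_H3_isZero_of_card {G : Type} [Group G] [Finite G] (C : Rep ℤ G)
    (u : groupCohomology C 2)
    (h1 : ∀ H : Subgroup G, IsZero (groupCohomology (Rep.res H.subtype C) 1))
    (h2gen : ∀ (H : Subgroup G) (x : groupCohomology (Rep.res H.subtype C) 2),
      ∃ m : ℤ, x = m • (tcRes C H 2).hom u)
    (h2card : ∀ H : Subgroup G,
      Nat.card (groupCohomology (Rep.res H.subtype C) 2) = Nat.card H) :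
    IsZero (groupCohomology C 3) := by
  refine tc_H3_isZero C u h1 h2gen (fun H m hm => ?_)
  have htop : AddSubgroup.zmultiples ((tcRes C H 2).hom u) = ⊤ := by
    rw [eq_top_iff]
    intro x _
    obtain ⟨m, rfl⟩ := h2gen H x
    exact AddSubgroup.zsmul_mem_zmultiples _ m
  have hcard : addOrderOf ((tcRes C H 2).hom u) = Nat.card H := by
    rw [← Nat.card_zmultiples, htop, AddSubgroup.card_top, h2card H]
  rw [← hcard]
  exact addOrderOf_dvd_iff_zsmul_eq_zero.2 hm

end Fermat.Agent.S55
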