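import Fermat.Agent.S55.TrLc3
import Fermat.Agent.S55.ShapLocCor

/-!
# S55: `[LC3]` at the places of a subgroup `U`

`tri_LC3_U` : the arithmetic contract `tri_LC3 A` implies that for every prime `q`, every
subgroup `U ≤ ker (cycloChar p)` of finite index with double coset data `Δ` at `q`, and every
double coset `a`, the functional `A.inv q ∘ shlCorA₂ … a` (the `a`-component of the transfer
followed by the local invariant at `q`) is injective on the level cohomology
`H²(H_a; 𝔽_p(1))` of the local group `H_a = Δ.Ha a` of `U` at the place `(q, a)`.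
-/

set_option autoImplicit false

open ExtCitation groupCohomology

namespace Fermat.Agent.S55

local notation "Γ" => (AlgebraicClosure ℚ ≃ₐ[ℚ] AlgebraicClosure ℚ)

section

variable {k : Type*} [CommRing k] {G H : Type*} [Group G] [Group H]
  {ι : H →* G} {U : Subgroup G} {W : Type*}
  (Δ : ShlDec ι U W) {T : Type*} [AddCommGroup T] [Module k T] (ρT : Representation k G T)

/-- `g_a` intertwines `T` with `H_a ≤ H` acting through `ι` and `T` with `H_a` acting
through `θ_a` (inverse of `shl_tw_equivariant`). -/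
theorem tri_tw_inv_equivariant (a : W) (z : Δ.Ha a) (t : T) :
    ρT (Δ.g a) (((ρT.comp ι).comp (Δ.Ha a).subtype) z t) =
      ((ρT.comp U.subtype).comp (Δ.th a)) z (ρT (Δ.g a) t) := by
  show ρT (Δ.g a) (ρT (ι (z : H)) t) = ρT (Δ.th a z : G) (ρT (Δ.g a) t)
  rw [← Module.End.mul_apply, ← map_mul, ← Module.End.mul_apply, ← map_mul, ShlDec.th_coe]
  congr 2
  group

end

/-- **`[LC3]` at the `U`-places.** -/
theorem tri_LC3_U {p : ℕ} [Fact p.Prime] (A : tri_Arith p) (hA : tri_LC3 A) (q : Nat.Primes)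
    (U : Subgroup Γ) [U.FiniteIndex] (hUχ : U ≤ (cycloChar p).ker) {W : Type*} [Finite W]
    [DecidableEq W] (Δ : ShlDec (primeLocalToGlobal q) U W)
    (hopen : ∃ M₀ ∈ (pt_localLev (primeLocalToGlobal q)).S, ∀ a, M₀ ≤ Δ.Ha a) (a : W)
    (x : hc_C2 (shapLevSub (pt_localLev (primeLocalToGlobal q)) (Δ.Ha a))
      (((dual_rhoT (cycloChar p)).comp U.subtype).comp (Δ.th a)))
    (hx : hc_d23 (shapLevSub (pt_localLev (primeLocalToGlobal q)) (Δ.Ha a))
      (((dual_rhoT (cycloChar p)).comp U.subtype).comp (Δ.th a)) x = 0)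
    (h0 : A.inv q (shlCorA₂ (pt_localLev (primeLocalToGlobal q)) Δ (dual_rhoT (cycloChar p))
      hopen a x) = 0) :
    x ∈ LinearMap.range (hc_d12 (shapLevSub (pt_localLev (primeLocalToGlobal q)) (Δ.Ha a))
      (((dual_rhoT (cycloChar p)).comp U.subtype).comp (Δ.th a))) := by
  have : (Δ.Ha a).FiniteIndex := shl_Ha_finiteIndex Δ a
  have hK : ∃ M ∈ (pt_localLev (primeLocalToGlobal q)).S, M ≤ Δ.Ha a := by
    obtain ⟨M, hM, h⟩ := hopen
    exact ⟨M, hM, h a⟩
  have hKχ : ∀ h ∈ Δ.Ha a, cycloChar p (primeLocalToGlobal q h) = 1 := by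
    intro h hh
    have h1 : cycloChar p (Δ.g a * primeLocalToGlobal q h * (Δ.g a)⁻¹) = 1 :=
      MonoidHom.mem_ker.mp (hUχ (Δ.mem_Ha.mp hh))
    rw [map_mul, map_mul, map_inv, mul_comm (cycloChar p (Δ.g a)), mul_assoc,
      mul_inv_cancel, mul_one] at h1
    exact h1
  rw [shlCorA₂_eq (pt_localLev (primeLocalToGlobal q)) Δ (dual_rhoT (cycloChar p)) hopen a hK x]
    at h0
  obtain ⟨t, ht⟩ := hA q (Δ.Ha a) (Δ.rr a) (Δ.rr_mul a) (Δ.rr_one a) hK hKχ
    (shlTw₂ (pt_localLev (primeLocalToGlobal q)) Δ (dual_rhoT (cycloChar p)) a x)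
    (by rw [← shlTw_d23, hx, map_zero]) h0
  refine ⟨hc_map1 _ ((dual_rhoT (cycloChar p)) (Δ.g a))
    (tri_tw_inv_equivariant Δ (dual_rhoT (cycloChar p)) a) t, ?_⟩
  rw [← hc_map2_d12, ht]
  apply Subtype.ext
  funext z
  show (dual_rhoT (cycloChar p)) (Δ.g a) ((dual_rhoT (cycloChar p)) (Δ.g a)⁻¹
    ((x : Δ.Ha a × Δ.Ha a → ZMod p) z)) = (x : Δ.Ha a × Δ.Ha a → ZMod p) z
  rw [← Module.End.mul_apply, ← map_mul, mul_inv_cancel, map_one, Module.End.one_apply]

end Fermat.Agent.S55
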