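import Fermat.Agent.S55.HcCone

/-!
# S55 block TR, part A: the trace functional with all finite levels and outside places

`hc_tr` of `HcCone.lean` only pins the trace down on cone 3-cochains `(d b, a)` with `b` of the
level structure `L` (the `S`-levels).  For the base case of Poitou–Tate one has to evaluate the
trace on elements `(d z, c)` where `z` is a cochain of a FINER level structure `Linf` (all finite
levels).  This file constructs such a trace from

* local invariants `inv v` at the places `v` of the cone (`D : hc_Loc L`),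
* local invariants `invW w` at a family of OUTSIDE places `w` (`O : tr_Out L Linf`), each with an
  "inertia" subgroup `I w` contained in the pull back of every level of `L`,

subject to: unramified (= `I w`-level) cocycles have invariant zero, every `Linf`-cochain is
unramified at almost all outside places, and reciprocity for `Linf`-cocycles (sum over ALL
places).  Main result: `tr_exists`; packaged as `tr_tau` with `tr_tau_dc2`, `tr_tau_loc`,
`tr_tau_eval`.
-/

set_option autoImplicit false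
set_option linter.unusedSectionVars false
set_option linter.checkUnivs false

namespace Fermat.Agent.S55

universe u v w v' w'

section lev

variable {k G M : Type*} [CommRing k] [Group G] [AddCommGroup M] [Module k M]
  {ρ : Representation k G M} {N : Subgroup G}

lemma tr_isLev2_zero (ρ : Representation k G M) (N : Subgroup G) :
    hc_IsLev2 ρ N (0 : G × G → M) :=
  ⟨fun _ _ _ _ _ _ => rfl, fun _ => hc_isLev0_zero N⟩

lemma tr_isLev2_add {f f' : G × G → M} (h : hc_IsLev2 ρ N f) (h' : hc_IsLev2 ρ N f') :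
    hc_IsLev2 ρ N (f + f') :=
  ⟨fun g g' s hs t ht => by
      simp only [Pi.add_apply, h.1 g g' s hs t ht, h'.1 g g' s hs t ht],
    fun x => (h.2 x).add (h'.2 x)⟩

lemma tr_isLev2_smul (c : k) {f : G × G → M} (h : hc_IsLev2 ρ N f) :
    hc_IsLev2 ρ N (c • f) :=
  ⟨fun g g' s hs t ht => by simp only [Pi.smul_apply, h.1 g g' s hs t ht],
    fun x => (h.2 x).smul c⟩

lemma tr_isLev2_neg {f : G × G → M} (h : hc_IsLev2 ρ N f) : hc_IsLev2 ρ N (-f) :=
  ⟨fun g g' s hs t ht => by simp only [Pi.neg_apply, h.1 g g' s hs t ht],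
    fun x => (h.2 x).neg⟩

lemma tr_isLev2_sub {f f' : G × G → M} (h : hc_IsLev2 ρ N f) (h' : hc_IsLev2 ρ N f') :
    hc_IsLev2 ρ N (f - f') := by
  rw [sub_eq_add_neg]
  exact tr_isLev2_add h (tr_isLev2_neg h')

/-- inclusion of level cochains for a coarser level structure into those of a finer one. -/
def tr_incl2 {L Linf : hc_Lev G} (hL : ∀ N ∈ L.S, ∃ N' ∈ Linf.S, N' ≤ N)
    (ρ : Representation k G M) : hc_C2 L ρ →ₗ[k] hc_C2 Linf ρ :=
  (LinearMap.id : (G × G → M) →ₗ[k] (G × G → M)).restrict fun _ ⟨N, hN, h⟩ => by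
    obtain ⟨N', hN', hle⟩ := hL N hN
    exact ⟨N', hN', h.mono hle⟩

@[simp] lemma tr_incl2_coe {L Linf : hc_Lev G} (hL : ∀ N ∈ L.S, ∃ N' ∈ Linf.S, N' ≤ N)
    (ρ : Representation k G M) (f : hc_C2 L ρ) :
    (tr_incl2 hL ρ f : G × G → M) = f := rfl

end lev

/-- Outside local data for a pair of level structures `L ≤ Linf`: a family of leveled groups
`H w` mapping to `G` compatibly with `Linf`, each with an "inertia" subgroup `I w` which is
contained in the pull back of every level of `L`. -/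
structure tr_Out {G : Type u} [Group G] (L Linf : hc_Lev G) where
  /-- index set of the outside places -/
  W : Type w'
  /-- the local groups -/
  H : W → Type v'
  [grp : ∀ w, Group (H w)]
  /-- level structures of the local groups -/
  LW : ∀ w, hc_Lev (H w)
  /-- the maps to the global group -/
  ι : ∀ w, H w →* G
  compat : ∀ w, hc_LevCompat (LW w) Linf (ι w)
  /-- the inertia subgroups -/
  I : ∀ w, Subgroup (H w)
  unr : ∀ w, ∀ N ∈ L.S, I w ≤ N.comap (ι w)

attribute [instance] tr_Out.grp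

section trace

variable {k : Type*} [Field k] {G : Type u} [Group G] {L Linf : hc_Lev G}
  (D : hc_Loc.{u, v, w} L) [Fintype D.V]
  (hD : ∀ v, hc_LevCompat (D.Lv v) Linf (D.ι v))
  (O : tr_Out.{u, v', w'} L Linf)
  {T : Type*} [AddCommGroup T] [Module k T] (ρT : Representation k G T)

/-- Local invariants at the places of the cone and at the outside places: functionals on local
level 2-cochains such that the invariants at the cone places kill coboundaries, unramified
cocycles at outside places have invariant zero, every `Linf`-cochain is unramified at almost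
all outside places, and reciprocity holds for `Linf`-cocycles. -/
structure tr_Inv where
  /-- the local invariants at the places of the cone -/
  inv : ∀ v : D.V, hc_C2 (D.Lv v) (ρT.comp (D.ι v)) →ₗ[k] k
  inv_d : ∀ (v : D.V) (c : hc_C1 (D.Lv v) (ρT.comp (D.ι v))),
    inv v (hc_d12 (D.Lv v) (ρT.comp (D.ι v)) c) = 0
  /-- the local invariants at the outside places -/
  invW : ∀ w : O.W, hc_C2 (O.LW w) (ρT.comp (O.ι w)) →ₗ[k] k
  unr0 : ∀ (w : O.W) (e : hc_C2 (O.LW w) (ρT.comp (O.ι w))),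
    hc_IsLev2 (ρT.comp (O.ι w)) (O.I w) (e : O.H w × O.H w → T) →
    hc_d23 (O.LW w) (ρT.comp (O.ι w)) e = 0 → invW w e = 0
  fin : ∀ z : hc_C2 Linf ρT, {w : O.W | ¬ hc_IsLev2 (ρT.comp (O.ι w)) (O.I w)
    (hc_res2 (O.compat w) ρT z : O.H w × O.H w → T)}.Finite
  recip : ∀ z : hc_C2 Linf ρT, hc_d23 Linf ρT z = 0 →
    ∑ v, inv v (hc_res2 (hD v) ρT z) + ∑ᶠ w, invW w (hc_res2 (O.compat w) ρT z) = 0

variable {D hD O ρT}

/-- the source space of the construction: triples `(z, c, e)` with `d z` of level `L` and `e w`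
unramified trivialisations of `res_w (d z)`. -/
def tr_X (D : hc_Loc.{u, v, w} L) (O : tr_Out.{u, v', w'} L Linf)
    (ρT : Representation k G T) :
    Submodule k (hc_C2 Linf ρT × (∀ v : D.V, hc_C2 (D.Lv v) (ρT.comp (D.ι v))) ×
      (∀ w : O.W, hc_C2 (O.LW w) (ρT.comp (O.ι w)))) where
  carrier := {x | hc_d23f ρT (x.1 : G × G → T) ∈ hc_C3 L ρT ∧
    ∀ w, hc_IsLev2 (ρT.comp (O.ι w)) (O.I w) (x.2.2 w : O.H w × O.H w → T) ∧
      hc_d23 (O.LW w) (ρT.comp (O.ι w)) (x.2.2 w)
        = hc_res3 (O.compat w) ρT (hc_d23 Linf ρT x.1)}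
  add_mem' := by
    rintro x y ⟨h1, h2⟩ ⟨h1', h2'⟩
    refine ⟨?_, fun w => ⟨?_, ?_⟩⟩
    · simp only [Prod.fst_add, Submodule.coe_add, map_add]
      exact (hc_C3 L ρT).add_mem h1 h1'
    · simp only [Prod.snd_add, Pi.add_apply, Submodule.coe_add]
      exact tr_isLev2_add (h2 w).1 (h2' w).1
    · simp only [Prod.snd_add, Prod.fst_add, Pi.add_apply, map_add, (h2 w).2, (h2' w).2]
  zero_mem' := by
    refine ⟨?_, fun w => ⟨?_, ?_⟩⟩
    · simp only [Prod.fst_zero, Submodule.coe_zero, map_zero]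
      exact (hc_C3 L ρT).zero_mem
    · simp only [Prod.snd_zero, Pi.zero_apply, Submodule.coe_zero]
      exact tr_isLev2_zero _ _
    · simp only [Prod.snd_zero, Prod.fst_zero, Pi.zero_apply, map_zero]
  smul_mem' := by
    rintro c x ⟨h1, h2⟩
    refine ⟨?_, fun w => ⟨?_, ?_⟩⟩
    · simp only [Prod.smul_fst, Submodule.coe_smul, map_smul]
      exact (hc_C3 L ρT).smul_mem c h1
    · simp only [Prod.smul_snd, Pi.smul_apply, Submodule.coe_smul]
      exact tr_isLev2_smul c (h2 w).1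
    · simp only [Prod.smul_snd, Prod.smul_fst, Pi.smul_apply, map_smul, (h2 w).2]

/-- the map `(z, c, e) ↦ (d z, c)` to cone 3-cochains. -/
def tr_F (D : hc_Loc.{u, v, w} L) (O : tr_Out.{u, v', w'} L Linf)
    (ρT : Representation k G T) : tr_X D O ρT →ₗ[k] hc_Cc3 D ρT where
  toFun x := (⟨hc_d23f ρT (x.1.1 : G × G → T), x.2.1⟩, x.1.2.1)
  map_add' x y := by
    refine Prod.ext (Subtype.ext ?_) rfl
    simp only [Submodule.coe_add, Prod.fst_add, map_add]
  map_smul' c x := by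
    refine Prod.ext (Subtype.ext ?_) rfl
    simp only [Submodule.coe_smul, Prod.smul_fst, map_smul, RingHom.id_apply]

/-- the `w`-th outside term as a functional on the source space. -/
def tr_g (I : tr_Inv D hD O ρT) (w : O.W) : tr_X D O ρT →ₗ[k] k :=
  (I.invW w).comp
    ((((LinearMap.proj w : (∀ w : O.W, hc_C2 (O.LW w) (ρT.comp (O.ι w))) →ₗ[k] _)).comp
        ((LinearMap.snd k _ _).comp (LinearMap.snd k _ _))
      - (hc_res2 (O.compat w) ρT).comp (LinearMap.fst k _ _)).comp (tr_X D O ρT).subtype)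

lemma tr_g_apply (I : tr_Inv D hD O ρT) (w : O.W) (x : tr_X D O ρT) :
    tr_g I w x = I.invW w (x.1.2.2 w - hc_res2 (O.compat w) ρT x.1.1) := rfl

lemma tr_g_eq_zero (I : tr_Inv D hD O ρT) (w : O.W) (x : tr_X D O ρT)
    (h : hc_IsLev2 (ρT.comp (O.ι w)) (O.I w)
      (hc_res2 (O.compat w) ρT x.1.1 : O.H w × O.H w → T)) : tr_g I w x = 0 := by
  rw [tr_g_apply]
  refine I.unr0 w _ ?_ ?_
  · simp only [Submodule.coe_sub]
    exact tr_isLev2_sub (x.2.2 w).1 h
  · rw [map_sub, (x.2.2 w).2, hc_res3_d23, sub_self]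

lemma tr_g_finite (I : tr_Inv D hD O ρT) (x : tr_X D O ρT) :
    Function.HasFiniteSupport (fun w => tr_g I w x) := by
  refine (I.fin x.1.1).subset fun w hw => ?_
  simp only [Function.mem_support] at hw
  exact fun h => hw (tr_g_eq_zero I w x h)

/-- the functional on the source space. -/
noncomputable def tr_chi (I : tr_Inv D hD O ρT) : tr_X D O ρT →ₗ[k] k where
  toFun x := ∑ v, I.inv v (x.1.2.1 v - hc_res2 (hD v) ρT x.1.1) + ∑ᶠ w, tr_g I w x
  map_add' x y := by
    have h1 : ∑ᶠ w, tr_g I w (x + y) = ∑ᶠ w, tr_g I w x + ∑ᶠ w, tr_g I w y := by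
      rw [← finsum_add_distrib (tr_g_finite I x) (tr_g_finite I y)]
      exact finsum_congr fun w => map_add _ _ _
    rw [h1]
    simp only [Submodule.coe_add, Prod.fst_add, Prod.snd_add, Pi.add_apply, map_add,
      add_sub_add_comm, Finset.sum_add_distrib]
    abel
  map_smul' c x := by
    have h1 : ∑ᶠ w, tr_g I w (c • x) = c • ∑ᶠ w, tr_g I w x := by
      rw [smul_finsum' c (tr_g_finite I x)]
      exact finsum_congr fun w => map_smul _ _ _
    rw [h1]
    simp only [smul_eq_mul, RingHom.id_apply, mul_add, Finset.mul_sum]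
    congr 1
    refine Finset.sum_congr rfl fun v _ => ?_
    rw [← smul_eq_mul, ← map_smul, smul_sub, ← map_smul]
    rfl

lemma tr_chi_apply (I : tr_Inv D hD O ρT) (x : tr_X D O ρT) :
    tr_chi I x = ∑ v, I.inv v (x.1.2.1 v - hc_res2 (hD v) ρT x.1.1)
      + ∑ᶠ w, I.invW w (x.1.2.2 w - hc_res2 (O.compat w) ρT x.1.1) := rfl

lemma tr_chi_ker (I : tr_Inv D hD O ρT) (x : tr_X D O ρT) (hx : tr_F D O ρT x = 0) :
    tr_chi I x = 0 := by
  have h1 : hc_d23 Linf ρT x.1.1 = 0 := by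
    apply Subtype.ext
    have := congrArg (fun y : hc_Cc3 D ρT => (y.1 : G × G × G → T)) hx
    simpa [tr_F] using this
  have h2 : x.1.2.1 = 0 := congrArg Prod.snd hx
  have h3 : ∀ w, I.invW w (x.1.2.2 w - hc_res2 (O.compat w) ρT x.1.1)
      = - I.invW w (hc_res2 (O.compat w) ρT x.1.1) := by
    intro w
    have h4 : I.invW w (x.1.2.2 w) = 0 := by
      refine I.unr0 w _ (x.2.2 w).1 ?_
      rw [(x.2.2 w).2, h1, map_zero]
    rw [map_sub, h4, zero_sub]
  rw [tr_chi_apply]
  have h5 := I.recip x.1.1 h1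
  simp only [h2, Pi.zero_apply, zero_sub, map_neg, Finset.sum_neg_distrib, h3,
    finsum_neg_distrib]
  rw [← neg_add, h5, neg_zero]

/-- **Existence of the trace** with evaluation formula on `(d z, c)`, `z` of level `Linf`. -/
theorem tr_exists (hL : ∀ N ∈ L.S, ∃ N' ∈ Linf.S, N' ≤ N) (I : tr_Inv D hD O ρT) :
    ∃ τ : hc_Cc3 D ρT →ₗ[k] k,
      (∀ x : hc_Cc2 D ρT, τ (hc_dc2 D ρT x) = 0) ∧
      (∀ a : ∀ v : D.V, hc_C2 (D.Lv v) (ρT.comp (D.ι v)), τ (0, a) = ∑ v, I.inv v (a v)) ∧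
      ∀ (a3 : hc_C3 L ρT) (c : ∀ v : D.V, hc_C2 (D.Lv v) (ρT.comp (D.ι v)))
        (z : hc_C2 Linf ρT) (e : ∀ w : O.W, hc_C2 (O.LW w) (ρT.comp (O.ι w))),
        (a3 : G × G × G → T) = hc_d23f ρT (z : G × G → T) →
        (∀ w, hc_IsLev2 (ρT.comp (O.ι w)) (O.I w) (e w : O.H w × O.H w → T) ∧
          hc_d23 (O.LW w) (ρT.comp (O.ι w)) (e w)
            = hc_res3 (O.compat w) ρT (hc_d23 Linf ρT z)) →
        τ (a3, c) = ∑ v, I.inv v (c v - hc_res2 (hD v) ρT z)
          + ∑ᶠ w, I.invW w (e w - hc_res2 (O.compat w) ρT z) := by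
  obtain ⟨τ, hτ⟩ := hc_factor (k := k) (V := tr_X D O ρT) (W := hc_Cc3 D ρT)
    (tr_F D O ρT) (tr_chi I) (tr_chi_ker I)
  refine ⟨τ, fun x => ?_, fun a => ?_, fun a3 c z e hz he => ?_⟩
  · -- coboundaries
    have hmem : ((tr_incl2 hL ρT x.1, (fun v => hc_res2 (D.compat v) ρT x.1
        - hc_d12 (D.Lv v) (ρT.comp (D.ι v)) (x.2 v)),
        (fun w => hc_res2 (O.compat w) ρT (tr_incl2 hL ρT x.1))) :
        hc_C2 Linf ρT × (∀ v : D.V, hc_C2 (D.Lv v) (ρT.comp (D.ι v))) ×
          (∀ w : O.W, hc_C2 (O.LW w) (ρT.comp (O.ι w)))) ∈ tr_X D O ρT := by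
      refine ⟨(hc_d23 L ρT x.1).2, fun w => ⟨?_, ?_⟩⟩
      · obtain ⟨N, hN, hlev⟩ := x.1.2
        exact hc_isLev2_res ρT (O.unr w N hN) hlev
      · exact (hc_res3_d23 (O.compat w) ρT _).symm
    have hF : tr_F D O ρT ⟨_, hmem⟩ = hc_dc2 D ρT x := rfl
    rw [← hF, hτ, tr_chi_apply]
    have h1 : ∀ v : D.V, I.inv v ((hc_res2 (D.compat v) ρT x.1
        - hc_d12 (D.Lv v) (ρT.comp (D.ι v)) (x.2 v))
        - hc_res2 (hD v) ρT (tr_incl2 hL ρT x.1)) = 0 := by
      intro v
      have h2 : hc_res2 (hD v) ρT (tr_incl2 hL ρT x.1) = hc_res2 (D.compat v) ρT x.1 :=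
        Subtype.ext rfl
      rw [h2, sub_sub_cancel_left, map_neg, I.inv_d, neg_zero]
    simp only [h1, Finset.sum_const_zero, sub_self, map_zero, finsum_zero, add_zero]
  · -- local classes
    have hmem : ((0, a, 0) : hc_C2 Linf ρT × (∀ v : D.V, hc_C2 (D.Lv v) (ρT.comp (D.ι v))) ×
          (∀ w : O.W, hc_C2 (O.LW w) (ρT.comp (O.ι w)))) ∈ tr_X D O ρT := by
      refine ⟨?_, fun w => ⟨?_, ?_⟩⟩
      · simp only [Submodule.coe_zero, map_zero]
        exact (hc_C3 L ρT).zero_mem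
      · exact tr_isLev2_zero _ _
      · simp only [Pi.zero_apply, map_zero]
    have hF : tr_F D O ρT ⟨_, hmem⟩ = (0, a) := by
      refine Prod.ext (Subtype.ext ?_) rfl
      simp [tr_F]
    rw [← hF, hτ, tr_chi_apply]
    simp only [map_zero, sub_zero, Pi.zero_apply, finsum_zero, add_zero]
  · -- evaluation
    have hmem : ((z, c, e) : hc_C2 Linf ρT × (∀ v : D.V, hc_C2 (D.Lv v) (ρT.comp (D.ι v))) ×
          (∀ w : O.W, hc_C2 (O.LW w) (ρT.comp (O.ι w)))) ∈ tr_X D O ρT := by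
      refine ⟨?_, he⟩
      have h1 := a3.2
      rw [hz] at h1
      exact h1
    have hF : tr_F D O ρT ⟨_, hmem⟩ = (a3, c) :=
      Prod.ext (Subtype.ext hz.symm) rfl
    rw [← hF, hτ, tr_chi_apply]

/-- the trace functional attached to a system of local invariants with outside places. -/
noncomputable def tr_tau (hL : ∀ N ∈ L.S, ∃ N' ∈ Linf.S, N' ≤ N) (I : tr_Inv D hD O ρT) :
    hc_Cc3 D ρT →ₗ[k] k :=
  Classical.choose (tr_exists hL I)

/-- the trace kills cone coboundaries. -/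
lemma tr_tau_dc2 (hL : ∀ N ∈ L.S, ∃ N' ∈ Linf.S, N' ≤ N) (I : tr_Inv D hD O ρT)
    (x : hc_Cc2 D ρT) : tr_tau hL I (hc_dc2 D ρT x) = 0 :=
  (Classical.choose_spec (tr_exists hL I)).1 x

/-- the trace on purely local classes is the sum of the local invariants. -/
lemma tr_tau_loc (hL : ∀ N ∈ L.S, ∃ N' ∈ Linf.S, N' ≤ N) (I : tr_Inv D hD O ρT)
    (a : ∀ v : D.V, hc_C2 (D.Lv v) (ρT.comp (D.ι v))) :
    tr_tau hL I (0, a) = ∑ v, I.inv v (a v) :=
  (Classical.choose_spec (tr_exists hL I)).2.1 a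

/-- evaluation of the trace on `(d z, c)` for `z` of the finer level structure. -/
lemma tr_tau_eval (hL : ∀ N ∈ L.S, ∃ N' ∈ Linf.S, N' ≤ N) (I : tr_Inv D hD O ρT)
    (a3 : hc_C3 L ρT) (c : ∀ v : D.V, hc_C2 (D.Lv v) (ρT.comp (D.ι v)))
    (z : hc_C2 Linf ρT) (e : ∀ w : O.W, hc_C2 (O.LW w) (ρT.comp (O.ι w)))
    (hz : (a3 : G × G × G → T) = hc_d23f ρT (z : G × G → T))
    (he : ∀ w, hc_IsLev2 (ρT.comp (O.ι w)) (O.I w) (e w : O.H w × O.H w → T) ∧
      hc_d23 (O.LW w) (ρT.comp (O.ι w)) (e w)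
        = hc_res3 (O.compat w) ρT (hc_d23 Linf ρT z)) :
    tr_tau hL I (a3, c) = ∑ v, I.inv v (c v - hc_res2 (hD v) ρT z)
      + ∑ᶠ w, I.invW w (e w - hc_res2 (O.compat w) ρT z) :=
  (Classical.choose_spec (tr_exists hL I)).2.2 a3 c z e hz he

end trace

end Fermat.Agent.S55
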