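import Mathlib
import Fermat.Agent.S55.WildNorm
import Fermat.Agent.S55.FiHasseMain
import Fermat.Agent.S55.HpbMain

/-!
# S55: the Hasse norm theorem and the cohomological Hasse principle, hypothesis-free

* `wild_hasse_norm`: helper1's `fi_hasse_norm` with its local input `hwild` discharged by
  `wild_norm_index`;
* `wild_hpb_main`: helper20's `hpb_main` with its hypothesis `HNT` discharged.
-/

set_option autoImplicit false

namespace Fermat.Agent.S55

open IsDedekindDomain NumberField WithZero groupCohomology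

/-- **Hasse norm theorem** for cyclic extensions of odd prime degree `p` of a number field
containing `ζ_p`: an element which is a local norm (to every finite precision) at all nonsplit
primes is a global norm. -/
theorem wild_hasse_norm (p : ℕ) [Fact p.Prime] (hp2 : p ≠ 2) (K : Type) [Field K]
    [NumberField K] {ζ : K} (hζ : IsPrimitiveRoot ζ p)
    (L : Type) [Field L] [NumberField L] [Algebra K L] [IsGalois K L]
    (hL : Module.finrank K L = p) (x : Kˣ)
    (hx : ∀ v : HeightOneSpectrum (𝓞 K), suNonsplit K L v → ∀ n, x ∈ ksiNorm K L v n) :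
    ∃ y : Lˣ, Units.map (Algebra.norm K : L →* K) y = x :=
  fi_hasse_norm p hp2 K hζ L hL (fun v _ hns => wild_norm_index p K L hL v hns) x hx

/-- **Cohomological Hasse principle** for `p`-primary classes of `H²(Gal(L/K), Lˣ)`, `p` odd,
`ζ_p ∈ K`: a 2-cocycle killed by a power of `p` which is locally trivial at every embedding
`τ : L → PadicAlgCl q` is a coboundary. -/
theorem wild_hpb_main (p : ℕ) [Fact p.Prime] (hp2 : p ≠ 2) {K L : Type} [Field K]
    [NumberField K] [Field L] [NumberField L] [Algebra K L] [IsGalois K L]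
    (hζ : ∃ ζ : K, IsPrimitiveRoot ζ p)
    (x : (L ≃ₐ[K] L) × (L ≃ₐ[K] L) → Lˣ) (hx : IsMulCocycle₂ x)
    (hp : ∃ m : ℕ, IsMulCoboundary₂ (fun g => x g ^ p ^ m))
    (hloc : ∀ (q : ℕ) [Fact q.Prime] (τ : L →+* PadicAlgCl q), hpbLocTriv K τ x) :
    IsMulCoboundary₂ x :=
  hpb_main p
    (fun K₀ F₀ _ _ _ _ _ _ hdeg hζ₀ y hy =>
      wild_hasse_norm p hp2 K₀ hζ₀.choose_spec F₀ hdeg y hy)
    hζ x hx hp hloc

end Fermat.Agent.S55
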