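import Mathlib
import Fermat.Agent.S55.TcIndex

/-!
# S55, block ZF (removing `ζ_p` from the cohomological Hasse principle): abstract lemmas

Multiplicative 2-cocycles (`IsMulCocycle₂` / `IsMulCoboundary₂`):
* `zf_pullback_cocycle`, `zf_pullback_coboundary`: functoriality along a compatible pair
  `φ : G₁ →* G₂`, `ι : M₂ →* M₁`;
* `zf_inf_injective`: inflation `H²(G, M) → H²(G', M')` is injective when `r : G' → G` is onto,
  `M = (M')^{ker r}` and `H¹(ker r, M') = 0` (elementary cochain-level proof);
* `zf_coboundary_of_res`: a `p`-power torsion 2-cocycle whose restriction to a subgroup of index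
  prime to `p` is a coboundary is a coboundary.
-/

set_option autoImplicit false

namespace Fermat.Agent.S55

open CategoryTheory groupCohomology

section Pullback

variable {G₁ G₂ M₁ M₂ : Type*} [Group G₁] [Group G₂] [CommGroup M₁] [CommGroup M₂]
  [MulDistribMulAction G₁ M₁] [MulDistribMulAction G₂ M₂]
  (φ : G₁ →* G₂) (ι : M₂ →* M₁)

theorem zf_pullback_cocycle (hcompat : ∀ (g : G₁) (m : M₂), g • ι m = ι (φ g • m))
    {c : G₂ × G₂ → M₂} (hc : IsMulCocycle₂ c) :
    IsMulCocycle₂ (fun g : G₁ × G₁ => ι (c (φ g.1, φ g.2))) := by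
  intro g h j
  change ι (c (φ (g * h), φ j)) * ι (c (φ g, φ h)) =
    g • ι (c (φ h, φ j)) * ι (c (φ g, φ (h * j)))
  rw [hcompat, ← map_mul, ← map_mul, map_mul φ, map_mul φ, hc]

theorem zf_pullback_coboundary (hcompat : ∀ (g : G₁) (m : M₂), g • ι m = ι (φ g • m))
    {c : G₂ × G₂ → M₂} (hc : IsMulCoboundary₂ c) :
    IsMulCoboundary₂ (fun g : G₁ × G₁ => ι (c (φ g.1, φ g.2))) := by
  obtain ⟨f, hf⟩ := hc
  refine ⟨fun g => ι (f (φ g)), fun g h => ?_⟩
  change g • ι (f (φ h)) / ι (f (φ (g * h))) * ι (f (φ g)) = ι (c (φ g, φ h))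
  rw [hcompat, ← map_div, ← map_mul, map_mul φ, hf]

end Pullback

section Inflation

theorem zf_comm_identity {M : Type*} [CommGroup M] (A B C D E a : M) :
    (A * B / C) / (D * a / C) * (E * a / B) = A / D * E := by
  apply Additive.ofMul.injective
  simp only [ofMul_mul, ofMul_div]
  abel

/-- **Inflation is injective on `H²`** (cochain level).  `r : G' → G` onto, `ι : M → M'`
injective and compatible with the actions, with image the `ker r`-invariants, and
`H¹(ker r, M') = 0`. -/
theorem zf_inf_injective {G' G M' M : Type*} [Group G'] [Group G] [CommGroup M'] [CommGroup M]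
    [MulDistribMulAction G' M'] [MulDistribMulAction G M]
    (r : G' →* G) (hr : Function.Surjective r) (ι : M →* M') (hι : Function.Injective ι)
    (hcompat : ∀ (g : G') (m : M), g • ι m = ι (r g • m))
    (hinv : ∀ m' : M', (∀ n : G', r n = 1 → n • m' = m') → ∃ m, ι m = m')
    (h90 : ∀ c : r.ker → M', (∀ g h : r.ker, c (g * h) = (g : G') • c h * c g) →
      ∃ a : M', ∀ g : r.ker, c g = (g : G') • a / a)
    (x : G × G → M) (hx : IsMulCocycle₂ x)
    (hx' : IsMulCoboundary₂ (fun g : G' × G' => ι (x (r g.1, r g.2)))) :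
    IsMulCoboundary₂ x := by
  obtain ⟨f', hf'⟩ := hx'
  have hf'' : ∀ g h : G', g • f' h / f' (g * h) * f' g = ι (x (r g, r h)) := hf'
  clear hf'
  set c : M' := ι (x (1, 1)) with hc
  have hx1 : ∀ σ, x (1, σ) = x (1, 1) := map_one_fst_of_isMulCocycle₂ hx
  have hx2 : ∀ σ, x (σ, 1) = σ • x (1, 1) := map_one_snd_of_isMulCocycle₂ hx
  have hNc : ∀ n : G', r n = 1 → n • c = c := by
    intro n hn
    rw [hc, hcompat, hn, one_smul]
  -- `f' / c` is a 1-cocycle on `ker r`
  obtain ⟨a, ha⟩ := h90 (fun n => f' n / c) (by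
    intro g h
    have hg : r (g : G') = 1 := g.2
    have hh : r (h : G') = 1 := h.2
    have h1 := hf'' g h
    rw [hg, hh, ← hc] at h1
    change f' ((g : G') * (h : G')) / c = (g : G') • (f' h / c) * (f' g / c)
    rw [smul_div', hNc _ hg, ← h1]
    apply Additive.ofMul.injective
    simp only [ofMul_mul, ofMul_div]
    abel)
  -- modify the primitive
  set f : G' → M' := fun g => f' g * a / g • a with hf
  have hd : ∀ g h : G', g • f h / f (g * h) * f g = ι (x (r g, r h)) := by
    intro g h
    rw [← hf'' g h]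
    simp only [hf, smul_div', smul_mul', mul_smul]
    exact zf_comm_identity _ _ _ _ _ _
  have hfN : ∀ n : G', r n = 1 → f n = c := by
    intro n hn
    have h1 : f' n / c = n • a / a := ha ⟨n, hn⟩
    have h2 : f' n = c * (n • a / a) := by
      rw [← h1]
      apply Additive.ofMul.injective
      simp only [ofMul_mul, ofMul_div]
      abel
    simp only [hf]
    rw [h2]
    apply Additive.ofMul.injective
    simp only [ofMul_mul, ofMul_div]
    abel
  have hright : ∀ g n : G', r n = 1 → f (g * n) = f g := by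
    intro g n hn
    have h1 := hd g n
    rw [hfN n hn, hn, hx2, ← hcompat, ← hc] at h1
    have h2 : f g = f (g * n) * (g • c / f (g * n) * f g) / (g • c) := by
      apply Additive.ofMul.injective
      simp only [ofMul_mul, ofMul_div]
      abel
    rw [h2, h1]
    apply Additive.ofMul.injective
    simp only [ofMul_mul, ofMul_div]
    abel
  have hval : ∀ g n : G', r n = 1 → n • f g = f g := by
    intro g n hn
    have h1 := hd n g
    have h2 : f (n * g) = f g := by
      have h3 : n * g = g * (g⁻¹ * n * g) := by group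
      rw [h3]
      exact hright g _ (by rw [map_mul, map_mul, hn, map_inv, mul_one, inv_mul_cancel])
    rw [h2, hfN n hn, hn, hx1, ← hc] at h1
    have h4 : n • f g = (n • f g / f g * c) * f g / c := by
      apply Additive.ofMul.injective
      simp only [ofMul_mul, ofMul_div]
      abel
    rw [h4, h1]
    apply Additive.ofMul.injective
    simp only [ofMul_mul, ofMul_div]
    abel
  -- descend to `G`
  have hex : ∀ g : G, ∃ m : M, ∀ g' : G', r g' = g → ι m = f g' := by
    intro g
    obtain ⟨g₀, rfl⟩ := hr g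
    obtain ⟨m, hm⟩ := hinv (f g₀) (fun n hn => hval g₀ n hn)
    refine ⟨m, fun g' hg' => ?_⟩
    have h3 : g' = g₀ * (g₀⁻¹ * g') := by group
    rw [hm, h3]
    exact (hright g₀ _ (by rw [map_mul, map_inv, hg', inv_mul_cancel])).symm
  choose y hy using hex
  refine ⟨y, fun g h => ?_⟩
  obtain ⟨g', rfl⟩ := hr g
  obtain ⟨h', rfl⟩ := hr h
  apply hι
  rw [map_mul, map_div, ← hcompat, hy _ h' rfl, hy _ (g' * h') (map_mul _ _ _), hy _ g' rfl]
  exact hd g' h'

end Inflation

section Restriction

/-- A `p`-power torsion multiplicative 2-cocycle whose restriction to a subgroup of index prime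
to `p` is a coboundary is a coboundary. -/
theorem zf_coboundary_of_res {G M : Type} [Group G] [Finite G] [CommGroup M]
    [MulDistribMulAction G M] (p : ℕ) [Fact p.Prime] (S : Subgroup G) (hS : ¬ p ∣ S.index)
    (c : G × G → M) (hc : IsMulCocycle₂ c)
    (hp : ∃ m : ℕ, IsMulCoboundary₂ (fun g => c g ^ p ^ m))
    (hres : ∃ f : S → M, ∀ g h : S, (g : G) • f h / f (g * h) * f g = c ((g : G), (h : G))) :
    IsMulCoboundary₂ c := by
  set A : Rep ℤ G := Rep.ofMulDistribMulAction G M with hA
  set α : groupCohomology A 2 := H2π A (cocyclesOfIsMulCocycle₂ hc) with hα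
  have hresα : (tcRes A S 2).hom α = 0 := by
    have h1 := H2π_comp_map_apply S.subtype (𝟙 (Rep.res S.subtype A)) (cocyclesOfIsMulCocycle₂ hc)
    refine h1.trans ?_
    rw [H2π_eq_zero_iff]
    obtain ⟨f, hf⟩ := hres
    refine ⟨fun s => Additive.ofMul (f s), funext fun g => ?_⟩
    exact congrArg Additive.ofMul (hf g.1 g.2)
  have hidx : S.index • α = 0 := tc_index_nsmul_eq_zero_of_res S 1 A α hresα
  obtain ⟨m, hm⟩ := hp
  have hpm : p ^ m • α = 0 := by
    rw [hα, ← map_nsmul, H2π_eq_zero_iff]
    have h1 := (coboundariesOfIsMulCoboundary₂ hm).2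
    have h2 : (⇑(p ^ m • cocyclesOfIsMulCocycle₂ hc) : G × G → A) =
        (coboundariesOfIsMulCoboundary₂ hm).1 := by
      funext g
      rfl
    rw [h2]
    exact h1
  have h1 : addOrderOf α ∣ p ^ m := addOrderOf_dvd_of_nsmul_eq_zero hpm
  have h2 : addOrderOf α ∣ S.index := addOrderOf_dvd_of_nsmul_eq_zero hidx
  have hcop : Nat.Coprime (p ^ m) S.index :=
    Nat.Coprime.pow_left m ((Nat.Prime.coprime_iff_not_dvd (Fact.out : p.Prime)).2 hS)
  have h3 : addOrderOf α = 1 := Nat.eq_one_of_dvd_coprimes hcop h1 h2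
  have h0 : α = 0 := AddMonoid.addOrderOf_eq_one_iff.1 h3
  exact isMulCoboundary₂_of_mem_coboundaries₂ _ ((H2π_eq_zero_iff _).1 h0)

end Restriction

end Fermat.Agent.S55
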