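import Mathlib
import Fermat.Agent.S55.ZfAbs
import Fermat.Agent.S55.WildHasse
import Fermat.Agent.S55.LocInfHpb
import Fermat.Agent.S55.LocTransport

/-!
# S55, block ZF: the cohomological Hasse principle without `ζ_p` in the base field

`zf_hpb_main`: helper20's `hpb_main` / `wild_hpb_main` without the hypothesis `ζ_p ∈ K`.

Proof: `L' := L(ζ_p)` (`CyclotomicField p L`) is Galois over `K`; let `P` be a Sylow
`p`-subgroup of `Gal(L'/K)` and `K₁` its fixed field; then `ζ_p ∈ K₁` and `wild_hpb_main`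
applies to the inflated cocycle on `Gal(L'/K₁)`; restriction to `P` is injective on
`p`-primary classes and inflation `H²(L/K) → H²(L'/K)` is injective.
-/

set_option autoImplicit false
set_option linter.style.haveILetI false

namespace Fermat.Agent.S55

open groupCohomology Polynomial

section Field

variable (p : ℕ) [Fact p.Prime] (K L : Type) [Field K] [NumberField K] [Field L] [NumberField L]
  [Algebra K L] [IsGalois K L]

/-- `L(ζ_p)/K` is Galois. -/
theorem zf_isGalois : IsGalois K (CyclotomicField p L) := by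
  haveI : NeZero p := ⟨(Fact.out : p.Prime).ne_zero⟩
  obtain ⟨f, hfsep, hf⟩ := IsGalois.is_separable_splitting_field K L
  have hf0 : f ≠ 0 := hfsep.ne_zero
  have hX0 : (X ^ p - 1 : K[X]) ≠ 0 := by
    have e : (X ^ p - 1 : K[X]) = X ^ p - C 1 := by simp
    rw [e]
    exact X_pow_sub_C_ne_zero (Fact.out : p.Prime).pos 1
  haveI h2 : ((X ^ p - 1 : K[X]).map (algebraMap K L)).IsSplittingField L
      (CyclotomicField p L) := by
    have h := IsCyclotomicExtension.isSplittingField_X_pow_sub_one p L (CyclotomicField p L)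
    have e : (X ^ p - 1 : K[X]).map (algebraMap K L) = X ^ p - 1 := by
      simp
    rw [e]
    exact h
  haveI h3 : (f * (X ^ p - 1)).IsSplittingField K (CyclotomicField p L) :=
    IsSplittingField.mul (F := K) (K := L) (L := CyclotomicField p L) (f := f)
      (g := X ^ p - 1) hf0 hX0
  haveI : Normal K (CyclotomicField p L) := Normal.of_isSplittingField (f * (X ^ p - 1))
  exact IsGalois.mk

end Field

section Transfer

variable {K L L' : Type} [Field K] [NumberField K] [Field L] [NumberField L] [Field L']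
  [NumberField L'] [Algebra K L] [Algebra L L'] [Algebra K L'] [IsScalarTower K L L']
  [IsGalois K L] [IsGalois K L'] (K₁ : IntermediateField K L')

/-- Restriction of scalars `Gal(L'/K₁) → Gal(L'/K)`. -/
noncomputable def zfRS : (L' ≃ₐ[K₁] L') →* (L' ≃ₐ[K] L') where
  toFun s := s.restrictScalars K
  map_one' := rfl
  map_mul' _ _ := rfl

omit [NumberField K] [NumberField L'] [IsGalois K L'] [NumberField L] [IsGalois K L] [Algebra K L]
  [Algebra L L'] [IsScalarTower K L L'] in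
theorem zfRS_apply (s : L' ≃ₐ[K₁] L') (y : L') : zfRS K₁ s y = s y := rfl

/-- `Gal(L'/K₁) → Gal(L/K)`, restriction to `L`. -/
noncomputable def zfPhi : (L' ≃ₐ[K₁] L') →* (L ≃ₐ[K] L) :=
  (AlgEquiv.restrictNormalHom L).comp (zfRS K₁)

omit [NumberField K] [NumberField L'] [IsGalois K L'] [NumberField L] in
theorem zfPhi_spec (s : L' ≃ₐ[K₁] L') (y : L) :
    algebraMap L L' (zfPhi K₁ s y) = s (algebraMap L L' y) :=
  AlgEquiv.restrictNormal_commutes (s.restrictScalars K) L y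

omit [NumberField K] [NumberField L'] [IsGalois K L'] [NumberField L] in
theorem zfPhi_compat (g : L' ≃ₐ[K₁] L') (m : Lˣ) :
    g • Units.map (algebraMap L L' : L →* L') m =
      Units.map (algebraMap L L' : L →* L') ((zfPhi K₁ g : L ≃ₐ[K] L) • m) := by
  apply Units.ext
  rw [AlgEquiv.smul_units_def, AlgEquiv.smul_units_def]
  exact (zfPhi_spec K₁ g (m : L)).symm

omit [NumberField K] [NumberField L'] in
/-- Local triviality is inherited by the inflation-restriction of a cocycle to `Gal(L'/K₁)`. -/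
theorem zf_locTriv (x : (L ≃ₐ[K] L) × (L ≃ₐ[K] L) → Lˣ) (hx : IsMulCocycle₂ x) {q : ℕ}
    [Fact q.Prime] (τ' : L' →+* PadicAlgCl q)
    (h : hpbLocTriv K (τ'.comp (algebraMap L L')) x) :
    hpbLocTriv ↥K₁ τ' (fun g : (L' ≃ₐ[K₁] L') × (L' ≃ₐ[K₁] L') =>
      Units.map (algebraMap L L' : L →* L') (x (zfPhi K₁ g.1, zfPhi K₁ g.2))) := by
  classical
  set τ : L →+* PadicAlgCl q := τ'.comp (algebraMap L L') with hτ
  obtain ⟨f, hf⟩ := h
  haveI := wild_normal_lloc K τ
  have hle : hpbKloc K τ ≤ hpbKloc ↥K₁ τ' := by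
    apply IntermediateField.adjoin.mono
    rintro _ ⟨k, rfl⟩
    refine ⟨algebraMap K K₁ k, ?_⟩
    change τ' (algebraMap K₁ L' (algebraMap K K₁ k)) = τ' (algebraMap L L' (algebraMap K L k))
    rw [← IsScalarTower.algebraMap_apply, ← IsScalarTower.algebraMap_apply]
  have hfix : (hpbKloc ↥K₁ τ').fixingSubgroup ≤ (hpbKloc K τ).fixingSubgroup := by
    intro g hg
    rw [IntermediateField.mem_fixingSubgroup_iff] at hg ⊢
    exact fun z hz => hg z (hle hz)
  let ρ₀ : (hpbKloc ↥K₁ τ').fixingSubgroup →* (hpbLloc K τ ≃ₐ[hpbKloc K τ] hpbLloc K τ) :=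
    ((AlgEquiv.restrictNormalHom (hpbLloc K τ)).comp
      (IntermediateField.fixingSubgroupEquiv (hpbKloc K τ)).toMonoidHom).comp
        (Subgroup.inclusion hfix)
  have hρ₀ : ∀ (g : (hpbKloc ↥K₁ τ').fixingSubgroup) (z : hpbLloc K τ),
      ((ρ₀ g z : hpbLloc K τ) : PadicAlgCl q) =
        (g : PadicAlgCl q ≃ₐ[ℚ_[q]] PadicAlgCl q) (z : PadicAlgCl q) := by
    intro g z
    exact AlgEquiv.restrictNormal_commutes
      (IntermediateField.fixingSubgroupEquiv (hpbKloc K τ) (Subgroup.inclusion hfix g))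
      (hpbLloc K τ) z
  -- `ρ₀` is compatible with the restriction maps to `L`
  have hψ : ∀ g : (hpbKloc ↥K₁ τ').fixingSubgroup,
      zfPhi K₁ (linf_rho ↥K₁ τ' g) = hpbPsi K τ (ρ₀ g) := by
    intro g
    ext y
    apply τ.injective
    have h1 : τ (zfPhi K₁ (linf_rho ↥K₁ τ' g) y) =
        (g : PadicAlgCl q ≃ₐ[ℚ_[q]] PadicAlgCl q) (τ y) := by
      change τ' (algebraMap L L' (zfPhi K₁ (linf_rho ↥K₁ τ' g) y)) = _
      rw [zfPhi_spec, linf_rho_spec]
      rfl
    have h2 : τ (hpbPsi K τ (ρ₀ g) y) =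
        (g : PadicAlgCl q ≃ₐ[ℚ_[q]] PadicAlgCl q) (τ y) := by
      have h3 := congrArg (fun z : hpbLloc K τ => (z : PadicAlgCl q)) (hpbPsi_spec K τ (ρ₀ g) y)
      simp only [hpbTau_coe] at h3
      rw [h3, hρ₀]
      rfl
    rw [h1, h2]
  -- the absolute cochain
  let θ : (hpbKloc ↥K₁ τ').fixingSubgroup → (PadicAlgCl q)ˣ := fun g =>
    Units.map ((algebraMap (hpbLloc K τ) (PadicAlgCl q) : hpbLloc K τ →+* PadicAlgCl q) :
      hpbLloc K τ →* PadicAlgCl q) (f (ρ₀ g))
  have hθval : ∀ g, ((θ g : (PadicAlgCl q)ˣ) : PadicAlgCl q) =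
      (((f (ρ₀ g) : (hpbLloc K τ)ˣ) : hpbLloc K τ) : PadicAlgCl q) := fun g => rfl
  have hx₁ : IsMulCocycle₂ (fun g : (L' ≃ₐ[K₁] L') × (L' ≃ₐ[K₁] L') =>
      Units.map (algebraMap L L' : L →* L') (x (zfPhi K₁ g.1, zfPhi K₁ g.2))) :=
    zf_pullback_cocycle (zfPhi K₁) (Units.map (algebraMap L L' : L →* L'))
      (zfPhi_compat K₁) hx
  refine linf_hpbLocTriv_fixingSubgroup ↥K₁ τ' _ hx₁ θ ?_ ?_
  · refine ⟨IntermediateField.adjoin ℚ_[q] (Set.range τ),
      wild_finiteDimensional_adjoin_range τ, ?_⟩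
    intro g s hs
    have h1 : ρ₀ s = 1 := by
      ext z
      rw [hρ₀]
      exact (IntermediateField.mem_fixingSubgroup_iff _ _).1 hs _
        ((linf_mem_hpbLloc_iff (K := K) q τ _).1 z.2)
    change Units.map _ (f (ρ₀ (g * s))) = Units.map _ (f (ρ₀ g))
    rw [map_mul, h1, mul_one]
  · intro g h
    change τ (x (zfPhi K₁ (linf_rho ↥K₁ τ' g), zfPhi K₁ (linf_rho ↥K₁ τ' h)) : L) = _
    rw [hψ g, hψ h, hθval, hθval, hθval, map_mul]
    have key : (((ρ₀ g) ((f (ρ₀ h) : (hpbLloc K τ)ˣ) : hpbLloc K τ) : hpbLloc K τ) :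
          PadicAlgCl q) /
        (((f (ρ₀ g * ρ₀ h) : (hpbLloc K τ)ˣ) : hpbLloc K τ) : PadicAlgCl q) *
        (((f (ρ₀ g) : (hpbLloc K τ)ˣ) : hpbLloc K τ) : PadicAlgCl q) =
        τ (x (hpbPsi K τ (ρ₀ g), hpbPsi K τ (ρ₀ h)) : L) := by
      have h1 := congrArg (fun u : (hpbLloc K τ)ˣ => ((u : hpbLloc K τ) : PadicAlgCl q))
        (hf (ρ₀ g) (ρ₀ h))
      simp only [Units.val_mul, Units.val_div_eq_div_val, AlgEquiv.smul_units_def,
        Units.coe_map, MonoidHom.coe_coe, IntermediateField.coe_mul, IntermediateField.coe_div,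
        hpbTau_coe] at h1
      exact h1
    rw [← key, hρ₀]
    have h0 : (((f (ρ₀ g * ρ₀ h) : (hpbLloc K τ)ˣ) : hpbLloc K τ) : PadicAlgCl q) ≠ 0 :=
      fun h0 => (f (ρ₀ g * ρ₀ h)).ne_zero (Subtype.ext h0)
    field_simp

end Transfer

section Main

variable (p : ℕ) [Fact p.Prime]

/-- A Sylow `p`-subgroup of a group of automorphisms fixes the `p`-th roots of unity. -/
theorem zf_zeta_fixed {K L' : Type} [Field K] [Field L'] [Algebra K L'] {ζ : L'}
    (hζ : IsPrimitiveRoot ζ p) (P : Sylow p (L' ≃ₐ[K] L')) (σ : L' ≃ₐ[K] L')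
    (hσ : σ ∈ P) : σ ζ = ζ := by
  haveI : NeZero p := ⟨(Fact.out : p.Prime).ne_zero⟩
  have hp : p.Prime := Fact.out
  obtain ⟨k, hk⟩ := P.isPGroup' ⟨σ, hσ⟩
  have h1 : σ ^ p ^ k = 1 := congrArg Subtype.val hk
  have h2 : hζ.autToPow K σ ^ p ^ k = 1 := by rw [← map_pow, h1, map_one]
  have h3 : hζ.autToPow K σ ^ (p - 1) = 1 := by
    have h := pow_card_eq_one (G := (ZMod p)ˣ) (x := hζ.autToPow K σ)
    rwa [ZMod.card_units_eq_totient, Nat.totient_prime hp] at h
  have hcop : Nat.Coprime (p ^ k) (p - 1) :=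
    Nat.Coprime.pow_left k ((Nat.Prime.coprime_iff_not_dvd hp).2
      (Nat.not_dvd_of_pos_of_lt (by have := hp.two_le; omega) (by have := hp.two_le; omega)))
  have h4 : hζ.autToPow K σ = 1 := by
    have d1 := orderOf_dvd_of_pow_eq_one h2
    have d2 := orderOf_dvd_of_pow_eq_one h3
    exact orderOf_eq_one_iff.1 (Nat.eq_one_of_dvd_coprimes hcop d1 d2)
  have h5 := hζ.autToPow_spec K σ
  rw [h4] at h5
  rw [← h5]
  simp [ZMod.val_one]

/-- The cohomological Hasse principle for `L/K` from an auxiliary Galois extension `L'/K`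
containing `L` and the `p`-th roots of unity. -/
theorem zf_hpb_of_ext (hp2 : p ≠ 2) {K L L' : Type} [Field K] [NumberField K] [Field L]
    [NumberField L] [Field L'] [NumberField L'] [Algebra K L] [Algebra L L'] [Algebra K L']
    [IsScalarTower K L L'] [IsGalois K L] [IsGalois K L'] {ζ : L'} (hζ : IsPrimitiveRoot ζ p)
    (x : (L ≃ₐ[K] L) × (L ≃ₐ[K] L) → Lˣ) (hx : IsMulCocycle₂ x)
    (hp : ∃ m : ℕ, IsMulCoboundary₂ (fun g => x g ^ p ^ m))
    (hloc : ∀ (q : ℕ) [Fact q.Prime] (τ : L →+* PadicAlgCl q), hpbLocTriv K τ x) :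
    IsMulCoboundary₂ x := by
  classical
  haveI : Finite (L' ≃ₐ[K] L') := inferInstance
  obtain ⟨P⟩ : Nonempty (Sylow p (L' ≃ₐ[K] L')) := inferInstance
  let K₁ : IntermediateField K L' := IntermediateField.fixedField (P : Subgroup (L' ≃ₐ[K] L'))
  have hζmem : ζ ∈ K₁ := by
    rw [IntermediateField.mem_fixedField_iff]
    intro σ hσ
    exact zf_zeta_fixed p hζ P σ hσ
  have hζ₁ : ∃ ζ₁ : ↥K₁, IsPrimitiveRoot ζ₁ p :=
    ⟨⟨ζ, hζmem⟩, IsPrimitiveRoot.coe_submonoidClass_iff.1 hζ⟩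
  let ι : Lˣ →* L'ˣ := Units.map (algebraMap L L' : L →* L')
  -- the cocycle on `Gal(L'/K₁)`
  have hx₁ := zf_pullback_cocycle (zfPhi K₁) ι (zfPhi_compat K₁) hx
  have hp₁ : ∃ m : ℕ, IsMulCoboundary₂ (fun g : (L' ≃ₐ[K₁] L') × (L' ≃ₐ[K₁] L') =>
      ι (x (zfPhi K₁ g.1, zfPhi K₁ g.2)) ^ p ^ m) := by
    obtain ⟨m, hm⟩ := hp
    refine ⟨m, ?_⟩
    have h := zf_pullback_coboundary (zfPhi K₁) ι (zfPhi_compat K₁) hm
    simpa only [map_pow] using h
  have hloc₁ : ∀ (q : ℕ) [Fact q.Prime] (τ' : L' →+* PadicAlgCl q),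
      hpbLocTriv ↥K₁ τ' (fun g : (L' ≃ₐ[K₁] L') × (L' ≃ₐ[K₁] L') =>
        ι (x (zfPhi K₁ g.1, zfPhi K₁ g.2))) :=
    fun q _ τ' => zf_locTriv K₁ x hx τ' (hloc q (τ'.comp (algebraMap L L')))
  obtain ⟨f₁, hf₁⟩ := wild_hpb_main p hp2 (K := ↥K₁) (L := L') hζ₁ _ hx₁ hp₁ hloc₁
  -- the inflated cocycle on `Gal(L'/K)`
  let r : (L' ≃ₐ[K] L') →* (L ≃ₐ[K] L) := AlgEquiv.restrictNormalHom L
  have hcompat : ∀ (g : L' ≃ₐ[K] L') (m : Lˣ), g • ι m = ι (r g • m) := by
    intro g m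
    apply Units.ext
    rw [AlgEquiv.smul_units_def, AlgEquiv.smul_units_def]
    exact (AlgEquiv.restrictNormal_commutes g L (m : L)).symm
  have hx' := zf_pullback_cocycle r ι hcompat hx
  have hp' : ∃ m : ℕ, IsMulCoboundary₂ (fun g : (L' ≃ₐ[K] L') × (L' ≃ₐ[K] L') =>
      ι (x (r g.1, r g.2)) ^ p ^ m) := by
    obtain ⟨m, hm⟩ := hp
    refine ⟨m, ?_⟩
    have h := zf_pullback_coboundary r ι hcompat hm
    simpa only [map_pow] using h
  have hcob' : IsMulCoboundary₂ (fun g : (L' ≃ₐ[K] L') × (L' ≃ₐ[K] L') =>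
      ι (x (r g.1, r g.2))) := by
    refine zf_coboundary_of_res p (P : Subgroup (L' ≃ₐ[K] L')) P.not_dvd_index _ hx' hp' ?_
    refine ⟨fun g => f₁ (loc_subgroupEquiv (P : Subgroup (L' ≃ₐ[K] L')) g), fun g h => ?_⟩
    have h1 := hf₁ (loc_subgroupEquiv (P : Subgroup (L' ≃ₐ[K] L')) g)
      (loc_subgroupEquiv (P : Subgroup (L' ≃ₐ[K] L')) h)
    rw [← map_mul] at h1
    exact h1
  -- inflation is injective
  have hinv : ∀ m' : L'ˣ, (∀ n : L' ≃ₐ[K] L', r n = 1 → n • m' = m') → ∃ m, ι m = m' := by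
    intro m' hm'
    let E : IntermediateField K L' := (IsScalarTower.toAlgHom K L L').fieldRange
    have hE : (m' : L') ∈ IntermediateField.fixedField E.fixingSubgroup := by
      rw [IntermediateField.mem_fixedField_iff]
      intro n hn
      have hrn : r n = 1 := by
        ext y
        apply (algebraMap L L').injective
        have h1 : algebraMap L L' (r n y) = n (algebraMap L L' y) :=
          AlgEquiv.restrictNormal_commutes n L y
        rw [h1]
        exact (IntermediateField.mem_fixingSubgroup_iff _ _).1 hn _ ⟨y, rfl⟩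
      exact congrArg Units.val (hm' n hrn)
    rw [IsGalois.fixedField_fixingSubgroup] at hE
    obtain ⟨y, hy⟩ := hE
    have hy0 : y ≠ 0 := by
      rintro rfl
      exact m'.ne_zero (by rw [← hy, map_zero])
    exact ⟨Units.mk0 y hy0, Units.ext hy⟩
  exact zf_inf_injective r (AlgEquiv.restrictNormalHom_surjective L') ι
    (Units.map_injective (algebraMap L L').injective) hcompat hinv
    (fun c hc => hpb_h90 r.ker c hc) x hx hcob'

/-- **Cohomological Hasse principle** for `p`-primary classes of `H²(Gal(L/K), Lˣ)`, `p` odd —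
no roots of unity required in `K`. -/
theorem zf_hpb_main (hp2 : p ≠ 2) {K L : Type} [Field K] [NumberField K] [Field L]
    [NumberField L] [Algebra K L] [IsGalois K L]
    (x : (L ≃ₐ[K] L) × (L ≃ₐ[K] L) → Lˣ) (hx : IsMulCocycle₂ x)
    (hp : ∃ m : ℕ, IsMulCoboundary₂ (fun g => x g ^ p ^ m))
    (hloc : ∀ (q : ℕ) [Fact q.Prime] (τ : L →+* PadicAlgCl q), hpbLocTriv K τ x) :
    IsMulCoboundary₂ x := by
  haveI : NeZero p := ⟨(Fact.out : p.Prime).ne_zero⟩
  haveI : IsGalois K (CyclotomicField p L) := zf_isGalois p K L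
  exact zf_hpb_of_ext p hp2 (L' := CyclotomicField p L)
    (IsCyclotomicExtension.zeta_spec p L (CyclotomicField p L)) x hx hp hloc

end Main

end Fermat.Agent.S55
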