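import Mathlib
import Fermat.Agent.S55.HpbQbar
import Fermat.Agent.S55.ZfField

/-!
# S55, block ZF: the Hasse principle in the `ℚ̄`-model without `ζ_p ∈ k`

`zf_hpb_qbar`: helper20's `hpb_qbar` (consumer form P6(a)) without the hypothesis `ζ_p ∈ k`
(same proof, with `zf_hpb_main` in place of `hpb_main'`).
-/

set_option autoImplicit false
set_option linter.style.haveILetI false
set_option linter.unusedSectionVars false

namespace Fermat.Agent.S55

open groupCohomology IsDedekindDomain NumberField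

local notation "Qb" => AlgebraicClosure ℚ
local notation "Γ" => (AlgebraicClosure ℚ ≃ₐ[ℚ] AlgebraicClosure ℚ)

attribute [local instance] pt_qbar_isAlgebraic pt_qbar_isAlgClosure pt_qbar_isGalois

section Main

attribute [local instance 5000] hpbQ_instSMul

/-- **The cohomological Hasse principle in the `ℚ̄`-model, without roots of unity.**

`k ≤ F` finite extensions of `ℚ` inside `ℚ̄`, `F/ℚ` Galois, `p` odd, `U = Gal(ℚ̄/k)`.
Let `a : U × U → ℚ̄ˣ` be a 2-cocycle of level `F` with values in `F`, killed by a power of `p`.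
If for every prime `q` and every `g ∈ Γ` the cocycle is locally trivial at some element
`u * g * ι y₀` of the double coset `U g ι(G_q)` (`hpbQTriv`), then `a` is the coboundary of a
level-`F` cochain `c : U → Fˣ`. -/
theorem zf_hpb_qbar (p : ℕ) [Fact p.Prime] (hp2 : p ≠ 2) (k F : IntermediateField ℚ Qb)
    [FiniteDimensional ℚ F] [IsGalois ℚ F] (hkF : k ≤ F)
    (a : k.fixingSubgroup × k.fixingSubgroup → Qbˣ)
    (hcoc : ∀ u₁ u₂ u₃ : k.fixingSubgroup,
      a (u₁ * u₂, u₃) * a (u₁, u₂) = (u₁ : Γ) • a (u₂, u₃) * a (u₁, u₂ * u₃))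
    (hlevF : ∀ u₁ u₂ n₁ n₂ : k.fixingSubgroup, (n₁ : Γ) ∈ F.fixingSubgroup →
      (n₂ : Γ) ∈ F.fixingSubgroup → a (u₁ * n₁, u₂ * n₂) = a (u₁, u₂))
    (hval : ∀ u₁ u₂ : k.fixingSubgroup, ((a (u₁, u₂) : Qbˣ) : Qb) ∈ F)
    (htors : ∃ m : ℕ, ∀ u₁ u₂ : k.fixingSubgroup, a (u₁, u₂) ^ p ^ m = 1)
    (hloc : ∀ (q : ℕ) [Fact q.Prime] (g : Γ), ∃ (u : k.fixingSubgroup)
      (y₀ : PadicAlgCl q ≃ₐ[ℚ_[q]] PadicAlgCl q),
      hpbQTriv k q a ((u : Γ) * g * localGaloisToGlobal q y₀)) :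
    ∃ c : k.fixingSubgroup → Qbˣ, (∀ u, ((c u : Qbˣ) : Qb) ∈ F) ∧
      (∀ u n : k.fixingSubgroup, (n : Γ) ∈ F.fixingSubgroup → c (u * n) = c u) ∧
      ∀ u₁ u₂ : k.fixingSubgroup, a (u₁, u₂) = (u₁ : Γ) • c u₂ / c (u₁ * u₂) * c u₁ := by
  haveI : NumberField F := { to_charZero := inferInstance, to_finiteDimensional := inferInstance }
  obtain ⟨m, hm⟩ := htors
  have hx := hpbQx_cocycle k F a hval hlevF hcoc
  have hp : ∃ m : ℕ, IsMulCoboundary₂ (fun g => hpbQx k F a hval g ^ p ^ m) := by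
    refine ⟨m, fun _ => 1, fun h₁ h₂ => ?_⟩
    rw [smul_one, div_one, mul_one]
    symm
    apply Units.ext
    apply Subtype.ext
    show (((hpbQx k F a hval (h₁, h₂) : (↥F)ˣ) : ↥F) : Qb) ^ p ^ m = 1
    rw [hpbQx_coe, ← Units.val_pow_eq_pow_val, hm]
    rfl
  have hlocx : ∀ (q : ℕ) [Fact q.Prime] (τ : ↥F →+* PadicAlgCl q),
      hpbLocTriv (hpbQK k F) τ (hpbQx k F a hval) := by
    intro q _ τ
    obtain ⟨g, rfl⟩ := hpbQ_exists_tau q F τ
    obtain ⟨u, y₀, ht⟩ := hloc q g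
    have h1 := hpbQTriv_mul_right k q a _ y₀⁻¹ ht
    rw [map_inv, mul_inv_cancel_right] at h1
    have h2 := hpbQTriv_mul_left k q F a hcoc hlevF u⁻¹ _ h1
    rw [show ((u⁻¹ : k.fixingSubgroup) : Γ) * ((u : Γ) * g) = g by simp] at h2
    exact hpbQ_locTriv k F a hval hlevF hcoc hkF q g h2
  obtain ⟨c', hc'⟩ := zf_hpb_main p hp2 (K := ↥(hpbQK k F)) (L := ↥F) (hpbQx k F a hval) hx hp
    hlocx
  refine ⟨fun u => Units.map (algebraMap F Qb : F →* Qb) (c' (hpbQres k F u)),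
    fun u => (c' (hpbQres k F u) : F).2, ?_, ?_⟩
  · intro u n hn
    have h1 : hpbQres k F (u * n) = hpbQres k F u :=
      hpbQRel.unique (hpbQres_rel k F (u * n)) (fun x => by
        rw [hpbQres_rel k F u x]
        show (u : Γ) x = (u : Γ) ((n : Γ) x)
        rw [(IntermediateField.mem_fixingSubgroup_iff F _).1 hn x x.2])
    show Units.map _ (c' (hpbQres k F (u * n))) = _
    rw [h1]
  · intro u₁ u₂
    apply Units.ext
    have h1 := hc' (hpbQres k F u₁) (hpbQres k F u₂)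
    have h2 := congrArg (fun m : (↥F)ˣ => ((m : ↥F) : Qb)) h1
    beta_reduce at h2
    rw [hpbQx_rel k F a hval hlevF _ _ (hpbQres_rel k F u₁) (hpbQres_rel k F u₂)] at h2
    rw [← h2]
    have key : ∀ (X Y Z : (↥F)ˣ), (((hpbQres k F u₁ • X / Y * Z : (↥F)ˣ) : ↥F) : Qb) =
        (((u₁ : Γ) • Units.map (algebraMap F Qb : F →* Qb) X /
          Units.map (algebraMap F Qb : F →* Qb) Y *
          Units.map (algebraMap F Qb : F →* Qb) Z : Qbˣ) : Qb) := by
      intro X Y Z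
      have e1 : ((hpbQres k F u₁ • X : (↥F)ˣ) : ↥F) = hpbQres k F u₁ (X : ↥F) := rfl
      have e2 : (((u₁ : Γ) • Units.map (algebraMap F Qb : F →* Qb) X : Qbˣ) : Qb) =
          (u₁ : Γ) ((X : F) : Qb) := rfl
      have e3 : ∀ W : (↥F)ˣ, ((Units.map (algebraMap F Qb : F →* Qb) W : Qbˣ) : Qb) =
          ((W : F) : Qb) := fun W => rfl
      rw [Units.val_mul, Units.val_div_eq_div_val, Units.val_mul, Units.val_div_eq_div_val, e1,
        e2, e3, e3, IntermediateField.coe_mul, IntermediateField.coe_div,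
        hpbQres_rel k F u₁]
    rw [key]
    beta_reduce
    rw [hpbQres_mul]

end Main

end Fermat.Agent.S55
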